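import Mathlib
import Fermat.Prelude.Def_FLTPrelim_Ramification
import Fermat.Prelude.Def_EllipticCurve_FrobeniusTrace
import Fermat.Agent.S54.Frobenius

set_option autoImplicit false

/-!
# S37: basic facts on decomposition groups, inertia groups and Frobenius elements

For a valuation subring `A` of `L` (and a subfield `K`), in terms of the frozen definitions
`ValuationSubring.inertiaSubgroupIn` and `ValuationSubring.IsFrobeniusAt`:

* two Frobenius elements differ by an element of the inertia group;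
* the decomposition group normalises the inertia group and permutes the Frobenius elements;
* for `L = AlgebraicClosure ℚ`, `K = ℚ`: every valuation subring over a prime `ℓ` has a Frobenius
  element.
-/

namespace Fermat.Agent.S37

section General

variable {K L : Type*} [Field K] [Field L] [Algebra K L] {A : ValuationSubring L}

/-- Membership in the inertia group: an element of the decomposition group acting trivially on
the residue field. -/
theorem mem_inertiaSubgroupIn_iff {σ : L ≃ₐ[K] L} :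
    σ ∈ A.inertiaSubgroupIn K ↔ ∃ h : σ ∈ A.decompositionSubgroup K,
      ∀ x : IsLocalRing.ResidueField A, (⟨σ, h⟩ : A.decompositionSubgroup K) • x = x := by
  unfold ValuationSubring.inertiaSubgroupIn
  rw [Subgroup.mem_map]
  constructor
  · rintro ⟨⟨τ, hτ⟩, hmem, rfl⟩
    refine ⟨hτ, fun x => ?_⟩
    have h1 : (MulSemiringAction.toRingAut (A.decompositionSubgroup K)
        (IsLocalRing.ResidueField A)) ⟨τ, hτ⟩ = 1 := hmem
    exact congrArg (fun f => f x) h1
  · rintro ⟨h, hx⟩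
    refine ⟨⟨σ, h⟩, ?_, rfl⟩
    show (MulSemiringAction.toRingAut (A.decompositionSubgroup K)
        (IsLocalRing.ResidueField A)) ⟨σ, h⟩ = 1
    ext y
    exact hx y

/-- The inertia group is contained in the decomposition group. -/
theorem inertiaSubgroupIn_le_decomposition :
    A.inertiaSubgroupIn K ≤ A.decompositionSubgroup K := by
  intro σ hσ
  exact (mem_inertiaSubgroupIn_iff.mp hσ).1

/-- Two Frobenius elements at `A` differ by an element of the inertia group. -/
theorem inv_mul_mem_inertiaSubgroupIn {σ σ' : L ≃ₐ[K] L} {q : ℕ}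
    (h : A.IsFrobeniusAt σ q) (h' : A.IsFrobeniusAt σ' q) :
    σ⁻¹ * σ' ∈ A.inertiaSubgroupIn K := by
  obtain ⟨h, hx⟩ := h
  obtain ⟨h', hx'⟩ := h'
  rw [mem_inertiaSubgroupIn_iff]
  refine ⟨(A.decompositionSubgroup K).mul_mem ((A.decompositionSubgroup K).inv_mem h) h',
    fun y => ?_⟩
  show ((⟨σ, h⟩ : A.decompositionSubgroup K)⁻¹ * ⟨σ', h'⟩) • y = y
  rw [mul_smul, hx' y, ← hx y, inv_smul_smul]

/-- The decomposition group normalises the inertia group. -/
theorem conj_mem_inertiaSubgroupIn {σ τ : L ≃ₐ[K] L}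
    (hσ : σ ∈ A.decompositionSubgroup K) (hτ : τ ∈ A.inertiaSubgroupIn K) :
    σ * τ * σ⁻¹ ∈ A.inertiaSubgroupIn K := by
  obtain ⟨h, hx⟩ := mem_inertiaSubgroupIn_iff.mp hτ
  rw [mem_inertiaSubgroupIn_iff]
  refine ⟨(A.decompositionSubgroup K).mul_mem ((A.decompositionSubgroup K).mul_mem hσ h)
    ((A.decompositionSubgroup K).inv_mem hσ), fun y => ?_⟩
  show ((⟨σ, hσ⟩ : A.decompositionSubgroup K) * ⟨τ, h⟩ *
    (⟨σ, hσ⟩ : A.decompositionSubgroup K)⁻¹) • y = y
  rw [mul_smul, mul_smul, hx, smul_inv_smul]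

/-- A conjugate of a Frobenius element by an element of the decomposition group is a Frobenius
element. -/
theorem isFrobeniusAt_conj {σ σ₀ : L ≃ₐ[K] L} {q : ℕ} (h : A.IsFrobeniusAt σ q)
    (h₀ : σ₀ ∈ A.decompositionSubgroup K) : A.IsFrobeniusAt (σ₀ * σ * σ₀⁻¹) q := by
  obtain ⟨h, hx⟩ := h
  refine ⟨(A.decompositionSubgroup K).mul_mem ((A.decompositionSubgroup K).mul_mem h₀ h)
    ((A.decompositionSubgroup K).inv_mem h₀), fun y => ?_⟩
  show ((⟨σ₀, h₀⟩ : A.decompositionSubgroup K) * ⟨σ, h⟩ *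
    (⟨σ₀, h₀⟩ : A.decompositionSubgroup K)⁻¹) • y = y ^ q
  rw [mul_smul, mul_smul, hx, smul_pow', smul_inv_smul]

/-- A Frobenius element times an element of the inertia group is a Frobenius element. -/
theorem isFrobeniusAt_mul_inertia {σ τ : L ≃ₐ[K] L} {q : ℕ} (h : A.IsFrobeniusAt σ q)
    (hτ : τ ∈ A.inertiaSubgroupIn K) : A.IsFrobeniusAt (σ * τ) q := by
  obtain ⟨h, hx⟩ := h
  obtain ⟨h', hx'⟩ := mem_inertiaSubgroupIn_iff.mp hτ
  refine ⟨(A.decompositionSubgroup K).mul_mem h h', fun y => ?_⟩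
  show ((⟨σ, h⟩ : A.decompositionSubgroup K) * ⟨τ, h'⟩) • y = y ^ q
  rw [mul_smul, hx', hx]

end General

section Qbar

open Fermat.Agent.S54

open scoped Pointwise

local notation "Ω" => AlgebraicClosure ℚ
local notation "Γ" => (AlgebraicClosure ℚ ≃ₐ[ℚ] AlgebraicClosure ℚ)

/-- Every valuation subring of `ℚ̄` over a prime `ℓ` has a Frobenius element. -/
theorem exists_isFrobeniusAt_of_liesOver (A : ValuationSubring (AlgebraicClosure ℚ)) (ℓ : ℕ)
    (hℓ : ℓ.Prime) (hA : A.LiesOverPrime ℓ) :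
    ∃ σ : AlgebraicClosure ℚ ≃ₐ[ℚ] AlgebraicClosure ℚ, A.IsFrobeniusAt σ ℓ := by
  classical
  have hℓV : (ℓ : Ω) ∈ A.nonunits := hA
  obtain ⟨σ, hσ⟩ := exists_frobenius_on_integers A ℓ hℓ hℓV
  have hB1 : ∀ b : Ω, IsIntegral ℤ b → A.valuation b ≤ 1 := fun b hb =>
    (A.valuation_le_one_iff _).mpr (mem_of_isIntegral_int A hb)
  have hσint : ∀ b : Ω, IsIntegral ℤ b → IsIntegral ℤ (σ b) := fun b hb => hb.map σ
  have hσint' : ∀ b : Ω, IsIntegral ℤ b → IsIntegral ℤ (σ.symm b) := fun b hb => hb.map σ.symm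
  have hunit : ∀ b : Ω, IsIntegral ℤ b → A.valuation b = 1 → A.valuation (σ b) = 1 := by
    intro b hb hb1
    refine le_antisymm (hB1 _ (hσint b hb)) (not_lt.mp fun hlt => ?_)
    have h1 : A.valuation (b ^ ℓ) < 1 := by
      have : b ^ ℓ = σ b - (σ b - b ^ ℓ) := by ring
      rw [this]
      exact lt_of_le_of_lt (A.valuation.map_sub _ _) (max_lt hlt (hσ b hb))
    rw [map_pow, hb1, one_pow] at h1
    exact lt_irrefl _ h1
  have hunit' : ∀ b : Ω, IsIntegral ℤ b → A.valuation b = 1 → A.valuation (σ.symm b) = 1 := by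
    intro b hb hb1
    refine le_antisymm (hB1 _ (hσint' b hb)) (not_lt.mp fun hlt => ?_)
    have h1 : A.valuation (σ (σ.symm b)) < 1 := by
      have : σ (σ.symm b) = (σ (σ.symm b) - (σ.symm b) ^ ℓ) + (σ.symm b) ^ ℓ := by ring
      rw [this]
      refine lt_of_le_of_lt (A.valuation.map_add _ _) (max_lt (hσ _ (hσint' b hb)) ?_)
      rw [map_pow]
      exact pow_lt_one' hlt hℓ.ne_zero
    rw [AlgEquiv.apply_symm_apply, hb1] at h1
    exact lt_irrefl _ h1
  have hmem : ∀ x : Ω, x ∈ A → σ x ∈ A := by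
    intro x hx
    obtain ⟨b, s, hb, hs, hs1, hxs⟩ := exists_integral_frac A hℓ hℓV x (isAlgebraic_int x) hx
    have h1 : A.valuation (σ x) * A.valuation (σ s) = A.valuation (σ b) := by
      rw [← map_mul, ← map_mul, hxs]
    rw [hunit s hs hs1, mul_one] at h1
    rw [← A.valuation_le_one_iff, h1]
    exact hB1 _ (hσint b hb)
  have hmem' : ∀ x : Ω, x ∈ A → σ.symm x ∈ A := by
    intro x hx
    obtain ⟨b, s, hb, hs, hs1, hxs⟩ := exists_integral_frac A hℓ hℓV x (isAlgebraic_int x) hx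
    have h1 : A.valuation (σ.symm x) * A.valuation (σ.symm s) = A.valuation (σ.symm b) := by
      rw [← map_mul, ← map_mul, hxs]
    rw [hunit' s hs hs1, mul_one] at h1
    rw [← A.valuation_le_one_iff, h1]
    exact hB1 _ (hσint' b hb)
  have hσV : σ ∈ A.decompositionSubgroup ℚ := by
    rw [MulAction.mem_stabilizer_iff]
    ext x
    rw [ValuationSubring.mem_pointwise_smul_iff_inv_smul_mem]
    constructor
    · intro h
      have := hmem _ h
      rwa [AlgEquiv.smul_def, AlgEquiv.aut_inv, AlgEquiv.apply_symm_apply] at this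
    · intro h
      exact hmem' x h
  refine ⟨σ, hσV, ?_⟩
  intro y
  obtain ⟨x, rfl⟩ := IsLocalRing.residue_surjective y
  rw [← IsLocalRing.ResidueField.residue_smul, ← map_pow, ← sub_eq_zero, ← map_sub,
    IsLocalRing.residue_eq_zero_iff, A.valuation_lt_one_iff]
  obtain ⟨b, s, hb, hs, hs1, hxs⟩ :=
    exists_integral_frac A hℓ hℓV (x : Ω) (isAlgebraic_int _) x.2
  show A.valuation (σ (x : Ω) - (x : Ω) ^ ℓ) < 1
  have hden : A.valuation (σ s * s ^ ℓ) = 1 := by
    rw [map_mul, map_pow, hunit s hs hs1, hs1, one_pow, one_mul]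
  have hkey : (σ (x : Ω) - (x : Ω) ^ ℓ) * (σ s * s ^ ℓ) =
      (σ b - b ^ ℓ) * s ^ ℓ - b ^ ℓ * (σ s - s ^ ℓ) := by
    rw [← hxs, map_mul]; ring
  have hnum : A.valuation ((σ b - b ^ ℓ) * s ^ ℓ - b ^ ℓ * (σ s - s ^ ℓ)) < 1 := by
    refine lt_of_le_of_lt (A.valuation.map_sub _ _) (max_lt ?_ ?_)
    · rw [map_mul, map_pow, hs1, one_pow, mul_one]
      exact hσ b hb
    · rw [map_mul]
      exact lt_of_le_of_lt (mul_le_of_le_one_left' ((hB1 _ (hb.pow ℓ)))) (hσ s hs)
  rw [← hkey, map_mul, hden, mul_one] at hnum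
  exact hnum

end Qbar

end Fermat.Agent.S37
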