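import Fermat.Prelude.Def_ModularCurve_ArithmeticGalois

/-!
P12 (S37), [KR]/(INT) shared definition: the chart ring `A[t][u]` inside the function field of
`X₀(N)` over `ℚ̄`, i.e. the subring generated by the constants of a valuation ring `A ⊂ ℚ̄`
and two elements `t`, `u` (used with `t = j`, `u = 1` and `t = 1/j`, `u = 1/s(1/j)`).
-/

set_option autoImplicit false

namespace Fermat.Agent.S37

open ModularCurve

variable (A : ValuationSubring (AlgebraicClosure ℚ)) (N : ℕ)

/-- The chart ring `A[t][u] ⊂ F_L`: the subring generated by the constants of `A`, `t` and `u`. -/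
noncomputable def chartRing (t u : ↥(modularFunctionFieldBar N)) :
    Subring ↥(modularFunctionFieldBar N) :=
  Subring.closure ((fun a : AlgebraicClosure ℚ =>
    algebraMap (AlgebraicClosure ℚ) ↥(modularFunctionFieldBar N) a) ''
      (A : Set (AlgebraicClosure ℚ)) ∪ {t, u})

variable {A N}

theorem algebraMap_mem_chartRing (t u : ↥(modularFunctionFieldBar N)) {a : AlgebraicClosure ℚ}
    (ha : a ∈ A) :
    algebraMap (AlgebraicClosure ℚ) ↥(modularFunctionFieldBar N) a ∈ chartRing A N t u :=
  Subring.subset_closure (Or.inl ⟨a, ha, rfl⟩)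

theorem left_mem_chartRing (t u : ↥(modularFunctionFieldBar N)) : t ∈ chartRing A N t u :=
  Subring.subset_closure (Or.inr (Set.mem_insert t {u}))

theorem right_mem_chartRing (t u : ↥(modularFunctionFieldBar N)) : u ∈ chartRing A N t u :=
  Subring.subset_closure (Or.inr (Set.mem_insert_of_mem t rfl))

/-- The chart ring is contained in every subring containing the constants of `A`, `t` and `u`. -/
theorem chartRing_le {t u : ↥(modularFunctionFieldBar N)}
    {S : Subring ↥(modularFunctionFieldBar N)}
    (hA : ∀ a ∈ A, algebraMap (AlgebraicClosure ℚ) ↥(modularFunctionFieldBar N) a ∈ S)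
    (ht : t ∈ S) (hu : u ∈ S) : chartRing A N t u ≤ S := by
  refine Subring.closure_le.mpr ?_
  rintro x (⟨a, ha, rfl⟩ | hx)
  · exact hA a ha
  · rcases hx with rfl | hx
    · exact ht
    · rw [Set.mem_singleton_iff] at hx
      rw [hx]
      exact hu

/-- Polynomials in `t` with coefficients in `A` lie in the chart ring. -/
theorem aeval_mem_chartRing (t u : ↥(modularFunctionFieldBar N))
    (s : Polynomial (AlgebraicClosure ℚ)) (hs : ∀ i, s.coeff i ∈ A) :
    Polynomial.aeval t s ∈ chartRing A N t u := by
  rw [Polynomial.aeval_eq_sum_range]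
  refine Subring.sum_mem _ fun i _ => ?_
  rw [Algebra.smul_def]
  exact Subring.mul_mem _ (algebraMap_mem_chartRing t u (hs i))
    (Subring.pow_mem _ (left_mem_chartRing t u) i)

end Fermat.Agent.S37
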