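import Fermat.Agent.S37.RedPt

/-!
P12 / S37, module [RP] (2/2): the reduced Picard group and the reduction map `ρ`.

For a valuation ring `A` of `ℚ̄` over `ℓ`:

* `RedDiv N ℓ A := RedPt N ℓ A →₀ ℤ`, `redDiv hA : Div(F_L) →+ RedDiv` (push-forward along
  `redPt`);
* `RedPic N ℓ A hA := RedDiv ⧸ redDiv (principal divisors)`, `RedPic.mk`, and
  `redPic hA : JZero N →+ RedPic` (`redPic_mk : redPic (Pic0.mk D) = RedPic.mk (redDiv D)`);
* `PhiRed`, `VRed : RedPic →+ RedPic` induced by `frobPt_*`, `ℓ • (frobPt⁻¹)_*`, with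
  `VRed (PhiRed y) = ℓ • y`;
* (i) `redPic_smul_of_mem_inertia`, (ii) `redPic_smul_of_isFrobeniusAt`.
-/

set_option autoImplicit false
set_option linter.unusedSectionVars false

namespace Fermat.Agent.S37

open AlgebraicCurve ModularCurve ModularCurve.IgusaScheme

section RedDiv

variable (N : ℕ) [NeZero N] (ℓ : ℕ) [Fact ℓ.Prime] (A : ValuationSubring (AlgebraicClosure ℚ))
variable (hA : A.LiesOverPrime ℓ)

/-- Reduced divisors: finitely supported integer combinations of reduced points. -/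
abbrev RedDiv : Type := RedPt N ℓ A →₀ ℤ

/-- The reduction of divisors: push-forward along `redPt`. -/
noncomputable def redDiv :
    Divisor (AlgebraicClosure ℚ) (modularFunctionFieldBar N) →+ RedDiv N ℓ A :=
  Finsupp.mapDomain.addMonoidHom (redPt N ℓ A hA)

variable {N ℓ A}

theorem redDiv_apply (D : Divisor (AlgebraicClosure ℚ) (modularFunctionFieldBar N)) :
    redDiv N ℓ A hA D = Finsupp.mapDomain (redPt N ℓ A hA) D :=
  rfl

@[simp]
theorem redDiv_single (P : Place (AlgebraicClosure ℚ) (modularFunctionFieldBar N)) (n : ℤ) :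
    redDiv N ℓ A hA (Finsupp.single P n) = Finsupp.single (redPt N ℓ A hA P) n :=
  Finsupp.mapDomain_single

/-- Galois equivariance of the reduction of divisors (decomposition group). -/
theorem redDiv_smul {σ : AlgebraicClosure ℚ ≃ₐ[ℚ] AlgebraicClosure ℚ}
    (hσ : σ ∈ A.decompositionSubgroup ℚ)
    (D : Divisor (AlgebraicClosure ℚ) (modularFunctionFieldBar N)) :
    redDiv N ℓ A hA (arithmeticGalois (modularFunctionFieldFull N) σ • D) =
      Finsupp.mapDomain (RedPt.map (MulSemiringAction.toRingHom (A.decompositionSubgroup ℚ)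
        (IsLocalRing.ResidueField A) ⟨σ, hσ⟩)) (redDiv N ℓ A hA D) := by
  rw [redDiv_apply, redDiv_apply, SemilinearAut.divisor_smul_def, ← Finsupp.mapDomain_comp,
    ← Finsupp.mapDomain_comp]
  congr 1
  funext P
  exact redPt_smul hA hσ P

/-- (i) on divisors. -/
theorem redDiv_smul_of_mem_inertia {τ : AlgebraicClosure ℚ ≃ₐ[ℚ] AlgebraicClosure ℚ}
    (hτ : τ ∈ A.inertiaSubgroupIn ℚ)
    (D : Divisor (AlgebraicClosure ℚ) (modularFunctionFieldBar N)) :
    redDiv N ℓ A hA (arithmeticGalois (modularFunctionFieldFull N) τ • D) = redDiv N ℓ A hA D := by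
  rw [redDiv_apply, redDiv_apply, SemilinearAut.divisor_smul_def, ← Finsupp.mapDomain_comp]
  congr 1
  funext P
  exact redPt_smul_of_mem_inertia hA hτ P

/-- (ii) on divisors. -/
theorem redDiv_smul_of_isFrobeniusAt {σ : AlgebraicClosure ℚ ≃ₐ[ℚ] AlgebraicClosure ℚ}
    (hσ : A.IsFrobeniusAt σ ℓ)
    (D : Divisor (AlgebraicClosure ℚ) (modularFunctionFieldBar N)) :
    redDiv N ℓ A hA (arithmeticGalois (modularFunctionFieldFull N) σ • D) =
      Finsupp.mapDomain (frobPt N ℓ A hA) (redDiv N ℓ A hA D) := by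
  rw [redDiv_apply, redDiv_apply, SemilinearAut.divisor_smul_def, ← Finsupp.mapDomain_comp,
    ← Finsupp.mapDomain_comp]
  congr 1
  funext P
  exact redPt_smul_of_isFrobeniusAt hA hσ P

/-- (ii) on divisors, for the inverse of a Frobenius element. -/
theorem redDiv_inv_smul_of_isFrobeniusAt {σ : AlgebraicClosure ℚ ≃ₐ[ℚ] AlgebraicClosure ℚ}
    (hσ : A.IsFrobeniusAt σ ℓ)
    (D : Divisor (AlgebraicClosure ℚ) (modularFunctionFieldBar N)) :
    redDiv N ℓ A hA ((arithmeticGalois (modularFunctionFieldFull N) σ)⁻¹ • D) =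
      Finsupp.mapDomain (frobPt N ℓ A hA).symm (redDiv N ℓ A hA D) := by
  have h := redDiv_smul_of_isFrobeniusAt hA hσ
    ((arithmeticGalois (modularFunctionFieldFull N) σ)⁻¹ • D)
  rw [smul_inv_smul] at h
  rw [h, ← Finsupp.mapDomain_comp]
  have h2 : (⇑(frobPt N ℓ A hA).symm ∘ ⇑(frobPt N ℓ A hA)) = id :=
    funext fun x => (frobPt N ℓ A hA).symm_apply_apply x
  rw [h2, Finsupp.mapDomain_id]

end RedDiv

section RedPic

variable (N : ℕ) [NeZero N] (ℓ : ℕ) [Fact ℓ.Prime] (A : ValuationSubring (AlgebraicClosure ℚ))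
variable (hA : A.LiesOverPrime ℓ)

/-- The reductions of the principal divisors. -/
noncomputable def redPrin : AddSubgroup (RedDiv N ℓ A) :=
  (Divisor.principal (K := AlgebraicClosure ℚ) (F := modularFunctionFieldBar N)).map
    (redDiv N ℓ A hA)

/-- **The reduced Picard group**: reduced divisors modulo reductions of principal divisors. -/
abbrev RedPic : Type := RedDiv N ℓ A ⧸ redPrin N ℓ A hA

/-- The class of a reduced divisor. -/
noncomputable def RedPic.mk : RedDiv N ℓ A →+ RedPic N ℓ A hA :=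
  QuotientAddGroup.mk' (redPrin N ℓ A hA)

variable {N ℓ A}

theorem RedPic.mk_surjective : Function.Surjective (RedPic.mk N ℓ A hA) :=
  QuotientAddGroup.mk_surjective

theorem RedPic.mk_eq_zero_iff (d : RedDiv N ℓ A) :
    RedPic.mk N ℓ A hA d = 0 ↔ d ∈ redPrin N ℓ A hA :=
  QuotientAddGroup.eq_zero_iff d

theorem RedPic.mk_redDiv_of_mem_principal
    {D : Divisor (AlgebraicClosure ℚ) (modularFunctionFieldBar N)}
    (hD : D ∈ Divisor.principal (K := AlgebraicClosure ℚ) (F := modularFunctionFieldBar N)) :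
    RedPic.mk N ℓ A hA (redDiv N ℓ A hA D) = 0 :=
  (RedPic.mk_eq_zero_iff hA _).mpr ⟨D, hD, rfl⟩

variable (N ℓ A)

/-- **The reduction map** `ρ : J₀(N) → RedPic`, `[D] ↦ [redDiv D]`. -/
noncomputable def redPic : JZero N →+ RedPic N ℓ A hA :=
  QuotientAddGroup.lift _
    ((RedPic.mk N ℓ A hA).comp ((redDiv N ℓ A hA).comp
      (Divisor.degZero (K := AlgebraicClosure ℚ) (F := modularFunctionFieldBar N)).subtype))
    (by
      rintro ⟨D, hD0⟩ hD
      exact RedPic.mk_redDiv_of_mem_principal hA (AddSubgroup.mem_addSubgroupOf.mp hD))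

variable {N ℓ A}

@[simp]
theorem redPic_mk
    (D : Divisor.degZero (K := AlgebraicClosure ℚ) (F := modularFunctionFieldBar N)) :
    redPic N ℓ A hA (Pic0.mk D) = RedPic.mk N ℓ A hA (redDiv N ℓ A hA (D : Divisor _ _)) :=
  rfl

theorem redPic_mk' (D : Divisor.degZero (K := AlgebraicClosure ℚ) (F := modularFunctionFieldBar N)) :
    redPic N ℓ A hA (Pic0.mk D) =
      RedPic.mk N ℓ A hA (Finsupp.mapDomain (redPt N ℓ A hA) (D : Divisor _ _)) :=
  rfl

/-- `frobPt_*` preserves reductions of principal divisors. -/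
theorem mapDomain_frobPt_mem_redPrin {d : RedDiv N ℓ A} (hd : d ∈ redPrin N ℓ A hA) :
    Finsupp.mapDomain (frobPt N ℓ A hA) d ∈ redPrin N ℓ A hA := by
  obtain ⟨σ, hσ⟩ := exists_isFrobeniusAt_of_liesOver A ℓ Fact.out hA
  obtain ⟨D, hD, rfl⟩ := hd
  exact ⟨arithmeticGalois (modularFunctionFieldFull N) σ • D,
    SemilinearAut.smul_mem_principal _ hD, redDiv_smul_of_isFrobeniusAt hA hσ D⟩

/-- `(frobPt⁻¹)_*` preserves reductions of principal divisors. -/
theorem mapDomain_frobPt_symm_mem_redPrin {d : RedDiv N ℓ A} (hd : d ∈ redPrin N ℓ A hA) :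
    Finsupp.mapDomain (frobPt N ℓ A hA).symm d ∈ redPrin N ℓ A hA := by
  obtain ⟨σ, hσ⟩ := exists_isFrobeniusAt_of_liesOver A ℓ Fact.out hA
  obtain ⟨D, hD, rfl⟩ := hd
  exact ⟨(arithmeticGalois (modularFunctionFieldFull N) σ)⁻¹ • D,
    SemilinearAut.smul_mem_principal _ hD, redDiv_inv_smul_of_isFrobeniusAt hA hσ D⟩

variable (N ℓ A)

/-- **Frobenius** on the reduced Picard group: induced by `frobPt_*`. -/
noncomputable def PhiRed : RedPic N ℓ A hA →+ RedPic N ℓ A hA :=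
  QuotientAddGroup.map _ _ (Finsupp.mapDomain.addMonoidHom (frobPt N ℓ A hA))
    (fun _ hd => mapDomain_frobPt_mem_redPrin hA hd)

/-- **Verschiebung** on the reduced Picard group: induced by `ℓ • (frobPt⁻¹)_*`. -/
noncomputable def VRed : RedPic N ℓ A hA →+ RedPic N ℓ A hA :=
  QuotientAddGroup.map _ _ (ℓ • Finsupp.mapDomain.addMonoidHom (frobPt N ℓ A hA).symm)
    (fun _ hd => (redPrin N ℓ A hA).nsmul_mem (mapDomain_frobPt_symm_mem_redPrin hA hd) ℓ)

variable {N ℓ A}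

@[simp]
theorem PhiRed_mk (d : RedDiv N ℓ A) :
    PhiRed N ℓ A hA (RedPic.mk N ℓ A hA d) =
      RedPic.mk N ℓ A hA (Finsupp.mapDomain (frobPt N ℓ A hA) d) :=
  rfl

@[simp]
theorem VRed_mk (d : RedDiv N ℓ A) :
    VRed N ℓ A hA (RedPic.mk N ℓ A hA d) =
      RedPic.mk N ℓ A hA (ℓ • Finsupp.mapDomain (frobPt N ℓ A hA).symm d) :=
  rfl

/-- `V ∘ Φ = ℓ`. -/
theorem VRed_PhiRed (y : RedPic N ℓ A hA) : VRed N ℓ A hA (PhiRed N ℓ A hA y) = ℓ • y := by
  obtain ⟨d, rfl⟩ := RedPic.mk_surjective hA y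
  rw [PhiRed_mk, VRed_mk, ← Finsupp.mapDomain_comp]
  have h2 : (⇑(frobPt N ℓ A hA).symm ∘ ⇑(frobPt N ℓ A hA)) = id :=
    funext fun x => (frobPt N ℓ A hA).symm_apply_apply x
  rw [h2, Finsupp.mapDomain_id, map_nsmul]

/-- `Φ ∘ V = ℓ`. -/
theorem PhiRed_VRed (y : RedPic N ℓ A hA) : PhiRed N ℓ A hA (VRed N ℓ A hA y) = ℓ • y := by
  obtain ⟨d, rfl⟩ := RedPic.mk_surjective hA y
  rw [VRed_mk, PhiRed_mk, Finsupp.mapDomain_smul, ← Finsupp.mapDomain_comp]
  have h2 : (⇑(frobPt N ℓ A hA) ∘ ⇑(frobPt N ℓ A hA).symm) = id :=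
    funext fun x => (frobPt N ℓ A hA).apply_symm_apply x
  rw [h2, Finsupp.mapDomain_id, map_nsmul]

/-- **(i)** `ρ (τ • x) = ρ x` for `τ` in the inertia group of `A`. -/
theorem redPic_smul_of_mem_inertia {τ : AlgebraicClosure ℚ ≃ₐ[ℚ] AlgebraicClosure ℚ}
    (hτ : τ ∈ A.inertiaSubgroupIn ℚ) (x : JZero N) :
    redPic N ℓ A hA (τ • x) = redPic N ℓ A hA x := by
  obtain ⟨D, rfl⟩ := Pic0.mk_surjective x
  rw [galois_smul_pic0_def, SemilinearAut.pic0_smul_mk, redPic_mk, redPic_mk,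
    SemilinearAut.coe_degZeroSMulHom, redDiv_smul_of_mem_inertia hA hτ]

/-- **(ii)** `ρ (σ • x) = Φ (ρ x)` for a Frobenius element `σ` at `A`. -/
theorem redPic_smul_of_isFrobeniusAt {σ : AlgebraicClosure ℚ ≃ₐ[ℚ] AlgebraicClosure ℚ}
    (hσ : A.IsFrobeniusAt σ ℓ) (x : JZero N) :
    redPic N ℓ A hA (σ • x) = PhiRed N ℓ A hA (redPic N ℓ A hA x) := by
  obtain ⟨D, rfl⟩ := Pic0.mk_surjective x
  rw [galois_smul_pic0_def, SemilinearAut.pic0_smul_mk, redPic_mk, redPic_mk,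
    SemilinearAut.coe_degZeroSMulHom, redDiv_smul_of_isFrobeniusAt hA hσ, PhiRed_mk]

end RedPic

end Fermat.Agent.S37
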