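import Fermat.Agent.S37.ESDiv
import Fermat.Agent.S37.RedPic

/-!
# P12 (S37) [ES]: the Eichler–Shimura relation on `RedPic` (clause (iii))

Instantiation of the generic layer `ESDiv` on the reduced points `RedPt N ℓ A` of [RP]:
from "Kronecker at a place" in both charts (`KRFin`, `KRInf`) to

* `pointwise_of_KR` : `∑_{W | v along β} e_β(W) • [redPt (W|α)] = [frobPt (redPt v)]
    + ℓ • [frobPt⁻¹ (redPt v)]`;
* `redDiv_heckeDiv_of_KR` : the relation on reduced divisors;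
* `redPic_heckeOperatorBar_of_KR` : `ρ (T_ℓ x) = Φ (ρ x) + V (ρ x)` on `J₀(N)`.
-/

set_option autoImplicit false

noncomputable section

namespace Fermat.Agent.S37

open AlgebraicCurve ModularCurve ModularCurve.IgusaScheme Polynomial

section ESRed

variable {N : ℕ} [NeZero N] {ℓ : ℕ} [Fact ℓ.Prime] [NeZero ℓ]
  {A : ValuationSubring (AlgebraicClosure ℚ)}

/-- **(KR) at the place `v`, finite chart**: if `redPt v = inl χ`, the reductions of the
restrictions along `α` of the places above `v` along `β` are points `inl (χ' W)` of the same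
chart and satisfy Kronecker's relation for every `f` of the chart algebra. -/
def KRFin (hA : A.LiesOverPrime ℓ)
    (v : Place (AlgebraicClosure ℚ) (modularFunctionFieldBar N)) : Prop :=
  ∀ χ : chartAlgFin N ℓ →+* IsLocalRing.ResidueField A, redPt N ℓ A hA v = Sum.inl χ →
    ∃ χ' : Place (AlgebraicClosure ℚ) (modularFunctionFieldBar (N * ℓ)) →
        (chartAlgFin N ℓ →+* IsLocalRing.ResidueField A),
      (∀ W ∈ Place.fiberAlong (heckeBetaBar (AlgebraicClosure ℚ) N ℓ)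
          (heckeBetaBar_isIntegral N ℓ) v,
        redPt N ℓ A hA (W.restrictAlong (heckeAlphaBar (AlgebraicClosure ℚ) N ℓ)
          (heckeAlphaBar_isIntegral N ℓ)) = Sum.inl (χ' W)) ∧
      ∀ f : chartAlgFin N ℓ,
        ∏ W ∈ Place.fiberAlong (heckeBetaBar (AlgebraicClosure ℚ) N ℓ)
            (heckeBetaBar_isIntegral N ℓ) v,
          (X - C (χ' W f)) ^ (W.ramificationIndexAlong (heckeBetaBar (AlgebraicClosure ℚ) N ℓ))
        = (X ^ ℓ - C (χ f)) * (X - C ((χ f) ^ ℓ))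

/-- **(KR) at the place `v`, chart at infinity.** -/
def KRInf (hA : A.LiesOverPrime ℓ)
    (v : Place (AlgebraicClosure ℚ) (modularFunctionFieldBar N)) : Prop :=
  ∀ χ : {χ : chartAlgInf N ℓ →+* IsLocalRing.ResidueField A // χ (jInvChartInf N ℓ) = 0},
    redPt N ℓ A hA v = Sum.inr χ →
    ∃ χ' : Place (AlgebraicClosure ℚ) (modularFunctionFieldBar (N * ℓ)) →
        {χ : chartAlgInf N ℓ →+* IsLocalRing.ResidueField A // χ (jInvChartInf N ℓ) = 0},
      (∀ W ∈ Place.fiberAlong (heckeBetaBar (AlgebraicClosure ℚ) N ℓ)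
          (heckeBetaBar_isIntegral N ℓ) v,
        redPt N ℓ A hA (W.restrictAlong (heckeAlphaBar (AlgebraicClosure ℚ) N ℓ)
          (heckeAlphaBar_isIntegral N ℓ)) = Sum.inr (χ' W)) ∧
      ∀ f : chartAlgInf N ℓ,
        ∏ W ∈ Place.fiberAlong (heckeBetaBar (AlgebraicClosure ℚ) N ℓ)
            (heckeBetaBar_isIntegral N ℓ) v,
          (X - C ((χ' W).1 f)) ^
            (W.ramificationIndexAlong (heckeBetaBar (AlgebraicClosure ℚ) N ℓ))
        = (X ^ ℓ - C (χ.1 f)) * (X - C ((χ.1 f) ^ ℓ))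

/-- **Pointwise Eichler–Shimura** on reduced points, from (KR) in both charts. -/
theorem pointwise_of_KR (hA : A.LiesOverPrime ℓ)
    (v : Place (AlgebraicClosure ℚ) (modularFunctionFieldBar N))
    (hfin : KRFin hA v) (hinf : KRInf hA v) :
    ∑ W ∈ Place.fiberAlong (heckeBetaBar (AlgebraicClosure ℚ) N ℓ)
        (heckeBetaBar_isIntegral N ℓ) v,
      (W.ramificationIndexAlong (heckeBetaBar (AlgebraicClosure ℚ) N ℓ) : ℤ) •
        Finsupp.single (redPt N ℓ A hA (W.restrictAlong (heckeAlphaBar (AlgebraicClosure ℚ) N ℓ)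
          (heckeAlphaBar_isIntegral N ℓ))) (1 : ℤ)
      = Finsupp.single (frobPt N ℓ A hA (redPt N ℓ A hA v)) 1
        + (ℓ : ℤ) • Finsupp.single ((frobPt N ℓ A hA).symm (redPt N ℓ A hA v)) 1 := by
  have : CharP (IsLocalRing.ResidueField A) ℓ := charP_residueField A Fact.out hA
  rcases hz : redPt N ℓ A hA v with χ | χ
  · obtain ⟨χ', hχ', hKR⟩ := hfin χ hz
    obtain ⟨χp, hχp, hχp'⟩ := exists_frobPt_inl hA χ
    obtain ⟨χm, hχm, hχm'⟩ := exists_frobPt_symm_inl hA χ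
    have h := pointwise_of_kronecker N ℓ (redPt N ℓ A hA) (frobPt N ℓ A hA)
      (frobPt N ℓ A hA).symm (fun χ : chartAlgFin N ℓ →+* IsLocalRing.ResidueField A => χ)
      (fun _ _ h => h) (Sum.inl : _ → RedPt N ℓ A) v χ χp χm hz hχp hχm hχp' hχm' χ' hχ' hKR
    rw [hz] at h
    exact h
  · obtain ⟨χ', hχ', hKR⟩ := hinf χ hz
    obtain ⟨χp, hχp, hχp'⟩ := exists_frobPt_inr hA χ
    obtain ⟨χm, hχm, hχm'⟩ := exists_frobPt_symm_inr hA χ
    have h := pointwise_of_kronecker N ℓ (redPt N ℓ A hA) (frobPt N ℓ A hA)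
      (frobPt N ℓ A hA).symm
      (fun χ : {χ : chartAlgInf N ℓ →+* IsLocalRing.ResidueField A //
        χ (jInvChartInf N ℓ) = 0} => χ.1)
      Subtype.val_injective (Sum.inr : _ → RedPt N ℓ A) v χ χp χm hz hχp hχm hχp' hχm' χ' hχ' hKR
    rw [hz] at h
    exact h

/-- **Eichler–Shimura on reduced divisors.** -/
theorem redDiv_heckeDiv_of_KR (hA : A.LiesOverPrime ℓ)
    (hfin : ∀ v : Place (AlgebraicClosure ℚ) (modularFunctionFieldBar N), KRFin hA v)
    (hinf : ∀ v : Place (AlgebraicClosure ℚ) (modularFunctionFieldBar N), KRInf hA v)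
    (D : Divisor (AlgebraicClosure ℚ) (modularFunctionFieldBar N)) :
    redDiv N ℓ A hA (heckeDiv N ℓ D)
      = Finsupp.mapDomain (frobPt N ℓ A hA) (redDiv N ℓ A hA D)
        + (ℓ : ℤ) • Finsupp.mapDomain (frobPt N ℓ A hA).symm (redDiv N ℓ A hA D) :=
  mapDomain_heckeDiv_of_pointwise N ℓ (redPt N ℓ A hA) (frobPt N ℓ A hA) (frobPt N ℓ A hA).symm
    (fun v => pointwise_of_KR hA v (hfin v) (hinf v)) D

/-- **Clause (iii)**: `ρ (T_ℓ x) = Φ (ρ x) + V (ρ x)` on `J₀(N)`, from (KR) in both charts. -/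
theorem redPic_heckeOperatorBar_of_KR (hA : A.LiesOverPrime ℓ)
    (hfin : ∀ v : Place (AlgebraicClosure ℚ) (modularFunctionFieldBar N), KRFin hA v)
    (hinf : ∀ v : Place (AlgebraicClosure ℚ) (modularFunctionFieldBar N), KRInf hA v)
    (hℓ : ℓ.Prime) (x : JZero N) :
    redPic N ℓ A hA (heckeOperatorBar N ⟨ℓ, hℓ⟩ x)
      = PhiRed N ℓ A hA (redPic N ℓ A hA x) + VRed N ℓ A hA (redPic N ℓ A hA x) :=
  hecke_relation_of_presentation N ℓ (redPt N ℓ A hA) (frobPt N ℓ A hA) (frobPt N ℓ A hA).symm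
    (fun v => pointwise_of_KR hA v (hfin v) (hinf v)) (redPic N ℓ A hA) (PhiRed N ℓ A hA)
    (VRed N ℓ A hA) (RedPic.mk N ℓ A hA) (fun D => redPic_mk' hA D) (fun E => PhiRed_mk hA E)
    (fun E => by rw [VRed_mk hA E, natCast_zsmul]) hℓ x

end ESRed

end Fermat.Agent.S37
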