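import Mathlib
import Fermat.Prelude.Def_ModularCurve_ArithmeticGalois
import Fermat.Agent.S18.GaussLFull
import Fermat.Agent.S18.Descent
import Fermat.Agent.S18.NumField
import Fermat.Agent.S18.StepA

/-!
P12 (S37) module [GA], definitions: the Gauss valuation ring `gaussA A N` of the function field
`F_L = modularFunctionFieldBar N ⊆ ℚ̄((q))` over a valuation ring `A` of `ℚ̄`, and its reduction
map `redA A N : gaussA A N →+* k((q))`, `k` the residue field of `A`.

These are the specialisations of `S18/GaussLVal` (`gaussV`, `gaussRed`) to `Λ = A` (a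
non-discrete valuation ring); the basic API is inherited.  The transport lemmas
`toFL_mem_gaussA` / `redA_toFL` relate them to the Gauss rings over the discrete valuation rings
`Λ_K = A ∩ K` of number fields `K`, where the full theory of `S18/GaussLFull` is available.
-/

set_option autoImplicit false

namespace Fermat.Agent.S37

open ModularCurve Fermat.Agent.S18

noncomputable section

section Defs

variable (A : ValuationSubring (AlgebraicClosure ℚ)) (N : ℕ)

/-- The residue map of `A`, with source the underlying subring. -/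
def resA : ↥A.toSubring →+* IsLocalRing.ResidueField ↥A := IsLocalRing.residue ↥A

/-- The Gauss valuation ring of `F_L` over `A`. -/
def gaussA : Subring ↥(modularFunctionFieldBar N) :=
  (GaussL.gaussV A.toSubring (resA A) (modularFunctionFieldBar N)).toSubring

variable {A N} in
theorem mem_gaussA_iff {z : ↥(modularFunctionFieldBar N)} :
    z ∈ gaussA A N ↔ ∃ a b : LaurentSeries ↥A, coeffMap (IsLocalRing.residue ↥A) b ≠ 0 ∧
      (z : LaurentSeries (AlgebraicClosure ℚ)) * coeffMap A.subtype b = coeffMap A.subtype a :=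
  Iff.rfl

/-- Reduction on the Gauss valuation ring. -/
def redA : ↥(gaussA A N) →+* LaurentSeries (IsLocalRing.ResidueField ↥A) :=
  GaussL.gaussRed A.toSubring (resA A) (modularFunctionFieldBar N)

end Defs

section Basic

variable {A : ValuationSubring (AlgebraicClosure ℚ)} {N : ℕ}

/-- The defining property of the reduction. -/
theorem redA_mul_eq (z : ↥(gaussA A N)) (a b : LaurentSeries ↥A)
    (h : ((z : ↥(modularFunctionFieldBar N)) : LaurentSeries (AlgebraicClosure ℚ)) *
      coeffMap A.subtype b = coeffMap A.subtype a) :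
    redA A N z * coeffMap (IsLocalRing.residue ↥A) b = coeffMap (IsLocalRing.residue ↥A) a :=
  GaussL.gaussRed_mul_eq (modularFunctionFieldBar N) z a b h

theorem algebraMap_mem_gaussA {a : AlgebraicClosure ℚ} (ha : a ∈ A) :
    algebraMap (AlgebraicClosure ℚ) ↥(modularFunctionFieldBar N) a ∈ gaussA A N :=
  (GaussL.gaussV A.toSubring (resA A) (modularFunctionFieldBar N)).algebraMap_mem ⟨a, ha⟩

theorem redA_algebraMap {a : AlgebraicClosure ℚ} (ha : a ∈ A) :
    redA A N ⟨algebraMap (AlgebraicClosure ℚ) ↥(modularFunctionFieldBar N) a,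
      algebraMap_mem_gaussA ha⟩ = HahnSeries.C (IsLocalRing.residue ↥A ⟨a, ha⟩) :=
  GaussL.gaussRed_algebraMap (Λ := A.toSubring) (res := resA A) (modularFunctionFieldBar N) ⟨a, ha⟩

/-- An element of `F_L` whose series has coefficients in `A` lies in `gaussA`, and its reduction
is the coefficientwise reduction. -/
theorem mem_gaussA_of_coeffMap {z : ↥(modularFunctionFieldBar N)} (a : LaurentSeries ↥A)
    (h : coeffMap A.subtype a = (z : LaurentSeries (AlgebraicClosure ℚ))) : z ∈ gaussA A N :=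
  GaussL.mem_gaussV_of_coeffMap (Λ := A.toSubring) (res := resA A) (modularFunctionFieldBar N) a h

theorem redA_of_coeffMap {z : ↥(modularFunctionFieldBar N)} (a : LaurentSeries ↥A)
    (h : coeffMap A.subtype a = (z : LaurentSeries (AlgebraicClosure ℚ))) :
    redA A N ⟨z, mem_gaussA_of_coeffMap a h⟩ = coeffMap (IsLocalRing.residue ↥A) a :=
  GaussL.gaussRed_of_coeffMap (Λ := A.toSubring) (res := resA A) (modularFunctionFieldBar N) a h

/-- Coefficientwise criterion. -/
theorem mem_gaussA_of_coeff_mem {z : ↥(modularFunctionFieldBar N)}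
    (h : ∀ n : ℤ, (z : LaurentSeries (AlgebraicClosure ℚ)).coeff n ∈ A) : z ∈ gaussA A N := by
  refine mem_gaussA_of_coeffMap
    ⟨fun n => ⟨(z : LaurentSeries (AlgebraicClosure ℚ)).coeff n, h n⟩, ?_⟩ ?_
  · refine (z : LaurentSeries (AlgebraicClosure ℚ)).isPWO_support.mono ?_
    intro n hn
    rw [HahnSeries.mem_support]
    intro h0
    exact hn (Subtype.ext h0)
  · ext n
    rfl

theorem inv_mem_gaussA {z : ↥(modularFunctionFieldBar N)} (hz : z ∈ gaussA A N)
    (h : redA A N ⟨z, hz⟩ ≠ 0) : z⁻¹ ∈ gaussA A N :=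
  GaussL.inv_mem_gaussV (modularFunctionFieldBar N) hz h

theorem redA_inv {z : ↥(modularFunctionFieldBar N)} (hz : z ∈ gaussA A N)
    (hz' : z⁻¹ ∈ gaussA A N) (hz0 : z ≠ 0) :
    redA A N ⟨z⁻¹, hz'⟩ = (redA A N ⟨z, hz⟩)⁻¹ :=
  GaussL.gaussRed_inv (modularFunctionFieldBar N) hz hz' hz0

theorem isUnit_iff_redA_ne_zero (z : ↥(gaussA A N)) : IsUnit z ↔ redA A N z ≠ 0 :=
  GaussL.isUnit_iff_gaussRed_ne_zero (Λ := A.toSubring) (res := resA A)
    (modularFunctionFieldBar N) z

/-- Constants of `gaussA` are the elements of `A`. -/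
theorem algebraMap_mem_gaussA_iff {c : AlgebraicClosure ℚ} :
    algebraMap (AlgebraicClosure ℚ) ↥(modularFunctionFieldBar N) c ∈ gaussA A N ↔ c ∈ A := by
  refine ⟨fun h => ?_, algebraMap_mem_gaussA⟩
  by_contra hc
  have hc0 : c ≠ 0 := fun h0 => hc (h0 ▸ A.zero_mem)
  have hinv : c⁻¹ ∈ A := (A.mem_or_inv_mem c).resolve_left hc
  have hnu : ¬ IsUnit (⟨c⁻¹, hinv⟩ : ↥A) := by
    intro hu
    obtain ⟨u, hu⟩ := hu
    apply hc
    have h1 : (((u⁻¹ : (↥A)ˣ) : ↥A) : AlgebraicClosure ℚ) * c⁻¹ = 1 := by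
      have h2 : ((u⁻¹ : (↥A)ˣ) : ↥A) * (⟨c⁻¹, hinv⟩ : ↥A) = 1 := by rw [← hu, Units.inv_mul]
      exact congrArg (fun z : ↥A => (z : AlgebraicClosure ℚ)) h2
    have h3 : c = (((u⁻¹ : (↥A)ˣ) : ↥A) : AlgebraicClosure ℚ) := by
      field_simp at h1
      exact h1.symm
    rw [h3]
    exact SetLike.coe_mem _
  have hres : IsLocalRing.residue ↥A ⟨c⁻¹, hinv⟩ = 0 := by
    rw [IsLocalRing.residue_eq_zero_iff, IsLocalRing.mem_maximalIdeal, mem_nonunits_iff]
    exact hnu
  have h1 : redA A N (⟨algebraMap _ _ c, h⟩ * ⟨algebraMap _ _ c⁻¹, algebraMap_mem_gaussA hinv⟩)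
      = 0 := by
    rw [map_mul, redA_algebraMap hinv, hres, map_zero, mul_zero]
  have h2 : (⟨algebraMap _ _ c, h⟩ * ⟨algebraMap _ _ c⁻¹, algebraMap_mem_gaussA hinv⟩ :
      ↥(gaussA A N)) = 1 := by
    apply Subtype.ext
    show algebraMap (AlgebraicClosure ℚ) ↥(modularFunctionFieldBar N) c *
      algebraMap (AlgebraicClosure ℚ) ↥(modularFunctionFieldBar N) c⁻¹ = 1
    rw [← map_mul, mul_inv_cancel₀ hc0, map_one]
  rw [h2, map_one] at h1
  exact one_ne_zero h1

/-! ### Compatibility with `StepA.liftRing` -/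

theorem toF_mem_gaussA (Y : StepA.liftRing A (IsLocalRing.residue ↥A) N) :
    StepA.toF A (IsLocalRing.residue ↥A) N Y ∈ gaussA A N :=
  mem_gaussA_of_coeffMap (Y : LaurentSeries ↥A) rfl

theorem redA_toF (Y : StepA.liftRing A (IsLocalRing.residue ↥A) N) :
    redA A N ⟨StepA.toF A (IsLocalRing.residue ↥A) N Y, toF_mem_gaussA Y⟩ =
      ((StepA.toFk A (IsLocalRing.residue ↥A) N Y :
        ↥(modularFunctionFieldFullC (IsLocalRing.ResidueField ↥A) N)) :
        LaurentSeries (IsLocalRing.ResidueField ↥A)) :=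
  redA_of_coeffMap (Y : LaurentSeries ↥A) rfl

/-! ### The function `j` -/

theorem coe_jL [NeZero N] :
    coeffMap A.subtype (jqModC ↥A) =
      ((Fermat.Agent.S24.jL (AlgebraicClosure ℚ) N : ↥(modularFunctionFieldBar N)) :
        LaurentSeries (AlgebraicClosure ℚ)) := by
  show _ = coeffMap (algebraMap ℚ (AlgebraicClosure ℚ)) (jqModC ℚ)
  rw [coeffMap_jqModC, coeffMap_jqModC]

theorem jL_mem_gaussA [NeZero N] : Fermat.Agent.S24.jL (AlgebraicClosure ℚ) N ∈ gaussA A N :=
  mem_gaussA_of_coeffMap (jqModC ↥A) coe_jL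

theorem redA_jL [NeZero N] :
    redA A N ⟨Fermat.Agent.S24.jL (AlgebraicClosure ℚ) N, jL_mem_gaussA⟩ =
      jqModC (IsLocalRing.ResidueField ↥A) :=
  (redA_of_coeffMap (jqModC ↥A) coe_jL).trans (coeffMap_jqModC _)

theorem jL_inv_mem_gaussA [NeZero N] :
    (Fermat.Agent.S24.jL (AlgebraicClosure ℚ) N)⁻¹ ∈ gaussA A N := by
  refine inv_mem_gaussA jL_mem_gaussA ?_
  rw [redA_jL]
  exact jqModC_ne_zero_of_nontrivial _

omit A in
theorem jL_ne_zero [NeZero N] : Fermat.Agent.S24.jL (AlgebraicClosure ℚ) N ≠ 0 := by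
  intro h
  have h1 : ((Fermat.Agent.S24.jL (AlgebraicClosure ℚ) N : ↥(modularFunctionFieldBar N)) :
      LaurentSeries (AlgebraicClosure ℚ)) = jqModC (AlgebraicClosure ℚ) := by
    show coeffMap (algebraMap ℚ (AlgebraicClosure ℚ)) (jqModC ℚ) = _
    rw [coeffMap_jqModC]
  rw [h] at h1
  exact jqModC_ne_zero_of_nontrivial _ h1.symm

theorem redA_jL_inv [NeZero N] :
    redA A N ⟨(Fermat.Agent.S24.jL (AlgebraicClosure ℚ) N)⁻¹, jL_inv_mem_gaussA⟩ =
      (jqModC (IsLocalRing.ResidueField ↥A))⁻¹ := by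
  rw [redA_inv jL_mem_gaussA jL_inv_mem_gaussA jL_ne_zero, redA_jL]

end Basic

end

end Fermat.Agent.S37
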