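import Mathlib
import Fermat.Agent.S37.GaussA
import Fermat.Agent.S28.ChartKerCore

/-!
P12 (S37) module [GA], polynomial part: for `t ∈ gaussA A N`,

* `aeval_mem_gaussA`, `redA_aeval`: `g(t) ∈ gaussA` for `g ∈ A[X]`, with reduction `ḡ(t̄)`;
* `coeff_mem_of_aeval_mem`: if `t̄` is transcendental over the residue field `k`, then
  `Ω[t] ∩ gaussA = A[t]`: a polynomial `g ∈ Ω[X]` with `g(t) ∈ gaussA` has coefficients in `A`;
* `transcendental_redA_jL`, `transcendental_redA_jL_inv`: this applies to `t = j` and `t = j⁻¹`.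
-/

set_option autoImplicit false

namespace Fermat.Agent.S37

open ModularCurve Fermat.Agent.S18

noncomputable section

variable {A : ValuationSubring (AlgebraicClosure ℚ)} {N : ℕ}

variable (A N) in
/-- The constants `A → gaussA A N`. -/
def constA : ↥A →+* ↥(gaussA A N) where
  toFun a := ⟨algebraMap (AlgebraicClosure ℚ) ↥(modularFunctionFieldBar N) (a : AlgebraicClosure ℚ),
    algebraMap_mem_gaussA a.2⟩
  map_one' := Subtype.ext (map_one _)
  map_mul' _ _ := Subtype.ext (map_mul _ _ _)
  map_zero' := Subtype.ext (map_zero _)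
  map_add' _ _ := Subtype.ext (map_add _ _ _)

theorem coe_constA (a : ↥A) :
    ((constA A N a : ↥(gaussA A N)) : ↥(modularFunctionFieldBar N)) =
      algebraMap (AlgebraicClosure ℚ) ↥(modularFunctionFieldBar N) (a : AlgebraicClosure ℚ) :=
  rfl

theorem redA_constA (a : ↥A) :
    redA A N (constA A N a) =
      algebraMap (IsLocalRing.ResidueField ↥A) (LaurentSeries (IsLocalRing.ResidueField ↥A))
        (IsLocalRing.residue ↥A a) := by
  rw [GaussL.algebraMap_eq_C]
  exact redA_algebraMap a.2

theorem coe_eval₂_constA (x : ↥(gaussA A N)) (g : Polynomial ↥A) :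
    ((Polynomial.eval₂ (constA A N) x g : ↥(gaussA A N)) : ↥(modularFunctionFieldBar N)) =
      Polynomial.aeval (x : ↥(modularFunctionFieldBar N)) (g.map A.subtype) := by
  have h1 := Polynomial.hom_eval₂ g (constA A N) (gaussA A N).subtype x
  rw [Polynomial.aeval_def, Polynomial.eval₂_map]
  exact h1

theorem aeval_mem_gaussA {t : ↥(modularFunctionFieldBar N)} (ht : t ∈ gaussA A N)
    (g : Polynomial ↥A) : Polynomial.aeval t (g.map A.subtype) ∈ gaussA A N := by
  rw [← coe_eval₂_constA ⟨t, ht⟩ g]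
  exact SetLike.coe_mem _

theorem redA_aeval {t : ↥(modularFunctionFieldBar N)} (ht : t ∈ gaussA A N) (g : Polynomial ↥A) :
    redA A N ⟨Polynomial.aeval t (g.map A.subtype), aeval_mem_gaussA ht g⟩ =
      Polynomial.aeval (redA A N ⟨t, ht⟩) (g.map (IsLocalRing.residue ↥A)) := by
  have h0 : (⟨Polynomial.aeval t (g.map A.subtype), aeval_mem_gaussA ht g⟩ : ↥(gaussA A N)) =
      Polynomial.eval₂ (constA A N) ⟨t, ht⟩ g := Subtype.ext (coe_eval₂_constA ⟨t, ht⟩ g).symm
  rw [h0, Polynomial.hom_eval₂, Polynomial.aeval_def, Polynomial.eval₂_map]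
  congr 1
  exact RingHom.ext fun a => redA_constA a

/-- `Ω[t] ∩ gaussA = A[t]` when the reduction of `t` is transcendental over the residue field. -/
theorem coeff_mem_of_aeval_mem {t : ↥(modularFunctionFieldBar N)} (ht : t ∈ gaussA A N)
    (htr : Transcendental (IsLocalRing.ResidueField ↥A) (redA A N ⟨t, ht⟩))
    (g : Polynomial (AlgebraicClosure ℚ)) (hg : Polynomial.aeval t g ∈ gaussA A N) :
    ∀ i, g.coeff i ∈ A := by
  by_cases hg0 : g = 0
  · intro i
    rw [hg0, Polynomial.coeff_zero]
    exact A.zero_mem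
  -- a coefficient of maximal valuation
  have hne : g.support.Nonempty := Polynomial.support_nonempty.mpr hg0
  obtain ⟨m, hm, hmax⟩ := Finset.exists_max_image g.support
    (fun i => A.valuation (g.coeff i)) hne
  have hcm : g.coeff m ≠ 0 := Polynomial.mem_support_iff.mp hm
  have hquot : ∀ i, (g.coeff m)⁻¹ * g.coeff i ∈ A := by
    intro i
    by_cases hi : i ∈ g.support
    · rw [← A.valuation_le_one_iff, map_mul, map_inv₀]
      have h1 := hmax i hi
      have h2 : A.valuation (g.coeff m) ≠ 0 := (map_ne_zero _).mpr hcm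
      rw [inv_mul_le_iff₀ (zero_lt_iff.mpr h2), mul_one]
      exact h1
    · rw [Polynomial.notMem_support_iff.mp hi, mul_zero]
      exact A.zero_mem
  -- the normalised polynomial, over `A`
  have hlift : Polynomial.C (g.coeff m)⁻¹ * g ∈ Polynomial.lifts A.subtype := by
    rw [Polynomial.lifts_iff_coeff_lifts]
    intro i
    rw [Polynomial.coeff_C_mul]
    exact ⟨⟨_, hquot i⟩, rfl⟩
  obtain ⟨g₀, hg₀⟩ := (Polynomial.mem_lifts _).mp hlift
  have hg₀m : g₀.coeff m = 1 := by
    apply Subtype.ext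
    have h1 := congrArg (fun p : Polynomial (AlgebraicClosure ℚ) => p.coeff m) hg₀
    simp only [Polynomial.coeff_map, Polynomial.coeff_C_mul] at h1
    rw [inv_mul_cancel₀ hcm] at h1
    exact h1
  have hred0 : g₀.map (IsLocalRing.residue ↥A) ≠ 0 := by
    intro h0
    have h1 := congrArg (fun p : Polynomial (IsLocalRing.ResidueField ↥A) => p.coeff m) h0
    simp only [Polynomial.coeff_map, Polynomial.coeff_zero] at h1
    rw [hg₀m, map_one] at h1
    exact one_ne_zero h1
  have hw := aeval_mem_gaussA ht g₀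
  have hwred : redA A N ⟨Polynomial.aeval t (g₀.map A.subtype), hw⟩ ≠ 0 := by
    rw [redA_aeval ht g₀]
    intro h0
    exact hred0 (transcendental_iff.mp htr _ h0)
  have hw0 : Polynomial.aeval t (g₀.map A.subtype) ≠ 0 := by
    intro h0
    apply hwred
    have : (⟨Polynomial.aeval t (g₀.map A.subtype), hw⟩ : ↥(gaussA A N)) = 0 := Subtype.ext h0
    rw [this, map_zero]
  have hwinv := inv_mem_gaussA hw hwred
  have hgeq : Polynomial.aeval t g =
      algebraMap (AlgebraicClosure ℚ) ↥(modularFunctionFieldBar N) (g.coeff m) *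
        Polynomial.aeval t (g₀.map A.subtype) := by
    rw [hg₀, map_mul, Polynomial.aeval_C, ← mul_assoc, ← map_mul, mul_inv_cancel₀ hcm, map_one,
      one_mul]
  have hcmem : algebraMap (AlgebraicClosure ℚ) ↥(modularFunctionFieldBar N) (g.coeff m) ∈
      gaussA A N := by
    have h1 : algebraMap (AlgebraicClosure ℚ) ↥(modularFunctionFieldBar N) (g.coeff m) =
        Polynomial.aeval t g * (Polynomial.aeval t (g₀.map A.subtype))⁻¹ := by
      rw [hgeq, mul_assoc, mul_inv_cancel₀ hw0, mul_one]
    rw [h1]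
    exact mul_mem hg hwinv
  have hcA : g.coeff m ∈ A := algebraMap_mem_gaussA_iff.mp hcmem
  intro i
  have h1 : g.coeff i = g.coeff m * ((g.coeff m)⁻¹ * g.coeff i) := by
    rw [← mul_assoc, mul_inv_cancel₀ hcm, one_mul]
  rw [h1]
  exact A.mul_mem _ _ hcA (hquot i)

theorem transcendental_redA_jL [NeZero N] :
    Transcendental (IsLocalRing.ResidueField ↥A)
      (redA A N ⟨Fermat.Agent.S24.jL (AlgebraicClosure ℚ) N, jL_mem_gaussA⟩) := by
  rw [redA_jL]
  exact Fermat.Agent.S28.ChartKer.transcendental_jqModC _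

theorem transcendental_redA_jL_inv [NeZero N] :
    Transcendental (IsLocalRing.ResidueField ↥A)
      (redA A N ⟨(Fermat.Agent.S24.jL (AlgebraicClosure ℚ) N)⁻¹, jL_inv_mem_gaussA⟩) := by
  rw [redA_jL_inv]
  exact Fermat.Agent.S28.ChartKer.transcendental_jqModC_inv _

end

end Fermat.Agent.S37
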