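import Fermat.Agent.S37.GaussADesc
import Fermat.Agent.S37.GaussAPoly
import Fermat.Agent.S37.ChartRing
import Fermat.Agent.S28.ChartKerAbs

/-!
P12 (S37) module [GA], part (d): integrality over the `j`-line.

* (A2) `exists_monic_gaussA`: every element of the Gauss valuation ring `gaussA A N` is a root of
  a monic polynomial whose coefficients are quotients `a(j)/b(j)`, `a, b ∈ A[X]`, `b` with nonzero
  reduction (`exists_monic_gaussA'`: coefficients in `gaussA ∩ Ω(j)`).
* (A3) `isIntegral_chart_of_mul`: for `z ∈ gaussA`, if `c * z` (`c ∈ Ω^×`) is integral over the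
  chart ring `A[t][1/S(t)]` then so is `z`; `isIntegral_chartFin_of_mul`,
  `isIntegral_chartInf_of_mul` are the two instances used by [KR].
-/

set_option autoImplicit false

namespace Fermat.Agent.S37

open ModularCurve Fermat.Agent.S18 Fermat.Agent.S18.NumField Polynomial

noncomputable section

/-- Shortcut instance (the generic instance search is slow for subfields of `ℚ̄`). -/
local instance instAlgebraFullK (K : IntermediateField ℚ (AlgebraicClosure ℚ)) (N : ℕ) :
    Algebra ↥K ↥(modularFunctionFieldFullC ↥K N) :=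
  SubalgebraClass.toAlgebra (modularFunctionFieldFullC ↥K N)

section A2

variable {A : ValuationSubring (AlgebraicClosure ℚ)} {N : ℕ} {ℓ : ℕ} [Fact ℓ.Prime] [NeZero N]

/-- `toFL` of a polynomial in `j` with coefficients in `Λ_K`. -/
theorem toFL_aeval_jC (K : IntermediateField ℚ (AlgebraicClosure ℚ))
    (q : Polynomial ↥(lam A K)) :
    Descent.toFL K N (aeval (GaussL.jC ↥K N) (q.map (lam A K).subtype)) =
      aeval (Fermat.Agent.S24.jL (AlgebraicClosure ℚ) N)
        ((q.map (lamIncl A K)).map A.subtype) := by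
  rw [aeval_def, eval₂_map, hom_eval₂, Descent.toFL_jC, aeval_def, eval₂_map, eval₂_map]
  congr 1
  refine RingHom.ext fun x => ?_
  exact Descent.toFL_algebraMap K N ((x : ↥(lam A K)) : ↥K)

/-- (A2) Every element of `gaussA` is a root of a monic polynomial whose coefficients are
quotients `a(j)/b(j)` with `a, b ∈ A[X]`, `b` of nonzero reduction. -/
theorem exists_monic_gaussA (hA : A.LiesOverPrime ℓ) (hℓN : ¬ ℓ ∣ N)
    {z : ↥(modularFunctionFieldBar N)} (hz : z ∈ gaussA A N) :
    ∃ p : Polynomial ↥(modularFunctionFieldBar N), p.Monic ∧ p.eval z = 0 ∧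
      ∀ i, ∃ a b : Polynomial ↥A, b.map (IsLocalRing.residue ↥A) ≠ 0 ∧
        p.coeff i * aeval (Fermat.Agent.S24.jL (AlgebraicClosure ℚ) N) (b.map A.subtype) =
          aeval (Fermat.Agent.S24.jL (AlgebraicClosure ℚ) N) (a.map A.subtype) := by
  obtain ⟨K₀, hK₀, h⟩ := exists_gaussV_eq hA hz
  obtain ⟨f, hf, rfl⟩ := h K₀ le_rfl hK₀
  obtain ⟨ϖ, hϖ⟩ := exists_irreducible_lam (K := K₀) hA
  have hΛ := isGaussRing_lam_resA hA hϖ
  obtain ⟨p, hp, hc, hps⟩ := GaussL.exists_monic_of_mem_gaussV hΛ N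
    (natCast_residue_ne_zero hA hℓN) hf
  refine ⟨p.map (Descent.toFL K₀ N), hp.map _, ?_, fun i => ?_⟩
  · rw [eval_map, eval₂_at_apply, hps, map_zero]
  · obtain ⟨a, b, hb, hab⟩ := (GaussL.mem_gaussV_adjoin_iff hΛ N (p.coeff i)).mp (hc i)
    refine ⟨a.map (lamIncl A K₀), b.map (lamIncl A K₀), ?_, ?_⟩
    · rw [Polynomial.map_map]
      exact hb
    · rw [coeff_map, ← toFL_aeval_jC, ← toFL_aeval_jC, ← map_mul]
      exact congrArg _ hab

omit [NeZero N] in
/-- Polynomials in `t ∈ gaussA` with coefficients in `A` lie in `gaussA`. -/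
theorem aeval_mem_gaussA' {t : ↥(modularFunctionFieldBar N)} (ht : t ∈ gaussA A N)
    (s : Polynomial (AlgebraicClosure ℚ)) (hs : ∀ i, s.coeff i ∈ A) :
    aeval t s ∈ gaussA A N := by
  rw [aeval_eq_sum_range]
  refine Subring.sum_mem _ fun i _ => ?_
  rw [Algebra.smul_def]
  exact Subring.mul_mem _ (algebraMap_mem_gaussA (hs i)) (Subring.pow_mem _ ht i)

/-- (A2'), field form: the coefficients lie in `gaussA ∩ Ω(j)`. -/
theorem exists_monic_gaussA' (hA : A.LiesOverPrime ℓ) (hℓN : ¬ ℓ ∣ N)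
    {z : ↥(modularFunctionFieldBar N)} (hz : z ∈ gaussA A N) :
    ∃ p : Polynomial ↥(modularFunctionFieldBar N), p.Monic ∧ p.eval z = 0 ∧
      ∀ i, p.coeff i ∈ gaussA A N ∧
        p.coeff i ∈ IntermediateField.adjoin (AlgebraicClosure ℚ)
          {Fermat.Agent.S24.jL (AlgebraicClosure ℚ) N} := by
  obtain ⟨p, hp, hpz, hc⟩ := exists_monic_gaussA hA hℓN hz
  refine ⟨p, hp, hpz, fun i => ?_⟩
  obtain ⟨a, b, hb, hab⟩ := hc i
  have hbmem : aeval (Fermat.Agent.S24.jL (AlgebraicClosure ℚ) N) (b.map A.subtype) ∈ gaussA A N :=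
    aeval_mem_gaussA jL_mem_gaussA b
  have hbred : redA A N ⟨_, hbmem⟩ ≠ 0 := by
    rw [redA_aeval jL_mem_gaussA b]
    exact fun h0 => hb ((transcendental_iff.mp transcendental_redA_jL) _ h0)
  have hb0 : aeval (Fermat.Agent.S24.jL (AlgebraicClosure ℚ) N) (b.map A.subtype) ≠ 0 := by
    intro h0
    apply hbred
    have : (⟨_, hbmem⟩ : ↥(gaussA A N)) = 0 := Subtype.ext h0
    rw [this, map_zero]
  have hcoeff : p.coeff i =
      aeval (Fermat.Agent.S24.jL (AlgebraicClosure ℚ) N) (a.map A.subtype) *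
        (aeval (Fermat.Agent.S24.jL (AlgebraicClosure ℚ) N) (b.map A.subtype))⁻¹ := by
    rw [← hab, mul_assoc, mul_inv_cancel₀ hb0, mul_one]
  have hmemE : ∀ q : Polynomial (AlgebraicClosure ℚ),
      aeval (Fermat.Agent.S24.jL (AlgebraicClosure ℚ) N) q ∈
        IntermediateField.adjoin (AlgebraicClosure ℚ)
          {Fermat.Agent.S24.jL (AlgebraicClosure ℚ) N} := fun q =>
    IntermediateField.algebra_adjoin_le_adjoin _ _ (aeval_mem_adjoin_singleton _ _)
  rw [hcoeff]
  exact ⟨mul_mem (aeval_mem_gaussA jL_mem_gaussA a) (inv_mem_gaussA hbmem hbred),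
    mul_mem (hmemE _) (inv_mem (hmemE _))⟩

end A2

/-- Shortcut instance (the generic instance search is slow here). -/
instance instAlgebraChartRing (A : ValuationSubring (AlgebraicClosure ℚ)) (N : ℕ)
    (t u : ↥(modularFunctionFieldBar N)) :
    Algebra ↥(chartRing A N t u) ↥(modularFunctionFieldBar N) :=
  Algebra.ofSubsemiring (chartRing A N t u)

section A3

variable {A : ValuationSubring (AlgebraicClosure ℚ)} {N : ℕ} {ℓ : ℕ} [Fact ℓ.Prime]

/-- An element of `gaussA` with transcendental reduction is transcendental over `ℚ̄`. -/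
theorem transcendental_of_redA (hA : A.LiesOverPrime ℓ) {t : ↥(modularFunctionFieldBar N)}
    (ht : t ∈ gaussA A N)
    (htr : Transcendental (IsLocalRing.ResidueField ↥A) (redA A N ⟨t, ht⟩)) :
    Transcendental (AlgebraicClosure ℚ) t := by
  rintro ⟨G, hG0, hG⟩
  obtain ⟨i, hi⟩ : ∃ i, G.coeff i ≠ 0 := by
    by_contra h
    exact hG0 (Polynomial.ext fun i => by
      rw [coeff_zero]
      by_contra hi
      exact h ⟨i, hi⟩)
  have hℓ0 : (ℓ : AlgebraicClosure ℚ) ≠ 0 :=
    Nat.cast_ne_zero.mpr (Fact.out : ℓ.Prime).ne_zero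
  have hmem := coeff_mem_of_aeval_mem ht htr (C (((ℓ : AlgebraicClosure ℚ) * G.coeff i)⁻¹) * G)
    (by rw [map_mul, hG, mul_zero]; exact zero_mem _) i
  rw [coeff_C_mul] at hmem
  have h1 : ((ℓ : AlgebraicClosure ℚ) * G.coeff i)⁻¹ * G.coeff i = (ℓ : AlgebraicClosure ℚ)⁻¹ := by
    field_simp
  rw [h1] at hmem
  exact natCast_inv_not_mem hA hmem

/-- The embedding `Ω(X) → F_L`, `X ↦ t`, for `t` transcendental. -/
def ratEmbL (t : ↥(modularFunctionFieldBar N)) (htΩ : Transcendental (AlgebraicClosure ℚ) t) :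
    RatFunc (AlgebraicClosure ℚ) →+* ↥(modularFunctionFieldBar N) :=
  IsFractionRing.lift
    (g := (aeval t : Polynomial (AlgebraicClosure ℚ) →ₐ[AlgebraicClosure ℚ] _).toRingHom)
    (transcendental_iff_injective.mp htΩ)

theorem ratEmbL_algebraMap (t : ↥(modularFunctionFieldBar N))
    (htΩ : Transcendental (AlgebraicClosure ℚ) t) (P : Polynomial (AlgebraicClosure ℚ)) :
    ratEmbL t htΩ (algebraMap (Polynomial (AlgebraicClosure ℚ)) (RatFunc (AlgebraicClosure ℚ)) P) =
      aeval t P :=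
  IsFractionRing.lift_algebraMap _ P

theorem mem_range_ratEmbL (t : ↥(modularFunctionFieldBar N))
    (htΩ : Transcendental (AlgebraicClosure ℚ) t) {c : ↥(modularFunctionFieldBar N)}
    (hc : c ∈ IntermediateField.adjoin (AlgebraicClosure ℚ) {t}) :
    ∃ e : RatFunc (AlgebraicClosure ℚ), ratEmbL t htΩ e = c := by
  obtain ⟨r, s, rfl⟩ := (IntermediateField.mem_adjoin_simple_iff (AlgebraicClosure ℚ) c).mp hc
  exact ⟨algebraMap _ _ r / algebraMap _ _ s,
    by rw [map_div₀, ratEmbL_algebraMap, ratEmbL_algebraMap]⟩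

variable [NeZero N]

/-- (A3), general form.  Let `t ∈ gaussA` have transcendental reduction, with `j ∈ Ω(t)`, and let
`S ∈ A[X]`, `S ≠ 0`, `u = S(t)⁻¹`.  If `z ∈ gaussA` and `c * z` (`c ∈ Ω^×`) is integral over the
chart ring `A[t][u]`, then `z` is integral over `A[t][u]`. -/
theorem isIntegral_chart_of_mul (hA : A.LiesOverPrime ℓ) (hℓN : ¬ ℓ ∣ N)
    {t : ↥(modularFunctionFieldBar N)} (ht : t ∈ gaussA A N)
    (htr : Transcendental (IsLocalRing.ResidueField ↥A) (redA A N ⟨t, ht⟩))
    (hjt : Fermat.Agent.S24.jL (AlgebraicClosure ℚ) N ∈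
      IntermediateField.adjoin (AlgebraicClosure ℚ) {t})
    (S : Polynomial (AlgebraicClosure ℚ)) (hSA : ∀ i, S.coeff i ∈ A) (hS0 : S ≠ 0)
    (u : ↥(modularFunctionFieldBar N)) (hu : u = (aeval t S)⁻¹)
    {z : ↥(modularFunctionFieldBar N)} (hz : z ∈ gaussA A N)
    {c : AlgebraicClosure ℚ} (hc : c ≠ 0)
    (h : IsIntegral ↥(chartRing A N t u)
      (algebraMap (AlgebraicClosure ℚ) ↥(modularFunctionFieldBar N) c * z)) :
    IsIntegral ↥(chartRing A N t u) z := by
  subst hu
  have htΩ : Transcendental (AlgebraicClosure ℚ) t := transcendental_of_redA hA ht htr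
  obtain ⟨g, hg⟩ : ∃ g : RatFunc (AlgebraicClosure ℚ) →+* ↥(modularFunctionFieldBar N),
      g = ratEmbL t htΩ := ⟨_, rfl⟩
  have hgalg : ∀ P : Polynomial (AlgebraicClosure ℚ),
      g (algebraMap (Polynomial (AlgebraicClosure ℚ)) (RatFunc (AlgebraicClosure ℚ)) P) =
        aeval t P := by
    intro P
    rw [hg, ratEmbL_algebraMap]
  have hSt0 : aeval t S ≠ 0 := fun h0 => hS0 ((transcendental_iff.mp htΩ) S h0)
  have hStmem : aeval t S ∈ gaussA A N := aeval_mem_gaussA' ht S hSA
  -- the integrally closed ring `B = Ω[X][1/S]`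
  have hM : Submonoid.powers S ≤ nonZeroDivisors (Polynomial (AlgebraicClosure ℚ)) :=
    powers_le_nonZeroDivisors_of_noZeroDivisors hS0
  have : IsDomain (Localization.Away S) := IsLocalization.isDomain_localization hM
  have : IsIntegrallyClosed (Localization.Away S) :=
    isIntegrallyClosed_of_isLocalization (Localization.Away S) (Submonoid.powers S) hM
  have hSunit : IsUnit (algebraMap (Polynomial (AlgebraicClosure ℚ))
      (RatFunc (AlgebraicClosure ℚ)) S) :=
    IsUnit.mk0 _ (by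
      rw [Ne, map_eq_zero_iff _ (IsFractionRing.injective _ _)]
      exact hS0)
  let φ : Localization.Away S →+* RatFunc (AlgebraicClosure ℚ) :=
    IsLocalization.Away.lift S hSunit
  have hφ : ∀ P : Polynomial (AlgebraicClosure ℚ),
      φ (algebraMap _ (Localization.Away S) P) = algebraMap _ _ P :=
    fun P => IsLocalization.Away.lift_eq S hSunit P
  let : Algebra (Localization.Away S) (RatFunc (AlgebraicClosure ℚ)) := φ.toAlgebra
  have : IsScalarTower (Polynomial (AlgebraicClosure ℚ)) (Localization.Away S)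
      (RatFunc (AlgebraicClosure ℚ)) :=
    IsScalarTower.of_algebraMap_eq fun P => (hφ P).symm
  have : IsFractionRing (Localization.Away S) (RatFunc (AlgebraicClosure ℚ)) :=
    IsFractionRing.isFractionRing_of_isDomain_of_isLocalization (Submonoid.powers S)
      (Localization.Away S) (RatFunc (AlgebraicClosure ℚ))
  -- the valuation ring `R = gaussA ∩ Ω(t)` and the ring `𝔸 = g⁻¹(A[t][u])`
  let R : ValuationSubring (RatFunc (AlgebraicClosure ℚ)) := (gaussAVS (N := N) hA).comap g
  let fA : ↥((chartRing A N t (aeval t S)⁻¹).comap g) →+* RatFunc (AlgebraicClosure ℚ) :=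
    ((chartRing A N t (aeval t S)⁻¹).comap g).subtype
  -- `B ∩ R ⊆ 𝔸`
  have hA' : ∀ b : Localization.Away S,
      algebraMap (Localization.Away S) (RatFunc (AlgebraicClosure ℚ)) b ∈ R →
      ∃ a : ↥((chartRing A N t (aeval t S)⁻¹).comap g),
        fA a = algebraMap (Localization.Away S) (RatFunc (AlgebraicClosure ℚ)) b := by
    intro b hb
    obtain ⟨n, G, hG⟩ := IsLocalization.Away.surj S b
    have hb1 : g (φ b) ∈ gaussA A N := hb
    have hG1 : g (φ b) * (aeval t S) ^ n = aeval t G := by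
      have h1 := congrArg (fun x => g (φ x)) hG
      simp only [map_mul, map_pow, hφ, hgalg] at h1
      exact h1
    have hGmem : aeval t G ∈ gaussA A N := by
      rw [← hG1]
      exact mul_mem hb1 (pow_mem hStmem n)
    have hGA : ∀ i, G.coeff i ∈ A := coeff_mem_of_aeval_mem ht htr G hGmem
    have hb2 : g (φ b) = aeval t G * ((aeval t S)⁻¹) ^ n := by
      rw [← hG1, mul_assoc, ← mul_pow, mul_inv_cancel₀ hSt0, one_pow, mul_one]
    refine ⟨⟨φ b, ?_⟩, rfl⟩
    show g (φ b) ∈ chartRing A N t (aeval t S)⁻¹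
    rw [hb2]
    exact mul_mem (aeval_mem_chartRing t _ G hGA) (pow_mem (right_mem_chartRing t _) n)
  -- `A[t][u]` is contained in the image of `B`
  have hrange : chartRing A N t (aeval t S)⁻¹ ≤
      (g.comp (algebraMap (Localization.Away S) (RatFunc (AlgebraicClosure ℚ)))).range := by
    refine chartRing_le
      (fun a _ => ⟨algebraMap (Polynomial (AlgebraicClosure ℚ)) (Localization.Away S) (C a), ?_⟩)
      ⟨algebraMap (Polynomial (AlgebraicClosure ℚ)) (Localization.Away S) X, ?_⟩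
      ⟨IsLocalization.Away.invSelf S, ?_⟩
    · show g (φ (algebraMap _ _ (C a))) = _
      rw [hφ, hgalg, aeval_C]
    · show g (φ (algebraMap _ _ X)) = _
      rw [hφ, hgalg, aeval_X]
    · show g (φ (IsLocalization.Away.invSelf S)) = _
      have h1 : algebraMap _ (Localization.Away S) S * IsLocalization.Away.invSelf S = 1 :=
        IsLocalization.Away.mul_invSelf S
      have h2 := congrArg (fun x => g (φ x)) h1
      simp only [map_mul, map_one, hφ, hgalg] at h2
      exact eq_inv_of_mul_eq_one_right h2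
  -- `z` is integral over `B`
  have hB : (g.comp (algebraMap (Localization.Away S)
      (RatFunc (AlgebraicClosure ℚ)))).IsIntegralElem z := by
    obtain ⟨p, hp, hpx⟩ := h
    have h1 : (g.comp (algebraMap (Localization.Away S)
        (RatFunc (AlgebraicClosure ℚ)))).IsIntegralElem
        (algebraMap (AlgebraicClosure ℚ) ↥(modularFunctionFieldBar N) c * z) := by
      refine Fermat.Agent.S28.ChartKerAbs.isIntegralElem_of_coeff_mem_range _
        (p.map (algebraMap ↥(chartRing A N t (aeval t S)⁻¹) ↥(modularFunctionFieldBar N)))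
        (hp.map _) (fun i => ?_) ?_
      · rw [coeff_map]
        exact hrange (p.coeff i).2
      · rw [eval_map]
        exact hpx
    have h2 := RingHom.IsIntegralElem.mul _
      (RingHom.isIntegralElem_map (g.comp (algebraMap (Localization.Away S)
        (RatFunc (AlgebraicClosure ℚ)))) (x := algebraMap _ _ (C c⁻¹))) h1
    have h3 : (g.comp (algebraMap (Localization.Away S) (RatFunc (AlgebraicClosure ℚ))))
        (algebraMap _ _ (C c⁻¹)) *
        (algebraMap (AlgebraicClosure ℚ) ↥(modularFunctionFieldBar N) c * z) = z := by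
      show g (φ (algebraMap _ _ (C c⁻¹))) * _ = z
      rw [hφ, hgalg, aeval_C, ← mul_assoc, ← map_mul, inv_mul_cancel₀ hc, map_one, one_mul]
    rwa [h3] at h2
  -- `z` is integral over `R`
  have hR : (g.comp R.subtype).IsIntegralElem z := by
    obtain ⟨p, hp, hps, hcoef⟩ := exists_monic_gaussA' hA hℓN hz
    refine Fermat.Agent.S28.ChartKerAbs.isIntegralElem_of_coeff_mem_range _ p hp (fun i => ?_) hps
    have hle : IntermediateField.adjoin (AlgebraicClosure ℚ)
        {Fermat.Agent.S24.jL (AlgebraicClosure ℚ) N} ≤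
        IntermediateField.adjoin (AlgebraicClosure ℚ) {t} := by
      rw [IntermediateField.adjoin_simple_le_iff]
      exact hjt
    obtain ⟨e, he⟩ := mem_range_ratEmbL t htΩ (hle (hcoef i).2)
    rw [← hg] at he
    exact ⟨⟨e, by
      show g e ∈ gaussA A N
      rw [he]
      exact (hcoef i).1⟩, he⟩
  have key := Fermat.Agent.S28.ChartKerAbs.isIntegralElem_of_two R fA g hA' hB hR
  obtain ⟨q, hq, hqs⟩ := key
  let ψ : ↥((chartRing A N t (aeval t S)⁻¹).comap g) →+* ↥(chartRing A N t (aeval t S)⁻¹) :=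
    { toFun := fun x => ⟨g x, x.2⟩
      map_one' := Subtype.ext (map_one g)
      map_mul' := fun _ _ => Subtype.ext (map_mul g _ _)
      map_zero' := Subtype.ext (map_zero g)
      map_add' := fun _ _ => Subtype.ext (map_add g _ _) }
  have hψ : (algebraMap ↥(chartRing A N t (aeval t S)⁻¹) ↥(modularFunctionFieldBar N)).comp ψ =
      g.comp fA := RingHom.ext fun _ => rfl
  exact ⟨q.map ψ, hq.map ψ, by rw [eval₂_map, hψ]; exact hqs⟩

/-- (A3), finite chart `A[j]`. -/
theorem isIntegral_chartFin_of_mul (hA : A.LiesOverPrime ℓ) (hℓN : ¬ ℓ ∣ N)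
    {z : ↥(modularFunctionFieldBar N)} (hz : z ∈ gaussA A N)
    {c : AlgebraicClosure ℚ} (hc : c ≠ 0)
    (h : IsIntegral ↥(chartRing A N (Fermat.Agent.S24.jL (AlgebraicClosure ℚ) N) 1)
      (algebraMap (AlgebraicClosure ℚ) ↥(modularFunctionFieldBar N) c * z)) :
    IsIntegral ↥(chartRing A N (Fermat.Agent.S24.jL (AlgebraicClosure ℚ) N) 1) z := by
  refine isIntegral_chart_of_mul hA hℓN jL_mem_gaussA transcendental_redA_jL
    (IntermediateField.mem_adjoin_simple_self _ _) 1 (fun i => ?_) one_ne_zero 1 (by simp)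
    hz hc h
  rw [coeff_one]
  split_ifs
  · exact A.one_mem
  · exact A.zero_mem

/-- (A3), chart at infinity `A[1/j][1/s(1/j)]`. -/
theorem isIntegral_chartInf_of_mul (hA : A.LiesOverPrime ℓ) (hℓN : ¬ ℓ ∣ N)
    (s : Polynomial (AlgebraicClosure ℚ)) (hsA : ∀ i, s.coeff i ∈ A) (hs0 : s.coeff 0 = 1)
    {z : ↥(modularFunctionFieldBar N)} (hz : z ∈ gaussA A N)
    {c : AlgebraicClosure ℚ} (hc : c ≠ 0)
    (h : IsIntegral ↥(chartRing A N (Fermat.Agent.S24.jL (AlgebraicClosure ℚ) N)⁻¹
        (aeval ((Fermat.Agent.S24.jL (AlgebraicClosure ℚ) N)⁻¹) s)⁻¹)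
      (algebraMap (AlgebraicClosure ℚ) ↥(modularFunctionFieldBar N) c * z)) :
    IsIntegral ↥(chartRing A N (Fermat.Agent.S24.jL (AlgebraicClosure ℚ) N)⁻¹
        (aeval ((Fermat.Agent.S24.jL (AlgebraicClosure ℚ) N)⁻¹) s)⁻¹) z := by
  have hs : s ≠ 0 := by
    rintro rfl
    rw [coeff_zero] at hs0
    exact zero_ne_one hs0
  have hjt : Fermat.Agent.S24.jL (AlgebraicClosure ℚ) N ∈
      IntermediateField.adjoin (AlgebraicClosure ℚ)
        {(Fermat.Agent.S24.jL (AlgebraicClosure ℚ) N)⁻¹} := by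
    have h1 := inv_mem (IntermediateField.mem_adjoin_simple_self (AlgebraicClosure ℚ)
      ((Fermat.Agent.S24.jL (AlgebraicClosure ℚ) N)⁻¹))
    rwa [inv_inv] at h1
  exact isIntegral_chart_of_mul hA hℓN jL_inv_mem_gaussA transcendental_redA_jL_inv hjt s hsA hs
    _ rfl hz hc h

end A3

end

end Fermat.Agent.S37
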