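import Mathlib

/-!
P12 (S37), [KR] generic algebra: integrality over subrings (transitivity, descent along an
injective ring homomorphism, coefficients of products of linear factors).
-/

set_option autoImplicit false

namespace Fermat.Agent.S37.KronCore

open Polynomial

section Integral

variable {T : Type*} [CommRing T]

/-- The elements integral over a subring form a subring. -/
theorem isIntegral_of_mem_closure {S : Subring T} {s : Set T} (hs : ∀ x ∈ s, IsIntegral S x)
    {x : T} (hx : x ∈ Subring.closure s) : IsIntegral S x := by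
  induction hx using Subring.closure_induction with
  | mem x hx => exact hs x hx
  | zero => exact isIntegral_zero
  | one => exact isIntegral_one
  | add x y _ _ hx hy => exact hx.add hy
  | neg x _ hx => exact hx.neg
  | mul x y _ _ hx hy => exact hx.mul hy

/-- Transitivity of integrality for subrings. -/
theorem isIntegral_of_forall_isIntegral (S S' : Subring T) (h : ∀ x ∈ S', IsIntegral S x)
    {r : T} (hr : IsIntegral S' r) : IsIntegral S r := by
  have hle : S' ≤ (integralClosure S T).toSubring := fun x hx => h x hx
  have h1 : IsIntegral (integralClosure S T) r :=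
    hr.map_of_comp_eq (Subring.inclusion hle) (RingHom.id T) (by ext; rfl)
  exact isIntegral_trans r h1

/-- Integrality over a larger subring. -/
theorem isIntegral_of_le {S S' : Subring T} (h : S' ≤ S) {r : T} (hr : IsIntegral S' r) :
    IsIntegral S r :=
  hr.map_of_comp_eq (Subring.inclusion h) (RingHom.id T) (by ext; rfl)

/-- Elements of a subring are integral over it. -/
theorem isIntegral_of_mem {S : Subring T} {r : T} (hr : r ∈ S) : IsIntegral S r :=
  isIntegral_algebraMap (x := (⟨r, hr⟩ : S))

/-- Coefficients of a product of linear factors with integral roots are integral. -/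
theorem isIntegral_coeff_prod {S : Subring T} {ι : Type*} (t : Finset ι) (r : ι → T)
    (e : ι → ℕ) (hr : ∀ i ∈ t, IsIntegral S (r i)) (n : ℕ) :
    IsIntegral S ((∏ i ∈ t, (X - C (r i)) ^ e i).coeff n) := by
  have hmem : (∏ i ∈ t, (X - C (r i)) ^ e i) ∈
      Polynomial.lifts (algebraMap (integralClosure S T) T) := by
    refine Subsemiring.prod_mem _ fun i hi => Subsemiring.pow_mem _ ?_ _
    rw [Polynomial.mem_lifts]
    refine ⟨X - C (⟨r i, hr i hi⟩ : integralClosure S T), ?_⟩
    rw [Polynomial.map_sub, Polynomial.map_X, Polynomial.map_C]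
    rfl
  obtain ⟨y, hy⟩ := (Polynomial.lifts_iff_coeff_lifts _).mp hmem n
  rw [← hy]
  exact y.2

end Integral

section Descent

variable {F T : Type*} [CommRing F] [CommRing T]

/-- Descent of integrality along an injective ring homomorphism. -/
theorem isIntegral_of_map (φ : F →+* T) (hφ : Function.Injective φ) (R : Subring F)
    (S : Subring T) (hS : S ≤ R.map φ) {x : F} (h : IsIntegral S (φ x)) : IsIntegral R x := by
  obtain ⟨p, hp, hpx⟩ := h
  -- lift the coefficients to `R`
  have hl : p.map S.subtype ∈ Polynomial.lifts (φ.comp R.subtype) := by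
    rw [Polynomial.lifts_iff_coeff_lifts]
    intro n
    rw [Polynomial.coeff_map]
    obtain ⟨y, hy, hyx⟩ := hS (p.coeff n).2
    exact ⟨⟨y, hy⟩, hyx⟩
  obtain ⟨q, hq, -, hqm⟩ := Polynomial.lifts_and_natDegree_eq_and_monic hl (hp.map _)
  refine ⟨q, hqm, ?_⟩
  apply hφ
  rw [map_zero, Polynomial.hom_eval₂]
  have h1 : Polynomial.eval₂ (φ.comp (algebraMap R F)) (φ x) q
      = Polynomial.eval₂ (algebraMap S T) (φ x) p := by
    have h2 : (φ.comp (algebraMap R F)) = φ.comp R.subtype := rfl
    rw [h2, ← Polynomial.eval_map, hq, Polynomial.eval_map]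
    rfl
  rw [h1]
  exact hpx

/-- Integrality is preserved by ring homomorphisms (subring version). -/
theorem isIntegral_map (φ : F →+* T) (R : Subring F) (S : Subring T) (hS : R.map φ ≤ S)
    {x : F} (h : IsIntegral R x) : IsIntegral S (φ x) := by
  have hmem : ∀ y : R, φ y ∈ S := fun y => hS ⟨y, y.2, rfl⟩
  exact h.map_of_comp_eq (RingHom.codRestrict (φ.comp R.subtype) S hmem) φ (by ext; rfl)

end Descent

end Fermat.Agent.S37.KronCore
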