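import Fermat.Agent.S28.ModEq
import Fermat.Agent.S28.ModEqCor
import Fermat.Agent.S28.ModEqDescent

/-!
P12 / S37, module [KR]: integrality statements extracted from the modular equation at a prime `ℓ`

  `Φ(X, j(q^ℓ)) = (X - j(q^{ℓ²})) ∏_{b<ℓ} (X - j(ζ^b q))`   in `K((q))[X]`

over a subring `A` of the field `K` containing the primitive `ℓ`-th root of unity `ζ`:

* the coefficients of `Φ` lie in `A[Y]` (`coeff_mem_of_modEq`, `exists_modEq_mem`);
* `isIntegral_fin_inf`, `isIntegral_fin_rot`: the conjugates `j(q^{ℓ²})`, `j(ζ^b q)` are integral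
  over `A[j(q^ℓ)]`;
* `isIntegral_fin_swap`: `j(q^ℓ)` is integral over `A[j(q)]`;
* `exists_inf`: the chart at the cusp; the inverses of the conjugates are integral over
  `A[V][1/s(V)]`, `V = 1/j(q^ℓ)`, for a suitable `s ∈ A[V]` with `s(0) = 1` (abstract form:
  `exists_chart_at_pole`).
-/

set_option autoImplicit false

namespace Fermat.Agent.S37.KronModEq

open Polynomial ModularCurve Fermat.Agent.S24 Fermat.Agent.S28

variable {K : Type*} [Field K]

/-- The subring of `K((q))` generated by the constants of `A`, `t` and `u`. -/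
noncomputable def serRing (A : Subring K) (t u : LaurentSeries K) : Subring (LaurentSeries K) :=
  Subring.closure ((fun a : K => (HahnSeries.C a : LaurentSeries K)) '' (A : Set K) ∪ {t, u})

/-! ### The ring `serRing A t u` -/

section SerRing

variable (A : Subring K) (t u : LaurentSeries K)

theorem C_mem_serRing {a : K} (ha : a ∈ A) :
    (HahnSeries.C a : LaurentSeries K) ∈ serRing A t u :=
  Subring.subset_closure (Or.inl ⟨a, ha, rfl⟩)

theorem fst_mem_serRing : t ∈ serRing A t u :=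
  Subring.subset_closure (Or.inr (Or.inl rfl))

theorem snd_mem_serRing : u ∈ serRing A t u :=
  Subring.subset_closure (Or.inr (Or.inr rfl))

/-- A polynomial with coefficients in `A`, evaluated at `t`, lies in `serRing A t u`. -/
theorem aeval_mem_serRing (P : Polynomial K) (hP : ∀ i, P.coeff i ∈ A) :
    Polynomial.aeval t P ∈ serRing A t u := by
  rw [Polynomial.aeval_eq_sum_range]
  refine Subring.sum_mem _ fun i _ => ?_
  rw [Algebra.smul_def, LaurentDeriv.algebraMap_eq_C]
  exact Subring.mul_mem _ (C_mem_serRing A t u (hP i))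
    (Subring.pow_mem _ (fst_mem_serRing A t u) i)

end SerRing

/-! ### Generalities on polynomials and subrings -/

section Generalities

variable {L : Type*} [CommRing L]

/-- A root of a monic polynomial with coefficients in a subring is integral over the subring. -/
theorem isIntegral_of_monic_of_coeff_mem (S : Subring L) (G : Polynomial L) (hG : G.Monic)
    (hcoeff : ∀ i, G.coeff i ∈ S) (r : L) (hr : G.eval r = 0) : IsIntegral S r := by
  have hl : G ∈ Polynomial.lifts S.subtype := by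
    rw [Polynomial.lifts_iff_coeff_lifts]
    intro i
    exact ⟨⟨G.coeff i, hcoeff i⟩, rfl⟩
  obtain ⟨q, hq, -, hqm⟩ := Polynomial.lifts_and_natDegree_eq_and_monic hl hG
  refine ⟨q, hqm, ?_⟩
  have h : Polynomial.eval r (q.map S.subtype) = 0 := by rw [hq]; exact hr
  rw [Polynomial.eval_map] at h
  exact h

/-- Every element of the multiset `m` is a root of `∏_{a ∈ m} (X - a)`. -/
theorem eval_prod_X_sub_C_eq_zero (m : Multiset L) (r : L) (hr : r ∈ m) :
    ((m.map (fun a => X - C a)).prod).eval r = 0 := by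
  rw [Polynomial.eval_multiset_prod, Multiset.map_map]
  apply Multiset.prod_eq_zero
  rw [Multiset.mem_map]
  exact ⟨r, hr, by simp⟩

/-- The coefficients of `∏_{a ∈ m} (X - a)` lie in every subring containing `m`. -/
theorem coeff_prod_X_sub_C_mem (S : Subring L) (m : Multiset L) (hm : ∀ r ∈ m, r ∈ S) (n : ℕ) :
    ((m.map (fun r => X - C r)).prod).coeff n ∈ S := by
  have h : (m.map (fun r => X - C r)).prod ∈ Polynomial.lifts S.subtype := by
    refine Subsemiring.multiset_prod_mem _ _ fun p hp => ?_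
    obtain ⟨r, hr, rfl⟩ := Multiset.mem_map.mp hp
    rw [Polynomial.mem_lifts]
    exact ⟨X - C ⟨r, hm r hr⟩, by simp⟩
  rw [Polynomial.lifts_iff_coeff_lifts] at h
  obtain ⟨y, hy⟩ := h n
  rw [← hy]
  exact y.2

theorem coeff_zero_prod_X_sub_C (m : Multiset L) :
    ((m.map (fun r => X - C r)).prod).coeff 0 = (m.map (fun r => -r)).prod := by
  rw [Polynomial.coeff_zero_eq_eval_zero, Polynomial.eval_multiset_prod, Multiset.map_map]
  congr 1
  refine Multiset.map_congr rfl fun r _ => ?_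
  simp

end Generalities

/-! ### Reversal of a product of linear factors -/

section Reverse

variable {L : Type*} [Field L]

theorem reverse_X_sub_C (a : L) (ha : a ≠ 0) :
    (X - C a : Polynomial L).reverse = C (-a) * (X - C a⁻¹) := by
  ext n
  rw [Polynomial.coeff_reverse, Polynomial.natDegree_X_sub_C, Polynomial.coeff_C_mul,
    Polynomial.coeff_sub, Polynomial.coeff_sub]
  rcases Nat.lt_or_ge 1 n with hn | hn
  · rw [Polynomial.revAt_eq_self_of_lt hn, Polynomial.coeff_X, Polynomial.coeff_C,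
      if_neg (by omega), if_neg (by omega), Polynomial.coeff_C, if_neg (by omega)]
    ring
  · rw [Polynomial.revAt_le hn]
    interval_cases n
    · simp [Polynomial.coeff_X, Polynomial.coeff_C, ha]
    · simp [Polynomial.coeff_X, Polynomial.coeff_C]

/-- `rev ∏ (X - r) = ∏ (-r) * ∏ (X - r⁻¹)` for nonzero `r`'s. -/
theorem reverse_prod_X_sub_C (m : Multiset L) (h0 : ∀ r ∈ m, r ≠ 0) :
    ((m.map (fun r => X - C r)).prod).reverse
      = C ((m.map (fun r => -r)).prod) * (m.map (fun r => X - C r⁻¹)).prod := by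
  induction m using Multiset.induction_on with
  | empty =>
    have h1 : (1 : Polynomial L).reverse = 1 := by
      rw [← Polynomial.C_1, Polynomial.reverse_C]
    simp [h1]
  | cons a m ih =>
    rw [Multiset.map_cons, Multiset.prod_cons, Polynomial.reverse_mul_of_domain,
      ih (fun r hr => h0 r (Multiset.mem_cons_of_mem hr)),
      reverse_X_sub_C a (h0 a (Multiset.mem_cons_self a m)), Multiset.map_cons,
      Multiset.prod_cons, Multiset.map_cons, Multiset.prod_cons, C_mul]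
    ring

theorem coeff_prod_revAt (m : Multiset L) (h0 : ∀ r ∈ m, r ≠ 0) (n : ℕ) :
    ((m.map (fun r => X - C r)).prod).coeff
        (revAt ((m.map (fun r => X - C r)).prod).natDegree n)
      = ((m.map (fun r => X - C r)).prod).coeff 0 *
          ((m.map (fun r => X - C r⁻¹)).prod).coeff n := by
  rw [← Polynomial.coeff_reverse, reverse_prod_X_sub_C m h0, Polynomial.coeff_C_mul,
    coeff_zero_prod_X_sub_C]

theorem eval_inv_prod_eq_zero (m : Multiset L) (r : L) (hr : r ∈ m) :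
    ((m.map (fun a => X - C a⁻¹)).prod).eval r⁻¹ = 0 := by
  have h := eval_prod_X_sub_C_eq_zero (m.map (fun a => a⁻¹)) r⁻¹
    (Multiset.mem_map.mpr ⟨r, hr, rfl⟩)
  rw [Multiset.map_map] at h
  exact h

theorem coeff_inv_prod_mem (S : Subring L) (m : Multiset L) (hm : ∀ r ∈ m, r⁻¹ ∈ S) (n : ℕ) :
    ((m.map (fun r => X - C r⁻¹)).prod).coeff n ∈ S := by
  have h := coeff_prod_X_sub_C_mem S (m.map (fun a => a⁻¹))
    (fun r hr => by
      obtain ⟨a, ha, rfl⟩ := Multiset.mem_map.mp hr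
      exact hm a ha) n
  rw [Multiset.map_map] at h
  exact h

end Reverse

/-! ### Orders and leading coefficients -/

section Order

/-- Laurent series without a pole, as a subring of `K((q))`. -/
noncomputable def psRing (K : Type*) [Field K] : Subring (LaurentSeries K) where
  carrier := {x | 0 ≤ x.order}
  mul_mem' := by
    intro x y hx hy
    change 0 ≤ x.order at hx
    change 0 ≤ y.order at hy
    change 0 ≤ (x * y).order
    rcases eq_or_ne x 0 with rfl | hx0
    · rw [zero_mul, HahnSeries.order_zero]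
    rcases eq_or_ne y 0 with rfl | hy0
    · rw [mul_zero, HahnSeries.order_zero]
    rw [HahnSeries.order_mul hx0 hy0]
    exact add_nonneg hx hy
  one_mem' := by
    change 0 ≤ (1 : LaurentSeries K).order
    rw [HahnSeries.order_one]
  add_mem' := by
    intro x y hx hy
    change 0 ≤ x.order at hx
    change 0 ≤ y.order at hy
    change 0 ≤ (x + y).order
    rcases eq_or_ne (x + y) 0 with h | h
    · rw [h, HahnSeries.order_zero]
    · exact le_trans (le_min hx hy) (HahnSeries.min_order_le_order_add h)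
  zero_mem' := by
    change 0 ≤ (0 : LaurentSeries K).order
    rw [HahnSeries.order_zero]
  neg_mem' := by
    intro x hx
    change 0 ≤ x.order at hx
    change 0 ≤ (-x).order
    rw [HahnSeries.order_neg]
    exact hx

theorem mem_psRing {x : LaurentSeries K} : x ∈ psRing K ↔ 0 ≤ x.order := Iff.rfl

theorem inv_mem_psRing {x : LaurentSeries K} (hx : x.order < 0) : x⁻¹ ∈ psRing K := by
  rw [mem_psRing, laurent_order_inv]
  omega

theorem ne_zero_of_order_neg {x : LaurentSeries K} (hx : x.order < 0) : x ≠ 0 := by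
  rintro rfl
  rw [HahnSeries.order_zero] at hx
  exact lt_irrefl _ hx

variable (x : LaurentSeries K)

/-- The coefficient of `P(x)` at `deg P * order x` is the leading coefficient of `P`, if `x` has a
pole with leading coefficient `1`. -/
theorem coeff_aeval_top (hord : x.order < 0) (hlead : x.leadingCoeff = 1) (P : Polynomial K) :
    (Polynomial.aeval x P).coeff (P.natDegree • x.order) = P.leadingCoeff := by
  rw [Polynomial.aeval_eq_sum_range, HahnSeries.coeff_sum]
  rw [Finset.sum_eq_single P.natDegree]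
  · rw [Algebra.smul_def, ModEqDescent.coeff_algebraMap_mul', ← HahnSeries.order_pow,
      ← HahnSeries.leadingCoeff_eq, ModEqDescent.leadingCoeff_pow', hlead, one_pow, mul_one]
    rfl
  · intro i hi hin
    have hi' : i < P.natDegree :=
      lt_of_le_of_ne (Nat.lt_succ_iff.mp (Finset.mem_range.mp hi)) hin
    rw [Algebra.smul_def, ModEqDescent.coeff_algebraMap_mul',
      HahnSeries.coeff_eq_zero_of_lt_order, mul_zero]
    rw [HahnSeries.order_pow, nsmul_eq_mul, nsmul_eq_mul]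
    have : ((i : ℤ)) < P.natDegree := by exact_mod_cast hi'
    nlinarith
  · intro hn'
    exact absurd (Finset.mem_range.mpr (Nat.lt_succ_self _)) hn'

theorem coeff_aeval_of_lt (hord : x.order < 0) (P : Polynomial K) (m : ℤ)
    (hm : m < P.natDegree • x.order) : (Polynomial.aeval x P).coeff m = 0 := by
  rw [Polynomial.aeval_eq_sum_range, HahnSeries.coeff_sum]
  refine Finset.sum_eq_zero fun i hi => ?_
  have hi' : i ≤ P.natDegree := Nat.lt_succ_iff.mp (Finset.mem_range.mp hi)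
  rw [Algebra.smul_def, ModEqDescent.coeff_algebraMap_mul',
    HahnSeries.coeff_eq_zero_of_lt_order, mul_zero]
  rw [HahnSeries.order_pow, nsmul_eq_mul]
  rw [nsmul_eq_mul] at hm
  have : ((i : ℤ)) ≤ P.natDegree := by exact_mod_cast hi'
  nlinarith

theorem order_aeval (hord : x.order < 0) (hlead : x.leadingCoeff = 1) (P : Polynomial K)
    (hP : P ≠ 0) : (Polynomial.aeval x P).order = P.natDegree • x.order :=
  laurent_order_eq_of_coeff
    (by rw [coeff_aeval_top x hord hlead]; exact Polynomial.leadingCoeff_ne_zero.mpr hP)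
    (fun m hm => coeff_aeval_of_lt x hord P m hm)

theorem leadingCoeff_aeval (hord : x.order < 0) (hlead : x.leadingCoeff = 1) (P : Polynomial K)
    (hP : P ≠ 0) : (Polynomial.aeval x P).leadingCoeff = P.leadingCoeff := by
  rw [HahnSeries.leadingCoeff_eq, order_aeval x hord hlead P hP, coeff_aeval_top x hord hlead]

theorem aeval_ne_zero (hord : x.order < 0) (hlead : x.leadingCoeff = 1) (P : Polynomial K)
    (hP : P ≠ 0) : Polynomial.aeval x P ≠ 0 := by
  rw [← HahnSeries.leadingCoeff_ne_zero, leadingCoeff_aeval x hord hlead P hP]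
  exact Polynomial.leadingCoeff_ne_zero.mpr hP

/-- Units of the subring `A` are preserved by leading coefficients of products. -/
theorem leadingCoeff_prod_mem (A : Subring K) (m : Multiset (LaurentSeries K))
    (hm : ∀ r ∈ m, r.leadingCoeff ∈ A ∧ r.leadingCoeff⁻¹ ∈ A) :
    m.prod.leadingCoeff ∈ A ∧ m.prod.leadingCoeff⁻¹ ∈ A := by
  refine Multiset.prod_induction
    (fun y : LaurentSeries K => y.leadingCoeff ∈ A ∧ y.leadingCoeff⁻¹ ∈ A) m ?_ ?_ hm
  · intro a b ha hb
    rw [HahnSeries.leadingCoeff_mul, mul_inv]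
    exact ⟨A.mul_mem ha.1 hb.1, A.mul_mem ha.2 hb.2⟩
  · rw [HahnSeries.leadingCoeff_one, inv_one]
    exact ⟨A.one_mem, A.one_mem⟩

theorem order_jqModC' : (jqModC K).order = -1 :=
  laurent_order_eq_of_coeff (by rw [coeff_jqModC_neg_one]; exact one_ne_zero)
    (fun _ hm => coeff_jqModC_of_lt K hm)

theorem order_qExpand_jqModC (n : ℕ) [NeZero n] :
    (qExpand K n (jqModC K)).order = -(n : ℤ) := by
  rw [order_qExpand, order_jqModC', mul_neg, mul_one]

theorem order_qExpand_jqModC_neg (n : ℕ) [NeZero n] : (qExpand K n (jqModC K)).order < 0 := by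
  rw [order_qExpand_jqModC]
  have : (0 : ℤ) < n := by exact_mod_cast Nat.pos_of_ne_zero (NeZero.ne n)
  omega

theorem leadingCoeff_qExpand_jqModC (n : ℕ) [NeZero n] :
    (qExpand K n (jqModC K)).leadingCoeff = 1 := by
  rw [HahnSeries.leadingCoeff_eq, order_qExpand_jqModC,
    show (-(n : ℤ)) = (n : ℤ) * (-1) by ring, qExpand_coeff_mul, coeff_jqModC_neg_one]

theorem order_laurentRot_jqModC (ξ : Kˣ) : (laurentRot ξ (jqModC K)).order = -1 := by
  rw [order_laurentRot, order_jqModC']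

theorem leadingCoeff_laurentRot_jqModC (ξ : Kˣ) :
    (laurentRot ξ (jqModC K)).leadingCoeff = ((ξ⁻¹ : Kˣ) : K) := by
  rw [HahnSeries.leadingCoeff_eq, order_laurentRot_jqModC, laurentRot_coeff,
    coeff_jqModC_neg_one, mul_one, zpow_neg_one]

end Order

/-! ### The chart at a pole -/

section Chart

/-- **The chart at a pole.**  Let `x ∈ K((q))` have a pole with leading coefficient `1`, and let
`Φ ∈ A[Y][X]` be such that `Φ(X, x) = ∏_{r ∈ m} (X - r)`, where all `r ∈ m` have a pole with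
leading coefficient a unit of `A`.  Then there is `s ∈ A[V]` with `s(0) = 1` such that all
`1/r`, `r ∈ m`, are integral over `A[V][1/s(V)]`, where `V = 1/x`. -/
theorem exists_chart_at_pole (A : Subring K) (x : LaurentSeries K) (hord : x.order < 0)
    (hlead : x.leadingCoeff = 1) (Φ : Polynomial (Polynomial K))
    (hΦA : ∀ i j, (Φ.coeff i).coeff j ∈ A) (m : Multiset (LaurentSeries K))
    (hΦ : Φ.map (Polynomial.aeval x).toRingHom = (m.map (fun r => X - C r)).prod)
    (hmord : ∀ r ∈ m, r.order < 0)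
    (hmlead : ∀ r ∈ m, r.leadingCoeff ∈ A ∧ r.leadingCoeff⁻¹ ∈ A) :
    ∃ s : Polynomial K, (∀ i, s.coeff i ∈ A) ∧ s.coeff 0 = 1 ∧
      ∀ r ∈ m, IsIntegral (serRing A x⁻¹ (Polynomial.aeval x⁻¹ s)⁻¹) r⁻¹ := by
  have hx0 : x ≠ 0 := ne_zero_of_order_neg hord
  have hm0 : ∀ r ∈ m, r ≠ 0 := fun r hr => ne_zero_of_order_neg (hmord r hr)
  have hGc : ∀ i, ((m.map (fun r => X - C r)).prod).coeff i
      = Polynomial.aeval x (Φ.coeff i) := by
    intro i
    rw [← hΦ, Polynomial.coeff_map]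
    rfl
  have hG0 : ((m.map (fun r => X - C r)).prod).coeff 0 ≠ 0 := by
    rw [coeff_zero_prod_X_sub_C]
    apply Multiset.prod_ne_zero
    intro h
    obtain ⟨r, hr, hr0⟩ := Multiset.mem_map.mp h
    exact hm0 r hr (neg_eq_zero.mp hr0)
  have hc0ne : Φ.coeff 0 ≠ 0 := by
    intro h
    apply hG0
    rw [hGc, h, map_zero]
  have hlam : (Φ.coeff 0).leadingCoeff ∈ A ∧ (Φ.coeff 0).leadingCoeff⁻¹ ∈ A := by
    rw [← leadingCoeff_aeval x hord hlead _ hc0ne, ← hGc, coeff_zero_prod_X_sub_C]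
    refine leadingCoeff_prod_mem A _ fun r hr => ?_
    obtain ⟨r', hr', rfl⟩ := Multiset.mem_map.mp hr
    rw [HahnSeries.leadingCoeff_neg, inv_neg]
    exact ⟨A.neg_mem (hmlead r' hr').1, A.neg_mem (hmlead r' hr').2⟩
  have hlam0 : (Φ.coeff 0).leadingCoeff ≠ 0 := Polynomial.leadingCoeff_ne_zero.mpr hc0ne
  -- the polynomial with the inverse roots has power series coefficients
  have hHps : ∀ n, 0 ≤ (((m.map (fun r => X - C r⁻¹)).prod).coeff n).order := fun n =>
    coeff_inv_prod_mem (psRing K) m (fun r hr => inv_mem_psRing (hmord r hr)) n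
  have hrev := coeff_prod_revAt m hm0
  -- degree bound: `deg c_i ≤ deg c_0`
  have hdeg : ∀ i, (Φ.coeff i).natDegree ≤ (Φ.coeff 0).natDegree := by
    intro i
    rcases eq_or_ne (Φ.coeff i) 0 with h | h
    · rw [h, Polynomial.natDegree_zero]
      exact Nat.zero_le _
    · have h1 : Polynomial.aeval x (Φ.coeff i) = Polynomial.aeval x (Φ.coeff 0) *
          ((m.map (fun r => X - C r⁻¹)).prod).coeff
            (revAt ((m.map (fun r => X - C r)).prod).natDegree i) := by
        rw [← hGc, ← hGc, ← hrev, Polynomial.revAt_invol]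
      have hne : Polynomial.aeval x (Φ.coeff i) ≠ 0 := aeval_ne_zero x hord hlead _ h
      have hne0 : Polynomial.aeval x (Φ.coeff 0) ≠ 0 := aeval_ne_zero x hord hlead _ hc0ne
      have hneH : ((m.map (fun r => X - C r⁻¹)).prod).coeff
            (revAt ((m.map (fun r => X - C r)).prod).natDegree i) ≠ 0 := by
        intro h0
        rw [h0, mul_zero] at h1
        exact hne h1
      have h2 := HahnSeries.order_mul hne0 hneH
      rw [← h1, order_aeval x hord hlead _ h, order_aeval x hord hlead _ hc0ne] at h2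
      have h3 := hHps (revAt ((m.map (fun r => X - C r)).prod).natDegree i)
      rw [nsmul_eq_mul, nsmul_eq_mul] at h2
      by_contra hcon
      have h4 : ((Φ.coeff 0).natDegree : ℤ) < (Φ.coeff i).natDegree := by
        exact_mod_cast not_le.mp hcon
      nlinarith
  -- reflection: `V^d P(1/V) = (reflect d P)(V)`
  have hrefl : ∀ P : Polynomial K, P.natDegree ≤ (Φ.coeff 0).natDegree →
      Polynomial.aeval x⁻¹ (reflect (Φ.coeff 0).natDegree P) * x ^ (Φ.coeff 0).natDegree
        = Polynomial.aeval x P := by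
    intro P hP
    let _ : Invertible x := invertibleOfNonzero hx0
    have h := Polynomial.eval₂_reflect_mul_pow (algebraMap K (LaurentSeries K)) x _ P hP
    rw [invOf_eq_inv] at h
    rw [Polynomial.aeval_def, Polynomial.aeval_def]
    exact h
  refine ⟨C (Φ.coeff 0).leadingCoeff⁻¹ * reflect (Φ.coeff 0).natDegree (Φ.coeff 0), ?_, ?_, ?_⟩
  · intro i
    rw [Polynomial.coeff_C_mul, Polynomial.coeff_reflect]
    exact A.mul_mem hlam.2 (hΦA 0 _)
  · rw [Polynomial.coeff_C_mul, Polynomial.coeff_reflect, Polynomial.revAt_zero,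
      Polynomial.coeff_natDegree, inv_mul_cancel₀ hlam0]
  · -- the quotients `c_i(x) / c_0(x)` lie in the ring
    have hq : ∀ i, Polynomial.aeval x (Φ.coeff i) / Polynomial.aeval x (Φ.coeff 0) ∈
        serRing A x⁻¹ (Polynomial.aeval x⁻¹
          (C (Φ.coeff 0).leadingCoeff⁻¹ * reflect (Φ.coeff 0).natDegree (Φ.coeff 0)))⁻¹ := by
      intro i
      have hμ : algebraMap K (LaurentSeries K) (Φ.coeff 0).leadingCoeff⁻¹ ≠ 0 := by
        rw [Ne, map_eq_zero]
        exact inv_ne_zero hlam0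
      have e1 : Polynomial.aeval x (Φ.coeff i) / Polynomial.aeval x (Φ.coeff 0)
          = Polynomial.aeval x⁻¹
              (C (Φ.coeff 0).leadingCoeff⁻¹ * reflect (Φ.coeff 0).natDegree (Φ.coeff i)) *
            (Polynomial.aeval x⁻¹
              (C (Φ.coeff 0).leadingCoeff⁻¹ *
                reflect (Φ.coeff 0).natDegree (Φ.coeff 0)))⁻¹ := by
        rw [← hrefl _ (hdeg i), ← hrefl _ le_rfl, mul_div_mul_right _ _ (pow_ne_zero _ hx0),
          map_mul, map_mul, Polynomial.aeval_C, ← div_eq_mul_inv, mul_div_mul_left _ _ hμ]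
      rw [e1]
      refine Subring.mul_mem _ (aeval_mem_serRing A _ _ _ ?_) (snd_mem_serRing A _ _)
      intro j
      rw [Polynomial.coeff_C_mul, Polynomial.coeff_reflect]
      exact A.mul_mem hlam.2 (hΦA i _)
    have hHc : ∀ n, ((m.map (fun r => X - C r⁻¹)).prod).coeff n ∈
        serRing A x⁻¹ (Polynomial.aeval x⁻¹
          (C (Φ.coeff 0).leadingCoeff⁻¹ * reflect (Φ.coeff 0).natDegree (Φ.coeff 0)))⁻¹ := by
      intro n
      have e2 : ((m.map (fun r => X - C r⁻¹)).prod).coeff n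
          = Polynomial.aeval x (Φ.coeff (revAt ((m.map (fun r => X - C r)).prod).natDegree n)) /
            Polynomial.aeval x (Φ.coeff 0) := by
        rw [eq_div_iff (aeval_ne_zero x hord hlead _ hc0ne), ← hGc, ← hGc, hrev, mul_comm]
      rw [e2]
      exact hq _
    intro r hr
    exact isIntegral_of_monic_of_coeff_mem _ _
      (Polynomial.monic_multiset_prod_of_monic m _ (fun r _ => Polynomial.monic_X_sub_C _))
      hHc r⁻¹ (eval_inv_prod_eq_zero m r hr)

end Chart

/-! ### The modular equation over the subring `A` -/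

section ModEq

variable (ℓ : ℕ) [Fact ℓ.Prime] (A : Subring K) (ζ : Kˣ)

/-- A root of unity of `K` lying in `A` is a unit of `A`. -/
theorem exists_unit_of_mem (hζ : IsPrimitiveRoot ζ ℓ) (hζA : (ζ : K) ∈ A) :
    ∃ u : (↥A)ˣ, Units.map (A.subtype : ↥A →* K) u = ζ := by
  have hℓ : ℓ ≠ 0 := (Fact.out : ℓ.Prime).ne_zero
  have h1 : (ζ : K) ^ ℓ = 1 := by
    rw [← Units.val_pow_eq_pow_val, hζ.pow_eq_one, Units.val_one]
  let g : ↥A := ⟨(ζ : K), hζA⟩
  have hg : g ^ ℓ = 1 := Subtype.ext h1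
  exact ⟨Units.ofPowEqOne g ℓ hg hℓ, Units.ext rfl⟩

/-- The conjugates of `j` over `K(j(q^ℓ))`: the roots of the modular equation. -/
noncomputable def conjRoots : Multiset (LaurentSeries K) :=
  qExpand K (ℓ * ℓ) (jqModC K) ::ₘ
    (Multiset.range ℓ).map (fun b => laurentRot (ζ ^ b) (jqModC K))

theorem rhs_eq_prod :
    ModEqDescent.rhs K ℓ ζ = ((conjRoots ℓ ζ).map (fun r => X - C r)).prod := by
  rw [conjRoots, Multiset.map_cons, Multiset.prod_cons, Multiset.map_map, ModEqDescent.rhs,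
    Finset.prod_eq_multiset_prod]
  rfl

theorem inf_mem_conj : qExpand K (ℓ * ℓ) (jqModC K) ∈ conjRoots ℓ ζ :=
  Multiset.mem_cons_self _ _

theorem rot_mem_conj (hζ : IsPrimitiveRoot ζ ℓ) (b : ℕ) :
    laurentRot (ζ ^ b) (jqModC K) ∈ conjRoots ℓ ζ := by
  refine Multiset.mem_cons_of_mem (Multiset.mem_map.mpr ⟨b % ℓ, ?_, ?_⟩)
  · exact Multiset.mem_range.mpr (Nat.mod_lt _ (Fact.out : ℓ.Prime).pos)
  · rw [← pow_eq_pow_mod b hζ.pow_eq_one]

theorem order_neg_of_mem_conj (r : LaurentSeries K) (hr : r ∈ conjRoots ℓ ζ) : r.order < 0 := by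
  rcases Multiset.mem_cons.mp hr with rfl | hr
  · exact order_qExpand_jqModC_neg (ℓ * ℓ)
  · obtain ⟨b, -, rfl⟩ := Multiset.mem_map.mp hr
    rw [order_laurentRot_jqModC]
    omega

theorem leadingCoeff_mem_of_mem_conj (hζ : IsPrimitiveRoot ζ ℓ) (hζA : (ζ : K) ∈ A)
    (r : LaurentSeries K) (hr : r ∈ conjRoots ℓ ζ) :
    r.leadingCoeff ∈ A ∧ r.leadingCoeff⁻¹ ∈ A := by
  rcases Multiset.mem_cons.mp hr with rfl | hr
  · rw [leadingCoeff_qExpand_jqModC, inv_one]
    exact ⟨A.one_mem, A.one_mem⟩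
  · obtain ⟨b, -, rfl⟩ := Multiset.mem_map.mp hr
    obtain ⟨u, hu⟩ := exists_unit_of_mem ℓ A ζ hζ hζA
    rw [leadingCoeff_laurentRot_jqModC, Units.val_inv_eq_inv_val, inv_inv, ← hu]
    refine ⟨?_, ?_⟩
    · have h : ((Units.map (A.subtype : ↥A →* K) u ^ b : Kˣ) : K)⁻¹
          = (((u ^ b)⁻¹ : (↥A)ˣ) : ↥A) := by
        rw [← map_pow, ← Units.val_inv_eq_inv_val, ← map_inv]
        rfl
      rw [h]
      exact Subtype.property _
    · have h : ((Units.map (A.subtype : ↥A →* K) u ^ b : Kˣ) : K)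
          = (((u ^ b) : (↥A)ˣ) : ↥A) := by
        rw [← map_pow]
        rfl
      rw [h]
      exact Subtype.property _

/-- The coefficients of the modular polynomial lie in `A`. -/
theorem coeff_mem_of_modEq (hζ : IsPrimitiveRoot ζ ℓ) (hζA : (ζ : K) ∈ A)
    (Φ : Polynomial (Polynomial K))
    (hΦ : Φ.map (Polynomial.aeval (qExpand K ℓ (jqModC K))).toRingHom = ModEqDescent.rhs K ℓ ζ)
    (i j : ℕ) : (Φ.coeff i).coeff j ∈ A := by
  obtain ⟨u, hu⟩ := exists_unit_of_mem ℓ A ζ hζ hζA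
  have hxA : coeffMap A.subtype (qExpand ↥A ℓ (jqModC ↥A)) = qExpand K ℓ (jqModC K) := by
    rw [coeffMap_qExpand, coeffMap_jqModC]
  have hrhs : (ModEqDescent.rhs ↥A ℓ u).map (coeffMap A.subtype) = ModEqDescent.rhs K ℓ ζ := by
    rw [ModEqDescent.map_rhs, hu]
  have hl : Φ.coeff i ∈ Polynomial.lifts A.subtype := by
    refine ModEqDescent.mem_lifts_of_aeval_mem A.subtype (qExpand K ℓ (jqModC K)) ⟨_, hxA⟩
      (order_qExpand_jqModC_neg ℓ) (leadingCoeff_qExpand_jqModC ℓ) _ (Φ.coeff i) rfl ?_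
    have h1 : Polynomial.aeval (qExpand K ℓ (jqModC K)) (Φ.coeff i)
        = (Φ.map (Polynomial.aeval (qExpand K ℓ (jqModC K))).toRingHom).coeff i := by
      rw [Polynomial.coeff_map]
      rfl
    rw [h1, hΦ, ← hrhs, Polynomial.coeff_map]
    exact ⟨_, rfl⟩
  rw [Polynomial.lifts_iff_coeff_lifts] at hl
  obtain ⟨a, ha⟩ := hl j
  rw [← ha]
  exact a.2

/-- The modular equation at `ℓ`, with the coefficients of the modular polynomial in `A`. -/
theorem exists_modEq_mem (hζ : IsPrimitiveRoot ζ ℓ) (hζA : (ζ : K) ∈ A) :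
    ∃ Φ : Polynomial (Polynomial K), Φ.Monic ∧ Φ.natDegree = ℓ + 1 ∧
      (∀ i j, (Φ.coeff i).coeff j ∈ A) ∧
      Φ.map (Polynomial.aeval (qExpand K ℓ (jqModC K))).toRingHom =
        (X - C (qExpand K (ℓ * ℓ) (jqModC K))) *
          ∏ b ∈ Finset.range ℓ, (X - C (laurentRot (ζ ^ b) (jqModC K))) := by
  obtain ⟨Φ, hΦm, hΦd, hΦ⟩ := exists_modEq K ℓ ζ hζ
  exact ⟨Φ, hΦm, hΦd, coeff_mem_of_modEq ℓ A ζ hζ hζA Φ hΦ, hΦ⟩

/-- Every conjugate is integral over `A[j(q^ℓ)]`. -/
theorem isIntegral_fin_of_mem_conj (hζ : IsPrimitiveRoot ζ ℓ) (hζA : (ζ : K) ∈ A)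
    (r : LaurentSeries K) (hr : r ∈ conjRoots ℓ ζ) :
    IsIntegral (serRing A (qExpand K ℓ (jqModC K)) 1) r := by
  obtain ⟨Φ, hΦm, -, hΦ⟩ := exists_modEq K ℓ ζ hζ
  have hΦ' : Φ.map (Polynomial.aeval (qExpand K ℓ (jqModC K))).toRingHom
      = ModEqDescent.rhs K ℓ ζ := hΦ
  refine isIntegral_of_monic_of_coeff_mem _
    (Φ.map (Polynomial.aeval (qExpand K ℓ (jqModC K))).toRingHom) (hΦm.map _) ?_ r ?_
  · intro i
    rw [Polynomial.coeff_map]
    exact aeval_mem_serRing A _ _ (Φ.coeff i) (coeff_mem_of_modEq ℓ A ζ hζ hζA Φ hΦ' i)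
  · rw [hΦ', rhs_eq_prod]
    exact eval_prod_X_sub_C_eq_zero _ r hr

end ModEq

variable (ℓ : ℕ) [Fact ℓ.Prime] (A : Subring K) (ζ : Kˣ)

/-- `j(q^{ℓ²})` is integral over `A[j(q^ℓ)]`. -/
theorem isIntegral_fin_inf (hζ : IsPrimitiveRoot ζ ℓ) (hζA : (ζ : K) ∈ A) :
    IsIntegral (serRing A (qExpand K ℓ (jqModC K)) 1) (qExpand K (ℓ * ℓ) (jqModC K)) :=
  isIntegral_fin_of_mem_conj ℓ A ζ hζ hζA _ (inf_mem_conj ℓ ζ)

/-- `j(ζ^b q)` is integral over `A[j(q^ℓ)]`. -/
theorem isIntegral_fin_rot (hζ : IsPrimitiveRoot ζ ℓ) (hζA : (ζ : K) ∈ A) (b : ℕ) :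
    IsIntegral (serRing A (qExpand K ℓ (jqModC K)) 1) (laurentRot (ζ ^ b) (jqModC K)) :=
  isIntegral_fin_of_mem_conj ℓ A ζ hζ hζA _ (rot_mem_conj ℓ ζ hζ b)

/-- `j(q^ℓ)` is integral over `A[j(q)]`. -/
theorem isIntegral_fin_swap (hζ : IsPrimitiveRoot ζ ℓ) (hζA : (ζ : K) ∈ A) :
    IsIntegral (serRing A (jqModC K) 1) (qExpand K ℓ (jqModC K)) := by
  obtain ⟨Φ, hΦm, -, hΦ⟩ := exists_modEq K ℓ ζ hζ
  refine isIntegral_of_monic_of_coeff_mem _
    (Φ.map (Polynomial.aeval (jqModC K)).toRingHom) (hΦm.map _) ?_ _ ?_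
  · intro i
    rw [Polynomial.coeff_map]
    exact aeval_mem_serRing A _ _ (Φ.coeff i) (coeff_mem_of_modEq ℓ A ζ hζ hζA Φ hΦ i)
  · rw [Polynomial.eval_map]
    exact modEq_eval₂_eq_zero K ℓ ζ hΦ

/-- The cusp chart: there is `s ∈ A[V]`, `s(0) = 1`, such that the inverses of all conjugates of
`j` are integral over `A[V][1/s(V)]`, `V = 1/j(q^ℓ)`. -/
theorem exists_inf (hζ : IsPrimitiveRoot ζ ℓ) (hζA : (ζ : K) ∈ A) :
    ∃ s : Polynomial K, (∀ i, s.coeff i ∈ A) ∧ s.coeff 0 = 1 ∧
      IsIntegral (serRing A (qExpand K ℓ (jqModC K))⁻¹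
          (Polynomial.aeval (qExpand K ℓ (jqModC K))⁻¹ s)⁻¹)
        (qExpand K (ℓ * ℓ) (jqModC K))⁻¹ ∧
      ∀ b : ℕ, IsIntegral (serRing A (qExpand K ℓ (jqModC K))⁻¹
          (Polynomial.aeval (qExpand K ℓ (jqModC K))⁻¹ s)⁻¹)
        (laurentRot (ζ ^ b) (jqModC K))⁻¹ := by
  obtain ⟨Φ, -, -, hΦ⟩ := exists_modEq K ℓ ζ hζ
  have hΦ' : Φ.map (Polynomial.aeval (qExpand K ℓ (jqModC K))).toRingHom
      = ModEqDescent.rhs K ℓ ζ := hΦ
  obtain ⟨s, hsA, hs0, hs⟩ := exists_chart_at_pole A (qExpand K ℓ (jqModC K))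
    (order_qExpand_jqModC_neg ℓ) (leadingCoeff_qExpand_jqModC ℓ) Φ
    (coeff_mem_of_modEq ℓ A ζ hζ hζA Φ hΦ') (conjRoots ℓ ζ) (hΦ'.trans (rhs_eq_prod ℓ ζ))
    (order_neg_of_mem_conj ℓ ζ) (leadingCoeff_mem_of_mem_conj ℓ A ζ hζ hζA)
  exact ⟨s, hsA, hs0, hs _ (inf_mem_conj ℓ ζ), fun b => hs _ (rot_mem_conj ℓ ζ hζ b)⟩

end Fermat.Agent.S37.KronModEq
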