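import Fermat.Agent.S37.ALCore
import Fermat.Agent.S18.Char0DegK
import Fermat.Agent.S24.FFLAlg
import Fermat.Prelude.Def_ModularCurve_HeckeOperator

/-!
# The Atkin–Lehner embedding and the degree of `β`  (P12 [AL])

`F_M := laurentBaseChange L (modularFunctionFieldFull M)` (`= modularFunctionFieldBar M` for
`L = ℚ̄`), `α = heckeAlphaBar` (inclusion `F_N ⊆ F_{Nℓ}`), `β = heckeBetaBar` (`q ↦ q^ℓ`).

* `exists_alEmb`: the Atkin–Lehner embedding `τ : F_{Nℓ} → L((q))` with `τ ∘ β = β`,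
  `τ (α f) = f(q^{ℓ²})`;
* `exists_alInvolution`: the involution `w` of `F_{Nℓ}` with `w ∘ β = α`, `w ∘ α = β`;
* `finrankAlong_heckeBetaBar`, `finrankAlong_heckeAlphaBar`: both degrees are `ℓ + 1`.
-/

set_option autoImplicit false

namespace Fermat.Agent.S37

open ModularCurve AlgebraicCurve IntermediateField

namespace ALEmb

open ALCore

section Generic
variable {K E E' : Type*} [Field K] [Field E] [Algebra K E] [Field E'] [Algebra K E'] {σ : Type*}

open scoped IntermediateField.algebraAdjoinAdjoin in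
/-- Two families with the same polynomial relations: the field generated by the first maps to
the second. -/
theorem exists_algHom_of_ker (g : σ → E) (g' : σ → E')
    (F : IntermediateField K E) (hF : F = IntermediateField.adjoin K (Set.range g))
    (h : ∀ P : MvPolynomial σ K, MvPolynomial.aeval g P = 0 ↔ MvPolynomial.aeval g' P = 0) :
    ∃ τ : ↥F →ₐ[K] E', ∀ (y : ↥F) (i : σ), (y : E) = g i → τ y = g' i := by
  subst hF
  have hA : ∀ x : ↥(Algebra.adjoin K (Set.range g)),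
      ∃ P : MvPolynomial σ K, MvPolynomial.aeval g P = (x : E) := by
    intro x
    have hx : (x : E) ∈ (MvPolynomial.aeval g : MvPolynomial σ K →ₐ[K] E).range := by
      rw [← Algebra.adjoin_range_eq_range_aeval]
      exact x.2
    exact hx
  have key : ∀ (x : ↥(Algebra.adjoin K (Set.range g))) (P : MvPolynomial σ K),
      MvPolynomial.aeval g P = (x : E) →
        MvPolynomial.aeval g' (Classical.choose (hA x)) = MvPolynomial.aeval g' P := by
    intro x P hP
    have h1 : MvPolynomial.aeval g (Classical.choose (hA x) - P) = 0 := by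
      rw [map_sub, Classical.choose_spec (hA x), hP, sub_self]
    have h2 := (h _).mp h1
    rwa [map_sub, sub_eq_zero] at h2
  let τ₀ : ↥(Algebra.adjoin K (Set.range g)) →ₐ[K] E' :=
    { toFun := fun x => MvPolynomial.aeval g' (Classical.choose (hA x))
      map_one' := by
        rw [key 1 1 (by rw [map_one]; rfl), map_one]
      map_mul' := fun x y => by
        rw [key (x * y) (Classical.choose (hA x) * Classical.choose (hA y))
          (by rw [map_mul, Classical.choose_spec (hA x), Classical.choose_spec (hA y)]; rfl),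
          map_mul]
      map_zero' := by
        rw [key 0 0 (by rw [map_zero]; rfl), map_zero]
      map_add' := fun x y => by
        rw [key (x + y) (Classical.choose (hA x) + Classical.choose (hA y))
          (by rw [map_add, Classical.choose_spec (hA x), Classical.choose_spec (hA y)]; rfl),
          map_add]
      commutes' := fun c => by
        rw [key (algebraMap K _ c) (MvPolynomial.C c) (by rw [MvPolynomial.aeval_C]; rfl),
          MvPolynomial.aeval_C] }
  have hτ₀ : ∀ (x : ↥(Algebra.adjoin K (Set.range g))) (P : MvPolynomial σ K),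
      MvPolynomial.aeval g P = (x : E) → τ₀ x = MvPolynomial.aeval g' P := key
  have hinj : Function.Injective τ₀ := by
    rw [injective_iff_map_eq_zero]
    intro x hx
    have h1 : MvPolynomial.aeval g' (Classical.choose (hA x)) = 0 := hx
    have h2 := (h _).mpr h1
    apply Subtype.ext
    rw [← Classical.choose_spec (hA x), h2]
    rfl
  refine ⟨IsFractionRing.liftAlgHom hinj, ?_⟩
  intro y i hy
  have hy' : y = algebraMap ↥(Algebra.adjoin K (Set.range g))
      ↥(IntermediateField.adjoin K (Set.range g))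
        ⟨g i, Algebra.subset_adjoin (Set.mem_range_self i)⟩ :=
    Subtype.ext hy
  rw [hy', IsFractionRing.liftAlgHom_apply, IsFractionRing.lift_algebraMap]
  exact (hτ₀ _ (MvPolynomial.X i) (by rw [MvPolynomial.aeval_X])).trans (MvPolynomial.aeval_X _ _)

/-- Algebra homomorphisms out of a field generated by a family are determined on the family. -/
theorem algHom_ext_of_gen (g : σ → E) (F : IntermediateField K E)
    (hF : F = IntermediateField.adjoin K (Set.range g)) {φ₁ φ₂ : ↥F →ₐ[K] E'}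
    (h : ∀ (y : ↥F) (i : σ), (y : E) = g i → φ₁ y = φ₂ y) : φ₁ = φ₂ := by
  subst hF
  apply IntermediateField.adjoin_algHom_ext
  rintro x ⟨i, rfl⟩
  exact h _ i rfl

/-- The degree of an inclusion of intermediate fields is the relative degree. -/
theorem finrank_inclusion {A B : IntermediateField K E} (h : A ≤ B) :
    @Module.finrank ↥A ↥B _ _ (IntermediateField.inclusion h).toRingHom.toAlgebra.toModule =
      A.relfinrank B := by
  rw [IntermediateField.relfinrank_eq_finrank_of_le h]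
  let j : ↥B ≃+* ↥(IntermediateField.extendScalars h) :=
    { toFun := fun x => ⟨x.1, x.2⟩
      invFun := fun x => ⟨x.1, x.2⟩
      left_inv := fun _ => rfl
      right_inv := fun _ => rfl
      map_mul' := fun _ _ => rfl
      map_add' := fun _ _ => rfl }
  exact @Algebra.finrank_eq_of_equiv_equiv ↥A ↥B _ _
    (IntermediateField.inclusion h).toRingHom.toAlgebra ↥A ↥(IntermediateField.extendScalars h)
    _ _ _ (RingEquiv.refl _) j (by ext a; rfl)

end Generic

section Specific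
variable (L : Type*) [Field L] [Algebra ℚ L]

theorem coeffEmb_qExpand_jq (d : ℕ) [NeZero d] : coeffEmb L (qExpand ℚ d jq) = jd L d := by
  rw [jd_eq, coeffEmb, coeffMap_qExpand, ← jqModC_rat, coeffMap_jqModC]

theorem jd_mem (M : ℕ) [NeZero M] {D : ℕ} (hD : D ∣ M) :
    jd L D ∈ laurentBaseChange L (modularFunctionFieldFull M) := by
  have : NeZero D := ⟨ne_zero_of_dvd_ne_zero (NeZero.ne M) hD⟩
  rw [← coeffEmb_qExpand_jq]
  exact coeffEmb_mem_laurentBaseChange L (jqd_mem_full M hD)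

/-- `F_M` is generated by the `j(q^D)`, `D ∣ M`. -/
theorem baseChange_eq_adjoin (M : ℕ) [NeZero M] :
    laurentBaseChange L (modularFunctionFieldFull M) =
      IntermediateField.adjoin L (Set.range (fun i : {D : ℕ // D ∣ M} => jd L i)) := by
  apply le_antisymm
  · intro x hx
    refine Fermat.Agent.S24.FFL_induction M L
      (P := fun x => x ∈ IntermediateField.adjoin L
        (Set.range (fun i : {D : ℕ // D ∣ M} => jd L i))) ?_ ?_ ?_ ?_ ?_ ?_ hx
    · intro c
      exact IntermediateField.algebraMap_mem _ c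
    · intro d _ hd
      rw [coeffEmb_qExpand_jq]
      exact IntermediateField.subset_adjoin L _ ⟨⟨d, hd⟩, rfl⟩
    · intro x y hx hy
      exact add_mem hx hy
    · intro x hx
      exact neg_mem hx
    · intro x y hx hy
      exact mul_mem hx hy
    · intro x hx
      exact inv_mem hx
  · rw [IntermediateField.adjoin_le_iff]
    rintro _ ⟨⟨D, hD⟩, rfl⟩
    exact jd_mem L M hD

/-- The two descriptions of the function field of `X₀(M)` over `L` agree. -/
theorem baseChange_eq_fullC (M : ℕ) [NeZero M] :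
    laurentBaseChange L (modularFunctionFieldFull M) = modularFunctionFieldFullC L M := by
  rw [baseChange_eq_adjoin, modularFunctionFieldFullC]
  congr 1
  ext x
  constructor
  · rintro ⟨⟨D, hD⟩, rfl⟩
    have hne : NeZero D := ⟨ne_zero_of_dvd_ne_zero (NeZero.ne M) hD⟩
    exact ⟨D, hne, hD, jd_eq L D⟩
  · rintro ⟨d, hne, hd, rfl⟩
    exact ⟨⟨d, hd⟩, jd_eq L d⟩

omit [Algebra ℚ L] in
theorem aeval_jd_eq_evS {σ : Type*} (D : σ → ℕ) (P : MvPolynomial σ L) :
    MvPolynomial.aeval (fun i => jd L (D i)) P = evS L D P := by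
  have h : (MvPolynomial.aeval (fun i => jd L (D i)) :
      MvPolynomial σ L →ₐ[L] LaurentSeries L).toRingHom = evS L D := by
    refine MvPolynomial.ringHom_ext (fun c => ?_) (fun i => ?_)
    · show MvPolynomial.aeval _ (MvPolynomial.C c) = _
      rw [MvPolynomial.aeval_C, evS_C, algebraMap_laurentSeries_eq_single]
      rfl
    · show MvPolynomial.aeval _ (MvPolynomial.X i) = _
      rw [MvPolynomial.aeval_X, evS_X]
  exact congrArg (fun φ => φ P) h

end Specific

section Arith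

theorem idx_eq (N ℓ : ℕ) (hcop : Nat.Coprime N ℓ) {D : ℕ} (hD : D ∣ N * ℓ) :
    D = Nat.gcd D N * Nat.gcd D ℓ := by
  rw [← Nat.Coprime.gcd_mul D hcop, Nat.gcd_eq_left hD]

theorem swap_dvd (N ℓ D : ℕ) : Nat.gcd D N * (ℓ / Nat.gcd D ℓ) ∣ N * ℓ :=
  mul_dvd_mul (Nat.gcd_dvd_right D N) (Nat.div_dvd_of_dvd (Nat.gcd_dvd_right D ℓ))

theorem swap_swap (N ℓ : ℕ) (hℓ : 0 < ℓ) (hcop : Nat.Coprime N ℓ) {D : ℕ} (hD : D ∣ N * ℓ) :
    Nat.gcd (Nat.gcd D N * (ℓ / Nat.gcd D ℓ)) N *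
      (ℓ / Nat.gcd (Nat.gcd D N * (ℓ / Nat.gcd D ℓ)) ℓ) = D := by
  have hD' := idx_eq N ℓ hcop hD
  obtain ⟨d, hd⟩ : ∃ d, d = Nat.gcd D N := ⟨_, rfl⟩
  obtain ⟨e, he⟩ : ∃ e, e = Nat.gcd D ℓ := ⟨_, rfl⟩
  rw [← hd, ← he] at hD' ⊢
  have hdN : d ∣ N := hd ▸ Nat.gcd_dvd_right D N
  have heℓ : e ∣ ℓ := he ▸ Nat.gcd_dvd_right D ℓ
  obtain ⟨e', rfl⟩ := heℓ
  have he0 : 0 < e := Nat.pos_of_ne_zero (by rintro rfl; rw [zero_mul] at hℓ; omega)
  have he'0 : 0 < e' := Nat.pos_of_ne_zero (by rintro rfl; rw [mul_zero] at hℓ; omega)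
  rw [Nat.mul_div_cancel_left e' he0]
  have h1 : Nat.Coprime e' N := (Nat.Coprime.coprime_dvd_right (Dvd.intro_left e rfl) hcop).symm
  have h2 : Nat.Coprime d (e * e') := Nat.Coprime.coprime_dvd_left hdN hcop
  rw [Nat.Coprime.gcd_mul_right_cancel d h1, Nat.gcd_eq_left hdN,
    Nat.Coprime.gcd_mul_left_cancel e' h2, Nat.gcd_eq_left (Dvd.intro_left e rfl),
    Nat.mul_div_cancel _ he'0]
  exact hD'.symm

theorem gcd_mul_of_dvd (N ℓ : ℕ) (hcop : Nat.Coprime N ℓ) {d : ℕ} (hd : d ∣ N) :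
    Nat.gcd (ℓ * d) N = d := by
  rw [Nat.Coprime.gcd_mul_left_cancel d hcop.symm, Nat.gcd_eq_left hd]

theorem gcd_of_dvd (N ℓ : ℕ) (hcop : Nat.Coprime N ℓ) {d : ℕ} (hd : d ∣ N) :
    Nat.gcd d ℓ = 1 :=
  Nat.Coprime.coprime_dvd_left hd hcop

end Arith

section Kernel
variable {L : Type*} [Field L] [Algebra ℚ L]

omit [Algebra ℚ L] in
theorem ker_swap (ι : L →+* ℂ) (N ℓ : ℕ) (hN : 0 < N) (hℓ : 0 < ℓ) (hcop : Nat.Coprime N ℓ)
    (P : MvPolynomial {D : ℕ // D ∣ N * ℓ} L) :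
    MvPolynomial.aeval (fun i : {D : ℕ // D ∣ N * ℓ} => jd L i) P = 0 ↔
      MvPolynomial.aeval (fun i : {D : ℕ // D ∣ N * ℓ} =>
        jd L (Nat.gcd i N * (ℓ / Nat.gcd i ℓ))) P = 0 := by
  rw [aeval_jd_eq_evS L (fun i : {D : ℕ // D ∣ N * ℓ} => (i : ℕ)),
    aeval_jd_eq_evS L (fun i : {D : ℕ // D ∣ N * ℓ} => Nat.gcd i N * (ℓ / Nat.gcd i ℓ))]
  have h1 : (fun i : {D : ℕ // D ∣ N * ℓ} => (i : ℕ)) =
      fun i : {D : ℕ // D ∣ N * ℓ} => Nat.gcd (i : ℕ) N * Nat.gcd (i : ℕ) ℓ :=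
    funext fun i => idx_eq N ℓ hcop i.2
  rw [h1]
  exact evS_swap_iff ι ι.injective N ℓ hN hℓ hcop
    (fun i : {D : ℕ // D ∣ N * ℓ} => Nat.gcd (i : ℕ) N)
    (fun i : {D : ℕ // D ∣ N * ℓ} => Nat.gcd (i : ℕ) ℓ)
    (fun i : {D : ℕ // D ∣ N * ℓ} => ℓ / Nat.gcd (i : ℕ) ℓ) (fun i => Nat.gcd_dvd_right _ _)
    (fun i => Nat.mul_div_cancel' (Nat.gcd_dvd_right _ _)) P

omit [Algebra ℚ L] in
theorem ker_tau (ι : L →+* ℂ) (N ℓ : ℕ) [NeZero ℓ] (hN : 0 < N) (hcop : Nat.Coprime N ℓ)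
    (P : MvPolynomial {D : ℕ // D ∣ N * ℓ} L) :
    MvPolynomial.aeval (fun i : {D : ℕ // D ∣ N * ℓ} => jd L i) P = 0 ↔
      MvPolynomial.aeval (fun i : {D : ℕ // D ∣ N * ℓ} =>
        jd L (ℓ * (Nat.gcd i N * (ℓ / Nat.gcd i ℓ)))) P = 0 := by
  rw [ker_swap ι N ℓ hN (Nat.pos_of_ne_zero (NeZero.ne ℓ)) hcop,
    aeval_jd_eq_evS L (fun i : {D : ℕ // D ∣ N * ℓ} => Nat.gcd i N * (ℓ / Nat.gcd i ℓ)),
    aeval_jd_eq_evS L (fun i : {D : ℕ // D ∣ N * ℓ} => ℓ * (Nat.gcd i N * (ℓ / Nat.gcd i ℓ))),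
    ← qExpand_evS L ℓ, map_eq_zero_iff _ (qExpand_injective (R := L) ℓ)]

end Kernel

section Maps
variable {L : Type*} [Field L] [Algebra ℚ L]

theorem exists_tau0 (ι : L →+* ℂ) (N ℓ : ℕ) [NeZero N] [NeZero ℓ] (hcop : Nat.Coprime N ℓ) :
    ∃ τ : ↥(laurentBaseChange L (modularFunctionFieldFull (N * ℓ))) →ₐ[L] LaurentSeries L,
      ∀ (y : ↥(laurentBaseChange L (modularFunctionFieldFull (N * ℓ)))) (D : ℕ), D ∣ N * ℓ →
        (y : LaurentSeries L) = jd L D →
          τ y = jd L (ℓ * (Nat.gcd D N * (ℓ / Nat.gcd D ℓ))) := by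
  obtain ⟨τ, hτ⟩ := exists_algHom_of_ker (fun i : {D : ℕ // D ∣ N * ℓ} => jd L i)
    (fun i : {D : ℕ // D ∣ N * ℓ} => jd L (ℓ * (Nat.gcd i N * (ℓ / Nat.gcd i ℓ))))
    (laurentBaseChange L (modularFunctionFieldFull (N * ℓ))) (baseChange_eq_adjoin L (N * ℓ))
    (ker_tau ι N ℓ (Nat.pos_of_ne_zero (NeZero.ne N)) hcop)
  exact ⟨τ, fun y D hD hy => hτ y ⟨D, hD⟩ hy⟩

theorem exists_w0 (ι : L →+* ℂ) (N ℓ : ℕ) [NeZero N] [NeZero ℓ] (hcop : Nat.Coprime N ℓ) :
    ∃ w : ↥(laurentBaseChange L (modularFunctionFieldFull (N * ℓ))) →ₐ[L]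
        ↥(laurentBaseChange L (modularFunctionFieldFull (N * ℓ))),
      ∀ (y : ↥(laurentBaseChange L (modularFunctionFieldFull (N * ℓ)))) (D : ℕ), D ∣ N * ℓ →
        (y : LaurentSeries L) = jd L D →
          ((w y : ↥(laurentBaseChange L (modularFunctionFieldFull (N * ℓ)))) : LaurentSeries L) =
            jd L (Nat.gcd D N * (ℓ / Nat.gcd D ℓ)) := by
  let g' : {D : ℕ // D ∣ N * ℓ} → ↥(laurentBaseChange L (modularFunctionFieldFull (N * ℓ))) :=
    fun i => ⟨jd L (Nat.gcd i N * (ℓ / Nat.gcd i ℓ)), jd_mem L (N * ℓ) (swap_dvd N ℓ i)⟩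
  obtain ⟨w, hw⟩ := exists_algHom_of_ker (fun i : {D : ℕ // D ∣ N * ℓ} => jd L i) g'
    (laurentBaseChange L (modularFunctionFieldFull (N * ℓ))) (baseChange_eq_adjoin L (N * ℓ))
    (fun P => by
      rw [ker_swap ι N ℓ (Nat.pos_of_ne_zero (NeZero.ne N)) (Nat.pos_of_ne_zero (NeZero.ne ℓ))
        hcop P]
      have h : ((MvPolynomial.aeval g' P :
          ↥(laurentBaseChange L (modularFunctionFieldFull (N * ℓ)))) : LaurentSeries L) =
          MvPolynomial.aeval (fun i : {D : ℕ // D ∣ N * ℓ} =>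
            jd L (Nat.gcd i N * (ℓ / Nat.gcd i ℓ))) P :=
        MvPolynomial.comp_aeval_apply g'
          (laurentBaseChange L (modularFunctionFieldFull (N * ℓ))).val P
      constructor
      · intro h0
        apply Subtype.ext
        rw [h]
        exact h0
      · intro h0
        rw [← h, h0]
        rfl)
  exact ⟨w, fun y D hD hy => by rw [hw y ⟨D, hD⟩ hy]⟩

end Maps

section Degree
variable (L : Type*) [Field L] [Algebra ℚ L] [IsAlgClosed L]

theorem relfinrank_fullC (N ℓ : ℕ) [NeZero N] [NeZero ℓ] (hℓ : ℓ.Prime) (hN : ¬ ℓ ∣ N) :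
    (modularFunctionFieldFullC L N).relfinrank (modularFunctionFieldFullC L (N * ℓ)) = ℓ + 1 := by
  have : CharZero L := algebraRat.charZero L
  have h1 := Fermat.Agent.S28.Tower.Kj_le_full L N
  have h2 : modularFunctionFieldFullC L N ≤ modularFunctionFieldFullC L (N * ℓ) :=
    Fermat.Agent.S28.Tower.full_dvd_le L (Dvd.intro ℓ rfl)
  have h3 := IntermediateField.relfinrank_mul_relfinrank h1 h2
  have hpos := Fermat.Agent.S18.Char0DegK.relfinrank_full_pos_of_charZero L N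
  rw [Fermat.Agent.S18.Char0DegK.relfinrank_full_eq_psi L N] at h3 hpos
  rw [Fermat.Agent.S18.Char0DegK.relfinrank_full_eq_psi L (N * ℓ),
    Fermat.Agent.S24.ci_psi_mul_of_not_dvd hℓ (NeZero.ne N) hN] at h3
  exact Nat.eq_of_mul_eq_mul_left hpos (by rw [h3, mul_comm])

end Degree

end ALEmb

section
variable {L : Type*} [Field L] [Algebra ℚ L]

open ALEmb ALCore

/-- **(AL)** the Atkin–Lehner embedding `τ : F_{Nℓ} → L((q))`: `τ ∘ β = β` and
`τ (α f) = f(q^{ℓ²})`. -/
theorem exists_alEmb (ι : L →+* ℂ) (N ℓ : ℕ) [NeZero N] [NeZero ℓ] (hcop : Nat.Coprime N ℓ) :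
    ∃ τ : ↥(laurentBaseChange L (modularFunctionFieldFull (N * ℓ))) →ₐ[L] LaurentSeries L,
      (∀ g : ↥(laurentBaseChange L (modularFunctionFieldFull N)),
        τ (heckeBetaBar L N ℓ g) = qExpand L ℓ (g : LaurentSeries L)) ∧
      (∀ f : ↥(laurentBaseChange L (modularFunctionFieldFull N)),
        τ (heckeAlphaBar L N ℓ f) = qExpand L (ℓ * ℓ) (f : LaurentSeries L)) := by
  obtain ⟨τ, hτ⟩ := exists_tau0 ι N ℓ hcop
  have hℓ : 0 < ℓ := Nat.pos_of_ne_zero (NeZero.ne ℓ)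
  refine ⟨τ, ?_, ?_⟩
  · have h : τ.toRingHom.comp (heckeBetaBar L N ℓ).toRingHom =
        (qExpand L ℓ).comp (laurentBaseChange L (modularFunctionFieldFull N)).val.toRingHom := by
      refine Fermat.Agent.S24.FFL_ringHom_ext N L (fun c => ?_) (fun d hd => ?_)
      · show τ (heckeBetaBar L N ℓ (algebraMap L _ c)) =
          qExpand L ℓ (algebraMap L (LaurentSeries L) c)
        rw [AlgHom.commutes, AlgHom.commutes]
        exact ((qExpandAlgHomC L ℓ).commutes c).symm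
      · have : NeZero d := ⟨ne_zero_of_dvd_ne_zero (NeZero.ne N) hd⟩
        show τ (heckeBetaBar L N ℓ (Fermat.Agent.S24.jdL N L d hd)) =
          qExpand L ℓ ((Fermat.Agent.S24.jdL N L d hd : Fermat.Agent.S24.FFL L N) :
            LaurentSeries L)
        rw [Fermat.Agent.S24.coe_jdL, coeffEmb_qExpand_jq, qExpand_jd]
        rw [hτ _ (ℓ * d) (mul_comm ℓ d ▸ mul_dvd_mul hd dvd_rfl)
          (by rw [coe_heckeBetaBar, Fermat.Agent.S24.coe_jdL, coeffEmb_qExpand_jq, qExpand_jd])]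
        rw [gcd_mul_of_dvd N ℓ hcop hd, Nat.gcd_eq_right (dvd_mul_right ℓ d), Nat.div_self hℓ,
          mul_one]
    intro g
    exact RingHom.congr_fun h g
  · have h : τ.toRingHom.comp (heckeAlphaBar L N ℓ).toRingHom =
        (qExpand L (ℓ * ℓ)).comp
          (laurentBaseChange L (modularFunctionFieldFull N)).val.toRingHom := by
      refine Fermat.Agent.S24.FFL_ringHom_ext N L (fun c => ?_) (fun d hd => ?_)
      · show τ (heckeAlphaBar L N ℓ (algebraMap L _ c)) =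
          qExpand L (ℓ * ℓ) (algebraMap L (LaurentSeries L) c)
        rw [AlgHom.commutes, AlgHom.commutes]
        exact ((qExpandAlgHomC L (ℓ * ℓ)).commutes c).symm
      · have : NeZero d := ⟨ne_zero_of_dvd_ne_zero (NeZero.ne N) hd⟩
        show τ (heckeAlphaBar L N ℓ (Fermat.Agent.S24.jdL N L d hd)) =
          qExpand L (ℓ * ℓ) ((Fermat.Agent.S24.jdL N L d hd : Fermat.Agent.S24.FFL L N) :
            LaurentSeries L)
        rw [Fermat.Agent.S24.coe_jdL, coeffEmb_qExpand_jq, qExpand_jd]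
        rw [hτ _ d (hd.trans (Dvd.intro ℓ rfl))
          (by rw [coe_heckeAlphaBar, Fermat.Agent.S24.coe_jdL, coeffEmb_qExpand_jq])]
        rw [Nat.gcd_eq_left hd, gcd_of_dvd N ℓ hcop hd, Nat.div_one]
        congr 1
        ring
    intro g
    exact RingHom.congr_fun h g

/-- The Atkin–Lehner involution `w` of `F_{Nℓ}`: `w ∘ β = α`, `w ∘ α = β`, `w ∘ w = id`. -/
theorem exists_alInvolution (ι : L →+* ℂ) (N ℓ : ℕ) [NeZero N] [NeZero ℓ]
    (hcop : Nat.Coprime N ℓ) :
    ∃ w : ↥(laurentBaseChange L (modularFunctionFieldFull (N * ℓ))) ≃ₐ[L]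
        ↥(laurentBaseChange L (modularFunctionFieldFull (N * ℓ))),
      (∀ g : ↥(laurentBaseChange L (modularFunctionFieldFull N)),
        w (heckeBetaBar L N ℓ g) = heckeAlphaBar L N ℓ g) ∧
      (∀ g : ↥(laurentBaseChange L (modularFunctionFieldFull N)),
        w (heckeAlphaBar L N ℓ g) = heckeBetaBar L N ℓ g) ∧
      ∀ x, w (w x) = x := by
  obtain ⟨w, hw⟩ := exists_w0 ι N ℓ hcop
  have hℓ : 0 < ℓ := Nat.pos_of_ne_zero (NeZero.ne ℓ)
  have hww : w.comp w = AlgHom.id L _ := by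
    refine algHom_ext_of_gen (fun i : {D : ℕ // D ∣ N * ℓ} => jd L i)
      (laurentBaseChange L (modularFunctionFieldFull (N * ℓ))) (baseChange_eq_adjoin L (N * ℓ))
      (fun y i hy => ?_)
    apply Subtype.ext
    show ((w (w y) : ↥(laurentBaseChange L (modularFunctionFieldFull (N * ℓ)))) :
      LaurentSeries L) = (y : LaurentSeries L)
    rw [hw (w y) _ (swap_dvd N ℓ i) (hw y i i.2 hy), swap_swap N ℓ hℓ hcop i.2, hy]
  refine ⟨AlgEquiv.ofAlgHom w w hww hww, ?_, ?_, fun x => AlgHom.congr_fun hww x⟩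
  · have h : w.toRingHom.comp (heckeBetaBar L N ℓ).toRingHom =
        (heckeAlphaBar L N ℓ).toRingHom := by
      refine Fermat.Agent.S24.FFL_ringHom_ext N L (fun c => ?_) (fun d hd => ?_)
      · show w (heckeBetaBar L N ℓ (algebraMap L _ c)) = heckeAlphaBar L N ℓ (algebraMap L _ c)
        rw [AlgHom.commutes, AlgHom.commutes, AlgHom.commutes]
      · have : NeZero d := ⟨ne_zero_of_dvd_ne_zero (NeZero.ne N) hd⟩
        apply Subtype.ext
        show ((w (heckeBetaBar L N ℓ (Fermat.Agent.S24.jdL N L d hd)) :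
          ↥(laurentBaseChange L (modularFunctionFieldFull (N * ℓ)))) : LaurentSeries L) =
          ((heckeAlphaBar L N ℓ (Fermat.Agent.S24.jdL N L d hd) :
            ↥(laurentBaseChange L (modularFunctionFieldFull (N * ℓ)))) : LaurentSeries L)
        rw [hw _ (ℓ * d) (mul_comm ℓ d ▸ mul_dvd_mul hd dvd_rfl)
          (by rw [coe_heckeBetaBar, Fermat.Agent.S24.coe_jdL, coeffEmb_qExpand_jq, qExpand_jd])]
        rw [gcd_mul_of_dvd N ℓ hcop hd, Nat.gcd_eq_right (dvd_mul_right ℓ d), Nat.div_self hℓ,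
          mul_one, coe_heckeAlphaBar, Fermat.Agent.S24.coe_jdL, coeffEmb_qExpand_jq]
    intro g
    exact RingHom.congr_fun h g
  · have h : w.toRingHom.comp (heckeAlphaBar L N ℓ).toRingHom =
        (heckeBetaBar L N ℓ).toRingHom := by
      refine Fermat.Agent.S24.FFL_ringHom_ext N L (fun c => ?_) (fun d hd => ?_)
      · show w (heckeAlphaBar L N ℓ (algebraMap L _ c)) = heckeBetaBar L N ℓ (algebraMap L _ c)
        rw [AlgHom.commutes, AlgHom.commutes, AlgHom.commutes]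
      · have : NeZero d := ⟨ne_zero_of_dvd_ne_zero (NeZero.ne N) hd⟩
        apply Subtype.ext
        show ((w (heckeAlphaBar L N ℓ (Fermat.Agent.S24.jdL N L d hd)) :
          ↥(laurentBaseChange L (modularFunctionFieldFull (N * ℓ)))) : LaurentSeries L) =
          ((heckeBetaBar L N ℓ (Fermat.Agent.S24.jdL N L d hd) :
            ↥(laurentBaseChange L (modularFunctionFieldFull (N * ℓ)))) : LaurentSeries L)
        rw [hw _ d (hd.trans (Dvd.intro ℓ rfl))
          (by rw [coe_heckeAlphaBar, Fermat.Agent.S24.coe_jdL, coeffEmb_qExpand_jq])]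
        rw [Nat.gcd_eq_left hd, gcd_of_dvd N ℓ hcop hd, Nat.div_one, coe_heckeBetaBar,
          Fermat.Agent.S24.coe_jdL, coeffEmb_qExpand_jq, qExpand_jd, mul_comm]
    intro g
    exact RingHom.congr_fun h g

/-- `[F_{Nℓ} : α F_N] = ℓ + 1` for a prime `ℓ ∤ N`. -/
theorem finrankAlong_heckeAlphaBar [IsAlgClosed L] (N ℓ : ℕ) [NeZero N] [NeZero ℓ]
    (hℓ : ℓ.Prime) (hN : ¬ ℓ ∣ N) :
    finrankAlong L (heckeAlphaBar L N ℓ) = ℓ + 1 := by
  have hle : laurentBaseChange L (modularFunctionFieldFull N) ≤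
      laurentBaseChange L (modularFunctionFieldFull (N * ℓ)) := by
    rw [baseChange_eq_fullC, baseChange_eq_fullC]
    exact Fermat.Agent.S28.Tower.full_dvd_le L (Dvd.intro ℓ rfl)
  have h := finrank_inclusion hle
  have h2 : (laurentBaseChange L (modularFunctionFieldFull N)).relfinrank
      (laurentBaseChange L (modularFunctionFieldFull (N * ℓ))) = ℓ + 1 := by
    rw [baseChange_eq_fullC, baseChange_eq_fullC]
    exact relfinrank_fullC L N ℓ hℓ hN
  rw [h2] at h
  exact h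

/-- **(DEG)** `[F_{Nℓ} : β F_N] = ℓ + 1` for a prime `ℓ ∤ N`. -/
theorem finrankAlong_heckeBetaBar [IsAlgClosed L] (ι : L →+* ℂ) (N ℓ : ℕ) [NeZero N] [NeZero ℓ]
    (hℓ : ℓ.Prime) (hN : ¬ ℓ ∣ N) :
    finrankAlong L (heckeBetaBar L N ℓ) = ℓ + 1 := by
  have hcop : Nat.Coprime N ℓ := ((Nat.Prime.coprime_iff_not_dvd hℓ).mpr hN).symm
  obtain ⟨w, hβ, -, -⟩ := exists_alInvolution ι N ℓ hcop
  rw [← finrankAlong_heckeAlphaBar (L := L) N ℓ hℓ hN]
  exact @Algebra.finrank_eq_of_equiv_equiv _ _ _ _ (algebraAlong (heckeBetaBar L N ℓ)) _ _ _ _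
    (algebraAlong (heckeAlphaBar L N ℓ)) (RingEquiv.refl _) w.toRingEquiv
    (RingHom.ext fun g => (hβ g).symm)

end

/-! ### The case `L = ℚ̄` -/

section Bar
variable (N ℓ : ℕ) [NeZero N] [NeZero ℓ]

/-- An embedding of `ℚ̄` into `ℂ`. -/
noncomputable def barToComplex : AlgebraicClosure ℚ →+* ℂ :=
  letI : Algebra ℚ (AlgebraicClosure ℚ) := AlgebraicClosure.instAlgebra ℚ
  (IsAlgClosed.lift : AlgebraicClosure ℚ →ₐ[ℚ] ℂ).toRingHom

theorem exists_alEmbBar (hcop : Nat.Coprime N ℓ) :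
    ∃ τ : ↥(modularFunctionFieldBar (N * ℓ)) →ₐ[AlgebraicClosure ℚ]
        LaurentSeries (AlgebraicClosure ℚ),
      (∀ g : ↥(modularFunctionFieldBar N),
        τ (heckeBetaBar (AlgebraicClosure ℚ) N ℓ g) =
          qExpand (AlgebraicClosure ℚ) ℓ (g : LaurentSeries (AlgebraicClosure ℚ))) ∧
      (∀ f : ↥(modularFunctionFieldBar N),
        τ (heckeAlphaBar (AlgebraicClosure ℚ) N ℓ f) =
          qExpand (AlgebraicClosure ℚ) (ℓ * ℓ) (f : LaurentSeries (AlgebraicClosure ℚ))) :=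
  exists_alEmb barToComplex N ℓ hcop

theorem finrankAlong_heckeBetaBar_bar (hℓ : ℓ.Prime) (hN : ¬ ℓ ∣ N) :
    finrankAlong (AlgebraicClosure ℚ) (heckeBetaBar (AlgebraicClosure ℚ) N ℓ) = ℓ + 1 :=
  finrankAlong_heckeBetaBar barToComplex N ℓ hℓ hN

end Bar

end Fermat.Agent.S37
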