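import Mathlib
import Fermat.Prelude.Def_AlgebraicCurve_Correspondence

/-!
P12 [CP] (0): the characteristic polynomial of multiplication by `h : F'` on `F'`, viewed as an
`F`-vector space along a `K`-algebra map `φ : F →ₐ[K] F'` (common definition shared by
CharPolyPlace / KronPoly / KronPlace).
-/

set_option autoImplicit false
set_option linter.style.haveILetI false

namespace Fermat.Agent.S37

open AlgebraicCurve Polynomial

variable {K F F' : Type*} [Field K] [Field F] [Field F'] [Algebra K F] [Algebra K F']

/-- The characteristic polynomial of multiplication by `h` on `F'`, viewed as an `F`-vector space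
along `φ : F →ₐ[K] F'` (junk value `1` if `F'` is not finite over `F`). -/
noncomputable def charpolyAlong (φ : F →ₐ[K] F') (h : F') : Polynomial F :=
  open Classical in
  if hfin : FiniteAlong K φ then
    (letI := algebraAlong φ
     haveI : Module.Finite F F' := hfin
     LinearMap.charpoly (LinearMap.mulLeft F h))
  else 1

theorem charpolyAlong_eq (φ : F →ₐ[K] F') (hfin : FiniteAlong K φ) (h : F') :
    charpolyAlong φ h =
      (letI := algebraAlong φ
       haveI : Module.Finite F F' := hfin
       LinearMap.charpoly (LinearMap.mulLeft F h)) :=
  dif_pos hfin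

theorem charpolyAlong_eq_lmul (φ : F →ₐ[K] F') (hfin : FiniteAlong K φ) (h : F') :
    charpolyAlong φ h =
      (letI := algebraAlong φ
       haveI : Module.Finite F F' := hfin
       LinearMap.charpoly (Algebra.lmul F F' h)) :=
  dif_pos hfin

theorem charpolyAlong_monic (φ : F →ₐ[K] F') (h : F') : (charpolyAlong φ h).Monic := by
  by_cases hfin : FiniteAlong K φ
  · rw [charpolyAlong_eq φ hfin]
    letI := algebraAlong φ
    haveI : Module.Finite F F' := hfin
    exact LinearMap.charpoly_monic _
  · rw [charpolyAlong, dif_neg hfin]
    exact monic_one

theorem natDegree_charpolyAlong (φ : F →ₐ[K] F') (hfin : FiniteAlong K φ) (h : F') :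
    (charpolyAlong φ h).natDegree = finrankAlong K φ := by
  rw [charpolyAlong_eq φ hfin]
  letI := algebraAlong φ
  haveI : Module.Finite F F' := hfin
  exact LinearMap.charpoly_natDegree _

end Fermat.Agent.S37
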