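import Fermat.Prelude.Def_ModularCurve_X0ModL

/-!
# Going back from `d(q^ℓ)` to `d`  (P12 [KP], sub-lemma)

If `d(q^ℓ) · w = u` with `u ≡ 0` modulo an ideal `𝔞` (coefficientwise) and `w` of nonzero
reduction, then `d · w' = u'` with `u'`, `w'` of the same kind.  Proof: the section operators
`S_r : ∑ aₙ qⁿ ↦ ∑ a_{ℓ n + r} qⁿ` satisfy `S_r (d(q^ℓ) · y) = d · S_r y`.
-/

set_option autoImplicit false

namespace Fermat.Agent.S37.KronTransfer

open ModularCurve HahnSeries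

section Sect
variable {R : Type*} [CommRing R]

theorem sect_bddBelow (p : ℕ) [NeZero p] (r : ℤ) (f : LaurentSeries R) :
    BddBelow (Function.support fun n : ℤ => f.coeff ((p : ℤ) * n + r)) := by
  refine ⟨min (f.order - r) 0, fun n hn => ?_⟩
  rw [Function.mem_support] at hn
  have h1 : f.order ≤ (p : ℤ) * n + r := HahnSeries.order_le_of_coeff_ne_zero hn
  have hp : (1 : ℤ) ≤ p := by exact_mod_cast Nat.pos_of_ne_zero (NeZero.ne p)
  rcases le_or_gt 0 n with h0 | h0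
  · exact (min_le_right _ _).trans h0
  · refine (min_le_left _ _).trans ?_
    nlinarith

/-- The section operator `∑ aₙ qⁿ ↦ ∑ a_{p n + r} qⁿ`. -/
noncomputable def sect (p : ℕ) [NeZero p] (r : ℤ) (f : LaurentSeries R) : LaurentSeries R :=
  HahnSeries.ofSuppBddBelow (fun n : ℤ => f.coeff ((p : ℤ) * n + r)) (sect_bddBelow p r f)

theorem sect_coeff (p : ℕ) [NeZero p] (r : ℤ) (f : LaurentSeries R) (n : ℤ) :
    (sect p r f).coeff n = f.coeff ((p : ℤ) * n + r) := rfl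

theorem coeffMap_sect {S : Type*} [CommRing S] (φ : R →+* S) (p : ℕ) [NeZero p] (r : ℤ)
    (f : LaurentSeries R) : coeffMap φ (sect p r f) = sect p r (coeffMap φ f) := by
  ext n
  rw [coeffMap_coeff, sect_coeff, sect_coeff, coeffMap_coeff]

theorem exists_sect_ne_zero (p : ℕ) [NeZero p] {f : LaurentSeries R} (hf : f ≠ 0) :
    ∃ r : ℤ, sect p r f ≠ 0 := by
  obtain ⟨n, hn⟩ : ∃ n : ℤ, f.coeff n ≠ 0 := by
    by_contra hcon
    push Not at hcon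
    exact hf (HahnSeries.ext (funext hcon))
  refine ⟨n % (p : ℤ), fun h0 => hn ?_⟩
  have h1 : (sect p (n % (p : ℤ)) f).coeff (n / (p : ℤ)) = 0 := by rw [h0]; rfl
  rwa [sect_coeff, Int.mul_ediv_add_emod] at h1

/-- `S_r (d(q^p) · y) = d · S_r y`. -/
theorem sect_qExpand_mul (p : ℕ) [NeZero p] (r : ℤ) (d y : LaurentSeries R) :
    sect p r (qExpand R p d * y) = d * sect p r y := by
  have hp : (p : ℤ) ≠ 0 := by exact_mod_cast NeZero.ne p
  ext n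
  rw [sect_coeff, HahnSeries.coeff_mul, HahnSeries.coeff_mul]
  symm
  refine Finset.sum_bij (fun ij _ => ((p : ℤ) * ij.1, (p : ℤ) * ij.2 + r)) ?_ ?_ ?_ ?_
  · intro ij hij
    rw [Finset.mem_antidiagonal] at hij ⊢
    obtain ⟨h1, h2, h3⟩ := hij
    refine ⟨?_, h2, ?_⟩
    · rw [HahnSeries.mem_support, qExpand_coeff_mul]
      exact h1
    · rw [← h3]
      ring
  · intro a _ b _ hab
    simp only [Prod.mk.injEq] at hab
    exact Prod.ext (mul_left_cancel₀ hp hab.1) (mul_left_cancel₀ hp (add_right_cancel hab.2))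
  · intro ab hab
    rw [Finset.mem_antidiagonal] at hab
    obtain ⟨h1, h2, h3⟩ := hab
    have hdvd : (p : ℤ) ∣ ab.1 := by
      by_contra hc
      exact h1 (qExpand_coeff_of_not_dvd p d hc)
    obtain ⟨a', ha'⟩ := hdvd
    have hb : ab.2 = (p : ℤ) * (n - a') + r := by
      rw [ha'] at h3
      linear_combination h3
    refine ⟨(a', n - a'), ?_, ?_⟩
    · rw [Finset.mem_antidiagonal]
      refine ⟨?_, ?_, by ring⟩
      · rw [HahnSeries.mem_support] at h1 ⊢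
        rwa [ha', qExpand_coeff_mul] at h1
      · rw [HahnSeries.mem_support] at h2 ⊢
        rwa [hb] at h2
    · exact Prod.ext ha'.symm hb.symm
  · intro ij _
    rw [qExpand_coeff_mul]
    rfl

end Sect

/-- Hypothesis-free form: from `d(q^ℓ) · w = u` to `d · w' = u'`. -/
theorem exists_of_qExpand_mul' {Λ₀ k₀ L : Type*} [CommRing Λ₀] [CommRing k₀] [CommRing L]
    (ι₀ : Λ₀ →+* L) (res₀ : Λ₀ →+* k₀) (𝔞 : Ideal Λ₀) (ℓ : ℕ) [NeZero ℓ]
    (d : LaurentSeries L) (u w : LaurentSeries Λ₀) (hw : coeffMap res₀ w ≠ 0)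
    (hu : ∀ n, u.coeff n ∈ 𝔞) (h : qExpand L ℓ d * coeffMap ι₀ w = coeffMap ι₀ u) :
    ∃ u' w' : LaurentSeries Λ₀, coeffMap res₀ w' ≠ 0 ∧ (∀ n, u'.coeff n ∈ 𝔞) ∧
      d * coeffMap ι₀ w' = coeffMap ι₀ u' := by
  obtain ⟨r, hr⟩ := exists_sect_ne_zero ℓ hw
  refine ⟨sect ℓ r u, sect ℓ r w, ?_, fun n => hu _, ?_⟩
  · rw [coeffMap_sect]
    exact hr
  · rw [coeffMap_sect, coeffMap_sect, ← sect_qExpand_mul, h]

/-- From `d(q^ℓ) · w = u` (`u ≡ 0 mod 𝔞`, `w` of nonzero reduction) to `d · w' = u'`. -/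
theorem exists_of_qExpand_mul {Λ₀ k₀ L : Type*} [CommRing Λ₀] [IsDomain Λ₀] [CommRing k₀]
    [IsDomain k₀] [Field L] (ι₀ : Λ₀ →+* L) (hι₀ : Function.Injective ι₀) (res₀ : Λ₀ →+* k₀)
    (𝔞 : Ideal Λ₀) (ℓ : ℕ) [NeZero ℓ] (ζ₀ : Λ₀ˣ) (hζ₀ : IsPrimitiveRoot ζ₀ ℓ)
    (hζres : res₀ ζ₀ = 1) (d : LaurentSeries L) (u w : LaurentSeries Λ₀)
    (hw : coeffMap res₀ w ≠ 0) (hu : ∀ n, u.coeff n ∈ 𝔞)
    (h : qExpand L ℓ d * coeffMap ι₀ w = coeffMap ι₀ u) :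
    ∃ u' w' : LaurentSeries Λ₀, coeffMap res₀ w' ≠ 0 ∧ (∀ n, u'.coeff n ∈ 𝔞) ∧
      d * coeffMap ι₀ w' = coeffMap ι₀ u' :=
  exists_of_qExpand_mul' ι₀ res₀ 𝔞 ℓ d u w hw hu h

end Fermat.Agent.S37.KronTransfer
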