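import Fermat.Prelude.Def_ModularCurve_X0ModL

set_option autoImplicit false

namespace Fermat.Agent.S37

open ModularCurve

namespace Kronecker

variable {R : Type*} [CommRing R]

theorem charP_laurentSeries (ℓ : ℕ) [CharP R ℓ] : CharP (LaurentSeries R) ℓ :=
  charP_of_injective_ringHom (f := (HahnSeries.C : R →+* LaurentSeries R))
    HahnSeries.C_injective ℓ

/-- `q ↦ q^n` on a power series is `PowerSeries.expand`. -/
theorem qExpand_ofPowerSeries (n : ℕ) [NeZero n] (g : PowerSeries R) :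
    qExpand R n (HahnSeries.ofPowerSeries ℤ R g) =
      HahnSeries.ofPowerSeries ℤ R (PowerSeries.expand n (NeZero.ne n) g) := by
  ext m
  have hn : (0 : ℤ) < n := by exact_mod_cast Nat.pos_of_ne_zero (NeZero.ne n)
  by_cases hm : (n : ℤ) ∣ m
  · obtain ⟨c, rfl⟩ := hm
    rw [qExpand_coeff_mul, PowerSeries.coeff_coe, PowerSeries.coeff_coe]
    by_cases hc : c < 0
    · rw [if_pos hc, if_pos (mul_neg_of_pos_of_neg hn hc)]
    · rw [if_neg hc, if_neg (not_lt.mpr (mul_nonneg hn.le (not_lt.mp hc))),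
        PowerSeries.coeff_expand, Int.natAbs_mul, Int.natAbs_natCast, if_pos (dvd_mul_right _ _),
        Nat.mul_div_cancel_left _ (Nat.pos_of_ne_zero (NeZero.ne n))]
  · rw [qExpand_coeff_of_not_dvd n _ hm, PowerSeries.coeff_coe]
    split_ifs with h0
    · rfl
    · rw [PowerSeries.coeff_expand, if_neg]
      intro h
      exact hm (Int.natCast_dvd.mpr h)

/-- **Frobenius on Laurent series in characteristic `ℓ`**: `f(q)^ℓ = f^{(ℓ)}(q^ℓ)`, where
`f^{(ℓ)}` is `f` with the Frobenius applied to the coefficients. -/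
theorem pow_char (ℓ : ℕ) [Fact ℓ.Prime] [CharP R ℓ] (f : LaurentSeries R) :
    f ^ ℓ = qExpand R ℓ (coeffMap (frobenius R ℓ) f) := by
  have hℓ0 : ℓ ≠ 0 := (Fact.out : ℓ.Prime).ne_zero
  have hsplit := LaurentSeries.single_order_mul_powerSeriesPart f
  set g := f.powerSeriesPart with hg
  set n := HahnSeries.order f with hn
  have h1 : (HahnSeries.single n (1 : R) : LaurentSeries R) ^ ℓ =
      qExpand R ℓ (coeffMap (frobenius R ℓ) (HahnSeries.single n (1 : R))) := by
    rw [HahnSeries.single_pow, one_pow, coeffMap_single, qExpand_single, nsmul_eq_mul,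
      frobenius_def, one_pow]
  have h2 : (HahnSeries.ofPowerSeries ℤ R g) ^ ℓ =
      qExpand R ℓ (coeffMap (frobenius R ℓ) (HahnSeries.ofPowerSeries ℤ R g)) := by
    rw [coeffMap_ofPowerSeries, qExpand_ofPowerSeries, ← map_pow, ← PowerSeries.map_expand]
    congr 1
    exact (MvPowerSeries.map_frobenius_expand (σ := Unit) (R := R) ℓ hℓ0 (f := g)).symm
  rw [← hsplit, mul_pow, map_mul, map_mul, h1, h2]


/-- In characteristic `ℓ`: `j(q^{dℓ}) = j(q^d)^ℓ`. -/
theorem qExpand_mul_char_jqModC (ℓ : ℕ) [Fact ℓ.Prime] [CharP R ℓ] (d : ℕ) [NeZero d] :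
    haveI : NeZero (ℓ * d) := ⟨Nat.mul_ne_zero (NeZero.ne ℓ) (NeZero.ne d)⟩
    qExpand R (ℓ * d) (jqModC R) = (qExpand R d (jqModC R)) ^ ℓ := by
  rw [pow_char ℓ, coeffMap_qExpand, coeffMap_jqModC, qExpand_qExpand]

/-- Lift of `pow_char`: if `σ` lifts the Frobenius modulo `ℓ` on a ring `Λ`, then
`(σ f)(q^ℓ) ≡ f(q)^ℓ` modulo `ℓ`, coefficientwise. -/
theorem qExpand_coeffMap_sub_pow_coeff_mem (ℓ : ℕ) [Fact ℓ.Prime] (σ : R →+* R)
    (hσ : ∀ a : R, σ a - a ^ ℓ ∈ Ideal.span {(ℓ : R)}) (f : LaurentSeries R) (n : ℤ) :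
    (qExpand R ℓ (coeffMap σ f) - f ^ ℓ).coeff n ∈ Ideal.span {(ℓ : R)} := by
  set I : Ideal R := Ideal.span {(ℓ : R)} with hI
  by_cases htop : I = ⊤
  · rw [htop]
    exact Submodule.mem_top
  have hnt : Nontrivial (R ⧸ I) := Ideal.Quotient.nontrivial_iff.mpr htop
  have hchar : CharP (R ⧸ I) ℓ := by
    refine (CharP.charP_iff_prime_eq_zero (Fact.out : ℓ.Prime)).mpr ?_
    have : ((ℓ : R) : R ⧸ I) = 0 :=
      Ideal.Quotient.eq_zero_iff_mem.mpr (Ideal.subset_span rfl)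
    simpa using this
  have h1 := pow_char (R := R ⧸ I) ℓ (coeffMap (Ideal.Quotient.mk I) f)
  have hcomp : (Ideal.Quotient.mk I).comp σ = (frobenius (R ⧸ I) ℓ).comp (Ideal.Quotient.mk I) := by
    ext a
    rw [RingHom.comp_apply, RingHom.comp_apply, frobenius_def, ← map_pow]
    exact Ideal.Quotient.eq.mpr (hσ a)
  have h2 : coeffMap (Ideal.Quotient.mk I) (qExpand R ℓ (coeffMap σ f) - f ^ ℓ) = 0 := by
    rw [map_sub, map_pow, h1, coeffMap_qExpand, coeffMap_coeffMap, coeffMap_coeffMap, hcomp,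
      sub_self]
  have h3 := congrArg (fun x => HahnSeries.coeff x n) h2
  simp only [coeffMap_coeff, HahnSeries.coeff_zero] at h3
  exact Ideal.Quotient.eq_zero_iff_mem.mp h3

/-- In characteristic `ℓ` the function fields of level `N` and `N ℓ` coincide inside `k((q))`. -/
theorem full_mul_char (k : Type*) [Field k] (ℓ : ℕ) [Fact ℓ.Prime] [CharP k ℓ] (N : ℕ)
    [NeZero N] :
    modularFunctionFieldFullC k (N * ℓ) = modularFunctionFieldFullC k N := by
  have hℓ : ℓ.Prime := Fact.out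
  refine le_antisymm ?_ (full_degeneracyC_le k (Dvd.intro _ rfl))
  rw [modularFunctionFieldFullC, IntermediateField.adjoin_le_iff]
  rintro x ⟨d, hne, hd, rfl⟩
  haveI := hne
  by_cases hℓd : ℓ ∣ d
  · obtain ⟨e, rfl⟩ := hℓd
    haveI : NeZero e := ⟨fun h => NeZero.ne (ℓ * e) (by rw [h, mul_zero])⟩
    have he : e ∣ N := by
      have h1 : ℓ * e ∣ ℓ * N := by rwa [mul_comm ℓ N]
      exact (Nat.mul_dvd_mul_iff_left hℓ.pos).mp h1
    have h := qExpand_mul_char_jqModC (R := k) ℓ e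
    rw [SetLike.mem_coe, h]
    exact pow_mem (jqModCd_mem_full k N he) ℓ
  · have hdN : d ∣ N := (Nat.Coprime.dvd_mul_right
      ((Nat.coprime_comm.mp ((Nat.Prime.coprime_iff_not_dvd hℓ).mpr hℓd)))).mp hd
    exact jqModCd_mem_full k N hdN

end Kronecker

end Fermat.Agent.S37
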