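import Fermat.Agent.S37.Hecke
import Fermat.Agent.S37.Kronecker
import Fermat.Agent.S37.CharPolyAlong
import Fermat.Agent.S37.ALEmb
import Fermat.Agent.S37.KronTransfer
import Fermat.Agent.S28.Subst
import Fermat.Agent.S28.ModEqDescent

/-!
P12 [KP] — the characteristic polynomial of `α f` over `β(F_N)` and Kronecker's congruence.

`Ω := ℚ̄`, `F_N := modularFunctionFieldBar N ⊆ Ω((q))`, `α, β : F_N → F_{Nℓ}` the two degeneracy
maps (`α` the inclusion, `β = (q ↦ q^ℓ)`), `ℓ` a prime not dividing `N`, `ζ` a primitive `ℓ`-th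
root of unity.

* `charpolyAlong_beta_map` / `charpolyAlong_alpha_map` (**KP**): the characteristic polynomial
  of `α g` over `β(F_N)`, read in `Ω((q))` through `betaIncl = (g ↦ g(q^ℓ))`, is
  `(X - g(q^{ℓ²})) ∏_{b<ℓ} (X - g(ζ^b q))`.
* `KronPoly.kc_abs`, `KronPoly.kc_beta`: Kronecker's congruence, abstractly and for fractions of
  Laurent series with coefficients in a ring `Λ₀`.
* `coeff_charpolyAlong_sub` (**KC**): for `g = a / b` (`a, b ∈ Λ₀((q))`, `b` of nonzero reduction,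
  coefficients Frobenius-fixed modulo `𝔞 ∋ ℓ, ζ - 1`), every coefficient of
  `charpoly(α g) - (X - g^ℓ)(X^ℓ - g)` is a fraction `u / w` with `u ∈ 𝔞((q))`, `w` of nonzero
  reduction.

Private helpers live in the namespace `Fermat.Agent.S37.KronPoly`.
-/

set_option autoImplicit false
set_option linter.style.haveILetI false
set_option linter.unusedSectionVars false

namespace Fermat.Agent.S37

open Polynomial ModularCurve AlgebraicCurve
open Fermat.Agent.S24 (laurentRot)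

namespace KronPoly

/-- In a finite separable extension `E / F` with `F` infinite, given `[E : F]` distinct
`F`-embeddings `σ i` of `E` into a field `Ω'`, the characteristic polynomial of the multiplication
by `h` is `∏ (X - σ i h)`. -/
theorem charpoly_mulLeft_map_eq_prod {F E Ω' : Type*} [Field F] [Field E] [Field Ω']
    [Algebra F E] [Algebra F Ω'] [FiniteDimensional F E] [Algebra.IsSeparable F E] [Infinite F]
    {ι : Type*} [Fintype ι] (σ : ι → E →ₐ[F] Ω') (hσ : Function.Injective σ)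
    (hcard : Fintype.card ι = Module.finrank F E) (h : E) :
    ((LinearMap.mulLeft F h).charpoly).map (algebraMap F Ω') = ∏ i, (X - C (σ i h)) := by
  classical
  let Ω'' := AlgebraicClosure Ω'
  let σ' : ι → E →ₐ[F] Ω'' := fun i => (IsScalarTower.toAlgHom F Ω' Ω'').comp (σ i)
  have hσ' : Function.Injective σ' := by
    intro i i' hii
    apply hσ
    ext x
    have h1 := DFunLike.congr_fun hii x
    exact (algebraMap Ω' Ω'').injective h1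
  have hbij : Function.Bijective σ' := by
    rw [Fintype.bijective_iff_injective_and_card]
    refine ⟨hσ', ?_⟩
    rw [hcard, AlgHom.card F E Ω'']
  apply Polynomial.map_injective (algebraMap Ω' Ω'') (algebraMap Ω' Ω'').injective
  rw [Polynomial.map_map, ← IsScalarTower.algebraMap_eq, Polynomial.map_prod]
  apply Polynomial.eq_of_infinite_eval_eq
  refine Set.infinite_of_injective_forall_mem (f := fun t : F => algebraMap F Ω'' t)
    (algebraMap F Ω'').injective fun t => ?_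
  show Polynomial.eval _ _ = Polynomial.eval _ _
  rw [Polynomial.eval_map_algebraMap, Polynomial.aeval_algebraMap_apply_eq_algebraMap_eval,
    LinearMap.eval_charpoly, Polynomial.eval_prod]
  have h1 : (algebraMap F (Module.End F E)) t - LinearMap.mulLeft F h =
      Algebra.lmul F E (algebraMap F E t - h) := by
    ext x
    simp [Algebra.smul_def]
  rw [h1, ← Algebra.norm_apply, Algebra.norm_eq_prod_embeddings F Ω'',
    ← Function.Bijective.prod_comp hbij (fun τ => τ (algebraMap F E t - h))]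
  refine Finset.prod_congr rfl fun i _ => ?_
  simp only [σ', AlgHom.comp_apply, IsScalarTower.coe_toAlgHom', map_sub, AlgHom.commutes,
    Polynomial.map_sub, Polynomial.map_X, Polynomial.map_C, Polynomial.eval_sub, Polynomial.eval_X,
    Polynomial.eval_C]

/-- **Kronecker congruence, abstract form**: in a commutative ring `O` with an ideal `I ∋ ℓ`,
if `r b ≡ x`, `y ≡ x ^ ℓ`, `z ≡ y ^ ℓ` modulo `I`, then
`(X - z) ∏_{b < ℓ} (X - r b) ≡ (X - y ^ ℓ) (X ^ ℓ - y)` modulo `I`, coefficientwise. -/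
theorem kc_abs {O : Type*} [CommRing O] (I : Ideal O) (ℓ : ℕ) [Fact ℓ.Prime] (hℓ : (ℓ : O) ∈ I)
    (x y z : O) (r : ℕ → O) (hr : ∀ b ∈ Finset.range ℓ, r b - x ∈ I) (hy : y - x ^ ℓ ∈ I)
    (hz : z - y ^ ℓ ∈ I) (i : ℕ) :
    (((X - C z) * ∏ b ∈ Finset.range ℓ, (X - C (r b))) -
      (X - C (y ^ ℓ)) * (X ^ ℓ - C y)).coeff i ∈ I := by
  by_cases htop : I = ⊤
  · rw [htop]
    exact Submodule.mem_top
  have hnt : Nontrivial (O ⧸ I) := Ideal.Quotient.nontrivial_iff.mpr htop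
  have hchar : CharP (O ⧸ I) ℓ := by
    refine (CharP.charP_iff_prime_eq_zero (Fact.out : ℓ.Prime)).mpr ?_
    have : ((ℓ : O) : O ⧸ I) = 0 := Ideal.Quotient.eq_zero_iff_mem.mpr hℓ
    simpa using this
  rw [← Ideal.Quotient.eq_zero_iff_mem, ← Polynomial.coeff_map]
  have hr' : ∀ b ∈ Finset.range ℓ, (Ideal.Quotient.mk I) (r b) = (Ideal.Quotient.mk I) x :=
    fun b hb => Ideal.Quotient.eq.mpr (hr b hb)
  have hy' : (Ideal.Quotient.mk I) y = (Ideal.Quotient.mk I) x ^ ℓ := by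
    rw [← map_pow]
    exact Ideal.Quotient.eq.mpr hy
  have hz' : (Ideal.Quotient.mk I) z = (Ideal.Quotient.mk I) y ^ ℓ := by
    rw [← map_pow]
    exact Ideal.Quotient.eq.mpr hz
  have h0 : Polynomial.map (Ideal.Quotient.mk I) (((X - C z) * ∏ b ∈ Finset.range ℓ,
      (X - C (r b))) - (X - C (y ^ ℓ)) * (X ^ ℓ - C y)) = 0 := by
    rw [Polynomial.map_sub, Polynomial.map_mul, Polynomial.map_mul, Polynomial.map_prod]
    simp only [Polynomial.map_sub, Polynomial.map_X, Polynomial.map_C, Polynomial.map_pow,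
      map_pow]
    rw [Finset.prod_congr rfl fun b hb => by rw [hr' b hb], Finset.prod_const, Finset.card_range,
      sub_pow_char, hz', hy']
    simp only [C_pow]
    ring
  rw [h0, coeff_zero]

section Loc

variable {Λ₀ k₀ L : Type*} [CommRing Λ₀] [CommRing k₀] [IsDomain k₀] [Field L]

/-- Laurent series over `Λ₀` with nonzero reduction. -/
noncomputable def denom (res₀ : Λ₀ →+* k₀) : Submonoid (LaurentSeries Λ₀) where
  carrier := {w | coeffMap res₀ w ≠ 0}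
  one_mem' := by
    show coeffMap res₀ 1 ≠ 0
    rw [map_one]
    exact one_ne_zero
  mul_mem' := by
    intro w w' hw hw'
    show coeffMap res₀ (w * w') ≠ 0
    rw [map_mul]
    exact mul_ne_zero hw hw'

theorem mem_denom {res₀ : Λ₀ →+* k₀} {w : LaurentSeries Λ₀} :
    w ∈ denom res₀ ↔ coeffMap res₀ w ≠ 0 := Iff.rfl

/-- Laurent series over `Λ₀` all of whose coefficients lie in `𝔞`. -/
noncomputable def coeffIdeal (𝔞 : Ideal Λ₀) : Ideal (LaurentSeries Λ₀) :=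
  RingHom.ker (coeffMap (Ideal.Quotient.mk 𝔞))

theorem mem_coeffIdeal {𝔞 : Ideal Λ₀} {u : LaurentSeries Λ₀} :
    u ∈ coeffIdeal 𝔞 ↔ ∀ n, u.coeff n ∈ 𝔞 := by
  rw [coeffIdeal, RingHom.mem_ker]
  constructor
  · intro h n
    have h1 := congrArg (fun x => HahnSeries.coeff x n) h
    simp only [coeffMap_coeff, HahnSeries.coeff_zero] at h1
    exact Ideal.Quotient.eq_zero_iff_mem.mp h1
  · intro h
    ext n
    rw [coeffMap_coeff, HahnSeries.coeff_zero]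
    exact Ideal.Quotient.eq_zero_iff_mem.mpr (h n)

theorem coeffMap_injective {R S : Type*} [CommRing R] [CommRing S] (f : R →+* S)
    (hf : Function.Injective f) : Function.Injective (coeffMap f) := by
  intro x y hxy
  ext n
  have h1 := congrArg (fun x => HahnSeries.coeff x n) hxy
  simp only [coeffMap_coeff] at h1
  exact hf h1

theorem ne_zero_of_mem_denom {res₀ : Λ₀ →+* k₀} {w : LaurentSeries Λ₀} (hw : w ∈ denom res₀) :
    w ≠ 0 := by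
  rintro rfl
  exact hw (map_zero _)

theorem isUnit_coeffMap_of_mem_denom (ι₀ : Λ₀ →+* L) (hι₀ : Function.Injective ι₀)
    (res₀ : Λ₀ →+* k₀) (w : denom res₀) : IsUnit (coeffMap ι₀ (w : LaurentSeries Λ₀)) := by
  refine isUnit_iff_ne_zero.mpr ?_
  intro h
  exact ne_zero_of_mem_denom w.2 (coeffMap_injective ι₀ hι₀ (by rw [h, map_zero]))

/-- The fraction-form Gauss ring, as an abstract localisation, mapped to `L((q))`. -/
noncomputable def locMap (ι₀ : Λ₀ →+* L) (hι₀ : Function.Injective ι₀) (res₀ : Λ₀ →+* k₀) :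
    Localization (denom res₀) →+* LaurentSeries L :=
  IsLocalization.lift (M := denom res₀) (g := coeffMap ι₀)
    (isUnit_coeffMap_of_mem_denom ι₀ hι₀ res₀)

theorem locMap_mk' (ι₀ : Λ₀ →+* L) (hι₀ : Function.Injective ι₀) (res₀ : Λ₀ →+* k₀)
    (f : LaurentSeries L) (a : LaurentSeries Λ₀) (b : denom res₀)
    (hf : f * coeffMap ι₀ (b : LaurentSeries Λ₀) = coeffMap ι₀ a) :
    locMap ι₀ hι₀ res₀ (IsLocalization.mk' (Localization (denom res₀)) a b) = f := by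
  rw [locMap, IsLocalization.lift_mk'_spec, ← hf, mul_comm]

theorem mk'_sub_mk'_mem (res₀ : Λ₀ →+* k₀) (𝔞 : Ideal Λ₀) (a a' : LaurentSeries Λ₀)
    (b b' : denom res₀)
    (h : a * (b' : LaurentSeries Λ₀) - a' * (b : LaurentSeries Λ₀) ∈ coeffIdeal 𝔞) :
    IsLocalization.mk' (Localization (denom res₀)) a b -
      IsLocalization.mk' (Localization (denom res₀)) a' b' ∈
        Ideal.map (algebraMap (LaurentSeries Λ₀) (Localization (denom res₀))) (coeffIdeal 𝔞) := by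
  rw [← IsLocalization.mk'_sub, IsLocalization.mk'_eq_mul_mk'_one]
  exact Ideal.mul_mem_right _ _ (Ideal.mem_map_of_mem _ h)

theorem exists_of_mem_map (ι₀ : Λ₀ →+* L) (hι₀ : Function.Injective ι₀) (res₀ : Λ₀ →+* k₀)
    (𝔞 : Ideal Λ₀) {c : Localization (denom res₀)}
    (hc : c ∈ Ideal.map (algebraMap (LaurentSeries Λ₀) (Localization (denom res₀)))
      (coeffIdeal 𝔞)) :
    ∃ u w : LaurentSeries Λ₀, coeffMap res₀ w ≠ 0 ∧ (∀ n, u.coeff n ∈ 𝔞) ∧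
      locMap ι₀ hι₀ res₀ c * coeffMap ι₀ w = coeffMap ι₀ u := by
  obtain ⟨⟨u, w⟩, h⟩ := (IsLocalization.mem_map_algebraMap_iff (denom res₀)
    (Localization (denom res₀))).mp hc
  refine ⟨u, w, w.2, mem_coeffIdeal.mp u.2, ?_⟩
  have h1 := congrArg (locMap ι₀ hι₀ res₀) h
  rw [map_mul, locMap, IsLocalization.lift_eq, IsLocalization.lift_eq] at h1
  exact h1

end Loc

section Cong

variable {Λ₀ : Type*} [CommRing Λ₀]

/-- rotation by a unit `≡ 1 mod 𝔞` is trivial modulo `𝔞` -/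
theorem coeffMap_mk_laurentRot (𝔞 : Ideal Λ₀) (ξ : Λ₀ˣ) (hξ : (ξ : Λ₀) - 1 ∈ 𝔞)
    (a : LaurentSeries Λ₀) :
    coeffMap (Ideal.Quotient.mk 𝔞) (laurentRot ξ a) = coeffMap (Ideal.Quotient.mk 𝔞) a := by
  rw [Fermat.Agent.S28.ModEqDescent.coeffMap_laurentRot]
  have h1 : Units.map (Ideal.Quotient.mk 𝔞 : Λ₀ →* Λ₀ ⧸ 𝔞) ξ = 1 := by
    ext
    rw [Units.coe_map, Units.val_one]
    show (Ideal.Quotient.mk 𝔞) (ξ : Λ₀) = 1
    rw [← map_one (Ideal.Quotient.mk 𝔞)]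
    exact Ideal.Quotient.eq.mpr hξ
  rw [h1, Fermat.Agent.S24.laurentRot_one]

theorem pow_sub_one_mem (𝔞 : Ideal Λ₀) (ζ₀ : Λ₀ˣ) (hζ : (ζ₀ : Λ₀) - 1 ∈ 𝔞) (c : ℕ) :
    ((ζ₀ ^ c : Λ₀ˣ) : Λ₀) - 1 ∈ 𝔞 := by
  rw [Units.val_pow_eq_pow_val]
  have h := (Commute.one_right (ζ₀ : Λ₀)).mul_geom_sum₂ c
  rw [← Ideal.Quotient.eq, map_pow, map_one] at *
  rw [hζ, one_pow]

theorem rot_cong (𝔞 : Ideal Λ₀) (ζ₀ : Λ₀ˣ) (hζ : (ζ₀ : Λ₀) - 1 ∈ 𝔞) (c : ℕ)
    (a b : LaurentSeries Λ₀) :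
    laurentRot (ζ₀ ^ c) a * b - a * laurentRot (ζ₀ ^ c) b ∈ coeffIdeal 𝔞 := by
  rw [coeffIdeal, RingHom.mem_ker, map_sub, map_mul, map_mul,
    coeffMap_mk_laurentRot 𝔞 _ (pow_sub_one_mem 𝔞 ζ₀ hζ c),
    coeffMap_mk_laurentRot 𝔞 _ (pow_sub_one_mem 𝔞 ζ₀ hζ c), sub_self]

theorem coeffMap_mk_pow (𝔞 : Ideal Λ₀) (ℓ : ℕ) [Fact ℓ.Prime] [CharP (Λ₀ ⧸ 𝔞) ℓ]
    (a : LaurentSeries Λ₀) (ha : ∀ n, a.coeff n ^ ℓ - a.coeff n ∈ 𝔞) :
    coeffMap (Ideal.Quotient.mk 𝔞) a ^ ℓ =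
      coeffMap (Ideal.Quotient.mk 𝔞) (qExpand Λ₀ ℓ a) := by
  rw [Kronecker.pow_char ℓ, coeffMap_qExpand]
  congr 1
  ext n
  rw [coeffMap_coeff, coeffMap_coeff, frobenius_def, ← map_pow]
  exact Ideal.Quotient.eq.mpr (ha n)

theorem frob_cong (𝔞 : Ideal Λ₀) (ℓ : ℕ) [Fact ℓ.Prime] (hℓ : (ℓ : Λ₀) ∈ 𝔞)
    (a b : LaurentSeries Λ₀) (ha : ∀ n, a.coeff n ^ ℓ - a.coeff n ∈ 𝔞)
    (hb : ∀ n, b.coeff n ^ ℓ - b.coeff n ∈ 𝔞) :
    qExpand Λ₀ ℓ a * b ^ ℓ - a ^ ℓ * qExpand Λ₀ ℓ b ∈ coeffIdeal 𝔞 := by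
  by_cases htop : 𝔞 = ⊤
  · rw [mem_coeffIdeal, htop]
    exact fun n => Submodule.mem_top
  have hnt : Nontrivial (Λ₀ ⧸ 𝔞) := Ideal.Quotient.nontrivial_iff.mpr htop
  have hchar : CharP (Λ₀ ⧸ 𝔞) ℓ := by
    refine (CharP.charP_iff_prime_eq_zero (Fact.out : ℓ.Prime)).mpr ?_
    have : ((ℓ : Λ₀) : Λ₀ ⧸ 𝔞) = 0 := Ideal.Quotient.eq_zero_iff_mem.mpr hℓ
    simpa using this
  rw [coeffIdeal, RingHom.mem_ker, map_sub, map_mul, map_mul, map_pow, map_pow,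
    coeffMap_mk_pow 𝔞 ℓ a ha, coeffMap_mk_pow 𝔞 ℓ b hb, mul_comm, sub_self]

theorem qExpand_frob_fixed (𝔞 : Ideal Λ₀) (ℓ : ℕ) [NeZero ℓ] (a : LaurentSeries Λ₀)
    (ha : ∀ n, a.coeff n ^ ℓ - a.coeff n ∈ 𝔞) (n : ℤ) :
    (qExpand Λ₀ ℓ a).coeff n ^ ℓ - (qExpand Λ₀ ℓ a).coeff n ∈ 𝔞 := by
  by_cases hn : (ℓ : ℤ) ∣ n
  · obtain ⟨m, rfl⟩ := hn
    rw [qExpand_coeff_mul]
    exact ha m
  · rw [qExpand_coeff_of_not_dvd ℓ _ hn, zero_pow (NeZero.ne ℓ), sub_zero]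
    exact 𝔞.zero_mem

theorem natCast_mem_coeffIdeal (𝔞 : Ideal Λ₀) (ℓ : ℕ) (hℓ : (ℓ : Λ₀) ∈ 𝔞) :
    (ℓ : LaurentSeries Λ₀) ∈ coeffIdeal 𝔞 := by
  rw [coeffIdeal, RingHom.mem_ker, map_natCast]
  have h1 : ((ℓ : Λ₀ ⧸ 𝔞)) = 0 := by
    have : ((ℓ : Λ₀) : Λ₀ ⧸ 𝔞) = 0 := Ideal.Quotient.eq_zero_iff_mem.mpr hℓ
    simpa using this
  rw [← map_natCast (HahnSeries.C : (Λ₀ ⧸ 𝔞) →+* LaurentSeries (Λ₀ ⧸ 𝔞)), h1, map_zero]

end Cong

section Beta

variable {Λ₀ k₀ L : Type*} [CommRing Λ₀] [CommRing k₀] [IsDomain k₀] [Field L]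

theorem qExpand_mem_denom (res₀ : Λ₀ →+* k₀) (ℓ : ℕ) [NeZero ℓ] {b : LaurentSeries Λ₀}
    (hb : b ∈ denom res₀) : qExpand Λ₀ ℓ b ∈ denom res₀ := by
  rw [mem_denom, coeffMap_qExpand]
  intro h
  exact hb (qExpand_injective ℓ (by rw [h, map_zero]))

theorem laurentRot_mem_denom (res₀ : Λ₀ →+* k₀) (ξ : Λ₀ˣ) {b : LaurentSeries Λ₀}
    (hb : b ∈ denom res₀) : laurentRot ξ b ∈ denom res₀ := by
  rw [mem_denom, Fermat.Agent.S28.ModEqDescent.coeffMap_laurentRot]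
  intro h
  exact hb (Fermat.Agent.S24.laurentRot_injective _ (by rw [h, map_zero]))

/-- **Kronecker congruence for fractions of Laurent series** (before undoing `q ↦ q^ℓ`):
for `f = a / b` with `a, b ∈ Λ₀((q))`, `b` of nonzero reduction, the coefficients of `a, b`
Frobenius-fixed modulo `𝔞 ∋ ℓ, ζ₀ - 1`, every coefficient of
`(X - f(q^{ℓ²})) ∏_{c<ℓ} (X - f(ζ^c q)) - (X - f(q^ℓ)^ℓ)(X^ℓ - f(q^ℓ))` is a fraction `u / w`
with `u ∈ 𝔞((q))` and `w` of nonzero reduction. -/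
theorem kc_beta (ι₀ : Λ₀ →+* L) (hι₀ : Function.Injective ι₀) (res₀ : Λ₀ →+* k₀)
    (𝔞 : Ideal Λ₀) (ℓ : ℕ) [Fact ℓ.Prime] [NeZero ℓ] (hℓ𝔞 : (ℓ : Λ₀) ∈ 𝔞) (ζ₀ : Λ₀ˣ)
    (hζ𝔞 : (ζ₀ : Λ₀) - 1 ∈ 𝔞)
    (f : LaurentSeries L) (a b : LaurentSeries Λ₀) (hb : coeffMap res₀ b ≠ 0)
    (hf : f * coeffMap ι₀ b = coeffMap ι₀ a)
    (ha𝔞 : ∀ n, a.coeff n ^ ℓ - a.coeff n ∈ 𝔞) (hb𝔞 : ∀ n, b.coeff n ^ ℓ - b.coeff n ∈ 𝔞)
    (i : ℕ) :
    ∃ u w : LaurentSeries Λ₀, coeffMap res₀ w ≠ 0 ∧ (∀ n, u.coeff n ∈ 𝔞) ∧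
      (((X - C (qExpand L ℓ (qExpand L ℓ f))) *
          ∏ c ∈ Finset.range ℓ, (X - C (laurentRot (Units.map (ι₀ : Λ₀ →* L) ζ₀ ^ c) f))) -
        (X - C (qExpand L ℓ f ^ ℓ)) * (X ^ ℓ - C (qExpand L ℓ f))).coeff i * coeffMap ι₀ w =
        coeffMap ι₀ u := by
  set Loc := Localization (denom res₀) with hLoc
  set I : Ideal Loc := Ideal.map (algebraMap (LaurentSeries Λ₀) Loc) (coeffIdeal 𝔞) with hI
  set φ := locMap ι₀ hι₀ res₀ with hφ
  -- denominators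
  have hb0 : b ∈ denom res₀ := hb
  have hb1 : qExpand Λ₀ ℓ b ∈ denom res₀ := qExpand_mem_denom res₀ ℓ hb0
  have hb2 : qExpand Λ₀ ℓ (qExpand Λ₀ ℓ b) ∈ denom res₀ := qExpand_mem_denom res₀ ℓ hb1
  have hbr : ∀ c : ℕ, laurentRot (ζ₀ ^ c) b ∈ denom res₀ := fun c =>
    laurentRot_mem_denom res₀ _ hb0
  -- the elements
  set x : Loc := IsLocalization.mk' Loc a (⟨b, hb0⟩ : denom res₀) with hx
  set y : Loc := IsLocalization.mk' Loc (qExpand Λ₀ ℓ a) (⟨qExpand Λ₀ ℓ b, hb1⟩ : denom res₀)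
    with hy
  set z : Loc := IsLocalization.mk' Loc (qExpand Λ₀ ℓ (qExpand Λ₀ ℓ a))
    (⟨qExpand Λ₀ ℓ (qExpand Λ₀ ℓ b), hb2⟩ : denom res₀) with hz
  set r : ℕ → Loc := fun c => IsLocalization.mk' Loc (laurentRot (ζ₀ ^ c) a)
    (⟨laurentRot (ζ₀ ^ c) b, hbr c⟩ : denom res₀) with hr
  -- their images
  have hφx : φ x = f := locMap_mk' ι₀ hι₀ res₀ f a _ hf
  have hf1 : qExpand L ℓ f * coeffMap ι₀ (qExpand Λ₀ ℓ b) = coeffMap ι₀ (qExpand Λ₀ ℓ a) := by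
    rw [coeffMap_qExpand, coeffMap_qExpand, ← map_mul, hf]
  have hφy : φ y = qExpand L ℓ f := locMap_mk' ι₀ hι₀ res₀ _ _ _ hf1
  have hf2 : qExpand L ℓ (qExpand L ℓ f) * coeffMap ι₀ (qExpand Λ₀ ℓ (qExpand Λ₀ ℓ b)) =
      coeffMap ι₀ (qExpand Λ₀ ℓ (qExpand Λ₀ ℓ a)) := by
    have h := congrArg (qExpand L ℓ) hf1
    rw [map_mul, ← coeffMap_qExpand, ← coeffMap_qExpand] at h
    exact h
  have hφz : φ z = qExpand L ℓ (qExpand L ℓ f) := locMap_mk' ι₀ hι₀ res₀ _ _ _ hf2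
  have hφr : ∀ c : ℕ, φ (r c) = laurentRot (Units.map (ι₀ : Λ₀ →* L) ζ₀ ^ c) f := by
    intro c
    refine locMap_mk' ι₀ hι₀ res₀ _ _ _ ?_
    show laurentRot (Units.map (ι₀ : Λ₀ →* L) ζ₀ ^ c) f * coeffMap ι₀ (laurentRot (ζ₀ ^ c) b) =
      coeffMap ι₀ (laurentRot (ζ₀ ^ c) a)
    rw [Fermat.Agent.S28.ModEqDescent.coeffMap_laurentRot,
      Fermat.Agent.S28.ModEqDescent.coeffMap_laurentRot, map_pow, ← map_mul, hf]
  -- the congruences
  have hℓI : ((ℓ : ℕ) : Loc) ∈ I := by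
    have h1 := Ideal.mem_map_of_mem (algebraMap (LaurentSeries Λ₀) Loc)
      (natCast_mem_coeffIdeal 𝔞 ℓ hℓ𝔞)
    rwa [map_natCast] at h1
  have hrI : ∀ c ∈ Finset.range ℓ, r c - x ∈ I := fun c _ =>
    mk'_sub_mk'_mem res₀ 𝔞 _ _ _ _ (rot_cong 𝔞 ζ₀ hζ𝔞 c a b)
  have hyI : y - x ^ ℓ ∈ I := by
    rw [hx, ← IsLocalization.mk'_pow]
    exact mk'_sub_mk'_mem res₀ 𝔞 _ _ _ _ (frob_cong 𝔞 ℓ hℓ𝔞 a b ha𝔞 hb𝔞)
  have hzI : z - y ^ ℓ ∈ I := by
    rw [hy, ← IsLocalization.mk'_pow]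
    exact mk'_sub_mk'_mem res₀ 𝔞 _ _ _ _ (frob_cong 𝔞 ℓ hℓ𝔞 _ _
      (qExpand_frob_fixed 𝔞 ℓ a ha𝔞) (qExpand_frob_fixed 𝔞 ℓ b hb𝔞))
  have hmem := kc_abs I ℓ hℓI x y z r hrI hyI hzI i
  obtain ⟨u, w, hw, hu, huw⟩ := exists_of_mem_map ι₀ hι₀ res₀ 𝔞 hmem
  refine ⟨u, w, hw, hu, ?_⟩
  rw [← huw]
  congr 1
  rw [← hφ, ← Polynomial.coeff_map]
  congr 1
  rw [Polynomial.map_sub, Polynomial.map_mul, Polynomial.map_mul, Polynomial.map_prod]
  simp only [Polynomial.map_sub, Polynomial.map_X, Polynomial.map_C, Polynomial.map_pow,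
    map_pow, hφy, hφz, hφr]

end Beta

end KronPoly

section KP

variable (N ℓ : ℕ) [NeZero N] [NeZero ℓ]

/-- `g ↦ g(q^ℓ)`: `β` followed by the inclusion `F_{Nℓ} ⊆ Ω((q))`. -/
noncomputable def betaIncl :
    ↥(modularFunctionFieldBar N) →+* LaurentSeries (AlgebraicClosure ℚ) :=
  (algebraMap ↥(modularFunctionFieldBar (N * ℓ)) (LaurentSeries (AlgebraicClosure ℚ))).comp
    (heckeBetaBar (AlgebraicClosure ℚ) N ℓ).toRingHom

theorem betaIncl_apply (g : ↥(modularFunctionFieldBar N)) :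
    betaIncl N ℓ g = qExpand (AlgebraicClosure ℚ) ℓ (g : LaurentSeries (AlgebraicClosure ℚ)) :=
  rfl

theorem betaIncl_injective : Function.Injective (betaIncl N ℓ) :=
  (betaIncl N ℓ).injective

/-- **(KP)**, general form, given the Atkin–Lehner embedding `τ` and the degree: the
characteristic polynomial of `h ∈ F_{Nℓ}` over `β(F_N)`, read in `ℚ̄((q))`, is
`(X - τ h) ∏_{b < ℓ} (X - h(ζ^b q))`. -/
theorem charpolyAlong_beta_map_of_emb
    (hdeg : finrankAlong (AlgebraicClosure ℚ) (heckeBetaBar (AlgebraicClosure ℚ) N ℓ) = ℓ + 1)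
    (hℓ : 2 ≤ ℓ)
    (τ : ↥(modularFunctionFieldBar (N * ℓ)) →+* LaurentSeries (AlgebraicClosure ℚ))
    (hτβ : ∀ g : ↥(modularFunctionFieldBar N),
      τ (heckeBetaBar (AlgebraicClosure ℚ) N ℓ g) =
        qExpand (AlgebraicClosure ℚ) ℓ (g : LaurentSeries (AlgebraicClosure ℚ)))
    (hτα : ∀ f : ↥(modularFunctionFieldBar N),
      τ (heckeAlphaBar (AlgebraicClosure ℚ) N ℓ f) =
        qExpand (AlgebraicClosure ℚ) (ℓ * ℓ) (f : LaurentSeries (AlgebraicClosure ℚ)))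
    (ζ : (AlgebraicClosure ℚ)ˣ) (hζ : IsPrimitiveRoot ζ ℓ)
    (h : ↥(modularFunctionFieldBar (N * ℓ))) :
    (charpolyAlong (heckeBetaBar (AlgebraicClosure ℚ) N ℓ) h).map (betaIncl N ℓ) =
      (X - C (τ h)) * ∏ b ∈ Finset.range ℓ,
        (X - C (laurentRot (ζ ^ b) (h : LaurentSeries (AlgebraicClosure ℚ)))) := by
  classical
  letI := algebraAlong (heckeBetaBar (AlgebraicClosure ℚ) N ℓ)
  haveI : Module.Finite ↥(modularFunctionFieldBar N) ↥(modularFunctionFieldBar (N * ℓ)) :=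
    heckeBetaBar_finiteAlong N ℓ
  haveI : Module.Free ↥(modularFunctionFieldBar N) ↥(modularFunctionFieldBar (N * ℓ)) :=
    Module.Free.of_divisionRing _ _
  letI : Algebra ↥(modularFunctionFieldBar N) (LaurentSeries (AlgebraicClosure ℚ)) :=
    (betaIncl N ℓ).toAlgebra
  -- the embeddings
  let τ' : ↥(modularFunctionFieldBar (N * ℓ)) →ₐ[↥(modularFunctionFieldBar N)]
      LaurentSeries (AlgebraicClosure ℚ) :=
    { τ with commutes' := fun g => hτβ g }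
  let rot : ℕ → ↥(modularFunctionFieldBar (N * ℓ)) →ₐ[↥(modularFunctionFieldBar N)]
      LaurentSeries (AlgebraicClosure ℚ) := fun b =>
    { (laurentRot (ζ ^ b)).comp
        (algebraMap ↥(modularFunctionFieldBar (N * ℓ)) (LaurentSeries (AlgebraicClosure ℚ))) with
      commutes' := fun g => by
        show laurentRot (ζ ^ b) (qExpand (AlgebraicClosure ℚ) ℓ
          (g : LaurentSeries (AlgebraicClosure ℚ))) = qExpand (AlgebraicClosure ℚ) ℓ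
          (g : LaurentSeries (AlgebraicClosure ℚ))
        refine Fermat.Agent.S28.laurentRot_qExpand_of_pow_eq_one ?_ _
        rw [← pow_mul, mul_comm, pow_mul, hζ.pow_eq_one, one_pow] }
  let σ : Option (Fin ℓ) → ↥(modularFunctionFieldBar (N * ℓ)) →ₐ[↥(modularFunctionFieldBar N)]
      LaurentSeries (AlgebraicClosure ℚ) := fun o => o.elim τ' (fun b => rot b)
  -- the test element `α j`
  set J : ↥(modularFunctionFieldBar (N * ℓ)) :=
    heckeAlphaBar (AlgebraicClosure ℚ) N ℓ (S24.jL (AlgebraicClosure ℚ) N) with hJ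
  have hJcoe : (J : LaurentSeries (AlgebraicClosure ℚ)) = jqModC (AlgebraicClosure ℚ) := by
    rw [hJ, coe_heckeAlphaBar]
    exact Fermat.Agent.S28.coeffEmb_jq (AlgebraicClosure ℚ)
  have hrotJ : ∀ b : ℕ, (rot b J).coeff (-1) = (((ζ ^ b)⁻¹ : (AlgebraicClosure ℚ)ˣ) :
      AlgebraicClosure ℚ) := by
    intro b
    show (laurentRot (ζ ^ b) (J : LaurentSeries (AlgebraicClosure ℚ))).coeff (-1) = _
    rw [hJcoe, Fermat.Agent.S28.laurentRot_jqModC_coeff_neg_one]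
  have hτJ : (τ' J).coeff (-1) = 0 := by
    show (τ J).coeff (-1) = 0
    rw [hJ, hτα]
    refine qExpand_coeff_of_not_dvd (ℓ * ℓ) _ ?_
    intro hdvd
    have h1 : ((ℓ * ℓ : ℕ) : ℤ) ∣ 1 := (dvd_neg (a := ((ℓ * ℓ : ℕ) : ℤ)) (b := 1)).mp hdvd
    have h2 : ((ℓ * ℓ : ℕ) : ℤ) ≤ 1 := Int.le_of_dvd one_pos h1
    have h3 : 4 ≤ ℓ * ℓ := by nlinarith
    omega
  have hσ : Function.Injective σ := by
    intro o o' hoo
    have hc := congrArg (fun s : ↥(modularFunctionFieldBar (N * ℓ)) →ₐ[↥(modularFunctionFieldBar N)]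
      LaurentSeries (AlgebraicClosure ℚ) => (s J).coeff (-1)) hoo
    rcases o with _ | b <;> rcases o' with _ | b'
    · rfl
    · exfalso
      change (τ' J).coeff (-1) = (rot b' J).coeff (-1) at hc
      rw [hτJ, hrotJ] at hc
      exact Units.ne_zero _ hc.symm
    · exfalso
      change (rot b J).coeff (-1) = (τ' J).coeff (-1) at hc
      rw [hτJ, hrotJ] at hc
      exact Units.ne_zero _ hc
    · change (rot b J).coeff (-1) = (rot b' J).coeff (-1) at hc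
      rw [hrotJ, hrotJ] at hc
      have h1 : (ζ ^ (b : ℕ))⁻¹ = (ζ ^ (b' : ℕ))⁻¹ := Units.ext hc
      have h2 : ζ ^ (b : ℕ) = ζ ^ (b' : ℕ) := inv_injective h1
      exact congrArg some (Fin.ext (hζ.pow_inj b.2 b'.2 h2))
  have hcard : Fintype.card (Option (Fin ℓ)) =
      Module.finrank ↥(modularFunctionFieldBar N) ↥(modularFunctionFieldBar (N * ℓ)) := by
    rw [Fintype.card_option, Fintype.card_fin]
    exact hdeg.symm
  have hmain := KronPoly.charpoly_mulLeft_map_eq_prod σ hσ hcard h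
  rw [Fintype.prod_option] at hmain
  have hprod : ∏ b : Fin ℓ, (X - C (σ (some b) h)) = ∏ b ∈ Finset.range ℓ,
      (X - C (laurentRot (ζ ^ b) (h : LaurentSeries (AlgebraicClosure ℚ)))) :=
    Fin.prod_univ_eq_prod_range
      (fun b => (X - C (laurentRot (ζ ^ b) (h : LaurentSeries (AlgebraicClosure ℚ))))) ℓ
  rw [hprod] at hmain
  rw [charpolyAlong_eq _ (heckeBetaBar_finiteAlong N ℓ)]
  exact hmain

/-- **(KP)**: for a prime `ℓ ∤ N` there is an embedding `τ` of `F_{Nℓ}` in `ℚ̄((q))` with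
`τ ∘ β = β`, `τ (α f) = f(q^{ℓ²})`, and the characteristic polynomial of every `h ∈ F_{Nℓ}` over
`β(F_N)` is `(X - τ h) ∏_{b < ℓ} (X - h(ζ^b q))`. -/
theorem exists_charpolyAlong_beta_map (hℓ : ℓ.Prime) (hN : ¬ ℓ ∣ N)
    (ζ : (AlgebraicClosure ℚ)ˣ) (hζ : IsPrimitiveRoot ζ ℓ) :
    ∃ τ : ↥(modularFunctionFieldBar (N * ℓ)) →ₐ[AlgebraicClosure ℚ]
        LaurentSeries (AlgebraicClosure ℚ),
      (∀ g : ↥(modularFunctionFieldBar N),
        τ (heckeBetaBar (AlgebraicClosure ℚ) N ℓ g) =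
          qExpand (AlgebraicClosure ℚ) ℓ (g : LaurentSeries (AlgebraicClosure ℚ))) ∧
      (∀ f : ↥(modularFunctionFieldBar N),
        τ (heckeAlphaBar (AlgebraicClosure ℚ) N ℓ f) =
          qExpand (AlgebraicClosure ℚ) (ℓ * ℓ) (f : LaurentSeries (AlgebraicClosure ℚ))) ∧
      ∀ h : ↥(modularFunctionFieldBar (N * ℓ)),
        (charpolyAlong (heckeBetaBar (AlgebraicClosure ℚ) N ℓ) h).map (betaIncl N ℓ) =
          (X - C (τ h)) * ∏ b ∈ Finset.range ℓ,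
            (X - C (laurentRot (ζ ^ b) (h : LaurentSeries (AlgebraicClosure ℚ)))) := by
  obtain ⟨τ, hτβ, hτα⟩ := exists_alEmbBar N ℓ
    (Nat.coprime_comm.mp ((Nat.Prime.coprime_iff_not_dvd hℓ).mpr hN))
  exact ⟨τ, hτβ, hτα, fun h => charpolyAlong_beta_map_of_emb N ℓ
    (finrankAlong_heckeBetaBar_bar N ℓ hℓ hN) hℓ.two_le τ.toRingHom hτβ hτα ζ hζ h⟩

/-- **(KP)** for `α g`: the characteristic polynomial of `α g` over `β(F_N)`, read in `ℚ̄((q))`,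
is `(X - g(q^{ℓ²})) ∏_{b < ℓ} (X - g(ζ^b q))`. -/
theorem charpolyAlong_alpha_map (hℓ : ℓ.Prime) (hN : ¬ ℓ ∣ N)
    (ζ : (AlgebraicClosure ℚ)ˣ) (hζ : IsPrimitiveRoot ζ ℓ) (g : ↥(modularFunctionFieldBar N)) :
    (charpolyAlong (heckeBetaBar (AlgebraicClosure ℚ) N ℓ)
        (heckeAlphaBar (AlgebraicClosure ℚ) N ℓ g)).map (betaIncl N ℓ) =
      (X - C (qExpand (AlgebraicClosure ℚ) (ℓ * ℓ) (g : LaurentSeries (AlgebraicClosure ℚ)))) *
        ∏ b ∈ Finset.range ℓ,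
          (X - C (laurentRot (ζ ^ b) (g : LaurentSeries (AlgebraicClosure ℚ)))) := by
  obtain ⟨τ, -, hτα, hτ⟩ := exists_charpolyAlong_beta_map N ℓ hℓ hN ζ hζ
  rw [hτ, hτα, coe_heckeAlphaBar]

/-- **(KC)** Kronecker's congruence for the characteristic polynomial of `α g` over `β(F_N)`:
if `g = a / b` with `a, b ∈ Λ₀((q))`, `b` of nonzero reduction, and the coefficients of `a`, `b`
are Frobenius-fixed modulo an ideal `𝔞 ∋ ℓ, ζ₀ - 1` of `Λ₀`, then every coefficient of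
`charpoly(α g) - (X - g^ℓ)(X^ℓ - g)` is a fraction `u / w` with `u ∈ 𝔞((q))` and `w` of nonzero
reduction. -/
theorem coeff_charpolyAlong_sub (hℓ : ℓ.Prime) (hN : ¬ ℓ ∣ N)
    {Λ₀ k₀ : Type*} [CommRing Λ₀] [CommRing k₀] [IsDomain k₀]
    (ι₀ : Λ₀ →+* AlgebraicClosure ℚ) (hι₀ : Function.Injective ι₀) (res₀ : Λ₀ →+* k₀)
    (𝔞 : Ideal Λ₀) (hℓ𝔞 : (ℓ : Λ₀) ∈ 𝔞) (ζ₀ : Λ₀ˣ) (hζ₀ : IsPrimitiveRoot ζ₀ ℓ)
    (hζ𝔞 : (ζ₀ : Λ₀) - 1 ∈ 𝔞)
    (g : ↥(modularFunctionFieldBar N)) (a b : LaurentSeries Λ₀) (hb : coeffMap res₀ b ≠ 0)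
    (hg : (g : LaurentSeries (AlgebraicClosure ℚ)) * coeffMap ι₀ b = coeffMap ι₀ a)
    (ha𝔞 : ∀ n, a.coeff n ^ ℓ - a.coeff n ∈ 𝔞) (hb𝔞 : ∀ n, b.coeff n ^ ℓ - b.coeff n ∈ 𝔞)
    (i : ℕ) :
    ∃ u w : LaurentSeries Λ₀, coeffMap res₀ w ≠ 0 ∧ (∀ n, u.coeff n ∈ 𝔞) ∧
      (((charpolyAlong (heckeBetaBar (AlgebraicClosure ℚ) N ℓ)
            (heckeAlphaBar (AlgebraicClosure ℚ) N ℓ g)).coeff i -
          ((X - C (g ^ ℓ)) * (X ^ ℓ - C g)).coeff i : ↥(modularFunctionFieldBar N)) :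
        LaurentSeries (AlgebraicClosure ℚ)) * coeffMap ι₀ w = coeffMap ι₀ u := by
  haveI : Fact ℓ.Prime := ⟨hℓ⟩
  have hζ : IsPrimitiveRoot (Units.map (ι₀ : Λ₀ →* AlgebraicClosure ℚ) ζ₀) ℓ :=
    hζ₀.map_of_injective (Units.map_injective hι₀)
  have hKP := charpolyAlong_alpha_map N ℓ hℓ hN _ hζ g
  have hE : ((X - C (g ^ ℓ)) * (X ^ ℓ - C g)).map (betaIncl N ℓ) =
      (X - C (qExpand (AlgebraicClosure ℚ) ℓ (g : LaurentSeries (AlgebraicClosure ℚ)) ^ ℓ)) *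
        (X ^ ℓ - C (qExpand (AlgebraicClosure ℚ) ℓ (g : LaurentSeries (AlgebraicClosure ℚ)))) := by
    simp only [Polynomial.map_mul, Polynomial.map_sub, Polynomial.map_X, Polynomial.map_C,
      Polynomial.map_pow, map_pow, betaIncl_apply]
  obtain ⟨u, w, hw, hu, huw⟩ := KronPoly.kc_beta ι₀ hι₀ res₀ 𝔞 ℓ hℓ𝔞 ζ₀ hζ𝔞
    (g : LaurentSeries (AlgebraicClosure ℚ)) a b hb hg ha𝔞 hb𝔞 i
  have hcoe : qExpand (AlgebraicClosure ℚ) ℓ
      (((charpolyAlong (heckeBetaBar (AlgebraicClosure ℚ) N ℓ)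
            (heckeAlphaBar (AlgebraicClosure ℚ) N ℓ g)).coeff i -
          ((X - C (g ^ ℓ)) * (X ^ ℓ - C g)).coeff i : ↥(modularFunctionFieldBar N)) :
        LaurentSeries (AlgebraicClosure ℚ)) =
      (((X - C (qExpand (AlgebraicClosure ℚ) ℓ (qExpand (AlgebraicClosure ℚ) ℓ
            (g : LaurentSeries (AlgebraicClosure ℚ))))) *
          ∏ c ∈ Finset.range ℓ, (X - C (laurentRot
            (Units.map (ι₀ : Λ₀ →* AlgebraicClosure ℚ) ζ₀ ^ c)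
            (g : LaurentSeries (AlgebraicClosure ℚ))))) -
        (X - C (qExpand (AlgebraicClosure ℚ) ℓ (g : LaurentSeries (AlgebraicClosure ℚ)) ^ ℓ)) *
          (X ^ ℓ - C (qExpand (AlgebraicClosure ℚ) ℓ
            (g : LaurentSeries (AlgebraicClosure ℚ))))).coeff i := by
    rw [← betaIncl_apply, map_sub, ← Polynomial.coeff_map, ← Polynomial.coeff_map, hKP, hE,
      Polynomial.coeff_sub, qExpand_qExpand]
  rw [← hcoe] at huw
  exact KronTransfer.exists_of_qExpand_mul' ι₀ res₀ 𝔞 ℓ _ u w hw hu huw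

end KP


end Fermat.Agent.S37
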