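import Fermat.Agent.S37.RedPt
import Fermat.Agent.S37.ChartRing
import Fermat.Agent.S37.KronCore
import Fermat.Agent.S37.KronModEq
import Fermat.Agent.S37.KronPoly

/-!
P12 (S37), [KR] (K2): the coefficients of the characteristic polynomial of `α (ι f₀)` over
`β F_N` (`f₀` in a frozen chart algebra) are integral over the chart ring.
-/

set_option autoImplicit false
set_option linter.unusedSectionVars false

namespace Fermat.Agent.S37

open AlgebraicCurve ModularCurve ModularCurve.IgusaScheme Polynomial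

variable {N ℓ : ℕ} [NeZero N] [NeZero ℓ] [Fact ℓ.Prime]
variable {A : ValuationSubring (AlgebraicClosure ℚ)}

namespace KronCoeff

/-- A primitive `ℓ`-th root of unity of `ℚ̄`, as a unit; it lies in every valuation ring. -/
theorem exists_root_mem (A : ValuationSubring (AlgebraicClosure ℚ)) (ℓ : ℕ) [NeZero ℓ] :
    ∃ ζ : (AlgebraicClosure ℚ)ˣ, IsPrimitiveRoot ζ ℓ ∧ (ζ : AlgebraicClosure ℚ) ∈ A := by
  have : NeZero ((ℓ : ℕ) : ℚ) := ⟨by exact_mod_cast NeZero.ne ℓ⟩
  obtain ⟨ξ, hξ⟩ := HasEnoughRootsOfUnity.exists_primitiveRoot (AlgebraicClosure ℚ) ℓ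
  have hne : ξ ≠ 0 := hξ.ne_zero (NeZero.ne ℓ)
  refine ⟨Units.mk0 ξ hne, IsPrimitiveRoot.coe_units_iff.mp hξ, ?_⟩
  show ξ ∈ A
  rw [← A.valuation_le_one_iff]
  have h1 : A.valuation ξ ^ ℓ = 1 := by rw [← map_pow, hξ.pow_eq_one, map_one]
  exact ((pow_eq_one_iff_of_nonneg zero_le (NeZero.ne ℓ)).mp h1).le

/-- A linear factor with an integral root has coefficients in the integral closure. -/
theorem X_sub_C_mem_lifts {T : Type*} [CommRing T] {S : Subring T} {r : T}
    (hr : IsIntegral S r) :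
    (X - C r : Polynomial T) ∈ Polynomial.lifts (algebraMap (integralClosure S T) T) := by
  rw [Polynomial.mem_lifts]
  refine ⟨X - C (⟨r, hr⟩ : integralClosure S T), ?_⟩
  rw [Polynomial.map_sub, Polynomial.map_X, Polynomial.map_C]
  rfl

/-- Transport of integrality along a ring homomorphism out of a frozen chart algebra: if the
constants of `ℤ_(ℓ)` go into `S` and the generators go to elements integral over `S`, the whole
chart algebra goes to elements integral over `S`. -/
theorem isIntegral_map_of_mem_chartAlg {T : Type*} [CommRing T] (S : Subring T)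
    (Θ : ↥(modularFunctionFieldFull N) →+* T)
    (hc : ∀ c : ↥(GaloisRep.ratLocalizedAt ℓ),
      Θ (algebraMap ↥(GaloisRep.ratLocalizedAt ℓ) ↥(modularFunctionFieldFull N) c) ∈ S)
    {G : Set ↥(modularFunctionFieldFull N)} (hG : ∀ s ∈ G, IsIntegral S (Θ s))
    {x : ↥(modularFunctionFieldFull N)} (hx : x ∈ chartAlg N ℓ G) :
    IsIntegral S (Θ x) := by
  have hadj : ∀ y ∈ Algebra.adjoin (GaloisRep.ratLocalizedAt ℓ) G, IsIntegral S (Θ y) := by
    intro y hy
    induction hy using Algebra.adjoin_induction with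
    | mem y hy => exact hG y hy
    | algebraMap c => exact KronCore.isIntegral_of_mem (hc c)
    | add y z _ _ hy hz =>
      rw [map_add]
      exact hy.add hz
    | mul y z _ _ hy hz =>
      rw [map_mul]
      exact hy.mul hz
  have hint : IsIntegral (Algebra.adjoin (GaloisRep.ratLocalizedAt ℓ) G) x := hx
  let φ : Algebra.adjoin (GaloisRep.ratLocalizedAt ℓ) G →+* integralClosure S T :=
    RingHom.codRestrict (Θ.comp
      (algebraMap (Algebra.adjoin (GaloisRep.ratLocalizedAt ℓ) G) (modularFunctionFieldFull N)))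
      (integralClosure S T) (fun y => hadj y y.2)
  have h2 : IsIntegral (integralClosure S T) (Θ x) :=
    hint.map_of_comp_eq φ Θ (by ext y; rfl)
  exact isIntegral_trans _ h2

/-- Finite chart: for a ring endomorphism `ψ` of `ℚ̄((q))` fixing the constants, if `ψ j` is
integral over a subring `S` containing the constants of `A`, then so is `ψ (ι f₀)` for every
`f₀` of the finite chart algebra. -/
theorem isIntegral_comp_of_mem_chartAlgFin (hA : A.LiesOverPrime ℓ)
    (S : Subring (LaurentSeries (AlgebraicClosure ℚ)))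
    (hS : ∀ a ∈ A, (HahnSeries.C a : LaurentSeries (AlgebraicClosure ℚ)) ∈ S)
    (ψ : LaurentSeries (AlgebraicClosure ℚ) →+* LaurentSeries (AlgebraicClosure ℚ))
    (hψC : ∀ a : AlgebraicClosure ℚ, ψ (HahnSeries.C a) = HahnSeries.C a)
    (hψj : IsIntegral S (ψ (jqModC (AlgebraicClosure ℚ))))
    {f₀ : modularFunctionFieldFull N} (hf₀ : f₀ ∈ chartAlgFin N ℓ) :
    IsIntegral S (ψ (iotaFull N f₀ : LaurentSeries (AlgebraicClosure ℚ))) := by
  let Θ : ↥(modularFunctionFieldFull N) →+* LaurentSeries (AlgebraicClosure ℚ) :=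
    ψ.comp ((algebraMap ↥(modularFunctionFieldBar N) (LaurentSeries (AlgebraicClosure ℚ))).comp
      (iotaFull N))
  have hΘ : ∀ f : ↥(modularFunctionFieldFull N),
      Θ f = ψ (iotaFull N f : LaurentSeries (AlgebraicClosure ℚ)) := fun _ => rfl
  rw [← hΘ]
  refine isIntegral_map_of_mem_chartAlg (ℓ := ℓ) S Θ ?_ (G := {jFull N}) ?_ hf₀
  · intro c
    have h1 : algebraMap (GaloisRep.ratLocalizedAt ℓ) (modularFunctionFieldFull N) c =
        algebraMap ℚ (modularFunctionFieldFull N) (c : ℚ) := rfl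
    rw [hΘ, h1, iotaFull_algebraMap]
    have h2 : ((algebraMap (AlgebraicClosure ℚ) (modularFunctionFieldBar N)
        (algebraMap ℚ (AlgebraicClosure ℚ) (c : ℚ)) : modularFunctionFieldBar N) :
          LaurentSeries (AlgebraicClosure ℚ)) =
        HahnSeries.C (algebraMap ℚ (AlgebraicClosure ℚ) (c : ℚ)) := by
      rw [← Fermat.Agent.S24.LaurentDeriv.algebraMap_eq_C]
      rfl
    rw [h2, hψC]
    exact hS _ (algebraMap_ratLocalizedAt_mem A hA c)
  · intro s hs
    rw [Set.mem_singleton_iff.mp hs, hΘ]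
    have h3 : (iotaFull N (jFull N) : LaurentSeries (AlgebraicClosure ℚ)) =
        jqModC (AlgebraicClosure ℚ) := Fermat.Agent.S28.coeffEmb_jq (AlgebraicClosure ℚ)
    rw [h3]
    exact hψj

/-- The series ring `A[j(q^ℓ)]` is contained in the image of the chart ring `A[j]` under
`g ↦ g(q^ℓ)`. -/
theorem serRing_le_map (A : ValuationSubring (AlgebraicClosure ℚ)) (N ℓ : ℕ) [NeZero N]
    [NeZero ℓ] :
    KronModEq.serRing A.toSubring
        (qExpand (AlgebraicClosure ℚ) ℓ (jqModC (AlgebraicClosure ℚ))) 1 ≤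
      (chartRing A N (jBar N) 1).map (betaIncl N ℓ) := by
  refine Subring.closure_le.mpr ?_
  rintro x (⟨a, ha, rfl⟩ | hx)
  · refine ⟨algebraMap (AlgebraicClosure ℚ) ↥(modularFunctionFieldBar N) a,
      algebraMap_mem_chartRing _ _ ha, ?_⟩
    rw [betaIncl_apply]
    have h2 : ((algebraMap (AlgebraicClosure ℚ) (modularFunctionFieldBar N) a :
        modularFunctionFieldBar N) : LaurentSeries (AlgebraicClosure ℚ)) = HahnSeries.C a := by
      rw [← Fermat.Agent.S24.LaurentDeriv.algebraMap_eq_C]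
      rfl
    rw [h2, qExpand_C]
  · rcases hx with rfl | hx
    · refine ⟨jBar N, left_mem_chartRing _ _, ?_⟩
      rw [betaIncl_apply]
      have h3 : (jBar N : LaurentSeries (AlgebraicClosure ℚ)) =
          jqModC (AlgebraicClosure ℚ) := Fermat.Agent.S28.coeffEmb_jq (AlgebraicClosure ℚ)
      rw [h3]
    · rw [Set.mem_singleton_iff] at hx
      rw [hx]
      exact ⟨1, Subring.one_mem _, map_one _⟩

end KronCoeff

/-- (K2), finite chart: the coefficients of the characteristic polynomial of `α (ι f₀)` over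
`β F_N` are integral over `A[j]`. -/
theorem isIntegral_coeff_charpolyAlong_fin (hA : A.LiesOverPrime ℓ) (hℓN : ¬ ℓ ∣ N)
    {f₀ : modularFunctionFieldFull N} (hf₀ : f₀ ∈ chartAlgFin N ℓ) (i : ℕ) :
    IsIntegral (chartRing A N (jBar N) 1)
      ((charpolyAlong (heckeBetaBar (AlgebraicClosure ℚ) N ℓ)
        (heckeAlphaBar (AlgebraicClosure ℚ) N ℓ (iotaFull N f₀))).coeff i) := by
  obtain ⟨ζ, hζ, hζA⟩ := KronCoeff.exists_root_mem A ℓ
  have hKP := charpolyAlong_alpha_map N ℓ (Fact.out : ℓ.Prime) hℓN ζ hζ (iotaFull N f₀)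
  set S : Subring (LaurentSeries (AlgebraicClosure ℚ)) := KronModEq.serRing A.toSubring
    (qExpand (AlgebraicClosure ℚ) ℓ (jqModC (AlgebraicClosure ℚ))) 1 with hSdef
  have hSC : ∀ a ∈ A, (HahnSeries.C a : LaurentSeries (AlgebraicClosure ℚ)) ∈ S :=
    fun a ha => KronModEq.C_mem_serRing _ _ _ ha
  have hinf : IsIntegral S (qExpand (AlgebraicClosure ℚ) (ℓ * ℓ)
      (iotaFull N f₀ : LaurentSeries (AlgebraicClosure ℚ))) :=
    KronCoeff.isIntegral_comp_of_mem_chartAlgFin hA S hSC _ (fun a => qExpand_C _ a)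
      (KronModEq.isIntegral_fin_inf ℓ A.toSubring ζ hζ hζA) hf₀
  have hrot : ∀ b : ℕ, IsIntegral S (Fermat.Agent.S24.laurentRot (ζ ^ b)
      (iotaFull N f₀ : LaurentSeries (AlgebraicClosure ℚ))) := fun b =>
    KronCoeff.isIntegral_comp_of_mem_chartAlgFin hA S hSC _
      (fun a => Fermat.Agent.S28.Subst.laurentRot_C _ a)
      (KronModEq.isIntegral_fin_rot ℓ A.toSubring ζ hζ hζA b) hf₀
  have hmem : (charpolyAlong (heckeBetaBar (AlgebraicClosure ℚ) N ℓ)
      (heckeAlphaBar (AlgebraicClosure ℚ) N ℓ (iotaFull N f₀))).map (betaIncl N ℓ) ∈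
      Polynomial.lifts (algebraMap (integralClosure S (LaurentSeries (AlgebraicClosure ℚ)))
        (LaurentSeries (AlgebraicClosure ℚ))) := by
    rw [hKP]
    exact Subsemiring.mul_mem _ (KronCoeff.X_sub_C_mem_lifts hinf)
      (Subsemiring.prod_mem _ fun b _ => KronCoeff.X_sub_C_mem_lifts (hrot b))
  obtain ⟨y, hy⟩ := (Polynomial.lifts_iff_coeff_lifts _).mp hmem i
  have hint : IsIntegral S (betaIncl N ℓ
      ((charpolyAlong (heckeBetaBar (AlgebraicClosure ℚ) N ℓ)
        (heckeAlphaBar (AlgebraicClosure ℚ) N ℓ (iotaFull N f₀))).coeff i)) := by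
    rw [← Polynomial.coeff_map, ← hy]
    exact y.2
  exact KronCore.isIntegral_of_map (betaIncl N ℓ) (betaIncl_injective N ℓ) _ S
    (KronCoeff.serRing_le_map A N ℓ) hint

end Fermat.Agent.S37
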