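import Fermat.Agent.S37.RedPt
import Fermat.Agent.S37.ChartRing
import Fermat.Agent.S37.KronCore
import Fermat.Agent.S37.KronModEq
import Fermat.Agent.S37.KronPoly

/-!
P12 (S37), [KR] (K2), cusp chart: the coefficients of the characteristic polynomial of
`α (ι f₀)` over `β F_N` (`f₀` in the frozen chart algebra at infinity) are integral over the
chart ring `A[1/j][1/s(1/j)]`.
-/

set_option autoImplicit false
set_option linter.unusedSectionVars false

namespace Fermat.Agent.S37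

open AlgebraicCurve ModularCurve ModularCurve.IgusaScheme Polynomial

variable {N ℓ : ℕ} [NeZero N] [NeZero ℓ] [Fact ℓ.Prime]
variable {A : ValuationSubring (AlgebraicClosure ℚ)}

namespace KronCoeffInf

/-- Roots of unity lie in every valuation ring. -/
theorem unit_mem_of_pow_eq_one (A : ValuationSubring (AlgebraicClosure ℚ)) {n : ℕ} (hn : n ≠ 0)
    (ζ : (AlgebraicClosure ℚ)ˣ) (h : ζ ^ n = 1) : (ζ : AlgebraicClosure ℚ) ∈ A := by
  rw [← A.valuation_le_one_iff]
  have h1 : A.valuation (ζ : AlgebraicClosure ℚ) ^ n = 1 := by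
    rw [← map_pow, ← Units.val_pow_eq_pow_val, h, Units.val_one, map_one]
  exact ((pow_eq_one_iff_of_nonneg zero_le hn).mp h1).le

/-- Coefficients of `(X - r₀) ∏ (X - r b)` with integral roots are integral. -/
theorem isIntegral_coeff_mul_prod {T : Type*} [CommRing T] {S : Subring T} (r₀ : T)
    (t : Finset ℕ) (r : ℕ → T) (h₀ : IsIntegral S r₀) (hr : ∀ b ∈ t, IsIntegral S (r b))
    (n : ℕ) : IsIntegral S (((X - C r₀) * ∏ b ∈ t, (X - C (r b))).coeff n) := by
  have hlin : ∀ x : T, IsIntegral S x →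
      (X - C x : Polynomial T) ∈ Polynomial.lifts (algebraMap (integralClosure S T) T) := by
    intro x hx
    rw [Polynomial.mem_lifts]
    refine ⟨X - C (⟨x, hx⟩ : integralClosure S T), ?_⟩
    rw [Polynomial.map_sub, Polynomial.map_X, Polynomial.map_C]
    rfl
  have hmem : ((X - C r₀) * ∏ b ∈ t, (X - C (r b))) ∈
      Polynomial.lifts (algebraMap (integralClosure S T) T) :=
    Subsemiring.mul_mem _ (hlin r₀ h₀) (Subsemiring.prod_mem _ fun b hb => hlin (r b) (hr b hb))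
  obtain ⟨y, hy⟩ := (Polynomial.lifts_iff_coeff_lifts _).mp hmem n
  rw [← hy]
  exact y.2

/-- Transport of the chart at infinity along an endomorphism `θ` of `ℚ̄((q))` fixing the
constants: `θ (ι f₀)` is integral over `A[1/θ(j)]`. -/
theorem isIntegral_theta (hA : A.LiesOverPrime ℓ)
    (θ : LaurentSeries (AlgebraicClosure ℚ) →+* LaurentSeries (AlgebraicClosure ℚ))
    (hθ : ∀ c : AlgebraicClosure ℚ, θ (HahnSeries.C c) = HahnSeries.C c)
    {f₀ : modularFunctionFieldFull N} (hf₀ : f₀ ∈ chartAlgInf N ℓ) :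
    IsIntegral (KronModEq.serRing A.toSubring (θ (jqModC (AlgebraicClosure ℚ)))⁻¹ 1)
      (θ (iotaFull N f₀ : LaurentSeries (AlgebraicClosure ℚ))) := by
  let Θ : ↥(modularFunctionFieldFull N) →+* LaurentSeries (AlgebraicClosure ℚ) :=
    θ.comp ((algebraMap ↥(modularFunctionFieldBar N) (LaurentSeries (AlgebraicClosure ℚ))).comp
      (iotaFull N))
  have hΘj : Θ (jFull N)⁻¹ = (θ (jqModC (AlgebraicClosure ℚ)))⁻¹ := by
    rw [map_inv₀]
    congr 1
    show θ (coeffEmb (AlgebraicClosure ℚ) jq) = θ (jqModC (AlgebraicClosure ℚ))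
    rw [Fermat.Agent.S28.coeffEmb_jq]
  have hadj : ∀ y ∈ Algebra.adjoin (GaloisRep.ratLocalizedAt ℓ)
      ({(jFull N)⁻¹} : Set (modularFunctionFieldFull N)),
      Θ y ∈ KronModEq.serRing A.toSubring (θ (jqModC (AlgebraicClosure ℚ)))⁻¹ 1 := by
    intro y hy
    induction hy using Algebra.adjoin_induction with
    | mem y hy =>
      rw [Set.mem_singleton_iff.mp hy, hΘj]
      exact KronModEq.fst_mem_serRing _ _ _
    | algebraMap c =>
      have h1 : algebraMap (GaloisRep.ratLocalizedAt ℓ) (modularFunctionFieldFull N) c =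
          algebraMap ℚ (modularFunctionFieldFull N) (c : ℚ) := rfl
      have h2 : Θ (algebraMap ℚ (modularFunctionFieldFull N) (c : ℚ)) =
          HahnSeries.C (algebraMap ℚ (AlgebraicClosure ℚ) (c : ℚ)) := by
        show θ ((iotaFull N (algebraMap ℚ (modularFunctionFieldFull N) (c : ℚ)) :
          modularFunctionFieldBar N) : LaurentSeries (AlgebraicClosure ℚ)) = _
        rw [iotaFull_algebraMap]
        show θ (algebraMap (AlgebraicClosure ℚ) (LaurentSeries (AlgebraicClosure ℚ))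
          (algebraMap ℚ (AlgebraicClosure ℚ) (c : ℚ))) = _
        rw [Fermat.Agent.S28.ModEqCor.algebraMap_laurentSeries_eq_C, hθ]
      rw [h1, h2]
      exact KronModEq.C_mem_serRing _ _ _ (algebraMap_ratLocalizedAt_mem A hA c)
    | add y z _ _ hy hz =>
      rw [map_add]
      exact add_mem hy hz
    | mul y z _ _ hy hz =>
      rw [map_mul]
      exact mul_mem hy hz
  have hint : IsIntegral (Algebra.adjoin (GaloisRep.ratLocalizedAt ℓ)
      ({(jFull N)⁻¹} : Set (modularFunctionFieldFull N))) f₀ := hf₀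
  let φ : Algebra.adjoin (GaloisRep.ratLocalizedAt ℓ)
      ({(jFull N)⁻¹} : Set (modularFunctionFieldFull N)) →+*
      KronModEq.serRing A.toSubring (θ (jqModC (AlgebraicClosure ℚ)))⁻¹ 1 :=
    RingHom.codRestrict (Θ.comp (algebraMap (Algebra.adjoin (GaloisRep.ratLocalizedAt ℓ)
      ({(jFull N)⁻¹} : Set (modularFunctionFieldFull N))) (modularFunctionFieldFull N)))
      (KronModEq.serRing A.toSubring (θ (jqModC (AlgebraicClosure ℚ)))⁻¹ 1)
      (fun y => hadj y y.2)
  exact hint.map_of_comp_eq φ Θ (by ext y; rfl)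

end KronCoeffInf

/-- (K2), cusp chart: there is `s ∈ A[V]`, `s(0) = 1`, such that the coefficients of the
characteristic polynomial of `α (ι f₀)` over `β F_N` are integral over `A[1/j][1/s(1/j)]`. -/
theorem exists_isIntegral_coeff_charpolyAlong_inf (hA : A.LiesOverPrime ℓ) (hℓN : ¬ ℓ ∣ N) :
    ∃ s : Polynomial (AlgebraicClosure ℚ), (∀ i, s.coeff i ∈ A) ∧ s.coeff 0 = 1 ∧
      ∀ f₀ ∈ chartAlgInf N ℓ, ∀ i : ℕ,
        IsIntegral (chartRing A N (jBar N)⁻¹ (Polynomial.aeval (jBar N)⁻¹ s)⁻¹)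
          ((charpolyAlong (heckeBetaBar (AlgebraicClosure ℚ) N ℓ)
            (heckeAlphaBar (AlgebraicClosure ℚ) N ℓ (iotaFull N f₀))).coeff i) := by
  have hℓ : ℓ.Prime := Fact.out
  obtain ⟨ζ₀, hζ₀⟩ := HasEnoughRootsOfUnity.exists_primitiveRoot (AlgebraicClosure ℚ) ℓ
  obtain ⟨ζ, rfl⟩ := hζ₀.isUnit hℓ.ne_zero
  have hζ : IsPrimitiveRoot ζ ℓ := IsPrimitiveRoot.coe_units_iff.mp hζ₀
  have hζA : (ζ : AlgebraicClosure ℚ) ∈ A.toSubring :=
    KronCoeffInf.unit_mem_of_pow_eq_one A hℓ.ne_zero ζ hζ.pow_eq_one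
  obtain ⟨s, hsA, hs0, hinf, hrot⟩ := KronModEq.exists_inf ℓ A.toSubring ζ hζ hζA
  refine ⟨s, hsA, hs0, fun f₀ hf₀ i => ?_⟩
  obtain ⟨V, hV⟩ : ∃ V : LaurentSeries (AlgebraicClosure ℚ),
      V = (qExpand (AlgebraicClosure ℚ) ℓ (jqModC (AlgebraicClosure ℚ)))⁻¹ := ⟨_, rfl⟩
  rw [← hV] at hinf hrot
  obtain ⟨S, hS⟩ : ∃ S : Subring (LaurentSeries (AlgebraicClosure ℚ)),
      S = KronModEq.serRing A.toSubring V (Polynomial.aeval V s)⁻¹ := ⟨_, rfl⟩
  rw [← hS] at hinf hrot
  -- the conjugates of `ι f₀` are integral over `S`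
  have hθint : ∀ θ : LaurentSeries (AlgebraicClosure ℚ) →+* LaurentSeries (AlgebraicClosure ℚ),
      (∀ c : AlgebraicClosure ℚ, θ (HahnSeries.C c) = HahnSeries.C c) →
      IsIntegral S (θ (jqModC (AlgebraicClosure ℚ)))⁻¹ →
      IsIntegral S (θ (iotaFull N f₀ : LaurentSeries (AlgebraicClosure ℚ))) := by
    intro θ hθ hθJ
    refine KronCore.isIntegral_of_forall_isIntegral S _ (fun x hx => ?_)
      (KronCoeffInf.isIntegral_theta hA θ hθ hf₀)
    refine KronCore.isIntegral_of_mem_closure (S := S) ?_ hx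
    rintro y (⟨a, ha, rfl⟩ | hy)
    · rw [hS]
      exact KronCore.isIntegral_of_mem (KronModEq.C_mem_serRing _ _ _ ha)
    · rcases hy with rfl | hy
      · exact hθJ
      · rw [Set.mem_singleton_iff.mp hy]
        exact isIntegral_one
  have hqq : IsIntegral S (qExpand (AlgebraicClosure ℚ) (ℓ * ℓ)
      (iotaFull N f₀ : LaurentSeries (AlgebraicClosure ℚ))) :=
    hθint (qExpand (AlgebraicClosure ℚ) (ℓ * ℓ)) (fun c => qExpand_C _ c) hinf
  have hb : ∀ b : ℕ, IsIntegral S (Fermat.Agent.S24.laurentRot (ζ ^ b)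
      (iotaFull N f₀ : LaurentSeries (AlgebraicClosure ℚ))) :=
    fun b => hθint (Fermat.Agent.S24.laurentRot (ζ ^ b))
      (fun c => Fermat.Agent.S28.ModEqCor.rot_C _ c) (hrot b)
  have hKP := charpolyAlong_alpha_map N ℓ hℓ hℓN ζ hζ (iotaFull N f₀)
  have hcoeff : IsIntegral S (betaIncl N ℓ
      ((charpolyAlong (heckeBetaBar (AlgebraicClosure ℚ) N ℓ)
        (heckeAlphaBar (AlgebraicClosure ℚ) N ℓ (iotaFull N f₀))).coeff i)) := by
    rw [← Polynomial.coeff_map, hKP]
    exact KronCoeffInf.isIntegral_coeff_mul_prod _ _ _ hqq (fun b _ => hb b) i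
  refine KronCore.isIntegral_of_map (betaIncl N ℓ) (betaIncl_injective N ℓ) _ S ?_ hcoeff
  -- `S` is contained in the image of the chart ring
  have hCΩ : ∀ a : AlgebraicClosure ℚ,
      betaIncl N ℓ (algebraMap (AlgebraicClosure ℚ) ↥(modularFunctionFieldBar N) a) =
        HahnSeries.C a := by
    intro a
    rw [betaIncl_apply]
    show qExpand (AlgebraicClosure ℚ) ℓ
      (algebraMap (AlgebraicClosure ℚ) (LaurentSeries (AlgebraicClosure ℚ)) a) = _
    rw [Fermat.Agent.S28.ModEqCor.algebraMap_laurentSeries_eq_C, qExpand_C]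
  have hVeq : betaIncl N ℓ (jBar N)⁻¹ = V := by
    rw [map_inv₀, betaIncl_apply, hV]
    congr 2
    exact Fermat.Agent.S28.coeffEmb_jq (AlgebraicClosure ℚ)
  have hUeq : betaIncl N ℓ (Polynomial.aeval (jBar N)⁻¹ s)⁻¹ = (Polynomial.aeval V s)⁻¹ := by
    rw [map_inv₀, ← hVeq]
    congr 1
    rw [Polynomial.aeval_def, Polynomial.hom_eval₂, Polynomial.aeval_def]
    congr 1
    refine RingHom.ext fun a => ?_
    exact (hCΩ a).trans (Fermat.Agent.S28.ModEqCor.algebraMap_laurentSeries_eq_C a).symm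
  rw [hS]
  refine Subring.closure_le.mpr ?_
  rintro x (⟨a, ha, rfl⟩ | hx)
  · exact ⟨_, algebraMap_mem_chartRing _ _ ha, hCΩ a⟩
  · rcases hx with rfl | hx
    · exact ⟨_, left_mem_chartRing _ _, hVeq⟩
    · rw [Set.mem_singleton_iff.mp hx]
      exact ⟨_, right_mem_chartRing _ _, hUeq⟩

end Fermat.Agent.S37
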