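import Mathlib
import Fermat.Prelude.Def_FLTPrelim_Ramification
import Fermat.Prelude.Def_EllipticCurve_FrobeniusTrace
import Fermat.Agent.S54.Frobenius
import Fermat.Agent.S37.FrobBasic

set_option autoImplicit false

/-!
# S37: the residue field of a valuation subring of `ℚ̄` over `ℓ`, and the action of inertia and
Frobenius elements on it

* `apply_mem_of_mem_decomposition`, `residue_apply_of_mem_inertia`,
  `residue_apply_of_isFrobeniusAt` (and valuation forms): concrete descriptions of the frozen
  definitions `inertiaSubgroupIn`, `IsFrobeniusAt`;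
* `charP_residueField`: the residue field has characteristic `ℓ`;
* `isAlgClosed_residueField`: the residue field of a valuation subring of an algebraically
  closed field is algebraically closed;
* `exists_pow_prime_pow_eq`: every element of the residue field of a valuation subring of `ℚ̄`
  over `ℓ` satisfies `x ^ (ℓ ^ n) = x` for some `n > 0` (the residue field is algebraic over
  the prime field).
-/

namespace Fermat.Agent.S37

open scoped Pointwise

section General

variable {K L : Type*} [Field K] [Field L] [Algebra K L] {A : ValuationSubring L}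

/-- Elements of the decomposition group preserve `A`. -/
theorem apply_mem_of_mem_decomposition {σ : L ≃ₐ[K] L} (h : σ ∈ A.decompositionSubgroup K)
    {a : L} (ha : a ∈ A) : σ a ∈ A := by
  have h1 : σ • A = A := h
  have h2 : σ • a ∈ σ • A := ValuationSubring.smul_mem_pointwise_smul_iff.mpr ha
  rw [h1] at h2
  exact h2

theorem apply_mem_iff_of_mem_decomposition {σ : L ≃ₐ[K] L} (h : σ ∈ A.decompositionSubgroup K)
    {a : L} : σ a ∈ A ↔ a ∈ A := by
  refine ⟨fun ha => ?_, apply_mem_of_mem_decomposition h⟩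
  have h' : σ⁻¹ ∈ A.decompositionSubgroup K := (A.decompositionSubgroup K).inv_mem h
  have := apply_mem_of_mem_decomposition h' ha
  rwa [AlgEquiv.aut_inv, AlgEquiv.symm_apply_apply] at this

/-- The action of the decomposition group on the residue field, concretely. -/
theorem smul_residue {σ : L ≃ₐ[K] L} (h : σ ∈ A.decompositionSubgroup K) {a : L} (ha : a ∈ A) :
    (⟨σ, h⟩ : A.decompositionSubgroup K) • IsLocalRing.residue A ⟨a, ha⟩ =
      IsLocalRing.residue A ⟨σ a, apply_mem_of_mem_decomposition h ha⟩ := by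
  rw [← IsLocalRing.ResidueField.residue_smul]
  rfl

/-- Elements of the inertia group act trivially on residues. -/
theorem residue_apply_of_mem_inertia {τ : L ≃ₐ[K] L} (hτ : τ ∈ A.inertiaSubgroupIn K) {a : L}
    (ha : a ∈ A) :
    IsLocalRing.residue A
        ⟨τ a, apply_mem_of_mem_decomposition (inertiaSubgroupIn_le_decomposition hτ) ha⟩ =
      IsLocalRing.residue A ⟨a, ha⟩ := by
  obtain ⟨h, hx⟩ := mem_inertiaSubgroupIn_iff.mp hτ
  rw [← smul_residue h ha]
  exact hx _

/-- Frobenius elements act on residues by the `q`-th power map. -/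
theorem residue_apply_of_isFrobeniusAt {σ : L ≃ₐ[K] L} {q : ℕ} (hσ : A.IsFrobeniusAt σ q)
    {a : L} (ha : a ∈ A) :
    IsLocalRing.residue A
        ⟨σ a, apply_mem_of_mem_decomposition hσ.mem_decompositionSubgroup ha⟩ =
      IsLocalRing.residue A ⟨a, ha⟩ ^ q := by
  obtain ⟨h, hx⟩ := hσ
  rw [← smul_residue h ha]
  exact hx _

/-- Valuation form: `τ a ≡ a` modulo the maximal ideal for `τ` in the inertia group. -/
theorem valuation_apply_sub_lt_of_mem_inertia {τ : L ≃ₐ[K] L}
    (hτ : τ ∈ A.inertiaSubgroupIn K) {a : L} (ha : a ∈ A) : A.valuation (τ a - a) < 1 := by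
  have h := residue_apply_of_mem_inertia hτ ha
  rw [← sub_eq_zero, ← map_sub, IsLocalRing.residue_eq_zero_iff, A.valuation_lt_one_iff] at h
  exact h

/-- Valuation form: `σ a ≡ a ^ q` modulo the maximal ideal for a Frobenius element `σ`. -/
theorem valuation_apply_sub_pow_lt_of_isFrobeniusAt {σ : L ≃ₐ[K] L} {q : ℕ}
    (hσ : A.IsFrobeniusAt σ q) {a : L} (ha : a ∈ A) : A.valuation (σ a - a ^ q) < 1 := by
  have h := residue_apply_of_isFrobeniusAt hσ ha
  rw [← map_pow, ← sub_eq_zero, ← map_sub, IsLocalRing.residue_eq_zero_iff,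
    A.valuation_lt_one_iff] at h
  exact h

/-- The residue field of a valuation subring over `ℓ` has characteristic `ℓ`. -/
theorem charP_residueField (A : ValuationSubring L) {ℓ : ℕ} (hℓ : ℓ.Prime)
    (hA : A.LiesOverPrime ℓ) : CharP (IsLocalRing.ResidueField A) ℓ := by
  refine (CharP.charP_iff_prime_eq_zero hℓ).mpr ?_
  have h1 : A.valuation ((ℓ : A) : L) < 1 := by
    have := A.mem_nonunits_iff.mp hA
    simpa using this
  have h2 : IsLocalRing.residue A (ℓ : A) = 0 := by
    rw [IsLocalRing.residue_eq_zero_iff, A.valuation_lt_one_iff]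
    exact h1
  simpa using h2

/-- The residue field of a valuation subring of an algebraically closed field is algebraically
closed. -/
theorem isAlgClosed_residueField [IsAlgClosed L] (A : ValuationSubring L) :
    IsAlgClosed (IsLocalRing.ResidueField A) := by
  refine IsAlgClosed.of_exists_root _ fun p hp hirr => ?_
  obtain ⟨q, hqp, hqdeg, hq⟩ := Polynomial.lifts_and_natDegree_eq_and_monic
    (Polynomial.mem_lifts_of_surjective (IsLocalRing.residue_surjective (R := A)) p) hp
  have hdeg : (q.map (algebraMap A L)).degree ≠ 0 := by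
    rw [Polynomial.degree_map_eq_of_injective (FaithfulSMul.algebraMap_injective A L)]
    intro h0
    have h1 : q.natDegree = 0 := Polynomial.natDegree_eq_zero_iff_degree_le_zero.mpr h0.le
    rw [hqdeg] at h1
    exact (Polynomial.natDegree_pos_iff_degree_pos.mpr
      (Polynomial.degree_pos_of_irreducible hirr)).ne' h1
  obtain ⟨x, hx⟩ := IsAlgClosed.exists_root _ hdeg
  have hint : IsIntegral A x := by
    refine ⟨q, hq, ?_⟩
    rw [← Polynomial.eval_map]
    exact hx
  obtain ⟨y, rfl⟩ := IsIntegrallyClosed.isIntegral_iff.mp hint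
  refine ⟨IsLocalRing.residue A y, ?_⟩
  have hy : q.eval y = 0 := by
    apply FaithfulSMul.algebraMap_injective A L
    rw [map_zero, ← Polynomial.eval₂_at_apply, ← Polynomial.eval_map]
    exact hx
  rw [← hqp, Polynomial.eval_map, Polynomial.eval₂_at_apply, hy, map_zero]

end General

section Qbar

open Fermat.Agent.S54 Polynomial

local notation "Ω" => AlgebraicClosure ℚ

/-- Residues of algebraic integers have finite Frobenius orbit. -/
theorem exists_pow_eq_of_isIntegral (A : ValuationSubring (AlgebraicClosure ℚ)) {ℓ : ℕ}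
    (hℓ : ℓ.Prime) (hA : A.LiesOverPrime ℓ) {b : AlgebraicClosure ℚ} (hb : IsIntegral ℤ b) :
    ∃ n : ℕ, 0 < n ∧
      IsLocalRing.residue A ⟨b, mem_of_isIntegral_int A hb⟩ ^ (ℓ ^ n) =
        IsLocalRing.residue A ⟨b, mem_of_isIntegral_int A hb⟩ := by
  classical
  have := charP_residueField A hℓ hA
  have : Fact ℓ.Prime := ⟨hℓ⟩
  set k := IsLocalRing.ResidueField A
  set β : k := IsLocalRing.residue A ⟨b, mem_of_isIntegral_int A hb⟩ with hβ
  have hb' := hb
  obtain ⟨m, hm, hmb⟩ := hb'
  -- the reduction of `m` kills `β`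
  let mbar : k[X] := m.map (Int.castRingHom k)
  have hmbar : mbar.Monic := hm.map _
  have hroot : mbar.eval β = 0 := by
    have h1 : (Int.castRingHom k) = (IsLocalRing.residue A).comp (Int.castRingHom A) :=
      RingHom.ext_int _ _
    have h2 : (m.map (Int.castRingHom A)).eval (⟨b, mem_of_isIntegral_int A hb⟩ : A) = 0 := by
      have h4 : (Int.castRingHom Ω) = (A.subtype).comp (Int.castRingHom A) :=
        RingHom.ext_int _ _
      have h3 : A.subtype ((m.map (Int.castRingHom A)).eval
          (⟨b, mem_of_isIntegral_int A hb⟩ : A)) = (m.map (Int.castRingHom Ω)).eval b := by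
        rw [h4, ← Polynomial.map_map, Polynomial.eval_map (A.subtype),
          ← Polynomial.eval₂_at_apply]
        rfl
      have h5 : (m.map (Int.castRingHom Ω)).eval b = 0 := by
        have h6 : algebraMap ℤ Ω = Int.castRingHom Ω := RingHom.ext_int _ _
        rw [Polynomial.eval_map, ← h6]
        exact hmb
      rw [h5] at h3
      exact Subtype.val_injective h3
    show (m.map (Int.castRingHom k)).eval β = 0
    rw [h1, ← Polynomial.map_map, Polynomial.eval_map (IsLocalRing.residue A), hβ,
      Polynomial.eval₂_at_apply, h2, map_zero]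
  -- all Frobenius conjugates of `β` are roots of `mbar`
  have hfrob : ∀ j : ℕ, mbar.eval (β ^ (ℓ ^ j)) = 0 := by
    intro j
    have h1 : mbar.map (iterateFrobenius k ℓ j) = mbar := by
      show (m.map (Int.castRingHom k)).map (iterateFrobenius k ℓ j) = m.map (Int.castRingHom k)
      rw [Polynomial.map_map]
      congr 1
      exact RingHom.ext_int _ _
    have h2 : (mbar.map (iterateFrobenius k ℓ j)).eval (iterateFrobenius k ℓ j β) =
        iterateFrobenius k ℓ j (mbar.eval β) := by
      rw [Polynomial.eval_map, Polynomial.eval₂_at_apply]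
    rw [h1, hroot, map_zero, iterateFrobenius_def] at h2
    exact h2
  have hfin : (mbar.roots.toFinset : Set k).Finite := Finset.finite_toSet _
  have hmem : ∀ j : ℕ, β ^ (ℓ ^ j) ∈ (mbar.roots.toFinset : Set k) := by
    intro j
    rw [Finset.mem_coe, Multiset.mem_toFinset, Polynomial.mem_roots hmbar.ne_zero]
    exact hfrob j
  obtain ⟨i, j, hij, h⟩ : ∃ i j : ℕ, i < j ∧ β ^ (ℓ ^ i) = β ^ (ℓ ^ j) := by
    have := hfin.to_subtype
    obtain ⟨i, j, hne, h⟩ := Finite.exists_ne_map_eq_of_infinite
      (fun j : ℕ => (⟨β ^ (ℓ ^ j), hmem j⟩ : (mbar.roots.toFinset : Set k)))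
    have h' : β ^ (ℓ ^ i) = β ^ (ℓ ^ j) := congrArg Subtype.val h
    rcases lt_or_gt_of_ne hne with hlt | hlt
    · exact ⟨i, j, hlt, h'⟩
    · exact ⟨j, i, hlt, h'.symm⟩
  refine ⟨j - i, by omega, ?_⟩
  have hinj : Function.Injective (iterateFrobenius k ℓ i) := (iterateFrobenius k ℓ i).injective
  apply hinj
  rw [iterateFrobenius_def, iterateFrobenius_def, ← pow_mul, ← pow_add,
    Nat.sub_add_cancel hij.le]
  exact h.symm

/-- Every element of the residue field of a valuation subring of `ℚ̄` over `ℓ` is fixed by a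
positive power of the Frobenius map: the residue field is algebraic over its prime field. -/
theorem exists_pow_prime_pow_eq (A : ValuationSubring (AlgebraicClosure ℚ)) {ℓ : ℕ}
    (hℓ : ℓ.Prime) (hA : A.LiesOverPrime ℓ) (x : IsLocalRing.ResidueField A) :
    ∃ n : ℕ, 0 < n ∧ x ^ (ℓ ^ n) = x := by
  have := charP_residueField A hℓ hA
  have : Fact ℓ.Prime := ⟨hℓ⟩
  obtain ⟨a, rfl⟩ := IsLocalRing.residue_surjective x
  obtain ⟨b, s, hb, hs, hs1, hxs⟩ :=
    exists_integral_frac A hℓ hA (a : Ω) (isAlgebraic_int _) a.2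
  obtain ⟨n, hn, hbn⟩ := exists_pow_eq_of_isIntegral A hℓ hA hb
  obtain ⟨m, hm, hsm⟩ := exists_pow_eq_of_isIntegral A hℓ hA hs
  set k := IsLocalRing.ResidueField A
  set β : k := IsLocalRing.residue A ⟨b, mem_of_isIntegral_int A hb⟩
  set γ : k := IsLocalRing.residue A ⟨s, mem_of_isIntegral_int A hs⟩
  have hprod : IsLocalRing.residue A a * γ = β := by
    rw [← map_mul]
    congr 1
    exact Subtype.ext hxs
  have hγ : γ ≠ 0 := by
    intro h0
    rw [IsLocalRing.residue_eq_zero_iff, A.valuation_lt_one_iff] at h0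
    exact absurd hs1 (ne_of_lt h0)
  -- both `β` and `γ` are fixed by the `n * m`-th iterate
  have hiter : ∀ (y : k) (r : ℕ), y ^ (ℓ ^ r) = y → ∀ t : ℕ, y ^ (ℓ ^ (r * t)) = y := by
    intro y r hy t
    induction t with
    | zero => simp
    | succ t ih => rw [Nat.mul_succ, pow_add, pow_mul, ih, hy]
  have hβ := hiter β n hbn m
  have hγ' : γ ^ (ℓ ^ (n * m)) = γ := by
    have := hiter γ m hsm n
    rwa [mul_comm] at this
  refine ⟨n * m, Nat.mul_pos hn hm, ?_⟩
  have h1 : (IsLocalRing.residue A a) ^ (ℓ ^ (n * m)) * γ = IsLocalRing.residue A a * γ := by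
    calc (IsLocalRing.residue A a) ^ (ℓ ^ (n * m)) * γ
        = (IsLocalRing.residue A a) ^ (ℓ ^ (n * m)) * γ ^ (ℓ ^ (n * m)) := by rw [hγ']
      _ = (IsLocalRing.residue A a * γ) ^ (ℓ ^ (n * m)) := by rw [mul_pow]
      _ = IsLocalRing.residue A a * γ := by rw [hprod, hβ]
  exact mul_right_cancel₀ hγ h1

end Qbar

end Fermat.Agent.S37
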