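import Fermat.Agent.S37.RedPt
import Fermat.Agent.S37.Frob
import Fermat.Agent.S28.GaussRing
import Fermat.Agent.S28.GaussVal

set_option autoImplicit false

/-!
# S37: glue lemmas for the Kronecker congruence

* `exists_unit_root` (G1): a primitive `ℓ`-th root of unity of `ℚ̄` lies in a valuation ring `A`
  over `ℓ`, is a unit there, reduces to `1`, and `ℓ ∈ (1 - ζ)`.
* `exists_frac_of_mem_gaussV` (G2): an element of the Gauss valuation ring is a quotient of series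
  with coefficients in `A` (images of `ℤ_(ℓ)`-series), the denominator being nonzero mod the
  maximal ideal, and all coefficients `c` satisfying `c ^ ℓ ≡ c mod ℓ`.
* `exists_eq_C_mul` (G3): a Laurent series all of whose coefficients are multiples of `ϖ` is
  `C ϖ` times a Laurent series.
-/

namespace Fermat.Agent.S37.KronGlue

open ModularCurve ModularCurve.IgusaScheme Fermat.Agent.S37 Fermat.Agent.S28

/-- (G1) -/
theorem exists_unit_root (A : ValuationSubring (AlgebraicClosure ℚ)) {ℓ : ℕ} (hℓ : ℓ.Prime)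
    (hA : A.LiesOverPrime ℓ) (ζ : (AlgebraicClosure ℚ)ˣ) (hζ : IsPrimitiveRoot ζ ℓ) :
    ∃ ζ₀ : (↥A)ˣ, IsPrimitiveRoot ζ₀ ℓ ∧
      (((ζ₀ : ↥A) : AlgebraicClosure ℚ) = (ζ : AlgebraicClosure ℚ)) ∧
      IsLocalRing.residue ↥A (ζ₀ : ↥A) = 1 ∧
      ((ℓ : ℕ) : ↥A) ∈ Ideal.span {1 - (ζ₀ : ↥A)} := by
  have hpow : ((ζ : AlgebraicClosure ℚ)) ^ ℓ = 1 := by
    rw [← Units.val_pow_eq_pow_val, hζ.pow_eq_one, Units.val_one]
  have hℓ1 : ℓ - 1 + 1 = ℓ := Nat.sub_add_cancel hℓ.one_le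
  have hinv : ((ζ⁻¹ : (AlgebraicClosure ℚ)ˣ) : AlgebraicClosure ℚ) =
      (ζ : AlgebraicClosure ℚ) ^ (ℓ - 1) := by
    rw [← Units.val_pow_eq_pow_val]
    congr 1
    rw [inv_eq_iff_mul_eq_one, ← pow_succ', hℓ1, hζ.pow_eq_one]
  have hinv' : (ζ : AlgebraicClosure ℚ) =
      ((ζ⁻¹ : (AlgebraicClosure ℚ)ˣ) : AlgebraicClosure ℚ) ^ (ℓ - 1) := by
    rw [← Units.val_pow_eq_pow_val]
    congr 1
    rw [inv_pow, eq_comm, inv_eq_iff_mul_eq_one, ← pow_succ, hℓ1, hζ.pow_eq_one]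
  have hmem : (ζ : AlgebraicClosure ℚ) ∈ A ∧
      ((ζ⁻¹ : (AlgebraicClosure ℚ)ˣ) : AlgebraicClosure ℚ) ∈ A := by
    rcases A.mem_or_inv_mem (ζ : AlgebraicClosure ℚ) with h | h
    · exact ⟨h, by rw [hinv]; exact pow_mem h _⟩
    · have h' : ((ζ⁻¹ : (AlgebraicClosure ℚ)ˣ) : AlgebraicClosure ℚ) ∈ A := by
        rw [Units.val_inv_eq_inv_val]; exact h
      exact ⟨by rw [hinv']; exact pow_mem h' _, h'⟩
  let ζ₀ : (↥A)ˣ :=
    { val := ⟨(ζ : AlgebraicClosure ℚ), hmem.1⟩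
      inv := ⟨((ζ⁻¹ : (AlgebraicClosure ℚ)ˣ) : AlgebraicClosure ℚ), hmem.2⟩
      val_inv := Subtype.ext (by simp)
      inv_val := Subtype.ext (by simp) }
  have hcoe : (((ζ₀ : ↥A) : AlgebraicClosure ℚ) = (ζ : AlgebraicClosure ℚ)) := rfl
  have hmap : Units.map (A.subtype : ↥A →* AlgebraicClosure ℚ) ζ₀ = ζ := Units.ext rfl
  have hinj : Function.Injective (Units.map (A.subtype : ↥A →* AlgebraicClosure ℚ)) :=
    Units.map_injective Subtype.val_injective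
  have hprim : IsPrimitiveRoot ζ₀ ℓ :=
    IsPrimitiveRoot.of_map_of_injective (f := Units.map (A.subtype : ↥A →* AlgebraicClosure ℚ))
      (by rw [hmap]; exact hζ) hinj
  have hprim' : IsPrimitiveRoot (ζ₀ : ↥A) ℓ := IsPrimitiveRoot.coe_units_iff.mpr hprim
  refine ⟨ζ₀, hprim, hcoe, ?_, ?_⟩
  · haveI := charP_residueField A hℓ hA
    have : Fact ℓ.Prime := ⟨hℓ⟩
    have h1 : (IsLocalRing.residue ↥A (ζ₀ : ↥A) - 1) ^ ℓ = 0 := by
      rw [sub_pow_char, one_pow, ← map_pow, hprim'.pow_eq_one, map_one, sub_self]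
    exact sub_eq_zero.mp (pow_eq_zero_iff hℓ.ne_zero |>.mp h1)
  · have hsum : ((ℓ : ℕ) : ↥A) = ∑ i ∈ Finset.range ℓ, (1 - (ζ₀ : ↥A) ^ i) := by
      rw [Finset.sum_sub_distrib, hprim'.geom_sum_eq_zero hℓ.one_lt]
      simp
    rw [hsum]
    refine Ideal.sum_mem _ fun i _ => ?_
    rw [Ideal.mem_span_singleton]
    simpa using sub_dvd_pow_sub_pow (1 : ↥A) (ζ₀ : ↥A) i

/-- The inclusion `ℤ_(ℓ) → A` for a valuation ring `A` of `ℚ̄` over `ℓ`. -/
noncomputable def locHom (A : ValuationSubring (AlgebraicClosure ℚ)) {ℓ : ℕ}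
    (hA : A.LiesOverPrime ℓ) : ↥(GaloisRep.ratLocalizedAt ℓ) →+* ↥A :=
  ((algebraMap ℚ (AlgebraicClosure ℚ)).comp (GaloisRep.ratLocalizedAt ℓ).subtype).codRestrict
    A.toSubring (fun c => algebraMap_ratLocalizedAt_mem A hA c)

theorem coe_locHom (A : ValuationSubring (AlgebraicClosure ℚ)) {ℓ : ℕ}
    (hA : A.LiesOverPrime ℓ) (c : ↥(GaloisRep.ratLocalizedAt ℓ)) :
    ((locHom A hA c : ↥A) : AlgebraicClosure ℚ) = algebraMap ℚ (AlgebraicClosure ℚ) (c : ℚ) :=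
  rfl

theorem residue_natCast_eq_zero (A : ValuationSubring (AlgebraicClosure ℚ)) {ℓ : ℕ}
    (hℓ : ℓ.Prime) (hA : A.LiesOverPrime ℓ) : IsLocalRing.residue ↥A ((ℓ : ℕ) : ↥A) = 0 := by
  have := charP_residueField A hℓ hA
  rw [map_natCast]
  exact CharP.cast_eq_zero _ ℓ

/-- A coefficient of `ℤ_(ℓ)` which is nonzero mod `ℓ` has nonzero residue in `A`. -/
theorem residue_locHom_ne_zero (A : ValuationSubring (AlgebraicClosure ℚ)) {ℓ : ℕ}
    (hℓ : ℓ.Prime) (hA : A.LiesOverPrime ℓ) [Fact ℓ.Prime] (c : ↥(GaloisRep.ratLocalizedAt ℓ))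
    (hc : resZ ℓ c ≠ 0) : IsLocalRing.residue ↥A (locHom A hA c) ≠ 0 := by
  obtain ⟨d, hd⟩ := resZ_surjective ℓ (resZ ℓ c)⁻¹
  have h0 : resZ ℓ (c * d - 1) = 0 := by
    rw [map_sub, map_mul, map_one, hd, mul_inv_cancel₀ hc, sub_self]
  obtain ⟨e, he⟩ := (resZ_eq_zero_iff ℓ _).mp h0
  have h1 : locHom A hA c * locHom A hA d = 1 + ((ℓ : ℕ) : ↥A) * locHom A hA e := by
    have := congrArg (locHom A hA) he
    rw [map_sub, map_mul, map_one, map_mul, map_natCast] at this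
    rw [← this]; ring
  intro h
  have h2 := congrArg (IsLocalRing.residue ↥A) h1
  rw [map_mul, h, zero_mul, map_add, map_one, map_mul, residue_natCast_eq_zero A hℓ hA, zero_mul,
    add_zero] at h2
  exact zero_ne_one h2

theorem locHom_pow_sub_mem (A : ValuationSubring (AlgebraicClosure ℚ)) {ℓ : ℕ}
    (hA : A.LiesOverPrime ℓ) [Fact ℓ.Prime] (c : ↥(GaloisRep.ratLocalizedAt ℓ)) :
    locHom A hA c ^ ℓ - locHom A hA c ∈ Ideal.span {((ℓ : ℕ) : ↥A)} := by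
  have h0 : resZ ℓ (c ^ ℓ - c) = 0 := by
    rw [map_sub, map_pow, ZMod.pow_card, sub_self]
  obtain ⟨e, he⟩ := (resZ_eq_zero_iff ℓ _).mp h0
  rw [Ideal.mem_span_singleton]
  refine ⟨locHom A hA e, ?_⟩
  have := congrArg (locHom A hA) he
  rwa [map_sub, map_pow, map_mul, map_natCast] at this

/-- (G2) -/
theorem exists_frac_of_mem_gaussV (A : ValuationSubring (AlgebraicClosure ℚ)) {ℓ : ℕ}
    (hℓ : ℓ.Prime) (hA : A.LiesOverPrime ℓ) (N : ℕ) [NeZero N] [Fact ℓ.Prime]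
    (f₀ : ↥(modularFunctionFieldFull N)) (hf₀ : f₀ ∈ Fermat.Agent.S28.gaussV N ℓ) :
    ∃ a b : LaurentSeries ↥A,
      coeffMap (IsLocalRing.residue ↥A) b ≠ 0 ∧
      coeffEmb (AlgebraicClosure ℚ) (f₀ : LaurentSeries ℚ) * coeffMap A.subtype b =
        coeffMap A.subtype a ∧
      (∀ n, a.coeff n ^ ℓ - a.coeff n ∈ Ideal.span {((ℓ : ℕ) : ↥A)}) ∧
      (∀ n, b.coeff n ^ ℓ - b.coeff n ∈ Ideal.span {((ℓ : ℕ) : ↥A)}) := by
  obtain ⟨a₀, b₀, hb₀, hab⟩ := (mem_gaussO_iff ℓ _).mp ((mem_gaussV_iff N ℓ f₀).mp hf₀)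
  have hcomp : ∀ x : LaurentSeries ↥(GaloisRep.ratLocalizedAt ℓ),
      coeffMap A.subtype (coeffMap (locHom A hA) x) =
        coeffEmb (AlgebraicClosure ℚ) (coeffMap (GaloisRep.ratLocalizedAt ℓ).subtype x) := by
    intro x
    ext k
    rfl
  refine ⟨coeffMap (locHom A hA) a₀, coeffMap (locHom A hA) b₀, ?_, ?_, ?_, ?_⟩
  · have hex : ∃ n, resZ ℓ (b₀.coeff n) ≠ 0 := by
      by_contra hcon
      push Not at hcon
      apply hb₀
      ext n
      simpa using hcon n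
    obtain ⟨n, hn⟩ := hex
    intro h
    have := congrArg (fun z => z.coeff n) h
    simp only [coeffMap_coeff, HahnSeries.coeff_zero] at this
    exact residue_locHom_ne_zero A hℓ hA _ hn this
  · rw [hcomp, hcomp, ← map_mul, hab]
  · intro n
    exact locHom_pow_sub_mem A hA _
  · intro n
    exact locHom_pow_sub_mem A hA _

open Classical in
/-- Division by `ϖ` (junk value off the multiples of `ϖ`), sending `0` to `0`. -/
noncomputable def divBy {R : Type*} [CommRing R] (ϖ : R) : ZeroHom R R where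
  toFun x := if x = 0 then 0 else if h : ∃ c, x = ϖ * c then h.choose else 0
  map_zero' := if_pos rfl

theorem mul_divBy {R : Type*} [CommRing R] (ϖ : R) (x : R) (hx : x ∈ Ideal.span {ϖ}) :
    ϖ * divBy ϖ x = x := by
  classical
  show ϖ * (if x = 0 then 0 else if h : ∃ c, x = ϖ * c then h.choose else 0) = x
  by_cases h0 : x = 0
  · rw [if_pos h0, mul_zero, h0]
  · have h : ∃ c, x = ϖ * c := by
      obtain ⟨c, hc⟩ := Ideal.mem_span_singleton'.mp hx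
      exact ⟨c, by rw [← hc, mul_comm]⟩
    rw [if_neg h0, dif_pos h]
    exact h.choose_spec.symm

/-- (G3) -/
theorem exists_eq_C_mul {R : Type*} [CommRing R] (ϖ : R) (u : LaurentSeries R)
    (hu : ∀ n, u.coeff n ∈ Ideal.span {ϖ}) :
    ∃ u₁ : LaurentSeries R, u = HahnSeries.C ϖ * u₁ := by
  refine ⟨u.map (divBy ϖ), ?_⟩
  ext n
  rw [HahnSeries.C_mul_eq_smul, HahnSeries.coeff_smul, HahnSeries.map_coeff, smul_eq_mul,
    mul_divBy ϖ _ (hu n)]

end Fermat.Agent.S37.KronGlue
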