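import Fermat.Agent.S37.KronPoly
import Fermat.Agent.S37.KronGlue

/-!
P12 [KP] — Kronecker's congruence (KC) over a valuation ring `A` of `ℚ̄` above `ℓ`.

`coeff_charpolyAlong_sub_of_mem_gaussV`: for `g` the base change of an element `f₀` of the Gauss
ring `gaussV N ℓ` of the rational function field, every coefficient of
`charpoly_β(α g) - (X - g^ℓ)(X^ℓ - g)` equals `(1 - ζ) · y` with `y` in the Gauss ring of `F_N`
over `A` (fraction form: `y * b = a` with `a, b ∈ A((q))`, `b` of nonzero reduction).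
-/

set_option autoImplicit false
set_option linter.style.haveILetI false

namespace Fermat.Agent.S37

open Polynomial ModularCurve AlgebraicCurve

/-- **(KC) over a valuation ring of `ℚ̄` above `ℓ`.** For `g` the base change of an element
`f₀` of the Gauss ring `gaussV N ℓ` of the rational function field, every coefficient of
`charpoly_β(α g) - (X - g^ℓ)(X^ℓ - g)` is `(1 - ζ) · y` with `y` in the Gauss ring of `A`
(fraction form). -/
theorem coeff_charpolyAlong_sub_of_mem_gaussV (N ℓ : ℕ) [NeZero N] [NeZero ℓ] [Fact ℓ.Prime]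
    (hN : ¬ ℓ ∣ N) (A : ValuationSubring (AlgebraicClosure ℚ)) (hA : A.LiesOverPrime ℓ)
    (ζ : (AlgebraicClosure ℚ)ˣ) (hζ : IsPrimitiveRoot ζ ℓ)
    (f₀ : ↥(modularFunctionFieldFull N)) (hf₀ : f₀ ∈ S28.gaussV N ℓ)
    (g : ↥(modularFunctionFieldBar N))
    (hg : (g : LaurentSeries (AlgebraicClosure ℚ)) =
      coeffEmb (AlgebraicClosure ℚ) (f₀ : LaurentSeries ℚ)) (i : ℕ) :
    ∃ y : ↥(modularFunctionFieldBar N),
      (charpolyAlong (heckeBetaBar (AlgebraicClosure ℚ) N ℓ)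
            (heckeAlphaBar (AlgebraicClosure ℚ) N ℓ g)).coeff i -
          ((X - C (g ^ ℓ)) * (X ^ ℓ - C g)).coeff i =
        algebraMap (AlgebraicClosure ℚ) ↥(modularFunctionFieldBar N)
          (1 - (ζ : AlgebraicClosure ℚ)) * y ∧
      ∃ a b : LaurentSeries ↥A, coeffMap (IsLocalRing.residue ↥A) b ≠ 0 ∧
        (y : LaurentSeries (AlgebraicClosure ℚ)) * coeffMap A.subtype b = coeffMap A.subtype a := by
  have hℓ : ℓ.Prime := Fact.out
  obtain ⟨ζ₀, hζ₀, hζ₀ζ, hres, hℓmem⟩ := KronGlue.exists_unit_root A hℓ hA ζ hζ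
  obtain ⟨a, b, hb, hab, ha𝔞, hb𝔞⟩ := KronGlue.exists_frac_of_mem_gaussV A hℓ hA N f₀ hf₀
  set 𝔞 : Ideal ↥A := Ideal.span {1 - (ζ₀ : ↥A)} with h𝔞
  have hle : Ideal.span {((ℓ : ℕ) : ↥A)} ≤ 𝔞 := by
    rw [Ideal.span_le, Set.singleton_subset_iff]
    exact hℓmem
  have hζ𝔞 : (ζ₀ : ↥A) - 1 ∈ 𝔞 := by
    have : (ζ₀ : ↥A) - 1 = -(1 - (ζ₀ : ↥A)) := by ring
    rw [this]
    exact 𝔞.neg_mem (Ideal.subset_span rfl)
  obtain ⟨u, w, hw, hu, huw⟩ := coeff_charpolyAlong_sub N ℓ hℓ hN A.subtype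
    Subtype.val_injective (IsLocalRing.residue ↥A) 𝔞 hℓmem ζ₀ hζ₀ hζ𝔞 g a b hb
    (by rw [hg]; exact hab) (fun n => hle (ha𝔞 n)) (fun n => hle (hb𝔞 n)) i
  obtain ⟨u₁, hu₁⟩ := KronGlue.exists_eq_C_mul (1 - (ζ₀ : ↥A)) u hu
  have hne : (1 - (ζ : AlgebraicClosure ℚ)) ≠ 0 := by
    intro h
    have h1 : (ζ : AlgebraicClosure ℚ) = 1 := (sub_eq_zero.mp h).symm
    exact hζ.ne_one hℓ.one_lt (Units.ext h1)
  set d : ↥(modularFunctionFieldBar N) :=
    (charpolyAlong (heckeBetaBar (AlgebraicClosure ℚ) N ℓ)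
            (heckeAlphaBar (AlgebraicClosure ℚ) N ℓ g)).coeff i -
          ((X - C (g ^ ℓ)) * (X ^ ℓ - C g)).coeff i with hd
  refine ⟨algebraMap (AlgebraicClosure ℚ) ↥(modularFunctionFieldBar N)
      (1 - (ζ : AlgebraicClosure ℚ))⁻¹ * d, ?_, u₁, w, hw, ?_⟩
  · rw [← mul_assoc, ← map_mul, mul_inv_cancel₀ hne, map_one, one_mul]
  · have hC : coeffMap A.subtype (HahnSeries.C (1 - (ζ₀ : ↥A))) =
        HahnSeries.C (1 - (ζ : AlgebraicClosure ℚ)) := by
      have h1 : (HahnSeries.C (1 - (ζ₀ : ↥A)) : LaurentSeries ↥A) =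
          HahnSeries.single 0 (1 - (ζ₀ : ↥A)) := rfl
      rw [h1, coeffMap_single]
      simp [← hζ₀ζ]
    have hu' : coeffMap A.subtype u =
        HahnSeries.C (1 - (ζ : AlgebraicClosure ℚ)) * coeffMap A.subtype u₁ := by
      rw [hu₁, map_mul, hC]
    have hcoe : ((algebraMap (AlgebraicClosure ℚ) ↥(modularFunctionFieldBar N)
        (1 - (ζ : AlgebraicClosure ℚ))⁻¹ * d : ↥(modularFunctionFieldBar N)) :
          LaurentSeries (AlgebraicClosure ℚ)) =
        HahnSeries.C (1 - (ζ : AlgebraicClosure ℚ))⁻¹ * (d : LaurentSeries (AlgebraicClosure ℚ)) := by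
      rw [MulMemClass.coe_mul]
      congr 1
      show algebraMap (AlgebraicClosure ℚ) (LaurentSeries (AlgebraicClosure ℚ)) _ = _
      rw [HahnSeries.algebraMap_apply']
      simp
    rw [hcoe, mul_assoc, huw, hu', ← mul_assoc, ← map_mul, inv_mul_cancel₀ hne, map_one, one_mul]

end Fermat.Agent.S37
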