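import Fermat.Agent.S37.RedPt
import Fermat.Agent.S37.ChartRing
import Fermat.Agent.S37.KronCore
import Fermat.Agent.S37.KronModEq

/-!
P12 (S37), [KR] chart stability: for a place `W` of `F_{Nℓ}` above `P` along `β`, the place
`W.restrictAlong α` of `F_N` lies in the same chart as `P`.
-/

set_option autoImplicit false
set_option linter.unusedSectionVars false
set_option linter.unusedVariables false

namespace Fermat.Agent.S37

open AlgebraicCurve ModularCurve ModularCurve.IgusaScheme Polynomial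

namespace KronStab

/-- A primitive `ℓ`-th root of unity of `ℚ̄`, as a unit. -/
theorem exists_primitiveRoot (ℓ : ℕ) [NeZero ℓ] :
    ∃ ζ : (AlgebraicClosure ℚ)ˣ, IsPrimitiveRoot ζ ℓ := by
  obtain ⟨z, hz⟩ := HasEnoughRootsOfUnity.exists_primitiveRoot (AlgebraicClosure ℚ) ℓ
  exact ⟨(hz.isUnit (NeZero.ne ℓ)).unit, IsPrimitiveRoot.coe_units_iff.mp hz⟩

/-- Roots of unity lie in every valuation subring. -/
theorem root_mem {K : Type*} [Field K] (A : ValuationSubring K) {ℓ : ℕ} [NeZero ℓ] {ζ : Kˣ}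
    (hζ : IsPrimitiveRoot ζ ℓ) : (ζ : K) ∈ A := by
  rcases A.mem_or_inv_mem (ζ : K) with h | h
  · exact h
  · have h1 : (ζ : K) = ((ζ : K)⁻¹) ^ (ℓ - 1) := by
      have h2 : (ζ : K) ^ ℓ = 1 := by
        rw [← Units.val_pow_eq_pow_val, hζ.pow_eq_one, Units.val_one]
      have h3 : (ζ : K) ^ (ℓ - 1) * (ζ : K) = 1 := by
        rw [← pow_succ, Nat.sub_add_cancel (Nat.pos_of_ne_zero (NeZero.ne ℓ)), h2]
      rw [inv_pow]
      exact eq_inv_of_mul_eq_one_right h3
    rw [h1]
    exact pow_mem h _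

/-- `coeffEmb L jq` is the Prelude's `jqModC L`. -/
theorem coeffEmb_jq_eq (L : Type*) [Field L] [Algebra ℚ L] : coeffEmb L jq = jqModC L := by
  rw [coeffEmb, ← jqModC_rat, coeffMap_jqModC]

variable {N ℓ : ℕ} [NeZero N] [NeZero ℓ]

/-- The series of `α j` is `j(q)`. -/
theorem coe_alpha_jBar :
    ((heckeAlphaBar (AlgebraicClosure ℚ) N ℓ (jBar N) : modularFunctionFieldBar (N * ℓ)) :
      LaurentSeries (AlgebraicClosure ℚ)) = jqModC (AlgebraicClosure ℚ) := by
  rw [coe_heckeAlphaBar]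
  exact coeffEmb_jq_eq (AlgebraicClosure ℚ)

/-- The series of `β j` is `j(q^ℓ)`. -/
theorem coe_beta_jBar :
    ((heckeBetaBar (AlgebraicClosure ℚ) N ℓ (jBar N) : modularFunctionFieldBar (N * ℓ)) :
      LaurentSeries (AlgebraicClosure ℚ)) =
      qExpand (AlgebraicClosure ℚ) ℓ (jqModC (AlgebraicClosure ℚ)) := by
  rw [coe_heckeBetaBar]
  congr 1
  exact coeffEmb_jq_eq (AlgebraicClosure ℚ)

/-- The series ring `A[t]` is the image of the chart ring `A[t]`. -/
theorem serRing_le_map (A : ValuationSubring (AlgebraicClosure ℚ)) (M : ℕ)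
    (t : modularFunctionFieldBar M) :
    KronModEq.serRing A.toSubring (t : LaurentSeries (AlgebraicClosure ℚ)) 1 ≤
      (chartRing A M t 1).map (algebraMap (modularFunctionFieldBar M)
        (LaurentSeries (AlgebraicClosure ℚ))) := by
  refine Subring.closure_le.mpr ?_
  rintro x (⟨a, ha, rfl⟩ | hx)
  · refine ⟨algebraMap (AlgebraicClosure ℚ) (modularFunctionFieldBar M) a,
      algebraMap_mem_chartRing t 1 ha, ?_⟩
    exact Fermat.Agent.S28.ModEqCor.algebraMap_laurentSeries_eq_C a
  · rcases hx with rfl | hx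
    · exact ⟨t, left_mem_chartRing t 1, rfl⟩
    · rw [Set.mem_singleton_iff] at hx
      rw [hx]
      exact ⟨1, right_mem_chartRing t 1, rfl⟩

/-- An element of a function field whose image under an injective ring homomorphism `φ` is
integral over a subring contained in the image of a subring `R ⊂ W_P` lies in `W_P`. -/
theorem mem_aInt_of_isIntegral_map {K F T : Type*} [Field K] [Field F] [Algebra K F]
    [IsAlgClosed K] [CommRing T] (hF : IsFF K F) (A : ValuationSubring K) (W : Place K F)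
    (φ : F →+* T) (hφ : Function.Injective φ) (R : Subring F)
    (hR : R ≤ (aInt hF A W).toSubring) (S : Subring T) (hS : S ≤ R.map φ) {x : F}
    (h : IsIntegral S (φ x)) : x ∈ aInt hF A W :=
  mem_aInt_of_isIntegral hF A W R hR (KronCore.isIntegral_of_map φ hφ R S hS h)

/-- An element of `F_M` whose series is integral over `A[t]` lies in `W_P` as soon as `t` does. -/
theorem mem_aIntBar_of_series (A : ValuationSubring (AlgebraicClosure ℚ)) (M : ℕ) [NeZero M]
    (W : Place (AlgebraicClosure ℚ) (modularFunctionFieldBar M))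
    {t x : modularFunctionFieldBar M} (ht : t ∈ aIntBar M A W)
    (h : IsIntegral (KronModEq.serRing A.toSubring (t : LaurentSeries (AlgebraicClosure ℚ)) 1)
      (x : LaurentSeries (AlgebraicClosure ℚ))) : x ∈ aIntBar M A W :=
  mem_aInt_of_isIntegral_map (isFF_modularFunctionFieldBar M) A W
    (algebraMap (modularFunctionFieldBar M) (LaurentSeries (AlgebraicClosure ℚ)))
    (algebraMap (modularFunctionFieldBar M) (LaurentSeries (AlgebraicClosure ℚ))).injective
    (chartRing A M t 1)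
    (chartRing_le (fun _ ha => algebraMap_mem_aInt _ A W ha) ht (one_mem _))
    _ (serRing_le_map A M t) h

end KronStab

variable {N ℓ : ℕ} [NeZero N] [NeZero ℓ] [Fact ℓ.Prime]
variable {A : ValuationSubring (AlgebraicClosure ℚ)}

/-- Chart stability, finite chart. -/
theorem jBar_mem_aIntBar_restrictAlong (hA : A.LiesOverPrime ℓ)
    {P : Place (AlgebraicClosure ℚ) (modularFunctionFieldBar N)}
    {W : Place (AlgebraicClosure ℚ) (modularFunctionFieldBar (N * ℓ))}
    (hW : W ∈ Place.fiberAlong (heckeBetaBar (AlgebraicClosure ℚ) N ℓ)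
      (heckeBetaBar_isIntegral N ℓ) P)
    (h : jBar N ∈ aIntBar N A P) :
    jBar N ∈ aIntBar N A (W.restrictAlong (heckeAlphaBar (AlgebraicClosure ℚ) N ℓ)
      (heckeAlphaBar_isIntegral N ℓ)) := by
  obtain ⟨ζ, hζ⟩ := KronStab.exists_primitiveRoot ℓ
  have hζA : (ζ : AlgebraicClosure ℚ) ∈ A.toSubring := KronStab.root_mem A hζ
  rw [Place.mem_fiberAlong] at hW
  subst hW
  have hβ : heckeBetaBar (AlgebraicClosure ℚ) N ℓ (jBar N) ∈ aIntBar (N * ℓ) A W :=
    (mem_aInt_restrictAlong_iff (isFF_modularFunctionFieldBar N)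
      (isFF_modularFunctionFieldBar (N * ℓ)) _ _ W A).mp h
  refine (mem_aInt_restrictAlong_iff (isFF_modularFunctionFieldBar N)
      (isFF_modularFunctionFieldBar (N * ℓ)) _ _ W A).mpr ?_
  refine KronStab.mem_aIntBar_of_series A (N * ℓ) W hβ ?_
  rw [KronStab.coe_alpha_jBar, KronStab.coe_beta_jBar]
  have h1 := KronModEq.isIntegral_fin_rot ℓ A.toSubring ζ hζ hζA 0
  rwa [pow_zero, Fermat.Agent.S24.laurentRot_one] at h1

/-- Chart stability, cusp chart. -/
theorem jBar_not_mem_aIntBar_restrictAlong (hA : A.LiesOverPrime ℓ)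
    {P : Place (AlgebraicClosure ℚ) (modularFunctionFieldBar N)}
    {W : Place (AlgebraicClosure ℚ) (modularFunctionFieldBar (N * ℓ))}
    (hW : W ∈ Place.fiberAlong (heckeBetaBar (AlgebraicClosure ℚ) N ℓ)
      (heckeBetaBar_isIntegral N ℓ) P)
    (h : jBar N ∉ aIntBar N A P) :
    jBar N ∉ aIntBar N A (W.restrictAlong (heckeAlphaBar (AlgebraicClosure ℚ) N ℓ)
      (heckeAlphaBar_isIntegral N ℓ)) := by
  obtain ⟨ζ, hζ⟩ := KronStab.exists_primitiveRoot ℓ
  have hζA : (ζ : AlgebraicClosure ℚ) ∈ A.toSubring := KronStab.root_mem A hζ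
  rw [Place.mem_fiberAlong] at hW
  subst hW
  intro hα
  apply h
  have hα' : heckeAlphaBar (AlgebraicClosure ℚ) N ℓ (jBar N) ∈ aIntBar (N * ℓ) A W :=
    (mem_aInt_restrictAlong_iff (isFF_modularFunctionFieldBar N)
      (isFF_modularFunctionFieldBar (N * ℓ)) _ _ W A).mp hα
  refine (mem_aInt_restrictAlong_iff (isFF_modularFunctionFieldBar N)
      (isFF_modularFunctionFieldBar (N * ℓ)) _ _ W A).mpr ?_
  refine KronStab.mem_aIntBar_of_series A (N * ℓ) W hα' ?_
  rw [KronStab.coe_alpha_jBar, KronStab.coe_beta_jBar]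
  exact KronModEq.isIntegral_fin_swap ℓ A.toSubring ζ hζ hζA

end Fermat.Agent.S37
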