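import Mathlib
import Fermat.Prelude.Def_FLTPrelim_Ramification
import Fermat.Agent.S37.Frob

set_option autoImplicit false

/-!
# S37: residues and the decomposition group, ring-hom shaped

Proof-irrelevant and `RingEquiv`-shaped versions of the facts of `Frob.lean`:

* `residue_eq_of_mem_inertia`, `residue_eq_pow_of_isFrobeniusAt`: for `a b : A` with
  `(b : L) = σ a`;
* `decompEquiv h : A ≃+* A`, the restriction of an element of the decomposition group;
* `frobResEquiv A hℓ hA`: the Frobenius automorphism of the residue field of a valuation subring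
  of `ℚ̄` over `ℓ`.
-/

namespace Fermat.Agent.S37

section General

variable {K L : Type*} [Field K] [Field L] [Algebra K L] {A : ValuationSubring L}

/-- Inertia acts trivially on residues (membership-proof free form). -/
theorem residue_eq_of_mem_inertia {τ : L ≃ₐ[K] L} (hτ : τ ∈ A.inertiaSubgroupIn K) {a b : A}
    (hab : (b : L) = τ (a : L)) : IsLocalRing.residue A b = IsLocalRing.residue A a := by
  have h := residue_apply_of_mem_inertia hτ a.2
  have hb : b = ⟨τ (a : L),
      apply_mem_of_mem_decomposition (inertiaSubgroupIn_le_decomposition hτ) a.2⟩ :=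
    Subtype.ext hab
  rw [hb]
  exact h

/-- A Frobenius element acts as `x ↦ x ^ q` on residues (membership-proof free form). -/
theorem residue_eq_pow_of_isFrobeniusAt {σ : L ≃ₐ[K] L} {q : ℕ} (hσ : A.IsFrobeniusAt σ q)
    {a b : A} (hab : (b : L) = σ (a : L)) :
    IsLocalRing.residue A b = IsLocalRing.residue A a ^ q := by
  have h := residue_apply_of_isFrobeniusAt hσ a.2
  have hb : b = ⟨σ (a : L), apply_mem_of_mem_decomposition hσ.mem_decompositionSubgroup a.2⟩ :=
    Subtype.ext hab
  rw [hb]
  exact h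

/-- The restriction to `A` of an element of the decomposition group. -/
noncomputable def decompEquiv {σ : L ≃ₐ[K] L} (h : σ ∈ A.decompositionSubgroup K) : A ≃+* A where
  toFun a := ⟨σ a, apply_mem_of_mem_decomposition h a.2⟩
  invFun a := ⟨σ.symm a, by
    have h' : σ⁻¹ ∈ A.decompositionSubgroup K := (A.decompositionSubgroup K).inv_mem h
    exact apply_mem_of_mem_decomposition h' a.2⟩
  left_inv a := Subtype.ext (σ.symm_apply_apply a)
  right_inv a := Subtype.ext (σ.apply_symm_apply a)
  map_mul' a b := Subtype.ext (map_mul σ (a : L) (b : L))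
  map_add' a b := Subtype.ext (map_add σ (a : L) (b : L))

@[simp] theorem coe_decompEquiv {σ : L ≃ₐ[K] L} (h : σ ∈ A.decompositionSubgroup K) (a : A) :
    ((decompEquiv h a : A) : L) = σ (a : L) := rfl

@[simp] theorem coe_decompEquiv_symm {σ : L ≃ₐ[K] L} (h : σ ∈ A.decompositionSubgroup K)
    (a : A) : (((decompEquiv h).symm a : A) : L) = σ.symm (a : L) := rfl

theorem decompEquiv_mk {σ : L ≃ₐ[K] L} (h : σ ∈ A.decompositionSubgroup K) {a : L}
    (ha : a ∈ A) :
    decompEquiv h ⟨a, ha⟩ = ⟨σ a, apply_mem_of_mem_decomposition h ha⟩ := rfl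

theorem residue_decompEquiv_of_mem_inertia {τ : L ≃ₐ[K] L} (hτ : τ ∈ A.inertiaSubgroupIn K)
    (a : A) :
    IsLocalRing.residue A (decompEquiv (inertiaSubgroupIn_le_decomposition hτ) a) =
      IsLocalRing.residue A a :=
  residue_eq_of_mem_inertia hτ rfl

theorem residue_decompEquiv_of_isFrobeniusAt {σ : L ≃ₐ[K] L} {q : ℕ}
    (hσ : A.IsFrobeniusAt σ q) (a : A) :
    IsLocalRing.residue A (decompEquiv hσ.mem_decompositionSubgroup a) =
      IsLocalRing.residue A a ^ q :=
  residue_eq_pow_of_isFrobeniusAt hσ rfl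

/-- `RingHom` form: `res ∘ τ = res` for `τ` in the inertia group. -/
theorem residue_comp_decompEquiv_of_mem_inertia {τ : L ≃ₐ[K] L}
    (hτ : τ ∈ A.inertiaSubgroupIn K) :
    (IsLocalRing.residue A).comp
        (decompEquiv (inertiaSubgroupIn_le_decomposition hτ) : A →+* A) =
      IsLocalRing.residue A :=
  RingHom.ext fun a => residue_decompEquiv_of_mem_inertia hτ a

/-- `RingHom` form: `res ∘ σ = frob ∘ res` for a Frobenius element `σ`. -/
theorem residue_comp_decompEquiv_of_isFrobeniusAt {σ : L ≃ₐ[K] L} {q : ℕ}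
    [ExpChar (IsLocalRing.ResidueField A) q] (hσ : A.IsFrobeniusAt σ q) :
    (IsLocalRing.residue A).comp (decompEquiv hσ.mem_decompositionSubgroup : A →+* A) =
      (frobenius (IsLocalRing.ResidueField A) q).comp (IsLocalRing.residue A) :=
  RingHom.ext fun a => by
    rw [RingHom.comp_apply, RingHom.comp_apply, frobenius_def]
    exact residue_decompEquiv_of_isFrobeniusAt hσ a

end General

section Qbar

variable (A : ValuationSubring (AlgebraicClosure ℚ)) {ℓ : ℕ}

/-- The Frobenius of the residue field of `A` is bijective. -/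
theorem bijective_pow_residueField (hℓ : ℓ.Prime) (hA : A.LiesOverPrime ℓ) :
    Function.Bijective fun x : IsLocalRing.ResidueField A => x ^ ℓ := by
  have := charP_residueField A hℓ hA
  have : Fact ℓ.Prime := ⟨hℓ⟩
  have := isAlgClosed_residueField A
  exact PerfectRing.bijective_frobenius (R := IsLocalRing.ResidueField A) (p := ℓ)

/-- The Frobenius automorphism `x ↦ x ^ ℓ` of the residue field of `A`. -/
noncomputable def frobResEquiv (hℓ : ℓ.Prime) (hA : A.LiesOverPrime ℓ) :
    IsLocalRing.ResidueField A ≃+* IsLocalRing.ResidueField A :=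
  haveI := charP_residueField A hℓ hA
  haveI : Fact ℓ.Prime := ⟨hℓ⟩
  haveI := isAlgClosed_residueField A
  frobeniusEquiv (IsLocalRing.ResidueField A) ℓ

@[simp] theorem frobResEquiv_apply (hℓ : ℓ.Prime) (hA : A.LiesOverPrime ℓ)
    (x : IsLocalRing.ResidueField A) : frobResEquiv A hℓ hA x = x ^ ℓ := rfl

theorem frobResEquiv_symm_pow (hℓ : ℓ.Prime) (hA : A.LiesOverPrime ℓ)
    (x : IsLocalRing.ResidueField A) : ((frobResEquiv A hℓ hA).symm x) ^ ℓ = x := by
  have := (frobResEquiv A hℓ hA).apply_symm_apply x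
  rwa [frobResEquiv_apply] at this

theorem frobResEquiv_symm_pow' (hℓ : ℓ.Prime) (hA : A.LiesOverPrime ℓ)
    (x : IsLocalRing.ResidueField A) : (frobResEquiv A hℓ hA).symm (x ^ ℓ) = x := by
  have := (frobResEquiv A hℓ hA).symm_apply_apply x
  rwa [frobResEquiv_apply] at this

/-- `res (σ a) = frobResEquiv (res a)` for a Frobenius element `σ`. -/
theorem residue_eq_frobResEquiv_of_isFrobeniusAt (hℓ : ℓ.Prime) (hA : A.LiesOverPrime ℓ)
    {σ : AlgebraicClosure ℚ ≃ₐ[ℚ] AlgebraicClosure ℚ} (hσ : A.IsFrobeniusAt σ ℓ) {a b : A}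
    (hab : (b : AlgebraicClosure ℚ) = σ (a : AlgebraicClosure ℚ)) :
    IsLocalRing.residue A b = frobResEquiv A hℓ hA (IsLocalRing.residue A a) := by
  rw [frobResEquiv_apply]
  exact residue_eq_pow_of_isFrobeniusAt hσ hab

end Qbar

end Fermat.Agent.S37
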