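import Fermat.Agent.S37.HeckeAlong
import Fermat.Agent.S24.Analytic
import Fermat.Prelude.Def_ModularCurve_HeckeModule

/-!
P12-HKI (4/4b): the Hecke correspondence on `J₀(N)` is the honest one.

`HeckeInputsAlong ℚ̄ N ℓ` holds for all `N, ℓ ≥ 1`, so that the frozen `heckeOperatorAlong` (hence
`heckeOperatorBar`) is `[D] ↦ [α_* β^* D]`, where `β : F_N → F_{Nℓ}` is `f(q) ↦ f(q^ℓ)` (pulled
back) and `α : F_N → F_{Nℓ}` is the inclusion (pushed forward).
-/

set_option autoImplicit false
set_option linter.unusedSectionVars false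
set_option linter.style.haveILetI false

namespace Fermat.Agent.S37

open AlgebraicCurve ModularCurve

/-- The function field of `X₀(N)` over `ℚ̄` is a function field in one variable. -/
theorem isFF_modularFunctionFieldBar (N : ℕ) [NeZero N] :
    IsFF (AlgebraicClosure ℚ) (modularFunctionFieldBar N) :=
  ⟨S24.jL (AlgebraicClosure ℚ) N, S24.transcendental_jL N (AlgebraicClosure ℚ),
    S24.finiteDimensional_jL N (AlgebraicClosure ℚ)⟩

/-- Nonzero functions on `X₀(N)` have divisors of degree zero. -/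
instance hasPrincipalDivisors_modularFunctionFieldBar (N : ℕ) [NeZero N] :
    HasPrincipalDivisors (AlgebraicClosure ℚ) (modularFunctionFieldBar N) :=
  (isFF_modularFunctionFieldBar N).hasPrincipalDivisors

/-- All places of `X₀(N)` over `ℚ̄` have degree one. -/
theorem place_deg_modularFunctionFieldBar (N : ℕ) [NeZero N]
    (v : Place (AlgebraicClosure ℚ) (modularFunctionFieldBar N)) : v.deg = 1 :=
  (isFF_modularFunctionFieldBar N).deg_eq_one v

section Inputs

variable (N ℓ : ℕ) [NeZero N] [NeZero ℓ]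

/-- `α` is integral (in the unfolded form expected by `pullbackAlong`, `restrictAlong`, …). -/
theorem heckeAlphaBar_isIntegral :
    (heckeAlphaBar (AlgebraicClosure ℚ) N ℓ).toRingHom.IsIntegral :=
  isIntegral_along_of_isFF (isFF_modularFunctionFieldBar N)
    (isFF_modularFunctionFieldBar (N * ℓ)) _

/-- `β` is integral (in the unfolded form expected by `pullbackAlong`, `restrictAlong`, …). -/
theorem heckeBetaBar_isIntegral :
    (heckeBetaBar (AlgebraicClosure ℚ) N ℓ).toRingHom.IsIntegral :=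
  isIntegral_along_of_isFF (isFF_modularFunctionFieldBar N)
    (isFF_modularFunctionFieldBar (N * ℓ)) _

theorem heckeAlphaBarIntegral : HeckeAlphaBarIntegral (AlgebraicClosure ℚ) N ℓ :=
  heckeAlphaBar_isIntegral N ℓ

theorem heckeBetaBarIntegral : HeckeBetaBarIntegral (AlgebraicClosure ℚ) N ℓ :=
  heckeBetaBar_isIntegral N ℓ

theorem heckeAlphaBar_finiteAlong :
    FiniteAlong (AlgebraicClosure ℚ) (heckeAlphaBar (AlgebraicClosure ℚ) N ℓ) :=
  finiteAlong_of_isFF (isFF_modularFunctionFieldBar N) (isFF_modularFunctionFieldBar (N * ℓ)) _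

theorem heckeBetaBar_finiteAlong :
    FiniteAlong (AlgebraicClosure ℚ) (heckeBetaBar (AlgebraicClosure ℚ) N ℓ) :=
  finiteAlong_of_isFF (isFF_modularFunctionFieldBar N) (isFF_modularFunctionFieldBar (N * ℓ)) _

theorem heckeBetaBar_fundamentalIdentityAlong :
    FundamentalIdentityAlong (AlgebraicClosure ℚ) (heckeBetaBar (AlgebraicClosure ℚ) N ℓ)
      (heckeBetaBar_isIntegral N ℓ) :=
  fundamentalIdentityAlong_of_isFF (isFF_modularFunctionFieldBar N)
    (isFF_modularFunctionFieldBar (N * ℓ)) _ _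

theorem heckeAlphaBar_fundamentalIdentityAlong :
    FundamentalIdentityAlong (AlgebraicClosure ℚ) (heckeAlphaBar (AlgebraicClosure ℚ) N ℓ)
      (heckeAlphaBar_isIntegral N ℓ) :=
  fundamentalIdentityAlong_of_isFF (isFF_modularFunctionFieldBar N)
    (isFF_modularFunctionFieldBar (N * ℓ)) _ _

theorem heckeAlphaBar_normFormulaAlong :
    NormFormulaAlong (AlgebraicClosure ℚ) (heckeAlphaBar (AlgebraicClosure ℚ) N ℓ)
      (heckeAlphaBar_finiteAlong N ℓ) :=
  normFormulaAlong_of_isFF (isFF_modularFunctionFieldBar N)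
    (isFF_modularFunctionFieldBar (N * ℓ)) _ _

theorem heckeBetaBar_normFormulaAlong :
    NormFormulaAlong (AlgebraicClosure ℚ) (heckeBetaBar (AlgebraicClosure ℚ) N ℓ)
      (heckeBetaBar_finiteAlong N ℓ) :=
  normFormulaAlong_of_isFF (isFF_modularFunctionFieldBar N)
    (isFF_modularFunctionFieldBar (N * ℓ)) _ _

/-- **The Hecke inputs hold**: the frozen `heckeOperatorAlong ℚ̄ N ℓ` is the honest Hecke
correspondence, not the junk value `0`. -/
theorem heckeInputsAlong : HeckeInputsAlong (AlgebraicClosure ℚ) N ℓ :=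
  heckeInputsAlong_intro (heckeAlphaBarIntegral N ℓ) (heckeBetaBarIntegral N ℓ)
    (heckeBetaBar_fundamentalIdentityAlong N ℓ) (heckeAlphaBar_finiteAlong N ℓ)
    (heckeAlphaBar_normFormulaAlong N ℓ)

/-- The Hecke correspondence `T_ℓ = α_* β^*` on divisors of `X₀(N)`. -/
noncomputable def heckeDiv :
    Divisor (AlgebraicClosure ℚ) (modularFunctionFieldBar N) →+
      Divisor (AlgebraicClosure ℚ) (modularFunctionFieldBar N) :=
  heckeDivBar (heckeAlphaBarIntegral N ℓ) (heckeBetaBarIntegral N ℓ)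

theorem heckeDiv_apply (D : Divisor (AlgebraicClosure ℚ) (modularFunctionFieldBar N)) :
    heckeDiv N ℓ D =
      Divisor.pushforwardAlong (heckeAlphaBar (AlgebraicClosure ℚ) N ℓ)
        (heckeAlphaBar_isIntegral N ℓ)
        (Divisor.pullbackAlong (heckeBetaBar (AlgebraicClosure ℚ) N ℓ)
          (heckeBetaBar_isIntegral N ℓ) D) :=
  rfl

/-- `T_ℓ` of a point: the sum over the places `W` of `X₀(Nℓ)` above `v` along `β`, with
multiplicity the ramification index along `β`, of the restriction of `W` along `α`. -/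
theorem heckeDiv_single (v : Place (AlgebraicClosure ℚ) (modularFunctionFieldBar N)) (n : ℤ) :
    heckeDiv N ℓ (Finsupp.single v n) =
      ∑ W ∈ Place.fiberAlong (heckeBetaBar (AlgebraicClosure ℚ) N ℓ)
          (heckeBetaBar_isIntegral N ℓ) v,
        Finsupp.single
          (W.restrictAlong (heckeAlphaBar (AlgebraicClosure ℚ) N ℓ) (heckeAlphaBar_isIntegral N ℓ))
          (n * W.ramificationIndexAlong (heckeBetaBar (AlgebraicClosure ℚ) N ℓ)) := by
  rw [heckeDiv_apply, Divisor.pullbackAlong_single, map_sum]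
  refine Finset.sum_congr rfl fun W _ => ?_
  rw [Divisor.pushforwardAlong_single,
    inertiaDegAlong_eq_one (isFF_modularFunctionFieldBar N)
      (isFF_modularFunctionFieldBar (N * ℓ)), Nat.cast_one, mul_one]

theorem degree_heckeDiv (D : Divisor (AlgebraicClosure ℚ) (modularFunctionFieldBar N)) :
    Divisor.degree (heckeDiv N ℓ D) =
      (finrankAlong (AlgebraicClosure ℚ) (heckeBetaBar (AlgebraicClosure ℚ) N ℓ) : ℤ)
        * Divisor.degree D :=
  Divisor.degree_correspondence _ _ _ _ (heckeBetaBar_fundamentalIdentityAlong N ℓ) D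

theorem heckeDiv_mem_degZero {D : Divisor (AlgebraicClosure ℚ) (modularFunctionFieldBar N)}
    (hD : D ∈ Divisor.degZero (K := AlgebraicClosure ℚ) (F := modularFunctionFieldBar N)) :
    heckeDiv N ℓ D ∈ Divisor.degZero (K := AlgebraicClosure ℚ) (F := modularFunctionFieldBar N) :=
  Divisor.correspondence_mem_degZero _ _ _ _ (heckeBetaBar_fundamentalIdentityAlong N ℓ) hD

theorem heckeDiv_mem_principal {D : Divisor (AlgebraicClosure ℚ) (modularFunctionFieldBar N)}
    (hD : D ∈ Divisor.principal (K := AlgebraicClosure ℚ) (F := modularFunctionFieldBar N)) :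
    heckeDiv N ℓ D ∈
      Divisor.principal (K := AlgebraicClosure ℚ) (F := modularFunctionFieldBar N) :=
  Divisor.correspondence_mem_principal _ _ _ _ (heckeAlphaBar_finiteAlong N ℓ)
    (heckeAlphaBar_normFormulaAlong N ℓ) hD

/-- **The frozen Hecke operator is `[D] ↦ [α_* β^* D]`.** -/
theorem heckeOperatorAlong_mk
    (D : Divisor.degZero (K := AlgebraicClosure ℚ) (F := modularFunctionFieldBar N)) :
    heckeOperatorAlong (AlgebraicClosure ℚ) N ℓ (Pic0.mk D) =
      Pic0.mk ⟨heckeDiv N ℓ D, heckeDiv_mem_degZero N ℓ D.2⟩ := by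
  rw [heckeOperatorAlong_eq (heckeAlphaBarIntegral N ℓ) (heckeBetaBarIntegral N ℓ)
    (heckeBetaBar_fundamentalIdentityAlong N ℓ) (heckeAlphaBar_finiteAlong N ℓ)
    (heckeAlphaBar_normFormulaAlong N ℓ)]
  rfl

end Inputs

/-- **The frozen Hecke operator `T_ℓ` on `J₀(N)` is `[D] ↦ [α_* β^* D]`.** -/
theorem heckeOperatorBar_mk (N : ℕ) [NeZero N] (ℓ : Nat.Primes) [NeZero (ℓ : ℕ)]
    (D : Divisor.degZero (K := AlgebraicClosure ℚ) (F := modularFunctionFieldBar N)) :
    heckeOperatorBar N ℓ (Pic0.mk D) =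
      Pic0.mk ⟨heckeDiv N ℓ D, heckeDiv_mem_degZero N ℓ D.2⟩ := by
  rw [heckeOperatorBar_apply]
  exact heckeOperatorAlong_mk N ℓ D

end Fermat.Agent.S37
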