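import Fermat.Agent.S37.Eval
import Fermat.Agent.S37.Hecke
import Fermat.Agent.S37.FrobRes
import Fermat.Prelude.Def_ModularCurve_IgusaScheme

/-!
P12 / S37, module [RP] (1/2): the reduced points of `X₀(N)` at a valuation ring `A` of `ℚ̄`
over `ℓ`, and the reduction of places.

* `iotaFull N : modularFunctionFieldFull N →+* modularFunctionFieldBar N` — coefficientwise base
  change; `jBar N` the `j`-function of `F_L`;
* `RedPt N ℓ A := (C_fin →+* k) ⊕ {χ : C_inf →+* k // χ (1/j) = 0}`, `k` the residue field of `A`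
  (`C_fin`, `C_inf` the frozen Igusa charts);
* `redPt N ℓ A hA P : RedPt N ℓ A` — the reduction of a place `P` of `F_L`
  (`f ↦ res (ev_P (ι f))` on the chart containing `P`);
* `RedPt.mapEquiv φ`, `frobPt` — the action of automorphisms of `k`, resp. of the Frobenius;
* `redPt_smul` — Galois equivariance; `redPt_smul_of_mem_inertia`, `redPt_smul_of_isFrobeniusAt`.
-/

set_option autoImplicit false
set_option linter.unusedSectionVars false

namespace Fermat.Agent.S37

open AlgebraicCurve ModularCurve ModularCurve.IgusaScheme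

section Iota

variable (N : ℕ)

/-- Coefficientwise base change `F_ℚ → F_{ℚ̄}` of modular functions. -/
noncomputable def iotaFull : modularFunctionFieldFull N →+* modularFunctionFieldBar N where
  toFun f := ⟨coeffEmb (AlgebraicClosure ℚ) (f : LaurentSeries ℚ),
    coeffEmb_mem_laurentBaseChange (AlgebraicClosure ℚ) f.2⟩
  map_one' := Subtype.ext (map_one (coeffEmb (AlgebraicClosure ℚ)))
  map_mul' _ _ := Subtype.ext (map_mul (coeffEmb (AlgebraicClosure ℚ)) _ _)
  map_zero' := Subtype.ext (map_zero (coeffEmb (AlgebraicClosure ℚ)))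
  map_add' _ _ := Subtype.ext (map_add (coeffEmb (AlgebraicClosure ℚ)) _ _)

@[simp]
theorem coe_iotaFull (f : modularFunctionFieldFull N) :
    (iotaFull N f : LaurentSeries (AlgebraicClosure ℚ)) =
      coeffEmb (AlgebraicClosure ℚ) (f : LaurentSeries ℚ) :=
  rfl

/-- `ι f` has rational coefficients, hence is fixed by the arithmetic Galois action. -/
theorem arithmeticGalois_smul_iotaFull (σ : AlgebraicClosure ℚ ≃ₐ[ℚ] AlgebraicClosure ℚ)
    (f : modularFunctionFieldFull N) :
    arithmeticGalois (modularFunctionFieldFull N) σ • iotaFull N f = iotaFull N f := by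
  apply Subtype.ext
  rw [coe_arithmeticGalois_smul, coe_iotaFull]
  exact coeffMap_coeffEmb σ _

theorem iotaFull_algebraMap (c : ℚ) :
    iotaFull N (algebraMap ℚ (modularFunctionFieldFull N) c) =
      algebraMap (AlgebraicClosure ℚ) (modularFunctionFieldBar N)
        (algebraMap ℚ (AlgebraicClosure ℚ) c) := by
  rw [eq_ratCast, eq_ratCast, map_ratCast, map_ratCast]

end Iota

section LocalIntegers

/-- `ℤ_(ℓ) ⊂ A` for a valuation ring `A` of `ℚ̄` over `ℓ`. -/
theorem algebraMap_ratLocalizedAt_mem {ℓ : ℕ} (A : ValuationSubring (AlgebraicClosure ℚ))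
    (hA : A.LiesOverPrime ℓ) (c : GaloisRep.ratLocalizedAt ℓ) :
    algebraMap ℚ (AlgebraicClosure ℚ) (c : ℚ) ∈ A := by
  have hc : (c : ℚ).den.Coprime ℓ := c.2
  have hℓ1 : A.valuation ((ℓ : ℕ) : AlgebraicClosure ℚ) < 1 := A.mem_nonunits_iff.mp hA
  have hint : ∀ n : ℤ, A.valuation ((n : ℤ) : AlgebraicClosure ℚ) ≤ 1 := fun n =>
    (A.valuation_le_one_iff _).mpr (intCast_mem A n)
  have hden : A.valuation (((c : ℚ).den : ℕ) : AlgebraicClosure ℚ) = 1 := by
    refine le_antisymm ((A.valuation_le_one_iff _).mpr (natCast_mem A _)) (not_lt.mp fun hlt => ?_)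
    have hcop : IsCoprime (((c : ℚ).den : ℕ) : ℤ) ((ℓ : ℕ) : ℤ) := Nat.isCoprime_iff_coprime.mpr hc
    obtain ⟨a, b, hab⟩ := hcop
    have h1 : ((a : ℤ) : AlgebraicClosure ℚ) * (((c : ℚ).den : ℕ) : AlgebraicClosure ℚ) +
        ((b : ℤ) : AlgebraicClosure ℚ) * ((ℓ : ℕ) : AlgebraicClosure ℚ) = 1 := by
      have := congrArg (fun z : ℤ => (z : AlgebraicClosure ℚ)) hab
      simpa using this
    have h2 : A.valuation (1 : AlgebraicClosure ℚ) < 1 := by
      rw [← h1]
      refine lt_of_le_of_lt (A.valuation.map_add _ _) (max_lt ?_ ?_)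
      · rw [map_mul]
        exact lt_of_le_of_lt (mul_le_of_le_one_left' (hint a)) hlt
      · rw [map_mul]
        exact lt_of_le_of_lt (mul_le_of_le_one_left' (hint b)) hℓ1
    rw [map_one] at h2
    exact lt_irrefl _ h2
  rw [eq_ratCast, Rat.cast_def, ← A.valuation_le_one_iff, map_div₀, hden, div_one]
  exact hint _

end LocalIntegers

section Charts

variable (N : ℕ) [NeZero N] (ℓ : ℕ) [Fact ℓ.Prime] (A : ValuationSubring (AlgebraicClosure ℚ))

/-- The `j`-function of `F_{ℚ̄}`. -/
noncomputable def jBar : modularFunctionFieldBar N := iotaFull N (jFull N)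

/-- The composite valuation ring `W_P` of a place of `F_{ℚ̄}`. -/
noncomputable abbrev aIntBar (P : Place (AlgebraicClosure ℚ) (modularFunctionFieldBar N)) :
    ValuationSubring (modularFunctionFieldBar N) :=
  aInt (isFF_modularFunctionFieldBar N) A P

/-- The reduced evaluation `W_P → k`. -/
noncomputable abbrev resEvBar (P : Place (AlgebraicClosure ℚ) (modularFunctionFieldBar N)) :
    aIntBar N A P →+* IsLocalRing.ResidueField A :=
  resEv (isFF_modularFunctionFieldBar N) A P

variable {N ℓ A}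

/-- If the generators of a chart are integral at `P` (i.e. lie in `W_P`), so is the whole chart. -/
theorem iotaFull_mem_aIntBar_of_mem_chartAlg (hA : A.LiesOverPrime ℓ)
    (P : Place (AlgebraicClosure ℚ) (modularFunctionFieldBar N))
    {S : Set (modularFunctionFieldFull N)} (hS : ∀ s ∈ S, iotaFull N s ∈ aIntBar N A P)
    {x : modularFunctionFieldFull N} (hx : x ∈ chartAlg N ℓ S) :
    iotaFull N x ∈ aIntBar N A P := by
  have hadj : ∀ y ∈ Algebra.adjoin (GaloisRep.ratLocalizedAt ℓ) S,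
      iotaFull N y ∈ aIntBar N A P := by
    intro y hy
    induction hy using Algebra.adjoin_induction with
    | mem y hy => exact hS y hy
    | algebraMap c =>
      have h1 : algebraMap (GaloisRep.ratLocalizedAt ℓ) (modularFunctionFieldFull N) c =
          algebraMap ℚ (modularFunctionFieldFull N) (c : ℚ) := rfl
      rw [h1, iotaFull_algebraMap]
      exact algebraMap_mem_aInt _ A P (algebraMap_ratLocalizedAt_mem A hA c)
    | add y z _ _ hy hz =>
      rw [map_add]
      exact add_mem hy hz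
    | mul y z _ _ hy hz =>
      rw [map_mul]
      exact mul_mem hy hz
  have hint : IsIntegral (Algebra.adjoin (GaloisRep.ratLocalizedAt ℓ) S) x := hx
  let φ : Algebra.adjoin (GaloisRep.ratLocalizedAt ℓ) S →+* aIntBar N A P :=
    RingHom.codRestrict ((iotaFull N).comp
      (algebraMap (Algebra.adjoin (GaloisRep.ratLocalizedAt ℓ) S) (modularFunctionFieldFull N)))
      (aIntBar N A P) (fun y => hadj y y.2)
  have h2 : IsIntegral (aIntBar N A P) (iotaFull N x) :=
    hint.map_of_comp_eq φ (iotaFull N) (by ext y; rfl)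
  obtain ⟨y, hy⟩ := IsIntegrallyClosed.isIntegral_iff.mp h2
  rw [← hy]
  exact y.2

variable (N ℓ A)

/-- The reduction homomorphism of a chart contained in `W_P`. -/
noncomputable def chartHom (P : Place (AlgebraicClosure ℚ) (modularFunctionFieldBar N))
    (S : Set (modularFunctionFieldFull N))
    (hS : ∀ x ∈ chartAlg N ℓ S, iotaFull N x ∈ aIntBar N A P) :
    chartAlg N ℓ S →+* IsLocalRing.ResidueField A :=
  (resEvBar N A P).comp
    (RingHom.codRestrict ((iotaFull N).comp (chartAlg N ℓ S).val.toRingHom) (aIntBar N A P)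
      (fun x => hS x x.2))

theorem chartHom_apply (P : Place (AlgebraicClosure ℚ) (modularFunctionFieldBar N))
    (S : Set (modularFunctionFieldFull N))
    (hS : ∀ x ∈ chartAlg N ℓ S, iotaFull N x ∈ aIntBar N A P) (x : chartAlg N ℓ S) :
    chartHom N ℓ A P S hS x = resEvBar N A P ⟨iotaFull N x, hS x x.2⟩ :=
  rfl

variable {N ℓ A}

theorem iotaFull_mem_of_mem_chartAlgFin (hA : A.LiesOverPrime ℓ)
    (P : Place (AlgebraicClosure ℚ) (modularFunctionFieldBar N)) (h : jBar N ∈ aIntBar N A P)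
    {x : modularFunctionFieldFull N} (hx : x ∈ chartAlgFin N ℓ) :
    iotaFull N x ∈ aIntBar N A P :=
  iotaFull_mem_aIntBar_of_mem_chartAlg hA P (S := {jFull N})
    (fun s hs => by rw [Set.mem_singleton_iff.mp hs]; exact h) hx

theorem iotaFull_inv_jFull : iotaFull N (jFull N)⁻¹ = (jBar N)⁻¹ :=
  map_inv₀ (iotaFull N) (jFull N)

theorem inv_jBar_mem_of_not_mem
    (P : Place (AlgebraicClosure ℚ) (modularFunctionFieldBar N)) (h : jBar N ∉ aIntBar N A P) :
    (jBar N)⁻¹ ∈ aIntBar N A P :=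
  (aInt_mem_or_inv_mem _ A P (jBar N)).resolve_left h

theorem resEvBar_inv_jBar_of_not_mem
    (P : Place (AlgebraicClosure ℚ) (modularFunctionFieldBar N)) (h : jBar N ∉ aIntBar N A P) :
    resEvBar N A P ⟨(jBar N)⁻¹, inv_jBar_mem_of_not_mem P h⟩ = 0 := by
  by_contra hne
  apply h
  have := inv_mem_aInt_of_resEv_ne_zero _ A P (inv_jBar_mem_of_not_mem P h) hne
  rwa [inv_inv] at this

theorem iotaFull_mem_of_mem_chartAlgInf (hA : A.LiesOverPrime ℓ)
    (P : Place (AlgebraicClosure ℚ) (modularFunctionFieldBar N)) (h : jBar N ∉ aIntBar N A P)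
    {x : modularFunctionFieldFull N} (hx : x ∈ chartAlgInf N ℓ) :
    iotaFull N x ∈ aIntBar N A P :=
  iotaFull_mem_aIntBar_of_mem_chartAlg hA P (S := {(jFull N)⁻¹})
    (fun s hs => by
      rw [Set.mem_singleton_iff.mp hs, iotaFull_inv_jFull]
      exact inv_jBar_mem_of_not_mem P h) hx

variable (N ℓ A)

/-- The reduced points of `X₀(N)` at `A`: ring homomorphisms from the finite chart to the residue
field `k` of `A` ("finite points"), and ring homomorphisms from the chart at infinity killing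
`1/j` ("cusp points"). -/
def RedPt : Type :=
  (chartAlgFin N ℓ →+* IsLocalRing.ResidueField A) ⊕
    {χ : chartAlgInf N ℓ →+* IsLocalRing.ResidueField A // χ (jInvChartInf N ℓ) = 0}

/-- The reduction homomorphism on the finite chart, for a place with `j(P) ∈ A`. -/
noncomputable def finHom (hA : A.LiesOverPrime ℓ)
    (P : Place (AlgebraicClosure ℚ) (modularFunctionFieldBar N)) (h : jBar N ∈ aIntBar N A P) :
    chartAlgFin N ℓ →+* IsLocalRing.ResidueField A :=
  chartHom N ℓ A P {jFull N} (fun _ hx => iotaFull_mem_of_mem_chartAlgFin hA P h hx)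

/-- The reduction homomorphism on the chart at infinity, for a place with `j(P) ∉ A`. -/
noncomputable def infHom (hA : A.LiesOverPrime ℓ)
    (P : Place (AlgebraicClosure ℚ) (modularFunctionFieldBar N)) (h : jBar N ∉ aIntBar N A P) :
    chartAlgInf N ℓ →+* IsLocalRing.ResidueField A :=
  chartHom N ℓ A P {(jFull N)⁻¹} (fun _ hx => iotaFull_mem_of_mem_chartAlgInf hA P h hx)

variable {N ℓ A}

theorem finHom_apply (hA : A.LiesOverPrime ℓ)
    (P : Place (AlgebraicClosure ℚ) (modularFunctionFieldBar N)) (h : jBar N ∈ aIntBar N A P)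
    (x : chartAlgFin N ℓ) :
    finHom N ℓ A hA P h x =
      resEvBar N A P ⟨iotaFull N x, iotaFull_mem_of_mem_chartAlgFin hA P h x.2⟩ :=
  rfl

theorem infHom_apply (hA : A.LiesOverPrime ℓ)
    (P : Place (AlgebraicClosure ℚ) (modularFunctionFieldBar N)) (h : jBar N ∉ aIntBar N A P)
    (x : chartAlgInf N ℓ) :
    infHom N ℓ A hA P h x =
      resEvBar N A P ⟨iotaFull N x, iotaFull_mem_of_mem_chartAlgInf hA P h x.2⟩ :=
  rfl

theorem infHom_jInvChartInf (hA : A.LiesOverPrime ℓ)
    (P : Place (AlgebraicClosure ℚ) (modularFunctionFieldBar N)) (h : jBar N ∉ aIntBar N A P) :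
    infHom N ℓ A hA P h (jInvChartInf N ℓ) = 0 := by
  rw [infHom_apply, ← resEvBar_inv_jBar_of_not_mem P h]
  congr 1
  exact Subtype.ext iotaFull_inv_jFull

variable (N ℓ A)

open scoped Classical in
/-- **The reduction of a place** of `F_{ℚ̄}` at `A`. -/
noncomputable def redPt (hA : A.LiesOverPrime ℓ)
    (P : Place (AlgebraicClosure ℚ) (modularFunctionFieldBar N)) : RedPt N ℓ A :=
  if h : jBar N ∈ aIntBar N A P then Sum.inl (finHom N ℓ A hA P h)
  else Sum.inr ⟨infHom N ℓ A hA P h, infHom_jInvChartInf hA P h⟩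

variable {N ℓ A}

theorem redPt_of_mem (hA : A.LiesOverPrime ℓ)
    (P : Place (AlgebraicClosure ℚ) (modularFunctionFieldBar N)) (h : jBar N ∈ aIntBar N A P) :
    redPt N ℓ A hA P = Sum.inl (finHom N ℓ A hA P h) :=
  dif_pos h

theorem redPt_of_not_mem (hA : A.LiesOverPrime ℓ)
    (P : Place (AlgebraicClosure ℚ) (modularFunctionFieldBar N)) (h : jBar N ∉ aIntBar N A P) :
    redPt N ℓ A hA P = Sum.inr ⟨infHom N ℓ A hA P h, infHom_jInvChartInf hA P h⟩ :=
  dif_neg h

/-- The reduction of `P` is a finite point iff `j(P) ∈ A`. -/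
theorem redPt_isLeft_iff (hA : A.LiesOverPrime ℓ)
    (P : Place (AlgebraicClosure ℚ) (modularFunctionFieldBar N)) :
    (redPt N ℓ A hA P).isLeft = true ↔ jBar N ∈ aIntBar N A P := by
  by_cases h : jBar N ∈ aIntBar N A P
  · rw [redPt_of_mem hA P h]
    exact ⟨fun _ => h, fun _ => rfl⟩
  · rw [redPt_of_not_mem hA P h]
    exact ⟨fun h1 => absurd h1 (by simp), fun h1 => absurd h1 h⟩

/-- If `redPt P = inl χ` then `j(P) ∈ A` and `χ f = res (ev_P (ι f))`. -/
theorem redPt_eq_inl_iff (hA : A.LiesOverPrime ℓ)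
    (P : Place (AlgebraicClosure ℚ) (modularFunctionFieldBar N))
    (χ : chartAlgFin N ℓ →+* IsLocalRing.ResidueField A) :
    redPt N ℓ A hA P = Sum.inl χ ↔
      ∃ h : jBar N ∈ aIntBar N A P, finHom N ℓ A hA P h = χ := by
  by_cases h : jBar N ∈ aIntBar N A P
  · rw [redPt_of_mem hA P h]
    constructor
    · intro h1
      exact ⟨h, Sum.inl.inj h1⟩
    · rintro ⟨_, h1⟩
      rw [h1]
  · rw [redPt_of_not_mem hA P h]
    constructor
    · intro h1
      exact absurd h1 (by simp)
    · rintro ⟨h1, _⟩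
      exact absurd h1 h

/-- If `redPt P = inr χ` then `j(P) ∉ A` and `χ f = res (ev_P (ι f))`. -/
theorem redPt_eq_inr_iff (hA : A.LiesOverPrime ℓ)
    (P : Place (AlgebraicClosure ℚ) (modularFunctionFieldBar N))
    (χ : {χ : chartAlgInf N ℓ →+* IsLocalRing.ResidueField A // χ (jInvChartInf N ℓ) = 0}) :
    redPt N ℓ A hA P = Sum.inr χ ↔
      ∃ h : jBar N ∉ aIntBar N A P, infHom N ℓ A hA P h = χ.1 := by
  by_cases h : jBar N ∈ aIntBar N A P
  · rw [redPt_of_mem hA P h]
    constructor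
    · intro h1
      exact absurd h1 (by simp)
    · rintro ⟨h1, _⟩
      exact absurd h h1
  · rw [redPt_of_not_mem hA P h]
    constructor
    · intro h1
      exact ⟨h, congrArg Subtype.val (Sum.inr.inj h1)⟩
    · rintro ⟨_, h1⟩
      exact congrArg Sum.inr (Subtype.ext h1)

end Charts

section Functoriality

variable (N : ℕ) [NeZero N] (ℓ : ℕ) [Fact ℓ.Prime] (A : ValuationSubring (AlgebraicClosure ℚ))

namespace RedPt

variable {N ℓ A}

/-- Post-composition of a reduced point with a ring endomorphism of the residue field. -/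
noncomputable def map (φ : IsLocalRing.ResidueField A →+* IsLocalRing.ResidueField A) :
    RedPt N ℓ A → RedPt N ℓ A :=
  Sum.map (fun χ => φ.comp χ)
    (fun χ => ⟨φ.comp χ.1, by rw [RingHom.comp_apply, χ.2, map_zero]⟩)

@[simp]
theorem map_inl (φ : IsLocalRing.ResidueField A →+* IsLocalRing.ResidueField A)
    (χ : chartAlgFin N ℓ →+* IsLocalRing.ResidueField A) :
    map φ (Sum.inl χ : RedPt N ℓ A) = Sum.inl (φ.comp χ) :=
  rfl

@[simp]
theorem map_inr (φ : IsLocalRing.ResidueField A →+* IsLocalRing.ResidueField A)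
    (χ : {χ : chartAlgInf N ℓ →+* IsLocalRing.ResidueField A // χ (jInvChartInf N ℓ) = 0}) :
    map φ (Sum.inr χ : RedPt N ℓ A) =
      Sum.inr ⟨φ.comp χ.1, by rw [RingHom.comp_apply, χ.2, map_zero]⟩ :=
  rfl

theorem map_id (x : RedPt N ℓ A) : map (RingHom.id _) x = x := by
  rcases x with χ | χ
  · rfl
  · rfl

theorem map_map (φ ψ : IsLocalRing.ResidueField A →+* IsLocalRing.ResidueField A)
    (x : RedPt N ℓ A) : map φ (map ψ x) = map (φ.comp ψ) x := by
  rcases x with χ | χ
  · rfl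
  · rfl

/-- The action of a ring automorphism of the residue field on reduced points. -/
noncomputable def mapEquiv (φ : IsLocalRing.ResidueField A ≃+* IsLocalRing.ResidueField A) :
    RedPt N ℓ A ≃ RedPt N ℓ A where
  toFun := map (φ : IsLocalRing.ResidueField A →+* IsLocalRing.ResidueField A)
  invFun := map (φ.symm : IsLocalRing.ResidueField A →+* IsLocalRing.ResidueField A)
  left_inv x := by
    rw [map_map]
    have h : (φ.symm : IsLocalRing.ResidueField A →+* IsLocalRing.ResidueField A).comp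
        (φ : IsLocalRing.ResidueField A →+* IsLocalRing.ResidueField A) = RingHom.id _ :=
      RingHom.ext fun a => φ.symm_apply_apply a
    rw [h, map_id]
  right_inv x := by
    rw [map_map]
    have h : (φ : IsLocalRing.ResidueField A →+* IsLocalRing.ResidueField A).comp
        (φ.symm : IsLocalRing.ResidueField A →+* IsLocalRing.ResidueField A) = RingHom.id _ :=
      RingHom.ext fun a => φ.apply_symm_apply a
    rw [h, map_id]

theorem mapEquiv_apply (φ : IsLocalRing.ResidueField A ≃+* IsLocalRing.ResidueField A)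
    (x : RedPt N ℓ A) :
    mapEquiv φ x = map (φ : IsLocalRing.ResidueField A →+* IsLocalRing.ResidueField A) x :=
  rfl

theorem mapEquiv_symm_apply (φ : IsLocalRing.ResidueField A ≃+* IsLocalRing.ResidueField A)
    (x : RedPt N ℓ A) :
    (mapEquiv φ).symm x =
      map (φ.symm : IsLocalRing.ResidueField A →+* IsLocalRing.ResidueField A) x :=
  rfl

end RedPt

/-- **The Frobenius on reduced points**: `χ ↦ (x ↦ x ^ ℓ) ∘ χ`. -/
noncomputable def frobPt (hA : A.LiesOverPrime ℓ) : RedPt N ℓ A ≃ RedPt N ℓ A :=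
  RedPt.mapEquiv (frobResEquiv A (Fact.out : ℓ.Prime) hA)

variable {N ℓ A}

theorem frobPt_inl (hA : A.LiesOverPrime ℓ)
    (χ : chartAlgFin N ℓ →+* IsLocalRing.ResidueField A) :
    frobPt N ℓ A hA (Sum.inl χ) =
      Sum.inl ((frobResEquiv A (Fact.out : ℓ.Prime) hA :
        IsLocalRing.ResidueField A →+* IsLocalRing.ResidueField A).comp χ) :=
  rfl

theorem frobPt_inr (hA : A.LiesOverPrime ℓ)
    (χ : {χ : chartAlgInf N ℓ →+* IsLocalRing.ResidueField A // χ (jInvChartInf N ℓ) = 0}) :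
    frobPt N ℓ A hA (Sum.inr χ) =
      Sum.inr ⟨(frobResEquiv A (Fact.out : ℓ.Prime) hA :
        IsLocalRing.ResidueField A →+* IsLocalRing.ResidueField A).comp χ.1,
        by rw [RingHom.comp_apply, χ.2, map_zero]⟩ :=
  rfl

theorem frobPt_symm_inl (hA : A.LiesOverPrime ℓ)
    (χ : chartAlgFin N ℓ →+* IsLocalRing.ResidueField A) :
    (frobPt N ℓ A hA).symm (Sum.inl χ) =
      Sum.inl (((frobResEquiv A (Fact.out : ℓ.Prime) hA).symm :
        IsLocalRing.ResidueField A →+* IsLocalRing.ResidueField A).comp χ) :=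
  rfl

theorem frobPt_symm_inr (hA : A.LiesOverPrime ℓ)
    (χ : {χ : chartAlgInf N ℓ →+* IsLocalRing.ResidueField A // χ (jInvChartInf N ℓ) = 0}) :
    (frobPt N ℓ A hA).symm (Sum.inr χ) =
      Sum.inr ⟨((frobResEquiv A (Fact.out : ℓ.Prime) hA).symm :
        IsLocalRing.ResidueField A →+* IsLocalRing.ResidueField A).comp χ.1,
        by rw [RingHom.comp_apply, χ.2, map_zero]⟩ :=
  rfl

/-- `frobPt (inl χ) = inl χ'` with `χ' f = (χ f) ^ ℓ`. -/
theorem exists_frobPt_inl (hA : A.LiesOverPrime ℓ)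
    (χ : chartAlgFin N ℓ →+* IsLocalRing.ResidueField A) :
    ∃ χp : chartAlgFin N ℓ →+* IsLocalRing.ResidueField A,
      frobPt N ℓ A hA (Sum.inl χ) = Sum.inl χp ∧ ∀ f, χp f = χ f ^ ℓ :=
  ⟨_, frobPt_inl hA χ, fun _ => rfl⟩

/-- `frobPt⁻¹ (inl χ) = inl χ'` with `(χ' f) ^ ℓ = χ f`. -/
theorem exists_frobPt_symm_inl (hA : A.LiesOverPrime ℓ)
    (χ : chartAlgFin N ℓ →+* IsLocalRing.ResidueField A) :
    ∃ χm : chartAlgFin N ℓ →+* IsLocalRing.ResidueField A,
      (frobPt N ℓ A hA).symm (Sum.inl χ) = Sum.inl χm ∧ ∀ f, χm f ^ ℓ = χ f :=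
  ⟨_, frobPt_symm_inl hA χ, fun f => frobResEquiv_symm_pow A Fact.out hA (χ f)⟩

/-- `frobPt (inr χ) = inr χ'` with `χ' f = (χ f) ^ ℓ`. -/
theorem exists_frobPt_inr (hA : A.LiesOverPrime ℓ)
    (χ : {χ : chartAlgInf N ℓ →+* IsLocalRing.ResidueField A // χ (jInvChartInf N ℓ) = 0}) :
    ∃ χp : {χ : chartAlgInf N ℓ →+* IsLocalRing.ResidueField A // χ (jInvChartInf N ℓ) = 0},
      frobPt N ℓ A hA (Sum.inr χ) = Sum.inr χp ∧ ∀ f, χp.1 f = χ.1 f ^ ℓ :=
  ⟨_, frobPt_inr hA χ, fun _ => rfl⟩

/-- `frobPt⁻¹ (inr χ) = inr χ'` with `(χ' f) ^ ℓ = χ f`. -/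
theorem exists_frobPt_symm_inr (hA : A.LiesOverPrime ℓ)
    (χ : {χ : chartAlgInf N ℓ →+* IsLocalRing.ResidueField A // χ (jInvChartInf N ℓ) = 0}) :
    ∃ χm : {χ : chartAlgInf N ℓ →+* IsLocalRing.ResidueField A // χ (jInvChartInf N ℓ) = 0},
      (frobPt N ℓ A hA).symm (Sum.inr χ) = Sum.inr χm ∧ ∀ f, χm.1 f ^ ℓ = χ.1 f :=
  ⟨_, frobPt_symm_inr hA χ, fun f => frobResEquiv_symm_pow A Fact.out hA (χ.1 f)⟩

end Functoriality

section Galois

variable {N : ℕ} [NeZero N] {ℓ : ℕ} [Fact ℓ.Prime] {A : ValuationSubring (AlgebraicClosure ℚ)}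

/-- `W_{σP} = σ(W_P)` for `σ` in the decomposition group of `A`. -/
theorem smul_mem_aIntBar_smul_iff {σ : AlgebraicClosure ℚ ≃ₐ[ℚ] AlgebraicClosure ℚ}
    (hσ : σ ∈ A.decompositionSubgroup ℚ)
    (P : Place (AlgebraicClosure ℚ) (modularFunctionFieldBar N)) (f : modularFunctionFieldBar N) :
    arithmeticGalois (modularFunctionFieldFull N) σ • f ∈
        aIntBar N A (arithmeticGalois (modularFunctionFieldFull N) σ • P) ↔
      f ∈ aIntBar N A P := by
  rw [mem_aInt_iff_evF, mem_aInt_iff_evF, smul_mem_smul_iff, evF_smul]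
  exact and_congr_right fun _ => apply_mem_iff_of_mem_decomposition hσ

/-- Galois equivariance of the reduced evaluation. -/
theorem resEvBar_smul {σ : AlgebraicClosure ℚ ≃ₐ[ℚ] AlgebraicClosure ℚ}
    (hσ : σ ∈ A.decompositionSubgroup ℚ)
    (P : Place (AlgebraicClosure ℚ) (modularFunctionFieldBar N)) {f f' : modularFunctionFieldBar N}
    (hff' : f' = arithmeticGalois (modularFunctionFieldFull N) σ • f) (hf : f ∈ aIntBar N A P)
    (hf' : f' ∈ aIntBar N A (arithmeticGalois (modularFunctionFieldFull N) σ • P)) :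
    resEvBar N A (arithmeticGalois (modularFunctionFieldFull N) σ • P) ⟨f', hf'⟩ =
      (⟨σ, hσ⟩ : A.decompositionSubgroup ℚ) • resEvBar N A P ⟨f, hf⟩ := by
  subst hff'
  have e1 := evF_smul (isFF_modularFunctionFieldBar N) P
    (arithmeticGalois (modularFunctionFieldFull N) σ) f
  rw [evF_of_mem _ _ hf'.1, evF_of_mem _ _ hf.1] at e1
  have e2 : (⟨ev (isFF_modularFunctionFieldBar N)
        (arithmeticGalois (modularFunctionFieldFull N) σ • P)
        ⟨arithmeticGalois (modularFunctionFieldFull N) σ • f, hf'.1⟩, hf'.2⟩ : A) =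
      ⟨σ (ev (isFF_modularFunctionFieldBar N) P ⟨f, hf.1⟩),
        apply_mem_of_mem_decomposition hσ hf.2⟩ :=
    Subtype.ext e1
  have e3 := smul_residue hσ hf.2
  exact (congrArg (IsLocalRing.residue A) e2).trans e3.symm

theorem jBar_mem_aIntBar_smul_iff {σ : AlgebraicClosure ℚ ≃ₐ[ℚ] AlgebraicClosure ℚ}
    (hσ : σ ∈ A.decompositionSubgroup ℚ)
    (P : Place (AlgebraicClosure ℚ) (modularFunctionFieldBar N)) :
    jBar N ∈ aIntBar N A (arithmeticGalois (modularFunctionFieldFull N) σ • P) ↔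
      jBar N ∈ aIntBar N A P := by
  have h := smul_mem_aIntBar_smul_iff hσ P (jBar N)
  rwa [jBar, arithmeticGalois_smul_iotaFull] at h

/-- **Galois equivariance of the reduction of places**: for `σ` in the decomposition group of
`A`, `redPt (σ P) = σ̄ ∘ redPt P`, `σ̄` the automorphism of the residue field induced by `σ`. -/
theorem redPt_smul (hA : A.LiesOverPrime ℓ) {σ : AlgebraicClosure ℚ ≃ₐ[ℚ] AlgebraicClosure ℚ}
    (hσ : σ ∈ A.decompositionSubgroup ℚ)
    (P : Place (AlgebraicClosure ℚ) (modularFunctionFieldBar N)) :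
    redPt N ℓ A hA (arithmeticGalois (modularFunctionFieldFull N) σ • P) =
      RedPt.map (MulSemiringAction.toRingHom (A.decompositionSubgroup ℚ)
        (IsLocalRing.ResidueField A) ⟨σ, hσ⟩) (redPt N ℓ A hA P) := by
  by_cases h : jBar N ∈ aIntBar N A P
  · have h' := (jBar_mem_aIntBar_smul_iff hσ P).mpr h
    rw [redPt_of_mem hA _ h', redPt_of_mem hA P h, RedPt.map_inl]
    congr 1
    ext x
    rw [finHom_apply, RingHom.comp_apply, finHom_apply]
    exact resEvBar_smul hσ P (arithmeticGalois_smul_iotaFull N σ _).symm _ _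
  · have h' : jBar N ∉ aIntBar N A (arithmeticGalois (modularFunctionFieldFull N) σ • P) :=
      fun h1 => h ((jBar_mem_aIntBar_smul_iff hσ P).mp h1)
    rw [redPt_of_not_mem hA _ h', redPt_of_not_mem hA P h, RedPt.map_inr]
    congr 1
    apply Subtype.ext
    ext x
    show infHom N ℓ A hA _ h' x = _
    rw [infHom_apply, RingHom.comp_apply, infHom_apply]
    exact resEvBar_smul hσ P (arithmeticGalois_smul_iotaFull N σ _).symm _ _

/-- (i) at the level of points: inertia does not move the reduction. -/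
theorem redPt_smul_of_mem_inertia (hA : A.LiesOverPrime ℓ)
    {τ : AlgebraicClosure ℚ ≃ₐ[ℚ] AlgebraicClosure ℚ} (hτ : τ ∈ A.inertiaSubgroupIn ℚ)
    (P : Place (AlgebraicClosure ℚ) (modularFunctionFieldBar N)) :
    redPt N ℓ A hA (arithmeticGalois (modularFunctionFieldFull N) τ • P) = redPt N ℓ A hA P := by
  obtain ⟨h, hx⟩ := mem_inertiaSubgroupIn_iff.mp hτ
  rw [redPt_smul hA h P]
  have h1 : MulSemiringAction.toRingHom (A.decompositionSubgroup ℚ)
      (IsLocalRing.ResidueField A) ⟨τ, h⟩ = RingHom.id _ := RingHom.ext fun x => hx x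
  rw [h1, RedPt.map_id]

/-- (ii) at the level of points: a Frobenius element acts as the Frobenius on reduced points. -/
theorem redPt_smul_of_isFrobeniusAt (hA : A.LiesOverPrime ℓ)
    {σ : AlgebraicClosure ℚ ≃ₐ[ℚ] AlgebraicClosure ℚ} (hσ : A.IsFrobeniusAt σ ℓ)
    (P : Place (AlgebraicClosure ℚ) (modularFunctionFieldBar N)) :
    redPt N ℓ A hA (arithmeticGalois (modularFunctionFieldFull N) σ • P) =
      frobPt N ℓ A hA (redPt N ℓ A hA P) := by
  obtain ⟨h, hx⟩ := hσ
  rw [redPt_smul hA h P]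
  have h1 : MulSemiringAction.toRingHom (A.decompositionSubgroup ℚ)
      (IsLocalRing.ResidueField A) ⟨σ, h⟩ =
      (frobResEquiv A (Fact.out : ℓ.Prime) hA :
        IsLocalRing.ResidueField A →+* IsLocalRing.ResidueField A) :=
    RingHom.ext fun x => hx x
  rw [h1]
  rfl

end Galois

end Fermat.Agent.S37
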