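import Fermat.Agent.S37.CharPolyPlace
import Fermat.Agent.S37.RedPt
import Fermat.Agent.S37.ChartRing
import Fermat.Agent.S37.KronCore
import Fermat.Agent.S37.KronStab
import Fermat.Agent.S37.KronCoeff
import Fermat.Agent.S37.KronCoeffInf
import Fermat.Agent.S37.KronPolyA
import Fermat.Agent.S37.GaussAInt
import Fermat.Agent.S37.ESRed

/-!
P12 (S37), [KR]: Kronecker's congruence at a place.

For a place `P` of `F_N` (over `ℚ̄`), a valuation ring `A ⊂ ℚ̄` over `ℓ ∤ N` and `f` in the chart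
algebra of `P`, the reductions of `f` at the places `W.restrictAlong α`, `W` over `P` along `β`,
counted with the ramification indices along `β`, are the roots of `(X^ℓ - c̄)(X - c̄^ℓ)`, where
`c̄` is the reduction of `f` at `P`.

* `kr_fin`, `kr_inf` : the statement in the finite chart and in the chart at the cusps;
* `krFin`, `krInf` : the same in the shapes `KRFin`, `KRInf` consumed by `ESRed`.
-/

set_option autoImplicit false
set_option linter.unusedSectionVars false
set_option linter.style.haveILetI false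

namespace Fermat.Agent.S37

open AlgebraicCurve ModularCurve ModularCurve.IgusaScheme Polynomial

section REv

variable (N : ℕ) [NeZero N] (A : ValuationSubring (AlgebraicClosure ℚ))

/-- The total reduction map `F_L → k` at a place (junk value `0` outside `W_P`). -/
noncomputable def rEv (P : Place (AlgebraicClosure ℚ) (modularFunctionFieldBar N))
    (f : modularFunctionFieldBar N) : IsLocalRing.ResidueField A :=
  open Classical in
  if h : f ∈ aIntBar N A P then resEvBar N A P ⟨f, h⟩ else 0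

variable {N A}

theorem rEv_of_mem {P : Place (AlgebraicClosure ℚ) (modularFunctionFieldBar N)}
    {f : modularFunctionFieldBar N} (h : f ∈ aIntBar N A P) :
    rEv N A P f = resEvBar N A P ⟨f, h⟩ :=
  dif_pos h

theorem rEv_coe {P : Place (AlgebraicClosure ℚ) (modularFunctionFieldBar N)}
    (x : aIntBar N A P) : rEv N A P (x : modularFunctionFieldBar N) = resEvBar N A P x :=
  rEv_of_mem x.2

/-- The reduction in terms of the total evaluation map. -/
theorem rEv_eq_residue {P : Place (AlgebraicClosure ℚ) (modularFunctionFieldBar N)}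
    {f : modularFunctionFieldBar N} (h : f ∈ aIntBar N A P)
    (h' : evF (isFF_modularFunctionFieldBar N) P f ∈ A) :
    rEv N A P f = IsLocalRing.residue A ⟨evF (isFF_modularFunctionFieldBar N) P f, h'⟩ := by
  rw [rEv_of_mem h]
  show IsLocalRing.residue A ⟨ev (isFF_modularFunctionFieldBar N) P ⟨f, h.1⟩, h.2⟩ = _
  congr 1
  exact Subtype.ext (evF_of_mem _ P h.1).symm

end REv

section Core

variable {N ℓ : ℕ} [NeZero N] [NeZero ℓ] [Fact ℓ.Prime]
variable {A : ValuationSubring (AlgebraicClosure ℚ)}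

/-- Elements of a chart algebra are integral over any subring of `F_L` containing the constants
of `A` and the generators of the chart. -/
theorem isIntegral_iotaFull_of_mem_chartAlg (hA : A.LiesOverPrime ℓ)
    (R : Subring (modularFunctionFieldBar N))
    (hRA : ∀ a ∈ A, algebraMap (AlgebraicClosure ℚ) (modularFunctionFieldBar N) a ∈ R)
    {S : Set (modularFunctionFieldFull N)} (hS : ∀ s ∈ S, iotaFull N s ∈ R)
    {x : modularFunctionFieldFull N} (hx : x ∈ chartAlg N ℓ S) :
    IsIntegral R (iotaFull N x) := by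
  have hadj : ∀ y ∈ Algebra.adjoin (GaloisRep.ratLocalizedAt ℓ) S, iotaFull N y ∈ R := by
    intro y hy
    induction hy using Algebra.adjoin_induction with
    | mem y hy => exact hS y hy
    | algebraMap c =>
      have h1 : algebraMap (GaloisRep.ratLocalizedAt ℓ) (modularFunctionFieldFull N) c =
          algebraMap ℚ (modularFunctionFieldFull N) (c : ℚ) := rfl
      rw [h1, iotaFull_algebraMap]
      exact hRA _ (algebraMap_ratLocalizedAt_mem A hA c)
    | add y z _ _ hy hz =>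
      rw [map_add]
      exact add_mem hy hz
    | mul y z _ _ hy hz =>
      rw [map_mul]
      exact mul_mem hy hz
  have hint : IsIntegral (Algebra.adjoin (GaloisRep.ratLocalizedAt ℓ) S) x := hx
  let φ : Algebra.adjoin (GaloisRep.ratLocalizedAt ℓ) S →+* R :=
    RingHom.codRestrict ((iotaFull N).comp
      (algebraMap (Algebra.adjoin (GaloisRep.ratLocalizedAt ℓ) S) (modularFunctionFieldFull N)))
      R (fun y => hadj y y.2)
  exact hint.map_of_comp_eq φ (iotaFull N) (by ext y; rfl)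

/-- Polynomials with coefficients in `A`, evaluated at an element of `W_P`, lie in `W_P`. -/
theorem aeval_mem_aIntBar (P : Place (AlgebraicClosure ℚ) (modularFunctionFieldBar N))
    {t : modularFunctionFieldBar N} (ht : t ∈ aIntBar N A P)
    (s : Polynomial (AlgebraicClosure ℚ)) (hs : ∀ i, s.coeff i ∈ A) :
    Polynomial.aeval t s ∈ aIntBar N A P := by
  rw [Polynomial.aeval_eq_sum_range]
  refine sum_mem fun i _ => ?_
  rw [Algebra.smul_def]
  exact mul_mem (algebraMap_mem_aInt _ A P (hs i)) (pow_mem ht i)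

/-- **The congruence of coefficients at a place.** -/
theorem kr_congr (hA : A.LiesOverPrime ℓ)
    (P : Place (AlgebraicClosure ℚ) (modularFunctionFieldBar N))
    (R : Subring (modularFunctionFieldBar N)) (hR : R ≤ (aIntBar N A P).toSubring)
    (hA3 : ∀ z : modularFunctionFieldBar N, z ∈ gaussA A N → ∀ c : AlgebraicClosure ℚ, c ≠ 0 →
      IsIntegral R (algebraMap (AlgebraicClosure ℚ) (modularFunctionFieldBar N) c * z) →
      IsIntegral R z)
    (ζ : (AlgebraicClosure ℚ)ˣ) (hζ : IsPrimitiveRoot ζ ℓ)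
    (g : modularFunctionFieldBar N) (hgR : IsIntegral R g)
    (χ : Polynomial (modularFunctionFieldBar N)) (i : ℕ) (hχR : IsIntegral R (χ.coeff i))
    (hKC : ∃ y : modularFunctionFieldBar N,
      χ.coeff i - ((X - C (g ^ ℓ)) * (X ^ ℓ - C g)).coeff i =
        algebraMap (AlgebraicClosure ℚ) (modularFunctionFieldBar N)
          (1 - (ζ : AlgebraicClosure ℚ)) * y ∧ y ∈ gaussA A N) :
    χ.coeff i ∈ aIntBar N A P ∧
      rEv N A P (χ.coeff i) = rEv N A P (((X - C (g ^ ℓ)) * (X ^ ℓ - C g)).coeff i) := by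
  have hℓ : ℓ.Prime := Fact.out
  obtain ⟨ζ₀, -, hζ₀ζ, hres, -⟩ := KronGlue.exists_unit_root A hℓ hA ζ hζ
  obtain ⟨y, hy, hyG⟩ := hKC
  have hne : (1 - (ζ : AlgebraicClosure ℚ)) ≠ 0 := by
    intro h0
    have h1 : (ζ : AlgebraicClosure ℚ) = 1 := (sub_eq_zero.mp h0).symm
    exact hζ.ne_one hℓ.one_lt (Units.ext h1)
  have hmemA : (1 - (ζ : AlgebraicClosure ℚ)) ∈ A := by
    rw [← hζ₀ζ]
    exact (1 - (ζ₀ : ↥A)).2
  have hres0 : IsLocalRing.residue A ⟨1 - (ζ : AlgebraicClosure ℚ), hmemA⟩ = 0 := by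
    have h1 : (⟨1 - (ζ : AlgebraicClosure ℚ), hmemA⟩ : A) = 1 - (ζ₀ : ↥A) :=
      Subtype.ext (by
        show 1 - (ζ : AlgebraicClosure ℚ) = 1 - ((ζ₀ : ↥A) : AlgebraicClosure ℚ)
        rw [hζ₀ζ])
    rw [h1, map_sub, map_one, hres, sub_self]
  -- the coefficients of `(X - g^ℓ)(X^ℓ - g)` are integral over `R`
  have hER : IsIntegral R (((X - C (g ^ ℓ)) * (X ^ ℓ - C g)).coeff i) := by
    have hmem : ((X - C (g ^ ℓ)) * (X ^ ℓ - C g) : Polynomial (modularFunctionFieldBar N)) ∈
        Polynomial.lifts (algebraMap (integralClosure R (modularFunctionFieldBar N))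
          (modularFunctionFieldBar N)) := by
      rw [Polynomial.mem_lifts]
      refine ⟨(X - C ((⟨g, hgR⟩ : integralClosure R (modularFunctionFieldBar N)) ^ ℓ)) *
        (X ^ ℓ - C ⟨g, hgR⟩), ?_⟩
      rw [Polynomial.map_mul, Polynomial.map_sub, Polynomial.map_sub, Polynomial.map_pow,
        Polynomial.map_X, Polynomial.map_C, Polynomial.map_C, map_pow]
      rfl
    obtain ⟨w, hw⟩ := (Polynomial.lifts_iff_coeff_lifts _).mp hmem i
    rw [← hw]
    exact w.2
  have hdR : IsIntegral R (algebraMap (AlgebraicClosure ℚ) (modularFunctionFieldBar N)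
      (1 - (ζ : AlgebraicClosure ℚ)) * y) := by
    rw [← hy]
    exact hχR.sub hER
  have hyR : IsIntegral R y := hA3 y hyG _ hne hdR
  have hyP : y ∈ aIntBar N A P := mem_aInt_of_isIntegral _ A P R hR hyR
  have hχP : χ.coeff i ∈ aIntBar N A P := mem_aInt_of_isIntegral _ A P R hR hχR
  have hEP : ((X - C (g ^ ℓ)) * (X ^ ℓ - C g)).coeff i ∈ aIntBar N A P :=
    mem_aInt_of_isIntegral _ A P R hR hER
  refine ⟨hχP, ?_⟩
  rw [rEv_of_mem hχP, rEv_of_mem hEP]
  have hcP := algebraMap_mem_aInt (isFF_modularFunctionFieldBar N) A P hmemA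
  have heq : (⟨χ.coeff i, hχP⟩ : aIntBar N A P) =
      ⟨((X - C (g ^ ℓ)) * (X ^ ℓ - C g)).coeff i, hEP⟩ +
        ⟨algebraMap (AlgebraicClosure ℚ) (modularFunctionFieldBar N)
          (1 - (ζ : AlgebraicClosure ℚ)), hcP⟩ * ⟨y, hyP⟩ := by
    apply Subtype.ext
    show χ.coeff i = ((X - C (g ^ ℓ)) * (X ^ ℓ - C g)).coeff i +
      algebraMap (AlgebraicClosure ℚ) (modularFunctionFieldBar N)
        (1 - (ζ : AlgebraicClosure ℚ)) * y
    rw [← hy]
    ring
  rw [heq, map_add, map_mul, resEv_algebraMap _ A P hmemA, hres0, zero_mul, add_zero]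

/-- **Kronecker at a place, core**: from the congruence of the coefficients to the product
formula for the reductions. -/
theorem kr_core (P : Place (AlgebraicClosure ℚ) (modularFunctionFieldBar N))
    (g : modularFunctionFieldBar N) (hg : g ∈ aIntBar N A P)
    (hgW : ∀ W ∈ Place.fiberAlong (heckeBetaBar (AlgebraicClosure ℚ) N ℓ)
        (heckeBetaBar_isIntegral N ℓ) P,
      g ∈ aIntBar N A (W.restrictAlong (heckeAlphaBar (AlgebraicClosure ℚ) N ℓ)
        (heckeAlphaBar_isIntegral N ℓ)))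
    (hχ : ∀ i : ℕ,
      (charpolyAlong (heckeBetaBar (AlgebraicClosure ℚ) N ℓ)
        (heckeAlphaBar (AlgebraicClosure ℚ) N ℓ g)).coeff i ∈ aIntBar N A P ∧
      rEv N A P ((charpolyAlong (heckeBetaBar (AlgebraicClosure ℚ) N ℓ)
        (heckeAlphaBar (AlgebraicClosure ℚ) N ℓ g)).coeff i) =
        rEv N A P (((X - C (g ^ ℓ)) * (X ^ ℓ - C g)).coeff i)) :
    ∏ W ∈ Place.fiberAlong (heckeBetaBar (AlgebraicClosure ℚ) N ℓ)
        (heckeBetaBar_isIntegral N ℓ) P,
      (X - C (rEv N A (W.restrictAlong (heckeAlphaBar (AlgebraicClosure ℚ) N ℓ)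
        (heckeAlphaBar_isIntegral N ℓ)) g)) ^
        (W.ramificationIndexAlong (heckeBetaBar (AlgebraicClosure ℚ) N ℓ)) =
      (X ^ ℓ - C (rEv N A P g)) * (X - C ((rEv N A P g) ^ ℓ)) := by
  classical
  have hF := isFF_modularFunctionFieldBar N
  have hF' := isFF_modularFunctionFieldBar (N * ℓ)
  have hα := heckeAlphaBar_isIntegral N ℓ
  have hβ := heckeBetaBar_isIntegral N ℓ
  have hW1 : ∀ W ∈ Place.fiberAlong (heckeBetaBar (AlgebraicClosure ℚ) N ℓ) hβ P,
      heckeAlphaBar (AlgebraicClosure ℚ) N ℓ g ∈ aInt hF' A W := fun W hW =>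
    (mem_aInt_restrictAlong_iff hF hF' _ hα W A).mp (hgW W hW)
  have hh : ∀ W ∈ Place.fiberAlong (heckeBetaBar (AlgebraicClosure ℚ) N ℓ) hβ P,
      heckeAlphaBar (AlgebraicClosure ℚ) N ℓ g ∈ W.toValuationSubring := fun W hW => (hW1 W hW).1
  have hWA : ∀ W ∈ Place.fiberAlong (heckeBetaBar (AlgebraicClosure ℚ) N ℓ) hβ P,
      evF hF' W (heckeAlphaBar (AlgebraicClosure ℚ) N ℓ g) ∈ A := fun W hW =>
    ((mem_aInt_iff_evF hF' A W).mp (hW1 W hW)).2
  let aA : Place (AlgebraicClosure ℚ) (modularFunctionFieldBar (N * ℓ)) → ↥A := fun W =>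
    if h : evF hF' W (heckeAlphaBar (AlgebraicClosure ℚ) N ℓ g) ∈ A then ⟨_, h⟩ else 0
  have haA : ∀ W ∈ Place.fiberAlong (heckeBetaBar (AlgebraicClosure ℚ) N ℓ) hβ P,
      ((aA W : ↥A) : AlgebraicClosure ℚ) =
        evF hF' W (heckeAlphaBar (AlgebraicClosure ℚ) N ℓ g) := fun W hW => by
    simp only [aA, dif_pos (hWA W hW)]
  let QA : Polynomial ↥A := ∏ W ∈ Place.fiberAlong (heckeBetaBar (AlgebraicClosure ℚ) N ℓ) hβ P,
    (X - C (aA W)) ^ (W.ramificationIndexAlong (heckeBetaBar (AlgebraicClosure ℚ) N ℓ))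
  have hQ1 : QA.map A.subtype =
      ∏ W ∈ Place.fiberAlong (heckeBetaBar (AlgebraicClosure ℚ) N ℓ) hβ P,
        (X - C (evF hF' W (heckeAlphaBar (AlgebraicClosure ℚ) N ℓ g))) ^
          (W.ramificationIndexAlong (heckeBetaBar (AlgebraicClosure ℚ) N ℓ)) := by
    rw [Polynomial.map_prod]
    refine Finset.prod_congr rfl fun W hW => ?_
    rw [Polynomial.map_pow, Polynomial.map_sub, Polynomial.map_X, Polynomial.map_C]
    congr 3
    exact haA W hW
  have hQ2 : QA.map (IsLocalRing.residue A) =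
      ∏ W ∈ Place.fiberAlong (heckeBetaBar (AlgebraicClosure ℚ) N ℓ) hβ P,
        (X - C (rEv N A (W.restrictAlong (heckeAlphaBar (AlgebraicClosure ℚ) N ℓ) hα) g)) ^
          (W.ramificationIndexAlong (heckeBetaBar (AlgebraicClosure ℚ) N ℓ)) := by
    rw [Polynomial.map_prod]
    refine Finset.prod_congr rfl fun W hW => ?_
    rw [Polynomial.map_pow, Polynomial.map_sub, Polynomial.map_X, Polynomial.map_C]
    congr 3
    have hev : evF hF (W.restrictAlong (heckeAlphaBar (AlgebraicClosure ℚ) N ℓ) hα) g =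
        evF hF' W (heckeAlphaBar (AlgebraicClosure ℚ) N ℓ g) :=
      evF_restrictAlong hF hF' _ hα W g
    have h' : evF hF (W.restrictAlong (heckeAlphaBar (AlgebraicClosure ℚ) N ℓ) hα) g ∈ A := by
      rw [hev]
      exact hWA W hW
    rw [rEv_eq_residue (hgW W hW) h']
    congr 1
    apply Subtype.ext
    show ((aA W : ↥A) : AlgebraicClosure ℚ) = _
    rw [haA W hW]
    exact hev.symm
  rw [← hQ2]
  -- the polynomial `(X - g^ℓ)(X^ℓ - g)` over `W_P`
  let gA : aIntBar N A P := ⟨g, hg⟩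
  let EA : Polynomial (aIntBar N A P) := (X - C (gA ^ ℓ)) * (X ^ ℓ - C gA)
  have hE1 : EA.map (aIntBar N A P).subtype = (X - C (g ^ ℓ)) * (X ^ ℓ - C g) := by
    simp only [EA, Polynomial.map_mul, Polynomial.map_sub, Polynomial.map_X, Polynomial.map_C,
      Polynomial.map_pow, map_pow]
    rfl
  have hE2 : EA.map (resEvBar N A P) =
      (X - C ((rEv N A P g) ^ ℓ)) * (X ^ ℓ - C (rEv N A P g)) := by
    rw [rEv_of_mem hg]
    simp only [EA, Polynomial.map_mul, Polynomial.map_sub, Polynomial.map_X, Polynomial.map_C,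
      Polynomial.map_pow, map_pow]
    rfl
  ext i
  rw [Polynomial.coeff_map, mul_comm (X ^ ℓ - C (rEv N A P g)), ← hE2, Polynomial.coeff_map]
  obtain ⟨hχi, hχi'⟩ := hχ i
  have hcoe : ((QA.coeff i : ↥A) : AlgebraicClosure ℚ) =
      evF hF P ((charpolyAlong (heckeBetaBar (AlgebraicClosure ℚ) N ℓ)
        (heckeAlphaBar (AlgebraicClosure ℚ) N ℓ g)).coeff i) := by
    rw [evF_coeff_charpolyAlong hF hF' _ hβ P hh i, ← hQ1, Polynomial.coeff_map]
    rfl
  have h' : evF hF P ((charpolyAlong (heckeBetaBar (AlgebraicClosure ℚ) N ℓ)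
      (heckeAlphaBar (AlgebraicClosure ℚ) N ℓ g)).coeff i) ∈ A := by
    rw [← hcoe]
    exact (QA.coeff i).2
  have h1 : rEv N A P ((charpolyAlong (heckeBetaBar (AlgebraicClosure ℚ) N ℓ)
      (heckeAlphaBar (AlgebraicClosure ℚ) N ℓ g)).coeff i) =
        IsLocalRing.residue A (QA.coeff i) := by
    rw [rEv_eq_residue hχi h']
    congr 1
    exact Subtype.ext hcoe.symm
  have h2 : ((X - C (g ^ ℓ)) * (X ^ ℓ - C g)).coeff i =
      ((EA.coeff i : aIntBar N A P) : modularFunctionFieldBar N) := by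
    rw [← hE1, Polynomial.coeff_map]
    rfl
  rw [← h1, hχi', h2, rEv_coe]

/-- A primitive `ℓ`-th root of unity of `ℚ̄`, as a unit. -/
theorem exists_primitiveRoot_units (ℓ : ℕ) [NeZero ℓ] :
    ∃ ζ : (AlgebraicClosure ℚ)ˣ, IsPrimitiveRoot ζ ℓ := by
  obtain ⟨ω₀, hω₀⟩ := HasEnoughRootsOfUnity.exists_primitiveRoot (AlgebraicClosure ℚ) ℓ
  refine ⟨Units.mk0 ω₀ (hω₀.ne_zero (NeZero.ne ℓ)), ?_⟩
  rw [← IsPrimitiveRoot.coe_units_iff]
  exact hω₀

/-- **Kronecker at a place, finite chart.** -/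
theorem kr_fin (hA : A.LiesOverPrime ℓ) (hℓN : ¬ ℓ ∣ N)
    (P : Place (AlgebraicClosure ℚ) (modularFunctionFieldBar N)) (h : jBar N ∈ aIntBar N A P) :
    ∃ χ' : Place (AlgebraicClosure ℚ) (modularFunctionFieldBar (N * ℓ)) →
        (chartAlgFin N ℓ →+* IsLocalRing.ResidueField A),
      (∀ W ∈ Place.fiberAlong (heckeBetaBar (AlgebraicClosure ℚ) N ℓ)
          (heckeBetaBar_isIntegral N ℓ) P,
        redPt N ℓ A hA (W.restrictAlong (heckeAlphaBar (AlgebraicClosure ℚ) N ℓ)
          (heckeAlphaBar_isIntegral N ℓ)) = Sum.inl (χ' W)) ∧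
      ∀ f : chartAlgFin N ℓ,
        ∏ W ∈ Place.fiberAlong (heckeBetaBar (AlgebraicClosure ℚ) N ℓ)
            (heckeBetaBar_isIntegral N ℓ) P,
          (X - C (χ' W f)) ^ (W.ramificationIndexAlong (heckeBetaBar (AlgebraicClosure ℚ) N ℓ))
        = (X ^ ℓ - C (finHom N ℓ A hA P h f)) * (X - C ((finHom N ℓ A hA P h f) ^ ℓ)) := by
  classical
  obtain ⟨ζ, hζ⟩ := exists_primitiveRoot_units ℓ
  refine ⟨fun W => if hW : jBar N ∈ aIntBar N A (W.restrictAlong
      (heckeAlphaBar (AlgebraicClosure ℚ) N ℓ) (heckeAlphaBar_isIntegral N ℓ))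
    then finHom N ℓ A hA _ hW else finHom N ℓ A hA P h, ?_, ?_⟩
  · intro W hW
    have hW' := jBar_mem_aIntBar_restrictAlong hA hW h
    rw [redPt_of_mem hA _ hW']
    exact congrArg Sum.inl (dif_pos hW').symm
  · intro f
    -- the chart ring
    have hR : chartRing A N (jBar N) 1 ≤ (aIntBar N A P).toSubring :=
      chartRing_le (fun a ha => algebraMap_mem_aInt _ A P ha) h (one_mem _)
    have hg : iotaFull N (f : modularFunctionFieldFull N) ∈ aIntBar N A P :=
      iotaFull_mem_of_mem_chartAlgFin hA P h f.2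
    have hgW : ∀ W ∈ Place.fiberAlong (heckeBetaBar (AlgebraicClosure ℚ) N ℓ)
        (heckeBetaBar_isIntegral N ℓ) P,
        iotaFull N (f : modularFunctionFieldFull N) ∈
          aIntBar N A (W.restrictAlong (heckeAlphaBar (AlgebraicClosure ℚ) N ℓ)
            (heckeAlphaBar_isIntegral N ℓ)) := fun W hW =>
      iotaFull_mem_of_mem_chartAlgFin hA _ (jBar_mem_aIntBar_restrictAlong hA hW h) f.2
    have hgR : IsIntegral (chartRing A N (jBar N) 1)
        (iotaFull N (f : modularFunctionFieldFull N)) :=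
      isIntegral_iotaFull_of_mem_chartAlg hA _
        (fun a ha => algebraMap_mem_chartRing _ _ ha) (S := {jFull N})
        (fun s hs => by
          rw [Set.mem_singleton_iff.mp hs]
          exact left_mem_chartRing _ _) f.2
    have hχ := fun i : ℕ => kr_congr hA P (chartRing A N (jBar N) 1) hR
      (fun z hz c hc hint => isIntegral_chartFin_of_mul hA hℓN hz hc hint) ζ hζ
      (iotaFull N (f : modularFunctionFieldFull N)) hgR
      (charpolyAlong (heckeBetaBar (AlgebraicClosure ℚ) N ℓ)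
        (heckeAlphaBar (AlgebraicClosure ℚ) N ℓ (iotaFull N (f : modularFunctionFieldFull N)))) i
      (isIntegral_coeff_charpolyAlong_fin hA hℓN f.2 i)
      (coeff_charpolyAlong_sub_of_mem_gaussV N ℓ hℓN A hA ζ hζ (f : modularFunctionFieldFull N)
        (S28.chartAlgFin_le_gaussV N ℓ f.2) (iotaFull N (f : modularFunctionFieldFull N)) rfl i)
    have hcore := kr_core P (iotaFull N (f : modularFunctionFieldFull N)) hg hgW hχ
    have hP : rEv N A P (iotaFull N (f : modularFunctionFieldFull N)) = finHom N ℓ A hA P h f :=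
      rEv_of_mem hg
    rw [hP] at hcore
    rw [← hcore]
    refine Finset.prod_congr rfl fun W hW => ?_
    have hW' := jBar_mem_aIntBar_restrictAlong hA hW h
    simp only [dif_pos hW']
    congr 3
    exact (rEv_of_mem (hgW W hW)).symm

/-- The inverse of `s(1/j)` lies in `W_P` at a place of the chart at infinity, for `s ∈ A[V]`
with `s(0) = 1`. -/
theorem inv_aeval_inv_jBar_mem
    (P : Place (AlgebraicClosure ℚ) (modularFunctionFieldBar N)) (h : jBar N ∉ aIntBar N A P)
    (s : Polynomial (AlgebraicClosure ℚ)) (hsA : ∀ i, s.coeff i ∈ A) (hs0 : s.coeff 0 = 1) :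
    (Polynomial.aeval (jBar N)⁻¹ s)⁻¹ ∈ aIntBar N A P := by
  have ht := inv_jBar_mem_of_not_mem P h
  have hd : ∀ i, s.divX.coeff i ∈ A := fun i => by
    rw [Polynomial.coeff_divX]
    exact hsA _
  have hw := aeval_mem_aIntBar P ht s.divX hd
  have hs := aeval_mem_aIntBar P ht s hsA
  have heq : (⟨Polynomial.aeval (jBar N)⁻¹ s, hs⟩ : aIntBar N A P) =
      ⟨Polynomial.aeval (jBar N)⁻¹ s.divX, hw⟩ * ⟨(jBar N)⁻¹, ht⟩ + 1 := by
    apply Subtype.ext
    show Polynomial.aeval (jBar N)⁻¹ s = Polynomial.aeval (jBar N)⁻¹ s.divX * (jBar N)⁻¹ + 1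
    conv_lhs => rw [← Polynomial.divX_mul_X_add s]
    rw [map_add, map_mul, Polynomial.aeval_X, Polynomial.aeval_C, hs0, map_one]
  refine inv_mem_aInt_of_resEv_ne_zero _ A P hs ?_
  have h1 : resEvBar N A P ⟨Polynomial.aeval (jBar N)⁻¹ s, hs⟩ = 1 := by
    rw [heq, map_add, map_mul, resEvBar_inv_jBar_of_not_mem P h, mul_zero, zero_add, map_one]
  show resEvBar N A P ⟨Polynomial.aeval (jBar N)⁻¹ s, hs⟩ ≠ 0
  rw [h1]
  exact one_ne_zero

/-- **Kronecker at a place, chart at infinity.** -/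
theorem kr_inf (hA : A.LiesOverPrime ℓ) (hℓN : ¬ ℓ ∣ N)
    (P : Place (AlgebraicClosure ℚ) (modularFunctionFieldBar N)) (h : jBar N ∉ aIntBar N A P) :
    ∃ χ' : Place (AlgebraicClosure ℚ) (modularFunctionFieldBar (N * ℓ)) →
        {χ : chartAlgInf N ℓ →+* IsLocalRing.ResidueField A // χ (jInvChartInf N ℓ) = 0},
      (∀ W ∈ Place.fiberAlong (heckeBetaBar (AlgebraicClosure ℚ) N ℓ)
          (heckeBetaBar_isIntegral N ℓ) P,
        redPt N ℓ A hA (W.restrictAlong (heckeAlphaBar (AlgebraicClosure ℚ) N ℓ)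
          (heckeAlphaBar_isIntegral N ℓ)) = Sum.inr (χ' W)) ∧
      ∀ f : chartAlgInf N ℓ,
        ∏ W ∈ Place.fiberAlong (heckeBetaBar (AlgebraicClosure ℚ) N ℓ)
            (heckeBetaBar_isIntegral N ℓ) P,
          (X - C ((χ' W).1 f)) ^
            (W.ramificationIndexAlong (heckeBetaBar (AlgebraicClosure ℚ) N ℓ))
        = (X ^ ℓ - C (infHom N ℓ A hA P h f)) * (X - C ((infHom N ℓ A hA P h f) ^ ℓ)) := by
  classical
  obtain ⟨ζ, hζ⟩ := exists_primitiveRoot_units ℓ
  obtain ⟨s, hsA, hs0, hsint⟩ := exists_isIntegral_coeff_charpolyAlong_inf (N := N) hA hℓN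
  refine ⟨fun W => if hW : jBar N ∉ aIntBar N A (W.restrictAlong
      (heckeAlphaBar (AlgebraicClosure ℚ) N ℓ) (heckeAlphaBar_isIntegral N ℓ))
    then ⟨infHom N ℓ A hA _ hW, infHom_jInvChartInf hA _ hW⟩
    else ⟨infHom N ℓ A hA P h, infHom_jInvChartInf hA P h⟩, ?_, ?_⟩
  · intro W hW
    have hW' := jBar_not_mem_aIntBar_restrictAlong hA hW h
    rw [redPt_of_not_mem hA _ hW']
    simp only [dif_pos hW']
  · intro f
    -- the chart ring
    have hR : chartRing A N (jBar N)⁻¹ (Polynomial.aeval (jBar N)⁻¹ s)⁻¹ ≤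
        (aIntBar N A P).toSubring :=
      chartRing_le (fun a ha => algebraMap_mem_aInt _ A P ha) (inv_jBar_mem_of_not_mem P h)
        (inv_aeval_inv_jBar_mem P h s hsA hs0)
    have hg : iotaFull N (f : modularFunctionFieldFull N) ∈ aIntBar N A P :=
      iotaFull_mem_of_mem_chartAlgInf hA P h f.2
    have hgW : ∀ W ∈ Place.fiberAlong (heckeBetaBar (AlgebraicClosure ℚ) N ℓ)
        (heckeBetaBar_isIntegral N ℓ) P,
        iotaFull N (f : modularFunctionFieldFull N) ∈
          aIntBar N A (W.restrictAlong (heckeAlphaBar (AlgebraicClosure ℚ) N ℓ)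
            (heckeAlphaBar_isIntegral N ℓ)) := fun W hW =>
      iotaFull_mem_of_mem_chartAlgInf hA _ (jBar_not_mem_aIntBar_restrictAlong hA hW h) f.2
    have hgR : IsIntegral (chartRing A N (jBar N)⁻¹ (Polynomial.aeval (jBar N)⁻¹ s)⁻¹)
        (iotaFull N (f : modularFunctionFieldFull N)) :=
      isIntegral_iotaFull_of_mem_chartAlg hA _
        (fun a ha => algebraMap_mem_chartRing _ _ ha) (S := {(jFull N)⁻¹})
        (fun s hs => by
          rw [Set.mem_singleton_iff.mp hs, iotaFull_inv_jFull]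
          exact left_mem_chartRing _ _) f.2
    have hχ := fun i : ℕ => kr_congr hA P
      (chartRing A N (jBar N)⁻¹ (Polynomial.aeval (jBar N)⁻¹ s)⁻¹) hR
      (fun z hz c hc hint => isIntegral_chartInf_of_mul hA hℓN s hsA hs0 hz hc hint) ζ hζ
      (iotaFull N (f : modularFunctionFieldFull N)) hgR
      (charpolyAlong (heckeBetaBar (AlgebraicClosure ℚ) N ℓ)
        (heckeAlphaBar (AlgebraicClosure ℚ) N ℓ (iotaFull N (f : modularFunctionFieldFull N)))) i
      (hsint (f : modularFunctionFieldFull N) f.2 i)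
      (coeff_charpolyAlong_sub_of_mem_gaussV N ℓ hℓN A hA ζ hζ (f : modularFunctionFieldFull N)
        (S28.chartAlgInf_le_gaussV N ℓ f.2) (iotaFull N (f : modularFunctionFieldFull N)) rfl i)
    have hcore := kr_core P (iotaFull N (f : modularFunctionFieldFull N)) hg hgW hχ
    have hP : rEv N A P (iotaFull N (f : modularFunctionFieldFull N)) = infHom N ℓ A hA P h f :=
      rEv_of_mem hg
    rw [hP] at hcore
    rw [← hcore]
    refine Finset.prod_congr rfl fun W hW => ?_
    have hW' := jBar_not_mem_aIntBar_restrictAlong hA hW h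
    simp only [dif_pos hW']
    congr 3
    exact (rEv_of_mem (hgW W hW)).symm

/-- **(KR), finite chart**, in the shape consumed by `ESRed`. -/
theorem krFin (hA : A.LiesOverPrime ℓ) (hℓN : ¬ ℓ ∣ N)
    (v : Place (AlgebraicClosure ℚ) (modularFunctionFieldBar N)) : KRFin hA v := by
  intro χ hχ
  obtain ⟨h, rfl⟩ := (redPt_eq_inl_iff hA v χ).mp hχ
  exact kr_fin hA hℓN v h

/-- **(KR), chart at infinity**, in the shape consumed by `ESRed`. -/
theorem krInf (hA : A.LiesOverPrime ℓ) (hℓN : ¬ ℓ ∣ N)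
    (v : Place (AlgebraicClosure ℚ) (modularFunctionFieldBar N)) : KRInf hA v := by
  intro χ hχ
  obtain ⟨h, hχ'⟩ := (redPt_eq_inr_iff hA v χ).mp hχ
  rw [← hχ']
  exact kr_inf hA hℓN v h

/-- **Clause (iii)** (Eichler–Shimura on the reduced Picard group): `ρ (T_ℓ x) = Φ (ρ x) + V (ρ x)`
on `J₀(N)`, for `ℓ ∤ N`. -/
theorem redPic_heckeOperatorBar (hA : A.LiesOverPrime ℓ) (hℓN : ¬ ℓ ∣ N) (hℓ : ℓ.Prime)
    (x : JZero N) :
    redPic N ℓ A hA (heckeOperatorBar N ⟨ℓ, hℓ⟩ x)
      = PhiRed N ℓ A hA (redPic N ℓ A hA x) + VRed N ℓ A hA (redPic N ℓ A hA x) :=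
  redPic_heckeOperatorBar_of_KR hA (fun v => krFin hA hℓN v) (fun v => krInf hA hℓN v) hℓ x

end Core

end Fermat.Agent.S37
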