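import Fermat.Agent.S37.GaussA

/-!
P12 (S37) module [GA], descent part: the Gauss valuation ring `gaussA A N` of `F_L` over the
(non-discrete) valuation ring `A ⊂ ℚ̄` is the union of the Gauss valuation rings of the `F_K` over
the discrete valuation rings `Λ_K = A ∩ K`, `K` a number field.

* transport: `toFL_mem_gaussA`, `redA_toFL`, `mem_gaussV_of_toFL_mem`, `exists_gaussV_eq`;
* (b) normal form / scaling: `exists_unit_mul`, `exists_smul_mem_gaussA`;
* (a) valuation ring: `mem_or_inv_mem_gaussA`, `gaussAVS`, `mem_gaussA_of_isIntegral`,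
  `redA_eq_zero_iff`, `redA_mem_full`.
-/

set_option autoImplicit false

namespace Fermat.Agent.S37

open ModularCurve Fermat.Agent.S18 Fermat.Agent.S18.NumField

noncomputable section

/-- Shortcut instance (the generic instance search is slow here). -/
instance instAlgebraGaussA (A : ValuationSubring (AlgebraicClosure ℚ)) (N : ℕ) :
    Algebra ↥(gaussA A N) ↥(modularFunctionFieldBar N) :=
  Algebra.ofSubsemiring (gaussA A N)

theorem algebraMap_gaussA_apply {A : ValuationSubring (AlgebraicClosure ℚ)} {N : ℕ}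
    (x : ↥(gaussA A N)) :
    algebraMap ↥(gaussA A N) ↥(modularFunctionFieldBar N) x = (x : ↥(modularFunctionFieldBar N)) :=
  rfl

section Transport

variable {A : ValuationSubring (AlgebraicClosure ℚ)} {N : ℕ}
  (K : IntermediateField ℚ (AlgebraicClosure ℚ))

theorem coeffMap_subtype_lamIncl (a : LaurentSeries ↥(lam A K)) :
    coeffMap A.subtype (coeffMap (lamIncl A K) a) =
      coeffMap (algebraMap ↥K (AlgebraicClosure ℚ)) (coeffMap (lam A K).subtype a) := by
  rw [coeffMap_coeffMap, coeffMap_coeffMap]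
  exact coeffMap_congr (RingHom.ext fun _ => rfl) a

theorem coeffMap_residue_lamIncl (a : LaurentSeries ↥(lam A K)) :
    coeffMap (IsLocalRing.residue ↥A) (coeffMap (lamIncl A K) a) =
      coeffMap (lamResA A K) a := by
  rw [coeffMap_coeffMap]
  exact coeffMap_congr (RingHom.ext fun _ => rfl) a

/-- Transport of Gauss-integrality from a subfield `K` to `ℚ̄`. -/
theorem toFL_mem_gaussA {f : ↥(modularFunctionFieldFullC ↥K N)}
    (hf : f ∈ GaussL.gaussV (lam A K).toSubring (lamResA A K) (modularFunctionFieldFullC ↥K N)) :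
    Descent.toFL K N f ∈ gaussA A N := by
  obtain ⟨a, b, hb, hab⟩ := hf
  refine mem_gaussA_iff.mpr ⟨coeffMap (lamIncl A K) a, coeffMap (lamIncl A K) b, ?_, ?_⟩
  · rw [coeffMap_residue_lamIncl]
    exact hb
  · rw [coeffMap_subtype_lamIncl, coeffMap_subtype_lamIncl, Descent.coe_toFL, ← map_mul]
    exact congrArg _ hab

theorem redA_toFL {f : ↥(modularFunctionFieldFullC ↥K N)}
    (hf : f ∈ GaussL.gaussV (lam A K).toSubring (lamResA A K) (modularFunctionFieldFullC ↥K N)) :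
    redA A N ⟨Descent.toFL K N f, toFL_mem_gaussA K hf⟩ =
      GaussL.gaussRed (lam A K).toSubring (lamResA A K) (modularFunctionFieldFullC ↥K N)
        ⟨f, hf⟩ := by
  obtain ⟨a, b, hb, hab⟩ := hf
  have h1 := GaussL.gaussRed_mul_eq (modularFunctionFieldFullC ↥K N)
    (⟨f, ⟨a, b, hb, hab⟩⟩ : ↥(GaussL.gaussV (lam A K).toSubring (lamResA A K)
      (modularFunctionFieldFullC ↥K N))) a b hab
  have h2 := redA_mul_eq (⟨Descent.toFL K N f, toFL_mem_gaussA K ⟨a, b, hb, hab⟩⟩ : ↥(gaussA A N))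
    (coeffMap (lamIncl A K) a) (coeffMap (lamIncl A K) b) (by
      rw [coeffMap_subtype_lamIncl, coeffMap_subtype_lamIncl]
      show coeffMap (algebraMap ↥K (AlgebraicClosure ℚ)) _ * _ = _
      rw [← map_mul]
      exact congrArg _ hab)
  rw [coeffMap_residue_lamIncl, coeffMap_residue_lamIncl] at h2
  exact mul_right_cancel₀ hb (h2.trans h1.symm)

/-! ### The same with the surjective residue map `lamRes` of `Λ_K` -/

theorem coeffMap_lamResMap_lamRes (a : LaurentSeries ↥(lam A K)) :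
    coeffMap (lamResMap A K) (coeffMap (lamRes A K) a) = coeffMap (lamResA A K) a := by
  rw [coeffMap_coeffMap]
  exact coeffMap_congr (RingHom.ext fun _ => rfl) a

theorem coeffMap_lamResA_ne_zero_iff (b : LaurentSeries ↥(lam A K)) :
    coeffMap (lamResA A K) b ≠ 0 ↔ coeffMap (lamRes A K) b ≠ 0 := by
  rw [← coeffMap_lamResMap_lamRes, Ne, Ne,
    map_eq_zero_iff _ (coeffMap_lamResMap_injective A K)]

/-- The Gauss rings of `F_K` for the two residue maps `lamRes`, `lamResA` coincide. -/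
theorem mem_gaussV_lamRes_iff {f : ↥(modularFunctionFieldFullC ↥K N)} :
    f ∈ GaussL.gaussV (lam A K).toSubring (lamRes A K) (modularFunctionFieldFullC ↥K N) ↔
      f ∈ GaussL.gaussV (lam A K).toSubring (lamResA A K) (modularFunctionFieldFullC ↥K N) := by
  constructor
  · rintro ⟨a, b, hb, hab⟩
    exact ⟨a, b, (coeffMap_lamResA_ne_zero_iff K b).mpr hb, hab⟩
  · rintro ⟨a, b, hb, hab⟩
    exact ⟨a, b, (coeffMap_lamResA_ne_zero_iff K b).mp hb, hab⟩

theorem gaussRed_lamResA_eq {f : ↥(modularFunctionFieldFullC ↥K N)}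
    (hf : f ∈ GaussL.gaussV (lam A K).toSubring (lamRes A K) (modularFunctionFieldFullC ↥K N)) :
    GaussL.gaussRed (lam A K).toSubring (lamResA A K) (modularFunctionFieldFullC ↥K N)
        ⟨f, (mem_gaussV_lamRes_iff K).mp hf⟩ =
      coeffMap (lamResMap A K)
        (GaussL.gaussRed (lam A K).toSubring (lamRes A K) (modularFunctionFieldFullC ↥K N)
          ⟨f, hf⟩) := by
  obtain ⟨a, b, hb, hab⟩ := hf
  have h1 := GaussL.gaussRed_mul_eq (modularFunctionFieldFullC ↥K N)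
    (⟨f, ⟨a, b, hb, hab⟩⟩ : ↥(GaussL.gaussV (lam A K).toSubring (lamRes A K)
      (modularFunctionFieldFullC ↥K N))) a b hab
  have h2 := GaussL.gaussRed_mul_eq (modularFunctionFieldFullC ↥K N)
    (⟨f, (mem_gaussV_lamRes_iff K).mp ⟨a, b, hb, hab⟩⟩ :
      ↥(GaussL.gaussV (lam A K).toSubring (lamResA A K)
      (modularFunctionFieldFullC ↥K N))) a b hab
  have h3 := congrArg (coeffMap (lamResMap A K)) h1
  rw [map_mul, coeffMap_lamResMap_lamRes, coeffMap_lamResMap_lamRes] at h3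
  exact mul_right_cancel₀ ((coeffMap_lamResA_ne_zero_iff K b).mpr hb) (h2.trans h3.symm)

/-- (asc), `lamRes` form. -/
theorem toFL_mem_gaussA' {f : ↥(modularFunctionFieldFullC ↥K N)}
    (hf : f ∈ GaussL.gaussV (lam A K).toSubring (lamRes A K) (modularFunctionFieldFullC ↥K N)) :
    Descent.toFL K N f ∈ gaussA A N :=
  toFL_mem_gaussA K ((mem_gaussV_lamRes_iff K).mp hf)

theorem redA_toFL' {f : ↥(modularFunctionFieldFullC ↥K N)}
    (hf : f ∈ GaussL.gaussV (lam A K).toSubring (lamRes A K) (modularFunctionFieldFullC ↥K N)) :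
    redA A N ⟨Descent.toFL K N f, toFL_mem_gaussA' K hf⟩ =
      coeffMap (lamResMap A K)
        (GaussL.gaussRed (lam A K).toSubring (lamRes A K) (modularFunctionFieldFullC ↥K N)
          ⟨f, hf⟩) :=
  (redA_toFL K ((mem_gaussV_lamRes_iff K).mp hf)).trans (gaussRed_lamResA_eq K hf)

end Transport

section Main

variable {A : ValuationSubring (AlgebraicClosure ℚ)} {N : ℕ} {ℓ : ℕ} [Fact ℓ.Prime]

/-- The residue of a uniformiser of `Λ_K` in the residue field of `A` vanishes. -/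
theorem residue_irreducible_lam {K : IntermediateField ℚ (AlgebraicClosure ℚ)}
    [FiniteDimensional ℚ ↥K] (hA : A.LiesOverPrime ℓ) {ϖ : lam A K} (hϖ : Irreducible ϖ)
    (h : ((ϖ : ↥K) : AlgebraicClosure ℚ) ∈ A) :
    IsLocalRing.residue ↥A ⟨((ϖ : ↥K) : AlgebraicClosure ℚ), h⟩ = 0 :=
  (isGaussRing_lam_resA hA hϖ).red_pi ϖ.2

theorem natCast_residue_ne_zero (hA : A.LiesOverPrime ℓ) {n : ℕ} (hn : ¬ ℓ ∣ n) :
    ((n : ℕ) : IsLocalRing.ResidueField ↥A) ≠ 0 := by
  have hinv : ((n : AlgebraicClosure ℚ))⁻¹ ∈ A := natCast_inv_mem hA hn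
  have hn0 : (n : AlgebraicClosure ℚ) ≠ 0 := by
    intro h0
    have : n = 0 := by exact_mod_cast h0
    exact hn (this ▸ dvd_zero ℓ)
  have h1 : ((n : ℕ) : ↥A) * ⟨((n : AlgebraicClosure ℚ))⁻¹, hinv⟩ = 1 := by
    apply Subtype.ext
    show ((n : ↥A) : AlgebraicClosure ℚ) * ((n : AlgebraicClosure ℚ))⁻¹ = 1
    rw [show ((n : ↥A) : AlgebraicClosure ℚ) = (n : AlgebraicClosure ℚ) from rfl,
      mul_inv_cancel₀ hn0]
  intro h0
  have h2 := congrArg (IsLocalRing.residue ↥A) h1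
  rw [map_mul, map_natCast, h0, zero_mul, map_one] at h2
  exact zero_ne_one h2

variable [NeZero N]

/-- Normal form over a number field: every nonzero `z ∈ F_L` is, for every large enough number
field `K` and uniformiser `ϖ` of `Λ_K`, of the form `ϖ ^ n * toFL u` with `u` a unit of the Gauss
ring of `F_K`. -/
theorem exists_descent (hA : A.LiesOverPrime ℓ) {z : ↥(modularFunctionFieldBar N)} (hz : z ≠ 0) :
    ∃ K₀ : IntermediateField ℚ (AlgebraicClosure ℚ), FiniteDimensional ℚ ↥K₀ ∧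
      ∀ K : IntermediateField ℚ (AlgebraicClosure ℚ), K₀ ≤ K → FiniteDimensional ℚ ↥K →
        ∀ ϖ : lam A K, Irreducible ϖ →
          ∃ (n : ℤ) (u : ↥(modularFunctionFieldFullC ↥K N))
            (hu : u ∈ GaussL.gaussV (lam A K).toSubring (lamResA A K)
              (modularFunctionFieldFullC ↥K N)),
            GaussL.gaussRed (lam A K).toSubring (lamResA A K) (modularFunctionFieldFullC ↥K N)
              ⟨u, hu⟩ ≠ 0 ∧
            u⁻¹ ∈ GaussL.gaussV (lam A K).toSubring (lamResA A K)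
              (modularFunctionFieldFullC ↥K N) ∧
            z = algebraMap (AlgebraicClosure ℚ) ↥(modularFunctionFieldBar N)
              (((ϖ : ↥K) : AlgebraicClosure ℚ)) ^ n * Descent.toFL K N u := by
  have : Algebra.IsAlgebraic ℚ (AlgebraicClosure ℚ) := AlgebraicClosure.isAlgebraic ℚ
  obtain ⟨K₀, hK₀, h⟩ := Descent.exists_toFL_eq N z
  refine ⟨K₀, hK₀, fun K hK hKfd ϖ hϖ => ?_⟩
  obtain ⟨f, rfl⟩ := h K hK
  have hΛ := isGaussRing_lam_resA hA hϖ
  have hf0 : f ≠ 0 := by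
    rintro rfl
    exact hz (map_zero _)
  obtain ⟨n, u, hu, hured, huinv, hx⟩ := GaussL.exists_zpow_mul_unit
    (modularFunctionFieldFullC ↥K N) hΛ (GaussL.full_le_gaussK hΛ N) hf0
  refine ⟨n, u, hu, hured, huinv, ?_⟩
  rw [hx, map_mul, map_zpow₀, Descent.toFL_algebraMap]

/-- Converse transport: Gauss-integrality descends to number fields. -/
theorem mem_gaussV_of_toFL_mem (hA : A.LiesOverPrime ℓ)
    (K : IntermediateField ℚ (AlgebraicClosure ℚ)) [FiniteDimensional ℚ ↥K]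
    {f : ↥(modularFunctionFieldFullC ↥K N)} (h : Descent.toFL K N f ∈ gaussA A N) :
    f ∈ GaussL.gaussV (lam A K).toSubring (lamResA A K) (modularFunctionFieldFullC ↥K N) := by
  by_cases hf0 : f = 0
  · rw [hf0]
    exact zero_mem _
  obtain ⟨ϖ, hϖ⟩ := exists_irreducible_lam (K := K) hA
  have hΛ := isGaussRing_lam_resA hA hϖ
  obtain ⟨n, u, hu, hured, huinv, hx⟩ := GaussL.exists_zpow_mul_unit
    (modularFunctionFieldFullC ↥K N) hΛ (GaussL.full_le_gaussK hΛ N) hf0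
  rw [GaussL.mem_gaussV_iff_of_eq_zpow_mul (modularFunctionFieldFullC ↥K N) hΛ hu hured hx]
  by_contra hn
  rw [not_le] at hn
  obtain ⟨m, hm⟩ : ∃ m : ℕ, -n = (m : ℤ) + 1 := ⟨(-n - 1).toNat, by omega⟩
  have hϖA : ((ϖ : ↥K) : AlgebraicClosure ℚ) ∈ A := mem_lam_iff.mp ϖ.2
  have hϖ0 : ((ϖ : ↥K) : AlgebraicClosure ℚ) ≠ 0 := by
    intro h0
    have h1 : (ϖ : ↥K) = 0 := Subtype.ext h0
    exact hΛ.pi_ne_zero h1
  -- `toFL u = ϖ ^ (m + 1) * toFL f`
  have hu_eq : Descent.toFL K N u =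
      algebraMap (AlgebraicClosure ℚ) ↥(modularFunctionFieldBar N)
        (((ϖ : ↥K) : AlgebraicClosure ℚ) ^ (m + 1)) * Descent.toFL K N f := by
    rw [hx, map_mul, map_zpow₀, Descent.toFL_algebraMap, ← mul_assoc, map_pow, ← zpow_natCast,
      ← zpow_add₀ ((map_ne_zero _).mpr hϖ0)]
    have : ((m + 1 : ℕ) : ℤ) + n = 0 := by push_cast; omega
    rw [this, zpow_zero, one_mul]
  have hpowA : ((ϖ : ↥K) : AlgebraicClosure ℚ) ^ (m + 1) ∈ A := pow_mem hϖA _
  have hred := redA_toFL K hu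
  have hmem : algebraMap (AlgebraicClosure ℚ) ↥(modularFunctionFieldBar N)
      (((ϖ : ↥K) : AlgebraicClosure ℚ) ^ (m + 1)) * Descent.toFL K N f ∈ gaussA A N :=
    mul_mem (algebraMap_mem_gaussA hpowA) h
  have h3 : redA A N ⟨Descent.toFL K N u, toFL_mem_gaussA K hu⟩ = 0 := by
    have h4 : (⟨Descent.toFL K N u, toFL_mem_gaussA K hu⟩ : ↥(gaussA A N)) =
        ⟨_, algebraMap_mem_gaussA hpowA⟩ * ⟨_, h⟩ := Subtype.ext hu_eq
    rw [h4, map_mul, redA_algebraMap hpowA]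
    have h5 : IsLocalRing.residue ↥A ⟨((ϖ : ↥K) : AlgebraicClosure ℚ) ^ (m + 1), hpowA⟩ = 0 := by
      have h6 : (⟨((ϖ : ↥K) : AlgebraicClosure ℚ) ^ (m + 1), hpowA⟩ : ↥A) =
          ⟨((ϖ : ↥K) : AlgebraicClosure ℚ), hϖA⟩ ^ (m + 1) := rfl
      rw [h6, map_pow, residue_irreducible_lam hA hϖ hϖA, zero_pow (Nat.succ_ne_zero m)]
    rw [h5, map_zero, zero_mul]
  rw [hred] at h3
  exact hured h3

/-- Every element of `gaussA` comes from the Gauss ring of `F_K` for all large enough number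
fields `K`. -/
theorem exists_gaussV_eq (hA : A.LiesOverPrime ℓ) {z : ↥(modularFunctionFieldBar N)}
    (hz : z ∈ gaussA A N) :
    ∃ K₀ : IntermediateField ℚ (AlgebraicClosure ℚ), FiniteDimensional ℚ ↥K₀ ∧
      ∀ K : IntermediateField ℚ (AlgebraicClosure ℚ), K₀ ≤ K → FiniteDimensional ℚ ↥K →
        ∃ f : ↥(modularFunctionFieldFullC ↥K N),
          f ∈ GaussL.gaussV (lam A K).toSubring (lamResA A K) (modularFunctionFieldFullC ↥K N) ∧
          Descent.toFL K N f = z := by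
  have : Algebra.IsAlgebraic ℚ (AlgebraicClosure ℚ) := AlgebraicClosure.isAlgebraic ℚ
  obtain ⟨K₀, hK₀, h⟩ := Descent.exists_toFL_eq N z
  refine ⟨K₀, hK₀, fun K hK hKfd => ?_⟩
  obtain ⟨f, rfl⟩ := h K hK
  exact ⟨f, mem_gaussV_of_toFL_mem hA K hz, rfl⟩

/-- (desc), `lamRes` form. -/
theorem mem_gaussV_of_toFL_mem' (hA : A.LiesOverPrime ℓ)
    (K : IntermediateField ℚ (AlgebraicClosure ℚ)) [FiniteDimensional ℚ ↥K]
    {f : ↥(modularFunctionFieldFullC ↥K N)} (h : Descent.toFL K N f ∈ gaussA A N) :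
    f ∈ GaussL.gaussV (lam A K).toSubring (lamRes A K) (modularFunctionFieldFullC ↥K N) :=
  (mem_gaussV_lamRes_iff K).mpr (mem_gaussV_of_toFL_mem hA K h)

/-! ### (b) normal form and scaling -/

/-- (b) Normal form: every nonzero `z ∈ F_L` is a nonzero constant times a unit of `gaussA`. -/
theorem exists_unit_mul (hA : A.LiesOverPrime ℓ) {z : ↥(modularFunctionFieldBar N)}
    (hz : z ≠ 0) :
    ∃ (c : AlgebraicClosure ℚ) (u : ↥(modularFunctionFieldBar N)) (hu : u ∈ gaussA A N),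
      c ≠ 0 ∧ redA A N ⟨u, hu⟩ ≠ 0 ∧ u⁻¹ ∈ gaussA A N ∧
        z = algebraMap (AlgebraicClosure ℚ) ↥(modularFunctionFieldBar N) c * u := by
  obtain ⟨K₀, hK₀, h⟩ := exists_descent hA hz
  obtain ⟨ϖ, hϖ⟩ := exists_irreducible_lam (K := K₀) hA
  obtain ⟨n, u, hu, hured, -, hzu⟩ := h K₀ le_rfl hK₀ ϖ hϖ
  have hΛ := isGaussRing_lam_resA hA hϖ
  have hϖ0 : ((ϖ : ↥K₀) : AlgebraicClosure ℚ) ≠ 0 := by
    intro h0
    have h1 : (ϖ : ↥K₀) = 0 := Subtype.ext h0
    exact hΛ.pi_ne_zero h1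
  have hred : redA A N ⟨Descent.toFL K₀ N u, toFL_mem_gaussA K₀ hu⟩ ≠ 0 := by
    rw [redA_toFL]
    exact hured
  refine ⟨((ϖ : ↥K₀) : AlgebraicClosure ℚ) ^ n, Descent.toFL K₀ N u, toFL_mem_gaussA K₀ hu,
    zpow_ne_zero n hϖ0, hred, inv_mem_gaussA _ hred, ?_⟩
  rw [hzu, map_zpow₀]

/-- (b) Scaling: a nonzero `z ∈ F_L` can be scaled by a nonzero constant into `gaussA` with
nonzero reduction. -/
theorem exists_smul_mem_gaussA (hA : A.LiesOverPrime ℓ) {z : ↥(modularFunctionFieldBar N)}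
    (hz : z ≠ 0) :
    ∃ c : AlgebraicClosure ℚ, c ≠ 0 ∧
      ∃ h : algebraMap (AlgebraicClosure ℚ) ↥(modularFunctionFieldBar N) c * z ∈ gaussA A N,
        redA A N ⟨_, h⟩ ≠ 0 := by
  obtain ⟨c, u, hu, hc, hured, -, hzu⟩ := exists_unit_mul hA hz
  have h1 : algebraMap (AlgebraicClosure ℚ) ↥(modularFunctionFieldBar N) c⁻¹ * z = u := by
    rw [hzu, ← mul_assoc, ← map_mul, inv_mul_cancel₀ hc, map_one, one_mul]
  refine ⟨c⁻¹, inv_ne_zero hc, ?_⟩
  rw [h1]
  exact ⟨hu, hured⟩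

/-! ### (a) valuation ring -/

omit [NeZero N] in
/-- In the normal form `z = c * u`: `z ∈ gaussA ↔ c ∈ A`. -/
theorem mul_unit_mem_gaussA_iff {c : AlgebraicClosure ℚ} {u : ↥(modularFunctionFieldBar N)}
    (hu : u ∈ gaussA A N) (hured : redA A N ⟨u, hu⟩ ≠ 0) :
    algebraMap (AlgebraicClosure ℚ) ↥(modularFunctionFieldBar N) c * u ∈ gaussA A N ↔ c ∈ A := by
  constructor
  · intro h
    have hu0 : u ≠ 0 := by
      rintro rfl
      exact hured (map_zero _)
    have h1 : algebraMap (AlgebraicClosure ℚ) ↥(modularFunctionFieldBar N) c =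
        algebraMap (AlgebraicClosure ℚ) ↥(modularFunctionFieldBar N) c * u * u⁻¹ := by
      rw [mul_assoc, mul_inv_cancel₀ hu0, mul_one]
    rw [← algebraMap_mem_gaussA_iff (N := N), h1]
    exact mul_mem h (inv_mem_gaussA hu hured)
  · intro hc
    exact mul_mem (algebraMap_mem_gaussA hc) hu

/-- (a) `gaussA` is a valuation ring of `F_L`. -/
theorem mem_or_inv_mem_gaussA (hA : A.LiesOverPrime ℓ) (z : ↥(modularFunctionFieldBar N)) :
    z ∈ gaussA A N ∨ z⁻¹ ∈ gaussA A N := by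
  by_cases hz : z = 0
  · left
    rw [hz]
    exact zero_mem _
  obtain ⟨c, u, hu, hc, hured, huinv, rfl⟩ := exists_unit_mul hA hz
  rcases A.mem_or_inv_mem c with hcA | hcA
  · left
    exact mul_mem (algebraMap_mem_gaussA hcA) hu
  · right
    rw [mul_inv, ← map_inv₀]
    exact mul_mem (algebraMap_mem_gaussA hcA) huinv

/-- `gaussA` as a valuation subring of `F_L`. -/
def gaussAVS (hA : A.LiesOverPrime ℓ) : ValuationSubring ↥(modularFunctionFieldBar N) :=
  { gaussA A N with mem_or_inv_mem' := mem_or_inv_mem_gaussA hA }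

theorem mem_gaussAVS_iff (hA : A.LiesOverPrime ℓ) {z : ↥(modularFunctionFieldBar N)} :
    z ∈ gaussAVS (N := N) hA ↔ z ∈ gaussA A N := Iff.rfl

/-- (a) `gaussA` is integrally closed in `F_L`. -/
theorem mem_gaussA_of_isIntegral (hA : A.LiesOverPrime ℓ) {z : ↥(modularFunctionFieldBar N)}
    (hz : IsIntegral ↥(gaussA A N) z) : z ∈ gaussA A N := by
  have hz' : IsIntegral ↥(gaussAVS (N := N) hA) z := hz
  obtain ⟨y, hy⟩ := (IsIntegrallyClosed.isIntegral_iff
    (R := ↥(gaussAVS (N := N) hA)) (K := ↥(modularFunctionFieldBar N))).mp hz'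
  rw [← hy]
  exact y.2

/-- (a) The kernel of the reduction is `𝔪_A · gaussA`. -/
theorem redA_eq_zero_iff (hA : A.LiesOverPrime ℓ) (z : ↥(gaussA A N)) :
    redA A N z = 0 ↔
      ∃ (m : AlgebraicClosure ℚ) (hm : m ∈ A) (y : ↥(gaussA A N)),
        IsLocalRing.residue ↥A ⟨m, hm⟩ = 0 ∧
        (z : ↥(modularFunctionFieldBar N)) =
          algebraMap (AlgebraicClosure ℚ) ↥(modularFunctionFieldBar N) m * y := by
  constructor
  · intro h
    by_cases hz : (z : ↥(modularFunctionFieldBar N)) = 0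
    · exact ⟨0, A.zero_mem, 0, map_zero _, by rw [hz, map_zero, zero_mul]⟩
    obtain ⟨c, u, hu, hc, hured, huinv, hzu⟩ := exists_unit_mul hA hz
    have hcA : c ∈ A := (mul_unit_mem_gaussA_iff hu hured).mp (hzu ▸ z.2)
    refine ⟨c, hcA, ⟨u, hu⟩, ?_, hzu⟩
    have h1 : z = ⟨_, algebraMap_mem_gaussA hcA⟩ * ⟨u, hu⟩ := Subtype.ext hzu
    rw [h1, map_mul, redA_algebraMap hcA] at h
    rcases mul_eq_zero.mp h with h2 | h2
    · exact HahnSeries.C_injective (by rw [h2, map_zero])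
    · exact absurd h2 hured
  · rintro ⟨m, hm, y, hres, hzy⟩
    have h1 : z = ⟨_, algebraMap_mem_gaussA hm⟩ * y := Subtype.ext hzy
    rw [h1, map_mul, redA_algebraMap hm, hres, map_zero, zero_mul]

/-- (a) For `ℓ ∤ N` the reduction takes values in `F_k`. -/
theorem redA_mem_full (hA : A.LiesOverPrime ℓ) (hℓN : ¬ ℓ ∣ N) (z : ↥(gaussA A N)) :
    redA A N z ∈ modularFunctionFieldFullC (IsLocalRing.ResidueField ↥A) N := by
  obtain ⟨K₀, hK₀, h⟩ := exists_gaussV_eq hA z.2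
  obtain ⟨f, hf, hfz⟩ := h K₀ le_rfl hK₀
  obtain ⟨ϖ, hϖ⟩ := exists_irreducible_lam (K := K₀) hA
  have hΛ := isGaussRing_lam_resA hA hϖ
  have h1 : z = ⟨Descent.toFL K₀ N f, toFL_mem_gaussA K₀ hf⟩ := Subtype.ext hfz.symm
  rw [h1, redA_toFL]
  exact GaussL.gaussRed_mem_full hΛ N (natCast_residue_ne_zero hA hℓN) ⟨f, hf⟩

end Main

end

end Fermat.Agent.S37
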