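import Mathlib
import Fermat.Agent.S18.GaussLFull

/-!
P12 (S37) module [GA](e), K-level: over an abstract Gauss ring `(Λ ⊂ K, π, res : Λ →+* k)`, every
nonzero element of `F_K = modularFunctionFieldFullC K N` is `π ^ n * y₁ / y₂` with
`y₁, y₂ ∈ Λ((q)) ∩ F_K` whose reductions are nonzero elements of `F_k`.
-/

set_option autoImplicit false

namespace Fermat.Agent.S37.GaussAGenK

open ModularCurve Fermat.Agent.S18 Fermat.Agent.S28.FreeBasisAbs

variable {K k : Type*} [Field K] [Field k] {Λ : Subring K} {π : K} {res : ↥Λ →+* k}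

/-- The elements of `K((q))` which are quotients of two series with coefficients in `Λ`, both
lying in `F_K`. -/
noncomputable def gaK_quotK (hΛ : IsGaussRing Λ π res) (N : ℕ) [NeZero N] :
    IntermediateField K (LaurentSeries K) where
  carrier := {x | ∃ a b : LaurentSeries ↥Λ, b ≠ 0 ∧
    coeffMap Λ.subtype a ∈ modularFunctionFieldFullC K N ∧
    coeffMap Λ.subtype b ∈ modularFunctionFieldFullC K N ∧
    x * coeffMap Λ.subtype b = coeffMap Λ.subtype a}
  mul_mem' := by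
    rintro x y ⟨a, b, hb, ha1, hb1, h⟩ ⟨a', b', hb', ha1', hb1', h'⟩
    refine ⟨a * a', b * b', mul_ne_zero hb hb', ?_, ?_, ?_⟩
    · rw [map_mul]
      exact mul_mem ha1 ha1'
    · rw [map_mul]
      exact mul_mem hb1 hb1'
    · rw [map_mul, map_mul, ← h, ← h']
      ring
  one_mem' := ⟨1, 1, one_ne_zero, by rw [map_one]; exact one_mem _,
    by rw [map_one]; exact one_mem _, by rw [one_mul]⟩
  add_mem' := by
    rintro x y ⟨a, b, hb, ha1, hb1, h⟩ ⟨a', b', hb', ha1', hb1', h'⟩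
    refine ⟨a * b' + a' * b, b * b', mul_ne_zero hb hb', ?_, ?_, ?_⟩
    · rw [map_add, map_mul, map_mul]
      exact add_mem (mul_mem ha1 hb1') (mul_mem ha1' hb1)
    · rw [map_mul]
      exact mul_mem hb1 hb1'
    · rw [map_add, map_mul, map_mul, map_mul, ← h, ← h']
      ring
  zero_mem' := ⟨0, 1, one_ne_zero, by rw [map_zero]; exact zero_mem _,
    by rw [map_one]; exact one_mem _, by rw [zero_mul, map_zero]⟩
  algebraMap_mem' := by
    intro c
    obtain ⟨a, b, hb, hab⟩ := GaussL.exists_mul_eq hΛ c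
    have hC : ∀ u : ↥Λ, coeffMap Λ.subtype (HahnSeries.C u) ∈ modularFunctionFieldFullC K N := by
      intro u
      rw [GaussL.coeffMap_C, ← GaussL.algebraMap_eq_C]
      exact (modularFunctionFieldFullC K N).algebraMap_mem _
    refine ⟨HahnSeries.C a, HahnSeries.C b, GaussL.C_ne_zero hb, hC a, hC b, ?_⟩
    rw [GaussL.algebraMap_eq_C, GaussL.coeffMap_C, GaussL.coeffMap_C, ← map_mul]
    congr 1
  inv_mem' := by
    rintro x ⟨a, b, hb, ha1, hb1, h⟩
    by_cases hx0 : x = 0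
    · subst hx0
      exact ⟨0, 1, one_ne_zero, by rw [map_zero]; exact zero_mem _,
        by rw [map_one]; exact one_mem _, by rw [inv_zero, zero_mul, map_zero]⟩
    · have ha : a ≠ 0 := by
        rintro rfl
        rw [map_zero] at h
        rcases mul_eq_zero.mp h with h1 | h1
        · exact hx0 h1
        · exact hb ((GaussL.incl_eq_zero_iff b).mp h1)
      exact ⟨b, a, ha, hb1, ha1, by rw [← h, ← mul_assoc, inv_mul_cancel₀ hx0, one_mul]⟩

/-- Every element of `F_K` is a quotient of two elements of `Λ((q)) ∩ F_K`. -/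
theorem gaK_full_le_quotK (hΛ : IsGaussRing Λ π res) (N : ℕ) [NeZero N] :
    modularFunctionFieldFullC K N ≤ gaK_quotK hΛ N := by
  rw [modularFunctionFieldFullC, IntermediateField.adjoin_le_iff]
  rintro x ⟨d, hd, hdN, rfl⟩
  have := hd
  refine ⟨jqNModC ↥Λ d, 1, one_ne_zero, ?_, by rw [map_one]; exact one_mem _, ?_⟩
  · rw [← GaussL.qExpand_jqModC_eq (Λ := Λ) d]
    exact jqModCd_mem_full K N hdN
  · rw [map_one, mul_one, GaussL.qExpand_jqModC_eq (Λ := Λ) d]

/-- Normalisation: a nonzero element of `Λ((q)) ∩ F_K` is a power of `π` times an element of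
`Λ((q)) ∩ F_K` which is nonzero mod `π`. -/
theorem gaK_normalise (hΛ : IsGaussRing Λ π res) (N : ℕ) [NeZero N] (y : LaurentSeries ↥Λ)
    (hy : y ≠ 0) (hyF : coeffMap Λ.subtype y ∈ modularFunctionFieldFullC K N) :
    ∃ (e : ℕ) (y' : LaurentSeries ↥Λ), coeffMap res y' ≠ 0 ∧
      coeffMap Λ.subtype y' ∈ modularFunctionFieldFullC K N ∧
      coeffMap Λ.subtype y = (HahnSeries.C π : LaurentSeries K) ^ e * coeffMap Λ.subtype y' := by
  obtain ⟨e, y', hy', rfl⟩ := GaussL.exists_pow_mul hΛ y hy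
  have hπ : (HahnSeries.C π : LaurentSeries K) ≠ 0 := GaussL.C_pi_ne_zero hΛ
  have hπF : (HahnSeries.C π : LaurentSeries K) ∈ modularFunctionFieldFullC K N := by
    rw [← GaussL.algebraMap_eq_C]
    exact (modularFunctionFieldFullC K N).algebraMap_mem _
  have heq : coeffMap Λ.subtype (HahnSeries.C (GaussL.piL hΛ) ^ e * y') =
      (HahnSeries.C π : LaurentSeries K) ^ e * coeffMap Λ.subtype y' := by
    rw [map_mul, map_pow, GaussL.incl_C_piL]
  refine ⟨e, y', hy', ?_, heq⟩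
  have h2 : coeffMap Λ.subtype y' = ((HahnSeries.C π : LaurentSeries K) ^ e)⁻¹ *
      coeffMap Λ.subtype (HahnSeries.C (GaussL.piL hΛ) ^ e * y') := by
    rw [heq, ← mul_assoc, inv_mul_cancel₀ (pow_ne_zero e hπ), one_mul]
  rw [h2]
  exact mul_mem (inv_mem (pow_mem hπF e)) hyF

/-- The reduction of an element of `Λ((q)) ∩ F_K` lies in `F_k`. -/
theorem gaK_red_mem (hΛ : IsGaussRing Λ π res) (N : ℕ) [NeZero N] [CharZero K]
    (hN : (N : k) ≠ 0) (y : LaurentSeries ↥Λ)
    (hyF : coeffMap Λ.subtype y ∈ modularFunctionFieldFullC K N) :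
    coeffMap res y ∈ modularFunctionFieldFullC k N := by
  have h1 := GaussL.gaussRed_of_coeffMap (res := res) (modularFunctionFieldFullC K N)
    (x := ⟨coeffMap Λ.subtype y, hyF⟩) y rfl
  rw [← h1]
  exact GaussL.gaussRed_mem_full hΛ N hN _

theorem exists_quot (hΛ : IsGaussRing Λ π res) (N : ℕ) [NeZero N] [CharZero K]
    (hN : (N : k) ≠ 0) (f : ↥(modularFunctionFieldFullC K N)) (hf : f ≠ 0) :
    ∃ (n : ℤ) (y₁ y₂ : LaurentSeries ↥Λ),
      coeffMap Λ.subtype y₁ ∈ modularFunctionFieldFullC K N ∧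
      coeffMap Λ.subtype y₂ ∈ modularFunctionFieldFullC K N ∧
      coeffMap res y₁ ≠ 0 ∧ coeffMap res y₂ ≠ 0 ∧
      coeffMap res y₁ ∈ modularFunctionFieldFullC k N ∧
      coeffMap res y₂ ∈ modularFunctionFieldFullC k N ∧
      (f : LaurentSeries K) * coeffMap Λ.subtype y₂ =
        HahnSeries.C (π ^ n) * coeffMap Λ.subtype y₁ := by
  obtain ⟨a, b, hb, haF, hbF, h⟩ := gaK_full_le_quotK hΛ N f.2
  have hf0 : (f : LaurentSeries K) ≠ 0 := fun h0 => hf (Subtype.ext h0)
  have ha : a ≠ 0 := by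
    rintro rfl
    rw [map_zero] at h
    rcases mul_eq_zero.mp h with h1 | h1
    · exact hf0 h1
    · exact hb ((GaussL.incl_eq_zero_iff b).mp h1)
  obtain ⟨e₁, a', ha', haF', hae⟩ := gaK_normalise hΛ N a ha haF
  obtain ⟨e₂, b', hb', hbF', hbe⟩ := gaK_normalise hΛ N b hb hbF
  have hπ : (HahnSeries.C π : LaurentSeries K) ≠ 0 := GaussL.C_pi_ne_zero hΛ
  refine ⟨(e₁ : ℤ) - e₂, a', b', haF', hbF', ha', hb', gaK_red_mem hΛ N hN a' haF',
    gaK_red_mem hΛ N hN b' hbF', ?_⟩
  rw [hae, hbe] at h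
  rw [zpow_sub₀ hΛ.pi_ne_zero, zpow_natCast, zpow_natCast, map_div₀, map_pow, map_pow,
    div_mul_eq_mul_div, eq_div_iff (pow_ne_zero e₂ hπ)]
  linear_combination h

end Fermat.Agent.S37.GaussAGenK
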