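import Mathlib
import Fermat.Agent.S37.GaussADesc
import Fermat.Agent.S37.GaussAGenK

/-!
P12 (S37) module [GA](e) (GEN): every nonzero `u ∈ F_L` is `c * Y₁ / Y₂` with `c ∈ ℚ̄ˣ` and
`Y₁, Y₂ ∈ StepA.liftRing` with nonzero reduction.
-/

set_option autoImplicit false

namespace Fermat.Agent.S37

open ModularCurve Fermat.Agent.S18

variable {A : ValuationSubring (AlgebraicClosure ℚ)} {N : ℕ}

theorem exists_liftRing_quot {ℓ : ℕ} [Fact ℓ.Prime] [NeZero N] (hA : A.LiesOverPrime ℓ)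
    (hℓN : ¬ ℓ ∣ N) (u : ↥(modularFunctionFieldBar N)) (hu : u ≠ 0) :
    ∃ (c : AlgebraicClosure ℚ) (Y₁ Y₂ : StepA.liftRing A (IsLocalRing.residue ↥A) N), c ≠ 0 ∧
      StepA.toFk A (IsLocalRing.residue ↥A) N Y₁ ≠ 0 ∧
      StepA.toFk A (IsLocalRing.residue ↥A) N Y₂ ≠ 0 ∧
      u * StepA.toF A (IsLocalRing.residue ↥A) N Y₂ =
        c • StepA.toF A (IsLocalRing.residue ↥A) N Y₁ := by
  have : Algebra.IsAlgebraic ℚ (AlgebraicClosure ℚ) := AlgebraicClosure.isAlgebraic ℚ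
  obtain ⟨K₀, hK₀, h⟩ := Descent.exists_toFL_eq N u
  obtain ⟨f, rfl⟩ := h K₀ le_rfl
  have hf0 : f ≠ 0 := by
    rintro rfl
    exact hu (map_zero _)
  obtain ⟨ϖ, hϖ⟩ := NumField.exists_irreducible_lam (K := K₀) hA
  have hΛ := NumField.isGaussRing_lam_resA hA hϖ
  have hN : ((N : ℕ) : IsLocalRing.ResidueField ↥A) ≠ 0 := natCast_residue_ne_zero hA hℓN
  obtain ⟨n, y₁, y₂, hy₁F, hy₂F, hy₁r, hy₂r, hy₁k, hy₂k, hrel⟩ :=
    GaussAGenK.exists_quot hΛ N hN f hf0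
  have hmem : ∀ y : LaurentSeries ↥(NumField.lam A K₀).toSubring,
      coeffMap (NumField.lam A K₀).toSubring.subtype y ∈ modularFunctionFieldFullC ↥K₀ N →
      coeffMap (NumField.lamResA A K₀) y ∈
        modularFunctionFieldFullC (IsLocalRing.ResidueField ↥A) N →
      coeffMap (NumField.lamIncl A K₀) y ∈ StepA.liftRing A (IsLocalRing.residue ↥A) N := by
    intro y hyF hyk
    refine StepA.mem_liftRing.mpr ⟨?_, ?_⟩
    · rw [coeffMap_subtype_lamIncl]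
      exact Descent.coeffMap_mem_laurentBaseChange K₀ N hyF
    · rw [coeffMap_residue_lamIncl]
      exact hyk
  have hne : ∀ (y : LaurentSeries ↥(NumField.lam A K₀).toSubring)
      (hy : coeffMap (NumField.lamIncl A K₀) y ∈ StepA.liftRing A (IsLocalRing.residue ↥A) N),
      coeffMap (NumField.lamResA A K₀) y ≠ 0 →
      StepA.toFk A (IsLocalRing.residue ↥A) N ⟨_, hy⟩ ≠ 0 := by
    intro y hy hyr h0
    apply hyr
    have h1 := congrArg Subtype.val h0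
    rw [StepA.coe_toFk] at h1
    rw [← coeffMap_residue_lamIncl]
    exact h1
  have hϖ0 : ((ϖ : ↥K₀) : AlgebraicClosure ℚ) ≠ 0 := by
    intro h0
    have h1 : (ϖ : ↥K₀) = 0 := Subtype.ext h0
    exact hΛ.pi_ne_zero h1
  refine ⟨((ϖ : ↥K₀) : AlgebraicClosure ℚ) ^ n,
    ⟨_, hmem y₁ hy₁F hy₁k⟩, ⟨_, hmem y₂ hy₂F hy₂k⟩, zpow_ne_zero n hϖ0,
    hne y₁ _ hy₁r, hne y₂ _ hy₂r, ?_⟩
  apply Subtype.ext
  rw [Algebra.smul_def]
  show coeffMap (algebraMap ↥K₀ (AlgebraicClosure ℚ)) (f : LaurentSeries ↥K₀) *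
      coeffMap A.subtype (coeffMap (NumField.lamIncl A K₀) y₂) =
    algebraMap (AlgebraicClosure ℚ) (LaurentSeries (AlgebraicClosure ℚ))
      (((ϖ : ↥K₀) : AlgebraicClosure ℚ) ^ n) *
      coeffMap A.subtype (coeffMap (NumField.lamIncl A K₀) y₁)
  rw [coeffMap_subtype_lamIncl, coeffMap_subtype_lamIncl, ← map_mul]
  have h2 := congrArg (coeffMap (algebraMap ↥K₀ (AlgebraicClosure ℚ))) hrel
  rw [map_mul (coeffMap (algebraMap ↥K₀ (AlgebraicClosure ℚ))) (HahnSeries.C _),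
    GaussL.coeffMap_C, map_zpow₀] at h2
  rw [GaussL.algebraMap_eq_C]
  exact h2

/-- The shape of `hGEN` in `S37/TorsionAbs.lean` (`mem_principal_of_IV_data`). -/
theorem hGEN {ℓ : ℕ} [Fact ℓ.Prime] [NeZero N] (hA : A.LiesOverPrime ℓ) (hℓN : ¬ ℓ ∣ N) :
    ∀ u : ↥(laurentBaseChange (AlgebraicClosure ℚ) (modularFunctionFieldFull N)), u ≠ 0 →
      ∃ (c : AlgebraicClosure ℚ) (Y₁ Y₂ : StepA.liftRing A (IsLocalRing.residue ↥A) N), c ≠ 0 ∧
        StepA.toFk A (IsLocalRing.residue ↥A) N Y₁ ≠ 0 ∧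
        StepA.toFk A (IsLocalRing.residue ↥A) N Y₂ ≠ 0 ∧
        u * StepA.toF A (IsLocalRing.residue ↥A) N Y₂ =
          c • StepA.toF A (IsLocalRing.residue ↥A) N Y₁ :=
  fun u hu => exists_liftRing_quot hA hℓN u hu

end Fermat.Agent.S37
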