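import Mathlib
import Fermat.Prelude.Def_ModularCurve_IgusaScheme

set_option autoImplicit false

namespace Fermat.Agent.S37

namespace NBCDenom

open ModularCurve ModularCurve.IgusaScheme in
/-- Integers lie in the localization of `ℤ` at `ℓ`. -/
theorem intCast_mem_ratLocalizedAt (ℓ : ℕ) (n : ℤ) : (n : ℚ) ∈ GaloisRep.ratLocalizedAt ℓ := by
  show ((n : ℚ)).den.Coprime ℓ
  rw [Rat.den_intCast]
  exact Nat.coprime_one_left ℓ

open ModularCurve ModularCurve.IgusaScheme in
/-- Clearing the denominator of an element of `ℚ[x₀]`. -/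
theorem exists_natCast_mul_mem_adjoin (N : ℕ) [NeZero N] (ℓ : ℕ) [Fact ℓ.Prime]
    (x₀ : ↥(modularFunctionFieldFull N)) {c : ↥(modularFunctionFieldFull N)}
    (hc : c ∈ Algebra.adjoin ℚ {x₀}) :
    ∃ d : ℕ, d ≠ 0 ∧ (d : ↥(modularFunctionFieldFull N)) * c ∈
      Algebra.adjoin ↥(GaloisRep.ratLocalizedAt ℓ) {x₀} := by
  induction hc using Algebra.adjoin_induction with
  | mem y hy =>
    exact ⟨1, one_ne_zero, by rw [Nat.cast_one, one_mul]; exact Algebra.subset_adjoin hy⟩
  | algebraMap r =>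
    refine ⟨r.den, r.den_ne_zero, ?_⟩
    have e : ((r.den : ℕ) : ↥(modularFunctionFieldFull N)) *
        algebraMap ℚ ↥(modularFunctionFieldFull N) r =
        algebraMap ↥(GaloisRep.ratLocalizedAt ℓ) ↥(modularFunctionFieldFull N)
          ⟨(r.num : ℚ), intCast_mem_ratLocalizedAt ℓ r.num⟩ := by
      have e1 : algebraMap ↥(GaloisRep.ratLocalizedAt ℓ) ↥(modularFunctionFieldFull N)
          ⟨(r.num : ℚ), intCast_mem_ratLocalizedAt ℓ r.num⟩ =
          algebraMap ℚ ↥(modularFunctionFieldFull N) (r.num : ℚ) := rfl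
      rw [e1, ← map_natCast (algebraMap ℚ ↥(modularFunctionFieldFull N)) r.den, ← map_mul,
        Rat.den_mul_eq_num]
    rw [e]
    exact Subalgebra.algebraMap_mem _ _
  | add y z _ _ hy hz =>
    obtain ⟨d₁, hd₁, h₁⟩ := hy
    obtain ⟨d₂, hd₂, h₂⟩ := hz
    refine ⟨d₁ * d₂, mul_ne_zero hd₁ hd₂, ?_⟩
    have e : ((d₁ * d₂ : ℕ) : ↥(modularFunctionFieldFull N)) * (y + z) =
        (d₂ : ↥(modularFunctionFieldFull N)) * ((d₁ : ↥(modularFunctionFieldFull N)) * y) +
          (d₁ : ↥(modularFunctionFieldFull N)) * ((d₂ : ↥(modularFunctionFieldFull N)) * z) := by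
      push_cast; ring
    rw [e]
    exact add_mem (mul_mem (natCast_mem _ d₂) h₁) (mul_mem (natCast_mem _ d₁) h₂)
  | mul y z _ _ hy hz =>
    obtain ⟨d₁, hd₁, h₁⟩ := hy
    obtain ⟨d₂, hd₂, h₂⟩ := hz
    refine ⟨d₁ * d₂, mul_ne_zero hd₁ hd₂, ?_⟩
    have e : ((d₁ * d₂ : ℕ) : ↥(modularFunctionFieldFull N)) * (y * z) =
        ((d₁ : ↥(modularFunctionFieldFull N)) * y) *
          ((d₂ : ↥(modularFunctionFieldFull N)) * z) := by
      push_cast; ring
    rw [e]
    exact mul_mem h₁ h₂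

end NBCDenom

open ModularCurve ModularCurve.IgusaScheme in
theorem exists_natCast_mul_mem_chartAlg (N : ℕ) [NeZero N] (ℓ : ℕ) [Fact ℓ.Prime]
    (x₀ h : ↥(modularFunctionFieldFull N))
    (hh : IsIntegral (Algebra.adjoin ℚ {x₀}) h) :
    ∃ d : ℕ, d ≠ 0 ∧ (d : ↥(modularFunctionFieldFull N)) * h ∈ chartAlg N ℓ {x₀} := by
  classical
  obtain ⟨p, hmonic, hroot⟩ := hh
  have hcoeff : ∀ i, ∃ d : ℕ, d ≠ 0 ∧
      (d : ↥(modularFunctionFieldFull N)) * (p.coeff i : ↥(modularFunctionFieldFull N)) ∈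
        Algebra.adjoin ↥(GaloisRep.ratLocalizedAt ℓ) {x₀} :=
    fun i => NBCDenom.exists_natCast_mul_mem_adjoin N ℓ x₀ (p.coeff i).2
  choose d hd0 hd using hcoeff
  set D : ℕ := ∏ i ∈ Finset.range (p.natDegree + 1), d i with hD
  have hD0 : D ≠ 0 := Finset.prod_ne_zero_iff.mpr (fun i _ => hd0 i)
  have hdD : ∀ i ≤ p.natDegree, d i ∣ D := fun i hi =>
    Finset.dvd_prod_of_mem d (Finset.mem_range.mpr (Nat.lt_succ_of_le hi))
  set q : Polynomial ↥(modularFunctionFieldFull N) :=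
    (p.map (algebraMap (Algebra.adjoin ℚ {x₀}) ↥(modularFunctionFieldFull N))).scaleRoots
      (D : ↥(modularFunctionFieldFull N)) with hq
  have hqmonic : q.Monic := (Polynomial.monic_scaleRoots_iff _).mpr (hmonic.map _)
  have hqroot : q.eval ((D : ↥(modularFunctionFieldFull N)) * h) = 0 := by
    rw [hq, Polynomial.scaleRoots_eval_mul, Polynomial.eval_map, hroot, mul_zero]
  have hqcoeff : ∀ i, q.coeff i ∈ Algebra.adjoin ↥(GaloisRep.ratLocalizedAt ℓ) {x₀} := by
    intro i
    rw [hq, Polynomial.coeff_scaleRoots, Polynomial.coeff_map, hmonic.natDegree_map]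
    by_cases hi : i < p.natDegree
    · obtain ⟨e, he⟩ := hdD i hi.le
      obtain ⟨k, hk⟩ : ∃ k, p.natDegree - i = k + 1 := ⟨p.natDegree - i - 1, by omega⟩
      have hDe : (D : ↥(modularFunctionFieldFull N)) =
          (d i : ↥(modularFunctionFieldFull N)) * (e : ↥(modularFunctionFieldFull N)) := by
        rw [← Nat.cast_mul, ← he]
      have e1 : (D : ↥(modularFunctionFieldFull N)) ^ (p.natDegree - i) =
          ((e : ↥(modularFunctionFieldFull N)) * (D : ↥(modularFunctionFieldFull N)) ^ k) *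
            (d i : ↥(modularFunctionFieldFull N)) := by
        rw [hk, pow_succ]
        linear_combination ((D : ↥(modularFunctionFieldFull N)) ^ k) * hDe
      rw [e1, Subalgebra.algebraMap_def, Algebra.algebraMap_self_apply,
        show (p.coeff i : ↥(modularFunctionFieldFull N)) *
            (((e : ↥(modularFunctionFieldFull N)) * (D : ↥(modularFunctionFieldFull N)) ^ k) *
              (d i : ↥(modularFunctionFieldFull N))) =
          ((e : ↥(modularFunctionFieldFull N)) * (D : ↥(modularFunctionFieldFull N)) ^ k) *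
            ((d i : ↥(modularFunctionFieldFull N)) *
              (p.coeff i : ↥(modularFunctionFieldFull N))) by ring]
      exact mul_mem (mul_mem (natCast_mem _ e) (pow_mem (natCast_mem _ D) k)) (hd i)
    · rcases (not_lt.mp hi).lt_or_eq with hlt | heq
      · rw [Polynomial.coeff_eq_zero_of_natDegree_lt hlt, map_zero, zero_mul]
        exact zero_mem _
      · rw [← heq, hmonic.coeff_natDegree, map_one, one_mul, Nat.sub_self, pow_zero]
        exact one_mem _
  have hlifts : q ∈ Polynomial.lifts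
      (algebraMap (Algebra.adjoin ↥(GaloisRep.ratLocalizedAt ℓ) {x₀})
        ↥(modularFunctionFieldFull N)) :=
    (Polynomial.lifts_iff_coeff_lifts q).mpr fun i => ⟨⟨q.coeff i, hqcoeff i⟩, rfl⟩
  obtain ⟨q', hq'q, -, hq'monic⟩ := Polynomial.lifts_and_natDegree_eq_and_monic hlifts hqmonic
  refine ⟨D, hD0, (mem_chartAlg_iff N ℓ).mpr ⟨q', hq'monic, ?_⟩⟩
  rw [Polynomial.eval₂_eq_eval_map, hq'q, hqroot]

end Fermat.Agent.S37
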