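import Mathlib
import Fermat.Prelude.Def_ModularCurve_LaurentCoeff

/-!
# The base change `F_L` is the `L`-span of `ι(F₀)`  (P12 [CBC](c), N1)

For `L/ℚ` algebraic and `F₀ ⊆ ℚ((q))` an intermediate field, every element of
`laurentBaseChange L F₀` is a finite sum `∑ ωᵢ · ι(gᵢ)` with `ωᵢ ∈ L`, `gᵢ ∈ F₀`.
-/

set_option autoImplicit false

namespace Fermat.Agent.S37

open ModularCurve

namespace NBCSpan

variable {L : Type*} [Field L] [Algebra ℚ L]

/-- The image of `F₀` in `L((q))`, as a subfield. -/
noncomputable def imgField (F₀ : IntermediateField ℚ (LaurentSeries ℚ)) :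
    Subfield (LaurentSeries L) :=
  F₀.toSubfield.map (coeffEmb L)

theorem mem_imgField {F₀ : IntermediateField ℚ (LaurentSeries ℚ)} {y : LaurentSeries L} :
    y ∈ imgField (L := L) F₀ ↔ ∃ g ∈ F₀, coeffEmb L g = y :=
  Subfield.mem_map

/-- The rationals map into the image field. -/
noncomputable def ratHom (F₀ : IntermediateField ℚ (LaurentSeries ℚ)) :
    ℚ →+* ↥(imgField (L := L) F₀) :=
  ((coeffEmb L).comp (algebraMap ℚ (LaurentSeries ℚ))).codRestrict (imgField (L := L) F₀)
    fun q => mem_imgField.mpr ⟨algebraMap ℚ (LaurentSeries ℚ) q, F₀.algebraMap_mem q, rfl⟩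

/-- Constants are integral over the image field. -/
theorem isIntegral_const [Algebra.IsAlgebraic ℚ L] (F₀ : IntermediateField ℚ (LaurentSeries ℚ))
    (c : L) : IsIntegral ↥(imgField (L := L) F₀) (algebraMap L (LaurentSeries L) c) :=
  IsIntegral.map_of_comp_eq (ratHom (L := L) F₀) (algebraMap L (LaurentSeries L))
    (Subsingleton.elim _ _) (Algebra.IsAlgebraic.isAlgebraic c).isIntegral

omit [Algebra ℚ L] in
/-- The range of the constants is closed under products. -/
theorem closure_range_const :
    (Submonoid.closure (Set.range (algebraMap L (LaurentSeries L))) : Set (LaurentSeries L)) =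
      Set.range (algebraMap L (LaurentSeries L)) := by
  have h : Set.range (algebraMap L (LaurentSeries L)) =
      (MonoidHom.mrange (algebraMap L (LaurentSeries L)) : Set (LaurentSeries L)) :=
    (MonoidHom.coe_mrange _).symm
  rw [h, Submonoid.closure_eq]

end NBCSpan

open NBCSpan in
/-- `F_L` is the `L`-span of `ι(F₀)`. -/
theorem exists_sum_of_mem_laurentBaseChange {L : Type*} [Field L] [Algebra ℚ L]
    [Algebra.IsAlgebraic ℚ L] (F₀ : IntermediateField ℚ (LaurentSeries ℚ)) {z : LaurentSeries L}
    (hz : z ∈ laurentBaseChange L F₀) :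
    ∃ (n : ℕ) (ω : Fin n → L) (g : Fin n → LaurentSeries ℚ), (∀ i, g i ∈ F₀) ∧
      z = ∑ i, algebraMap L (LaurentSeries L) (ω i) * coeffEmb L (g i) := by
  -- the subalgebra generated by the constants over the image of `F₀`
  let T : Subalgebra ↥(imgField (L := L) F₀) (LaurentSeries L) :=
    Algebra.adjoin ↥(imgField (L := L) F₀) (Set.range (algebraMap L (LaurentSeries L)))
  have hT : T ≤ integralClosure ↥(imgField (L := L) F₀) (LaurentSeries L) := by
    refine Algebra.adjoin_le ?_
    rintro _ ⟨c, rfl⟩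
    exact isIntegral_const F₀ c
  have hzT : z ∈ T := by
    rw [mem_laurentBaseChange_iff] at hz
    induction hz using Subfield.closure_induction with
    | mem y hy =>
        rcases hy with ⟨a, rfl⟩ | ⟨g, hg, rfl⟩
        · exact Algebra.subset_adjoin ⟨a, rfl⟩
        · exact T.algebraMap_mem ⟨coeffEmb L g, mem_imgField.mpr ⟨g, hg, rfl⟩⟩
    | one => exact T.one_mem
    | add x y _ _ hx hy => exact T.add_mem hx hy
    | neg x _ hx => exact T.neg_mem hx
    | inv x _ hx => exact T.inv_mem_of_algebraic (x := ⟨x, hx⟩) (hT hx).isAlgebraic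
    | mul x y _ _ hx hy => exact T.mul_mem hx hy
  have hspan : z ∈ Submodule.span ↥(imgField (L := L) F₀)
      (Set.range (algebraMap L (LaurentSeries L))) := by
    have h1 : z ∈ Subalgebra.toSubmodule T := hzT
    rw [Algebra.adjoin_eq_span, closure_range_const] at h1
    exact h1
  obtain ⟨n, f, g, hsum⟩ := Submodule.mem_span_set'.mp hspan
  choose g₀ hg₀ hg₀' using fun i => mem_imgField.mp (f i).2
  choose ω hω using fun i => (g i).2
  refine ⟨n, ω, g₀, hg₀, ?_⟩
  rw [← hsum]
  refine Finset.sum_congr rfl fun i _ => ?_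
  rw [hω i, hg₀' i, mul_comm]
  rfl

end Fermat.Agent.S37
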