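import Mathlib
import Fermat.Prelude.Def_ModularCurve_LaurentCoeff

set_option autoImplicit false

namespace Fermat.Agent.S37

open ModularCurve

namespace NBCTrace

variable {L : Type*} [Field L] [Algebra ℚ L]

/-- `coeffEmb` of a rational multiple. -/
theorem coeffEmb_smul (q : ℚ) (g : LaurentSeries ℚ) :
    coeffEmb L (q • g) =
      algebraMap L (LaurentSeries L) (algebraMap ℚ L q) * coeffEmb L g := by
  rw [algebraMap_laurentSeries_eq_single, HahnSeries.single_zero_mul_eq_smul]
  ext k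
  rw [coeffEmb_coeff, HahnSeries.coeff_smul, HahnSeries.coeff_smul, coeffEmb_coeff, smul_eq_mul,
    smul_eq_mul, map_mul]

theorem coeffEmb_sum_smul {n : ℕ} (q : Fin n → ℚ) (g : Fin n → LaurentSeries ℚ) :
    coeffEmb L (∑ i, q i • g i) =
      ∑ i, algebraMap L (LaurentSeries L) (algebraMap ℚ L (q i)) * coeffEmb L (g i) := by
  rw [map_sum]
  exact Finset.sum_congr rfl fun i _ => coeffEmb_smul (q i) (g i)

/-- Action of a coefficient automorphism on a combination of rational series. -/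
theorem coeffMap_comb (σ : L ≃ₐ[ℚ] L) (a : L) {n : ℕ} (b : Fin n → L)
    (g : Fin n → LaurentSeries ℚ) :
    coeffMap (σ : L →+* L) (algebraMap L (LaurentSeries L) a *
        ∑ i, algebraMap L (LaurentSeries L) (b i) * coeffEmb L (g i)) =
      ∑ i, algebraMap L (LaurentSeries L) (σ (a * b i)) * coeffEmb L (g i) := by
  rw [Finset.mul_sum, map_sum]
  refine Finset.sum_congr rfl fun i _ => ?_
  rw [← mul_assoc, ← map_mul, map_mul, coeffMap_algebraMap, coeffMap_coeffEmb]
  rfl

variable {F : Type*} [Field F] [Algebra ℚ F]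

/-- Every embedding of a subfield extends to an automorphism of `L`. -/
theorem exists_algEquiv_extending [IsAlgClosed L] [Algebra.IsAlgebraic ℚ L]
    (ι : F →+* L) (τ : F →ₐ[ℚ] L) :
    ∃ σ : L ≃ₐ[ℚ] L, ∀ k : F, σ (ι k) = τ k := by
  let : Algebra F L := ι.toAlgebra
  have : Algebra.IsAlgebraic F L := Algebra.IsAlgebraic.tower_top (K := ℚ) F
  obtain ⟨φ, hφ⟩ := IsAlgClosed.surjective_domRestrict_of_isAlgebraic (K := ℚ) (L := F)
    (M := L) (E := L) τ
  refine ⟨AlgEquiv.ofBijective φ (Algebra.IsAlgebraic.algHom_bijective φ), fun k => ?_⟩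
  rw [← hφ]
  rfl

/-- The Galois-trace of a combination of rational series is a rational series. -/
theorem sum_coeffMap_eq [IsAlgClosed L] [FiniteDimensional ℚ F] (ι : F →+* L)
    (σ : (F →ₐ[ℚ] L) → (L ≃ₐ[ℚ] L)) (hσ : ∀ τ (k : F), σ τ (ι k) = τ k)
    (a : F) {n : ℕ} (w : Fin n → F) (g : Fin n → LaurentSeries ℚ) :
    ∑ τ : F →ₐ[ℚ] L, coeffMap ((σ τ : L ≃ₐ[ℚ] L) : L →+* L)
        (algebraMap L (LaurentSeries L) (ι a) *
          ∑ i, algebraMap L (LaurentSeries L) (ι (w i)) * coeffEmb L (g i)) =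
      coeffEmb L (∑ i, Algebra.trace ℚ F (a * w i) • g i) := by
  rw [coeffEmb_sum_smul]
  simp_rw [coeffMap_comb]
  rw [Finset.sum_comm]
  refine Finset.sum_congr rfl fun i _ => ?_
  rw [← Finset.sum_mul, ← map_sum, trace_eq_sum_embeddings L]
  congr 2
  refine Finset.sum_congr rfl fun τ _ => ?_
  rw [← map_mul, hσ]

theorem map_rat_smul' (ι : F →+* L) (q : ℚ) (y : F) :
    ι (q • y) = algebraMap ℚ L q * ι y := by
  rw [Algebra.smul_def, map_mul, eq_ratCast, eq_ratCast, map_ratCast]

/-- Expansion in the trace-dual basis, read in `L`. -/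
theorem dual_expand [FiniteDimensional ℚ F] (ι : F →+* L) (x : F) :
    ∑ j, ι ((Algebra.traceForm ℚ F).dualBasis (traceForm_nondegenerate ℚ F)
        (Module.finBasis ℚ F) j) *
        algebraMap ℚ L (Algebra.trace ℚ F (Module.finBasis ℚ F j * x)) = ι x := by
  have h := ((Algebra.traceForm ℚ F).dualBasis (traceForm_nondegenerate ℚ F)
    (Module.finBasis ℚ F)).sum_repr x
  have h' := congrArg ι h
  rw [map_sum] at h'
  rw [← h']
  refine Finset.sum_congr rfl fun j _ => ?_
  rw [map_rat_smul' ι, LinearMap.BilinForm.dualBasis_repr_apply, Algebra.traceForm_apply,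
    mul_comm x, mul_comm]

/-- The decomposition for an abstract number field `F` embedded in `L`. -/
theorem core [IsAlgClosed L] [Algebra.IsAlgebraic ℚ L] [FiniteDimensional ℚ F] (ι : F →+* L)
    (P : LaurentSeries L → Prop) (h0 : P 0)
    (hadd : ∀ x y, P x → P y → P (x + y))
    (hsmul : ∀ (c : L) x, P x → P (algebraMap L (LaurentSeries L) c * x))
    (hgal : ∀ (σ : L ≃ₐ[ℚ] L) x, P x → P (coeffMap (σ : L →+* L) x))
    {n : ℕ} (w : Fin n → F) (g : Fin n → LaurentSeries ℚ)
    (hP : P (∑ i, algebraMap L (LaurentSeries L) (ι (w i)) * coeffEmb L (g i))) :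
    ∃ (m : ℕ) (c : Fin m → L) (h : Fin m → LaurentSeries ℚ),
      (∀ j, h j ∈ Submodule.span ℚ (Set.range g)) ∧ (∀ j, P (coeffEmb L (h j))) ∧
      ∑ i, algebraMap L (LaurentSeries L) (ι (w i)) * coeffEmb L (g i)
        = ∑ j, algebraMap L (LaurentSeries L) (c j) * coeffEmb L (h j) := by
  classical
  choose σ hσ using fun τ : F →ₐ[ℚ] L => exists_algEquiv_extending ι τ
  refine ⟨Module.finrank ℚ F,
    fun j => ι ((Algebra.traceForm ℚ F).dualBasis (traceForm_nondegenerate ℚ F)
      (Module.finBasis ℚ F) j),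
    fun j => ∑ i, Algebra.trace ℚ F (Module.finBasis ℚ F j * w i) • g i, ?_, ?_, ?_⟩
  · intro j
    exact Submodule.sum_mem _ fun i _ =>
      Submodule.smul_mem _ _ (Submodule.subset_span ⟨i, rfl⟩)
  · intro j
    rw [← sum_coeffMap_eq ι σ hσ (Module.finBasis ℚ F j) w g]
    refine Finset.sum_induction _ P hadd h0 fun τ _ => ?_
    exact hgal (σ τ) _ (hsmul _ _ hP)
  · simp_rw [coeffEmb_sum_smul, Finset.mul_sum, ← mul_assoc, ← map_mul]
    rw [Finset.sum_comm]
    refine Finset.sum_congr rfl fun i _ => ?_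
    rw [← Finset.sum_mul, ← map_sum, dual_expand ι (w i)]

end NBCTrace

theorem exists_rational_decomposition {L : Type*} [Field L] [Algebra ℚ L] [IsAlgClosed L]
    [Algebra.IsAlgebraic ℚ L] (P : LaurentSeries L → Prop) (h0 : P 0)
    (hadd : ∀ x y, P x → P y → P (x + y))
    (hsmul : ∀ (c : L) x, P x → P (algebraMap L (LaurentSeries L) c * x))
    (hgal : ∀ (σ : L ≃ₐ[ℚ] L) x, P x → P (coeffMap (σ : L →+* L) x))
    {n : ℕ} (ω : Fin n → L) (g : Fin n → LaurentSeries ℚ)
    (hP : P (∑ i, algebraMap L (LaurentSeries L) (ω i) * coeffEmb L (g i))) :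
    ∃ (m : ℕ) (c : Fin m → L) (h : Fin m → LaurentSeries ℚ),
      (∀ j, h j ∈ Submodule.span ℚ (Set.range g)) ∧ (∀ j, P (coeffEmb L (h j))) ∧
      ∑ i, algebraMap L (LaurentSeries L) (ω i) * coeffEmb L (g i)
        = ∑ j, algebraMap L (LaurentSeries L) (c j) * coeffEmb L (h j) := by
  classical
  -- the number field generated by the coefficients
  let K : IntermediateField ℚ L := IntermediateField.adjoin ℚ (Set.range ω)
  have hfd : FiniteDimensional ℚ K :=
    IntermediateField.finiteDimensional_adjoin fun x _ => Algebra.IsIntegral.isIntegral x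
  have hfd' : @FiniteDimensional ℚ K _ _ Algebra.toModule := by
    convert hfd
    exact Subsingleton.elim _ _
  exact NBCTrace.core (algebraMap K L) P h0 hadd hsmul hgal
    (fun i => (⟨ω i, IntermediateField.subset_adjoin ℚ _ ⟨i, rfl⟩⟩ : K)) g hP

end Fermat.Agent.S37
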