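import Fermat.Agent.S37.ChartA
import Fermat.Agent.S37.KronCore
import Fermat.Agent.S37.NBCSpan
import Fermat.Agent.S37.NBCTrace
import Fermat.Agent.S37.NBCDenom

/-!
P12 (S37), Tier 2, [CBC](c) = (NBC-gen): every element of `F_L = ℚ̄ · ι(F_ℚ)` which is integral
over `ℚ̄[ι x₀]` (`x₀ ∈ F_ℚ`) is a `ℚ̄`-linear combination of elements `ι(h)`, `h ∈ F_ℚ` integral over
`ℤ_(ℓ)[x₀]`; hence a nonzero constant multiple of it lies in the `A`-model `chartA` of the chart.

* `exists_sum_iotaFull_of_isIntegral` : the `ℚ̄`-span form;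
* `nbc_of_isIntegral`, `nbc_fin`, `nbc_inf` : the `IsChartModel.nbc` shape for `chartA`.

Proof: `F_L` is the `ℚ̄`-span of `ι(F_ℚ)` (NBCSpan), Galois-trace decomposition over the number
field generated by the coefficients (NBCTrace), descent of integrality along `ι` and clearing of
denominators (NBCDenom).
-/

set_option autoImplicit false
set_option linter.unusedSectionVars false

namespace Fermat.Agent.S37

open ModularCurve ModularCurve.IgusaScheme

namespace ChartNBC

/-- Finitely many elements of the fraction field of a valuation ring have a common nonzero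
multiplier into the valuation ring. -/
theorem exists_ne_zero_forall_mul_mem {K : Type*} [Field K] (A : ValuationSubring K) :
    ∀ {m : ℕ} (c : Fin m → K), ∃ a : K, a ≠ 0 ∧ ∀ j, a * c j ∈ A := by
  intro m
  induction m with
  | zero => exact fun _ => ⟨1, one_ne_zero, fun j => j.elim0⟩
  | succ m ih =>
    intro c
    obtain ⟨a, ha, hmem⟩ := ih (fun j => c j.castSucc)
    by_cases hlast : a * c (Fin.last m) ∈ A
    · exact ⟨a, ha, fun j => Fin.lastCases hlast (fun i => hmem i) j⟩
    · have hinv : (a * c (Fin.last m))⁻¹ ∈ A := (A.mem_or_inv_mem _).resolve_left hlast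
      have hne : a * c (Fin.last m) ≠ 0 := fun h0 => hlast (h0 ▸ A.zero_mem)
      refine ⟨(a * c (Fin.last m))⁻¹ * a, mul_ne_zero (inv_ne_zero hne) ha, fun j => ?_⟩
      refine Fin.lastCases ?_ (fun i => ?_) j
      · rw [mul_assoc, inv_mul_cancel₀ hne]
        exact A.one_mem
      · rw [mul_assoc]
        exact A.mul_mem _ _ hinv (hmem i)

section Series

variable {L : Type*} [Field L] [Algebra ℚ L]

/-- `L[x]` as a subring of `L((q))`. -/
noncomputable def serSub (x : LaurentSeries L) : Subring (LaurentSeries L) :=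
  Subring.closure (Set.range (algebraMap L (LaurentSeries L)) ∪ {x})

theorem algebraMap_mem_serSub (x : LaurentSeries L) (c : L) :
    algebraMap L (LaurentSeries L) c ∈ serSub x :=
  Subring.subset_closure (Or.inl ⟨c, rfl⟩)

theorem self_mem_serSub (x : LaurentSeries L) : x ∈ serSub x :=
  Subring.subset_closure (Or.inr rfl)

/-- Integrality over `L[ι y]` is stable under the coefficientwise Galois action. -/
theorem isIntegral_coeffMap (y : LaurentSeries ℚ) (σ : L ≃ₐ[ℚ] L) {z : LaurentSeries L}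
    (hz : IsIntegral (serSub (coeffEmb L y)) z) :
    IsIntegral (serSub (coeffEmb L y)) (coeffMap (σ : L →+* L) z) := by
  refine KronCore.isIntegral_map (coeffMap (σ : L →+* L)) _ _ ?_ hz
  rw [Subring.map_le_iff_le_comap]
  refine Subring.closure_le.mpr ?_
  rintro w (⟨c, rfl⟩ | hw)
  · show coeffMap (σ : L →+* L) (algebraMap L (LaurentSeries L) c) ∈ serSub (coeffEmb L y)
    rw [coeffMap_algebraMap]
    exact algebraMap_mem_serSub _ _
  · rw [Set.mem_singleton_iff] at hw
    subst hw
    show coeffMap (σ : L →+* L) (coeffEmb L y) ∈ serSub (coeffEmb L y)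
    rw [coeffMap_coeffEmb]
    exact self_mem_serSub _

end Series

section Descent

variable {L : Type*} [Field L] [Algebra ℚ L] [Algebra.IsAlgebraic ℚ L]
variable (F₀ : IntermediateField ℚ (LaurentSeries ℚ))

/-- Coefficientwise base change `F₀ → L((q))`. -/
noncomputable def iotaSer : ↥F₀ →+* LaurentSeries L :=
  (coeffEmb L).comp (algebraMap ↥F₀ (LaurentSeries ℚ))

theorem iotaSer_apply (h : ↥F₀) : iotaSer (L := L) F₀ h = coeffEmb L (h : LaurentSeries ℚ) := rfl

theorem iotaSer_injective : Function.Injective (iotaSer (L := L) F₀) :=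
  (iotaSer (L := L) F₀).injective

/-- Descent of integrality: if `ι h` is integral over `L[ι x₀]` then `h` is integral over
`ℚ[x₀]`. -/
theorem isIntegral_of_isIntegral_serSub (x₀ h : ↥F₀)
    (hh : IsIntegral (serSub (coeffEmb L (x₀ : LaurentSeries ℚ)))
      (coeffEmb L (h : LaurentSeries ℚ))) :
    IsIntegral (Algebra.adjoin ℚ {x₀}) h := by
  set R₀ : Subring ↥F₀ := (Algebra.adjoin ℚ {x₀}).toSubring with hR₀
  set S₀ : Subring (LaurentSeries L) := R₀.map (iotaSer (L := L) F₀) with hS₀
  have hx₀ : coeffEmb L (x₀ : LaurentSeries ℚ) ∈ S₀ :=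
    ⟨x₀, Algebra.subset_adjoin rfl, rfl⟩
  -- a ring hom `ℚ → S₀`
  have hQ : ∀ q : ℚ, (iotaSer (L := L) F₀).comp (algebraMap ℚ ↥F₀) q ∈ S₀ := fun q =>
    ⟨algebraMap ℚ ↥F₀ q, Subalgebra.algebraMap_mem _ q, rfl⟩
  let φ : ℚ →+* ↥S₀ := ((iotaSer (L := L) F₀).comp (algebraMap ℚ ↥F₀)).codRestrict S₀ hQ
  have hconst : ∀ c : L, IsIntegral S₀ (algebraMap L (LaurentSeries L) c) := by
    intro c
    have hc : IsIntegral ℚ c := (Algebra.IsAlgebraic.isAlgebraic c).isIntegral
    exact hc.map_of_comp_eq φ (algebraMap L (LaurentSeries L)) (Subsingleton.elim _ _)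
  have hall : ∀ w ∈ serSub (coeffEmb L (x₀ : LaurentSeries ℚ)), IsIntegral S₀ w := by
    intro w hw
    refine KronCore.isIntegral_of_mem_closure ?_ hw
    rintro u (⟨c, rfl⟩ | hu)
    · exact hconst c
    · rw [Set.mem_singleton_iff] at hu
      subst hu
      exact KronCore.isIntegral_of_mem hx₀
  have h1 : IsIntegral S₀ (iotaSer (L := L) F₀ h) :=
    KronCore.isIntegral_of_forall_isIntegral S₀ _ hall hh
  exact KronCore.isIntegral_of_map (iotaSer (L := L) F₀) (iotaSer_injective F₀) R₀ S₀ le_rfl h1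

end Descent

end ChartNBC

local notation "Ω" => AlgebraicClosure ℚ

variable (N : ℕ) [NeZero N] (ℓ : ℕ) [Fact ℓ.Prime]

/-- **(NBC-gen), span form.**  Every element of `F_L` integral over `ℚ̄[ι x₀]` is a
`ℚ̄`-linear combination of elements `ι h` with `h` in the chart algebra `chartAlg N ℓ {x₀}`. -/
theorem exists_sum_iotaFull_of_isIntegral (x₀ : ↥(modularFunctionFieldFull N))
    (f : ↥(modularFunctionFieldBar N))
    (hf : IsIntegral (Algebra.adjoin Ω {iotaFull N x₀}) f) :
    ∃ (m : ℕ) (c : Fin m → Ω) (h : Fin m → ↥(modularFunctionFieldFull N)),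
      (∀ j, h j ∈ chartAlg N ℓ {x₀}) ∧
        f = ∑ j, algebraMap Ω ↥(modularFunctionFieldBar N) (c j) * iotaFull N (h j) := by
  classical
  set ξ : LaurentSeries Ω := coeffEmb Ω (x₀ : LaurentSeries ℚ) with hξ
  -- Step 0: integrality in `Ω((q))`
  have hf' : IsIntegral (ChartNBC.serSub ξ) (f : LaurentSeries Ω) := by
    have hmemS : ∀ y : ↥(Algebra.adjoin Ω {iotaFull N x₀}),
        (algebraMap ↥(modularFunctionFieldBar N) (LaurentSeries Ω)).comp
          (Algebra.adjoin Ω {iotaFull N x₀}).val.toRingHom y ∈ ChartNBC.serSub ξ := by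
      rintro ⟨y, hy⟩
      show ((y : ↥(modularFunctionFieldBar N)) : LaurentSeries Ω) ∈ ChartNBC.serSub ξ
      induction hy using Algebra.adjoin_induction with
      | mem u hu =>
        rw [Set.mem_singleton_iff] at hu
        subst hu
        exact ChartNBC.self_mem_serSub _
      | algebraMap c => exact ChartNBC.algebraMap_mem_serSub _ c
      | add u v _ _ hu hv => exact Subring.add_mem _ hu hv
      | mul u v _ _ hu hv => exact Subring.mul_mem _ hu hv
    exact hf.map_of_comp_eq
      (RingHom.codRestrict ((algebraMap ↥(modularFunctionFieldBar N) (LaurentSeries Ω)).comp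
        (Algebra.adjoin Ω {iotaFull N x₀}).val.toRingHom) (ChartNBC.serSub ξ) hmemS)
      (algebraMap ↥(modularFunctionFieldBar N) (LaurentSeries Ω)) (by ext; rfl)
  -- Step 1: `f` is in the span of `ι(F_ℚ)`
  obtain ⟨n, ω, g, hg, hfg⟩ :=
    exists_sum_of_mem_laurentBaseChange (L := Ω) (modularFunctionFieldFull N) f.2
  -- Step 2: Galois-trace decomposition
  rw [hfg] at hf'
  obtain ⟨m, c, h, hspan, hP, hsum⟩ := exists_rational_decomposition (L := Ω)
    (fun z => IsIntegral (ChartNBC.serSub ξ) z) isIntegral_zero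
    (fun x y hx hy => hx.add hy)
    (fun a x hx => (KronCore.isIntegral_of_mem (ChartNBC.algebraMap_mem_serSub ξ a)).mul hx)
    (fun σ x hx => ChartNBC.isIntegral_coeffMap (x₀ : LaurentSeries ℚ) σ hx) ω g hf'
  -- Step 3: the `h j` lie in `F_ℚ`
  have hmem : ∀ j, h j ∈ modularFunctionFieldFull N := by
    intro j
    refine Submodule.span_induction (p := fun y _ => y ∈ modularFunctionFieldFull N)
      ?_ ?_ ?_ ?_ (hspan j)
    · rintro _ ⟨i, rfl⟩
      exact hg i
    · exact zero_mem _
    · intro x y _ _ hx hy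
      exact add_mem hx hy
    · intro q x _ hx
      have hq : q • x = algebraMap ℚ (LaurentSeries ℚ) q * x := by
        rw [algebraMap_laurentSeries_eq_single]
        exact (HahnSeries.C_mul_eq_smul (r := q) (x := x)).symm
      rw [hq]
      exact mul_mem ((modularFunctionFieldFull N).algebraMap_mem q) hx
  -- Step 4: descent of integrality
  have hint : ∀ j, IsIntegral (Algebra.adjoin ℚ {x₀})
      (⟨h j, hmem j⟩ : ↥(modularFunctionFieldFull N)) := fun j =>
    ChartNBC.isIntegral_of_isIntegral_serSub (L := Ω) (modularFunctionFieldFull N) x₀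
      ⟨h j, hmem j⟩ (hP j)
  -- Step 5: clearing denominators
  have hstep : ∀ j, ∃ (a : Ω) (y : ↥(modularFunctionFieldFull N)), y ∈ chartAlg N ℓ {x₀} ∧
      algebraMap Ω ↥(modularFunctionFieldBar N) a * iotaFull N y
        = algebraMap Ω ↥(modularFunctionFieldBar N) (c j) * iotaFull N ⟨h j, hmem j⟩ := by
    intro j
    obtain ⟨d, hd0, hd⟩ := exists_natCast_mul_mem_chartAlg N ℓ x₀
      (⟨h j, hmem j⟩ : ↥(modularFunctionFieldFull N)) (hint j)
    have hdΩ : ((d : ℕ) : Ω) ≠ 0 := Nat.cast_ne_zero.mpr hd0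
    refine ⟨c j / (d : Ω), _, hd, ?_⟩
    rw [map_mul, map_natCast, ← mul_assoc]
    congr 1
    rw [← map_natCast (algebraMap Ω ↥(modularFunctionFieldBar N)) d, ← map_mul,
      div_mul_cancel₀ _ hdΩ]
  choose a y hy hay using hstep
  have hfsum : f = ∑ j, algebraMap Ω ↥(modularFunctionFieldBar N) (c j)
      * iotaFull N ⟨h j, hmem j⟩ := by
    apply Subtype.ext
    rw [hfg, hsum]
    have hms := map_sum (algebraMap ↥(modularFunctionFieldBar N) (LaurentSeries Ω))
      (fun j => algebraMap Ω ↥(modularFunctionFieldBar N) (c j) * iotaFull N ⟨h j, hmem j⟩)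
      Finset.univ
    refine Eq.trans ?_ hms.symm
    exact Finset.sum_congr rfl fun j _ => rfl
  refine ⟨m, a, y, hy, ?_⟩
  rw [hfsum]
  exact Finset.sum_congr rfl fun j _ => (hay j).symm

variable (A : ValuationSubring Ω)

/-- **(NBC-gen)** for the chart `chartAlg N ℓ {x₀}`: a nonzero constant multiple of every
element of `F_L` integral over `ℚ̄[ι x₀]` lies in the `A`-model of the chart. -/
theorem nbc_of_isIntegral (x₀ : ↥(modularFunctionFieldFull N))
    (f : ↥(modularFunctionFieldBar N))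
    (hf : IsIntegral (Algebra.adjoin Ω {iotaFull N x₀}) f) :
    ∃ c : Ω, c ≠ 0 ∧
      algebraMap Ω ↥(modularFunctionFieldBar N) c * f ∈ chartA A N ℓ (chartAlg N ℓ {x₀}) := by
  obtain ⟨m, c, h, hh, rfl⟩ := exists_sum_iotaFull_of_isIntegral N ℓ x₀ f hf
  obtain ⟨a, ha, hac⟩ := ChartNBC.exists_ne_zero_forall_mul_mem A c
  refine ⟨a, ha, ?_⟩
  have h1 : algebraMap Ω ↥(modularFunctionFieldBar N) a
      * ∑ j, algebraMap Ω ↥(modularFunctionFieldBar N) (c j) * iotaFull N (h j)
      = ∑ j, algebraMap Ω ↥(modularFunctionFieldBar N) (a * c j) * iotaFull N (h j) := by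
    rw [Finset.mul_sum]
    refine Finset.sum_congr rfl fun j _ => ?_
    rw [map_mul, mul_assoc]
  rw [h1]
  exact sum_mem_chartA _ _ hac hh

/-- **(NBC-gen)**, finite chart. -/
theorem nbc_fin (f : ↥(modularFunctionFieldBar N))
    (hf : IsIntegral (Algebra.adjoin Ω {jBar N}) f) :
    ∃ c : Ω, c ≠ 0 ∧
      algebraMap Ω ↥(modularFunctionFieldBar N) c * f ∈ chartA A N ℓ (chartAlgFin N ℓ) :=
  nbc_of_isIntegral N ℓ A (jFull N) f hf

/-- **(NBC-gen)**, cusp chart. -/
theorem nbc_inf (f : ↥(modularFunctionFieldBar N))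
    (hf : IsIntegral (Algebra.adjoin Ω {(jBar N)⁻¹}) f) :
    ∃ c : Ω, c ≠ 0 ∧
      algebraMap Ω ↥(modularFunctionFieldBar N) c * f ∈ chartA A N ℓ (chartAlgInf N ℓ) := by
  have h1 : (jBar N)⁻¹ = iotaFull N ((jFull N)⁻¹) := (map_inv₀ (iotaFull N) (jFull N)).symm
  rw [h1] at hf
  exact nbc_of_isIntegral N ℓ A ((jFull N)⁻¹) f hf

end Fermat.Agent.S37
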