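import Fermat.Agent.S37.RedPt

/-!
P12 / S37, module [RP] (extras): further characterisations of the reduction of places.

* `jBar_eq_jL` — `jBar N` is `S24.jL`;
* `jBar_not_mem_aIntBar_iff` — the chart dichotomy;
* `resEvBar_eq_residue_evF` — the reduced evaluation in terms of the total evaluation `evF`;
* `redPt_eq_inl_iff'`, `redPt_eq_inr_iff'` — `redPt P = inl χ` iff `ι C_fin ⊂ W_P` and
  `res (ev_P (ι f)) = χ f` for all `f` (similarly for the chart at infinity).
-/

set_option autoImplicit false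
set_option linter.unusedSectionVars false

namespace Fermat.Agent.S37

open AlgebraicCurve ModularCurve ModularCurve.IgusaScheme

section Extra

variable {N : ℕ} [NeZero N] {ℓ : ℕ} [Fact ℓ.Prime] {A : ValuationSubring (AlgebraicClosure ℚ)}

theorem jBar_eq_jL : jBar N = S24.jL (AlgebraicClosure ℚ) N :=
  rfl

theorem jBar_ne_zero : jBar N ≠ 0 := by
  intro h
  have h1 : iotaFull N (jFull N) = 0 := h
  rw [map_eq_zero] at h1
  exact jFull_ne_zero N h1

theorem iotaFull_jChartFin : iotaFull N ((jChartFin N ℓ : chartAlgFin N ℓ) :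
    modularFunctionFieldFull N) = jBar N :=
  rfl

theorem iotaFull_jInvChartInf : iotaFull N ((jInvChartInf N ℓ : chartAlgInf N ℓ) :
    modularFunctionFieldFull N) = (jBar N)⁻¹ :=
  iotaFull_inv_jFull

/-- The reduced evaluation in terms of the total evaluation `evF`. -/
theorem resEvBar_eq_residue_evF
    (P : Place (AlgebraicClosure ℚ) (modularFunctionFieldBar N)) {f : modularFunctionFieldBar N}
    (hf : f ∈ aIntBar N A P) :
    resEvBar N A P ⟨f, hf⟩ =
      IsLocalRing.residue A ⟨evF (isFF_modularFunctionFieldBar N) P f,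
        ((mem_aInt_iff_evF (isFF_modularFunctionFieldBar N) A P).mp hf).2⟩ := by
  rw [resEv_mk]
  congr 1
  exact Subtype.ext (evF_of_mem (isFF_modularFunctionFieldBar N) P hf.1).symm

/-- The chart dichotomy: `j(P) ∉ A` iff `1/j` is integral at `P` with zero reduction. -/
theorem jBar_not_mem_aIntBar_iff
    (P : Place (AlgebraicClosure ℚ) (modularFunctionFieldBar N)) :
    jBar N ∉ aIntBar N A P ↔
      ∃ h : (jBar N)⁻¹ ∈ aIntBar N A P, resEvBar N A P ⟨(jBar N)⁻¹, h⟩ = 0 := by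
  constructor
  · intro h
    exact ⟨inv_jBar_mem_of_not_mem P h, resEvBar_inv_jBar_of_not_mem P h⟩
  · rintro ⟨h, h0⟩ hj
    have h1 : resEvBar N A P (⟨jBar N, hj⟩ * ⟨(jBar N)⁻¹, h⟩) = 1 := by
      have : (⟨jBar N, hj⟩ * ⟨(jBar N)⁻¹, h⟩ : aIntBar N A P) = 1 :=
        Subtype.ext (mul_inv_cancel₀ jBar_ne_zero)
      rw [this, map_one]
    rw [map_mul, h0, mul_zero] at h1
    exact zero_ne_one h1

/-- `redPt P = inl χ` iff the finite chart is integral at `P` and reduces to `χ`. -/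
theorem redPt_eq_inl_iff' (hA : A.LiesOverPrime ℓ)
    (P : Place (AlgebraicClosure ℚ) (modularFunctionFieldBar N))
    (χ : chartAlgFin N ℓ →+* IsLocalRing.ResidueField A) :
    redPt N ℓ A hA P = Sum.inl χ ↔
      ∃ h : ∀ f : chartAlgFin N ℓ, iotaFull N f ∈ aIntBar N A P,
        ∀ f : chartAlgFin N ℓ, resEvBar N A P ⟨iotaFull N f, h f⟩ = χ f := by
  rw [redPt_eq_inl_iff]
  constructor
  · rintro ⟨h, rfl⟩
    exact ⟨fun f => iotaFull_mem_of_mem_chartAlgFin hA P h f.2, fun f => rfl⟩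
  · rintro ⟨h, hχ⟩
    have hj : jBar N ∈ aIntBar N A P := h (jChartFin N ℓ)
    refine ⟨hj, ?_⟩
    ext f
    rw [finHom_apply]
    exact hχ f

/-- `redPt P = inr χ` iff the chart at infinity is integral at `P` and reduces to `χ`. -/
theorem redPt_eq_inr_iff' (hA : A.LiesOverPrime ℓ)
    (P : Place (AlgebraicClosure ℚ) (modularFunctionFieldBar N))
    (χ : {χ : chartAlgInf N ℓ →+* IsLocalRing.ResidueField A // χ (jInvChartInf N ℓ) = 0}) :
    redPt N ℓ A hA P = Sum.inr χ ↔
      ∃ h : ∀ f : chartAlgInf N ℓ, iotaFull N f ∈ aIntBar N A P,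
        ∀ f : chartAlgInf N ℓ, resEvBar N A P ⟨iotaFull N f, h f⟩ = χ.1 f := by
  rw [redPt_eq_inr_iff]
  constructor
  · rintro ⟨h, hχ⟩
    refine ⟨fun f => iotaFull_mem_of_mem_chartAlgInf hA P h f.2, fun f => ?_⟩
    rw [← hχ]
    rfl
  · rintro ⟨h, hχ⟩
    have hj : jBar N ∉ aIntBar N A P := by
      rw [jBar_not_mem_aIntBar_iff]
      have h1 := h (jInvChartInf N ℓ)
      have h2 := hχ (jInvChartInf N ℓ)
      rw [χ.2] at h2
      have h3 : (jBar N)⁻¹ ∈ aIntBar N A P := by
        rw [← iotaFull_jInvChartInf (ℓ := ℓ)]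
        exact h1
      refine ⟨h3, ?_⟩
      rw [← h2]
      congr 1
      exact Subtype.ext (iotaFull_jInvChartInf (ℓ := ℓ)).symm
    refine ⟨hj, ?_⟩
    ext f
    rw [infHom_apply]
    exact hχ f

/-- The value of the reduction of `P` at a function of the finite chart. -/
theorem redPt_eq_inl_apply (hA : A.LiesOverPrime ℓ)
    (P : Place (AlgebraicClosure ℚ) (modularFunctionFieldBar N))
    {χ : chartAlgFin N ℓ →+* IsLocalRing.ResidueField A} (h : redPt N ℓ A hA P = Sum.inl χ)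
    (f : chartAlgFin N ℓ) :
    ∃ hf : iotaFull N f ∈ aIntBar N A P, χ f = resEvBar N A P ⟨iotaFull N f, hf⟩ := by
  obtain ⟨h1, h2⟩ := (redPt_eq_inl_iff' hA P χ).mp h
  exact ⟨h1 f, (h2 f).symm⟩

/-- The value of the reduction of `P` at a function of the chart at infinity. -/
theorem redPt_eq_inr_apply (hA : A.LiesOverPrime ℓ)
    (P : Place (AlgebraicClosure ℚ) (modularFunctionFieldBar N))
    {χ : {χ : chartAlgInf N ℓ →+* IsLocalRing.ResidueField A // χ (jInvChartInf N ℓ) = 0}}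
    (h : redPt N ℓ A hA P = Sum.inr χ) (f : chartAlgInf N ℓ) :
    ∃ hf : iotaFull N f ∈ aIntBar N A P, χ.1 f = resEvBar N A P ⟨iotaFull N f, hf⟩ := by
  obtain ⟨h1, h2⟩ := (redPt_eq_inr_iff' hA P χ).mp h
  exact ⟨h1 f, (h2 f).symm⟩

end Extra

end Fermat.Agent.S37
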