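import Fermat.Agent.S37.ChartSat
import Fermat.Agent.S37.ChartNBC
import Fermat.Agent.S37.GaussAInt
import Fermat.Agent.S37.RedPtExtra
import Fermat.Agent.S37.KronCore

/-!
P12 (S37), Tier 2, [CBC]: integrality statements for the `A`-models
`chartA A N ℓ (chartAlgFin N ℓ)` (coordinate `j`) and `chartA A N ℓ (chartAlgInf N ℓ)` (coordinate
`1/j`) of the two charts of `X₀(N)`.

* `transcendental_jBar`, `transcendental_jBar_inv`;
* (NBC-int) `mem_of_isIntegral_chartRing` (generic), `chartA_fin_of_isIntegral`,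
  `chartA_inf_of_isIntegral` : elements integral over `A[x]` lie in the model;
* `isIntegral_aeval_mul_of_relation`, (DEC) `exists_dec_of_relation` : every unit `z` of the Gauss
  ring satisfying a common-denominator relation is a quotient `a / b` of elements of the model
  with nonzero reductions.
-/

set_option autoImplicit false
set_option linter.unusedSectionVars false

namespace Fermat.Agent.S37

open ModularCurve ModularCurve.IgusaScheme Polynomial

variable {A : ValuationSubring (AlgebraicClosure ℚ)} {N : ℕ} [NeZero N] {ℓ : ℕ} [Fact ℓ.Prime]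

/-! ### The coordinates -/

theorem transcendental_jBar : Transcendental (AlgebraicClosure ℚ) (jBar N) :=
  S24.transcendental_jL N (AlgebraicClosure ℚ)

theorem transcendental_jBar_inv : Transcendental (AlgebraicClosure ℚ) (jBar N)⁻¹ := fun h =>
  transcendental_jBar (N := N) (by simpa using h.inv)

theorem jBar_mem_gaussA : jBar N ∈ gaussA A N :=
  jL_mem_gaussA

theorem jBar_inv_mem_gaussA : (jBar N)⁻¹ ∈ gaussA A N :=
  jL_inv_mem_gaussA

/-! ### The chart ring `A[x]` -/

theorem chartRing_le_gaussA {x : ↥(modularFunctionFieldBar N)} (hx : x ∈ gaussA A N) :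
    chartRing A N x 1 ≤ gaussA A N :=
  chartRing_le (fun _ ha => algebraMap_mem_gaussA ha) hx (Subring.one_mem _)

theorem chartRing_le_adjoin (x : ↥(modularFunctionFieldBar N)) :
    chartRing A N x 1 ≤ (Algebra.adjoin (AlgebraicClosure ℚ) {x}).toSubring :=
  chartRing_le (fun a _ => Subalgebra.algebraMap_mem _ a)
    (Algebra.self_mem_adjoin_singleton _ x) (Subring.one_mem _)

/-- Integrality over `A[x]` implies integrality over `Ω[x]`. -/
theorem isIntegral_adjoin_of_isIntegral_chartRing {x b : ↥(modularFunctionFieldBar N)}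
    (hb : IsIntegral ↥(chartRing A N x 1) b) :
    IsIntegral (Algebra.adjoin (AlgebraicClosure ℚ) {x}) b :=
  hb.map_of_comp_eq
    (RingHom.codRestrict (chartRing A N x 1).subtype (Algebra.adjoin (AlgebraicClosure ℚ) {x})
      (fun y => chartRing_le_adjoin x y.2))
    (RingHom.id _) (by ext; rfl)

/-- Integrality over `A[x]` implies membership in the Gauss ring (`x ∈ gaussA`). -/
theorem mem_gaussA_of_isIntegral_chartRing (hA : A.LiesOverPrime ℓ)
    {x b : ↥(modularFunctionFieldBar N)} (hx : x ∈ gaussA A N)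
    (hb : IsIntegral ↥(chartRing A N x 1) b) : b ∈ gaussA A N :=
  mem_gaussA_of_isIntegral hA
    (hb.map_of_comp_eq (Subring.inclusion (chartRing_le_gaussA hx)) (RingHom.id _)
      (by ext; rfl))

/-- **(NBC-int)**, generic form: a saturated subring `𝔅` of the Gauss ring which contains a
constant multiple of every element integral over `Ω[x]` contains every element integral over
`A[x]`. -/
theorem mem_of_isIntegral_chartRing (hA : A.LiesOverPrime ℓ)
    {x : ↥(modularFunctionFieldBar N)} (hx : x ∈ gaussA A N)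
    (𝔅 : Subring ↥(modularFunctionFieldBar N))
    (hsat : ∀ z ∈ gaussA A N, ∀ c : AlgebraicClosure ℚ, c ≠ 0 →
      algebraMap (AlgebraicClosure ℚ) ↥(modularFunctionFieldBar N) c * z ∈ 𝔅 → z ∈ 𝔅)
    (hnbc : ∀ f : ↥(modularFunctionFieldBar N),
      IsIntegral (Algebra.adjoin (AlgebraicClosure ℚ) {x}) f →
        ∃ c : AlgebraicClosure ℚ, c ≠ 0 ∧
          algebraMap (AlgebraicClosure ℚ) ↥(modularFunctionFieldBar N) c * f ∈ 𝔅)
    {b : ↥(modularFunctionFieldBar N)} (hb : IsIntegral ↥(chartRing A N x 1) b) : b ∈ 𝔅 := by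
  obtain ⟨c, hc, hcb⟩ := hnbc b (isIntegral_adjoin_of_isIntegral_chartRing hb)
  exact hsat b (mem_gaussA_of_isIntegral_chartRing hA hx hb) c hc hcb

/-- **(NBC-int)**, chart `j ≠ ∞`: every element of `F_L` integral over `A[j]` lies in the
`A`-model of the chart. -/
theorem chartA_fin_of_isIntegral (hA : A.LiesOverPrime ℓ) (hℓN : ¬ ℓ ∣ N)
    {b : ↥(modularFunctionFieldBar N)} (hb : IsIntegral ↥(chartRing A N (jBar N) 1) b) :
    b ∈ chartA A N ℓ (chartAlgFin N ℓ) :=
  mem_of_isIntegral_chartRing hA jBar_mem_gaussA _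
    (fun _ hz _ hc h => chartA_fin_sat hA hℓN hz hc h) (nbc_fin N ℓ A) hb

/-- **(NBC-int)**, cusp chart: every element of `F_L` integral over `A[1/j]` lies in the
`A`-model of the chart. -/
theorem chartA_inf_of_isIntegral (hA : A.LiesOverPrime ℓ) (hℓN : ¬ ℓ ∣ N)
    {b : ↥(modularFunctionFieldBar N)} (hb : IsIntegral ↥(chartRing A N (jBar N)⁻¹ 1) b) :
    b ∈ chartA A N ℓ (chartAlgInf N ℓ) :=
  mem_of_isIntegral_chartRing hA jBar_inv_mem_gaussA _
    (fun _ hz _ hc h => chartA_inf_sat hA hℓN hz hc h) (nbc_inf N ℓ A) hb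

/-! ### (DEC) -/

/-- From the common-denominator relation `Q(x)·zⁿ + Σ_{i<n} P_i(x)·z^i = 0` (`Q, P_i ∈ A[X]`):
`Q(x)·z` is integral over `A[x]`. -/
theorem isIntegral_aeval_mul_of_relation (x z : ↥(modularFunctionFieldBar N)) (n : ℕ)
    (Q : Polynomial ↥A) (P : ℕ → Polynomial ↥A)
    (h : aeval x (Q.map A.subtype) * z ^ n +
      ∑ i ∈ Finset.range n, aeval x ((P i).map A.subtype) * z ^ i = 0) :
    IsIntegral ↥(chartRing A N x 1) (aeval x (Q.map A.subtype) * z) := by
  have hmem : ∀ g : Polynomial ↥A, aeval x (g.map A.subtype) ∈ chartRing A N x 1 := fun g =>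
    aeval_mem_chartRing x 1 _ (fun i => by rw [coeff_map]; exact (g.coeff i).2)
  cases n with
  | zero =>
    rw [pow_zero, mul_one, Finset.range_zero, Finset.sum_empty, add_zero] at h
    rw [h, zero_mul]
    exact isIntegral_zero
  | succ m =>
    set q : ↥(chartRing A N x 1) := ⟨aeval x (Q.map A.subtype), hmem Q⟩ with hq
    set p : ℕ → ↥(chartRing A N x 1) := fun i => ⟨aeval x ((P i).map A.subtype), hmem (P i)⟩
      with hp
    let g : Polynomial ↥(chartRing A N x 1) :=
      ∑ i ∈ Finset.range (m + 1), C (p i * q ^ (m - i)) * X ^ i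
    have hg : g.degree < ((m + 1 : ℕ) : WithBot ℕ) := by
      refine lt_of_le_of_lt (degree_sum_le _ _) ((Finset.sup_lt_iff (WithBot.bot_lt_coe _)).mpr ?_)
      intro i hi
      exact lt_of_le_of_lt (degree_C_mul_X_pow_le _ _)
        (WithBot.coe_lt_coe.mpr (Finset.mem_range.mp hi))
    refine ⟨X ^ (m + 1) + g, monic_X_pow_add hg, ?_⟩
    rw [eval₂_add, eval₂_X_pow, eval₂_finsetSum]
    have hterm : ∀ i ∈ Finset.range (m + 1),
        eval₂ (algebraMap ↥(chartRing A N x 1) ↥(modularFunctionFieldBar N))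
          (aeval x (Q.map A.subtype) * z) (C (p i * q ^ (m - i)) * X ^ i) =
        aeval x (Q.map A.subtype) ^ m * (aeval x ((P i).map A.subtype) * z ^ i) := by
      intro i hi
      have him : i ≤ m := Nat.lt_succ_iff.mp (Finset.mem_range.mp hi)
      rw [eval₂_mul, eval₂_C, eval₂_X_pow]
      show (aeval x ((P i).map A.subtype) * aeval x (Q.map A.subtype) ^ (m - i)) *
        (aeval x (Q.map A.subtype) * z) ^ i = _
      rw [mul_pow]
      have hpow : aeval x (Q.map A.subtype) ^ m =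
          aeval x (Q.map A.subtype) ^ (m - i) * aeval x (Q.map A.subtype) ^ i := by
        rw [← pow_add, Nat.sub_add_cancel him]
      rw [hpow]
      ring
    rw [Finset.sum_congr rfl hterm, ← Finset.mul_sum, mul_pow, pow_succ, mul_assoc,
      ← mul_add]
    rw [h, mul_zero]

/-- **(DEC)**, generic form: if `𝔅 ⊂ gaussA` contains every element integral over `A[x]`, then
every `z ∈ gaussA` with nonzero reduction which satisfies a common-denominator relation
`Q(x)·zⁿ + Σ_{i<n} P_i(x)·z^i = 0` (`Q̄ ≠ 0`) is a quotient `a / b` of elements of `𝔅` with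
nonzero reductions (`b = Q(x)`, `a = z·Q(x)`). -/
theorem exists_dec_of_relation {x : ↥(modularFunctionFieldBar N)} (hx : x ∈ gaussA A N)
    (htr : Transcendental (IsLocalRing.ResidueField ↥A) (redA A N ⟨x, hx⟩))
    (𝔅 : Subring ↥(modularFunctionFieldBar N)) (h𝔅 : 𝔅 ≤ gaussA A N)
    (hint : ∀ b : ↥(modularFunctionFieldBar N), IsIntegral ↥(chartRing A N x 1) b → b ∈ 𝔅)
    {z : ↥(modularFunctionFieldBar N)} (hz : z ∈ gaussA A N) (hred : redA A N ⟨z, hz⟩ ≠ 0)
    (n : ℕ) (Q : Polynomial ↥A) (P : ℕ → Polynomial ↥A)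
    (hQ : Q.map (IsLocalRing.residue ↥A) ≠ 0)
    (hrel : aeval x (Q.map A.subtype) * z ^ n +
      ∑ i ∈ Finset.range n, aeval x ((P i).map A.subtype) * z ^ i = 0) :
    ∃ (a b : ↥(modularFunctionFieldBar N)) (ha : a ∈ 𝔅) (hb : b ∈ 𝔅),
      redA A N ⟨a, h𝔅 ha⟩ ≠ 0 ∧ redA A N ⟨b, h𝔅 hb⟩ ≠ 0 ∧ z * b = a := by
  have hbR : aeval x (Q.map A.subtype) ∈ chartRing A N x 1 :=
    aeval_mem_chartRing x 1 _ (fun i => by rw [coeff_map]; exact (Q.coeff i).2)
  have hb : aeval x (Q.map A.subtype) ∈ 𝔅 := hint _ (KronCore.isIntegral_of_mem hbR)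
  have ha : z * aeval x (Q.map A.subtype) ∈ 𝔅 := by
    rw [mul_comm]
    exact hint _ (isIntegral_aeval_mul_of_relation x z n Q P hrel)
  have hredb : redA A N ⟨aeval x (Q.map A.subtype), h𝔅 hb⟩ ≠ 0 := by
    have h1 := redA_aeval hx Q
    intro h0
    rw [h0] at h1
    exact hQ (transcendental_iff.mp htr _ h1.symm)
  refine ⟨_, _, ha, hb, ?_, hredb, rfl⟩
  have hmul : (⟨z * aeval x (Q.map A.subtype), h𝔅 ha⟩ : ↥(gaussA A N)) =
      ⟨z, hz⟩ * ⟨aeval x (Q.map A.subtype), h𝔅 hb⟩ := rfl
  rw [hmul, map_mul]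
  exact mul_ne_zero hred hredb

end Fermat.Agent.S37
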