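import Fermat.Agent.S37.Eval

set_option autoImplicit false

/-!
# S37 (Tier 2): the abstract chart model `IsChartModel` and the zero-counting function `Zsum`

`Ω` is an algebraically closed field (`ℚ̄`), `A` a valuation subring of `Ω` with residue field
`k`, `F` a function field over `Ω`, `x ∈ F` a coordinate (`j` or `j⁻¹`) and `𝔅 ⊂ F` a subring
(the `A`-model of the affine chart: the subring generated by `A` and the chart algebra).

* `InMaxMul A 𝔅 a` : `a ∈ 𝔪𝔅`, i.e. `a = m * b` with `m ∈ 𝔪_A`, `b ∈ 𝔅`;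
* `IsChartModel A x 𝔅` : the hypotheses on `𝔅` used by the weak conservation theorem
  (`WeakCons.lean`); proved for the concrete charts in `ChartBC.lean`;
* `Zset hF A 𝔅 ψ` : for a point `ψ : 𝔅 →+* k` of the special fibre, the set of places `P` of `F`
  at which `𝔅` is `A`-integral and which reduce to `ψ`;
* `Zsum hF A 𝔅 ψ a` : the number of zeros of `a` (with multiplicity) among the places
  reducing to `ψ`.
-/

namespace Fermat.Agent.S37

open AlgebraicCurve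

variable {Ω F : Type*} [Field Ω] [Field F] [Algebra Ω F]

/-- `a ∈ 𝔪𝔅`: `a = m * b` with `m` in the maximal ideal of `A` and `b ∈ 𝔅`. -/
def InMaxMul (A : ValuationSubring Ω) (𝔅 : Subring F) (a : F) : Prop :=
  ∃ m : A, m ∈ IsLocalRing.maximalIdeal A ∧ ∃ b ∈ 𝔅, a = algebraMap Ω F (m : Ω) * b

/-- The abstract chart model: `𝔅 ⊂ F` is a subring containing `A` and the coordinate `x`,
finite over `A[x]`, saturated (`𝔅 / a𝔅` is `A`-torsion-free for `a ∉ 𝔪𝔅`), whose `Ω`-span is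
the integral closure of `Ω[x]` in `F`, and in which every `a ∉ 𝔪𝔅` divides a polynomial
`G(x)`, `G ∈ A[X]` with nonzero reduction. -/
structure IsChartModel (A : ValuationSubring Ω) (x : F) (𝔅 : Subring F) : Prop where
  /-- `A ⊂ 𝔅`. -/
  algebraMap_mem : ∀ α : A, algebraMap Ω F (α : Ω) ∈ 𝔅
  /-- `x ∈ 𝔅`. -/
  x_mem : x ∈ 𝔅
  /-- `x` is not constant. -/
  x_transcendental : Transcendental Ω x
  /-- `𝔅` is a finite module over `A[x]`. -/
  finite : ∃ s : Finset F, (∀ e ∈ s, e ∈ 𝔅) ∧ ∀ b ∈ 𝔅, ∃ p : F → Polynomial A,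
    b = ∑ e ∈ s, Polynomial.aeval x ((p e).map A.subtype) * e
  /-- Every element of `𝔅` is integral over `Ω[x]` (a consequence of `finite`; kept as a field
  for convenience). -/
  integral : ∀ b ∈ 𝔅, IsIntegral (Algebra.adjoin Ω {x}) b
  /-- `𝔅 / a𝔅` is `A`-torsion-free for `a ∉ 𝔪𝔅`. -/
  sat : ∀ a ∈ 𝔅, ¬ InMaxMul A 𝔅 a → ∀ m : A, m ≠ 0 → ∀ b ∈ 𝔅,
    (∃ b' ∈ 𝔅, a * b = algebraMap Ω F (m : Ω) * b') → ∃ b'' ∈ 𝔅, b = algebraMap Ω F (m : Ω) * b''
  /-- Every element of `F` integral over `Ω[x]` is a constant multiple of an element of `𝔅`. -/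
  nbc : ∀ f : F, IsIntegral (Algebra.adjoin Ω {x}) f →
    ∃ c : Ω, c ≠ 0 ∧ algebraMap Ω F c * f ∈ 𝔅
  /-- Every `a ∉ 𝔪𝔅` divides (in `𝔅`) some `G(x)` with `G ∈ A[X]` of nonzero reduction. -/
  norm : ∀ a ∈ 𝔅, ¬ InMaxMul A 𝔅 a → ∃ G : Polynomial A,
    G.map (IsLocalRing.residue A) ≠ 0 ∧ ∃ b ∈ 𝔅, Polynomial.aeval x (G.map A.subtype) = a * b

variable [IsAlgClosed Ω]

/-- The places of `F` at which `𝔅` is `A`-integral and which reduce to the point `ψ` of the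
special fibre. -/
def Zset (hF : IsFF Ω F) (A : ValuationSubring Ω) (𝔅 : Subring F)
    (ψ : 𝔅 →+* IsLocalRing.ResidueField A) : Set (Place Ω F) :=
  {P | ∃ h : 𝔅 ≤ (aInt hF A P).toSubring, ∀ b : 𝔅, resEv hF A P ⟨(b : F), h b.2⟩ = ψ b}

theorem mem_Zset_iff (hF : IsFF Ω F) (A : ValuationSubring Ω) (𝔅 : Subring F)
    (ψ : 𝔅 →+* IsLocalRing.ResidueField A) (P : Place Ω F) :
    P ∈ Zset hF A 𝔅 ψ ↔
      ∃ h : 𝔅 ≤ (aInt hF A P).toSubring, ∀ b : 𝔅, resEv hF A P ⟨(b : F), h b.2⟩ = ψ b :=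
  Iff.rfl

/-- The number of zeros of `a`, with multiplicity, among the places reducing to `ψ`. -/
noncomputable def Zsum (hF : IsFF Ω F) (A : ValuationSubring Ω) (𝔅 : Subring F)
    (ψ : 𝔅 →+* IsLocalRing.ResidueField A) (a : F) : ℤ :=
  ∑ᶠ P ∈ Zset hF A 𝔅 ψ, P.ord a

end Fermat.Agent.S37
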