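import Fermat.Agent.S37.ChartA
import Fermat.Agent.S37.ChartModel
import Fermat.Agent.S37.GaussA
import Fermat.Agent.S28.ChartKer
import Fermat.Agent.S28.Tensor
import Fermat.Agent.S18.NumField

/-!
P12 (S37), Tier 2, [CBC](b): saturation of the `A`-model `chartA A N ℓ C` of a chart in the Gauss
valuation ring `gaussA A N`.
-/

set_option autoImplicit false
set_option linter.unusedSectionVars false

namespace Fermat.Agent.S37

open ModularCurve ModularCurve.IgusaScheme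
open scoped TensorProduct

noncomputable section

namespace ChartSat

variable (A : ValuationSubring (AlgebraicClosure ℚ)) (N : ℕ) [NeZero N] (ℓ : ℕ) [Fact ℓ.Prime]

/-- The inclusion `ℤ_(ℓ) → A` for a valuation ring `A` of `ℚ̄` over `ℓ`. -/
def zlA (hA : A.LiesOverPrime ℓ) : ↥(GaloisRep.ratLocalizedAt ℓ) →+* ↥A where
  toFun c := ⟨algebraMap ℚ (AlgebraicClosure ℚ) (c : ℚ), algebraMap_ratLocalizedAt_mem A hA c⟩
  map_one' := Subtype.ext (by simp)
  map_mul' x y := Subtype.ext (by simp)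
  map_zero' := Subtype.ext (by simp)
  map_add' x y := Subtype.ext (by simp)

variable {A N ℓ}

theorem coeffMap_subtype_zlA (hA : A.LiesOverPrime ℓ)
    (b : LaurentSeries ↥(GaloisRep.ratLocalizedAt ℓ)) :
    coeffMap A.subtype (coeffMap (zlA A ℓ hA) b) =
      coeffEmb (AlgebraicClosure ℚ) (coeffMap (GaloisRep.ratLocalizedAt ℓ).subtype b) := by
  rw [coeffEmb, coeffMap_coeffMap, coeffMap_coeffMap]
  rfl

theorem coeffMap_residue_zlA (hA : A.LiesOverPrime ℓ)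
    [CharP (IsLocalRing.ResidueField ↥A) ℓ]
    (b : LaurentSeries ↥(GaloisRep.ratLocalizedAt ℓ)) :
    coeffMap (IsLocalRing.residue ↥A) (coeffMap (zlA A ℓ hA) b) =
      S28.Tensor.mapK ℓ (IsLocalRing.ResidueField ↥A) (coeffMap (S28.resZ ℓ) b) := by
  rw [S28.Tensor.mapK, coeffMap_coeffMap, coeffMap_coeffMap]
  exact coeffMap_congr (S28.Tensor.ratLocalizedAt_ringHom_ext _ _) b

theorem mapK_injective (k : Type*) [Field k] [CharP k ℓ] :
    Function.Injective (S28.Tensor.mapK ℓ k) := by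
  intro x y h
  ext n
  have hn := congrArg (fun z : LaurentSeries k => z.coeff n) h
  exact (ZMod.castHom (dvd_refl ℓ) k).injective hn

end ChartSat

open ChartSat

variable {A : ValuationSubring (AlgebraicClosure ℚ)} {N : ℕ} [NeZero N] {ℓ : ℕ} [Fact ℓ.Prime]

/-- `ι f` lies in the Gauss ring over `A` for `f` in the Gauss ring of `F_ℚ` at `ℓ`, and its
reduction is the base change of the reduction of `f`: fraction form. -/
theorem ChartSat.iotaFull_fraction (hA : A.LiesOverPrime ℓ)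
    [CharP (IsLocalRing.ResidueField ↥A) ℓ]
    {f : ↥(modularFunctionFieldFull N)} (hf : f ∈ S28.gaussV N ℓ) :
    ∃ a b : LaurentSeries ↥A, coeffMap (IsLocalRing.residue ↥A) b ≠ 0 ∧
      ((iotaFull N f : ↥(modularFunctionFieldBar N)) : LaurentSeries (AlgebraicClosure ℚ)) *
        coeffMap A.subtype b = coeffMap A.subtype a ∧
      S28.Tensor.mapK ℓ (IsLocalRing.ResidueField ↥A) (S28.gaussRed N ℓ ⟨f, hf⟩) *
        coeffMap (IsLocalRing.residue ↥A) b = coeffMap (IsLocalRing.residue ↥A) a := by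
  obtain ⟨a, b, hb, hab⟩ := (S28.mem_gaussV_iff N ℓ f).mp hf
  have hred := S28.gaussRedO_mul_eq ℓ ⟨(f : LaurentSeries ℚ), (S28.mem_gaussV_iff N ℓ f).mp hf⟩ a b hab
  refine ⟨coeffMap (zlA A ℓ hA) a, coeffMap (zlA A ℓ hA) b, ?_, ?_, ?_⟩
  · rw [coeffMap_residue_zlA hA]
    intro h0
    exact hb (mapK_injective _ (h0.trans (map_zero _).symm))
  · rw [coeffMap_subtype_zlA, coeffMap_subtype_zlA, coe_iotaFull, ← map_mul, hab]
  · rw [coeffMap_residue_zlA hA, coeffMap_residue_zlA hA, ← map_mul]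
    congr 1

theorem iotaFull_mem_gaussA (hA : A.LiesOverPrime ℓ)
    {f : ↥(modularFunctionFieldFull N)} (hf : f ∈ S28.gaussV N ℓ) :
    iotaFull N f ∈ gaussA A N := by
  have := charP_residueField A (Fact.out : ℓ.Prime) hA
  obtain ⟨a, b, hb, hab, -⟩ := ChartSat.iotaFull_fraction hA hf
  exact mem_gaussA_iff.mpr ⟨a, b, hb, hab⟩

theorem redA_iotaFull (hA : A.LiesOverPrime ℓ) [CharP (IsLocalRing.ResidueField ↥A) ℓ]
    {f : ↥(modularFunctionFieldFull N)} (hf : f ∈ S28.gaussV N ℓ) :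
    redA A N ⟨iotaFull N f, iotaFull_mem_gaussA hA hf⟩ =
      S28.Tensor.mapK ℓ (IsLocalRing.ResidueField ↥A) (S28.gaussRed N ℓ ⟨f, hf⟩) := by
  obtain ⟨a, b, hb, hab, hred⟩ := ChartSat.iotaFull_fraction hA hf
  have h1 := redA_mul_eq ⟨iotaFull N f, iotaFull_mem_gaussA hA hf⟩ a b hab
  exact mul_right_cancel₀ hb (h1.trans hred.symm)

theorem chartA_le_gaussA (hA : A.LiesOverPrime ℓ)
    {C : Subalgebra ↥(GaloisRep.ratLocalizedAt ℓ) ↥(modularFunctionFieldFull N)}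
    (hCV : C ≤ S28.gaussV N ℓ) : chartA A N ℓ C ≤ gaussA A N :=
  chartA_le (fun _ ha => algebraMap_mem_gaussA ha) (fun _ hf => iotaFull_mem_gaussA hA (hCV hf))


/-! ### The abstract descent step

`Λ` is a `ℤ_(ℓ)`-algebra with a ring homomorphism `j : Λ → A` (in the application `Λ = A ∩ K` for
a number field `K`), `κ` a field of characteristic `ℓ` with `r : Λ → κ` and `φ : κ → k`
compatible with the residue map of `A`. -/

namespace ChartSat

section Abstract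

variable {Λ : Type*} [CommRing Λ] [Algebra ↥(GaloisRep.ratLocalizedAt ℓ) Λ] (j : Λ →+* ↥A)
  (C : Subalgebra ↥(GaloisRep.ratLocalizedAt ℓ) ↥(modularFunctionFieldFull N))

/-- The constants of `Λ` inside `F_L`. -/
def constHom : Λ →+* ↥(modularFunctionFieldBar N) :=
  (algebraMap (AlgebraicClosure ℚ) ↥(modularFunctionFieldBar N)).comp (A.subtype.comp j)

theorem constHom_apply (x : Λ) :
    constHom (N := N) j x =
      algebraMap (AlgebraicClosure ℚ) ↥(modularFunctionFieldBar N) ((j x : ↥A) : AlgebraicClosure ℚ) :=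
  rfl

theorem constHom_algebraMap (s : ↥(GaloisRep.ratLocalizedAt ℓ)) :
    constHom (N := N) j (algebraMap ↥(GaloisRep.ratLocalizedAt ℓ) Λ s) =
      iotaFull N (algebraMap ↥(GaloisRep.ratLocalizedAt ℓ) ↥(modularFunctionFieldFull N) s) := by
  have h1 : ((A.subtype.comp j).comp (algebraMap ↥(GaloisRep.ratLocalizedAt ℓ) Λ)) =
      (algebraMap ℚ (AlgebraicClosure ℚ)).comp (GaloisRep.ratLocalizedAt ℓ).subtype :=
    S28.Tensor.ratLocalizedAt_ringHom_ext _ _
  have h2 : ((j (algebraMap ↥(GaloisRep.ratLocalizedAt ℓ) Λ s) : ↥A) : AlgebraicClosure ℚ) =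
      algebraMap ℚ (AlgebraicClosure ℚ) (s : ℚ) := RingHom.congr_fun h1 s
  rw [constHom_apply, h2]
  exact (iotaFull_algebraMap N (s : ℚ)).symm

/-- The evaluation `C ⊗ Λ → F_L`, `c ⊗ x ↦ x · ι(c)`. -/
def evalHom : ↥C ⊗[↥(GaloisRep.ratLocalizedAt ℓ)] Λ →+ ↥(modularFunctionFieldBar N) :=
  TensorProduct.liftAddHom
    (((AddMonoidHom.mul (R := ↥(modularFunctionFieldBar N))).comp
      ((iotaFull N).toAddMonoidHom.comp C.toSubring.subtype.toAddMonoidHom)).compl₂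
        (constHom (N := N) j).toAddMonoidHom)
    (by
      intro s c x
      show iotaFull N ((s • c : ↥C) : ↥(modularFunctionFieldFull N)) * constHom (N := N) j x =
        iotaFull N (c : ↥(modularFunctionFieldFull N)) * constHom (N := N) j (s • x)
      rw [Algebra.smul_def s x, map_mul, constHom_algebraMap, Algebra.smul_def s c]
      show iotaFull N (algebraMap ↥(GaloisRep.ratLocalizedAt ℓ) ↥(modularFunctionFieldFull N) s *
        (c : ↥(modularFunctionFieldFull N))) * _ = _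
      rw [map_mul]
      ring)

theorem evalHom_tmul (c : ↥C) (x : Λ) :
    evalHom j C (c ⊗ₜ[↥(GaloisRep.ratLocalizedAt ℓ)] x) =
      constHom (N := N) j x * iotaFull N (c : ↥(modularFunctionFieldFull N)) :=
  mul_comm _ _

theorem evalHom_mem_chartA (Y : ↥C ⊗[↥(GaloisRep.ratLocalizedAt ℓ)] Λ) :
    evalHom j C Y ∈ chartA A N ℓ C := by
  induction Y using TensorProduct.induction_on with
  | zero => rw [map_zero]; exact Subring.zero_mem _
  | tmul c x =>
    rw [evalHom_tmul]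
    exact Subring.mul_mem _ (algebraMap_mem_chartA (j x).2) (iotaFull_mem_chartA c.2)
  | add Y₁ Y₂ h₁ h₂ => rw [map_add]; exact Subring.add_mem _ h₁ h₂

theorem evalHom_lTensor_mulLeft (ϖ : Λ) (Y : ↥C ⊗[↥(GaloisRep.ratLocalizedAt ℓ)] Λ) :
    evalHom j C (LinearMap.lTensor ↥C (LinearMap.mulLeft ↥(GaloisRep.ratLocalizedAt ℓ) ϖ) Y) =
      constHom (N := N) j ϖ * evalHom j C Y := by
  induction Y using TensorProduct.induction_on with
  | zero => rw [map_zero, map_zero, mul_zero]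
  | tmul c x =>
    rw [LinearMap.lTensor_tmul, evalHom_tmul, evalHom_tmul, LinearMap.mulLeft_apply, map_mul,
      mul_assoc]
  | add Y₁ Y₂ h₁ h₂ => rw [map_add, map_add, map_add, h₁, h₂, mul_add]

variable {κ : Type*} [Field κ] [CharP κ ℓ] [Algebra ↥(GaloisRep.ratLocalizedAt ℓ) κ]
  (r : Λ →+* κ)

/-- The residue map `Λ → κ` as a `ℤ_(ℓ)`-linear map. -/
def resLin : Λ →ₗ[↥(GaloisRep.ratLocalizedAt ℓ)] κ where
  toFun := r
  map_add' := map_add r
  map_smul' s x := by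
    have h1 : r.comp (algebraMap ↥(GaloisRep.ratLocalizedAt ℓ) Λ) =
        algebraMap ↥(GaloisRep.ratLocalizedAt ℓ) κ := S28.Tensor.ratLocalizedAt_ringHom_ext _ _
    have h2 : r (algebraMap ↥(GaloisRep.ratLocalizedAt ℓ) Λ s) =
        algebraMap ↥(GaloisRep.ratLocalizedAt ℓ) κ s := RingHom.congr_fun h1 s
    rw [Algebra.smul_def, map_mul, h2, RingHom.id_apply, Algebra.smul_def]

theorem resLin_apply (x : Λ) : resLin (ℓ := ℓ) r x = r x := rfl

variable {C} (hCV : C ≤ S28.gaussV N ℓ)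

/-- Reduction of `q`-expansions mod `ℓ` on the chart `C`. -/
def redC : ↥C →+* LaurentSeries (ZMod ℓ) :=
  (S28.gaussRed N ℓ).comp (Subalgebra.inclusion hCV).toRingHom

theorem redC_apply (c : ↥C) : redC hCV c = S28.gaussRed N ℓ ⟨c, hCV c.2⟩ := rfl

variable (hA : A.LiesOverPrime ℓ) [CharP (IsLocalRing.ResidueField ↥A) ℓ]
  (φ : κ →+* IsLocalRing.ResidueField ↥A) (hφ : φ.comp r = (IsLocalRing.residue ↥A).comp j)
  (ψ : ↥C ⊗[↥(GaloisRep.ratLocalizedAt ℓ)] κ →+* LaurentSeries κ)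
  (hψ : ∀ (c : ↥C) (x : κ), ψ (c ⊗ₜ[↥(GaloisRep.ratLocalizedAt ℓ)] x) =
    S28.Tensor.mapK ℓ κ (redC hCV c) * HahnSeries.C x)

include hA hφ hψ in
/-- The reduction of `evalHom Y` is computed by `ψ`. -/
theorem exists_redA_evalHom (Y : ↥C ⊗[↥(GaloisRep.ratLocalizedAt ℓ)] Λ) :
    ∃ g : ↥(gaussA A N), (g : ↥(modularFunctionFieldBar N)) = evalHom j C Y ∧
      redA A N g = coeffMap φ (ψ (LinearMap.lTensor ↥C (resLin (ℓ := ℓ) r) Y)) := by
  induction Y using TensorProduct.induction_on with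
  | zero => exact ⟨0, by rw [map_zero]; rfl, by rw [map_zero, map_zero, map_zero, map_zero]⟩
  | tmul c x =>
    refine ⟨⟨_, algebraMap_mem_gaussA (j x).2⟩ * ⟨_, iotaFull_mem_gaussA hA (hCV c.2)⟩, ?_, ?_⟩
    · rw [evalHom_tmul]; rfl
    · rw [map_mul, redA_algebraMap, redA_iotaFull hA, LinearMap.lTensor_tmul, hψ, map_mul,
        resLin_apply, mul_comm]
      congr 1
      · rw [S28.Tensor.mapK, S28.Tensor.mapK, coeffMap_coeffMap]
        exact coeffMap_congr (RingHom.ext_zmod _ _) _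
      · rw [HahnSeries.C_apply, HahnSeries.C_apply, coeffMap_single]
        congr 1
        exact (RingHom.congr_fun hφ x).symm
  | add Y₁ Y₂ h₁ h₂ =>
    obtain ⟨g₁, hg₁, hr₁⟩ := h₁
    obtain ⟨g₂, hg₂, hr₂⟩ := h₂
    refine ⟨g₁ + g₂, ?_, ?_⟩
    · rw [map_add, ← hg₁, ← hg₂]; rfl
    · rw [map_add, hr₁, hr₂, map_add, map_add, map_add]


variable (hψinj : Function.Injective ψ) (ϖ : Λ)
  (hϖ : ∀ x : Λ, r x = 0 → ∃ y : Λ, x = ϖ * y) (hϖ0 : r ϖ = 0) (hr : Function.Surjective r)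

include hψinj hϖ hϖ0 hr in
/-- The key step: an element `evalHom Y` whose reduction vanishes is divisible by `ϖ` in the
image of `evalHom`. -/
theorem exists_evalHom_eq_mul (Y : ↥C ⊗[↥(GaloisRep.ratLocalizedAt ℓ)] Λ)
    (hY : ψ (LinearMap.lTensor ↥C (resLin (ℓ := ℓ) r) Y) = 0) :
    ∃ Y' : ↥C ⊗[↥(GaloisRep.ratLocalizedAt ℓ)] Λ,
      evalHom j C Y = constHom (N := N) j ϖ * evalHom j C Y' := by
  have h0 : LinearMap.lTensor ↥C (resLin (ℓ := ℓ) r) Y = 0 :=
    hψinj (hY.trans (map_zero ψ).symm)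
  have hex : Function.Exact (LinearMap.mulLeft ↥(GaloisRep.ratLocalizedAt ℓ) ϖ)
      (resLin (ℓ := ℓ) r) := by
    intro y
    constructor
    · intro hy
      obtain ⟨x, hx⟩ := hϖ y hy
      exact ⟨x, hx.symm⟩
    · rintro ⟨x, rfl⟩
      rw [LinearMap.mulLeft_apply, resLin_apply, map_mul, hϖ0, zero_mul]
  have hex2 := lTensor_exact ↥C hex (show Function.Surjective (resLin (ℓ := ℓ) r) from hr)
  obtain ⟨Y', hY'⟩ := (hex2 Y).mp h0
  exact ⟨Y', by rw [← hY', evalHom_lTensor_mulLeft]⟩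

include hA hφ hψ hψinj hϖ hϖ0 hr in
/-- Descent: if `ϖ ^ t * z` lies in the image of `evalHom` and `z` lies in the Gauss ring, then
`z` lies in the image of `evalHom`. -/
theorem exists_evalHom_eq_of_pow_mul (hjϖ : constHom (N := N) j ϖ ≠ 0)
    {z : ↥(modularFunctionFieldBar N)} (hz : z ∈ gaussA A N) :
    ∀ (t : ℕ) (Y : ↥C ⊗[↥(GaloisRep.ratLocalizedAt ℓ)] Λ),
      evalHom j C Y = constHom (N := N) j ϖ ^ t * z →
      ∃ Y' : ↥C ⊗[↥(GaloisRep.ratLocalizedAt ℓ)] Λ, evalHom j C Y' = z := by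
  intro t
  induction t with
  | zero =>
    intro Y hY
    exact ⟨Y, by rw [hY, pow_zero, one_mul]⟩
  | succ t ih =>
    intro Y hY
    obtain ⟨g, hg, hred⟩ := exists_redA_evalHom j r hCV hA φ hφ ψ hψ Y
    have hϖA : constHom (N := N) j ϖ ∈ gaussA A N := algebraMap_mem_gaussA (j ϖ).2
    have hg' : g = ⟨constHom (N := N) j ϖ, hϖA⟩ *
        (⟨constHom (N := N) j ϖ, hϖA⟩ ^ t * ⟨z, hz⟩) := by
      apply Subtype.ext
      rw [hg, hY, pow_succ']
      show _ = constHom (N := N) j ϖ * (constHom (N := N) j ϖ ^ t * z)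
      rw [mul_assoc]
    have hres : IsLocalRing.residue ↥A (j ϖ) = 0 := by
      rw [← RingHom.comp_apply, ← hφ, RingHom.comp_apply, hϖ0, map_zero]
    have hg0 : redA A N g = 0 := by
      rw [hg', map_mul]
      have : redA A N ⟨constHom (N := N) j ϖ, hϖA⟩ = 0 := by
        have h1 := redA_algebraMap (N := N) (j ϖ).2
        rw [show (⟨((j ϖ : ↥A) : AlgebraicClosure ℚ), (j ϖ).2⟩ : ↥A) = j ϖ from rfl, hres,
          map_zero] at h1
        exact h1
      rw [this, zero_mul]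
    have hψ0 : ψ (LinearMap.lTensor ↥C (resLin (ℓ := ℓ) r) Y) = 0 := by
      have h2 : coeffMap φ (ψ (LinearMap.lTensor ↥C (resLin (ℓ := ℓ) r) Y)) = 0 := by
        rw [← hred, hg0]
      ext n
      have hn := congrArg (fun w : LaurentSeries (IsLocalRing.ResidueField ↥A) => w.coeff n) h2
      simp only [coeffMap_coeff, HahnSeries.coeff_zero] at hn
      exact (map_eq_zero φ).mp hn
    obtain ⟨Y', hY'⟩ := exists_evalHom_eq_mul j r ψ hψinj ϖ hϖ hϖ0 hr Y hψ0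
    refine ih Y' ?_
    have h3 : constHom (N := N) j ϖ * evalHom j C Y' =
        constHom (N := N) j ϖ * (constHom (N := N) j ϖ ^ t * z) := by
      rw [← hY', hY, pow_succ', mul_assoc]
    exact mul_left_cancel₀ hjϖ h3

end Abstract

/-! ### Descent to a number field -/

section NumberField

open Fermat.Agent.S18.NumField

theorem coeffMap_eq_zero_of_field {κ k : Type*} [Field κ] [Field k] (φ : κ →+* k)
    {w : LaurentSeries κ} (h : coeffMap φ w = 0) : w = 0 := by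
  ext n
  have hn := congrArg (fun w : LaurentSeries k => w.coeff n) h
  simp only [coeffMap_coeff, HahnSeries.coeff_zero] at hn
  exact (map_eq_zero φ).mp hn

variable (A ℓ) in
/-- The inclusion `ℤ_(ℓ) → Λ = A ∩ K`. -/
def zlLam (hA : A.LiesOverPrime ℓ) (K : IntermediateField ℚ (AlgebraicClosure ℚ)) :
    ↥(GaloisRep.ratLocalizedAt ℓ) →+* ↥(lam A K) where
  toFun c := ⟨algebraMap ℚ K (c : ℚ), mem_lam_iff.mpr (algebraMap_ratLocalizedAt_mem A hA c)⟩
  map_one' := Subtype.ext (by simp)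
  map_mul' x y := Subtype.ext (by simp)
  map_zero' := Subtype.ext (by simp)
  map_add' x y := Subtype.ext (by simp)

variable {C : Subalgebra ↥(GaloisRep.ratLocalizedAt ℓ) ↥(modularFunctionFieldFull N)}

/-- The number field step: for a number field `K ⊂ ℚ̄` there is a uniformiser `ϖ` of `A ∩ K`
such that sums `∑ aᵢ · ι(fᵢ)` with `aᵢ ∈ A ∩ K`, `fᵢ ∈ C` can be divided by `ϖ` inside `chartA`
as long as the quotient stays in the Gauss ring. -/
theorem numField_descent (hA : A.LiesOverPrime ℓ) (hCV : C ≤ S28.gaussV N ℓ)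
    (hker : ∀ x : ↥C, S28.gaussRed N ℓ ⟨x, hCV x.2⟩ = 0 → ∃ y : ↥C, x = (ℓ : ↥C) * y)
    (K : IntermediateField ℚ (AlgebraicClosure ℚ)) [FiniteDimensional ℚ K] :
    ∃ ϖ : AlgebraicClosure ℚ, ϖ ≠ 0 ∧
      (∃ h : ϖ ∈ A, (⟨ϖ, h⟩ : ↥A) ∈ IsLocalRing.maximalIdeal ↥A) ∧
      (∀ c ∈ K, c ∈ A → c ≠ 0 →
        ∃ (s : ℕ) (u : AlgebraicClosure ℚ), u ∈ A ∧ u⁻¹ ∈ A ∧ c = u * ϖ ^ s) ∧
      ∀ (n : ℕ) (a : Fin n → AlgebraicClosure ℚ) (f : Fin n → ↥(modularFunctionFieldFull N)),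
        (∀ i, a i ∈ A) → (∀ i, a i ∈ K) → (∀ i, f i ∈ C) →
        (∀ z ∈ gaussA A N, ∀ t : ℕ,
          ∑ i, algebraMap (AlgebraicClosure ℚ) ↥(modularFunctionFieldBar N) (a i) *
            iotaFull N (f i) =
            algebraMap (AlgebraicClosure ℚ) ↥(modularFunctionFieldBar N) ϖ ^ t * z →
          z ∈ chartA A N ℓ C) ∧
        (∀ h : ∑ i, algebraMap (AlgebraicClosure ℚ) ↥(modularFunctionFieldBar N) (a i) *
            iotaFull N (f i) ∈ gaussA A N,
          redA A N ⟨_, h⟩ = 0 → ∃ b ∈ chartA A N ℓ C,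
            ∑ i, algebraMap (AlgebraicClosure ℚ) ↥(modularFunctionFieldBar N) (a i) *
              iotaFull N (f i) =
              algebraMap (AlgebraicClosure ℚ) ↥(modularFunctionFieldBar N) ϖ * b) := by
  classical
  have hcharA : CharP (IsLocalRing.ResidueField ↥A) ℓ :=
    charP_residueField A (Fact.out : ℓ.Prime) hA
  have hDVR : IsDiscreteValuationRing ↥(lam A K) := isDiscreteValuationRing_lam K hA
  have hcharκ : CharP (IsLocalRing.ResidueField ↥(lam A K)) ℓ := charP_residueField_lam K hA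
  let algΛ : Algebra ↥(GaloisRep.ratLocalizedAt ℓ) ↥(lam A K) := (zlLam A ℓ hA K).toAlgebra
  let algκ : Algebra ↥(GaloisRep.ratLocalizedAt ℓ) (IsLocalRing.ResidueField ↥(lam A K)) :=
    ((IsLocalRing.residue ↥(lam A K)).comp (zlLam A ℓ hA K)).toAlgebra
  obtain ⟨ϖ, hϖ⟩ := IsDiscreteValuationRing.exists_irreducible ↥(lam A K)
  obtain ⟨ψ, hψinj, hψ⟩ := S28.Tensor.exists_injective_ringHom_tensor (redC hCV)
    (IsLocalRing.ResidueField ↥(lam A K)) (fun x hx => hker x hx)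
  have hφ : (lamResMap A K).comp (IsLocalRing.residue ↥(lam A K)) =
      (IsLocalRing.residue ↥A).comp (lamIncl A K) := rfl
  have hr : Function.Surjective (IsLocalRing.residue ↥(lam A K)) :=
    IsLocalRing.residue_surjective
  have hϖ0 : IsLocalRing.residue ↥(lam A K) ϖ = 0 := by
    rw [IsLocalRing.residue_eq_zero_iff, hϖ.maximalIdeal_eq]
    exact Ideal.mem_span_singleton_self ϖ
  have hϖdiv : ∀ x : ↥(lam A K), IsLocalRing.residue ↥(lam A K) x = 0 → ∃ y, x = ϖ * y := by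
    intro x hx
    rw [IsLocalRing.residue_eq_zero_iff, hϖ.maximalIdeal_eq, Ideal.mem_span_singleton'] at hx
    obtain ⟨y, hy⟩ := hx
    exact ⟨y, by rw [← hy, mul_comm]⟩
  have hϖne : (((ϖ : ↥(lam A K)) : K) : AlgebraicClosure ℚ) ≠ 0 := by
    intro h0
    apply hϖ.ne_zero
    apply Subtype.ext
    apply Subtype.ext
    exact h0
  have hjϖ : constHom (N := N) (lamIncl A K) ϖ ≠ 0 := by
    rw [constHom_apply, coe_lamIncl]
    exact (map_ne_zero _).mpr hϖne
  have hresA : IsLocalRing.residue ↥A (lamIncl A K ϖ) = 0 := by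
    rw [← RingHom.comp_apply, ← hφ, RingHom.comp_apply, hϖ0, map_zero]
  refine ⟨(((ϖ : ↥(lam A K)) : K) : AlgebraicClosure ℚ), hϖne,
    ⟨(lamIncl A K ϖ).2, (IsLocalRing.residue_eq_zero_iff _).mp hresA⟩, ?_, ?_⟩
  · intro c hcK hcA hc
    have hc' : (⟨⟨c, hcK⟩, mem_lam_iff.mpr hcA⟩ : ↥(lam A K)) ≠ 0 := by
      intro h0
      apply hc
      exact congrArg (fun x : ↥(lam A K) => ((x : K) : AlgebraicClosure ℚ)) h0
    obtain ⟨s, u, hu⟩ := IsDiscreteValuationRing.eq_unit_mul_pow_irreducible hc' hϖ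
    refine ⟨s, (((u : ↥(lam A K)) : K) : AlgebraicClosure ℚ), mem_lam_iff.mp (u : ↥(lam A K)).2,
      ?_, ?_⟩
    · have h1 : (((u : ↥(lam A K)) : K) : AlgebraicClosure ℚ) *
          ((((u⁻¹ : (↥(lam A K))ˣ) : ↥(lam A K)) : K) : AlgebraicClosure ℚ) = 1 := by
        have h2 : (u : ↥(lam A K)) * ((u⁻¹ : (↥(lam A K))ˣ) : ↥(lam A K)) = 1 := Units.mul_inv u
        exact congrArg (fun x : ↥(lam A K) => ((x : K) : AlgebraicClosure ℚ)) h2
      rw [inv_eq_of_mul_eq_one_right h1]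
      exact mem_lam_iff.mp ((u⁻¹ : (↥(lam A K))ˣ) : ↥(lam A K)).2
    · exact congrArg (fun x : ↥(lam A K) => ((x : K) : AlgebraicClosure ℚ)) hu
  · intro n a f haA haK hf
    set Y₀ : ↥C ⊗[↥(GaloisRep.ratLocalizedAt ℓ)] ↥(lam A K) :=
      ∑ i, (⟨f i, hf i⟩ : ↥C) ⊗ₜ[↥(GaloisRep.ratLocalizedAt ℓ)]
        (⟨⟨a i, haK i⟩, mem_lam_iff.mpr (haA i)⟩ : ↥(lam A K)) with hY₀def
    have hY₀ : evalHom (lamIncl A K) C Y₀ =
        ∑ i, algebraMap (AlgebraicClosure ℚ) ↥(modularFunctionFieldBar N) (a i) *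
          iotaFull N (f i) := by
      rw [hY₀def, map_sum]
      refine Finset.sum_congr rfl fun i _ => ?_
      rw [evalHom_tmul]
      rfl
    constructor
    · intro z hz t heq
      obtain ⟨Y', hY'⟩ := exists_evalHom_eq_of_pow_mul (lamIncl A K)
        (IsLocalRing.residue ↥(lam A K)) hCV hA (lamResMap A K) hφ ψ hψ hψinj ϖ hϖdiv hϖ0 hr
        hjϖ hz t Y₀ (hY₀.trans heq)
      rw [← hY']
      exact evalHom_mem_chartA _ C Y'
    · intro h hred
      obtain ⟨g, hg, hgred⟩ := exists_redA_evalHom (lamIncl A K)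
        (IsLocalRing.residue ↥(lam A K)) hCV hA (lamResMap A K) hφ ψ hψ Y₀
      have hg' : g = ⟨_, h⟩ := Subtype.ext (hg.trans hY₀)
      rw [hg', hred] at hgred
      obtain ⟨Y', hY'⟩ := exists_evalHom_eq_mul (lamIncl A K) (IsLocalRing.residue ↥(lam A K))
        ψ hψinj ϖ hϖdiv hϖ0 hr Y₀ (coeffMap_eq_zero_of_field _ hgred.symm)
      exact ⟨_, evalHom_mem_chartA _ C Y', hY₀.symm.trans hY'⟩

end NumberField

end ChartSat

/-! ### The saturation theorem and its corollaries -/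

section Main

variable {C : Subalgebra ↥(GaloisRep.ratLocalizedAt ℓ) ↥(modularFunctionFieldFull N)}

/-- **(SAT)**: the `A`-model `chartA A N ℓ C` is saturated in the Gauss ring: if `z ∈ gaussA`
and `c · z ∈ chartA` for a nonzero constant `c`, then `z ∈ chartA`. -/
theorem chartA_sat (hA : A.LiesOverPrime ℓ) (hCV : C ≤ S28.gaussV N ℓ)
    (hker : ∀ x : ↥C, S28.gaussRed N ℓ ⟨x, hCV x.2⟩ = 0 → ∃ y : ↥C, x = (ℓ : ↥C) * y)
    {z : ↥(modularFunctionFieldBar N)} (hz : z ∈ gaussA A N) {c : AlgebraicClosure ℚ}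
    (hc : c ≠ 0)
    (h : algebraMap (AlgebraicClosure ℚ) ↥(modularFunctionFieldBar N) c * z ∈ chartA A N ℓ C) :
    z ∈ chartA A N ℓ C := by
  by_cases hcinv : c⁻¹ ∈ A
  · have h1 : z = algebraMap (AlgebraicClosure ℚ) ↥(modularFunctionFieldBar N) c⁻¹ *
        (algebraMap (AlgebraicClosure ℚ) ↥(modularFunctionFieldBar N) c * z) := by
      rw [← mul_assoc, ← map_mul, inv_mul_cancel₀ hc, map_one, one_mul]
    rw [h1]
    exact Subring.mul_mem _ (algebraMap_mem_chartA hcinv) h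
  · have hcA : c ∈ A := (A.mem_or_inv_mem c).resolve_right hcinv
    obtain ⟨n, a, f, ha, hf, hsum⟩ := exists_sum_of_mem_chartA h
    obtain ⟨K, hK, hsK⟩ := S18.NumField.exists_finiteDimensional_intermediateField
      (insert c (Set.range a)) ((Set.finite_range a).insert c)
    obtain ⟨ϖ, -, -, hfac, hsumK⟩ := ChartSat.numField_descent hA hCV hker K
    obtain ⟨s, u, hu, hu', hcu⟩ := hfac c (hsK (Set.mem_insert _ _)) hcA hc
    have hu0 : u ≠ 0 := by
      rintro rfl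
      rw [zero_mul] at hcu
      exact hc hcu
    have hdesc := (hsumK n a f ha (fun i => hsK (Set.mem_insert_of_mem _ ⟨i, rfl⟩)) hf).1
    have hz' : algebraMap (AlgebraicClosure ℚ) ↥(modularFunctionFieldBar N) u * z ∈
        gaussA A N := Subring.mul_mem _ (algebraMap_mem_gaussA hu) hz
    have h1 := hdesc _ hz' s (by rw [← hsum, hcu, map_mul, map_pow]; ring)
    have h2 : z = algebraMap (AlgebraicClosure ℚ) ↥(modularFunctionFieldBar N) u⁻¹ *
        (algebraMap (AlgebraicClosure ℚ) ↥(modularFunctionFieldBar N) u * z) := by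
      rw [← mul_assoc, ← map_mul, inv_mul_cancel₀ hu0, map_one, one_mul]
    rw [h2]
    exact Subring.mul_mem _ (algebraMap_mem_chartA hu') h1

/-- For `a ∈ chartA`: the reduction of `a` vanishes iff `a ∈ 𝔪 · chartA`. -/
theorem redA_eq_zero_iff_inMaxMul (hA : A.LiesOverPrime ℓ) (hCV : C ≤ S28.gaussV N ℓ)
    (hker : ∀ x : ↥C, S28.gaussRed N ℓ ⟨x, hCV x.2⟩ = 0 → ∃ y : ↥C, x = (ℓ : ↥C) * y)
    {a : ↥(modularFunctionFieldBar N)} (ha : a ∈ chartA A N ℓ C) :
    redA A N ⟨a, chartA_le_gaussA hA hCV ha⟩ = 0 ↔ InMaxMul A (chartA A N ℓ C) a := by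
  constructor
  · intro hred
    obtain ⟨n, a', f, ha', hf, hsum⟩ := exists_sum_of_mem_chartA ha
    obtain ⟨K, hK, hsK⟩ := S18.NumField.exists_finiteDimensional_intermediateField
      (Set.range a') (Set.finite_range a')
    obtain ⟨ϖ, -, ⟨hϖA, hϖm⟩, -, hsumK⟩ := ChartSat.numField_descent hA hCV hker K
    have hdiv := (hsumK n a' f ha' (fun i => hsK ⟨i, rfl⟩) hf).2
    have hmem : ∑ i, algebraMap (AlgebraicClosure ℚ) ↥(modularFunctionFieldBar N) (a' i) *
        iotaFull N (f i) ∈ gaussA A N := hsum ▸ chartA_le_gaussA hA hCV ha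
    have hred' : redA A N ⟨_, hmem⟩ = 0 := by
      rw [← hred]
      congr 1
      exact Subtype.ext hsum.symm
    obtain ⟨b, hb, hab⟩ := hdiv hmem hred'
    exact ⟨⟨ϖ, hϖA⟩, hϖm, b, hb, hsum.trans hab⟩
  · rintro ⟨m, hm, b, hb, hab⟩
    have hbG : b ∈ gaussA A N := chartA_le_gaussA hA hCV hb
    have h1 : (⟨a, chartA_le_gaussA hA hCV ha⟩ : ↥(gaussA A N)) =
        ⟨algebraMap (AlgebraicClosure ℚ) ↥(modularFunctionFieldBar N) (m : AlgebraicClosure ℚ),
          algebraMap_mem_gaussA m.2⟩ * ⟨b, hbG⟩ := Subtype.ext hab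
    rw [h1, map_mul, redA_algebraMap m.2]
    have h2 : IsLocalRing.residue ↥A ⟨(m : AlgebraicClosure ℚ), m.2⟩ = 0 :=
      (IsLocalRing.residue_eq_zero_iff _).mpr hm
    rw [h2, map_zero, zero_mul]

/-- `chartA / a · chartA` is `A`-torsion-free for `a ∉ 𝔪 · chartA` (the field `sat` of
`IsChartModel`). -/
theorem chartA_torsionFree (hA : A.LiesOverPrime ℓ) (hCV : C ≤ S28.gaussV N ℓ)
    (hker : ∀ x : ↥C, S28.gaussRed N ℓ ⟨x, hCV x.2⟩ = 0 → ∃ y : ↥C, x = (ℓ : ↥C) * y) :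
    ∀ a ∈ chartA A N ℓ C, ¬ InMaxMul A (chartA A N ℓ C) a → ∀ m : A, m ≠ 0 →
      ∀ b ∈ chartA A N ℓ C,
        (∃ b' ∈ chartA A N ℓ C, a * b =
          algebraMap (AlgebraicClosure ℚ) ↥(modularFunctionFieldBar N) (m : AlgebraicClosure ℚ) *
            b') →
        ∃ b'' ∈ chartA A N ℓ C, b =
          algebraMap (AlgebraicClosure ℚ) ↥(modularFunctionFieldBar N) (m : AlgebraicClosure ℚ) *
            b'' := by
  rintro a ha hna m hm b hb ⟨b', hb', hab⟩
  have hred : redA A N ⟨a, chartA_le_gaussA hA hCV ha⟩ ≠ 0 := fun h0 =>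
    hna ((redA_eq_zero_iff_inMaxMul hA hCV hker ha).mp h0)
  have ha0 : a ≠ 0 := by
    rintro rfl
    exact hred (map_zero (redA A N))
  have hm0 : (m : AlgebraicClosure ℚ) ≠ 0 := fun h0 => hm (Subtype.ext h0)
  have hmF : algebraMap (AlgebraicClosure ℚ) ↥(modularFunctionFieldBar N)
      (m : AlgebraicClosure ℚ) ≠ 0 := (map_ne_zero _).mpr hm0
  have hainv : a⁻¹ ∈ gaussA A N := inv_mem_gaussA _ hred
  have hq : a⁻¹ * b' ∈ gaussA A N := Subring.mul_mem _ hainv (chartA_le_gaussA hA hCV hb')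
  have hb_eq : b = algebraMap (AlgebraicClosure ℚ) ↥(modularFunctionFieldBar N)
      (m : AlgebraicClosure ℚ) * (a⁻¹ * b') := by
    have h1 : b = a⁻¹ * (a * b) := by rw [← mul_assoc, inv_mul_cancel₀ ha0, one_mul]
    rw [h1, hab]
    ring
  refine ⟨a⁻¹ * b', chartA_sat hA hCV hker hq hm0 (hb_eq ▸ hb), hb_eq⟩

/-! ### The two charts -/

/-- `C_fin ⊂ gaussV`. -/
theorem chartAlgFin_le_gaussV : chartAlgFin N ℓ ≤ S28.gaussV N ℓ :=
  S28.chartAlg_le_gaussV N ℓ (S28.subset_gaussV_of_subset_pair N ℓ (sFin_subset N))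

/-- `C_inf ⊂ gaussV`. -/
theorem chartAlgInf_le_gaussV : chartAlgInf N ℓ ≤ S28.gaussV N ℓ :=
  S28.chartAlg_le_gaussV N ℓ (S28.subset_gaussV_of_subset_pair N ℓ (sInf_subset N))

theorem ChartSat.hker_fin (hℓN : ¬ ℓ ∣ N) (x : ↥(chartAlgFin N ℓ))
    (hx : S28.gaussRed N ℓ ⟨x, chartAlgFin_le_gaussV x.2⟩ = 0) :
    ∃ y : ↥(chartAlgFin N ℓ), x = (ℓ : ↥(chartAlgFin N ℓ)) * y := by
  have h1 : x ∈ RingHom.ker (S28.redChart N ℓ {jFull N} (sFin_subset N)) :=
    RingHom.mem_ker.mpr hx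
  rw [S28.ker_redChart_fin N ℓ hℓN, Ideal.mem_span_singleton'] at h1
  obtain ⟨y, hy⟩ := h1
  exact ⟨y, by rw [← hy, mul_comm]⟩

theorem ChartSat.hker_inf (hℓN : ¬ ℓ ∣ N) (x : ↥(chartAlgInf N ℓ))
    (hx : S28.gaussRed N ℓ ⟨x, chartAlgInf_le_gaussV x.2⟩ = 0) :
    ∃ y : ↥(chartAlgInf N ℓ), x = (ℓ : ↥(chartAlgInf N ℓ)) * y := by
  have h1 : x ∈ RingHom.ker (S28.redChart N ℓ {(jFull N)⁻¹} (sInf_subset N)) :=
    RingHom.mem_ker.mpr hx
  rw [S28.ker_redChart_inf N ℓ hℓN, Ideal.mem_span_singleton'] at h1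
  obtain ⟨y, hy⟩ := h1
  exact ⟨y, by rw [← hy, mul_comm]⟩

theorem chartA_fin_le_gaussA (hA : A.LiesOverPrime ℓ) :
    chartA A N ℓ (chartAlgFin N ℓ) ≤ gaussA A N :=
  chartA_le_gaussA hA chartAlgFin_le_gaussV

theorem chartA_inf_le_gaussA (hA : A.LiesOverPrime ℓ) :
    chartA A N ℓ (chartAlgInf N ℓ) ≤ gaussA A N :=
  chartA_le_gaussA hA chartAlgInf_le_gaussV

/-- (SAT) for the finite chart. -/
theorem chartA_fin_sat (hA : A.LiesOverPrime ℓ) (hℓN : ¬ ℓ ∣ N)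
    {z : ↥(modularFunctionFieldBar N)} (hz : z ∈ gaussA A N) {c : AlgebraicClosure ℚ}
    (hc : c ≠ 0)
    (h : algebraMap (AlgebraicClosure ℚ) ↥(modularFunctionFieldBar N) c * z ∈
      chartA A N ℓ (chartAlgFin N ℓ)) :
    z ∈ chartA A N ℓ (chartAlgFin N ℓ) :=
  chartA_sat hA chartAlgFin_le_gaussV (ChartSat.hker_fin hℓN) hz hc h

/-- (SAT) for the chart at infinity. -/
theorem chartA_inf_sat (hA : A.LiesOverPrime ℓ) (hℓN : ¬ ℓ ∣ N)
    {z : ↥(modularFunctionFieldBar N)} (hz : z ∈ gaussA A N) {c : AlgebraicClosure ℚ}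
    (hc : c ≠ 0)
    (h : algebraMap (AlgebraicClosure ℚ) ↥(modularFunctionFieldBar N) c * z ∈
      chartA A N ℓ (chartAlgInf N ℓ)) :
    z ∈ chartA A N ℓ (chartAlgInf N ℓ) :=
  chartA_sat hA chartAlgInf_le_gaussV (ChartSat.hker_inf hℓN) hz hc h

theorem redA_eq_zero_iff_inMaxMul_fin (hA : A.LiesOverPrime ℓ) (hℓN : ¬ ℓ ∣ N)
    {a : ↥(modularFunctionFieldBar N)} (ha : a ∈ chartA A N ℓ (chartAlgFin N ℓ)) :
    redA A N ⟨a, chartA_fin_le_gaussA hA ha⟩ = 0 ↔
      InMaxMul A (chartA A N ℓ (chartAlgFin N ℓ)) a :=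
  redA_eq_zero_iff_inMaxMul hA chartAlgFin_le_gaussV (ChartSat.hker_fin hℓN) ha

theorem redA_eq_zero_iff_inMaxMul_inf (hA : A.LiesOverPrime ℓ) (hℓN : ¬ ℓ ∣ N)
    {a : ↥(modularFunctionFieldBar N)} (ha : a ∈ chartA A N ℓ (chartAlgInf N ℓ)) :
    redA A N ⟨a, chartA_inf_le_gaussA hA ha⟩ = 0 ↔
      InMaxMul A (chartA A N ℓ (chartAlgInf N ℓ)) a :=
  redA_eq_zero_iff_inMaxMul hA chartAlgInf_le_gaussV (ChartSat.hker_inf hℓN) ha

end Main

end

end Fermat.Agent.S37
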