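import Fermat.Agent.S37.Eval
import Fermat.Agent.S18.SepK
import Fermat.Agent.S18.FkConst
import Fermat.Agent.S24.PlacesHOS
import Fermat.Agent.S24.PlacesSetup

/-!
P12 [DED]: places of `F_k = modularFunctionFieldFullC k N` for `k` algebraically closed with
`N ≠ 0` in `k` (any characteristic).

Abstract part (`K`, `F` fields, `y ∈ F` transcendental over `K`, `F / K(y)` finite separable):
* `DedK.isDedekindDomain` : the integral closure of `K[y]` in `F` is a Dedekind domain;
* `DedK.mem_of_isIntegral` : (a) elements integral over `K[y]` are regular at every place at which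
  `y` is regular (no separability needed);
* `DedK.exists_integral_frac` : (b) every `v ∈ O_Q` is a fraction `s₁ / s₂` of elements integral
  over `K[y]` with `Q.ord s₂ = 0`.

For `F_k` (`x̄ = j̄` or `x̄ = j̄⁻¹`):
* `DedK.isFF` : `F_k` is a function field in one variable, so that `ev (DedK.isFF k N hN) Q` of
  `S37/Eval.lean` is the evaluation `O_Q →+* k` (c);
* `DedK.isSeparable_jk`, `DedK.isSeparable_jk_inv` : separability of `F_k` over `k(j̄)`, `k(j̄⁻¹)`;
* `DedK.exists_frac_jk`, `DedK.exists_frac_jk_inv` : (b) for `F_k`;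
* `DedK.jk_mem_or` : (d).
-/

set_option autoImplicit false
set_option linter.unusedSectionVars false
set_option linter.style.haveILetI false

namespace Fermat.Agent.S37

open AlgebraicCurve IntermediateField IsDedekindDomain ModularCurve
open scoped IntermediateField.algebraAdjoinAdjoin

namespace DedK

section Abstract

variable {K F : Type*} [Field K] [Field F] [Algebra K F] {y : F}

/-- The integral closure of `K[y]` in `F` is a Dedekind domain, when `F / K(y)` is finite
separable (any characteristic). -/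
theorem isDedekindDomain [FiniteDimensional K⟮y⟯ F] [Algebra.IsSeparable K⟮y⟯ F]
    (hy : Transcendental K y) :
    IsDedekindDomain (integralClosure (Algebra.adjoin K {y}) F) := by
  have := S24.PlacesSetup.isPrincipalIdealRing hy
  exact integralClosure.isDedekindDomain (Algebra.adjoin K {y}) K⟮y⟯ F

/-- (a) An element integral over `K[y]` is regular at every place at which `y` is regular. -/
theorem mem_of_isIntegral (Q : Place K F) (hyQ : y ∈ Q.toValuationSubring) {z : F}
    (hz : IsIntegral (Algebra.adjoin K {y}) z) : z ∈ Q.toValuationSubring :=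
  S24.PlacesSetup.coe_mem_of_mem Q hyQ ⟨z, hz⟩

/-- (b) Every element of the valuation ring of a place `Q` at which `y` is regular is a fraction
`s₁ / s₂` of elements integral over `K[y]`, with `s₂` a unit at `Q`. -/
theorem exists_integral_frac [FiniteDimensional K⟮y⟯ F] [Algebra.IsSeparable K⟮y⟯ F]
    (hy : Transcendental K y) (Q : Place K F) (hyQ : y ∈ Q.toValuationSubring) {v : F}
    (hv : v ∈ Q.toValuationSubring) :
    ∃ s₁ s₂ : F, IsIntegral (Algebra.adjoin K {y}) s₁ ∧ IsIntegral (Algebra.adjoin K {y}) s₂ ∧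
      Q.ord s₂ = 0 ∧ v * s₂ = s₁ := by
  have := isDedekindDomain (F := F) hy
  have := S24.PlacesSetup.isFractionRing (K := K) (F := F) (y := y)
  obtain ⟨w, rfl⟩ := S24.PlacesHOS.exists_ofHeightOneSpectrum_eq
    (R := integralClosure (Algebra.adjoin K {y}) F) Q
    (fun b => S24.PlacesSetup.coe_mem_of_mem Q hyQ b)
  have hval : w.valuation F v ≤ 1 := hv
  obtain ⟨n, d, hnd⟩ := HeightOneSpectrum.exists_primeCompl_mul_eq_of_integer w v hval
  have hdw : (d : integralClosure (Algebra.adjoin K {y}) F) ∉ w.asIdeal := d.2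
  have hd0 : (d : integralClosure (Algebra.adjoin K {y}) F) ≠ 0 := by
    intro h0
    apply hdw
    rw [h0]
    exact w.asIdeal.zero_mem
  refine ⟨algebraMap (integralClosure (Algebra.adjoin K {y}) F) F n,
    algebraMap (integralClosure (Algebra.adjoin K {y}) F) F d, n.2, d.1.2, ?_, hnd⟩
  have h1 := S24.PlacesHOS.ord_algebraMap_nonneg (K := K) (F := F) w
    (d : integralClosure (Algebra.adjoin K {y}) F)
  have h2 := (S24.PlacesHOS.ord_algebraMap_pos_iff (K := K) (F := F) w hd0).not.mpr hdw
  omega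

end Abstract

section Fk

variable (k : Type*) [Field k] (N : ℕ) [NeZero N]

/-- (d) At every place of `F_k`, either `j̄` is regular or `j̄⁻¹` vanishes. -/
theorem jk_mem_or (Q : Place k ↥(modularFunctionFieldFullC k N)) :
    S18.FkConst.jk k N ∈ Q.toValuationSubring ∨
      ((S18.FkConst.jk k N)⁻¹ ∈ Q.toValuationSubring ∧ 0 < Q.ord (S18.FkConst.jk k N)⁻¹) := by
  by_cases h : S18.FkConst.jk k N ∈ Q.toValuationSubring
  · exact Or.inl h
  · right
    have h0 : S18.FkConst.jk k N ≠ 0 := fun h0 => h (h0 ▸ zero_mem _)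
    have hpos : 0 < Q.ord (S18.FkConst.jk k N)⁻¹ := by
      rw [S24.PlacesBasic.ord_pos_iff_inv_not_mem Q (inv_ne_zero h0), inv_inv]
      exact h
    exact ⟨(S24.PlacesBasic.mem_iff_ord_nonneg Q (inv_ne_zero h0)).mpr hpos.le, hpos⟩

/-- separability over an intermediate field of a subfield can be checked in the ambient field -/
theorem isSeparable_of_lift {K Ω : Type*} [Field K] [Field Ω] [Algebra K Ω]
    (F : IntermediateField K Ω) (E : IntermediateField K F) (E' : IntermediateField K Ω)
    (hE : IntermediateField.lift E = E') (x : F) (h : IsSeparable E' (x : Ω)) :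
    IsSeparable E x := by
  subst hE
  let e : ↥E ≃ₐ[K] ↥(IntermediateField.lift E) := IntermediateField.liftAlgEquiv E
  have hsep : ((minpoly ↥(IntermediateField.lift E) (x : Ω)).map
      (e.symm : ↥(IntermediateField.lift E) →+* ↥E)).Separable :=
    Polynomial.Separable.map h
  have hroot : Polynomial.aeval x ((minpoly ↥(IntermediateField.lift E) (x : Ω)).map
      (e.symm : ↥(IntermediateField.lift E) →+* ↥E)) = 0 := by
    apply Subtype.val_injective
    rw [ZeroMemClass.coe_zero, ← minpoly.aeval ↥(IntermediateField.lift E) (x : Ω),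
      Polynomial.aeval_def, Polynomial.aeval_def, Polynomial.eval₂_map]
    have h1 : ((Polynomial.eval₂ ((algebraMap ↥E ↥F).comp
        (e.symm : ↥(IntermediateField.lift E) →+* ↥E)) x
          (minpoly ↥(IntermediateField.lift E) (x : Ω)) : ↥F) : Ω) =
        Polynomial.eval₂ (F.val.toRingHom.comp ((algebraMap ↥E ↥F).comp
          (e.symm : ↥(IntermediateField.lift E) →+* ↥E))) (F.val x)
          (minpoly ↥(IntermediateField.lift E) (x : Ω)) :=
      Polynomial.hom_eval₂ _ _ F.val.toRingHom x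
    rw [h1]
    congr 1
  exact hsep.of_dvd (minpoly.dvd ↥E x hroot)

/-- `F_k` is separable over `k(j̄)` when `N ≠ 0` in `k`. -/
theorem isSeparable_jk (hN : (N : k) ≠ 0) :
    Algebra.IsSeparable k⟮S18.FkConst.jk k N⟯ ↥(modularFunctionFieldFullC k N) := by
  refine ⟨fun x => ?_⟩
  refine isSeparable_of_lift (modularFunctionFieldFullC k N) k⟮S18.FkConst.jk k N⟯
    (Fermat.Agent.S28.Kj k) (IntermediateField.lift_adjoin_simple k _ _) x ?_
  exact S18.SepK.isSeparable_full k N hN x.1 x.2

/-- `F_k` is separable over `k(j̄⁻¹)` when `N ≠ 0` in `k`. -/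
theorem isSeparable_jk_inv (hN : (N : k) ≠ 0) :
    Algebra.IsSeparable k⟮(S18.FkConst.jk k N)⁻¹⟯ ↥(modularFunctionFieldFullC k N) := by
  rw [S24.PlacesDeg.adjoin_inv]
  exact isSeparable_jk k N hN

variable [IsAlgClosed k]

/-- `F_k` is a function field in one variable over `k`. -/
theorem isFF (hN : (N : k) ≠ 0) : IsFF k ↥(modularFunctionFieldFullC k N) :=
  ⟨S18.FkConst.jk k N, S18.FkConst.transcendental_jk k N, S18.FkConst.finiteDimensional_jk k N hN⟩

/-- (b) for `x̄ = j̄`. -/
theorem exists_frac_jk (hN : (N : k) ≠ 0) (Q : Place k ↥(modularFunctionFieldFullC k N))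
    (hjQ : S18.FkConst.jk k N ∈ Q.toValuationSubring) {v : ↥(modularFunctionFieldFullC k N)}
    (hv : v ∈ Q.toValuationSubring) :
    ∃ s₁ s₂ : ↥(modularFunctionFieldFullC k N),
      IsIntegral (Algebra.adjoin k {S18.FkConst.jk k N}) s₁ ∧
      IsIntegral (Algebra.adjoin k {S18.FkConst.jk k N}) s₂ ∧ Q.ord s₂ = 0 ∧ v * s₂ = s₁ := by
  have := S18.FkConst.finiteDimensional_jk k N hN
  have := isSeparable_jk k N hN
  exact exists_integral_frac (S18.FkConst.transcendental_jk k N) Q hjQ hv

/-- (b) for `x̄ = j̄⁻¹`. -/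
theorem exists_frac_jk_inv (hN : (N : k) ≠ 0) (Q : Place k ↥(modularFunctionFieldFullC k N))
    (hjQ : (S18.FkConst.jk k N)⁻¹ ∈ Q.toValuationSubring)
    {v : ↥(modularFunctionFieldFullC k N)} (hv : v ∈ Q.toValuationSubring) :
    ∃ s₁ s₂ : ↥(modularFunctionFieldFullC k N),
      IsIntegral (Algebra.adjoin k {(S18.FkConst.jk k N)⁻¹}) s₁ ∧
      IsIntegral (Algebra.adjoin k {(S18.FkConst.jk k N)⁻¹}) s₂ ∧ Q.ord s₂ = 0 ∧ v * s₂ = s₁ := by
  have hinv := S24.PlacesDeg.transcendental_inv (S18.FkConst.transcendental_jk k N)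
  have := S18.FkConst.finiteDimensional_adjoin_of_transcendental k N hN _ hinv
  have := isSeparable_jk_inv k N hN
  exact exists_integral_frac hinv Q hjQ hv

/-- (b) for both charts at once: `x̄ = j̄` or `x̄ = j̄⁻¹`. -/
theorem exists_frac (hN : (N : k) ≠ 0) (Q : Place k ↥(modularFunctionFieldFullC k N))
    {x : ↥(modularFunctionFieldFullC k N)}
    (hx : x = S18.FkConst.jk k N ∨ x = (S18.FkConst.jk k N)⁻¹)
    (hxQ : x ∈ Q.toValuationSubring) {v : ↥(modularFunctionFieldFullC k N)}
    (hv : v ∈ Q.toValuationSubring) :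
    ∃ s₁ s₂ : ↥(modularFunctionFieldFullC k N),
      IsIntegral (Algebra.adjoin k {x}) s₁ ∧ IsIntegral (Algebra.adjoin k {x}) s₂ ∧
        Q.ord s₂ = 0 ∧ v * s₂ = s₁ := by
  rcases hx with rfl | rfl
  · exact exists_frac_jk k N hN Q hxQ hv
  · exact exists_frac_jk_inv k N hN Q hxQ hv

/-- (c) The evaluation `ev (isFF k N hN) Q : O_Q →+* k` of `S37/Eval.lean` is the identity on
constants and its kernel is the maximal ideal of `O_Q`; for `x ≠ 0` it vanishes iff
`0 < Q.ord x`. -/
theorem ev_spec (hN : (N : k) ≠ 0) (Q : Place k ↥(modularFunctionFieldFullC k N)) :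
    (∀ a : k, ev (isFF k N hN) Q (algebraMap k Q.toValuationSubring a) = a) ∧
    (∀ x : Q.toValuationSubring, ev (isFF k N hN) Q x = 0 ↔
      x ∈ IsLocalRing.maximalIdeal Q.toValuationSubring) ∧
    (∀ x : Q.toValuationSubring, x ≠ 0 →
      (ev (isFF k N hN) Q x = 0 ↔ 0 < Q.ord (x : ↥(modularFunctionFieldFullC k N)))) :=
  ⟨fun a => ev_algebraMap _ Q a, fun x => ev_eq_zero_iff _ Q x,
    fun _ hx => ev_eq_zero_iff_ord_pos _ Q hx⟩

end Fk

end DedK

end Fermat.Agent.S37
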