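import Fermat.Agent.S37.GaussADesc
import Fermat.Agent.S37.ChartSat
import Fermat.Agent.S18.FkConst
import Fermat.Agent.S37.RedPtExtra
import Fermat.Agent.S37.DedK

/-!
P12 / S37, module [TORI], `Q`-side package (1/2): the reduction map `redSub : 𝔅 →+* F_k` on a
subring `𝔅 ≤ gaussA A N`, and integrality of the reductions of the two chart models over `k[j̄]`,
`k[j̄⁻¹]` (consumers: `S37/TorsionQPsi.lean`, `S37/TorsionInst.lean`).

* `redSub`, `coe_redSub`, `redSub_algebraMap`, `redSub_jBar`, `redSub_jBar_inv`;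
* `isIntegral_redSub_fin`, `isIntegral_redSub_inf`;
* `exists_integral_frac_ne`, `exists_frac_ne_jk`, `exists_frac_ne_jk_inv` : (DED) with a nonzero
  denominator.
-/

set_option autoImplicit false
set_option linter.unusedSectionVars false

noncomputable section

namespace Fermat.Agent.S37

namespace TorsionQ

open AlgebraicCurve ModularCurve ModularCurve.IgusaScheme Fermat.Agent.S18

/-! ### (DED) with a nonzero denominator -/

section Abstract

open IntermediateField IsDedekindDomain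
open scoped IntermediateField.algebraAdjoinAdjoin

variable {K F : Type*} [Field K] [Field F] [Algebra K F] {y : F}

/-- (b) of `DedK` with `s₂ ≠ 0`. -/
theorem exists_integral_frac_ne [FiniteDimensional K⟮y⟯ F] [Algebra.IsSeparable K⟮y⟯ F]
    (hy : Transcendental K y) (Q : Place K F) (hyQ : y ∈ Q.toValuationSubring) {v : F}
    (hv : v ∈ Q.toValuationSubring) :
    ∃ s₁ s₂ : F, IsIntegral (Algebra.adjoin K {y}) s₁ ∧ IsIntegral (Algebra.adjoin K {y}) s₂ ∧
      s₂ ≠ 0 ∧ Q.ord s₂ = 0 ∧ v * s₂ = s₁ := by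
  have := DedK.isDedekindDomain (F := F) hy
  have := S24.PlacesSetup.isFractionRing (K := K) (F := F) (y := y)
  obtain ⟨w, rfl⟩ := S24.PlacesHOS.exists_ofHeightOneSpectrum_eq
    (R := integralClosure (Algebra.adjoin K {y}) F) Q
    (fun b => S24.PlacesSetup.coe_mem_of_mem Q hyQ b)
  have hval : w.valuation F v ≤ 1 := hv
  obtain ⟨n, d, hnd⟩ := HeightOneSpectrum.exists_primeCompl_mul_eq_of_integer w v hval
  have hdw : (d : integralClosure (Algebra.adjoin K {y}) F) ∉ w.asIdeal := d.2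
  have hd0 : (d : integralClosure (Algebra.adjoin K {y}) F) ≠ 0 := by
    intro h0
    apply hdw
    rw [h0]
    exact w.asIdeal.zero_mem
  refine ⟨algebraMap (integralClosure (Algebra.adjoin K {y}) F) F n,
    algebraMap (integralClosure (Algebra.adjoin K {y}) F) F d, n.2, d.1.2, ?_, ?_, hnd⟩
  · intro h0
    exact hd0 (Subtype.ext h0)
  · have h1 := S24.PlacesHOS.ord_algebraMap_nonneg (K := K) (F := F) w
      (d : integralClosure (Algebra.adjoin K {y}) F)
    have h2 := (S24.PlacesHOS.ord_algebraMap_pos_iff (K := K) (F := F) w hd0).not.mpr hdw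
    omega

end Abstract

section Fk

open IntermediateField

variable (k : Type*) [Field k] (N : ℕ) [NeZero N] [IsAlgClosed k]

/-- (DED) for `F_k` and `x̄ = j̄`, in the shape consumed by `TorsionAbs`. -/
theorem exists_frac_ne_jk (hN : (N : k) ≠ 0) (Q : Place k ↥(modularFunctionFieldFullC k N))
    (hjQ : S18.FkConst.jk k N ∈ Q.toValuationSubring)
    (v : ↥(modularFunctionFieldFullC k N)) (hv0 : v ≠ 0) (hv : 0 ≤ Q.ord v) :
    ∃ s₁ s₂ : ↥(modularFunctionFieldFullC k N),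
      IsIntegral (Algebra.adjoin k {S18.FkConst.jk k N}) s₁ ∧
      IsIntegral (Algebra.adjoin k {S18.FkConst.jk k N}) s₂ ∧ s₂ ≠ 0 ∧ Q.ord s₂ = 0 ∧
        v * s₂ = s₁ := by
  have := S18.FkConst.finiteDimensional_jk k N hN
  have := DedK.isSeparable_jk k N hN
  exact exists_integral_frac_ne (S18.FkConst.transcendental_jk k N) Q hjQ
    ((S24.PlacesBasic.mem_iff_ord_nonneg Q hv0).mpr hv)

/-- (DED) for `F_k` and `x̄ = j̄⁻¹`. -/
theorem exists_frac_ne_jk_inv (hN : (N : k) ≠ 0) (Q : Place k ↥(modularFunctionFieldFullC k N))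
    (hjQ : (S18.FkConst.jk k N)⁻¹ ∈ Q.toValuationSubring)
    (v : ↥(modularFunctionFieldFullC k N)) (hv0 : v ≠ 0) (hv : 0 ≤ Q.ord v) :
    ∃ s₁ s₂ : ↥(modularFunctionFieldFullC k N),
      IsIntegral (Algebra.adjoin k {(S18.FkConst.jk k N)⁻¹}) s₁ ∧
      IsIntegral (Algebra.adjoin k {(S18.FkConst.jk k N)⁻¹}) s₂ ∧ s₂ ≠ 0 ∧ Q.ord s₂ = 0 ∧
        v * s₂ = s₁ := by
  have hinv := S24.PlacesDeg.transcendental_inv (S18.FkConst.transcendental_jk k N)
  have := S18.FkConst.finiteDimensional_adjoin_of_transcendental k N hN _ hinv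
  have := DedK.isSeparable_jk_inv k N hN
  exact exists_integral_frac_ne hinv Q hjQ ((S24.PlacesBasic.mem_iff_ord_nonneg Q hv0).mpr hv)

end Fk

/-! ### The chart model lies in the Gauss ring -/

section Gauss

variable {N : ℕ} [NeZero N] {ℓ : ℕ} [Fact ℓ.Prime] {A : ValuationSubring (AlgebraicClosure ℚ)}

theorem iotaFull_mem_gaussA_of_mem_adjoin (hA : A.LiesOverPrime ℓ)
    {S : Set (modularFunctionFieldFull N)} (hS : ∀ s ∈ S, iotaFull N s ∈ gaussA A N)
    {y : modularFunctionFieldFull N} (hy : y ∈ Algebra.adjoin (GaloisRep.ratLocalizedAt ℓ) S) :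
    iotaFull N y ∈ gaussA A N := by
  induction hy using Algebra.adjoin_induction with
  | mem y hy => exact hS y hy
  | algebraMap c =>
    have h1 : algebraMap (GaloisRep.ratLocalizedAt ℓ) (modularFunctionFieldFull N) c =
        algebraMap ℚ (modularFunctionFieldFull N) (c : ℚ) := rfl
    rw [h1, iotaFull_algebraMap]
    exact algebraMap_mem_gaussA (algebraMap_ratLocalizedAt_mem A hA c)
  | add y z _ _ hy hz =>
    rw [map_add]
    exact add_mem hy hz
  | mul y z _ _ hy hz =>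
    rw [map_mul]
    exact mul_mem hy hz

theorem iotaFull_mem_gaussA_of_mem_chartAlg (hA : A.LiesOverPrime ℓ)
    {S : Set (modularFunctionFieldFull N)} (hS : ∀ s ∈ S, iotaFull N s ∈ gaussA A N)
    {x : modularFunctionFieldFull N} (hx : x ∈ chartAlg N ℓ S) :
    iotaFull N x ∈ gaussA A N := by
  have hint : IsIntegral (Algebra.adjoin (GaloisRep.ratLocalizedAt ℓ) S) x := hx
  let φ : Algebra.adjoin (GaloisRep.ratLocalizedAt ℓ) S →+* gaussA A N :=
    RingHom.codRestrict ((iotaFull N).comp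
      (algebraMap (Algebra.adjoin (GaloisRep.ratLocalizedAt ℓ) S) (modularFunctionFieldFull N)))
      (gaussA A N) (fun y => iotaFull_mem_gaussA_of_mem_adjoin hA hS y.2)
  have h2 : IsIntegral (gaussA A N) (iotaFull N x) :=
    hint.map_of_comp_eq φ (iotaFull N) (by ext y; rfl)
  exact mem_gaussA_of_isIntegral hA h2

/-- The `A`-model of a chart lies in the Gauss ring as soon as its generators do. -/
theorem chartA_le_gaussA_of_gens (hA : A.LiesOverPrime ℓ)
    {S : Set (modularFunctionFieldFull N)} (hS : ∀ s ∈ S, iotaFull N s ∈ gaussA A N) :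
    chartA A N ℓ (chartAlg N ℓ S) ≤ gaussA A N :=
  chartA_le (fun _ ha => algebraMap_mem_gaussA ha)
    (fun _ hf => iotaFull_mem_gaussA_of_mem_chartAlg hA hS hf)

theorem iotaFull_jFull_mem_gaussA : iotaFull N (jFull N) ∈ gaussA A N :=
  jL_mem_gaussA (A := A) (N := N)

theorem iotaFull_jFull_inv_mem_gaussA : iotaFull N (jFull N)⁻¹ ∈ gaussA A N := by
  rw [map_inv₀]
  exact jL_inv_mem_gaussA (A := A) (N := N)

theorem gens_fin_mem_gaussA :
    ∀ s ∈ ({jFull N} : Set (modularFunctionFieldFull N)), iotaFull N s ∈ gaussA A N := by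
  intro s hs
  rw [Set.mem_singleton_iff] at hs
  rw [hs]
  exact iotaFull_jFull_mem_gaussA

theorem gens_inf_mem_gaussA :
    ∀ s ∈ ({(jFull N)⁻¹} : Set (modularFunctionFieldFull N)), iotaFull N s ∈ gaussA A N := by
  intro s hs
  rw [Set.mem_singleton_iff] at hs
  rw [hs]
  exact iotaFull_jFull_inv_mem_gaussA

end Gauss

/-! ### Reduction to `F_k` -/

section Red

variable {N : ℕ} [NeZero N] {ℓ : ℕ} [Fact ℓ.Prime] {A : ValuationSubring (AlgebraicClosure ℚ)}

/-- The reduction `gaussA → F_k` (for `ℓ ∤ N`). -/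
def redFk (hA : A.LiesOverPrime ℓ) (hℓN : ¬ ℓ ∣ N) :
    ↥(gaussA A N) →+* ↥(modularFunctionFieldFullC (IsLocalRing.ResidueField A) N) :=
  (redA A N).codRestrict (modularFunctionFieldFullC (IsLocalRing.ResidueField A) N)
    (redA_mem_full hA hℓN)

@[simp]
theorem coe_redFk (hA : A.LiesOverPrime ℓ) (hℓN : ¬ ℓ ∣ N) (z : ↥(gaussA A N)) :
    ((redFk hA hℓN z : ↥(modularFunctionFieldFullC (IsLocalRing.ResidueField A) N)) :
      LaurentSeries (IsLocalRing.ResidueField A)) = redA A N z :=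
  rfl

theorem redFk_congr (hA : A.LiesOverPrime ℓ) (hℓN : ¬ ℓ ∣ N)
    {z z' : ↥(modularFunctionFieldBar N)} (h : z = z') (hz : z ∈ gaussA A N)
    (hz' : z' ∈ gaussA A N) : redFk hA hℓN ⟨z, hz⟩ = redFk hA hℓN ⟨z', hz'⟩ := by
  subst h
  rfl

theorem redFk_algebraMap (hA : A.LiesOverPrime ℓ) (hℓN : ¬ ℓ ∣ N) {a : AlgebraicClosure ℚ}
    (ha : a ∈ A) :
    redFk hA hℓN ⟨algebraMap (AlgebraicClosure ℚ) ↥(modularFunctionFieldBar N) a,
        algebraMap_mem_gaussA ha⟩
      = algebraMap (IsLocalRing.ResidueField A)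
          ↥(modularFunctionFieldFullC (IsLocalRing.ResidueField A) N)
          (IsLocalRing.residue A ⟨a, ha⟩) := by
  apply Subtype.ext
  rw [coe_redFk, redA_algebraMap ha]
  exact (algebraMap_laurentSeries_eq_single _ _).symm

theorem redFk_toF (hA : A.LiesOverPrime ℓ) (hℓN : ¬ ℓ ∣ N)
    (Y : StepA.liftRing A (IsLocalRing.residue A) N) :
    redFk hA hℓN ⟨StepA.toF A (IsLocalRing.residue A) N Y, toF_mem_gaussA Y⟩
      = StepA.toFk A (IsLocalRing.residue A) N Y :=
  Subtype.ext (redA_toF Y)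

theorem redFk_iotaFull_jFull (hA : A.LiesOverPrime ℓ) (hℓN : ¬ ℓ ∣ N) :
    redFk hA hℓN ⟨iotaFull N (jFull N), iotaFull_jFull_mem_gaussA⟩
      = S18.FkConst.jk (IsLocalRing.ResidueField A) N :=
  Subtype.ext (redA_jL (A := A) (N := N))

theorem redFk_iotaFull_jFull_inv (hA : A.LiesOverPrime ℓ) (hℓN : ¬ ℓ ∣ N) :
    redFk hA hℓN ⟨iotaFull N (jFull N)⁻¹, iotaFull_jFull_inv_mem_gaussA⟩
      = (S18.FkConst.jk (IsLocalRing.ResidueField A) N)⁻¹ := by
  have h1 : (⟨iotaFull N (jFull N)⁻¹, iotaFull_jFull_inv_mem_gaussA⟩ : ↥(gaussA A N))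
      * ⟨iotaFull N (jFull N), iotaFull_jFull_mem_gaussA⟩ = 1 := by
    apply Subtype.ext
    show iotaFull N (jFull N)⁻¹ * iotaFull N (jFull N) = 1
    rw [← map_mul, inv_mul_cancel₀ (jFull_ne_zero N), map_one]
  have h2 := congrArg (redFk hA hℓN) h1
  rw [map_mul, map_one, redFk_iotaFull_jFull] at h2
  exact eq_inv_of_mul_eq_one_left h2

/-- The reduction of the chart model. -/
def redChart (hA : A.LiesOverPrime ℓ) (hℓN : ¬ ℓ ∣ N)
    {S : Set (modularFunctionFieldFull N)} (hS : ∀ s ∈ S, iotaFull N s ∈ gaussA A N) :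
    ↥(chartA A N ℓ (chartAlg N ℓ S)) →+*
      ↥(modularFunctionFieldFullC (IsLocalRing.ResidueField A) N) :=
  (redFk hA hℓN).comp (Subring.inclusion (chartA_le_gaussA_of_gens hA hS))

theorem redChart_apply (hA : A.LiesOverPrime ℓ) (hℓN : ¬ ℓ ∣ N)
    {S : Set (modularFunctionFieldFull N)} (hS : ∀ s ∈ S, iotaFull N s ∈ gaussA A N)
    (b : ↥(chartA A N ℓ (chartAlg N ℓ S))) :
    redChart hA hℓN hS b = redFk hA hℓN ⟨(b : ↥(modularFunctionFieldBar N)),
      chartA_le_gaussA_of_gens hA hS b.2⟩ :=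
  rfl

theorem coe_redChart (hA : A.LiesOverPrime ℓ) (hℓN : ¬ ℓ ∣ N)
    {S : Set (modularFunctionFieldFull N)} (hS : ∀ s ∈ S, iotaFull N s ∈ gaussA A N)
    (b : ↥(chartA A N ℓ (chartAlg N ℓ S))) :
    ((redChart hA hℓN hS b : ↥(modularFunctionFieldFullC (IsLocalRing.ResidueField A) N)) :
      LaurentSeries (IsLocalRing.ResidueField A))
      = redA A N ⟨(b : ↥(modularFunctionFieldBar N)), chartA_le_gaussA_of_gens hA hS b.2⟩ :=
  rfl

theorem redChart_algebraMap (hA : A.LiesOverPrime ℓ) (hℓN : ¬ ℓ ∣ N)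
    {S : Set (modularFunctionFieldFull N)} (hS : ∀ s ∈ S, iotaFull N s ∈ gaussA A N)
    {a : AlgebraicClosure ℚ} (ha : a ∈ A) :
    redChart hA hℓN hS ⟨algebraMap (AlgebraicClosure ℚ) ↥(modularFunctionFieldBar N) a,
        algebraMap_mem_chartA ha⟩
      = algebraMap (IsLocalRing.ResidueField A)
          ↥(modularFunctionFieldFullC (IsLocalRing.ResidueField A) N)
          (IsLocalRing.residue A ⟨a, ha⟩) :=
  redFk_algebraMap hA hℓN ha

/-- Reductions of `ι f`, `f` in the chart algebra, are integral over any subalgebra of `F_k`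
containing the reductions of the generators. -/
theorem isIntegral_redFk_iotaFull (hA : A.LiesOverPrime ℓ) (hℓN : ¬ ℓ ∣ N)
    {S : Set (modularFunctionFieldFull N)} (hS : ∀ s ∈ S, iotaFull N s ∈ gaussA A N)
    (R : Subalgebra (IsLocalRing.ResidueField A)
      ↥(modularFunctionFieldFullC (IsLocalRing.ResidueField A) N))
    (hR : ∀ s (hs : s ∈ S), redFk hA hℓN ⟨iotaFull N s, hS s hs⟩ ∈ R)
    {x : modularFunctionFieldFull N} (hx : x ∈ chartAlg N ℓ S) :
    IsIntegral R (redFk hA hℓN ⟨iotaFull N x, iotaFull_mem_gaussA_of_mem_chartAlg hA hS hx⟩) := by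
  -- the subring of `F_ℚ` on which `red ∘ ι` is defined
  obtain ⟨T, hT⟩ : ∃ T : Subring ↥(modularFunctionFieldFull N),
      T = (gaussA A N).comap (iotaFull N) := ⟨_, rfl⟩
  have hmemT : ∀ y : ↥(modularFunctionFieldFull N), y ∈ T ↔ iotaFull N y ∈ gaussA A N := by
    intro y
    rw [hT]
    rfl
  let ρ : ↥T →+* ↥(modularFunctionFieldFullC (IsLocalRing.ResidueField A) N) :=
    (redFk hA hℓN).comp ((iotaFull N).restrict T (gaussA A N) (fun y hy => (hmemT y).1 hy))
  have hadj : ∀ y ∈ Algebra.adjoin (GaloisRep.ratLocalizedAt ℓ) S, y ∈ T :=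
    fun y hy => (hmemT y).2 (iotaFull_mem_gaussA_of_mem_adjoin hA hS hy)
  have hρadj : ∀ y (hy : y ∈ Algebra.adjoin (GaloisRep.ratLocalizedAt ℓ) S),
      ρ ⟨y, hadj y hy⟩ ∈ R := by
    intro y hy
    induction hy using Algebra.adjoin_induction with
    | mem y hy => exact hR y hy
    | algebraMap c =>
      have h1 : algebraMap (GaloisRep.ratLocalizedAt ℓ) (modularFunctionFieldFull N) c =
          algebraMap ℚ (modularFunctionFieldFull N) (c : ℚ) := rfl
      have h2 : iotaFull N (algebraMap (GaloisRep.ratLocalizedAt ℓ)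
          (modularFunctionFieldFull N) c) = algebraMap (AlgebraicClosure ℚ)
          ↥(modularFunctionFieldBar N) (algebraMap ℚ (AlgebraicClosure ℚ) (c : ℚ)) := by
        rw [h1, iotaFull_algebraMap]
      have h3 : ρ ⟨algebraMap (GaloisRep.ratLocalizedAt ℓ) (modularFunctionFieldFull N) c,
          hadj _ (Subalgebra.algebraMap_mem _ c)⟩
          = redFk hA hℓN ⟨_, algebraMap_mem_gaussA (algebraMap_ratLocalizedAt_mem A hA c)⟩ :=
        redFk_congr hA hℓN h2 _ _
      rw [h3, redFk_algebraMap hA hℓN (algebraMap_ratLocalizedAt_mem A hA c)]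
      exact R.algebraMap_mem _
    | add y z hy hz ihy ihz =>
      have e : (⟨y + z, hadj _ (add_mem hy hz)⟩ : ↥T) = ⟨y, hadj y hy⟩ + ⟨z, hadj z hz⟩ := rfl
      rw [e, map_add]
      exact R.add_mem ihy ihz
    | mul y z hy hz ihy ihz =>
      have e : (⟨y * z, hadj _ (mul_mem hy hz)⟩ : ↥T) = ⟨y, hadj y hy⟩ * ⟨z, hadj z hz⟩ := rfl
      rw [e, map_mul]
      exact R.mul_mem ihy ihz
  have hint : IsIntegral (Algebra.adjoin (GaloisRep.ratLocalizedAt ℓ) S) x := hx
  let incl : Algebra.adjoin (GaloisRep.ratLocalizedAt ℓ) S →+* ↥T :=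
    RingHom.codRestrict
      (algebraMap (Algebra.adjoin (GaloisRep.ratLocalizedAt ℓ) S) (modularFunctionFieldFull N))
      T (fun y => hadj y y.2)
  let _ : Algebra (Algebra.adjoin (GaloisRep.ratLocalizedAt ℓ) S) ↥T := incl.toAlgebra
  have hxT : x ∈ T := (hmemT x).2 (iotaFull_mem_gaussA_of_mem_chartAlg hA hS hx)
  have hintT : IsIntegral (Algebra.adjoin (GaloisRep.ratLocalizedAt ℓ) S) (⟨x, hxT⟩ : ↥T) := by
    obtain ⟨p, hpm, hp⟩ := hint
    refine ⟨p, hpm, ?_⟩
    apply Subtype.val_injective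
    have h1 := Polynomial.hom_eval₂ p incl T.subtype (⟨x, hxT⟩ : ↥T)
    exact h1.trans hp
  let φ : Algebra.adjoin (GaloisRep.ratLocalizedAt ℓ) S →+* ↥R :=
    RingHom.codRestrict (ρ.comp incl) R (fun y => hρadj y y.2)
  exact hintT.map_of_comp_eq φ ρ (RingHom.ext fun y => rfl)

/-- Reductions of elements of the chart model are integral over any subalgebra of `F_k`
containing the reductions of the generators of the chart. -/
theorem isIntegral_redChart (hA : A.LiesOverPrime ℓ) (hℓN : ¬ ℓ ∣ N)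
    {S : Set (modularFunctionFieldFull N)} (hS : ∀ s ∈ S, iotaFull N s ∈ gaussA A N)
    (R : Subalgebra (IsLocalRing.ResidueField A)
      ↥(modularFunctionFieldFullC (IsLocalRing.ResidueField A) N))
    (hR : ∀ s (hs : s ∈ S), redFk hA hℓN ⟨iotaFull N s, hS s hs⟩ ∈ R)
    (b : ↥(chartA A N ℓ (chartAlg N ℓ S))) : IsIntegral R (redChart hA hℓN hS b) := by
  obtain ⟨W, hW⟩ : ∃ W : Subring ↥(modularFunctionFieldBar N),
      W = (((integralClosure R
        ↥(modularFunctionFieldFullC (IsLocalRing.ResidueField A) N)).toSubring).comap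
          (redFk hA hℓN)).map (gaussA A N).subtype := ⟨_, rfl⟩
  have hle : chartA A N ℓ (chartAlg N ℓ S) ≤ W := by
    rw [hW]
    refine chartA_le (fun a ha => ?_) (fun f hf => ?_)
    · refine ⟨⟨_, algebraMap_mem_gaussA ha⟩, ?_, rfl⟩
      show IsIntegral R (redFk hA hℓN ⟨_, algebraMap_mem_gaussA ha⟩)
      rw [redFk_algebraMap hA hℓN ha]
      exact isIntegral_algebraMap (R := ↥R)
        (A := ↥(modularFunctionFieldFullC (IsLocalRing.ResidueField A) N))
        (x := ⟨_, R.algebraMap_mem (IsLocalRing.residue A ⟨a, ha⟩)⟩)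
    · exact ⟨⟨_, iotaFull_mem_gaussA_of_mem_chartAlg hA hS hf⟩,
        isIntegral_redFk_iotaFull hA hℓN hS R hR hf, rfl⟩
  have hb := hle b.2
  rw [hW] at hb
  obtain ⟨z, hz, hzb⟩ := hb
  have hz' : IsIntegral R (redFk hA hℓN z) := hz
  have e : z = ⟨(b : ↥(modularFunctionFieldBar N)), chartA_le_gaussA_of_gens hA hS b.2⟩ :=
    Subtype.ext hzb
  rw [redChart_apply, ← e]
  exact hz'

end Red

/-! ### (Q3) the reduction map on a subring of the Gauss ring -/

section Sub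

variable {N : ℕ} [NeZero N] {ℓ : ℕ} [Fact ℓ.Prime] {A : ValuationSubring (AlgebraicClosure ℚ)}

/-- The reduction `𝔅 →+* F_k` on a subring `𝔅 ≤ gaussA A N` (for `ℓ ∤ N`). -/
def redSub (hA : A.LiesOverPrime ℓ) (hℓN : ¬ ℓ ∣ N)
    {𝔅 : Subring (modularFunctionFieldBar N)} (h𝔅 : 𝔅 ≤ gaussA A N) :
    𝔅 →+* modularFunctionFieldFullC (IsLocalRing.ResidueField A) N :=
  ((redA A N).comp (Subring.inclusion h𝔅)).codRestrict
    (modularFunctionFieldFullC (IsLocalRing.ResidueField A) N)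
    (fun _ => redA_mem_full hA hℓN _)

theorem coe_redSub (hA : A.LiesOverPrime ℓ) (hℓN : ¬ ℓ ∣ N)
    {𝔅 : Subring (modularFunctionFieldBar N)} (h𝔅 : 𝔅 ≤ gaussA A N) (b : 𝔅) :
    ((redSub hA hℓN h𝔅 b : modularFunctionFieldFullC (IsLocalRing.ResidueField A) N) :
      LaurentSeries (IsLocalRing.ResidueField A)) =
        redA A N ⟨(b : modularFunctionFieldBar N), h𝔅 b.2⟩ :=
  rfl

theorem redSub_eq_redFk (hA : A.LiesOverPrime ℓ) (hℓN : ¬ ℓ ∣ N)
    {𝔅 : Subring (modularFunctionFieldBar N)} (h𝔅 : 𝔅 ≤ gaussA A N) (b : 𝔅) :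
    redSub hA hℓN h𝔅 b = redFk hA hℓN ⟨(b : modularFunctionFieldBar N), h𝔅 b.2⟩ :=
  rfl

/-- `redSub` does not depend on the ambient subring. -/
theorem redSub_congr (hA : A.LiesOverPrime ℓ) (hℓN : ¬ ℓ ∣ N)
    {𝔅 𝔅' : Subring (modularFunctionFieldBar N)} (h𝔅 : 𝔅 ≤ gaussA A N)
    (h𝔅' : 𝔅' ≤ gaussA A N) (b : 𝔅) (b' : 𝔅')
    (h : (b : modularFunctionFieldBar N) = (b' : modularFunctionFieldBar N)) :
    redSub hA hℓN h𝔅 b = redSub hA hℓN h𝔅' b' :=
  redFk_congr hA hℓN h _ _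

theorem redSub_algebraMap (hA : A.LiesOverPrime ℓ) (hℓN : ¬ ℓ ∣ N)
    {𝔅 : Subring (modularFunctionFieldBar N)} (h𝔅 : 𝔅 ≤ gaussA A N)
    {a : AlgebraicClosure ℚ} (ha : a ∈ A)
    (h : algebraMap (AlgebraicClosure ℚ) (modularFunctionFieldBar N) a ∈ 𝔅) :
    redSub hA hℓN h𝔅 ⟨algebraMap (AlgebraicClosure ℚ) (modularFunctionFieldBar N) a, h⟩ =
      algebraMap (IsLocalRing.ResidueField A)
        (modularFunctionFieldFullC (IsLocalRing.ResidueField A) N)
        (IsLocalRing.residue A ⟨a, ha⟩) :=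
  redFk_algebraMap hA hℓN ha

theorem redSub_jBar (hA : A.LiesOverPrime ℓ) (hℓN : ¬ ℓ ∣ N)
    {𝔅 : Subring (modularFunctionFieldBar N)} (h𝔅 : 𝔅 ≤ gaussA A N) (h : jBar N ∈ 𝔅) :
    redSub hA hℓN h𝔅 ⟨jBar N, h⟩ = FkConst.jk (IsLocalRing.ResidueField A) N :=
  redFk_iotaFull_jFull hA hℓN

theorem redSub_jBar_inv (hA : A.LiesOverPrime ℓ) (hℓN : ¬ ℓ ∣ N)
    {𝔅 : Subring (modularFunctionFieldBar N)} (h𝔅 : 𝔅 ≤ gaussA A N) (h : (jBar N)⁻¹ ∈ 𝔅) :
    redSub hA hℓN h𝔅 ⟨(jBar N)⁻¹, h⟩ = (FkConst.jk (IsLocalRing.ResidueField A) N)⁻¹ := by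
  rw [redSub_eq_redFk, ← redFk_iotaFull_jFull_inv hA hℓN]
  exact redFk_congr hA hℓN (iotaFull_inv_jFull (N := N)).symm _ _

/-- Reductions of elements of a chart model `chartA A N ℓ (chartAlg N ℓ S)` are integral over
any subalgebra of `F_k` containing the reductions of the generators `S`. -/
theorem isIntegral_redSub_of_gens (hA : A.LiesOverPrime ℓ) (hℓN : ¬ ℓ ∣ N)
    {S : Set (modularFunctionFieldFull N)} (hS : ∀ s ∈ S, iotaFull N s ∈ gaussA A N)
    (R : Subalgebra (IsLocalRing.ResidueField A)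
      ↥(modularFunctionFieldFullC (IsLocalRing.ResidueField A) N))
    (hR : ∀ s (hs : s ∈ S), redFk hA hℓN ⟨iotaFull N s, hS s hs⟩ ∈ R)
    (h𝔅 : chartA A N ℓ (chartAlg N ℓ S) ≤ gaussA A N)
    (b : ↥(chartA A N ℓ (chartAlg N ℓ S))) : IsIntegral R (redSub hA hℓN h𝔅 b) :=
  isIntegral_redChart hA hℓN hS R hR b

/-- Reductions of elements of the finite chart are integral over `k[j̄]`. -/
theorem isIntegral_redSub_fin (hA : A.LiesOverPrime ℓ) (hℓN : ¬ ℓ ∣ N)
    (b : chartA A N ℓ (chartAlgFin N ℓ)) :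
    IsIntegral (Algebra.adjoin (IsLocalRing.ResidueField A)
        {FkConst.jk (IsLocalRing.ResidueField A) N})
      (redSub hA hℓN (chartA_fin_le_gaussA hA) b) := by
  refine isIntegral_redSub_of_gens hA hℓN gens_fin_mem_gaussA _ (fun s hs => ?_) _ b
  have hs' : s = jFull N := hs
  subst hs'
  rw [redFk_iotaFull_jFull]
  exact Algebra.subset_adjoin rfl

/-- Reductions of elements of the chart at infinity are integral over `k[j̄⁻¹]`. -/
theorem isIntegral_redSub_inf (hA : A.LiesOverPrime ℓ) (hℓN : ¬ ℓ ∣ N)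
    (b : chartA A N ℓ (chartAlgInf N ℓ)) :
    IsIntegral (Algebra.adjoin (IsLocalRing.ResidueField A)
        {(FkConst.jk (IsLocalRing.ResidueField A) N)⁻¹})
      (redSub hA hℓN (chartA_inf_le_gaussA hA) b) := by
  refine isIntegral_redSub_of_gens hA hℓN gens_inf_mem_gaussA _ (fun s hs => ?_) _ b
  have hs' : s = (jFull N)⁻¹ := hs
  subst hs'
  rw [redFk_iotaFull_jFull_inv]
  exact Algebra.subset_adjoin rfl

end Sub

end TorsionQ

end Fermat.Agent.S37
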