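import Fermat.Agent.S37.RadK
import Fermat.Agent.S37.ChartInt
import Fermat.Agent.S37.TorsionQ
import Fermat.Agent.S18.UnramConv

/-!
P12 / S37 Tier 2, [RADk], final consumer shapes of (RAD) for [TOR].

* `RadK.exists_monic_of_isIntegral_adjoin` : elementwise form of integrality over `k[x]`;
* `RadK.rad_fin`, `RadK.rad_inf` : (RAD) for the two charts, with `b` (and `σ`) in the `A`-models
  `chartA`, from the raw forms `rad_fin_raw`, `rad_inf_raw` and (NBC-int);
* `RadK.rad_fin_tor`, `RadK.rad_inf_tor` : the hypotheses `hRAD` of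
  `ord_toFk_eq_of_chartA_fin / _inf` for the reduction map `TorsionQ.redSub`.
-/

set_option autoImplicit false

open Polynomial ModularCurve ModularCurve.IgusaScheme AlgebraicCurve Fermat.Agent.S18

noncomputable section

namespace Fermat.Agent.S37

namespace RadK

/-- Elementwise form of integrality over `k[x]` inside an intermediate field. -/
theorem exists_monic_of_isIntegral_adjoin {k L : Type*} [Field k] [Field L] [Algebra k L]
    (F : IntermediateField k L) (x z : ↥F) (hz : IsIntegral (Algebra.adjoin k {x}) z) :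
    ∃ p : L[X], p.Monic ∧ (∀ i, ∃ g : k[X], p.coeff i = aeval (x : L) g) ∧
      p.eval (z : L) = 0 := by
  obtain ⟨P, hP, hPz⟩ := hz
  refine ⟨P.map ((algebraMap ↥F L).comp (algebraMap ↥(Algebra.adjoin k {x}) ↥F)), hP.map _,
    fun i => ?_, ?_⟩
  · rw [coeff_map]
    have hc : ((P.coeff i : ↥(Algebra.adjoin k {x})) : ↥F) ∈ (aeval x : k[X] →ₐ[k] ↥F).range := by
      rw [← Algebra.adjoin_singleton_eq_range_aeval]
      exact (P.coeff i).2
    obtain ⟨g, hg⟩ := hc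
    refine ⟨g, ?_⟩
    have h1 : aeval (algebraMap ↥F L x) g = algebraMap ↥F L (aeval x g) :=
      aeval_algebraMap_apply L x g
    have h2 : (aeval x g : ↥F) = ((P.coeff i : ↥(Algebra.adjoin k {x})) : ↥F) := hg
    rw [h2] at h1
    exact h1.symm
  · rw [eval_map]
    have h := hom_eval₂ P (algebraMap ↥(Algebra.adjoin k {x}) ↥F) (algebraMap ↥F L) z
    rw [hPz, map_zero] at h
    exact h.symm

variable {A : ValuationSubring (AlgebraicClosure ℚ)} {N : ℕ} [NeZero N] {ℓ : ℕ} [Fact ℓ.Prime]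

set_option synthInstance.maxHeartbeats 400000 in
/-- **(RAD-fin)**: a function of `F_k` integral over `k[j̄]` has a power which is the reduction
of an element of the `A`-model of the finite chart. -/
theorem rad_fin (hA : A.LiesOverPrime ℓ) (hℓN : ¬ ℓ ∣ N)
    (z : ↥(modularFunctionFieldFullC (IsLocalRing.ResidueField ↥A) N))
    (hz : IsIntegral (Algebra.adjoin (IsLocalRing.ResidueField ↥A)
      {FkConst.jk (IsLocalRing.ResidueField ↥A) N}) z) :
    ∃ n : ℕ, 1 ≤ n ∧ ∃ (b : ↥(modularFunctionFieldBar N))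
      (_ : b ∈ chartA A N ℓ (chartAlgFin N ℓ)) (hb : b ∈ gaussA A N),
      redA A N ⟨b, hb⟩ =
        ((z ^ n : ↥(modularFunctionFieldFullC (IsLocalRing.ResidueField ↥A) N)) :
          LaurentSeries (IsLocalRing.ResidueField ↥A)) := by
  obtain ⟨p, hp, hpc, hpz⟩ := exists_monic_of_isIntegral_adjoin _
    (FkConst.jk (IsLocalRing.ResidueField ↥A) N) z hz
  obtain ⟨n, hn, b, hint, hb, hred⟩ := rad_fin_raw hA hℓN z.2 p hp hpc hpz
  have hbI : IsIntegral ↥(chartRing A N (jBar N) 1) b :=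
    hint (chartRing A N (jBar N) 1) (fun a ha => algebraMap_mem_chartRing _ _ ha)
      (left_mem_chartRing _ _)
  exact ⟨n, hn, b, chartA_fin_of_isIntegral hA hℓN hbI, hb, hred⟩

set_option synthInstance.maxHeartbeats 400000 in
/-- **(RAD-inf)**: a function of `F_k` integral over `k[j̄⁻¹]` has a power which, multiplied by
the reduction of `σ = s(j⁻¹)ⁿ` (`s(0)` a unit), is the reduction of an element of the `A`-model
of the chart at infinity. -/
theorem rad_inf (hA : A.LiesOverPrime ℓ) (hℓN : ¬ ℓ ∣ N)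
    (z : ↥(modularFunctionFieldFullC (IsLocalRing.ResidueField ↥A) N))
    (hz : IsIntegral (Algebra.adjoin (IsLocalRing.ResidueField ↥A)
      {(FkConst.jk (IsLocalRing.ResidueField ↥A) N)⁻¹}) z) :
    ∃ n : ℕ, 1 ≤ n ∧ ∃ (σ b : ↥(modularFunctionFieldBar N))
      (_ : σ ∈ chartA A N ℓ (chartAlgInf N ℓ)) (_ : b ∈ chartA A N ℓ (chartAlgInf N ℓ))
      (hσ : σ ∈ gaussA A N) (hb : b ∈ gaussA A N),
      (∃ s : (IsLocalRing.ResidueField ↥A)[X], s.eval 0 ≠ 0 ∧
        redA A N ⟨σ, hσ⟩ = aeval (jqModC (IsLocalRing.ResidueField ↥A))⁻¹ s) ∧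
      redA A N ⟨b, hb⟩ = redA A N ⟨σ, hσ⟩ *
        ((z ^ n : ↥(modularFunctionFieldFullC (IsLocalRing.ResidueField ↥A) N)) :
          LaurentSeries (IsLocalRing.ResidueField ↥A)) := by
  obtain ⟨p, hp, hpc, hpz⟩ := exists_monic_of_isIntegral_adjoin _
    (FkConst.jk (IsLocalRing.ResidueField ↥A) N)⁻¹ z hz
  obtain ⟨n, hn, s, hs, b, hint, hb, hred⟩ := rad_inf_raw hA hℓN z.2 p hp hpc hpz
  -- the chart ring `A[1/j]`
  have hSA : ∀ a ∈ A, algebraMap (AlgebraicClosure ℚ) ↥(modularFunctionFieldBar N) a ∈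
      chartRing A N (jBar N)⁻¹ 1 := fun a ha => algebraMap_mem_chartRing _ _ ha
  have hbI : IsIntegral ↥(chartRing A N (jBar N)⁻¹ 1) b :=
    hint (chartRing A N (jBar N)⁻¹ 1) hSA (left_mem_chartRing _ _)
  -- `τ = s(1/j)`
  have hτS : aeval (jBar N)⁻¹ (s.map A.subtype) ∈ chartRing A N (jBar N)⁻¹ 1 :=
    aeval_mem_chartRing _ _ _ (fun i => by rw [coeff_map]; exact (s.coeff i).2)
  have hτg : aeval (jBar N)⁻¹ (s.map A.subtype) ∈ gaussA A N :=
    aeval_mem_gaussA jL_inv_mem_gaussA s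
  have hτred : redA A N ⟨aeval (jBar N)⁻¹ (s.map A.subtype), hτg⟩ =
      aeval (jqModC (IsLocalRing.ResidueField ↥A))⁻¹ (s.map (IsLocalRing.residue ↥A)) := by
    have h := redA_aeval (A := A) (N := N) jL_inv_mem_gaussA s
    rw [redA_jL_inv] at h
    exact h
  have hσS : (aeval (jBar N)⁻¹ (s.map A.subtype)) ^ n ∈ chartRing A N (jBar N)⁻¹ 1 :=
    Subring.pow_mem _ hτS n
  have hσI : IsIntegral ↥(chartRing A N (jBar N)⁻¹ 1)
      ((aeval (jBar N)⁻¹ (s.map A.subtype)) ^ n) :=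
    isIntegral_algebraMap (R := ↥(chartRing A N (jBar N)⁻¹ 1))
      (A := ↥(modularFunctionFieldBar N)) (x := ⟨_, hσS⟩)
  have hσg : (aeval (jBar N)⁻¹ (s.map A.subtype)) ^ n ∈ gaussA A N :=
    Subring.pow_mem _ hτg n
  have hσred : redA A N ⟨(aeval (jBar N)⁻¹ (s.map A.subtype)) ^ n, hσg⟩ =
      (aeval (jqModC (IsLocalRing.ResidueField ↥A))⁻¹
        (s.map (IsLocalRing.residue ↥A))) ^ n := by
    have h0 : (⟨(aeval (jBar N)⁻¹ (s.map A.subtype)) ^ n, hσg⟩ : ↥(gaussA A N)) =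
        (⟨aeval (jBar N)⁻¹ (s.map A.subtype), hτg⟩ : ↥(gaussA A N)) ^ n := Subtype.ext rfl
    rw [h0, map_pow, hτred]
  refine ⟨n, hn, (aeval (jBar N)⁻¹ (s.map A.subtype)) ^ n, b,
    chartA_inf_of_isIntegral hA hℓN hσI, chartA_inf_of_isIntegral hA hℓN hbI, hσg, hb,
    ⟨(s.map (IsLocalRing.residue ↥A)) ^ n, ?_, ?_⟩, ?_⟩
  · rw [eval_pow, eval_map, eval₂_at_zero]
    refine pow_ne_zero n ?_
    rw [coeff_zero_eq_eval_zero]
    exact (hs.map (IsLocalRing.residue ↥A)).ne_zero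
  · rw [hσred, map_pow]
  · rw [hσred, hred]
    rfl

set_option synthInstance.maxHeartbeats 400000 in
/-- The hypothesis `hRAD` of `ord_toFk_eq_of_chartA_fin` for the reduction `TorsionQ.redSub`. -/
theorem rad_fin_tor (hA : A.LiesOverPrime ℓ) (hℓN : ¬ ℓ ∣ N)
    (Q : Place (IsLocalRing.ResidueField ↥A)
      ↥(modularFunctionFieldFullC (IsLocalRing.ResidueField ↥A) N)) :
    ∀ z : ↥(modularFunctionFieldFullC (IsLocalRing.ResidueField ↥A) N),
      IsIntegral (Algebra.adjoin (IsLocalRing.ResidueField ↥A)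
        {FkConst.jk (IsLocalRing.ResidueField ↥A) N}) z →
      ∃ n : ℕ, 1 ≤ n ∧ ∃ σ b : ↥(chartA A N ℓ (chartAlgFin N ℓ)),
        TorsionQ.redSub hA hℓN (chartA_fin_le_gaussA hA) σ ≠ 0 ∧
        Q.ord (TorsionQ.redSub hA hℓN (chartA_fin_le_gaussA hA) σ) = 0 ∧
        TorsionQ.redSub hA hℓN (chartA_fin_le_gaussA hA) b =
          TorsionQ.redSub hA hℓN (chartA_fin_le_gaussA hA) σ * z ^ n := by
  intro z hz
  obtain ⟨n, hn, b, hbc, hb, hred⟩ := rad_fin hA hℓN z hz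
  refine ⟨n, hn, 1, ⟨b, hbc⟩, ?_, ?_, ?_⟩
  · rw [map_one]
    exact one_ne_zero
  · rw [map_one]
    exact Q.ord_one
  · rw [map_one, one_mul]
    apply Subtype.ext
    rw [TorsionQ.coe_redSub]
    exact hred

set_option synthInstance.maxHeartbeats 400000 in
/-- The hypothesis `hRAD` of `ord_toFk_eq_of_chartA_inf` for the reduction `TorsionQ.redSub`, at a
place `Q` of `F_k` over `j̄ = ∞`. -/
theorem rad_inf_tor (hA : A.LiesOverPrime ℓ) (hℓN : ¬ ℓ ∣ N)
    (Q : Place (IsLocalRing.ResidueField ↥A)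
      ↥(modularFunctionFieldFullC (IsLocalRing.ResidueField ↥A) N))
    (hpos : 0 < Q.ord (FkConst.jk (IsLocalRing.ResidueField ↥A) N)⁻¹) :
    ∀ z : ↥(modularFunctionFieldFullC (IsLocalRing.ResidueField ↥A) N),
      IsIntegral (Algebra.adjoin (IsLocalRing.ResidueField ↥A)
        {(FkConst.jk (IsLocalRing.ResidueField ↥A) N)⁻¹}) z →
      ∃ n : ℕ, 1 ≤ n ∧ ∃ σ b : ↥(chartA A N ℓ (chartAlgInf N ℓ)),
        TorsionQ.redSub hA hℓN (chartA_inf_le_gaussA hA) σ ≠ 0 ∧
        Q.ord (TorsionQ.redSub hA hℓN (chartA_inf_le_gaussA hA) σ) = 0 ∧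
        TorsionQ.redSub hA hℓN (chartA_inf_le_gaussA hA) b =
          TorsionQ.redSub hA hℓN (chartA_inf_le_gaussA hA) σ * z ^ n := by
  intro z hz
  obtain ⟨n, hn, σ, b, hσc, hbc, hσ, hb, ⟨s, hs0, hσred⟩, hbred⟩ := rad_inf hA hℓN z hz
  -- the reduction of `σ` is `s(1/j̄)`
  have hσ' : TorsionQ.redSub hA hℓN (chartA_inf_le_gaussA hA) ⟨σ, hσc⟩ =
      aeval (FkConst.jk (IsLocalRing.ResidueField ↥A) N)⁻¹ s := by
    apply Subtype.ext
    rw [TorsionQ.coe_redSub]
    have h1 : aeval (algebraMap ↥(modularFunctionFieldFullC (IsLocalRing.ResidueField ↥A) N)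
          (LaurentSeries (IsLocalRing.ResidueField ↥A))
          (FkConst.jk (IsLocalRing.ResidueField ↥A) N)⁻¹) s =
        algebraMap ↥(modularFunctionFieldFullC (IsLocalRing.ResidueField ↥A) N)
          (LaurentSeries (IsLocalRing.ResidueField ↥A))
          (aeval (FkConst.jk (IsLocalRing.ResidueField ↥A) N)⁻¹ s) :=
      aeval_algebraMap_apply _ _ s
    exact hσred.trans h1
  have hord := UnramConv.ord_aeval_eq_zero Q
    (X := (FkConst.jk (IsLocalRing.ResidueField ↥A) N)⁻¹) (a := 0)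
    (by rw [map_zero, sub_zero]; exact hpos) s hs0
  refine ⟨n, hn, ⟨σ, hσc⟩, ⟨b, hbc⟩, ?_, ?_, ?_⟩
  · rw [hσ']
    exact hord.1
  · rw [hσ']
    exact hord.2
  · apply Subtype.ext
    rw [TorsionQ.coe_redSub]
    exact hbred

end RadK

end Fermat.Agent.S37
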