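import Fermat.Agent.S37.ChartA
import Fermat.Agent.S18.GaussLineF
import Fermat.Agent.S28.Char0Deg
import Fermat.Agent.S28.ChartKerCore
import Fermat.Agent.S28.Tensor

/-!
P12 (S37), Tier 2, [CBC] (a): the `A`-model `chartA A N ℓ (chartAlg N ℓ {x₀})` is a finite module
over `A[ι x₀]` and integral over `Ω[ι x₀]` (fields `finite`, `integral` of `IsChartModel`).
-/

set_option autoImplicit false
set_option linter.unusedSectionVars false

namespace Fermat.Agent.S37

open ModularCurve ModularCurve.IgusaScheme IntermediateField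

namespace ChartFin

section Zl

variable (ℓ : ℕ) [Fact ℓ.Prime]

/-- `ℚ` is the fraction field of `ℤ_(ℓ)`. -/
theorem isFractionRing_zl : IsFractionRing ↥(GaloisRep.ratLocalizedAt ℓ) ℚ := by
  refine IsFractionRing.of_field (R := ↥(GaloisRep.ratLocalizedAt ℓ)) (K := ℚ) fun z => ?_
  refine ⟨(z.num : ↥(GaloisRep.ratLocalizedAt ℓ)), (z.den : ↥(GaloisRep.ratLocalizedAt ℓ)), ?_⟩
  show z = (((z.num : ℤ) : ↥(GaloisRep.ratLocalizedAt ℓ)) : ℚ) /
    (((z.den : ℕ) : ↥(GaloisRep.ratLocalizedAt ℓ)) : ℚ)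
  rw [Subring.coe_intCast, Subring.coe_natCast, Rat.num_div_den]

/-- `ℤ_(ℓ)` is a principal ideal ring. -/
theorem isPrincipalIdealRing_zl : IsPrincipalIdealRing ↥(GaloisRep.ratLocalizedAt ℓ) := by
  refine ⟨fun I => ?_⟩
  obtain ⟨n, hn⟩ := (IsPrincipalIdealRing.principal
    (Ideal.comap (Int.castRingHom ↥(GaloisRep.ratLocalizedAt ℓ)) I)).principal
  have hmem : ∀ m : ℤ, (m : ↥(GaloisRep.ratLocalizedAt ℓ)) ∈ I ↔ n ∣ m := by
    intro m
    have h1 : m ∈ Ideal.comap (Int.castRingHom ↥(GaloisRep.ratLocalizedAt ℓ)) I ↔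
        (m : ↥(GaloisRep.ratLocalizedAt ℓ)) ∈ I := by
      rw [Ideal.mem_comap]; rfl
    rw [← h1, hn]
    exact Ideal.mem_span_singleton
  refine ⟨⟨(n : ↥(GaloisRep.ratLocalizedAt ℓ)), ?_⟩⟩
  apply le_antisymm
  · intro x hx
    have hx' := S28.GaussRing.eq_num_mul_invNat ℓ x
    have hnum : (((x : ℚ).num : ℤ) : ↥(GaloisRep.ratLocalizedAt ℓ)) ∈ I := by
      have h2 : x * (((x : ℚ).den : ℕ) : ↥(GaloisRep.ratLocalizedAt ℓ)) =
          (((x : ℚ).num : ℤ) : ↥(GaloisRep.ratLocalizedAt ℓ)) := by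
        apply Subtype.ext
        show (x : ℚ) * ((((x : ℚ).den : ℕ) : ↥(GaloisRep.ratLocalizedAt ℓ)) : ℚ) =
          ((((x : ℚ).num : ℤ) : ↥(GaloisRep.ratLocalizedAt ℓ)) : ℚ)
        rw [Subring.coe_natCast, Subring.coe_intCast]
        exact Rat.mul_den_eq_num (x : ℚ)
      rw [← h2]
      exact I.mul_mem_right _ hx
    obtain ⟨m, hm⟩ := (hmem _).mp hnum
    have hx'' : x = (n : ↥(GaloisRep.ratLocalizedAt ℓ)) *
        ((m : ↥(GaloisRep.ratLocalizedAt ℓ)) *
          S28.GaussRing.invNat ℓ (x : ℚ).den x.2 (x : ℚ).den_pos) := by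
      rw [← mul_assoc, ← Int.cast_mul, ← hm]
      exact hx'
    show x ∈ Ideal.span {(n : ↥(GaloisRep.ratLocalizedAt ℓ))}
    rw [Ideal.mem_span_singleton]
    exact ⟨_, hx''⟩
  · show Ideal.span {(n : ↥(GaloisRep.ratLocalizedAt ℓ))} ≤ I
    rw [Ideal.span_singleton_le_iff_mem]
    exact (hmem n).mpr dvd_rfl

end Zl

variable (A : ValuationSubring (AlgebraicClosure ℚ)) (N : ℕ) [NeZero N] (ℓ : ℕ) [Fact ℓ.Prime]

/-- The inclusion `ℤ_(ℓ) → A`. -/
noncomputable def zlHom (hA : A.LiesOverPrime ℓ) : ↥(GaloisRep.ratLocalizedAt ℓ) →+* ↥A :=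
  ((algebraMap ℚ (AlgebraicClosure ℚ)).comp (GaloisRep.ratLocalizedAt ℓ).subtype).codRestrict
    A.toSubring (fun c => algebraMap_ratLocalizedAt_mem A hA c)

/-- The ring homomorphism `A[X] → F_L`, `p ↦ p(t)`. -/
noncomputable def polyHom (t : ↥(modularFunctionFieldBar N)) :
    Polynomial ↥A →+* ↥(modularFunctionFieldBar N) :=
  (Polynomial.aeval (R := AlgebraicClosure ℚ) t).toRingHom.comp (Polynomial.mapRingHom A.subtype)

theorem polyHom_apply (t : ↥(modularFunctionFieldBar N)) (p : Polynomial ↥A) :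
    polyHom A N t p = Polynomial.aeval t (p.map A.subtype) := rfl

variable {A N ℓ}

/-- `ι (P(x₀)) = (P^A)(ι x₀)` for `P ∈ ℤ_(ℓ)[X]`. -/
theorem iotaFull_aeval (hA : A.LiesOverPrime ℓ) (x₀ : ↥(modularFunctionFieldFull N))
    (P : Polynomial ↥(GaloisRep.ratLocalizedAt ℓ)) :
    iotaFull N (Polynomial.aeval x₀ P) =
      polyHom A N (iotaFull N x₀) (P.map (zlHom A ℓ hA)) := by
  rw [polyHom_apply, Polynomial.map_map, Polynomial.aeval_def, Polynomial.aeval_def,
    Polynomial.hom_eval₂, Polynomial.eval₂_map]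
  congr 1
  exact S28.Tensor.ratLocalizedAt_ringHom_ext _ _

end ChartFin

open ChartFin

variable {A : ValuationSubring (AlgebraicClosure ℚ)} {N : ℕ} [NeZero N] {ℓ : ℕ} [Fact ℓ.Prime]

/-- (a), generic coordinate: `chartA` of the chart `chartAlg N ℓ {x₀}` is a finite
`A[ι x₀]`-module. -/
theorem chartA_finite (hA : A.LiesOverPrime ℓ) (x₀ : ↥(modularFunctionFieldFull N))
    (hx₀ : Transcendental ℚ x₀)
    [FiniteDimensional ↥(ℚ⟮x₀⟯) ↥(modularFunctionFieldFull N)] :
    ∃ s : Finset ↥(modularFunctionFieldBar N),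
      (∀ e ∈ s, e ∈ chartA A N ℓ (chartAlg N ℓ {x₀})) ∧
      ∀ b ∈ chartA A N ℓ (chartAlg N ℓ {x₀}),
        ∃ p : ↥(modularFunctionFieldBar N) → Polynomial ↥A,
          b = ∑ e ∈ s, Polynomial.aeval (iotaFull N x₀) ((p e).map A.subtype) * e := by
  classical
  have hfr := isFractionRing_zl ℓ
  have hpid := isPrincipalIdealRing_zl ℓ
  obtain ⟨B, hB, hspan⟩ := S18.GaussLineK.exists_finset_span
    (Λ := ↥(GaloisRep.ratLocalizedAt ℓ)) (K := ℚ) hx₀
  let R₁ : Subring ↥(modularFunctionFieldBar N) := (polyHom A N (iotaFull N x₀)).range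
  let s : Finset ↥(modularFunctionFieldBar N) := B.image (iotaFull N)
  have hconst : ∀ a ∈ A,
      algebraMap (AlgebraicClosure ℚ) ↥(modularFunctionFieldBar N) a ∈ R₁ := by
    intro a ha
    refine ⟨Polynomial.C ⟨a, ha⟩, ?_⟩
    rw [polyHom_apply, Polynomial.map_C, Polynomial.aeval_C]
    rfl
  have hadj : ∀ r ∈ Algebra.adjoin ↥(GaloisRep.ratLocalizedAt ℓ) {x₀}, iotaFull N r ∈ R₁ := by
    intro r hr
    rw [Algebra.adjoin_singleton_eq_range_aeval] at hr
    obtain ⟨P, rfl⟩ := hr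
    exact ⟨P.map (zlHom A ℓ hA), (iotaFull_aeval hA x₀ P).symm⟩
  have hι : ∀ f ∈ chartAlg N ℓ {x₀},
      iotaFull N f ∈ Submodule.span R₁ (s : Set ↥(modularFunctionFieldBar N)) := by
    intro f hf
    have hf' := hspan f hf
    clear hf
    induction hf' using Submodule.span_induction with
    | mem y hy =>
      exact Submodule.subset_span (Finset.mem_coe.mpr (Finset.mem_image_of_mem _ hy))
    | zero => rw [map_zero]; exact Submodule.zero_mem _
    | add y z _ _ hy hz => rw [map_add]; exact Submodule.add_mem _ hy hz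
    | smul r y _ hy =>
      have h1 : iotaFull N (r • y) =
          (⟨iotaFull N (r : ↥(modularFunctionFieldFull N)), hadj r r.2⟩ : ↥R₁) •
            iotaFull N y := by
        rw [Subring.smul_def, smul_eq_mul, ← map_mul]
        rfl
      rw [h1]
      exact Submodule.smul_mem _ _ hy
  refine ⟨s, ?_, ?_⟩
  · intro e he
    obtain ⟨b, hb, rfl⟩ := Finset.mem_image.mp he
    exact iotaFull_mem_chartA (hB b hb)
  · intro b hb
    have hbM : b ∈ Submodule.span R₁ (s : Set ↥(modularFunctionFieldBar N)) := by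
      obtain ⟨n, a, f, ha, hf, rfl⟩ := exists_sum_of_mem_chartA hb
      refine Submodule.sum_mem _ fun i _ => ?_
      exact Submodule.smul_mem _ (⟨_, hconst (a i) (ha i)⟩ : ↥R₁) (hι (f i) (hf i))
    obtain ⟨g, -, hg⟩ := Submodule.mem_span_finset.mp hbM
    choose p hp using fun e => RingHom.mem_range.mp (g e).2
    refine ⟨p, ?_⟩
    rw [← hg]
    refine Finset.sum_congr rfl fun e _ => ?_
    rw [← polyHom_apply, hp e]
    rfl

/-- generic coordinate: every element of `chartA` is integral over `Ω[ι x₀]`. -/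
theorem chartA_integral (x₀ : ↥(modularFunctionFieldFull N)) :
    ∀ b ∈ chartA A N ℓ (chartAlg N ℓ {x₀}),
      IsIntegral (Algebra.adjoin (AlgebraicClosure ℚ) {iotaFull N x₀}) b := by
  have hadj' : ∀ r ∈ Algebra.adjoin ↥(GaloisRep.ratLocalizedAt ℓ) {x₀},
      iotaFull N r ∈ Algebra.adjoin (AlgebraicClosure ℚ) {iotaFull N x₀} := by
    intro r hr
    rw [Algebra.adjoin_singleton_eq_range_aeval] at hr
    obtain ⟨P, rfl⟩ := hr
    have h1 : iotaFull N (Polynomial.aeval x₀ P) =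
        Polynomial.aeval (iotaFull N x₀) (P.map ((algebraMap ℚ (AlgebraicClosure ℚ)).comp
          (GaloisRep.ratLocalizedAt ℓ).subtype)) := by
      rw [Polynomial.aeval_def, Polynomial.aeval_def, Polynomial.hom_eval₂,
        Polynomial.eval₂_map]
      congr 1
      exact S28.Tensor.ratLocalizedAt_ringHom_ext _ _
    have h2 : iotaFull N ((Polynomial.aeval x₀).toRingHom P) =
        iotaFull N (Polynomial.aeval x₀ P) := rfl
    rw [h2, h1, Algebra.adjoin_singleton_eq_range_aeval]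
    exact ⟨_, rfl⟩
  have hadj : ∀ r : ↥(Algebra.adjoin ↥(GaloisRep.ratLocalizedAt ℓ) {x₀}),
      ((iotaFull N).comp
        (Algebra.adjoin ↥(GaloisRep.ratLocalizedAt ℓ) {x₀}).toSubring.subtype) r ∈
        Algebra.adjoin (AlgebraicClosure ℚ) {iotaFull N x₀} := fun r => hadj' r r.2
  let φ : ↥(Algebra.adjoin ↥(GaloisRep.ratLocalizedAt ℓ) {x₀}) →+*
      ↥(Algebra.adjoin (AlgebraicClosure ℚ) {iotaFull N x₀}) :=
    ((iotaFull N).comp (Algebra.adjoin ↥(GaloisRep.ratLocalizedAt ℓ) {x₀}).toSubring.subtype).codRestrict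
      (Algebra.adjoin (AlgebraicClosure ℚ) {iotaFull N x₀}) hadj
  have hφ : (algebraMap ↥(Algebra.adjoin (AlgebraicClosure ℚ) {iotaFull N x₀})
      ↥(modularFunctionFieldBar N)).comp φ =
      (iotaFull N).comp (algebraMap ↥(Algebra.adjoin ↥(GaloisRep.ratLocalizedAt ℓ) {x₀})
        ↥(modularFunctionFieldFull N)) := rfl
  have hle : chartA A N ℓ (chartAlg N ℓ {x₀}) ≤
      (integralClosure ↥(Algebra.adjoin (AlgebraicClosure ℚ) {iotaFull N x₀})
        ↥(modularFunctionFieldBar N)).toSubring := by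
    refine chartA_le ?_ ?_
    · intro a _
      have h1 : algebraMap (AlgebraicClosure ℚ) ↥(modularFunctionFieldBar N) a =
          algebraMap ↥(Algebra.adjoin (AlgebraicClosure ℚ) {iotaFull N x₀})
            ↥(modularFunctionFieldBar N)
            ⟨algebraMap (AlgebraicClosure ℚ) ↥(modularFunctionFieldBar N) a,
              Subalgebra.algebraMap_mem _ a⟩ := rfl
      rw [h1]
      exact isIntegral_algebraMap
    · intro f hf
      exact IsIntegral.map_of_comp_eq φ (iotaFull N) hφ hf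
  exact fun b hb => hle hb

theorem chartA_fin_finite (hA : A.LiesOverPrime ℓ) :
    ∃ s : Finset ↥(modularFunctionFieldBar N),
      (∀ e ∈ s, e ∈ chartA A N ℓ (chartAlgFin N ℓ)) ∧
      ∀ b ∈ chartA A N ℓ (chartAlgFin N ℓ),
        ∃ p : ↥(modularFunctionFieldBar N) → Polynomial ↥A,
          b = ∑ e ∈ s, Polynomial.aeval (jBar N) ((p e).map A.subtype) * e := by
  have := S28.finiteDimensional_jFull N
  exact chartA_finite hA (jFull N) (S28.ChartKer.transcendental_jFull N)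

theorem ChartFin.adjoin_inv_jFull : ℚ⟮(jFull N)⁻¹⟯ = ℚ⟮jFull N⟯ := by
  apply le_antisymm
  · rw [adjoin_simple_le_iff]
    exact inv_mem (mem_adjoin_simple_self ℚ (jFull N))
  · rw [adjoin_simple_le_iff]
    have h := inv_mem (mem_adjoin_simple_self ℚ (jFull N)⁻¹)
    rwa [inv_inv] at h

theorem chartA_inf_finite (hA : A.LiesOverPrime ℓ) :
    ∃ s : Finset ↥(modularFunctionFieldBar N),
      (∀ e ∈ s, e ∈ chartA A N ℓ (chartAlgInf N ℓ)) ∧
      ∀ b ∈ chartA A N ℓ (chartAlgInf N ℓ),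
        ∃ p : ↥(modularFunctionFieldBar N) → Polynomial ↥A,
          b = ∑ e ∈ s, Polynomial.aeval (jBar N)⁻¹ ((p e).map A.subtype) * e := by
  have hfd : FiniteDimensional ↥(ℚ⟮(jFull N)⁻¹⟯) ↥(modularFunctionFieldFull N) :=
    (ChartFin.adjoin_inv_jFull (N := N)) ▸ S28.finiteDimensional_jFull N
  have h := chartA_finite (A := A) (ℓ := ℓ) hA (jFull N)⁻¹ (S28.ChartKer.transcendental_jFull_inv N)
  rw [iotaFull_inv_jFull] at h
  exact h

theorem chartA_fin_integral :
    ∀ b ∈ chartA A N ℓ (chartAlgFin N ℓ),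
      IsIntegral (Algebra.adjoin (AlgebraicClosure ℚ) {jBar N}) b :=
  chartA_integral (jFull N)

theorem chartA_inf_integral :
    ∀ b ∈ chartA A N ℓ (chartAlgInf N ℓ),
      IsIntegral (Algebra.adjoin (AlgebraicClosure ℚ) {(jBar N)⁻¹}) b := by
  have h := chartA_integral (A := A) (ℓ := ℓ) (jFull N)⁻¹
  rw [iotaFull_inv_jFull] at h
  exact h

end Fermat.Agent.S37
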