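import Mathlib
import Fermat.Agent.S37.GaussAInt

/-!
P12 (S37) module [GA](d): (A2) in the coordinate `j⁻¹`.
-/

set_option autoImplicit false

namespace Fermat.Agent.S37

open ModularCurve Fermat.Agent.S18 Polynomial

variable {A : ValuationSubring (AlgebraicClosure ℚ)} {N : ℕ} {ℓ : ℕ} [Fact ℓ.Prime] [NeZero N]

/-- Value at `x⁻¹` of the reflection of a polynomial with coefficients in a subring `A`. -/
theorem gaIC_aeval_reflect {R S : Type*} [CommRing R] [Field S] [Algebra R S]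
    {R₀ : Type*} [CommRing R₀] (φ : R₀ →+* R) {x : S} (hx : x ≠ 0) (d : ℕ) (f : Polynomial R₀)
    (hf : f.natDegree ≤ d) :
    aeval x⁻¹ ((f.reflect d).map φ) * x ^ d = aeval x (f.map φ) := by
  let _ : Invertible x := invertibleOfNonzero hx
  have h := eval₂_reflect_mul_pow ((algebraMap R S).comp φ) x d f hf
  rw [invOf_eq_inv] at h
  rw [aeval_def, eval₂_map, aeval_def, eval₂_map]
  exact h

theorem exists_monic_gaussA_inv (hA : A.LiesOverPrime ℓ) (hℓN : ¬ ℓ ∣ N)
    {z : ↥(modularFunctionFieldBar N)} (hz : z ∈ gaussA A N) :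
    ∃ p : Polynomial ↥(modularFunctionFieldBar N), p.Monic ∧ p.eval z = 0 ∧
      ∀ i, ∃ a b : Polynomial ↥A, b.map (IsLocalRing.residue ↥A) ≠ 0 ∧
        p.coeff i * aeval (Fermat.Agent.S24.jL (AlgebraicClosure ℚ) N)⁻¹ (b.map A.subtype) =
          aeval (Fermat.Agent.S24.jL (AlgebraicClosure ℚ) N)⁻¹ (a.map A.subtype) := by
  obtain ⟨p, hp, hpz, hc⟩ := exists_monic_gaussA hA hℓN hz
  refine ⟨p, hp, hpz, fun i => ?_⟩
  obtain ⟨a, b, hb, hab⟩ := hc i
  have hj : Fermat.Agent.S24.jL (AlgebraicClosure ℚ) N ≠ 0 := jL_ne_zero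
  refine ⟨a.reflect (max a.natDegree b.natDegree), b.reflect (max a.natDegree b.natDegree),
    ?_, ?_⟩
  · rw [← reflect_map, Ne, reflect_eq_zero_iff]
    exact hb
  · apply mul_right_cancel₀ (pow_ne_zero (max a.natDegree b.natDegree) hj)
    rw [mul_assoc, gaIC_aeval_reflect A.subtype hj _ b (le_max_right _ _),
      gaIC_aeval_reflect A.subtype hj _ a (le_max_left _ _)]
    exact hab

end Fermat.Agent.S37
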