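import Mathlib
import Fermat.Agent.S37.GaussAInt
import Fermat.Agent.S37.GaussAInvCoord

/-!
P12 (S37) module [GA], part (d), consumer forms of (A2) (for [CBC]/[WC]):

* `exists_A2_of_monic`, `exists_A2_fin`, `exists_A2_inf`: common-denominator form of (A2): every
  `z ∈ gaussA` satisfies `Q(x) z^n + Σ_{i<n} P_i(x) z^i = 0` with `Q, P_i ∈ A[X]`, `Q` of nonzero
  reduction (`x = j` or `x = j⁻¹`);
* `exists_poly_relation`, `exists_poly_relation_inf`: for `a ∈ gaussA` with nonzero reduction,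
  `B(x) + Σ_{i<n} c_i(x) a^(n-i) = 0`;
* `exists_poly_dvd_fin`, `exists_poly_dvd_inf`, `exists_aeval_eq_mul_fin`,
  `exists_aeval_eq_mul_inf`: the `norm` field of `IsChartModel`: `G(x) = a * b` with `G ∈ A[X]` of
  nonzero reduction and `b` in any subring containing the constants of `A`, `x` and `a`.
-/

set_option autoImplicit false

namespace Fermat.Agent.S37

open ModularCurve Fermat.Agent.S18 Polynomial

noncomputable section

variable {A : ValuationSubring (AlgebraicClosure ℚ)} {N : ℕ}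

/-- Clearing denominators in a monic equation with coefficients `α_i(x)/β_i(x)`. -/
theorem exists_A2_of_poly (x z : ↥(modularFunctionFieldBar N))
    (p : Polynomial ↥(modularFunctionFieldBar N)) (hp : p.Monic) (hpz : p.eval z = 0)
    (hc : ∀ i, ∃ a b : Polynomial ↥A, b.map (IsLocalRing.residue ↥A) ≠ 0 ∧
      p.coeff i * aeval x (b.map A.subtype) = aeval x (a.map A.subtype)) :
    ∃ (n : ℕ) (Q : Polynomial ↥A) (P : ℕ → Polynomial ↥A),
      Q.map (IsLocalRing.residue ↥A) ≠ 0 ∧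
      aeval x (Q.map A.subtype) * z ^ n +
        ∑ i ∈ Finset.range n, aeval x ((P i).map A.subtype) * z ^ i = 0 := by
  choose α β hβ hαβ using hc
  refine ⟨p.natDegree, ∏ i ∈ Finset.range p.natDegree, β i,
    fun i => α i * ∏ k ∈ (Finset.range p.natDegree).erase i, β k, ?_, ?_⟩
  · rw [Polynomial.map_prod]
    exact Finset.prod_ne_zero_iff.mpr fun i _ => hβ i
  · have h1 : z ^ p.natDegree + ∑ i ∈ Finset.range p.natDegree, p.coeff i * z ^ i = 0 := by
      rw [← hpz, Polynomial.eval_eq_sum_range, Finset.sum_range_succ, hp.coeff_natDegree, one_mul,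
        add_comm]
    have h2 : ∀ i ∈ Finset.range p.natDegree,
        aeval x ((α i * ∏ k ∈ (Finset.range p.natDegree).erase i, β k).map A.subtype) * z ^ i =
          aeval x ((∏ i ∈ Finset.range p.natDegree, β i).map A.subtype) * (p.coeff i * z ^ i) := by
      intro i hi
      rw [← Finset.mul_prod_erase _ _ hi, Polynomial.map_mul, Polynomial.map_mul, map_mul,
        map_mul, ← hαβ i]
      ring
    rw [Finset.sum_congr rfl h2, ← Finset.mul_sum, ← mul_add, h1, mul_zero]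

/-- (A2), common-denominator form, for a coordinate `x` for which the fraction form holds. -/
theorem exists_A2_of_monic (x : ↥(modularFunctionFieldBar N))
    (hx : ∀ z ∈ gaussA A N, ∃ p : Polynomial ↥(modularFunctionFieldBar N), p.Monic ∧
      p.eval z = 0 ∧ ∀ i, ∃ a b : Polynomial ↥A, b.map (IsLocalRing.residue ↥A) ≠ 0 ∧
        p.coeff i * aeval x (b.map A.subtype) = aeval x (a.map A.subtype))
    {z : ↥(modularFunctionFieldBar N)} (hz : z ∈ gaussA A N) :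
    ∃ (n : ℕ) (Q : Polynomial ↥A) (P : ℕ → Polynomial ↥A),
      Q.map (IsLocalRing.residue ↥A) ≠ 0 ∧
      aeval x (Q.map A.subtype) * z ^ n +
        ∑ i ∈ Finset.range n, aeval x ((P i).map A.subtype) * z ^ i = 0 := by
  obtain ⟨p, hp, hpz, hc⟩ := hx z hz
  exact exists_A2_of_poly x z p hp hpz hc

/-- Raw relation for an element with nonzero reduction: `B(x) + Σ_{i<n} c_i(x) a^(n-i) = 0`. -/
theorem exists_poly_relation_of_monic (x : ↥(modularFunctionFieldBar N))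
    (hx : ∀ z ∈ gaussA A N, ∃ p : Polynomial ↥(modularFunctionFieldBar N), p.Monic ∧
      p.eval z = 0 ∧ ∀ i, ∃ a b : Polynomial ↥A, b.map (IsLocalRing.residue ↥A) ≠ 0 ∧
        p.coeff i * aeval x (b.map A.subtype) = aeval x (a.map A.subtype))
    {a : ↥(modularFunctionFieldBar N)} (ha : a ∈ gaussA A N) (hred : redA A N ⟨a, ha⟩ ≠ 0) :
    ∃ (n : ℕ) (B : Polynomial ↥A) (c : ℕ → Polynomial ↥A),
      B.map (IsLocalRing.residue ↥A) ≠ 0 ∧
      aeval x (B.map A.subtype) +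
        ∑ i ∈ Finset.range n, aeval x ((c i).map A.subtype) * a ^ (n - i) = 0 := by
  have ha0 : a ≠ 0 := by
    rintro rfl
    exact hred (map_zero _)
  obtain ⟨n, Q, P, hQ, hrel⟩ := exists_A2_of_monic x hx (inv_mem_gaussA ha hred)
  refine ⟨n, Q, P, hQ, ?_⟩
  have h1 : ∀ i ∈ Finset.range n, aeval x ((P i).map A.subtype) * a ^ (n - i) =
      a ^ n * (aeval x ((P i).map A.subtype) * a⁻¹ ^ i) := by
    intro i hi
    have hin : i ≤ n := (Finset.mem_range.mp hi).le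
    have h2 : a ^ n = a ^ (n - i) * a ^ i := by rw [← pow_add, Nat.sub_add_cancel hin]
    rw [h2, inv_pow]
    field_simp
  have h3 : aeval x (Q.map A.subtype) = a ^ n * (aeval x (Q.map A.subtype) * a⁻¹ ^ n) := by
    rw [inv_pow]
    field_simp
  rw [Finset.sum_congr rfl h1, ← Finset.mul_sum, h3, ← mul_add, hrel, mul_zero]

/-- The `norm` field of `IsChartModel`, generic coordinate. -/
theorem exists_poly_dvd_of_monic (x : ↥(modularFunctionFieldBar N))
    (hx : ∀ z ∈ gaussA A N, ∃ p : Polynomial ↥(modularFunctionFieldBar N), p.Monic ∧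
      p.eval z = 0 ∧ ∀ i, ∃ a b : Polynomial ↥A, b.map (IsLocalRing.residue ↥A) ≠ 0 ∧
        p.coeff i * aeval x (b.map A.subtype) = aeval x (a.map A.subtype))
    {a : ↥(modularFunctionFieldBar N)} (ha : a ∈ gaussA A N) (hred : redA A N ⟨a, ha⟩ ≠ 0)
    (𝔅 : Subring ↥(modularFunctionFieldBar N))
    (hconst : ∀ α : ↥A, algebraMap (AlgebraicClosure ℚ) ↥(modularFunctionFieldBar N)
      (α : AlgebraicClosure ℚ) ∈ 𝔅)
    (hx𝔅 : x ∈ 𝔅) (ha𝔅 : a ∈ 𝔅) :
    ∃ G : Polynomial ↥A, G.map (IsLocalRing.residue ↥A) ≠ 0 ∧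
      ∃ b ∈ 𝔅, aeval x (G.map A.subtype) = a * b := by
  obtain ⟨n, B, c, hB, hrel⟩ := exists_poly_relation_of_monic x hx ha hred
  have hpoly : ∀ g : Polynomial ↥A, aeval x (g.map A.subtype) ∈ 𝔅 := by
    intro g
    rw [aeval_eq_sum_range]
    refine Subring.sum_mem _ fun i _ => ?_
    rw [Algebra.smul_def, Polynomial.coeff_map]
    exact Subring.mul_mem _ (hconst (g.coeff i)) (Subring.pow_mem _ hx𝔅 i)
  refine ⟨B, hB, -∑ i ∈ Finset.range n, aeval x ((c i).map A.subtype) * a ^ (n - 1 - i), ?_, ?_⟩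
  · exact Subring.neg_mem _ (Subring.sum_mem _ fun i _ =>
      Subring.mul_mem _ (hpoly (c i)) (Subring.pow_mem _ ha𝔅 _))
  · have h1 : ∀ i ∈ Finset.range n, aeval x ((c i).map A.subtype) * a ^ (n - i) =
        a * (aeval x ((c i).map A.subtype) * a ^ (n - 1 - i)) := by
      intro i hi
      have hin : i < n := Finset.mem_range.mp hi
      have h2 : n - i = (n - 1 - i) + 1 := by omega
      rw [h2, pow_succ]
      ring
    rw [Finset.sum_congr rfl h1, ← Finset.mul_sum] at hrel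
    rw [mul_neg]
    exact eq_neg_of_add_eq_zero_left hrel

/-- The `norm` field of `IsChartModel`, generic coordinate, with `b` in the chart ring
`A[x][a]`. -/
theorem exists_aeval_eq_mul_of_monic (x : ↥(modularFunctionFieldBar N))
    (hx : ∀ z ∈ gaussA A N, ∃ p : Polynomial ↥(modularFunctionFieldBar N), p.Monic ∧
      p.eval z = 0 ∧ ∀ i, ∃ a b : Polynomial ↥A, b.map (IsLocalRing.residue ↥A) ≠ 0 ∧
        p.coeff i * aeval x (b.map A.subtype) = aeval x (a.map A.subtype))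
    {a : ↥(modularFunctionFieldBar N)} (ha : a ∈ gaussA A N) (hred : redA A N ⟨a, ha⟩ ≠ 0) :
    ∃ G : Polynomial ↥A, G.map (IsLocalRing.residue ↥A) ≠ 0 ∧
      ∃ b ∈ chartRing A N x a, aeval x (G.map A.subtype) = a * b :=
  exists_poly_dvd_of_monic x hx ha hred (chartRing A N x a)
    (fun α => algebraMap_mem_chartRing x a α.2) (left_mem_chartRing x a)
    (right_mem_chartRing x a)

section Charts

variable {ℓ : ℕ} [Fact ℓ.Prime] [NeZero N]

/-! ### The finite chart, `x = j` -/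

/-- (A2), common-denominator form, `x = j`. -/
theorem exists_A2_fin (hA : A.LiesOverPrime ℓ) (hℓN : ¬ ℓ ∣ N)
    {z : ↥(modularFunctionFieldBar N)} (hz : z ∈ gaussA A N) :
    ∃ (n : ℕ) (Q : Polynomial ↥A) (P : ℕ → Polynomial ↥A),
      Q.map (IsLocalRing.residue ↥A) ≠ 0 ∧
      aeval (Fermat.Agent.S24.jL (AlgebraicClosure ℚ) N) (Q.map A.subtype) * z ^ n +
        ∑ i ∈ Finset.range n,
          aeval (Fermat.Agent.S24.jL (AlgebraicClosure ℚ) N) ((P i).map A.subtype) * z ^ i = 0 :=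
  exists_A2_of_monic _ (fun _ hz' => exists_monic_gaussA hA hℓN hz') hz

theorem exists_poly_relation (hA : A.LiesOverPrime ℓ) (hℓN : ¬ ℓ ∣ N)
    {a : ↥(modularFunctionFieldBar N)} (ha : a ∈ gaussA A N) (hred : redA A N ⟨a, ha⟩ ≠ 0) :
    ∃ (n : ℕ) (B : Polynomial ↥A) (c : ℕ → Polynomial ↥A),
      B.map (IsLocalRing.residue ↥A) ≠ 0 ∧
      aeval (Fermat.Agent.S24.jL (AlgebraicClosure ℚ) N) (B.map A.subtype) +
        ∑ i ∈ Finset.range n,
          aeval (Fermat.Agent.S24.jL (AlgebraicClosure ℚ) N) ((c i).map A.subtype) *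
            a ^ (n - i) = 0 :=
  exists_poly_relation_of_monic _ (fun _ hz' => exists_monic_gaussA hA hℓN hz') ha hred

theorem exists_poly_dvd_fin (hA : A.LiesOverPrime ℓ) (hℓN : ¬ ℓ ∣ N)
    {a : ↥(modularFunctionFieldBar N)} (ha : a ∈ gaussA A N) (hred : redA A N ⟨a, ha⟩ ≠ 0)
    (𝔅 : Subring ↥(modularFunctionFieldBar N))
    (hconst : ∀ α : ↥A, algebraMap (AlgebraicClosure ℚ) ↥(modularFunctionFieldBar N)
      (α : AlgebraicClosure ℚ) ∈ 𝔅)
    (hx : Fermat.Agent.S24.jL (AlgebraicClosure ℚ) N ∈ 𝔅) (ha𝔅 : a ∈ 𝔅) :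
    ∃ G : Polynomial ↥A, G.map (IsLocalRing.residue ↥A) ≠ 0 ∧
      ∃ b ∈ 𝔅, aeval (Fermat.Agent.S24.jL (AlgebraicClosure ℚ) N) (G.map A.subtype) = a * b :=
  exists_poly_dvd_of_monic _ (fun _ hz' => exists_monic_gaussA hA hℓN hz') ha hred 𝔅 hconst hx ha𝔅

theorem exists_aeval_eq_mul_fin (hA : A.LiesOverPrime ℓ) (hℓN : ¬ ℓ ∣ N)
    {a : ↥(modularFunctionFieldBar N)} (ha : a ∈ gaussA A N) (hred : redA A N ⟨a, ha⟩ ≠ 0) :
    ∃ G : Polynomial ↥A, G.map (IsLocalRing.residue ↥A) ≠ 0 ∧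
      ∃ b ∈ chartRing A N (Fermat.Agent.S24.jL (AlgebraicClosure ℚ) N) a,
        aeval (Fermat.Agent.S24.jL (AlgebraicClosure ℚ) N) (G.map A.subtype) = a * b :=
  exists_aeval_eq_mul_of_monic _ (fun _ hz' => exists_monic_gaussA hA hℓN hz') ha hred

/-! ### The chart at infinity, `x = j⁻¹` -/

/-- (A2), common-denominator form, `x = j⁻¹`. -/
theorem exists_A2_inf (hA : A.LiesOverPrime ℓ) (hℓN : ¬ ℓ ∣ N)
    {z : ↥(modularFunctionFieldBar N)} (hz : z ∈ gaussA A N) :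
    ∃ (n : ℕ) (Q : Polynomial ↥A) (P : ℕ → Polynomial ↥A),
      Q.map (IsLocalRing.residue ↥A) ≠ 0 ∧
      aeval (Fermat.Agent.S24.jL (AlgebraicClosure ℚ) N)⁻¹ (Q.map A.subtype) * z ^ n +
        ∑ i ∈ Finset.range n,
          aeval (Fermat.Agent.S24.jL (AlgebraicClosure ℚ) N)⁻¹ ((P i).map A.subtype) * z ^ i =
            0 :=
  exists_A2_of_monic _ (fun _ hz' => exists_monic_gaussA_inv hA hℓN hz') hz

theorem exists_poly_relation_inf (hA : A.LiesOverPrime ℓ) (hℓN : ¬ ℓ ∣ N)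
    {a : ↥(modularFunctionFieldBar N)} (ha : a ∈ gaussA A N) (hred : redA A N ⟨a, ha⟩ ≠ 0) :
    ∃ (n : ℕ) (B : Polynomial ↥A) (c : ℕ → Polynomial ↥A),
      B.map (IsLocalRing.residue ↥A) ≠ 0 ∧
      aeval (Fermat.Agent.S24.jL (AlgebraicClosure ℚ) N)⁻¹ (B.map A.subtype) +
        ∑ i ∈ Finset.range n,
          aeval (Fermat.Agent.S24.jL (AlgebraicClosure ℚ) N)⁻¹ ((c i).map A.subtype) *
            a ^ (n - i) = 0 :=
  exists_poly_relation_of_monic _ (fun _ hz' => exists_monic_gaussA_inv hA hℓN hz') ha hred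

theorem exists_poly_dvd_inf (hA : A.LiesOverPrime ℓ) (hℓN : ¬ ℓ ∣ N)
    {a : ↥(modularFunctionFieldBar N)} (ha : a ∈ gaussA A N) (hred : redA A N ⟨a, ha⟩ ≠ 0)
    (𝔅 : Subring ↥(modularFunctionFieldBar N))
    (hconst : ∀ α : ↥A, algebraMap (AlgebraicClosure ℚ) ↥(modularFunctionFieldBar N)
      (α : AlgebraicClosure ℚ) ∈ 𝔅)
    (hx : (Fermat.Agent.S24.jL (AlgebraicClosure ℚ) N)⁻¹ ∈ 𝔅) (ha𝔅 : a ∈ 𝔅) :
    ∃ G : Polynomial ↥A, G.map (IsLocalRing.residue ↥A) ≠ 0 ∧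
      ∃ b ∈ 𝔅, aeval (Fermat.Agent.S24.jL (AlgebraicClosure ℚ) N)⁻¹ (G.map A.subtype) = a * b :=
  exists_poly_dvd_of_monic _ (fun _ hz' => exists_monic_gaussA_inv hA hℓN hz') ha hred 𝔅 hconst
    hx ha𝔅

theorem exists_aeval_eq_mul_inf (hA : A.LiesOverPrime ℓ) (hℓN : ¬ ℓ ∣ N)
    {a : ↥(modularFunctionFieldBar N)} (ha : a ∈ gaussA A N) (hred : redA A N ⟨a, ha⟩ ≠ 0) :
    ∃ G : Polynomial ↥A, G.map (IsLocalRing.residue ↥A) ≠ 0 ∧
      ∃ b ∈ chartRing A N (Fermat.Agent.S24.jL (AlgebraicClosure ℚ) N)⁻¹ a,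
        aeval (Fermat.Agent.S24.jL (AlgebraicClosure ℚ) N)⁻¹ (G.map A.subtype) = a * b :=
  exists_aeval_eq_mul_of_monic _ (fun _ hz' => exists_monic_gaussA_inv hA hℓN hz') ha hred

end Charts

end

end Fermat.Agent.S37
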