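import Fermat.Agent.S37.ChartInt
import Fermat.Agent.S37.ChartFin
import Fermat.Agent.S37.GaussANorm

/-!
P12 (S37), Tier 2, [CBC]: the `A`-models `chartA A N ℓ (chartAlgFin N ℓ)` (coordinate `j`) and
`chartA A N ℓ (chartAlgInf N ℓ)` (coordinate `1/j`) of the two charts of `X₀(N)` are chart models
in the sense of `IsChartModel` (`isChartModel_fin`, `isChartModel_inf`).

The fields are assembled from `ChartFin` (finite, integral), `ChartSat` (sat), `ChartNBC` (nbc),
`GaussANorm` (norm) and `ChartInt` (transcendence of the coordinate).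
-/

set_option autoImplicit false
set_option linter.unusedSectionVars false

namespace Fermat.Agent.S37

open ModularCurve ModularCurve.IgusaScheme Polynomial

variable {A : ValuationSubring (AlgebraicClosure ℚ)} {N : ℕ} [NeZero N] {ℓ : ℕ} [Fact ℓ.Prime]

theorem jBar_mem_chartA_fin : jBar N ∈ chartA A N ℓ (chartAlgFin N ℓ) :=
  iotaFull_mem_chartA (jChartFin N ℓ).2

theorem jBar_inv_mem_chartA_inf : (jBar N)⁻¹ ∈ chartA A N ℓ (chartAlgInf N ℓ) := by
  rw [← iotaFull_inv_jFull]
  exact iotaFull_mem_chartA (jInvChartInf N ℓ).2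

/-- The `A`-model of the chart `j ≠ ∞` is a chart model with coordinate `j`. -/
theorem isChartModel_fin (hA : A.LiesOverPrime ℓ) (hℓN : ¬ ℓ ∣ N) :
    IsChartModel A (jBar N) (chartA A N ℓ (chartAlgFin N ℓ)) where
  algebraMap_mem α := algebraMap_mem_chartA α.2
  x_mem := jBar_mem_chartA_fin
  x_transcendental := transcendental_jBar
  finite := chartA_fin_finite hA
  integral := chartA_fin_integral
  sat := chartA_torsionFree hA chartAlgFin_le_gaussV (ChartSat.hker_fin hℓN)
  nbc := nbc_fin N ℓ A
  norm _ ha hna :=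
    exists_poly_dvd_fin hA hℓN (chartA_fin_le_gaussA hA ha)
      (fun h0 => hna ((redA_eq_zero_iff_inMaxMul_fin hA hℓN ha).mp h0)) _
      (fun α => algebraMap_mem_chartA α.2) jBar_mem_chartA_fin ha

/-- The `A`-model of the cusp chart is a chart model with coordinate `1/j`. -/
theorem isChartModel_inf (hA : A.LiesOverPrime ℓ) (hℓN : ¬ ℓ ∣ N) :
    IsChartModel A (jBar N)⁻¹ (chartA A N ℓ (chartAlgInf N ℓ)) where
  algebraMap_mem α := algebraMap_mem_chartA α.2
  x_mem := jBar_inv_mem_chartA_inf
  x_transcendental := transcendental_jBar_inv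
  finite := chartA_inf_finite hA
  integral := chartA_inf_integral
  sat := chartA_torsionFree hA chartAlgInf_le_gaussV (ChartSat.hker_inf hℓN)
  nbc := nbc_inf N ℓ A
  norm _ ha hna :=
    exists_poly_dvd_inf hA hℓN (chartA_inf_le_gaussA hA ha)
      (fun h0 => hna ((redA_eq_zero_iff_inMaxMul_inf hA hℓN ha).mp h0)) _
      (fun α => algebraMap_mem_chartA α.2) jBar_inv_mem_chartA_inf ha

end Fermat.Agent.S37
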