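import Fermat.Agent.S37.GaussAInt
import Fermat.Agent.S37.GaussANorm
import Fermat.Agent.S37.ChartInt

/-!
P12 (S37), Tier 2, (DEC): every element `z` of the Gauss ring `gaussA A N` with nonzero reduction
is a quotient `a / b` of two elements of the chart model `𝔅` with nonzero reductions; and the
`liftRing` corollary consumed by `TorsionChart` / `TorsionInst`.
-/

set_option autoImplicit false

namespace Fermat.Agent.S37

open ModularCurve ModularCurve.IgusaScheme Fermat.Agent.S18 Polynomial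

noncomputable section

variable {A : ValuationSubring (AlgebraicClosure ℚ)} {N : ℕ}

/-- (DEC) ⇒ its `liftRing` form: for `Y ∈ liftRing` with nonzero reduction, `toF Y = a / b` with
`a, b ∈ 𝔅` of nonzero reduction, compatibly with the reduction `red : 𝔅 → F_k`. -/
theorem exists_dec_liftRing_of (𝔅 : Subring ↥(modularFunctionFieldBar N))
    (h𝔅 : 𝔅 ≤ gaussA A N)
    (hdec : ∀ (z : ↥(modularFunctionFieldBar N)) (hz : z ∈ gaussA A N), redA A N ⟨z, hz⟩ ≠ 0 →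
      ∃ a b : ↥𝔅, redA A N ⟨a, h𝔅 a.2⟩ ≠ 0 ∧ redA A N ⟨b, h𝔅 b.2⟩ ≠ 0 ∧
        z * (b : ↥(modularFunctionFieldBar N)) = a)
    (red : ↥𝔅 →+* ↥(modularFunctionFieldFullC (IsLocalRing.ResidueField ↥A) N))
    (hredcoe : ∀ b : ↥𝔅,
      ((red b : ↥(modularFunctionFieldFullC (IsLocalRing.ResidueField ↥A) N)) :
        LaurentSeries (IsLocalRing.ResidueField ↥A)) = redA A N ⟨b, h𝔅 b.2⟩)
    (Y : StepA.liftRing A (IsLocalRing.residue ↥A) N)
    (hY : StepA.toFk A (IsLocalRing.residue ↥A) N Y ≠ 0) :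
    ∃ a b : ↥𝔅, red a ≠ 0 ∧ red b ≠ 0 ∧
      StepA.toF A (IsLocalRing.residue ↥A) N Y * (b : ↥(modularFunctionFieldBar N)) = a ∧
      StepA.toFk A (IsLocalRing.residue ↥A) N Y * red b = red a := by
  have hne : ∀ b : ↥𝔅, redA A N ⟨b, h𝔅 b.2⟩ ≠ 0 → red b ≠ 0 := by
    intro b hb h0
    apply hb
    rw [← hredcoe, h0]
    rfl
  have hzred : redA A N ⟨StepA.toF A (IsLocalRing.residue ↥A) N Y, toF_mem_gaussA Y⟩ ≠ 0 := by
    rw [redA_toF]
    intro h0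
    exact hY (Subtype.ext h0)
  obtain ⟨a, b, ha, hb, hab⟩ := hdec _ (toF_mem_gaussA Y) hzred
  refine ⟨a, b, hne a ha, hne b hb, hab, Subtype.ext ?_⟩
  have h1 : (⟨StepA.toF A (IsLocalRing.residue ↥A) N Y, toF_mem_gaussA Y⟩ : ↥(gaussA A N)) *
      ⟨b, h𝔅 b.2⟩ = ⟨a, h𝔅 a.2⟩ := Subtype.ext hab
  have h2 := congrArg (redA A N) h1
  rw [map_mul, redA_toF] at h2
  show ((StepA.toFk A (IsLocalRing.residue ↥A) N Y :
      ↥(modularFunctionFieldFullC (IsLocalRing.ResidueField ↥A) N)) :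
      LaurentSeries (IsLocalRing.ResidueField ↥A)) * _ = _
  rw [hredcoe, hredcoe]
  exact h2

section Final

variable {ℓ : ℕ} [Fact ℓ.Prime] [NeZero N]

/-- **(DEC)**, finite chart: every `z ∈ gaussA` with nonzero reduction is `a / b` with
`a, b ∈ chartA A N ℓ (chartAlgFin N ℓ)` of nonzero reduction. -/
theorem exists_dec_fin (hA : A.LiesOverPrime ℓ) (hℓN : ¬ ℓ ∣ N)
    (z : ↥(modularFunctionFieldBar N)) (hz : z ∈ gaussA A N) (hred : redA A N ⟨z, hz⟩ ≠ 0) :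
    ∃ a b : ↥(chartA A N ℓ (chartAlgFin N ℓ)),
      redA A N ⟨a, chartA_fin_le_gaussA hA a.2⟩ ≠ 0 ∧
      redA A N ⟨b, chartA_fin_le_gaussA hA b.2⟩ ≠ 0 ∧
      z * (b : ↥(modularFunctionFieldBar N)) = a := by
  obtain ⟨n, Q, P, hQ, hrel⟩ := exists_A2_fin hA hℓN hz
  obtain ⟨a, b, ha, hb, hra, hrb, hab⟩ := exists_dec_of_relation
    (x := Fermat.Agent.S24.jL (AlgebraicClosure ℚ) N) jL_mem_gaussA transcendental_redA_jL
    (chartA A N ℓ (chartAlgFin N ℓ)) (chartA_fin_le_gaussA hA)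
    (fun b hb => chartA_fin_of_isIntegral hA hℓN hb) hz hred n Q P hQ hrel
  exact ⟨⟨a, ha⟩, ⟨b, hb⟩, hra, hrb, hab⟩

/-- **(DEC)**, chart at infinity. -/
theorem exists_dec_inf (hA : A.LiesOverPrime ℓ) (hℓN : ¬ ℓ ∣ N)
    (z : ↥(modularFunctionFieldBar N)) (hz : z ∈ gaussA A N) (hred : redA A N ⟨z, hz⟩ ≠ 0) :
    ∃ a b : ↥(chartA A N ℓ (chartAlgInf N ℓ)),
      redA A N ⟨a, chartA_inf_le_gaussA hA a.2⟩ ≠ 0 ∧
      redA A N ⟨b, chartA_inf_le_gaussA hA b.2⟩ ≠ 0 ∧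
      z * (b : ↥(modularFunctionFieldBar N)) = a := by
  obtain ⟨n, Q, P, hQ, hrel⟩ := exists_A2_inf hA hℓN hz
  obtain ⟨a, b, ha, hb, hra, hrb, hab⟩ := exists_dec_of_relation
    (x := (Fermat.Agent.S24.jL (AlgebraicClosure ℚ) N)⁻¹) jL_inv_mem_gaussA
    transcendental_redA_jL_inv
    (chartA A N ℓ (chartAlgInf N ℓ)) (chartA_inf_le_gaussA hA)
    (fun b hb => chartA_inf_of_isIntegral hA hℓN hb) hz hred n Q P hQ hrel
  exact ⟨⟨a, ha⟩, ⟨b, hb⟩, hra, hrb, hab⟩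

/-- (DEC) for `liftRing`, finite chart, in the shape consumed by `TorsionChart`. -/
theorem exists_dec_liftRing_fin (hA : A.LiesOverPrime ℓ) (hℓN : ¬ ℓ ∣ N)
    (red : ↥(chartA A N ℓ (chartAlgFin N ℓ)) →+*
      ↥(modularFunctionFieldFullC (IsLocalRing.ResidueField ↥A) N))
    (hredcoe : ∀ b : ↥(chartA A N ℓ (chartAlgFin N ℓ)),
      ((red b : ↥(modularFunctionFieldFullC (IsLocalRing.ResidueField ↥A) N)) :
        LaurentSeries (IsLocalRing.ResidueField ↥A)) =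
        redA A N ⟨b, chartA_fin_le_gaussA hA b.2⟩)
    (Y : StepA.liftRing A (IsLocalRing.residue ↥A) N)
    (hY : StepA.toFk A (IsLocalRing.residue ↥A) N Y ≠ 0) :
    ∃ a b : ↥(chartA A N ℓ (chartAlgFin N ℓ)), red a ≠ 0 ∧ red b ≠ 0 ∧
      StepA.toF A (IsLocalRing.residue ↥A) N Y * (b : ↥(modularFunctionFieldBar N)) = a ∧
      StepA.toFk A (IsLocalRing.residue ↥A) N Y * red b = red a :=
  exists_dec_liftRing_of _ (chartA_fin_le_gaussA hA) (exists_dec_fin hA hℓN) red hredcoe Y hY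

/-- (DEC) for `liftRing`, chart at infinity, in the shape consumed by `TorsionChart`. -/
theorem exists_dec_liftRing_inf (hA : A.LiesOverPrime ℓ) (hℓN : ¬ ℓ ∣ N)
    (red : ↥(chartA A N ℓ (chartAlgInf N ℓ)) →+*
      ↥(modularFunctionFieldFullC (IsLocalRing.ResidueField ↥A) N))
    (hredcoe : ∀ b : ↥(chartA A N ℓ (chartAlgInf N ℓ)),
      ((red b : ↥(modularFunctionFieldFullC (IsLocalRing.ResidueField ↥A) N)) :
        LaurentSeries (IsLocalRing.ResidueField ↥A)) =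
        redA A N ⟨b, chartA_inf_le_gaussA hA b.2⟩)
    (Y : StepA.liftRing A (IsLocalRing.residue ↥A) N)
    (hY : StepA.toFk A (IsLocalRing.residue ↥A) N Y ≠ 0) :
    ∃ a b : ↥(chartA A N ℓ (chartAlgInf N ℓ)), red a ≠ 0 ∧ red b ≠ 0 ∧
      StepA.toF A (IsLocalRing.residue ↥A) N Y * (b : ↥(modularFunctionFieldBar N)) = a ∧
      StepA.toFk A (IsLocalRing.residue ↥A) N Y * red b = red a :=
  exists_dec_liftRing_of _ (chartA_inf_le_gaussA hA) (exists_dec_inf hA hℓN) red hredcoe Y hY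

end Final

end

end Fermat.Agent.S37
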