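import Fermat.Agent.S37.RedPt

/-!
P12 (S37), Tier 2, [CBC] shared definition: the `A`-model `chartA A N ℓ C ⊂ F_L` of a chart
`C ⊂ F_ℚ` (`C = chartAlgFin N ℓ` or `chartAlgInf N ℓ`), i.e. the subring of the function field
of `X₀(N)` over `ℚ̄` generated by the constants of the valuation ring `A ⊂ ℚ̄` and `ι(C)`
(`ι = iotaFull N`).  It is the `A`-span of `ι(C)` (`exists_sum_of_mem_chartA`).
-/

set_option autoImplicit false
set_option linter.unusedSectionVars false

namespace Fermat.Agent.S37

open ModularCurve ModularCurve.IgusaScheme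

variable (A : ValuationSubring (AlgebraicClosure ℚ)) (N : ℕ) [NeZero N] (ℓ : ℕ) [Fact ℓ.Prime]

/-- The `A`-model of a chart `C`: the subring of `F_L` generated by the constants of `A` and
`ι(C)`. -/
noncomputable def chartA
    (C : Subalgebra ↥(GaloisRep.ratLocalizedAt ℓ) ↥(modularFunctionFieldFull N)) :
    Subring ↥(modularFunctionFieldBar N) :=
  Subring.closure ((fun a : AlgebraicClosure ℚ =>
    algebraMap (AlgebraicClosure ℚ) ↥(modularFunctionFieldBar N) a) ''
      (A : Set (AlgebraicClosure ℚ)) ∪ (iotaFull N '' (C : Set ↥(modularFunctionFieldFull N))))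

variable {A N ℓ}
variable {C : Subalgebra ↥(GaloisRep.ratLocalizedAt ℓ) ↥(modularFunctionFieldFull N)}

theorem algebraMap_mem_chartA {a : AlgebraicClosure ℚ} (ha : a ∈ A) :
    algebraMap (AlgebraicClosure ℚ) ↥(modularFunctionFieldBar N) a ∈ chartA A N ℓ C :=
  Subring.subset_closure (Or.inl ⟨a, ha, rfl⟩)

theorem iotaFull_mem_chartA {f : ↥(modularFunctionFieldFull N)} (hf : f ∈ C) :
    iotaFull N f ∈ chartA A N ℓ C :=
  Subring.subset_closure (Or.inr ⟨f, hf, rfl⟩)

/-- `chartA` is contained in every subring containing the constants of `A` and `ι(C)`. -/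
theorem chartA_le {S : Subring ↥(modularFunctionFieldBar N)}
    (hA : ∀ a ∈ A, algebraMap (AlgebraicClosure ℚ) ↥(modularFunctionFieldBar N) a ∈ S)
    (hC : ∀ f ∈ C, iotaFull N f ∈ S) : chartA A N ℓ C ≤ S := by
  refine Subring.closure_le.mpr ?_
  rintro x (⟨a, ha, rfl⟩ | ⟨f, hf, rfl⟩)
  · exact hA a ha
  · exact hC f hf

theorem chartA_mono {C' : Subalgebra ↥(GaloisRep.ratLocalizedAt ℓ) ↥(modularFunctionFieldFull N)}
    (h : C ≤ C') : chartA A N ℓ C ≤ chartA A N ℓ C' :=
  chartA_le (fun _ ha => algebraMap_mem_chartA ha) (fun _ hf => iotaFull_mem_chartA (h hf))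

/-- Elements of the form `∑ aᵢ · ι(fᵢ)`, `aᵢ ∈ A`, `fᵢ ∈ C`. -/
theorem sum_mem_chartA {n : ℕ} (a : Fin n → AlgebraicClosure ℚ)
    (f : Fin n → ↥(modularFunctionFieldFull N)) (ha : ∀ i, a i ∈ A) (hf : ∀ i, f i ∈ C) :
    ∑ i, algebraMap (AlgebraicClosure ℚ) ↥(modularFunctionFieldBar N) (a i) * iotaFull N (f i) ∈
      chartA A N ℓ C :=
  Subring.sum_mem _ fun i _ =>
    Subring.mul_mem _ (algebraMap_mem_chartA (ha i)) (iotaFull_mem_chartA (hf i))

/-- `chartA` is the `A`-span of `ι(C)`. -/
theorem exists_sum_of_mem_chartA {z : ↥(modularFunctionFieldBar N)} (hz : z ∈ chartA A N ℓ C) :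
    ∃ (n : ℕ) (a : Fin n → AlgebraicClosure ℚ) (f : Fin n → ↥(modularFunctionFieldFull N)),
      (∀ i, a i ∈ A) ∧ (∀ i, f i ∈ C) ∧
        z = ∑ i, algebraMap (AlgebraicClosure ℚ) ↥(modularFunctionFieldBar N) (a i) *
          iotaFull N (f i) := by
  -- the set of such sums is a subring
  let P : ↥(modularFunctionFieldBar N) → Prop := fun z =>
    ∃ (n : ℕ) (a : Fin n → AlgebraicClosure ℚ) (f : Fin n → ↥(modularFunctionFieldFull N)),
      (∀ i, a i ∈ A) ∧ (∀ i, f i ∈ C) ∧
        z = ∑ i, algebraMap (AlgebraicClosure ℚ) ↥(modularFunctionFieldBar N) (a i) *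
          iotaFull N (f i)
  have hone : P 1 := ⟨1, fun _ => 1, fun _ => 1, fun _ => A.one_mem, fun _ => C.one_mem, by
    simp⟩
  have hadd : ∀ x y, P x → P y → P (x + y) := by
    rintro x y ⟨n, a, f, ha, hf, rfl⟩ ⟨m, b, g, hb, hg, rfl⟩
    refine ⟨n + m, Fin.append a b, Fin.append f g, ?_, ?_, ?_⟩
    · intro i
      refine Fin.addCases (fun j => ?_) (fun j => ?_) i
      · rw [Fin.append_left]; exact ha j
      · rw [Fin.append_right]; exact hb j
    · intro i
      refine Fin.addCases (fun j => ?_) (fun j => ?_) i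
      · rw [Fin.append_left]; exact hf j
      · rw [Fin.append_right]; exact hg j
    · rw [Fin.sum_univ_add]
      simp only [Fin.append_left, Fin.append_right]
  have hneg : ∀ x, P x → P (-x) := by
    rintro x ⟨n, a, f, ha, hf, rfl⟩
    refine ⟨n, fun i => -a i, f, fun i => A.neg_mem _ (ha i), hf, ?_⟩
    rw [← Finset.sum_neg_distrib]
    refine Finset.sum_congr rfl fun i _ => ?_
    rw [map_neg, neg_mul]
  have hmul : ∀ x y, P x → P y → P (x * y) := by
    rintro x y ⟨n, a, f, ha, hf, rfl⟩ ⟨m, b, g, hb, hg, rfl⟩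
    -- induction on the first sum
    have key : ∀ (s : Finset (Fin n)), P ((∑ i ∈ s,
        algebraMap (AlgebraicClosure ℚ) ↥(modularFunctionFieldBar N) (a i) * iotaFull N (f i)) *
        ∑ j, algebraMap (AlgebraicClosure ℚ) ↥(modularFunctionFieldBar N) (b j) *
          iotaFull N (g j)) := by
      intro s
      induction s using Finset.induction_on with
      | empty =>
        rw [Finset.sum_empty, zero_mul]
        exact ⟨0, Fin.elim0, Fin.elim0, fun i => i.elim0, fun i => i.elim0, by simp⟩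
      | insert i s hi ih =>
        rw [Finset.sum_insert hi, add_mul]
        refine hadd _ _ ?_ ih
        refine ⟨m, fun j => a i * b j, fun j => f i * g j,
          fun j => A.mul_mem _ _ (ha i) (hb j), fun j => C.mul_mem (hf i) (hg j), ?_⟩
        rw [Finset.mul_sum]
        refine Finset.sum_congr rfl fun j _ => ?_
        rw [map_mul, map_mul]
        ring
    exact key Finset.univ
  have hzero : P 0 := ⟨0, Fin.elim0, Fin.elim0, fun i => i.elim0, fun i => i.elim0, by simp⟩
  have hmem : ∀ x ∈ chartA A N ℓ C, P x := by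
    intro x hx
    induction hx using Subring.closure_induction with
    | mem y hy =>
      rcases hy with ⟨a, ha, rfl⟩ | ⟨f, hf, rfl⟩
      · exact ⟨1, fun _ => a, fun _ => 1, fun _ => ha, fun _ => C.one_mem, by simp⟩
      · exact ⟨1, fun _ => 1, fun _ => f, fun _ => A.one_mem, fun _ => hf, by simp⟩
    | zero => exact hzero
    | one => exact hone
    | add x y _ _ hx hy => exact hadd x y hx hy
    | neg x _ hx => exact hneg x hx
    | mul x y _ _ hx hy => exact hmul x y hx hy
  exact hmem z hz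

end Fermat.Agent.S37
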