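import Mathlib
import Fermat.Agent.S18.StepA
import Fermat.Agent.S24.PlacesBasic

/-!
# P12 (S37) [TOR], abstract layers

* **T1** `ord_red_eq_of_chart` : the statement (G') at a place `Q` of `F_k`, from the abstract
  conservation package of one chart (`h0`, `hfin`, `hnn`, `WC1`, `WC2`, `DED`, `RAD`);
  `ord_toFk_eq_of_chart` : the same for two elements of `liftRing` decomposed in the chart (DEC).
* **T2** `mem_principal_of_gen` / `mem_principal_of_IV_data` : (IV) from (GEN) + (G') +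
  "functions without zeros and poles are constant" + `Star`.
* **T3** `eq_zero_of_IV` : class-level induction: injectivity of `ρ` on torsion prime to `ℓ`.
-/

set_option autoImplicit false

noncomputable section

namespace Fermat.Agent.S37

open AlgebraicCurve ModularCurve

namespace TorsionAbs

/-! ### Finite sums of orders over a set of places -/

section Zsum

variable {K F : Type*} [Field K] [Field F] [Algebra K F]

theorem zsum_mul (Zs : Set (Place K F)) {f g : F} (hf : f ≠ 0) (hg : g ≠ 0)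
    (hff : {P ∈ Zs | P.ord f ≠ 0}.Finite) (hgf : {P ∈ Zs | P.ord g ≠ 0}.Finite) :
    ∑ᶠ P ∈ Zs, P.ord (f * g) = ∑ᶠ P ∈ Zs, P.ord f + ∑ᶠ P ∈ Zs, P.ord g := by
  have h1 : (Zs ∩ Function.support fun P : Place K F => P.ord f).Finite := hff
  have h2 : (Zs ∩ Function.support fun P : Place K F => P.ord g).Finite := hgf
  rw [← finsum_mem_add_distrib' h1 h2]
  exact finsum_mem_congr rfl (fun P _ => P.ord_mul hf hg)

theorem zsum_pow (Zs : Set (Place K F)) (f : F) (n : ℕ) :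
    ∑ᶠ P ∈ Zs, P.ord (f ^ n) = n * ∑ᶠ P ∈ Zs, P.ord f := by
  rw [mul_finsum_mem]
  exact finsum_mem_congr rfl (fun P _ => Fermat.Agent.S18.StepA.ord_pow P f n)

theorem zsum_pos (Zs : Set (Place K F)) (g : Place K F → ℤ) (hnn : ∀ P ∈ Zs, 0 ≤ g P)
    (hfin : {P ∈ Zs | g P ≠ 0}.Finite) (hex : ∃ P ∈ Zs, 0 < g P) : 0 < ∑ᶠ P ∈ Zs, g P := by
  have h1 : (Zs ∩ Function.support g).Finite := hfin
  rw [finsum_mem_eq_sum g h1]
  obtain ⟨P, hP, hgP⟩ := hex
  refine Finset.sum_pos' (fun i hi => hnn i ?_) ⟨P, ?_, hgP⟩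
  · exact ((Set.Finite.mem_toFinset h1).1 hi).1
  · exact (Set.Finite.mem_toFinset h1).2 ⟨hP, hgP.ne'⟩

theorem zsum_eq_add_mul (Zs : Set (Place K F)) (g h : Place K F → ℤ) (q : ℤ) (D : Divisor K F)
    (hhfin : {P ∈ Zs | h P ≠ 0}.Finite) (hD : ∀ P ∈ Zs, g P - h P = q * D P) :
    ∑ᶠ P ∈ Zs, g P = ∑ᶠ P ∈ Zs, h P + q * ∑ᶠ P ∈ Zs, D P := by
  have h1 : (Zs ∩ Function.support h).Finite := hhfin
  have h2 : (Zs ∩ Function.support fun P : Place K F => q * D P).Finite := by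
    refine Set.Finite.subset D.support.finite_toSet ?_
    rintro P ⟨_, hP⟩
    rw [Finset.mem_coe, Finsupp.mem_support_iff]
    intro h0
    exact hP (by simp [h0])
  rw [mul_finsum_mem, ← finsum_mem_add_distrib' h1 h2]
  exact finsum_mem_congr rfl (fun P hP => by linarith [hD P hP])

/-- The sum of a divisor over a fibre of a map of places is the coefficient of the pushed
forward divisor. -/
theorem finsum_mem_fiber_eq_mapDomain {Y : Type*} (r : Place K F → Y) (D : Divisor K F)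
    (y : Y) : ∑ᶠ P ∈ {P | r P = y}, D P = Finsupp.mapDomain r D y := by
  classical
  have h1 : ({P | r P = y} ∩ Function.support fun P : Place K F => D P).Finite := by
    refine Set.Finite.subset D.support.finite_toSet ?_
    rintro P ⟨_, hP⟩
    exact Finsupp.mem_support_iff.2 hP
  rw [finsum_mem_eq_sum _ h1, Finsupp.mapDomain, Finsupp.sum_apply, Finsupp.sum]
  simp only [Finsupp.single_apply]
  rw [← Finset.sum_filter]
  refine Finset.sum_congr ?_ (fun _ _ => rfl)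
  ext P
  simp only [Set.Finite.mem_toFinset, Set.mem_inter_iff, Set.mem_ofPred_eq, Function.mem_support,
    Finset.mem_filter, Finsupp.mem_support_iff]
  tauto

end Zsum

/-! ### T1: (G') at a place -/

section T1

variable {K F K' F' : Type*} [Field K] [Field F] [Algebra K F] [Field K'] [Field F']
  [Algebra K' F']

/-- Core of (G'): one inequality implies equality. -/
theorem ord_red_eq_of_le (𝔅 : Subring F) (red : ↥𝔅 →+* F') (Q : Place K' F')
    (Zs : Set (Place K F))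
    (h0 : ∀ a : 𝔅, red a ≠ 0 → 0 ≤ Q.ord (red a))
    (hfin : ∀ a : 𝔅, (a : F) ≠ 0 → {P ∈ Zs | P.ord (a : F) ≠ 0}.Finite)
    (hnn : ∀ P ∈ Zs, ∀ a : 𝔅, red a ≠ 0 →
      0 ≤ P.ord (a : F) ∧ (0 < P.ord (a : F) → 0 < Q.ord (red a)))
    (hWC1 : ∀ a a' : 𝔅, red a ≠ 0 → red a = red a' →
      ∑ᶠ P ∈ Zs, P.ord (a : F) = ∑ᶠ P ∈ Zs, P.ord (a' : F))
    (hWC2 : ∀ a : 𝔅, red a ≠ 0 → 0 < Q.ord (red a) → ∃ P ∈ Zs, 0 < P.ord (a : F))
    (Int : F' → Prop)
    (hDED : ∀ v : F', v ≠ 0 → 0 ≤ Q.ord v →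
      ∃ s₁ s₂ : F', Int s₁ ∧ Int s₂ ∧ s₂ ≠ 0 ∧ Q.ord s₂ = 0 ∧ v * s₂ = s₁)
    (hRAD : ∀ z : F', Int z →
      ∃ n : ℕ, 1 ≤ n ∧ ∃ σ b : 𝔅, red σ ≠ 0 ∧ Q.ord (red σ) = 0 ∧ red b = red σ * z ^ n)
    (a b : 𝔅) (ha : red a ≠ 0) (hb : red b ≠ 0)
    (hab : ∑ᶠ P ∈ Zs, P.ord (a : F) = ∑ᶠ P ∈ Zs, P.ord (b : F))
    (hle : Q.ord (red b) ≤ Q.ord (red a)) :
    Q.ord (red a) = Q.ord (red b) := by
  have hne : ∀ c : 𝔅, red c ≠ 0 → (c : F) ≠ 0 := by
    intro c hc h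
    apply hc
    have : c = 0 := Subtype.ext h
    rw [this, map_zero]
  obtain ⟨v, hv⟩ : ∃ v : F', v = red a / red b := ⟨_, rfl⟩
  have hv0 : v ≠ 0 := by rw [hv]; exact div_ne_zero ha hb
  have hvord : Q.ord v = Q.ord (red a) - Q.ord (red b) := by
    rw [hv]; exact Fermat.Agent.S18.StepA.ord_div Q ha hb
  have hvnn : 0 ≤ Q.ord v := by rw [hvord]; linarith
  have hvb : v * red b = red a := by rw [hv]; exact div_mul_cancel₀ _ hb
  obtain ⟨s₁, s₂, hs₁, hs₂, hs₂0, hs₂ord, hvs⟩ := hDED v hv0 hvnn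
  have hs₁0 : s₁ ≠ 0 := by rw [← hvs]; exact mul_ne_zero hv0 hs₂0
  obtain ⟨n₁, hn₁, σ₁, b₁, hσ₁, hσ₁ord, hb₁⟩ := hRAD s₁ hs₁
  obtain ⟨n₂, hn₂, σ₂, b₂, hσ₂, hσ₂ord, hb₂⟩ := hRAD s₂ hs₂
  obtain ⟨n, hn⟩ : ∃ n : ℕ, n = n₁ * n₂ := ⟨_, rfl⟩
  have hn1 : 1 ≤ n := by
    rw [hn]; exact Nat.one_le_iff_ne_zero.2 (Nat.mul_ne_zero (by omega) (by omega))
  obtain ⟨T₁, hT₁⟩ : ∃ T₁ : 𝔅, T₁ = b₁ ^ n₂ * σ₂ ^ n₁ := ⟨_, rfl⟩
  obtain ⟨T₂, hT₂⟩ : ∃ T₂ : 𝔅, T₂ = b₂ ^ n₁ * σ₁ ^ n₂ := ⟨_, rfl⟩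
  obtain ⟨τ, hτ⟩ : ∃ τ : F', τ = red σ₁ ^ n₂ * red σ₂ ^ n₁ := ⟨_, rfl⟩
  have hτ0 : τ ≠ 0 := by rw [hτ]; exact mul_ne_zero (pow_ne_zero _ hσ₁) (pow_ne_zero _ hσ₂)
  have hτord : Q.ord τ = 0 := by
    rw [hτ, Q.ord_mul (pow_ne_zero _ hσ₁) (pow_ne_zero _ hσ₂),
      Fermat.Agent.S18.StepA.ord_pow, Fermat.Agent.S18.StepA.ord_pow, hσ₁ord, hσ₂ord]
    simp
  have hrT₁ : red T₁ = τ * s₁ ^ n := by
    rw [hT₁, map_mul, map_pow, map_pow, hb₁, hτ, hn]
    ring
  have hrT₂ : red T₂ = τ * s₂ ^ n := by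
    rw [hT₂, map_mul, map_pow, map_pow, hb₂, hτ, hn]
    ring
  have hT₁0 : red T₁ ≠ 0 := by rw [hrT₁]; exact mul_ne_zero hτ0 (pow_ne_zero _ hs₁0)
  have hT₂0 : red T₂ ≠ 0 := by rw [hrT₂]; exact mul_ne_zero hτ0 (pow_ne_zero _ hs₂0)
  have hT₁ord : Q.ord (red T₁) = n * Q.ord s₁ := by
    rw [hrT₁, Q.ord_mul hτ0 (pow_ne_zero _ hs₁0), Fermat.Agent.S18.StepA.ord_pow, hτord,
      zero_add]
  have hT₂ord : Q.ord (red T₂) = 0 := by
    rw [hrT₂, Q.ord_mul hτ0 (pow_ne_zero _ hs₂0), Fermat.Agent.S18.StepA.ord_pow, hτord,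
      hs₂ord]
    simp
  -- the two lifts with equal reduction
  have hkey : red (a ^ n * T₂) = red (b ^ n * T₁) := by
    rw [map_mul, map_mul, map_pow, map_pow, hrT₁, hrT₂, ← hvb, ← hvs]
    ring
  have hkey0 : red (a ^ n * T₂) ≠ 0 := by
    rw [map_mul, map_pow]
    exact mul_ne_zero (pow_ne_zero _ ha) hT₂0
  have hW := hWC1 _ _ hkey0 hkey
  have haF := hne a ha
  have hbF := hne b hb
  have hT₁F := hne T₁ hT₁0
  have hT₂F := hne T₂ hT₂0
  have hanF : ((a ^ n : 𝔅) : F) ≠ 0 := by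
    rw [Subring.coe_pow]; exact pow_ne_zero _ haF
  have hbnF : ((b ^ n : 𝔅) : F) ≠ 0 := by
    rw [Subring.coe_pow]; exact pow_ne_zero _ hbF
  have e1 : ∑ᶠ P ∈ Zs, P.ord ((a ^ n * T₂ : 𝔅) : F)
      = n * ∑ᶠ P ∈ Zs, P.ord (a : F) + ∑ᶠ P ∈ Zs, P.ord (T₂ : F) := by
    rw [Subring.coe_mul, zsum_mul Zs hanF hT₂F (hfin _ hanF) (hfin _ hT₂F), Subring.coe_pow,
      zsum_pow]
  have e2 : ∑ᶠ P ∈ Zs, P.ord ((b ^ n * T₁ : 𝔅) : F)
      = n * ∑ᶠ P ∈ Zs, P.ord (b : F) + ∑ᶠ P ∈ Zs, P.ord (T₁ : F) := by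
    rw [Subring.coe_mul, zsum_mul Zs hbnF hT₁F (hfin _ hbnF) (hfin _ hT₁F), Subring.coe_pow,
      zsum_pow]
  have hZT₂ : ∑ᶠ P ∈ Zs, P.ord (T₂ : F) = 0 := by
    refine finsum_mem_eq_zero_of_forall_eq_zero fun P hP => ?_
    obtain ⟨h1, h2⟩ := hnn P hP T₂ hT₂0
    by_contra hcon
    have h3 : 0 < P.ord (T₂ : F) := lt_of_le_of_ne h1 (Ne.symm hcon)
    have h4 := h2 h3
    rw [hT₂ord] at h4
    exact lt_irrefl _ h4
  have hZT₁ : ∑ᶠ P ∈ Zs, P.ord (T₁ : F) = 0 := by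
    rw [e1, e2, hab, hZT₂] at hW
    linarith
  have hT₁ord0 : Q.ord (red T₁) = 0 := by
    by_contra hcon
    have h1 : 0 < Q.ord (red T₁) := lt_of_le_of_ne (h0 T₁ hT₁0) (Ne.symm hcon)
    have h2 := zsum_pos Zs (fun P => P.ord (T₁ : F)) (fun P hP => (hnn P hP T₁ hT₁0).1)
      (hfin T₁ hT₁F) (hWC2 T₁ hT₁0 h1)
    rw [hZT₁] at h2
    exact lt_irrefl _ h2
  have hs₁ord : Q.ord s₁ = 0 := by
    rw [hT₁ord] at hT₁ord0
    have hn0 : (n : ℤ) ≠ 0 := by exact_mod_cast (by omega : n ≠ 0)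
    exact (mul_eq_zero.1 hT₁ord0).resolve_left hn0
  have hv0' : Q.ord v = 0 := by
    have h1 : Q.ord (v * s₂) = Q.ord v + Q.ord s₂ := Q.ord_mul hv0 hs₂0
    rw [hvs, hs₁ord, hs₂ord, add_zero] at h1
    exact h1.symm
  rw [hvord] at hv0'
  linarith

/-- **T1 = (G') at a place `Q`**, abstract chart form. -/
theorem ord_red_eq_of_chart (𝔅 : Subring F) (red : ↥𝔅 →+* F') (Q : Place K' F')
    (Zs : Set (Place K F))
    (h0 : ∀ a : 𝔅, red a ≠ 0 → 0 ≤ Q.ord (red a))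
    (hfin : ∀ a : 𝔅, (a : F) ≠ 0 → {P ∈ Zs | P.ord (a : F) ≠ 0}.Finite)
    (hnn : ∀ P ∈ Zs, ∀ a : 𝔅, red a ≠ 0 →
      0 ≤ P.ord (a : F) ∧ (0 < P.ord (a : F) → 0 < Q.ord (red a)))
    (hWC1 : ∀ a a' : 𝔅, red a ≠ 0 → red a = red a' →
      ∑ᶠ P ∈ Zs, P.ord (a : F) = ∑ᶠ P ∈ Zs, P.ord (a' : F))
    (hWC2 : ∀ a : 𝔅, red a ≠ 0 → 0 < Q.ord (red a) → ∃ P ∈ Zs, 0 < P.ord (a : F))
    (Int : F' → Prop)
    (hDED : ∀ v : F', v ≠ 0 → 0 ≤ Q.ord v →
      ∃ s₁ s₂ : F', Int s₁ ∧ Int s₂ ∧ s₂ ≠ 0 ∧ Q.ord s₂ = 0 ∧ v * s₂ = s₁)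
    (hRAD : ∀ z : F', Int z →
      ∃ n : ℕ, 1 ≤ n ∧ ∃ σ b : 𝔅, red σ ≠ 0 ∧ Q.ord (red σ) = 0 ∧ red b = red σ * z ^ n)
    (q : ℕ) (D : Divisor K F) (a b : 𝔅) (ha : red a ≠ 0) (hb : red b ≠ 0)
    (hD : ∀ P ∈ Zs, P.ord (a : F) - P.ord (b : F) = q * D P)
    (hred : ∑ᶠ P ∈ Zs, D P = 0) :
    Q.ord (red a) = Q.ord (red b) := by
  have hne : ∀ c : 𝔅, red c ≠ 0 → (c : F) ≠ 0 := by
    intro c hc h
    apply hc
    have : c = 0 := Subtype.ext h
    rw [this, map_zero]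
  have hab : ∑ᶠ P ∈ Zs, P.ord (a : F) = ∑ᶠ P ∈ Zs, P.ord (b : F) := by
    rw [zsum_eq_add_mul Zs (fun P => P.ord (a : F)) (fun P => P.ord (b : F)) q D
      (hfin b (hne b hb)) hD, hred, mul_zero, add_zero]
  rcases le_total (Q.ord (red b)) (Q.ord (red a)) with hle | hle
  · exact ord_red_eq_of_le 𝔅 red Q Zs h0 hfin hnn hWC1 hWC2 Int hDED hRAD a b ha hb hab hle
  · exact (ord_red_eq_of_le 𝔅 red Q Zs h0 hfin hnn hWC1 hWC2 Int hDED hRAD b a hb ha hab.symm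
      hle).symm

end T1

/-! ### T1' and T2: the `liftRing` forms -/

section T2

open Fermat.Agent.S18.StepA

variable {L : Type*} [Field L] [Algebra ℚ L] (A : ValuationSubring L)
variable {k : Type*} [Field k] (π : A →+* k) (N : ℕ)

/-- **T1' = (G') at a place `Q` for a quotient of two elements of `liftRing`** decomposed in the
chart `𝔅` (DEC), under the abstract conservation package of the chart. -/
theorem ord_toFk_eq_of_chart
    (𝔅 : Subring (laurentBaseChange L (modularFunctionFieldFull N)))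
    (red : ↥𝔅 →+* modularFunctionFieldFullC k N)
    (Q : Place k (modularFunctionFieldFullC k N))
    (Zs : Set (Place L (laurentBaseChange L (modularFunctionFieldFull N))))
    (h0 : ∀ a : 𝔅, red a ≠ 0 → 0 ≤ Q.ord (red a))
    (hfin : ∀ a : 𝔅, (a : laurentBaseChange L (modularFunctionFieldFull N)) ≠ 0 →
      {P ∈ Zs | P.ord (a : laurentBaseChange L (modularFunctionFieldFull N)) ≠ 0}.Finite)
    (hnn : ∀ P ∈ Zs, ∀ a : 𝔅, red a ≠ 0 →
      0 ≤ P.ord (a : laurentBaseChange L (modularFunctionFieldFull N)) ∧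
        (0 < P.ord (a : laurentBaseChange L (modularFunctionFieldFull N)) → 0 < Q.ord (red a)))
    (hWC1 : ∀ a a' : 𝔅, red a ≠ 0 → red a = red a' →
      ∑ᶠ P ∈ Zs, P.ord (a : laurentBaseChange L (modularFunctionFieldFull N))
        = ∑ᶠ P ∈ Zs, P.ord (a' : laurentBaseChange L (modularFunctionFieldFull N)))
    (hWC2 : ∀ a : 𝔅, red a ≠ 0 → 0 < Q.ord (red a) →
      ∃ P ∈ Zs, 0 < P.ord (a : laurentBaseChange L (modularFunctionFieldFull N)))
    (Int : modularFunctionFieldFullC k N → Prop)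
    (hDED : ∀ v : modularFunctionFieldFullC k N, v ≠ 0 → 0 ≤ Q.ord v →
      ∃ s₁ s₂ : modularFunctionFieldFullC k N,
        Int s₁ ∧ Int s₂ ∧ s₂ ≠ 0 ∧ Q.ord s₂ = 0 ∧ v * s₂ = s₁)
    (hRAD : ∀ z : modularFunctionFieldFullC k N, Int z →
      ∃ n : ℕ, 1 ≤ n ∧ ∃ σ b : 𝔅, red σ ≠ 0 ∧ Q.ord (red σ) = 0 ∧ red b = red σ * z ^ n)
    (q : ℕ) (D : Divisor L (laurentBaseChange L (modularFunctionFieldFull N)))
    (u : laurentBaseChange L (modularFunctionFieldFull N)) (c : L) (hc : c ≠ 0)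
    (Y₁ Y₂ : liftRing A π N)
    (hgen : u * toF A π N Y₂ = c • toF A π N Y₁)
    (hqD : ∀ P ∈ Zs, (q : ℤ) * D P = P.ord u)
    (a₁ b₁ a₂ b₂ : 𝔅) (ha₁ : red a₁ ≠ 0) (hb₁ : red b₁ ≠ 0) (ha₂ : red a₂ ≠ 0)
    (hb₂ : red b₂ ≠ 0)
    (h₁ : toF A π N Y₁ * (b₁ : laurentBaseChange L (modularFunctionFieldFull N)) = a₁)
    (h₁' : toFk A π N Y₁ * red b₁ = red a₁)
    (h₂ : toF A π N Y₂ * (b₂ : laurentBaseChange L (modularFunctionFieldFull N)) = a₂)
    (h₂' : toFk A π N Y₂ * red b₂ = red a₂)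
    (hred : ∑ᶠ P ∈ Zs, D P = 0) :
    Q.ord (toFk A π N Y₁) = Q.ord (toFk A π N Y₂) := by
  have hne : ∀ x : 𝔅, red x ≠ 0 →
      (x : laurentBaseChange L (modularFunctionFieldFull N)) ≠ 0 := by
    intro x hx h
    apply hx
    have : x = 0 := Subtype.ext h
    rw [this, map_zero]
  have hY₁ : toFk A π N Y₁ ≠ 0 := by
    intro h
    rw [h, zero_mul] at h₁'
    exact ha₁ h₁'.symm
  have hY₂ : toFk A π N Y₂ ≠ 0 := by
    intro h
    rw [h, zero_mul] at h₂'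
    exact ha₂ h₂'.symm
  have hra : red (a₁ * b₂) ≠ 0 := by rw [map_mul]; exact mul_ne_zero ha₁ hb₂
  have hrb : red (b₁ * a₂) ≠ 0 := by rw [map_mul]; exact mul_ne_zero hb₁ ha₂
  have haF := hne _ hra
  have hbF := hne _ hrb
  have hcF : algebraMap L (laurentBaseChange L (modularFunctionFieldFull N)) c ≠ 0 := by
    intro h
    exact hc ((map_eq_zero _).1 h)
  -- `u * b = c * a`
  have hub : u * ((b₁ * a₂ : 𝔅) : laurentBaseChange L (modularFunctionFieldFull N))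
      = algebraMap L (laurentBaseChange L (modularFunctionFieldFull N)) c
        * ((a₁ * b₂ : 𝔅) : laurentBaseChange L (modularFunctionFieldFull N)) := by
    rw [Subring.coe_mul, Subring.coe_mul, ← h₁, ← h₂]
    have e : u * ((b₁ : laurentBaseChange L (modularFunctionFieldFull N)) *
          (toF A π N Y₂ * (b₂ : laurentBaseChange L (modularFunctionFieldFull N))))
        = (u * toF A π N Y₂) * ((b₁ : laurentBaseChange L (modularFunctionFieldFull N)) *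
          (b₂ : laurentBaseChange L (modularFunctionFieldFull N))) := by ring
    rw [e, hgen, Algebra.smul_def]
    ring
  have hu : u ≠ 0 := by
    intro h
    rw [h, zero_mul] at hub
    exact mul_ne_zero hcF haF hub.symm
  have hD : ∀ P ∈ Zs,
      P.ord ((a₁ * b₂ : 𝔅) : laurentBaseChange L (modularFunctionFieldFull N))
        - P.ord ((b₁ * a₂ : 𝔅) : laurentBaseChange L (modularFunctionFieldFull N))
        = q * D P := by
    intro P hP
    have h := congrArg P.ord hub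
    rw [P.ord_mul hu hbF, P.ord_mul hcF haF, Fermat.Agent.S24.PlacesBasic.ord_algebraMap,
      zero_add] at h
    rw [hqD P hP]
    linarith
  have hT1 := ord_red_eq_of_chart 𝔅 red Q Zs h0 hfin hnn hWC1 hWC2 Int hDED hRAD q D
    (a₁ * b₂) (b₁ * a₂) hra hrb hD hred
  rw [map_mul, map_mul, ← h₁', ← h₂', Q.ord_mul (mul_ne_zero hY₁ hb₁) hb₂,
    Q.ord_mul hY₁ hb₁, Q.ord_mul hb₁ (mul_ne_zero hY₂ hb₂), Q.ord_mul hY₂ hb₂] at hT1
  linarith

/-- **T2 = (IV)**, explicit data: `q • D = div u`, `u = c • Y₁ / Y₂` with `Y_i ∈ liftRing` of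
nonzero reduction (GEN), and `ord_Q (Ȳ₁) = ord_Q (Ȳ₂)` at every place `Q` of `F_k` (G').  Then
`D` is principal, provided functions of `F_k` without zeros and poles are constant and `Star q`
holds. -/
theorem mem_principal_of_gen (hπ : Function.Surjective π)
    (hconst : ∀ w : modularFunctionFieldFullC k N, w ≠ 0 →
      (∀ Q : Place k (modularFunctionFieldFullC k N), Q.ord w = 0) →
      w ∈ Set.range (algebraMap k (modularFunctionFieldFullC k N)))
    {q : ℕ} (hq : q.Prime) (hstar : Star A π N q)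
    (D : Divisor L (laurentBaseChange L (modularFunctionFieldFull N)))
    (u : laurentBaseChange L (modularFunctionFieldFull N)) (hu : u ≠ 0)
    (hqD : ∀ P : Place L (laurentBaseChange L (modularFunctionFieldFull N)),
      (q : ℤ) * D P = P.ord u)
    (c : L) (hc : c ≠ 0) (Y₁ Y₂ : liftRing A π N)
    (hY₁ : toFk A π N Y₁ ≠ 0) (hY₂ : toFk A π N Y₂ ≠ 0)
    (hgen : u * toF A π N Y₂ = c • toF A π N Y₁)
    (hG : ∀ Q : Place k (modularFunctionFieldFullC k N),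
      Q.ord (toFk A π N Y₁) = Q.ord (toFk A π N Y₂)) :
    D ∈ Divisor.principal (K := L) (F := laurentBaseChange L (modularFunctionFieldFull N)) := by
  have hq0 : (q : ℤ) ≠ 0 := by exact_mod_cast hq.ne_zero
  have hFY₁ := toF_ne_zero hY₁
  have hFY₂ := toF_ne_zero hY₂
  have hcF : algebraMap L (laurentBaseChange L (modularFunctionFieldFull N)) c ≠ 0 := by
    intro h
    exact hc ((map_eq_zero _).1 h)
  -- the constant
  have hw0 : toFk A π N Y₁ / toFk A π N Y₂ ≠ 0 := div_ne_zero hY₁ hY₂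
  have hword : ∀ Q : Place k (modularFunctionFieldFullC k N),
      Q.ord (toFk A π N Y₁ / toFk A π N Y₂) = 0 := by
    intro Q
    rw [ord_div Q hY₁ hY₂, hG Q, sub_self]
  obtain ⟨cbar, hcbar⟩ := hconst _ hw0 hword
  obtain ⟨a, ha⟩ := hπ cbar
  have ha0 : a ≠ 0 := by
    rintro rfl
    rw [map_zero] at ha
    rw [← ha, map_zero] at hcbar
    exact hw0 hcbar.symm
  have haL : algebraMap L (laurentBaseChange L (modularFunctionFieldFull N)) (a : L) ≠ 0 := by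
    intro h
    exact ha0 (Subtype.ext ((map_eq_zero _).1 h))
  -- the constant as an element of `liftRing`
  obtain ⟨S, hS⟩ : ∃ S : liftRing A π N, (S : LaurentSeries A) = HahnSeries.single (0 : ℤ) a :=
    ⟨⟨_, single_zero_mem_liftRing a⟩, rfl⟩
  have hSk : toFk A π N S = algebraMap k (modularFunctionFieldFullC k N) cbar := by
    apply Subtype.ext
    rw [coe_toFk, hS, coeffMap_single, ha]
    exact (algebraMap_laurentSeries_eq_single k cbar).symm
  have hSF : toF A π N S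
      = algebraMap L (laurentBaseChange L (modularFunctionFieldFull N)) (a : L) := by
    apply Subtype.ext
    rw [coe_toF, hS, coeffMap_single]
    exact (algebraMap_laurentSeries_eq_single L (a : L)).symm
  have hEq : toFk A π N Y₁ = toFk A π N (S * Y₂) := by
    rw [map_mul, hSk, hcbar, div_mul_cancel₀ _ hY₂]
  have hFSY₂ : toF A π N (S * Y₂) ≠ 0 := by
    rw [map_mul, hSF]
    exact mul_ne_zero haL hFY₂
  have hord : ∀ P : Place L (laurentBaseChange L (modularFunctionFieldFull N)),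
      P.ord (toF A π N Y₁ / toF A π N (S * Y₂)) = (q : ℤ) * D P := by
    intro P
    have h := congrArg P.ord hgen
    rw [Algebra.smul_def, P.ord_mul hu hFY₂, P.ord_mul hcF hFY₁,
      Fermat.Agent.S24.PlacesBasic.ord_algebraMap, zero_add] at h
    rw [ord_div P hFY₁ hFSY₂, map_mul, hSF, P.ord_mul haL hFY₂,
      Fermat.Agent.S24.PlacesBasic.ord_algebraMap, zero_add, hqD P]
    linarith
  obtain ⟨w, hw⟩ := hstar Y₁ (S * Y₂) hY₁ hEq (fun P => ⟨_, hord P⟩)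
  have hw0' : w ≠ 0 := by
    intro h0
    have h1 : toF A π N Y₁ / toF A π N (S * Y₂) ≠ 0 := div_ne_zero hFY₁ hFSY₂
    apply h1
    rw [← hw, h0, zero_pow hq.ne_zero]
  refine ⟨w, hw0', fun P => ?_⟩
  have h1 : (q : ℤ) * P.ord w = (q : ℤ) * D P := by
    rw [← hord P, ← hw, ord_pow]
  exact (mul_left_cancel₀ hq0 h1).symm

/-- **T2 = (IV)**, packaged: from (GEN) for every nonzero function and (G') for every
presentation of a generator of `q • D`. -/
theorem mem_principal_of_IV_data (hπ : Function.Surjective π)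
    (hconst : ∀ w : modularFunctionFieldFullC k N, w ≠ 0 →
      (∀ Q : Place k (modularFunctionFieldFullC k N), Q.ord w = 0) →
      w ∈ Set.range (algebraMap k (modularFunctionFieldFullC k N)))
    {q : ℕ} (hq : q.Prime) (hstar : Star A π N q)
    (hGEN : ∀ u : laurentBaseChange L (modularFunctionFieldFull N), u ≠ 0 →
      ∃ (c : L) (Y₁ Y₂ : liftRing A π N), c ≠ 0 ∧ toFk A π N Y₁ ≠ 0 ∧ toFk A π N Y₂ ≠ 0 ∧
        u * toF A π N Y₂ = c • toF A π N Y₁)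
    (D : Divisor L (laurentBaseChange L (modularFunctionFieldFull N)))
    (hG : ∀ (u : laurentBaseChange L (modularFunctionFieldFull N)) (c : L)
      (Y₁ Y₂ : liftRing A π N), u ≠ 0 → c ≠ 0 → toFk A π N Y₁ ≠ 0 → toFk A π N Y₂ ≠ 0 →
      u * toF A π N Y₂ = c • toF A π N Y₁ →
      (∀ P : Place L (laurentBaseChange L (modularFunctionFieldFull N)),
        (q : ℤ) * D P = P.ord u) →
      ∀ Q : Place k (modularFunctionFieldFullC k N),
        Q.ord (toFk A π N Y₁) = Q.ord (toFk A π N Y₂))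
    (hqD : q • D ∈
      Divisor.principal (K := L) (F := laurentBaseChange L (modularFunctionFieldFull N))) :
    D ∈ Divisor.principal (K := L) (F := laurentBaseChange L (modularFunctionFieldFull N)) := by
  obtain ⟨u, hu, hD⟩ := hqD
  have hqD' : ∀ P : Place L (laurentBaseChange L (modularFunctionFieldFull N)),
      (q : ℤ) * D P = P.ord u := by
    intro P
    rw [← hD P, Finsupp.smul_apply, nsmul_eq_mul]
  obtain ⟨c, Y₁, Y₂, hc, hY₁, hY₂, hgen⟩ := hGEN u hu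
  exact mem_principal_of_gen A π N hπ hconst hq hstar D u hu hqD' c hc Y₁ Y₂ hY₁ hY₂ hgen
    (hG u c Y₁ Y₂ hu hc hY₁ hY₂ hgen hqD')

end T2

/-! ### T3: class-level induction -/

section T3

variable {K F : Type*} [Field K] [Field F] [Algebra K F]

/-- Prime step of T3. -/
theorem eq_zero_of_IV_prime {Y G : Type*} [AddCommGroup G] (r : Place K F → Y)
    (ρ : Pic0 K F →+ G) (pr : (Y →₀ ℤ) →+ G)
    (hρ : ∀ D : Divisor.degZero (K := K) (F := F),
      ρ (Pic0.mk D) = pr (Finsupp.mapDomain r D.1))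
    (hker : ∀ E : Y →₀ ℤ, pr E = 0 →
      ∃ D₀ ∈ Divisor.principal (K := K) (F := F), Finsupp.mapDomain r D₀ = E)
    {q : ℕ}
    (hIV : ∀ D : Divisor K F, q • D ∈ Divisor.principal (K := K) (F := F) →
      Finsupp.mapDomain r D = 0 → D ∈ Divisor.principal (K := K) (F := F))
    (x : Pic0 K F) (hqx : q • x = 0) (hx : ρ x = 0) : x = 0 := by
  obtain ⟨D, rfl⟩ := Pic0.mk_surjective x
  have hqD : q • (D : Divisor K F) ∈ Divisor.principal (K := K) (F := F) := by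
    have h1 : ((q • D : Divisor.degZero (K := K) (F := F)) : Pic0 K F) = 0 := hqx
    rw [QuotientAddGroup.eq_zero_iff, AddSubgroup.mem_addSubgroupOf] at h1
    exact h1
  rw [hρ] at hx
  obtain ⟨D₀, hD₀, hD₀r⟩ := hker _ hx
  have h1 : q • ((D : Divisor K F) - D₀) ∈ Divisor.principal (K := K) (F := F) := by
    rw [smul_sub]
    exact sub_mem hqD (nsmul_mem hD₀ q)
  have h2 : Finsupp.mapDomain r ((D : Divisor K F) - D₀) = 0 := by
    have := (Finsupp.mapDomain.addMonoidHom (M := ℤ) r).map_sub (D : Divisor K F) D₀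
    simp only [Finsupp.mapDomain.addMonoidHom_apply] at this
    rw [this, hD₀r, sub_self]
  have h3 := hIV _ h1 h2
  have h4 : (D : Divisor K F) ∈ Divisor.principal (K := K) (F := F) := by
    have := add_mem h3 hD₀
    rwa [sub_add_cancel] at this
  show ((D : Divisor.degZero (K := K) (F := F)) : Pic0 K F) = 0
  rw [QuotientAddGroup.eq_zero_iff, AddSubgroup.mem_addSubgroupOf]
  exact h4

/-- **T3**: if (IV) holds for every prime `q ≠ ℓ`, then `ρ` (presented on divisors by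
`pr ∘ mapDomain r`, with `ker pr ⊆ r_* (principal)`) is injective on the torsion prime to `ℓ`. -/
theorem eq_zero_of_IV {Y G : Type*} [AddCommGroup G] (r : Place K F → Y)
    (ρ : Pic0 K F →+ G) (pr : (Y →₀ ℤ) →+ G)
    (hρ : ∀ D : Divisor.degZero (K := K) (F := F),
      ρ (Pic0.mk D) = pr (Finsupp.mapDomain r D.1))
    (hker : ∀ E : Y →₀ ℤ, pr E = 0 →
      ∃ D₀ ∈ Divisor.principal (K := K) (F := F), Finsupp.mapDomain r D₀ = E)
    (ℓ : ℕ)
    (hIV : ∀ q : ℕ, q.Prime → q ≠ ℓ → ∀ D : Divisor K F,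
      q • D ∈ Divisor.principal (K := K) (F := F) →
      Finsupp.mapDomain r D = 0 → D ∈ Divisor.principal (K := K) (F := F))
    (m : ℕ) (hm : ¬ ℓ ∣ m) (x : Pic0 K F) (hmx : m • x = 0) (hx : ρ x = 0) : x = 0 := by
  induction m using Nat.strong_induction_on generalizing x with
  | _ m ih =>
    rcases Nat.eq_zero_or_pos m with rfl | hm0
    · exact absurd (dvd_zero ℓ) hm
    by_cases hm1 : m = 1
    · rwa [hm1, one_smul] at hmx
    have hpp : (m.minFac).Prime := Nat.minFac_prime hm1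
    obtain ⟨m', hm'⟩ := Nat.minFac_dvd m
    have hpl : m.minFac ≠ ℓ := fun hl => hm (hl ▸ Nat.minFac_dvd m)
    have hm'lt : m' < m := by
      have h2 := hpp.two_le
      have hm'0 : 0 < m' := by
        rcases Nat.eq_zero_or_pos m' with h0 | h0
        · rw [h0, mul_zero] at hm'; omega
        · exact h0
      nlinarith
    have hm'l : ¬ ℓ ∣ m' := fun hl => hm (hm' ▸ Dvd.dvd.mul_left hl _)
    have hx' : m' • x = 0 := by
      apply eq_zero_of_IV_prime r ρ pr hρ hker (hIV _ hpp hpl)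
      · rw [← mul_smul, ← hm']; exact hmx
      · rw [map_nsmul, hx, smul_zero]
    exact ih m' hm'lt hm'l x hx' hx

/-- **T3 in the shape of clause (iv)**: injectivity of `ρ` on `p`-power torsion, `ℓ ∤ p`. -/
theorem eq_zero_of_IV_pow {Y G : Type*} [AddCommGroup G] (r : Place K F → Y)
    (ρ : Pic0 K F →+ G) (pr : (Y →₀ ℤ) →+ G)
    (hρ : ∀ D : Divisor.degZero (K := K) (F := F),
      ρ (Pic0.mk D) = pr (Finsupp.mapDomain r D.1))
    (hker : ∀ E : Y →₀ ℤ, pr E = 0 →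
      ∃ D₀ ∈ Divisor.principal (K := K) (F := F), Finsupp.mapDomain r D₀ = E)
    {ℓ p : ℕ} (hℓ : ℓ.Prime) (hℓp : ¬ ℓ ∣ p)
    (hIV : ∀ q : ℕ, q.Prime → q ≠ ℓ → ∀ D : Divisor K F,
      q • D ∈ Divisor.principal (K := K) (F := F) →
      Finsupp.mapDomain r D = 0 → D ∈ Divisor.principal (K := K) (F := F))
    (x : Pic0 K F) (hpx : ∃ n : ℕ, p ^ n • x = 0) (hx : ρ x = 0) : x = 0 := by
  obtain ⟨n, hn⟩ := hpx
  exact eq_zero_of_IV r ρ pr hρ hker ℓ hIV (p ^ n) (fun h => hℓp (hℓ.dvd_of_dvd_pow h)) x hn hx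

end T3

end TorsionAbs

end Fermat.Agent.S37
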