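import Fermat.Agent.S37.RedZset
import Fermat.Agent.S37.ChartA
import Fermat.Agent.S37.ChartModel
import Fermat.Agent.S37.TorsionAbs

/-!
P12 / S37, module [TORI] (1/2): the statement (G′) at one place `Q` of `F_k`, for a chart
model `𝔅 ⊂ F_L`, a reduction map `red : 𝔅 →+* F_k` and a point `ψ : 𝔅 →+* k` attached to `Q`,
with the weak conservation statements (WC1), (WC2) for `Zsum`/`Zset` and (DED), (RAD) as
hypotheses.

This is `TorsionAbs.ord_toFk_eq_of_chart` with `Zs := Zset hF A 𝔅 ψ`, the fibre of `redPt` over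
the reduced point attached to `ψ` (`RedZset.lean`), and `hred` deduced from `redDiv D = 0`.
-/

set_option autoImplicit false
set_option linter.unusedSectionVars false

namespace Fermat.Agent.S37

open AlgebraicCurve ModularCurve ModularCurve.IgusaScheme Fermat.Agent.S18

section General

variable {N : ℕ} [NeZero N] {ℓ : ℕ} [Fact ℓ.Prime] {A : ValuationSubring (AlgebraicClosure ℚ)}

/-- Places in `Zset ψ`: elements of `𝔅` are regular, and vanish only if `ψ` kills them. -/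
theorem ord_nonneg_and_of_mem_Zset (𝔅 : Subring (modularFunctionFieldBar N))
    (ψ : 𝔅 →+* IsLocalRing.ResidueField A)
    {P : Place (AlgebraicClosure ℚ) (modularFunctionFieldBar N)}
    (hP : P ∈ Zset (isFF_modularFunctionFieldBar N) A 𝔅 ψ) (a : 𝔅) :
    0 ≤ P.ord (a : modularFunctionFieldBar N) ∧
      (0 < P.ord (a : modularFunctionFieldBar N) → ψ a = 0) := by
  obtain ⟨h, hb⟩ := hP
  have hmem : (a : modularFunctionFieldBar N) ∈ P.toValuationSubring := (h a.2).1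
  by_cases ha0 : (a : modularFunctionFieldBar N) = 0
  · rw [ha0, Place.ord_zero]
    exact ⟨le_rfl, fun h => absurd h (lt_irrefl _)⟩
  · refine ⟨(S24.PlacesBasic.mem_iff_ord_nonneg P ha0).mp hmem, fun hpos => ?_⟩
    have hx : (⟨(a : modularFunctionFieldBar N), hmem⟩ : P.toValuationSubring) ≠ 0 :=
      fun h0 => ha0 (congrArg Subtype.val h0)
    have hev : ev (isFF_modularFunctionFieldBar N) P ⟨(a : modularFunctionFieldBar N), hmem⟩ = 0 :=
      (ev_eq_zero_iff_ord_pos (isFF_modularFunctionFieldBar N) P hx).mpr hpos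
    rw [← hb a, resEv_mk]
    have : (⟨ev (isFF_modularFunctionFieldBar N) P ⟨(a : modularFunctionFieldBar N), (h a.2).1⟩,
        (h a.2).2⟩ : A) = 0 := Subtype.ext hev
    rw [this, map_zero]

/-- **(G′) at a place `Q`**, for an abstract chart model: `𝔅 ⊂ F_L`, `red : 𝔅 →+* F_k`,
`ψ : 𝔅 →+* k` the point of the special fibre attached to `Q`, `pt` the corresponding reduced
point. -/
theorem ord_toFk_eq_of_Zset (hA : A.LiesOverPrime ℓ)
    (𝔅 : Subring (modularFunctionFieldBar N))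
    (red : 𝔅 →+* modularFunctionFieldFullC (IsLocalRing.ResidueField A) N)
    (Q : Place (IsLocalRing.ResidueField A)
      (modularFunctionFieldFullC (IsLocalRing.ResidueField A) N))
    (ψ : 𝔅 →+* IsLocalRing.ResidueField A) (pt : RedPt N ℓ A)
    (hZ : ∀ P : Place (AlgebraicClosure ℚ) (modularFunctionFieldBar N),
      redPt N ℓ A hA P = pt ↔ P ∈ Zset (isFF_modularFunctionFieldBar N) A 𝔅 ψ)
    (h0 : ∀ a : 𝔅, red a ≠ 0 → 0 ≤ Q.ord (red a))
    (hψQ : ∀ a : 𝔅, red a ≠ 0 → (ψ a = 0 ↔ 0 < Q.ord (red a)))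
    (hWC1 : ∀ a a' : 𝔅, red a ≠ 0 → red a = red a' →
      Zsum (isFF_modularFunctionFieldBar N) A 𝔅 ψ (a : modularFunctionFieldBar N) =
        Zsum (isFF_modularFunctionFieldBar N) A 𝔅 ψ (a' : modularFunctionFieldBar N))
    (hWC2 : ∀ a : 𝔅, red a ≠ 0 → ψ a = 0 →
      ∃ P ∈ Zset (isFF_modularFunctionFieldBar N) A 𝔅 ψ,
        0 < P.ord (a : modularFunctionFieldBar N))
    (Int : modularFunctionFieldFullC (IsLocalRing.ResidueField A) N → Prop)
    (hDED : ∀ v : modularFunctionFieldFullC (IsLocalRing.ResidueField A) N, v ≠ 0 →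
      0 ≤ Q.ord v → ∃ s₁ s₂ : modularFunctionFieldFullC (IsLocalRing.ResidueField A) N,
        Int s₁ ∧ Int s₂ ∧ s₂ ≠ 0 ∧ Q.ord s₂ = 0 ∧ v * s₂ = s₁)
    (hRAD : ∀ z : modularFunctionFieldFullC (IsLocalRing.ResidueField A) N, Int z →
      ∃ n : ℕ, 1 ≤ n ∧ ∃ σ b : 𝔅, red σ ≠ 0 ∧ Q.ord (red σ) = 0 ∧ red b = red σ * z ^ n)
    (q : ℕ) (D : Divisor (AlgebraicClosure ℚ) (modularFunctionFieldBar N))
    (u : modularFunctionFieldBar N) (c : AlgebraicClosure ℚ) (hc : c ≠ 0)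
    (Y₁ Y₂ : StepA.liftRing A (IsLocalRing.residue A) N)
    (hgen : u * StepA.toF A (IsLocalRing.residue A) N Y₂ =
      c • StepA.toF A (IsLocalRing.residue A) N Y₁)
    (hqD : ∀ P : Place (AlgebraicClosure ℚ) (modularFunctionFieldBar N),
      (q : ℤ) * D P = P.ord u)
    (a₁ b₁ a₂ b₂ : 𝔅) (ha₁ : red a₁ ≠ 0) (hb₁ : red b₁ ≠ 0) (ha₂ : red a₂ ≠ 0)
    (hb₂ : red b₂ ≠ 0)
    (h₁ : StepA.toF A (IsLocalRing.residue A) N Y₁ * (b₁ : modularFunctionFieldBar N) = a₁)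
    (h₁' : StepA.toFk A (IsLocalRing.residue A) N Y₁ * red b₁ = red a₁)
    (h₂ : StepA.toF A (IsLocalRing.residue A) N Y₂ * (b₂ : modularFunctionFieldBar N) = a₂)
    (h₂' : StepA.toFk A (IsLocalRing.residue A) N Y₂ * red b₂ = red a₂)
    (hred : Finsupp.mapDomain (redPt N ℓ A hA) D = 0) :
    Q.ord (StepA.toFk A (IsLocalRing.residue A) N Y₁) =
      Q.ord (StepA.toFk A (IsLocalRing.residue A) N Y₂) := by
  refine TorsionAbs.ord_toFk_eq_of_chart A (IsLocalRing.residue A) N 𝔅 red Q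
    (Zset (isFF_modularFunctionFieldBar N) A 𝔅 ψ) h0 ?_ ?_ hWC1 ?_ Int hDED hRAD q D u c hc Y₁ Y₂
    hgen (fun P _ => hqD P) a₁ b₁ a₂ b₂ ha₁ hb₁ ha₂ hb₂ h₁ h₁' h₂ h₂' ?_
  · intro a ha
    exact ((isFF_modularFunctionFieldBar N).finite_setOf_ord_ne_zero ha).subset
      (fun P hP => hP.2)
  · intro P hP a hra
    obtain ⟨h1, h2⟩ := ord_nonneg_and_of_mem_Zset 𝔅 ψ hP a
    exact ⟨h1, fun hpos => (hψQ a hra).mp (h2 hpos)⟩
  · intro a hra hpos
    exact hWC2 a hra ((hψQ a hra).mpr hpos)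
  · have hset : Zset (isFF_modularFunctionFieldBar N) A 𝔅 ψ =
        {P | redPt N ℓ A hA P = pt} := by
      ext P
      exact (hZ P).symm
    rw [hset, TorsionAbs.finsum_mem_fiber_eq_mapDomain, hred]
    rfl

/-- The defining generators of `chartA` are constants of `A` or of the form `ι f`. -/
theorem chartA_gens (C : Subalgebra (GaloisRep.ratLocalizedAt ℓ) (modularFunctionFieldFull N)) :
    ∀ x ∈ ((fun a : AlgebraicClosure ℚ =>
        algebraMap (AlgebraicClosure ℚ) (modularFunctionFieldBar N) a) ''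
          (A : Set (AlgebraicClosure ℚ)) ∪ (iotaFull N '' (C : Set (modularFunctionFieldFull N)))),
      (∃ a ∈ A, x = algebraMap (AlgebraicClosure ℚ) (modularFunctionFieldBar N) a) ∨
        ∃ f ∈ C, x = iotaFull N f := by
  rintro x (⟨a, ha, rfl⟩ | ⟨f, hf, rfl⟩)
  · exact Or.inl ⟨a, ha, rfl⟩
  · exact Or.inr ⟨f, hf, rfl⟩

/-- The reduced point attached to a point `ψ` of the finite chart model. -/
noncomputable def ptFin (ψ : chartA A N ℓ (chartAlgFin N ℓ) →+* IsLocalRing.ResidueField A) :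
    RedPt N ℓ A :=
  Sum.inl (ψ.comp (iotaSub {jFull N} (chartA A N ℓ (chartAlgFin N ℓ))
    (fun _ hf => iotaFull_mem_chartA hf)))

/-- The reduced point attached to a point `ψ` of the chart model at infinity killing `1/j`. -/
noncomputable def ptInf (ψ : chartA A N ℓ (chartAlgInf N ℓ) →+* IsLocalRing.ResidueField A)
    (hψ0 : ψ ⟨iotaFull N (jInvChartInf N ℓ : chartAlgInf N ℓ),
      iotaFull_mem_chartA (jInvChartInf N ℓ).2⟩ = 0) : RedPt N ℓ A :=
  Sum.inr ⟨ψ.comp (iotaSub {(jFull N)⁻¹} (chartA A N ℓ (chartAlgInf N ℓ))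
    (fun _ hf => iotaFull_mem_chartA hf)), hψ0⟩

/-- The fibre of `redPt` over `ptFin ψ` is `Zset ψ`. -/
theorem redPt_eq_ptFin_iff (hA : A.LiesOverPrime ℓ)
    (ψ : chartA A N ℓ (chartAlgFin N ℓ) →+* IsLocalRing.ResidueField A)
    (hψA : ∀ (a : AlgebraicClosure ℚ) (ha : a ∈ A),
      ψ ⟨algebraMap (AlgebraicClosure ℚ) (modularFunctionFieldBar N) a,
        algebraMap_mem_chartA ha⟩ = IsLocalRing.residue A ⟨a, ha⟩)
    (P : Place (AlgebraicClosure ℚ) (modularFunctionFieldBar N)) :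
    redPt N ℓ A hA P = ptFin ψ ↔
      P ∈ Zset (isFF_modularFunctionFieldBar N) A (chartA A N ℓ (chartAlgFin N ℓ)) ψ :=
  redPt_eq_inl_iff_of_closure hA P (chartA A N ℓ (chartAlgFin N ℓ))
    (fun _ ha => algebraMap_mem_chartA ha) (fun _ hf => iotaFull_mem_chartA hf) _ le_rfl
    (chartA_gens (chartAlgFin N ℓ)) ψ hψA

/-- The fibre of `redPt` over `ptInf ψ` is `Zset ψ`. -/
theorem redPt_eq_ptInf_iff (hA : A.LiesOverPrime ℓ)
    (ψ : chartA A N ℓ (chartAlgInf N ℓ) →+* IsLocalRing.ResidueField A)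
    (hψA : ∀ (a : AlgebraicClosure ℚ) (ha : a ∈ A),
      ψ ⟨algebraMap (AlgebraicClosure ℚ) (modularFunctionFieldBar N) a,
        algebraMap_mem_chartA ha⟩ = IsLocalRing.residue A ⟨a, ha⟩)
    (hψ0 : ψ ⟨iotaFull N (jInvChartInf N ℓ : chartAlgInf N ℓ),
      iotaFull_mem_chartA (jInvChartInf N ℓ).2⟩ = 0)
    (P : Place (AlgebraicClosure ℚ) (modularFunctionFieldBar N)) :
    redPt N ℓ A hA P = ptInf ψ hψ0 ↔
      P ∈ Zset (isFF_modularFunctionFieldBar N) A (chartA A N ℓ (chartAlgInf N ℓ)) ψ :=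
  redPt_eq_inr_iff_of_closure hA P (chartA A N ℓ (chartAlgInf N ℓ))
    (fun _ ha => algebraMap_mem_chartA ha) (fun _ hf => iotaFull_mem_chartA hf) _ le_rfl
    (chartA_gens (chartAlgInf N ℓ)) ψ hψA hψ0

/-- **(G′) at a place `Q` in the finite chart.** -/
theorem ord_toFk_eq_of_chartA_fin (hA : A.LiesOverPrime ℓ)
    (red : chartA A N ℓ (chartAlgFin N ℓ) →+*
      modularFunctionFieldFullC (IsLocalRing.ResidueField A) N)
    (Q : Place (IsLocalRing.ResidueField A)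
      (modularFunctionFieldFullC (IsLocalRing.ResidueField A) N))
    (ψ : chartA A N ℓ (chartAlgFin N ℓ) →+* IsLocalRing.ResidueField A)
    (hψA : ∀ (a : AlgebraicClosure ℚ) (ha : a ∈ A),
      ψ ⟨algebraMap (AlgebraicClosure ℚ) (modularFunctionFieldBar N) a,
        algebraMap_mem_chartA ha⟩ = IsLocalRing.residue A ⟨a, ha⟩)
    (h0 : ∀ a : chartA A N ℓ (chartAlgFin N ℓ), red a ≠ 0 → 0 ≤ Q.ord (red a))
    (hψQ : ∀ a : chartA A N ℓ (chartAlgFin N ℓ), red a ≠ 0 → (ψ a = 0 ↔ 0 < Q.ord (red a)))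
    (hWC1 : ∀ a a' : chartA A N ℓ (chartAlgFin N ℓ), red a ≠ 0 → red a = red a' →
      Zsum (isFF_modularFunctionFieldBar N) A (chartA A N ℓ (chartAlgFin N ℓ)) ψ
          (a : modularFunctionFieldBar N) =
        Zsum (isFF_modularFunctionFieldBar N) A (chartA A N ℓ (chartAlgFin N ℓ)) ψ
          (a' : modularFunctionFieldBar N))
    (hWC2 : ∀ a : chartA A N ℓ (chartAlgFin N ℓ), red a ≠ 0 → ψ a = 0 →
      ∃ P ∈ Zset (isFF_modularFunctionFieldBar N) A (chartA A N ℓ (chartAlgFin N ℓ)) ψ,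
        0 < P.ord (a : modularFunctionFieldBar N))
    (Int : modularFunctionFieldFullC (IsLocalRing.ResidueField A) N → Prop)
    (hDED : ∀ v : modularFunctionFieldFullC (IsLocalRing.ResidueField A) N, v ≠ 0 →
      0 ≤ Q.ord v → ∃ s₁ s₂ : modularFunctionFieldFullC (IsLocalRing.ResidueField A) N,
        Int s₁ ∧ Int s₂ ∧ s₂ ≠ 0 ∧ Q.ord s₂ = 0 ∧ v * s₂ = s₁)
    (hRAD : ∀ z : modularFunctionFieldFullC (IsLocalRing.ResidueField A) N, Int z →
      ∃ n : ℕ, 1 ≤ n ∧ ∃ σ b : chartA A N ℓ (chartAlgFin N ℓ),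
        red σ ≠ 0 ∧ Q.ord (red σ) = 0 ∧ red b = red σ * z ^ n)
    (q : ℕ) (D : Divisor (AlgebraicClosure ℚ) (modularFunctionFieldBar N))
    (u : modularFunctionFieldBar N) (c : AlgebraicClosure ℚ) (hc : c ≠ 0)
    (Y₁ Y₂ : StepA.liftRing A (IsLocalRing.residue A) N)
    (hgen : u * StepA.toF A (IsLocalRing.residue A) N Y₂ =
      c • StepA.toF A (IsLocalRing.residue A) N Y₁)
    (hqD : ∀ P : Place (AlgebraicClosure ℚ) (modularFunctionFieldBar N),
      (q : ℤ) * D P = P.ord u)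
    (a₁ b₁ a₂ b₂ : chartA A N ℓ (chartAlgFin N ℓ)) (ha₁ : red a₁ ≠ 0) (hb₁ : red b₁ ≠ 0)
    (ha₂ : red a₂ ≠ 0) (hb₂ : red b₂ ≠ 0)
    (h₁ : StepA.toF A (IsLocalRing.residue A) N Y₁ * (b₁ : modularFunctionFieldBar N) = a₁)
    (h₁' : StepA.toFk A (IsLocalRing.residue A) N Y₁ * red b₁ = red a₁)
    (h₂ : StepA.toF A (IsLocalRing.residue A) N Y₂ * (b₂ : modularFunctionFieldBar N) = a₂)
    (h₂' : StepA.toFk A (IsLocalRing.residue A) N Y₂ * red b₂ = red a₂)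
    (hred : Finsupp.mapDomain (redPt N ℓ A hA) D = 0) :
    Q.ord (StepA.toFk A (IsLocalRing.residue A) N Y₁) =
      Q.ord (StepA.toFk A (IsLocalRing.residue A) N Y₂) := by
  exact ord_toFk_eq_of_Zset hA (chartA A N ℓ (chartAlgFin N ℓ)) red Q ψ (ptFin ψ)
    (redPt_eq_ptFin_iff hA ψ hψA) h0 hψQ hWC1 hWC2 Int hDED hRAD q D u c hc Y₁ Y₂ hgen hqD
    a₁ b₁ a₂ b₂ ha₁ hb₁ ha₂ hb₂ h₁ h₁' h₂ h₂' hred

/-- **(G′) at a place `Q` in the chart at infinity.** -/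
theorem ord_toFk_eq_of_chartA_inf (hA : A.LiesOverPrime ℓ)
    (red : chartA A N ℓ (chartAlgInf N ℓ) →+*
      modularFunctionFieldFullC (IsLocalRing.ResidueField A) N)
    (Q : Place (IsLocalRing.ResidueField A)
      (modularFunctionFieldFullC (IsLocalRing.ResidueField A) N))
    (ψ : chartA A N ℓ (chartAlgInf N ℓ) →+* IsLocalRing.ResidueField A)
    (hψA : ∀ (a : AlgebraicClosure ℚ) (ha : a ∈ A),
      ψ ⟨algebraMap (AlgebraicClosure ℚ) (modularFunctionFieldBar N) a,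
        algebraMap_mem_chartA ha⟩ = IsLocalRing.residue A ⟨a, ha⟩)
    (hψ0 : ψ ⟨iotaFull N (jInvChartInf N ℓ : chartAlgInf N ℓ),
      iotaFull_mem_chartA (jInvChartInf N ℓ).2⟩ = 0)
    (h0 : ∀ a : chartA A N ℓ (chartAlgInf N ℓ), red a ≠ 0 → 0 ≤ Q.ord (red a))
    (hψQ : ∀ a : chartA A N ℓ (chartAlgInf N ℓ), red a ≠ 0 → (ψ a = 0 ↔ 0 < Q.ord (red a)))
    (hWC1 : ∀ a a' : chartA A N ℓ (chartAlgInf N ℓ), red a ≠ 0 → red a = red a' →
      Zsum (isFF_modularFunctionFieldBar N) A (chartA A N ℓ (chartAlgInf N ℓ)) ψ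
          (a : modularFunctionFieldBar N) =
        Zsum (isFF_modularFunctionFieldBar N) A (chartA A N ℓ (chartAlgInf N ℓ)) ψ
          (a' : modularFunctionFieldBar N))
    (hWC2 : ∀ a : chartA A N ℓ (chartAlgInf N ℓ), red a ≠ 0 → ψ a = 0 →
      ∃ P ∈ Zset (isFF_modularFunctionFieldBar N) A (chartA A N ℓ (chartAlgInf N ℓ)) ψ,
        0 < P.ord (a : modularFunctionFieldBar N))
    (Int : modularFunctionFieldFullC (IsLocalRing.ResidueField A) N → Prop)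
    (hDED : ∀ v : modularFunctionFieldFullC (IsLocalRing.ResidueField A) N, v ≠ 0 →
      0 ≤ Q.ord v → ∃ s₁ s₂ : modularFunctionFieldFullC (IsLocalRing.ResidueField A) N,
        Int s₁ ∧ Int s₂ ∧ s₂ ≠ 0 ∧ Q.ord s₂ = 0 ∧ v * s₂ = s₁)
    (hRAD : ∀ z : modularFunctionFieldFullC (IsLocalRing.ResidueField A) N, Int z →
      ∃ n : ℕ, 1 ≤ n ∧ ∃ σ b : chartA A N ℓ (chartAlgInf N ℓ),
        red σ ≠ 0 ∧ Q.ord (red σ) = 0 ∧ red b = red σ * z ^ n)
    (q : ℕ) (D : Divisor (AlgebraicClosure ℚ) (modularFunctionFieldBar N))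
    (u : modularFunctionFieldBar N) (c : AlgebraicClosure ℚ) (hc : c ≠ 0)
    (Y₁ Y₂ : StepA.liftRing A (IsLocalRing.residue A) N)
    (hgen : u * StepA.toF A (IsLocalRing.residue A) N Y₂ =
      c • StepA.toF A (IsLocalRing.residue A) N Y₁)
    (hqD : ∀ P : Place (AlgebraicClosure ℚ) (modularFunctionFieldBar N),
      (q : ℤ) * D P = P.ord u)
    (a₁ b₁ a₂ b₂ : chartA A N ℓ (chartAlgInf N ℓ)) (ha₁ : red a₁ ≠ 0) (hb₁ : red b₁ ≠ 0)
    (ha₂ : red a₂ ≠ 0) (hb₂ : red b₂ ≠ 0)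
    (h₁ : StepA.toF A (IsLocalRing.residue A) N Y₁ * (b₁ : modularFunctionFieldBar N) = a₁)
    (h₁' : StepA.toFk A (IsLocalRing.residue A) N Y₁ * red b₁ = red a₁)
    (h₂ : StepA.toF A (IsLocalRing.residue A) N Y₂ * (b₂ : modularFunctionFieldBar N) = a₂)
    (h₂' : StepA.toFk A (IsLocalRing.residue A) N Y₂ * red b₂ = red a₂)
    (hred : Finsupp.mapDomain (redPt N ℓ A hA) D = 0) :
    Q.ord (StepA.toFk A (IsLocalRing.residue A) N Y₁) =
      Q.ord (StepA.toFk A (IsLocalRing.residue A) N Y₂) := by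
  exact ord_toFk_eq_of_Zset hA (chartA A N ℓ (chartAlgInf N ℓ)) red Q ψ (ptInf ψ hψ0)
    (redPt_eq_ptInf_iff hA ψ hψA hψ0) h0 hψQ hWC1 hWC2 Int hDED hRAD q D u c hc Y₁ Y₂ hgen hqD
    a₁ b₁ a₂ b₂ ha₁ hb₁ ha₂ hb₂ h₁ h₁' h₂ h₂' hred

end General

end Fermat.Agent.S37
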