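import Fermat.Agent.S37.TorsionQ
import Fermat.Agent.S37.DedK
import Fermat.Agent.S37.Frob

/-!
P12 / S37, module [TORI], `Q`-side package (2/2): the point `ψ_Q = ev_Q ∘ red : 𝔅 →+* k` of a chart
model attached to a place `Q` of `F_k`, with (hψA), (h0), (hψQ), (hψ0) and (DED) in the shapes
consumed by `ord_toFk_eq_of_chartA_fin/inf` (`S37/TorsionChart.lean`).
-/

set_option autoImplicit false
set_option linter.unusedSectionVars false

namespace Fermat.Agent.S37

namespace TorsionQ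

open AlgebraicCurve ModularCurve ModularCurve.IgusaScheme Fermat.Agent.S18

variable {N : ℕ} [NeZero N] {ℓ : ℕ} [Fact ℓ.Prime] {A : ValuationSubring (AlgebraicClosure ℚ)}

/-! ### (Q4) the point `ψ_Q` of the chart attached to a place `Q` of `F_k` -/

theorem natCast_ne_zero (hA : A.LiesOverPrime ℓ) (hℓN : ¬ ℓ ∣ N) :
    ((N : ℕ) : IsLocalRing.ResidueField A) ≠ 0 := natCast_residue_ne_zero hA hℓN

/-- `F_k` is a function field in one variable (`k` the residue field of `A`, `ℓ ∤ N`). -/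
theorem isFFk (hA : A.LiesOverPrime ℓ) (hℓN : ¬ ℓ ∣ N) :
    IsFF (IsLocalRing.ResidueField A) (modularFunctionFieldFullC (IsLocalRing.ResidueField A) N) :=
  haveI := isAlgClosed_residueField A
  DedK.isFF (IsLocalRing.ResidueField A) N (natCast_ne_zero hA hℓN)

/-- The point `ψ_Q = ev_Q ∘ red : 𝔅 →+* k` attached to a place `Q` of `F_k` at which all of
`red 𝔅` is regular. -/
noncomputable def psi (hA : A.LiesOverPrime ℓ) (hℓN : ¬ ℓ ∣ N)
    {𝔅 : Subring (modularFunctionFieldBar N)} (h𝔅 : 𝔅 ≤ gaussA A N)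
    (Q : Place (IsLocalRing.ResidueField A)
      (modularFunctionFieldFullC (IsLocalRing.ResidueField A) N))
    (hQ : ∀ b : 𝔅, redSub hA hℓN h𝔅 b ∈ Q.toValuationSubring) :
    𝔅 →+* IsLocalRing.ResidueField A :=
  haveI := isAlgClosed_residueField A
  (ev (isFFk hA hℓN) Q).comp ((redSub hA hℓN h𝔅).codRestrict Q.toValuationSubring hQ)

section Psi

variable (hA : A.LiesOverPrime ℓ) (hℓN : ¬ ℓ ∣ N)
  {𝔅 : Subring (modularFunctionFieldBar N)} (h𝔅 : 𝔅 ≤ gaussA A N)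
  (Q : Place (IsLocalRing.ResidueField A)
    (modularFunctionFieldFullC (IsLocalRing.ResidueField A) N))
  (hQ : ∀ b : 𝔅, redSub hA hℓN h𝔅 b ∈ Q.toValuationSubring)

theorem psi_apply (b : 𝔅) :
    haveI := isAlgClosed_residueField A
    psi hA hℓN h𝔅 Q hQ b = ev (isFFk hA hℓN) Q ⟨redSub hA hℓN h𝔅 b, hQ b⟩ :=
  rfl

/-- (hψA) -/
theorem psi_algebraMap {a : AlgebraicClosure ℚ} (ha : a ∈ A)
    (h : algebraMap (AlgebraicClosure ℚ) (modularFunctionFieldBar N) a ∈ 𝔅) :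
    psi hA hℓN h𝔅 Q hQ ⟨algebraMap (AlgebraicClosure ℚ) (modularFunctionFieldBar N) a, h⟩ =
      IsLocalRing.residue A ⟨a, ha⟩ := by
  have := isAlgClosed_residueField A
  rw [psi_apply]
  have h1 : (⟨redSub hA hℓN h𝔅
        ⟨algebraMap (AlgebraicClosure ℚ) (modularFunctionFieldBar N) a, h⟩, hQ _⟩ :
      Q.toValuationSubring) =
      algebraMap (IsLocalRing.ResidueField A) Q.toValuationSubring
        (IsLocalRing.residue A ⟨a, ha⟩) :=
    Subtype.ext (redSub_algebraMap hA hℓN h𝔅 ha h)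
  rw [h1, ev_algebraMap]

include hQ in
/-- (h0) -/
theorem ord_redSub_nonneg (b : 𝔅) (hb : redSub hA hℓN h𝔅 b ≠ 0) :
    0 ≤ Q.ord (redSub hA hℓN h𝔅 b) :=
  (S24.PlacesBasic.mem_iff_ord_nonneg Q hb).1 (hQ b)

/-- (hψQ) -/
theorem psi_eq_zero_iff (b : 𝔅) (hb : redSub hA hℓN h𝔅 b ≠ 0) :
    psi hA hℓN h𝔅 Q hQ b = 0 ↔ 0 < Q.ord (redSub hA hℓN h𝔅 b) := by
  have := isAlgClosed_residueField A
  rw [psi_apply]
  exact ev_eq_zero_iff_ord_pos (isFFk hA hℓN) Q
    (x := ⟨redSub hA hℓN h𝔅 b, hQ b⟩) (fun h => hb (congrArg Subtype.val h))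

end Psi

section Charts

variable (hA : A.LiesOverPrime ℓ) (hℓN : ¬ ℓ ∣ N)
  (Q : Place (IsLocalRing.ResidueField A)
    (modularFunctionFieldFullC (IsLocalRing.ResidueField A) N))

theorem redSub_fin_mem (hjQ : FkConst.jk (IsLocalRing.ResidueField A) N ∈ Q.toValuationSubring)
    (b : chartA A N ℓ (chartAlgFin N ℓ)) :
    redSub hA hℓN (chartA_fin_le_gaussA hA) b ∈ Q.toValuationSubring :=
  DedK.mem_of_isIntegral Q hjQ (isIntegral_redSub_fin hA hℓN b)

theorem redSub_inf_mem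
    (hjQ : (FkConst.jk (IsLocalRing.ResidueField A) N)⁻¹ ∈ Q.toValuationSubring)
    (b : chartA A N ℓ (chartAlgInf N ℓ)) :
    redSub hA hℓN (chartA_inf_le_gaussA hA) b ∈ Q.toValuationSubring :=
  DedK.mem_of_isIntegral Q hjQ (isIntegral_redSub_inf hA hℓN b)

/-- (hψ0) in the chart at infinity, at a place where `j̄⁻¹` vanishes. -/
theorem psi_inf_jInv
    (hjQ : (FkConst.jk (IsLocalRing.ResidueField A) N)⁻¹ ∈ Q.toValuationSubring)
    (hpos : 0 < Q.ord (FkConst.jk (IsLocalRing.ResidueField A) N)⁻¹) :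
    psi hA hℓN (chartA_inf_le_gaussA hA) Q (redSub_inf_mem hA hℓN Q hjQ)
      ⟨iotaFull N (jInvChartInf N ℓ : chartAlgInf N ℓ),
        iotaFull_mem_chartA (jInvChartInf N ℓ).2⟩ = 0 := by
  have hmem : (jBar N)⁻¹ ∈ chartA A N ℓ (chartAlgInf N ℓ) := by
    rw [← iotaFull_jInvChartInf (ℓ := ℓ)]
    exact iotaFull_mem_chartA (jInvChartInf N ℓ).2
  have hred : redSub hA hℓN (chartA_inf_le_gaussA hA)
      ⟨iotaFull N (jInvChartInf N ℓ : chartAlgInf N ℓ),
        iotaFull_mem_chartA (jInvChartInf N ℓ).2⟩ =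
      (FkConst.jk (IsLocalRing.ResidueField A) N)⁻¹ := by
    rw [← redSub_jBar_inv hA hℓN (chartA_inf_le_gaussA hA) hmem]
    congr 1
    exact Subtype.ext iotaFull_jInvChartInf
  have hne : redSub hA hℓN (chartA_inf_le_gaussA hA)
      ⟨iotaFull N (jInvChartInf N ℓ : chartAlgInf N ℓ),
        iotaFull_mem_chartA (jInvChartInf N ℓ).2⟩ ≠ 0 := by
    rw [hred]
    intro h0
    rw [h0] at hpos
    simp at hpos
  rw [psi_eq_zero_iff hA hℓN (chartA_inf_le_gaussA hA) Q (redSub_inf_mem hA hℓN Q hjQ) _ hne, hred]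
  exact hpos

include hA hℓN in
/-- (hDED), finite chart. -/
theorem exists_frac_fin
    (hjQ : FkConst.jk (IsLocalRing.ResidueField A) N ∈ Q.toValuationSubring)
    (v : modularFunctionFieldFullC (IsLocalRing.ResidueField A) N) (hv : v ≠ 0)
    (hv0 : 0 ≤ Q.ord v) :
    ∃ s₁ s₂ : modularFunctionFieldFullC (IsLocalRing.ResidueField A) N,
      IsIntegral (Algebra.adjoin (IsLocalRing.ResidueField A)
        {FkConst.jk (IsLocalRing.ResidueField A) N}) s₁ ∧
      IsIntegral (Algebra.adjoin (IsLocalRing.ResidueField A)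
        {FkConst.jk (IsLocalRing.ResidueField A) N}) s₂ ∧
      s₂ ≠ 0 ∧ Q.ord s₂ = 0 ∧ v * s₂ = s₁ := by
  have := isAlgClosed_residueField A
  exact exists_frac_ne_jk _ N (natCast_ne_zero hA hℓN) Q hjQ v hv hv0

include hA hℓN in
/-- (hDED), chart at infinity. -/
theorem exists_frac_inf
    (hjQ : (FkConst.jk (IsLocalRing.ResidueField A) N)⁻¹ ∈ Q.toValuationSubring)
    (v : modularFunctionFieldFullC (IsLocalRing.ResidueField A) N) (hv : v ≠ 0)
    (hv0 : 0 ≤ Q.ord v) :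
    ∃ s₁ s₂ : modularFunctionFieldFullC (IsLocalRing.ResidueField A) N,
      IsIntegral (Algebra.adjoin (IsLocalRing.ResidueField A)
        {(FkConst.jk (IsLocalRing.ResidueField A) N)⁻¹}) s₁ ∧
      IsIntegral (Algebra.adjoin (IsLocalRing.ResidueField A)
        {(FkConst.jk (IsLocalRing.ResidueField A) N)⁻¹}) s₂ ∧
      s₂ ≠ 0 ∧ Q.ord s₂ = 0 ∧ v * s₂ = s₁ := by
  have := isAlgClosed_residueField A
  exact exists_frac_ne_jk_inv _ N (natCast_ne_zero hA hℓN) Q hjQ v hv hv0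

end Charts

end TorsionQ

end Fermat.Agent.S37
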