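import Mathlib

/-!
P12 [CP], general linear algebra (Mathlib only):

* `charpoly_pi` : the characteristic polynomial of a componentwise endomorphism of a finite
  product of finite-dimensional vector spaces is the product of the characteristic polynomials;
* `charpoly_eq_X_sub_C_pow_of_isNilpotent` : if `f - c • 1` is nilpotent then
  `f.charpoly = (X - C c) ^ finrank`;
* `finrank_quotient_span_pow` : for a domain `R` which is an algebra over a field `K`, and a
  nonzero `t ∈ R` with `K → R ⧸ (t)` surjective and `(t) ≠ ⊤`: `dim_K R ⧸ (t ^ n) = n`.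
-/

set_option autoImplicit false
set_option linter.style.haveILetI false

namespace Fermat.Agent.S37

open Polynomial

namespace CharPolyPi

universe u v w

variable (K : Type w) [Field K]

/-- The characteristic polynomial of an endomorphism of a zero-dimensional space is `1`. -/
theorem charpoly_of_finrank_eq_zero {M : Type*} [AddCommGroup M] [Module K M] [Module.Finite K M]
    (f : M →ₗ[K] M) (h : Module.finrank K M = 0) : f.charpoly = 1 := by
  have h1 : f.charpoly.natDegree = 0 := by rw [LinearMap.charpoly_natDegree, h]
  exact (Polynomial.Monic.natDegree_eq_zero (LinearMap.charpoly_monic f)).mp h1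

theorem charpoly_pi_aux : ∀ (ι : Type u) [Fintype ι], ∀ (M : ι → Type v)
    [∀ i, AddCommGroup (M i)] [∀ i, Module K (M i)] [∀ i, Module.Finite K (M i)]
    (f : ∀ i, M i →ₗ[K] M i),
    (LinearMap.pi fun i => (f i).comp (LinearMap.proj i)).charpoly = ∏ i, (f i).charpoly := by
  intro ι _
  refine Fintype.induction_empty_option
    (P := fun (ι : Type u) [Fintype ι] => ∀ (M : ι → Type v)
      [∀ i, AddCommGroup (M i)] [∀ i, Module K (M i)] [∀ i, Module.Finite K (M i)]
      (f : ∀ i, M i →ₗ[K] M i),
      (LinearMap.pi fun i => (f i).comp (LinearMap.proj i)).charpoly = ∏ i, (f i).charpoly)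
    ?_ ?_ ?_ ι
  · intro α β _ e ih M _ _ _ f
    letI : Fintype α := Fintype.ofEquiv β e.symm
    have h1 := ih (fun a => M (e a)) (fun a => f (e a))
    let E : ((a : α) → M (e a)) ≃ₗ[K] ((b : β) → M b) := LinearEquiv.piCongrLeft K M e
    have hconj : E.conj (LinearMap.pi fun a => (f (e a)).comp (LinearMap.proj a))
        = LinearMap.pi fun b => (f b).comp (LinearMap.proj b) := by
      apply LinearMap.ext
      intro x
      rw [LinearEquiv.conj_apply_apply]
      funext b
      obtain ⟨a, rfl⟩ := e.surjective b
      show (Equiv.piCongrLeft M e) _ (e a) = f (e a) (x (e a))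
      rw [Equiv.piCongrLeft_apply_apply]
      show f (e a) (E.symm x a) = f (e a) (x (e a))
      rfl
    rw [← hconj, LinearEquiv.charpoly_conj, h1]
    exact Equiv.prod_comp e (fun b => (f b).charpoly)
  · intro M _ _ _ f
    rw [Finset.univ_eq_empty, Finset.prod_empty]
    apply charpoly_of_finrank_eq_zero
    exact Module.finrank_zero_of_subsingleton
  · intro α _ ih M _ _ _ f
    have h1 := ih (fun a => M (some a)) (fun a => f (some a))
    let E : ((o : Option α) → M o) ≃ₗ[K] (M none × ((a : α) → M (some a))) :=
      LinearEquiv.piOptionEquivProd K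
    have hconj : E.conj (LinearMap.pi fun o => (f o).comp (LinearMap.proj o))
        = LinearMap.prodMap (f none)
            (LinearMap.pi fun a => (f (some a)).comp (LinearMap.proj a)) := by
      apply LinearMap.ext
      intro x
      rw [LinearEquiv.conj_apply_apply]
      rfl
    rw [← LinearEquiv.charpoly_conj E, hconj, LinearMap.charpoly_prodMap, h1,
      Fintype.prod_option]

end CharPolyPi

/-- The characteristic polynomial of a componentwise endomorphism of a finite product of
finite-dimensional vector spaces is the product of the characteristic polynomials. -/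
theorem charpoly_pi {K : Type*} [Field K] {ι : Type*} [Fintype ι] {M : ι → Type*}
    [∀ i, AddCommGroup (M i)] [∀ i, Module K (M i)] [∀ i, Module.Finite K (M i)]
    (f : ∀ i, M i →ₗ[K] M i) :
    (LinearMap.pi fun i => (f i).comp (LinearMap.proj i)).charpoly = ∏ i, (f i).charpoly :=
  CharPolyPi.charpoly_pi_aux K ι M f

/-- If `f - c • 1` is nilpotent then the characteristic polynomial of `f` is
`(X - C c) ^ finrank`. -/
theorem charpoly_eq_X_sub_C_pow_of_isNilpotent {K : Type*} [Field K] {M : Type*}
    [AddCommGroup M] [Module K M] [Module.Finite K M] (f : Module.End K M) (c : K)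
    (h : IsNilpotent (f - c • (1 : Module.End K M))) :
    f.charpoly = (X - C c) ^ Module.finrank K M := by
  have h1 := LinearMap.charpoly_sub_smul f c
  rw [IsNilpotent.charpoly_eq_X_pow_finrank h] at h1
  have h2 := congrArg (fun p : K[X] => p.comp (X - C c)) h1
  simp only [Polynomial.comp_assoc, add_comp, X_comp, C_comp, sub_add_cancel, comp_X, pow_comp]
    at h2
  exact h2.symm

/-- For a domain `R` over a field `K` and `t ≠ 0` generating a proper ideal with `K → R ⧸ (t)`
surjective, `R ⧸ (t ^ n)` has dimension `n` over `K`. -/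
theorem finrank_quotient_span_pow {K R : Type*} [Field K] [CommRing R] [IsDomain R] [Algebra K R]
    {t : R} (ht : t ≠ 0) (hne : Ideal.span {t} ≠ ⊤)
    (hsurj : Function.Surjective (algebraMap K (R ⧸ Ideal.span {t}))) (n : ℕ) :
    Module.Finite K (R ⧸ Ideal.span {t ^ n}) ∧ Module.finrank K (R ⧸ Ideal.span {t ^ n}) = n := by
  induction n with
  | zero =>
    have htop : Ideal.span {t ^ 0} = ⊤ := by
      rw [pow_zero, Ideal.span_singleton_one]
    have hsub : Subsingleton (R ⧸ Ideal.span {t ^ 0}) := by
      rw [htop]
      exact Ideal.Quotient.subsingleton_iff.mpr rfl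
    haveI : Finite (R ⧸ Ideal.span {t ^ 0}) := Finite.of_subsingleton
    exact ⟨Module.Finite.of_finite, Module.finrank_zero_of_subsingleton⟩
  | succ n ih =>
    obtain ⟨hfin, hrank⟩ := ih
    have hle : Ideal.span {t ^ (n + 1)} ≤ Ideal.span {t ^ n} := by
      rw [Ideal.span_singleton_le_span_singleton]
      exact pow_dvd_pow t (Nat.le_succ n)
    let q : (R ⧸ Ideal.span {t ^ (n + 1)}) →ₗ[K] (R ⧸ Ideal.span {t ^ n}) :=
      (Ideal.Quotient.factorₐ K hle).toLinearMap
    have hq : ∀ y : R, q (Ideal.Quotient.mk _ y) = Ideal.Quotient.mk _ y := fun y => rfl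
    have hqsurj : Function.Surjective q := by
      intro z
      obtain ⟨y, rfl⟩ := Ideal.Quotient.mk_surjective z
      exact ⟨Ideal.Quotient.mk _ y, hq y⟩
    -- the kernel of `q` is the line spanned by the class of `t ^ n`
    set w : R ⧸ Ideal.span {t ^ (n + 1)} := Ideal.Quotient.mk _ (t ^ n) with hw
    have hw0 : w ≠ 0 := by
      rw [hw, Ne, Ideal.Quotient.eq_zero_iff_mem, Ideal.mem_span_singleton]
      rintro ⟨r, hr⟩
      apply hne
      rw [Ideal.eq_top_iff_one, Ideal.mem_span_singleton]
      refine ⟨r, ?_⟩
      have h1 : t ^ n * 1 = t ^ n * (t * r) := by rw [mul_one, ← mul_assoc, ← pow_succ]; exact hr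
      exact mul_left_cancel₀ (pow_ne_zero n ht) h1
    have hker : LinearMap.ker q = K ∙ w := by
      apply le_antisymm
      · intro z hz
        obtain ⟨y, rfl⟩ := Ideal.Quotient.mk_surjective z
        rw [LinearMap.mem_ker, hq, Ideal.Quotient.eq_zero_iff_mem, Ideal.mem_span_singleton] at hz
        obtain ⟨x, rfl⟩ := hz
        obtain ⟨c, hc⟩ := hsurj (Ideal.Quotient.mk _ x)
        rw [Submodule.mem_span_singleton]
        refine ⟨c, ?_⟩
        have h1 : algebraMap K R c - x ∈ Ideal.span {t} := by
          rw [← Ideal.Quotient.eq]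
          exact hc
        obtain ⟨r, hr⟩ := Ideal.mem_span_singleton.mp h1
        rw [hw, Algebra.smul_def, ← Ideal.Quotient.mk_algebraMap, ← map_mul,
          Ideal.Quotient.eq, Ideal.mem_span_singleton]
        refine ⟨r, ?_⟩
        rw [pow_succ, mul_assoc, ← hr]
        ring
      · rw [Submodule.span_singleton_le_iff_mem, LinearMap.mem_ker, hw, hq,
          Ideal.Quotient.eq_zero_iff_mem]
        exact Ideal.mem_span_singleton_self _
    have hkerfin : Module.Finite K (LinearMap.ker q) := by
      rw [hker]
      infer_instance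
    have hquotfin : Module.Finite K ((R ⧸ Ideal.span {t ^ (n + 1)}) ⧸ LinearMap.ker q) :=
      Module.Finite.equiv (q.quotKerEquivOfSurjective hqsurj).symm
    have hfin' : Module.Finite K (R ⧸ Ideal.span {t ^ (n + 1)}) :=
      Module.Finite.of_submodule_quotient (LinearMap.ker q)
    refine ⟨hfin', ?_⟩
    have h1 := LinearMap.finrank_range_add_finrank_ker q
    rw [LinearMap.range_eq_top.mpr hqsurj, finrank_top, hrank, hker,
      finrank_span_singleton hw0] at h1
    exact h1.symm

end Fermat.Agent.S37
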