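import Mathlib
import Fermat.Agent.S37.CharPolyPi

/-!
P12 [CP], part A: the characteristic polynomial of multiplication by `h` on `B ⧸ (t)` for a
Dedekind domain `B` over a field `K` whose residue fields at the primes containing `t` are `K`:
it is `∏ P, (X - h(P)) ^ ord_P(t)`.
-/

set_option autoImplicit false

namespace Fermat.Agent.S37

open Polynomial IsDedekindDomain

namespace CharPolyCRT

/-- A nonzero ideal is the product of the prime powers dividing it, over any finite set of
primes containing all the primes above it. -/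
theorem prod_pow_multiplicity_eq {B : Type*} [CommRing B] [IsDedekindDomain B] :
    ∀ I : Ideal B, I ≠ ⊥ → ∀ S : Finset (HeightOneSpectrum B),
      (∀ P : HeightOneSpectrum B, I ≤ P.asIdeal → P ∈ S) →
      ∏ P ∈ S, P.asIdeal ^ multiplicity P.asIdeal I = I := by
  classical
  intro I
  induction I using UniqueFactorizationMonoid.induction_on_prime with
  | h₁ => intro h; exact absurd rfl h
  | h₂ J hJ =>
    intro _ S _
    rw [Ideal.isUnit_iff] at hJ
    subst hJ
    rw [← Ideal.one_eq_top]
    apply Finset.prod_eq_one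
    intro P _
    have h0 : multiplicity P.asIdeal (1 : Ideal B) = 0 := by
      rw [multiplicity_eq_zero, Ideal.one_eq_top, Ideal.dvd_iff_le, top_le_iff]
      exact P.isPrime.ne_top
    rw [h0, pow_zero]
  | h₃ J Q hJ hQ ih =>
    intro _ S hS
    have hQ0 : Q ≠ ⊥ := hQ.ne_zero
    have hQp : Q.IsPrime := (Ideal.prime_iff_isPrime hQ0).mp hQ
    let Q₀ : HeightOneSpectrum B := ⟨Q, hQp, hQ0⟩
    have hQmax : Q.IsMaximal := hQp.isMaximal hQ0
    have hmul : ∀ P : HeightOneSpectrum B,
        multiplicity P.asIdeal (Q * J) = multiplicity P.asIdeal Q + multiplicity P.asIdeal J := by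
      intro P
      have hPprime : Prime P.asIdeal := (Ideal.prime_iff_isPrime P.ne_bot).mpr P.isPrime
      exact multiplicity_mul hPprime
        (FiniteMultiplicity.of_not_isUnit hPprime.not_isUnit (mul_ne_zero hQ0 hJ))
    have hQ₀S : Q₀ ∈ S := hS Q₀ Ideal.mul_le_left
    have hJS : ∀ P : HeightOneSpectrum B, J ≤ P.asIdeal → P ∈ S :=
      fun P hP => hS P (Ideal.mul_le_right.trans hP)
    have hQprod : ∏ P ∈ S, P.asIdeal ^ multiplicity P.asIdeal Q = Q := by
      rw [Finset.prod_eq_single Q₀]
      · show Q ^ multiplicity Q Q = Q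
        rw [multiplicity_self, pow_one]
      · intro P _ hP
        have h0 : multiplicity P.asIdeal Q = 0 := by
          rw [multiplicity_eq_zero, Ideal.dvd_iff_le]
          intro hle
          apply hP
          have hPmax : P.asIdeal.IsMaximal := P.isPrime.isMaximal P.ne_bot
          have hQP : Q = P.asIdeal := hQmax.eq_of_le hPmax.ne_top hle
          exact HeightOneSpectrum.ext hQP.symm
        rw [h0, pow_zero]
      · intro hnot
        exact absurd hQ₀S hnot
    simp_rw [hmul, pow_add]
    rw [Finset.prod_mul_distrib, hQprod, ih hJ S hJS]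

/-- For a nonzero prime `P` of a Dedekind domain `B` over a field `K` with `K → B ⧸ P`
surjective, `B ⧸ P ^ n` has dimension `n` over `K`. -/
theorem finrank_quotient_pow {K B : Type*} [Field K] [CommRing B] [IsDedekindDomain B]
    [Algebra K B] (P : Ideal B) [hP : P.IsPrime] (hP0 : P ≠ ⊥)
    (hsurj : Function.Surjective (algebraMap K (B ⧸ P))) (n : ℕ) :
    Module.Finite K (B ⧸ P ^ n) ∧ Module.finrank K (B ⧸ P ^ n) = n := by
  induction n with
  | zero =>
    have htop : P ^ 0 = ⊤ := by rw [pow_zero, Ideal.one_eq_top]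
    have hsub : Subsingleton (B ⧸ P ^ 0) := by
      rw [htop]
      exact Ideal.Quotient.subsingleton_iff.mpr rfl
    have : Finite (B ⧸ P ^ 0) := Finite.of_subsingleton
    exact ⟨Module.Finite.of_finite, Module.finrank_zero_of_subsingleton⟩
  | succ n ih =>
    obtain ⟨hfin, hrank⟩ := ih
    have hle : P ^ (n + 1) ≤ P ^ n := Ideal.pow_le_pow_right (Nat.le_succ n)
    let q : (B ⧸ P ^ (n + 1)) →ₗ[K] (B ⧸ P ^ n) :=
      (Ideal.Quotient.factorₐ K hle).toLinearMap
    have hq : ∀ y : B, q (Ideal.Quotient.mk _ y) = Ideal.Quotient.mk _ y := fun y => rfl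
    have hqsurj : Function.Surjective q := by
      intro z
      obtain ⟨y, rfl⟩ := Ideal.Quotient.mk_surjective z
      exact ⟨Ideal.Quotient.mk _ y, hq y⟩
    obtain ⟨a, ha_mem, ha_not⟩ := Ideal.exists_mem_pow_notMem_pow_succ P hP0 hP.ne_top n
    set w : B ⧸ P ^ (n + 1) := Ideal.Quotient.mk _ a with hw
    have hw0 : w ≠ 0 := by
      rw [hw, Ne, Ideal.Quotient.eq_zero_iff_mem]
      exact ha_not
    have hker : LinearMap.ker q = K ∙ w := by
      apply le_antisymm
      · intro z hz
        obtain ⟨y, rfl⟩ := Ideal.Quotient.mk_surjective z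
        rw [LinearMap.mem_ker, hq, Ideal.Quotient.eq_zero_iff_mem] at hz
        obtain ⟨d, e', he', hde⟩ :=
          Ideal.exists_mul_add_mem_pow_succ hP0 a y ha_mem ha_not hz
        obtain ⟨c, hc⟩ := hsurj (Ideal.Quotient.mk _ d)
        rw [Submodule.mem_span_singleton]
        refine ⟨c, ?_⟩
        have h1 : algebraMap K B c - d ∈ P := by
          rw [← Ideal.Quotient.eq]
          exact hc
        have h2 : a * (algebraMap K B c - d) ∈ P ^ (n + 1) := by
          rw [pow_succ]
          exact Ideal.mul_mem_mul ha_mem h1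
        have h3 : algebraMap K B c * a - y = a * (algebraMap K B c - d) - e' := by
          rw [← hde]
          ring
        rw [hw, Algebra.smul_def, ← Ideal.Quotient.mk_algebraMap, ← map_mul,
          Ideal.Quotient.eq, h3]
        exact Ideal.sub_mem _ h2 he'
      · rw [Submodule.span_singleton_le_iff_mem, LinearMap.mem_ker, hw, hq,
          Ideal.Quotient.eq_zero_iff_mem]
        exact ha_mem
    have hkerfin : Module.Finite K (LinearMap.ker q) := by
      rw [hker]
      infer_instance
    have hquotfin : Module.Finite K ((B ⧸ P ^ (n + 1)) ⧸ LinearMap.ker q) :=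
      Module.Finite.equiv (q.quotKerEquivOfSurjective hqsurj).symm
    have hfin' : Module.Finite K (B ⧸ P ^ (n + 1)) :=
      Module.Finite.of_submodule_quotient (LinearMap.ker q)
    refine ⟨hfin', ?_⟩
    have h1 := LinearMap.finrank_range_add_finrank_ker q
    rw [LinearMap.range_eq_top.mpr hqsurj, finrank_top, hrank, hker,
      finrank_span_singleton hw0] at h1
    exact h1.symm

/-- Multiplication by `h` on `B ⧸ P ^ n` has characteristic polynomial `(X - c) ^ n` when
`h ≡ c` modulo `P`. -/
theorem charpoly_mulLeft_quotient_pow {K B : Type*} [Field K] [CommRing B] [IsDedekindDomain B]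
    [Algebra K B] (P : Ideal B) [hP : P.IsPrime] (hP0 : P ≠ ⊥)
    (hsurj : Function.Surjective (algebraMap K (B ⧸ P))) (n : ℕ) (h : B) (c : K)
    (hc : h - algebraMap K B c ∈ P) :
    ∃ _ : Module.Finite K (B ⧸ P ^ n),
      (LinearMap.mulLeft K (Ideal.Quotient.mk (P ^ n) h)).charpoly = (X - C c) ^ n := by
  obtain ⟨hfin, hrank⟩ := finrank_quotient_pow (K := K) P hP0 hsurj n
  refine ⟨hfin, ?_⟩
  have hnil : IsNilpotent (Ideal.Quotient.mk (P ^ n) h - algebraMap K (B ⧸ P ^ n) c) := by
    refine ⟨n, ?_⟩
    rw [← Ideal.Quotient.mk_algebraMap, ← map_sub, ← map_pow, Ideal.Quotient.eq_zero_iff_mem]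
    exact Ideal.pow_mem_pow hc n
  have heq : LinearMap.mulLeft K (Ideal.Quotient.mk (P ^ n) h)
        - c • (1 : Module.End K (B ⧸ P ^ n))
      = Algebra.lmul K (B ⧸ P ^ n)
          (Ideal.Quotient.mk (P ^ n) h - algebraMap K (B ⧸ P ^ n) c) := by
    apply LinearMap.ext
    intro z
    simp [Algebra.smul_def]
  have hnil' : IsNilpotent (LinearMap.mulLeft K (Ideal.Quotient.mk (P ^ n) h)
      - c • (1 : Module.End K (B ⧸ P ^ n))) := by
    rw [heq]
    exact hnil.map (Algebra.lmul K (B ⧸ P ^ n))
  rw [charpoly_eq_X_sub_C_pow_of_isNilpotent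
    (LinearMap.mulLeft K (Ideal.Quotient.mk (P ^ n) h)) c hnil', hrank]

end CharPolyCRT

/-- The characteristic polynomial of multiplication by `h` on `B ⧸ (t)`, for a Dedekind domain
`B` over a field `K`, a finite set `S` of primes containing all primes above `t`, with residue
field `K` at each prime of `S`. -/
theorem charpoly_mulLeft_quotient_span_of_dedekind_finset {K B : Type*} [Field K] [CommRing B]
    [IsDedekindDomain B] [Algebra K B] {t : B} (ht : t ≠ 0) (S : Finset (HeightOneSpectrum B))
    (hS : ∀ P : HeightOneSpectrum B, t ∈ P.asIdeal → P ∈ S)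
    (hsurj : ∀ P ∈ S, Function.Surjective (algebraMap K (B ⧸ P.asIdeal)))
    (h : B) (c : HeightOneSpectrum B → K)
    (hc : ∀ P ∈ S, h - algebraMap K B (c P) ∈ P.asIdeal) :
    ∃ _ : Module.Finite K (B ⧸ Ideal.span {t}),
      (LinearMap.mulLeft K (Ideal.Quotient.mk (Ideal.span {t}) h)).charpoly
        = ∏ P ∈ S, (X - C (c P)) ^ multiplicity P.asIdeal (Ideal.span {t}) := by
  classical
  have hI0 : Ideal.span {t} ≠ ⊥ := by
    rw [Ne, Ideal.span_singleton_eq_bot]
    exact ht
  have hSI : ∀ P : HeightOneSpectrum B, Ideal.span {t} ≤ P.asIdeal → P ∈ S :=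
    fun P hP => hS P (hP (Ideal.mem_span_singleton_self t))
  have hprod : ∏ P ∈ S, P.asIdeal ^ multiplicity P.asIdeal (Ideal.span {t}) = Ideal.span {t} :=
    CharPolyCRT.prod_pow_multiplicity_eq _ hI0 S hSI
  let e : S → ℕ := fun P => multiplicity (P : HeightOneSpectrum B).asIdeal (Ideal.span {t})
  have hprod' : ∏ P : S, (P : HeightOneSpectrum B).asIdeal ^ e P = Ideal.span {t} := by
    rw [← hprod]
    exact Finset.prod_coe_sort S (fun P => P.asIdeal ^ multiplicity P.asIdeal (Ideal.span {t}))
  let φ : B ⧸ Ideal.span {t} ≃+* ∀ P : S, B ⧸ (P : HeightOneSpectrum B).asIdeal ^ e P :=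
    HeightOneSpectrum.quotientEquivPiOfProdEq (Ideal.span {t})
      (fun P : S => (P : HeightOneSpectrum B)) e
      (fun _ _ hij => Subtype.coe_injective.ne hij) hprod'
  have hφ : ∀ x : B, φ (Ideal.Quotient.mk (Ideal.span {t}) x)
      = fun P : S => Ideal.Quotient.mk ((P : HeightOneSpectrum B).asIdeal ^ e P) x :=
    fun x => rfl
  let E : (B ⧸ Ideal.span {t}) ≃ₐ[K] (∀ P : S, B ⧸ (P : HeightOneSpectrum B).asIdeal ^ e P) :=
    AlgEquiv.ofRingEquiv (f := φ) (fun a => by
      rw [← Ideal.Quotient.mk_algebraMap, hφ]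
      rfl)
  have hE : ∀ x : B, E (Ideal.Quotient.mk (Ideal.span {t}) x)
      = fun P : S => Ideal.Quotient.mk ((P : HeightOneSpectrum B).asIdeal ^ e P) x :=
    fun x => hφ x
  have hfac : ∀ P : S, ∃ _ : Module.Finite K (B ⧸ (P : HeightOneSpectrum B).asIdeal ^ e P),
      (LinearMap.mulLeft K
        (Ideal.Quotient.mk ((P : HeightOneSpectrum B).asIdeal ^ e P) h)).charpoly
        = (X - C (c P)) ^ e P := by
    intro P
    have := (P : HeightOneSpectrum B).isPrime
    exact CharPolyCRT.charpoly_mulLeft_quotient_pow (P : HeightOneSpectrum B).asIdeal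
      (P : HeightOneSpectrum B).ne_bot (hsurj P.1 P.2) (e P) h (c P) (hc P.1 P.2)
  have hfin : ∀ P : S, Module.Finite K (B ⧸ (P : HeightOneSpectrum B).asIdeal ^ e P) :=
    fun P => (hfac P).fst
  have hfinI : Module.Finite K (B ⧸ Ideal.span {t}) :=
    Module.Finite.equiv E.toLinearEquiv.symm
  refine ⟨hfinI, ?_⟩
  have hconj : E.toLinearEquiv.conj (LinearMap.mulLeft K (Ideal.Quotient.mk (Ideal.span {t}) h))
      = LinearMap.pi fun P : S =>
          (LinearMap.mulLeft K
            (Ideal.Quotient.mk ((P : HeightOneSpectrum B).asIdeal ^ e P) h)).comp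
            (LinearMap.proj P) := by
    apply LinearMap.ext
    intro x
    rw [LinearEquiv.conj_apply_apply]
    show E (Ideal.Quotient.mk (Ideal.span {t}) h * E.symm x) = _
    rw [map_mul, AlgEquiv.apply_symm_apply, hE]
    rfl
  rw [← LinearEquiv.charpoly_conj E.toLinearEquiv, hconj, charpoly_pi,
    ← Finset.prod_coe_sort S
      (fun P => (X - C (c P)) ^ multiplicity P.asIdeal (Ideal.span {t}))]
  exact Finset.prod_congr rfl (fun P _ => (hfac P).snd)

/-- The characteristic polynomial of multiplication by `h` on `B ⧸ (t)`, for a semilocal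
Dedekind domain `B` over a field `K` with residue field `K` at each prime. -/
theorem charpoly_mulLeft_quotient_span_of_dedekind {K B : Type*} [Field K] [CommRing B]
    [IsDedekindDomain B] [Algebra K B] [Fintype (HeightOneSpectrum B)] {t : B} (ht : t ≠ 0)
    (hsurj : ∀ P : HeightOneSpectrum B, Function.Surjective (algebraMap K (B ⧸ P.asIdeal)))
    (h : B) (c : HeightOneSpectrum B → K)
    (hc : ∀ P : HeightOneSpectrum B, h - algebraMap K B (c P) ∈ P.asIdeal) :
    ∃ _ : Module.Finite K (B ⧸ Ideal.span {t}),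
      (LinearMap.mulLeft K (Ideal.Quotient.mk (Ideal.span {t}) h)).charpoly
        = ∏ P : HeightOneSpectrum B,
            (X - C (c P)) ^ multiplicity P.asIdeal (Ideal.span {t}) :=
  charpoly_mulLeft_quotient_span_of_dedekind_finset ht Finset.univ
    (fun P _ => Finset.mem_univ P) (fun P _ => hsurj P) h c (fun P _ => hc P)

end Fermat.Agent.S37
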