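import Fermat.Agent.S37.Eval
import Fermat.Agent.S37.CharPolyCRT

/-!
P12 / S37 Tier 2, [WC-GEN]: the generic-fibre product formula.

`Ω` algebraically closed of characteristic `0`, `F / Ω` a function field (`IsFF`), `x ∈ F`
transcendental, `𝒪` the integral closure of `Ω[x]` in `F` (a Dedekind domain).  For
`a, w ∈ 𝒪 ∖ 0` and `h ∈ 𝒪`:
`charpoly_Ω (h | 𝒪 / (a, w)) = ∏_P (X - h(P)) ^ min (ord_P a, ord_P w)`, the product over the
common zeros `P` of `a` and `w` with `x(P) ≠ ∞`.  The binding export is the basis form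
`charpoly_eq_prod_of_basis_mod` (no quotient type in the statement).
-/

set_option autoImplicit false

namespace Fermat.Agent.S37

open AlgebraicCurve Polynomial IsDedekindDomain IntermediateField
open scoped IntermediateField.algebraAdjoinAdjoin

namespace GenFibre

section CRT

/-- The characteristic polynomial of multiplication by `h` on `B ⧸ I`, for a Dedekind domain
`B` over a field `K`, a nonzero ideal `I`, a finite set `S` of primes containing all primes
above `I`, with residue field `K` at each prime of `S`. -/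
theorem charpoly_mulLeft_quotient_of_dedekind_finset {K B : Type*} [Field K] [CommRing B]
    [IsDedekindDomain B] [Algebra K B] (I : Ideal B) (hI0 : I ≠ ⊥)
    (S : Finset (HeightOneSpectrum B))
    (hSI : ∀ P : HeightOneSpectrum B, I ≤ P.asIdeal → P ∈ S)
    (hsurj : ∀ P ∈ S, Function.Surjective (algebraMap K (B ⧸ P.asIdeal)))
    (h : B) (c : HeightOneSpectrum B → K)
    (hc : ∀ P ∈ S, h - algebraMap K B (c P) ∈ P.asIdeal) :
    ∃ _ : Module.Finite K (B ⧸ I),
      (LinearMap.mulLeft K (Ideal.Quotient.mk I h)).charpoly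
        = ∏ P ∈ S, (X - C (c P)) ^ multiplicity P.asIdeal I := by
  classical
  have hprod : ∏ P ∈ S, P.asIdeal ^ multiplicity P.asIdeal I = I :=
    CharPolyCRT.prod_pow_multiplicity_eq _ hI0 S hSI
  let e : S → ℕ := fun P => multiplicity (P : HeightOneSpectrum B).asIdeal I
  have hprod' : ∏ P : S, (P : HeightOneSpectrum B).asIdeal ^ e P = I := by
    rw [← hprod]
    exact Finset.prod_coe_sort S (fun P => P.asIdeal ^ multiplicity P.asIdeal I)
  let φ : B ⧸ I ≃+* ∀ P : S, B ⧸ (P : HeightOneSpectrum B).asIdeal ^ e P :=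
    HeightOneSpectrum.quotientEquivPiOfProdEq I
      (fun P : S => (P : HeightOneSpectrum B)) e
      (fun _ _ hij => Subtype.coe_injective.ne hij) hprod'
  have hφ : ∀ x : B, φ (Ideal.Quotient.mk I x)
      = fun P : S => Ideal.Quotient.mk ((P : HeightOneSpectrum B).asIdeal ^ e P) x :=
    fun x => rfl
  let E : (B ⧸ I) ≃ₐ[K] (∀ P : S, B ⧸ (P : HeightOneSpectrum B).asIdeal ^ e P) :=
    AlgEquiv.ofRingEquiv (f := φ) (fun a => by
      rw [← Ideal.Quotient.mk_algebraMap, hφ]
      rfl)
  have hE : ∀ x : B, E (Ideal.Quotient.mk I x)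
      = fun P : S => Ideal.Quotient.mk ((P : HeightOneSpectrum B).asIdeal ^ e P) x :=
    fun x => hφ x
  have hfac : ∀ P : S, ∃ _ : Module.Finite K (B ⧸ (P : HeightOneSpectrum B).asIdeal ^ e P),
      (LinearMap.mulLeft K
        (Ideal.Quotient.mk ((P : HeightOneSpectrum B).asIdeal ^ e P) h)).charpoly
        = (X - C (c P)) ^ e P := by
    intro P
    have := (P : HeightOneSpectrum B).isPrime
    exact CharPolyCRT.charpoly_mulLeft_quotient_pow (P : HeightOneSpectrum B).asIdeal
      (P : HeightOneSpectrum B).ne_bot (hsurj P.1 P.2) (e P) h (c P) (hc P.1 P.2)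
  have hfin : ∀ P : S, Module.Finite K (B ⧸ (P : HeightOneSpectrum B).asIdeal ^ e P) :=
    fun P => (hfac P).fst
  have hfinI : Module.Finite K (B ⧸ I) :=
    Module.Finite.equiv E.toLinearEquiv.symm
  refine ⟨hfinI, ?_⟩
  have hconj : E.toLinearEquiv.conj (LinearMap.mulLeft K (Ideal.Quotient.mk I h))
      = LinearMap.pi fun P : S =>
          (LinearMap.mulLeft K
            (Ideal.Quotient.mk ((P : HeightOneSpectrum B).asIdeal ^ e P) h)).comp
            (LinearMap.proj P) := by
    apply LinearMap.ext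
    intro x
    rw [LinearEquiv.conj_apply_apply]
    show E (Ideal.Quotient.mk I h * E.symm x) = _
    rw [map_mul, AlgEquiv.apply_symm_apply, hE]
    rfl
  rw [← LinearEquiv.charpoly_conj E.toLinearEquiv, hconj, charpoly_pi,
    ← Finset.prod_coe_sort S
      (fun P => (X - C (c P)) ^ multiplicity P.asIdeal I)]
  exact Finset.prod_congr rfl (fun P _ => (hfac P).snd)

/-- multiplicity of a prime in a sum of two nonzero ideals -/
theorem multiplicity_sup {B : Type*} [CommRing B] [IsDedekindDomain B]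
    (P : HeightOneSpectrum B) {I J : Ideal B} (hI : I ≠ ⊥) (hJ : J ≠ ⊥) :
    multiplicity P.asIdeal (I ⊔ J) = min (multiplicity P.asIdeal I) (multiplicity P.asIdeal J) := by
  have hP : ¬ IsUnit P.asIdeal := by
    rw [Ideal.isUnit_iff]
    exact P.isPrime.ne_top
  have hfin : ∀ L : Ideal B, L ≠ ⊥ → FiniteMultiplicity P.asIdeal L := fun L hL =>
    FiniteMultiplicity.of_not_isUnit hP hL
  have hsup : I ⊔ J ≠ ⊥ := fun h => hI (le_bot_iff.mp (h ▸ le_sup_left))
  apply eq_of_forall_le_iff
  intro k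
  rw [le_min_iff, ← (hfin _ hsup).pow_dvd_iff_le_multiplicity,
    ← (hfin _ hI).pow_dvd_iff_le_multiplicity, ← (hfin _ hJ).pow_dvd_iff_le_multiplicity,
    Ideal.dvd_iff_le, Ideal.dvd_iff_le, Ideal.dvd_iff_le, sup_le_iff]

end CRT

/-- The matrix of multiplication by `h` in a basis of `R ⧸ I` given by representatives
(all congruences read in an overring `F` through a predicate `J`). -/
theorem charpoly_eq_of_basis_mod {K R F : Type*} [Field K] [CommRing R] [Algebra K R]
    [CommRing F] [Algebra K F] [Algebra R F] [IsScalarTower K R F]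
    (I : Ideal R) [Module.Finite K (R ⧸ I)] (J : F → Prop)
    (hJ : ∀ r : R, J (algebraMap R F r) ↔ r ∈ I)
    {ι : Type*} [Fintype ι] [DecidableEq ι] (b : ι → R)
    (hspan : ∀ f : R, ∃ c : ι → K,
      J (algebraMap R F f - ∑ i, algebraMap K F (c i) * algebraMap R F (b i)))
    (hindep : ∀ c : ι → K, J (∑ i, algebraMap K F (c i) * algebraMap R F (b i)) → c = 0)
    (h : R) (C : Matrix ι ι K)
    (hC : ∀ i, J (algebraMap R F h * algebraMap R F (b i) -
      ∑ j, algebraMap K F (C i j) * algebraMap R F (b j))) :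
    C.charpoly = (LinearMap.mulLeft K (Ideal.Quotient.mk I h)).charpoly := by
  classical
  have hcoe : ∀ c : ι → K, algebraMap R F (∑ i, algebraMap K R (c i) * b i) =
      ∑ i, algebraMap K F (c i) * algebraMap R F (b i) := by
    intro c
    rw [map_sum]
    refine Finset.sum_congr rfl (fun i _ => ?_)
    rw [map_mul, ← IsScalarTower.algebraMap_apply]
  have hsum : ∀ c : ι → K, ∑ i, c i • Ideal.Quotient.mk I (b i) =
      Ideal.Quotient.mk I (∑ i, algebraMap K R (c i) * b i) := by
    intro c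
    rw [map_sum]
    refine Finset.sum_congr rfl (fun i _ => ?_)
    rw [Algebra.smul_def, map_mul]
    rfl
  have hli : LinearIndependent K (fun i => Ideal.Quotient.mk I (b i)) := by
    rw [Fintype.linearIndependent_iff]
    intro c hc i
    rw [hsum, Ideal.Quotient.eq_zero_iff_mem, ← hJ, hcoe] at hc
    exact congrFun (hindep c hc) i
  have hsp : ⊤ ≤ Submodule.span K (Set.range (fun i => Ideal.Quotient.mk I (b i))) := by
    rintro z -
    obtain ⟨f, rfl⟩ := Ideal.Quotient.mk_surjective z
    obtain ⟨c, hc⟩ := hspan f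
    rw [← hcoe, ← map_sub, hJ] at hc
    have h4 : Ideal.Quotient.mk I f = ∑ i, c i • Ideal.Quotient.mk I (b i) := by
      rw [hsum]
      exact Ideal.Quotient.eq.mpr hc
    rw [h4]
    exact Submodule.sum_mem _ (fun i _ =>
      Submodule.smul_mem _ _ (Submodule.subset_span (Set.mem_range_self i)))
  set B := Module.Basis.mk hli hsp with hB
  have hBapp : ∀ i, B i = Ideal.Quotient.mk I (b i) := fun i => Module.Basis.mk_apply hli hsp i
  have hmul : ∀ j, Ideal.Quotient.mk I h * B j = ∑ k, C j k • B k := by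
    intro j
    have h1 := hC j
    rw [← hcoe, ← map_mul, ← map_sub, hJ] at h1
    simp only [hBapp]
    rw [hsum, ← map_mul]
    exact Ideal.Quotient.eq.mpr h1
  have hmat : LinearMap.toMatrix B B (LinearMap.mulLeft K (Ideal.Quotient.mk I h)) =
      C.transpose := by
    ext i j
    rw [LinearMap.toMatrix_apply, Matrix.transpose_apply, LinearMap.mulLeft_apply, hmul j,
      map_sum, Finset.sum_apply']
    simp [Module.Basis.repr_self, Finsupp.single_apply]
  rw [← Matrix.charpoly_transpose, ← hmat, LinearMap.charpoly_toMatrix]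

section Dict

variable {K F : Type*} [Field K] [Field F] [Algebra K F] [IsAlgClosed K]
variable {R : Type*} [CommRing R] [IsDedekindDomain R] [Algebra R F] [IsFractionRing R F]
  [Algebra K R] [IsScalarTower K R F]

omit [IsAlgClosed K] in
theorem algebraMap_mem (w : HeightOneSpectrum R) (r : R) :
    algebraMap R F r ∈ (Place.ofHeightOneSpectrum (K := K) w).toValuationSubring := by
  rw [Place.ofHeightOneSpectrum_toValuationSubring, Valuation.mem_valuationSubring_iff]
  exact w.valuation_le_one r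

theorem sub_algebraMap_evF_mem (hF : IsFF K F) (w : HeightOneSpectrum R) (r : R) :
    r - algebraMap K R (evF hF (Place.ofHeightOneSpectrum (K := K) w) (algebraMap R F r)) ∈
      w.asIdeal := by
  set v := Place.ofHeightOneSpectrum (K := K) (F := F) w with hv
  have hr := algebraMap_mem (K := K) (F := F) w r
  set c := evF hF v (algebraMap R F r) with hc
  have h1 : ev hF v ⟨algebraMap R F r, hr⟩ = c := by rw [hc, evF_of_mem hF v hr]
  by_cases h0 : r - algebraMap K R c = 0
  · rw [h0]
    exact w.asIdeal.zero_mem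
  · rw [ev_eq_iff_ord_pos] at h1
    have h2 : algebraMap R F r - algebraMap K F c = algebraMap R F (r - algebraMap K R c) := by
      rw [map_sub, ← IsScalarTower.algebraMap_apply]
    rcases h1 with h1 | h1
    · exfalso
      apply h0
      apply IsFractionRing.injective R F
      rw [← h2, map_zero, sub_eq_zero]
      exact h1
    · change 0 < v.ord (algebraMap R F r - algebraMap K F c) at h1
      rw [h2] at h1
      exact (S24.PlacesHOS.ord_algebraMap_pos_iff w h0).mp h1

theorem surjective_algebraMap_quotient (hF : IsFF K F) (w : HeightOneSpectrum R) :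
    Function.Surjective (algebraMap K (R ⧸ w.asIdeal)) := by
  intro z
  obtain ⟨r, rfl⟩ := Ideal.Quotient.mk_surjective z
  refine ⟨evF hF (Place.ofHeightOneSpectrum (K := K) w) (algebraMap R F r), ?_⟩
  rw [IsScalarTower.algebraMap_apply K R (R ⧸ w.asIdeal), Ideal.Quotient.algebraMap_eq, eq_comm,
    Ideal.Quotient.eq]
  exact sub_algebraMap_evF_mem hF w r

/-- **Generic-fibre product formula on a Dedekind model**, quotient form. -/
theorem charpoly_mulLeft_quotient_span_pair (hF : IsFF K F) {a w : R} (ha : a ≠ 0) (hw : w ≠ 0)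
    (Z : Finset (Place K F))
    (hZ : ∀ v : Place K F, v ∈ Z ↔ (∀ r : R, algebraMap R F r ∈ v.toValuationSubring) ∧
      0 < v.ord (algebraMap R F a) ∧ 0 < v.ord (algebraMap R F w)) (h : R) :
    ∃ _ : Module.Finite K (R ⧸ Ideal.span {a, w}),
      (LinearMap.mulLeft K (Ideal.Quotient.mk (Ideal.span {a, w}) h)).charpoly =
        ∏ v ∈ Z, (X - C (evF hF v (algebraMap R F h))) ^
          (min (v.ord (algebraMap R F a)) (v.ord (algebraMap R F w))).toNat := by
  classical
  set I : Ideal R := Ideal.span {a, w} with hI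
  have hIsup : I = Ideal.span {a} ⊔ Ideal.span {w} := by rw [hI, Ideal.span_insert]
  have hI0 : I ≠ ⊥ := fun h0 => ha (by
    have h1 : a ∈ I := Ideal.subset_span (Set.mem_insert _ _)
    rw [h0] at h1
    exact (Submodule.mem_bot R).mp h1)
  have hfinset : {P : HeightOneSpectrum R | P.asIdeal ∣ I}.Finite := Ideal.finite_factors hI0
  set S : Finset (HeightOneSpectrum R) := hfinset.toFinset with hS
  have hSmem : ∀ P, P ∈ S ↔ I ≤ P.asIdeal := by
    intro P
    rw [hS, Set.Finite.mem_toFinset, Set.mem_ofPred_eq, Ideal.dvd_iff_le]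
  obtain ⟨hfin, hchar⟩ := charpoly_mulLeft_quotient_of_dedekind_finset (K := K) I hI0 S
    (fun P hP => (hSmem P).mpr hP)
    (fun P _ => surjective_algebraMap_quotient hF P) h
    (fun P => evF hF (Place.ofHeightOneSpectrum (K := K) P) (algebraMap R F h))
    (fun P _ => sub_algebraMap_evF_mem hF P h)
  refine ⟨hfin, ?_⟩
  rw [hchar]
  have himg : Z = S.image (Place.ofHeightOneSpectrum (K := K) (F := F)) := by
    ext v
    rw [hZ, Finset.mem_image]
    constructor
    · rintro ⟨hv, hva, hvw⟩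
      obtain ⟨P, rfl⟩ := S24.PlacesHOS.exists_ofHeightOneSpectrum_eq v hv
      refine ⟨P, (hSmem P).mpr ?_, rfl⟩
      rw [hI, Ideal.span_le]
      rintro y (rfl | rfl)
      · exact (S24.PlacesHOS.ord_algebraMap_pos_iff P ha).mp hva
      · exact (S24.PlacesHOS.ord_algebraMap_pos_iff P hw).mp hvw
    · rintro ⟨P, hP, rfl⟩
      have hle := (hSmem P).mp hP
      exact ⟨fun r => algebraMap_mem P r,
        (S24.PlacesHOS.ord_algebraMap_pos_iff P ha).mpr (hle (Ideal.subset_span (by simp))),
        (S24.PlacesHOS.ord_algebraMap_pos_iff P hw).mpr (hle (Ideal.subset_span (by simp)))⟩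
  rw [himg, Finset.prod_image
    (fun P _ Q _ hPQ => S24.PlacesHOS.ofHeightOneSpectrum_injective hPQ)]
  refine Finset.prod_congr rfl (fun P _ => ?_)
  congr 1
  rw [hIsup, multiplicity_sup P (by simpa using ha) (by simpa using hw),
    S24.PlacesHOS.ord_algebraMap_eq_multiplicity (K := K) (F := F) P ha,
    S24.PlacesHOS.ord_algebraMap_eq_multiplicity (K := K) (F := F) P hw,
    ← Nat.cast_min, Int.toNat_natCast]

/-- **Generic-fibre product formula on a Dedekind model**, basis form: `(b i)` is a `K`-basis of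
`R ⧸ (a, w)` and `C` the matrix of multiplication by `h` in it (all congruences read in `F`
through a predicate `J`). -/
theorem charpoly_eq_prod_of_basis_mod_model (hF : IsFF K F) {a w : R} (ha : a ≠ 0) (hw : w ≠ 0)
    (Z : Finset (Place K F))
    (hZ : ∀ v : Place K F, v ∈ Z ↔ (∀ r : R, algebraMap R F r ∈ v.toValuationSubring) ∧
      0 < v.ord (algebraMap R F a) ∧ 0 < v.ord (algebraMap R F w))
    (J : F → Prop) (hJ : ∀ r : R, J (algebraMap R F r) ↔ r ∈ Ideal.span {a, w})
    {ι : Type*} [Fintype ι] [DecidableEq ι] (b : ι → R)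
    (hspan : ∀ f : R, ∃ c : ι → K,
      J (algebraMap R F f - ∑ i, algebraMap K F (c i) * algebraMap R F (b i)))
    (hindep : ∀ c : ι → K, J (∑ i, algebraMap K F (c i) * algebraMap R F (b i)) → c = 0)
    (h : R) (C : Matrix ι ι K)
    (hC : ∀ i, J (algebraMap R F h * algebraMap R F (b i) -
      ∑ j, algebraMap K F (C i j) * algebraMap R F (b j))) :
    C.charpoly = ∏ v ∈ Z, (X - Polynomial.C (evF hF v (algebraMap R F h))) ^
      (min (v.ord (algebraMap R F a)) (v.ord (algebraMap R F w))).toNat := by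
  obtain ⟨hfin, hchar⟩ := charpoly_mulLeft_quotient_span_pair hF ha hw Z hZ h
  rw [← hchar]
  exact charpoly_eq_of_basis_mod (Ideal.span {a, w}) J hJ b hspan hindep h C hC

end Dict

end GenFibre

section Defs

variable {Ω F : Type*} [Field Ω] [Field F] [Algebra Ω F]

/-- `f ∈ (a, w) 𝒪`, where `𝒪` is the integral closure of `Ω[x]` in `F`. -/
def InIdeal2 (x a w f : F) : Prop :=
  ∃ r s : F, IsIntegral (Algebra.adjoin Ω {x}) r ∧ IsIntegral (Algebra.adjoin Ω {x}) s ∧
    f = a * r + w * s

/-- The common zeros of `a` and `w` in the chart `x ≠ ∞`. -/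
def Zaw (x a w : F) : Set (Place Ω F) :=
  {P | x ∈ P.toValuationSubring ∧ 0 < P.ord a ∧ 0 < P.ord w}

/-- An element integral over `Ω[x]` is regular at every place where `x` is regular. -/
theorem mem_of_isIntegral_adjoin (P : Place Ω F) {x f : F} (hx : x ∈ P.toValuationSubring)
    (hf : IsIntegral (Algebra.adjoin Ω {x}) f) : f ∈ P.toValuationSubring :=
  S24.PlacesSetup.coe_mem_of_mem P hx ⟨f, hf⟩

end Defs

section Main

variable {Ω F : Type*} [Field Ω] [Field F] [Algebra Ω F] [IsAlgClosed Ω] [CharZero Ω]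

theorem finite_Zaw (hF : IsFF Ω F) (x : F) {a w : F} (ha0 : a ≠ 0) :
    (Zaw (Ω := Ω) x a w).Finite :=
  (hF.finite_setOf_ord_ne_zero ha0).subset (fun _ hP => hP.2.1.ne')

/-- **Generic-fibre product formula, quotient form**: multiplication by `h` on `𝒪 ⧸ (a, w)`,
`𝒪` the integral closure of `Ω[x]` in `F`. -/
theorem charpoly_mulLeft_quotient_integralClosure (hF : IsFF Ω F) {x : F}
    (hx : Transcendental Ω x) {a w : F}
    (ha : IsIntegral (Algebra.adjoin Ω {x}) a) (hw : IsIntegral (Algebra.adjoin Ω {x}) w)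
    (ha0 : a ≠ 0) (hw0 : w ≠ 0) {h : F} (hh : IsIntegral (Algebra.adjoin Ω {x}) h) :
    ∃ _ : Module.Finite Ω (integralClosure (Algebra.adjoin Ω {x}) F ⧸
        Ideal.span {(⟨a, ha⟩ : integralClosure (Algebra.adjoin Ω {x}) F), ⟨w, hw⟩}),
      (LinearMap.mulLeft Ω (Ideal.Quotient.mk
        (Ideal.span {(⟨a, ha⟩ : integralClosure (Algebra.adjoin Ω {x}) F), ⟨w, hw⟩})
          (⟨h, hh⟩ : integralClosure (Algebra.adjoin Ω {x}) F))).charpoly =
        ∏ P ∈ (finite_Zaw hF x (w := w) ha0).toFinset,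
          (X - Polynomial.C (evF hF P h)) ^ (min (P.ord a) (P.ord w)).toNat := by
  classical
  haveI hfin : FiniteDimensional Ω⟮x⟯ F := by
    obtain ⟨x', hx', hfin'⟩ := hF
    exact S24.finiteDimensional_adjoin_of_transcendental hx' hx
  haveI := S24.PlacesSetup.isDedekindDomain (F := F) hx
  haveI := S24.PlacesSetup.isFractionRing (K := Ω) (F := F) (y := x)
  have ha'0 : (⟨a, ha⟩ : integralClosure (Algebra.adjoin Ω {x}) F) ≠ 0 :=
    fun h0 => ha0 (congrArg Subtype.val h0)
  have hw'0 : (⟨w, hw⟩ : integralClosure (Algebra.adjoin Ω {x}) F) ≠ 0 :=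
    fun h0 => hw0 (congrArg Subtype.val h0)
  exact GenFibre.charpoly_mulLeft_quotient_span_pair hF ha'0 hw'0
    (finite_Zaw hF x (w := w) ha0).toFinset (by
      intro v
      rw [Set.Finite.mem_toFinset]
      constructor
      · rintro ⟨hv, hva, hvw⟩
        exact ⟨fun r => S24.PlacesSetup.coe_mem_of_mem v hv r, hva, hvw⟩
      · rintro ⟨hv, hva, hvw⟩
        exact ⟨hv ⟨x, isIntegral_algebraMap (x := S24.PlacesSetup.gen Ω x)⟩, hva, hvw⟩)
    (⟨h, hh⟩ : integralClosure (Algebra.adjoin Ω {x}) F)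

/-- **Generic-fibre product formula, basis form.**  `(b i)` is an `Ω`-basis of `𝒪 ⧸ (a, w)`
(`hspan`, `hindep`), `C` the matrix of multiplication by `h` in it (`hC`). -/
theorem charpoly_eq_prod_of_basis_mod (hF : IsFF Ω F) {x : F} (hx : Transcendental Ω x)
    {a w : F} (ha : IsIntegral (Algebra.adjoin Ω {x}) a) (hw : IsIntegral (Algebra.adjoin Ω {x}) w)
    (ha0 : a ≠ 0) (hw0 : w ≠ 0)
    {ι : Type*} [Fintype ι] [DecidableEq ι] (b : ι → F)
    (hb : ∀ i, IsIntegral (Algebra.adjoin Ω {x}) (b i))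
    (hspan : ∀ f : F, IsIntegral (Algebra.adjoin Ω {x}) f →
      ∃ c : ι → Ω, InIdeal2 (Ω := Ω) x a w (f - ∑ i, algebraMap Ω F (c i) * b i))
    (hindep : ∀ c : ι → Ω, InIdeal2 (Ω := Ω) x a w (∑ i, algebraMap Ω F (c i) * b i) → c = 0)
    {h : F} (hh : IsIntegral (Algebra.adjoin Ω {x}) h) (C : Matrix ι ι Ω)
    (hC : ∀ i, InIdeal2 (Ω := Ω) x a w (h * b i - ∑ j, algebraMap Ω F (C i j) * b j)) :
    C.charpoly = ∏ P ∈ (finite_Zaw hF x (w := w) ha0).toFinset,
      (X - Polynomial.C (evF hF P h)) ^ (min (P.ord a) (P.ord w)).toNat := by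
  classical
  haveI hfin : FiniteDimensional Ω⟮x⟯ F := by
    obtain ⟨x', hx', hfin'⟩ := hF
    exact S24.finiteDimensional_adjoin_of_transcendental hx' hx
  haveI := S24.PlacesSetup.isDedekindDomain (F := F) hx
  haveI := S24.PlacesSetup.isFractionRing (K := Ω) (F := F) (y := x)
  have ha'0 : (⟨a, ha⟩ : integralClosure (Algebra.adjoin Ω {x}) F) ≠ 0 :=
    fun h0 => ha0 (congrArg Subtype.val h0)
  have hw'0 : (⟨w, hw⟩ : integralClosure (Algebra.adjoin Ω {x}) F) ≠ 0 :=
    fun h0 => hw0 (congrArg Subtype.val h0)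
  -- membership in the ideal
  have hmem : ∀ r : integralClosure (Algebra.adjoin Ω {x}) F,
      InIdeal2 (Ω := Ω) x a w (algebraMap (integralClosure (Algebra.adjoin Ω {x}) F) F r) ↔
        r ∈ Ideal.span {(⟨a, ha⟩ : integralClosure (Algebra.adjoin Ω {x}) F), ⟨w, hw⟩} := by
    intro f
    rw [Ideal.mem_span_pair]
    constructor
    · rintro ⟨r, s, hr, hs, hfe⟩
      refine ⟨⟨r, hr⟩, ⟨s, hs⟩, Subtype.ext ?_⟩
      change r * a + s * w = (f : F)
      have hfe' : (f : F) = a * r + w * s := hfe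
      rw [hfe']
      ring
    · rintro ⟨r, s, hrs⟩
      refine ⟨r, s, r.2, s.2, ?_⟩
      have h1 : (r : F) * a + (s : F) * w = (f : F) := congrArg Subtype.val hrs
      change (f : F) = a * r + w * s
      rw [← h1]
      ring
  exact GenFibre.charpoly_eq_prod_of_basis_mod_model hF ha'0 hw'0
    (finite_Zaw hF x (w := w) ha0).toFinset (by
      intro v
      rw [Set.Finite.mem_toFinset]
      constructor
      · rintro ⟨hv, hva, hvw⟩
        exact ⟨fun r => S24.PlacesSetup.coe_mem_of_mem v hv r, hva, hvw⟩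
      · rintro ⟨hv, hva, hvw⟩
        exact ⟨hv ⟨x, isIntegral_algebraMap (x := S24.PlacesSetup.gen Ω x)⟩, hva, hvw⟩)
    (InIdeal2 (Ω := Ω) x a w) hmem (fun i => ⟨b i, hb i⟩)
    (fun f => hspan (f : F) f.2) hindep ⟨h, hh⟩ C hC

end Main

end Fermat.Agent.S37
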