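import Fermat.Agent.S37.ChartAlg
import Fermat.Agent.S37.GenFibre

set_option autoImplicit false

/-!
# S37 (Tier 2, [WC] part B): the generic-fibre product formula for `𝔅 ⧸ (a, w)`

For a chart model `𝔅 ⊂ F` over a valuation subring `A ⊂ Ω` and `a, w ∈ 𝔅` nonzero with
`T = 𝔅 ⧸ (a, w)` finite free over `A`, the characteristic polynomial of multiplication by `h`
on `T`, viewed over `Ω`, is the product over the common zeros `P` of `a` and `w` in the chart
of `(X - h(P)) ^ min (ord_P a) (ord_P w)`.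
-/

namespace Fermat.Agent.S37

open AlgebraicCurve Polynomial

variable {Ω F : Type*} [Field Ω] [Field F] [Algebra Ω F]

section Trans

variable {A : ValuationSubring Ω} {x : F} {𝔅 : Subring F} [ChartIncl A 𝔅]

/-- (T6) clearing denominators: finitely many elements of `Ω` have a common nonzero
denominator in `A`. -/
theorem exists_common_denominator (A : ValuationSubring Ω) {ι : Type*} (s : Finset ι)
    (y : ι → Ω) : ∃ m : A, m ≠ 0 ∧ ∀ i ∈ s, (m : Ω) * y i ∈ A := by
  classical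
  induction s using Finset.induction_on with
  | empty => exact ⟨1, one_ne_zero, fun i hi => absurd hi (Finset.notMem_empty i)⟩
  | insert i s hi ih =>
    obtain ⟨m, hm, hms⟩ := ih
    by_cases hmem : (m : Ω) * y i ∈ A
    · refine ⟨m, hm, fun j hj => ?_⟩
      rcases Finset.mem_insert.mp hj with hji | hj
      · rw [hji]
        exact hmem
      · exact hms j hj
    · have hinv : ((m : Ω) * y i)⁻¹ ∈ A := (A.mem_or_inv_mem _).resolve_left hmem
      have hz : (m : Ω) * y i ≠ 0 := fun h0 => hmem (h0 ▸ A.zero_mem)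
      refine ⟨m * ⟨_, hinv⟩, mul_ne_zero hm ?_, fun j hj => ?_⟩
      · intro h0
        exact (inv_ne_zero hz) (congrArg Subtype.val h0)
      · rcases Finset.mem_insert.mp hj with hji | hj
        · have h1 : ((m * ⟨_, hinv⟩ : A) : Ω) * y j = 1 := by
            rw [hji]
            show (m : Ω) * ((m : Ω) * y i)⁻¹ * y i = 1
            rw [mul_right_comm, mul_inv_cancel₀ hz]
          rw [h1]
          exact A.one_mem
        · have h1 : ((m * ⟨_, hinv⟩ : A) : Ω) * y j =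
              ((m : Ω) * y i)⁻¹ * ((m : Ω) * y j) := by
            show (m : Ω) * ((m : Ω) * y i)⁻¹ * y j = _
            ring
          rw [h1]
          exact A.mul_mem _ _ hinv (hms j hj)

/-- (T7) constant multiples of integral elements are integral. -/
theorem isIntegral_algebraMap_mul (c : Ω) {f : F} (hf : IsIntegral (Algebra.adjoin Ω {x}) f) :
    IsIntegral (Algebra.adjoin Ω {x}) (algebraMap Ω F c * f) := by
  have h1 : IsIntegral (Algebra.adjoin Ω {x}) (algebraMap Ω F c) := by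
    have h2 : algebraMap Ω F c =
        algebraMap (Algebra.adjoin Ω {x}) F (algebraMap Ω (Algebra.adjoin Ω {x}) c) := rfl
    rw [h2]
    exact isIntegral_algebraMap
  exact h1.mul hf

end Trans

namespace ChartGen

variable {A : ValuationSubring Ω} {x : F} {𝔅 : Subring F} [ChartIncl A 𝔅]

/-- Coercion to `F` of an `A`-linear combination in `𝔅`. -/
theorem coe_sum_smul {ι : Type*} (s : Finset ι) (α : ι → A) (b : ι → 𝔅) :
    ((∑ i ∈ s, α i • b i : 𝔅) : F) = ∑ i ∈ s, algebraMap Ω F (α i : Ω) * (b i : F) := by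
  have h1 := map_sum 𝔅.subtype (fun i => α i • b i) s
  simp only [Subring.subtype_apply, coe_smul_chart] at h1
  exact h1

/-- The quotient map is `A`-linear. -/
theorem mk_smul (I : Ideal 𝔅) (α : A) (b : 𝔅) :
    Ideal.Quotient.mk I (α • b) = α • Ideal.Quotient.mk I b := rfl

omit [ChartIncl A 𝔅] in
/-- Elements of `(a, w)𝔅` lie in `(a, w)𝒪`. -/
theorem inIdeal2_of_mem (hM : IsChartModel A x 𝔅) {a w g : 𝔅}
    (hg : g ∈ Ideal.span ({a, w} : Set 𝔅)) :
    InIdeal2 (Ω := Ω) x (a : F) (w : F) (g : F) := by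
  obtain ⟨r, s, hrs⟩ := Ideal.mem_span_pair.mp hg
  refine ⟨r, s, hM.integral _ r.2, hM.integral _ s.2, ?_⟩
  rw [← hrs]
  push_cast
  ring

/-- Expansion of an element of `𝔅` in lifts of a basis of `𝔅 ⧸ I`. -/
theorem sub_sum_repr_mem (I : Ideal 𝔅) {ι : Type*} [Fintype ι]
    (β : Module.Basis ι A (𝔅 ⧸ I)) (b : ι → 𝔅) (hb : ∀ i, Ideal.Quotient.mk I (b i) = β i)
    (g : 𝔅) : g - ∑ i, β.repr (Ideal.Quotient.mk I g) i • b i ∈ I := by
  rw [← Ideal.Quotient.eq_zero_iff_mem, map_sub, map_sum, sub_eq_zero]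
  conv_lhs => rw [← β.sum_repr (Ideal.Quotient.mk I g)]
  refine Finset.sum_congr rfl fun i _ => ?_
  rw [mk_smul, hb]

end ChartGen

section C1

variable [IsAlgClosed Ω] [CharZero Ω]
variable {A : ValuationSubring Ω} {x : F} {𝔅 : Subring F} [ChartIncl A 𝔅]

/-- (C1) the generic-fibre product formula for `T = 𝔅 ⧸ (a, w)`. -/
theorem charpoly_map_eq_prod_zaw (hF : IsFF Ω F) (hM : IsChartModel A x 𝔅) (a w : 𝔅)
    (ha0 : (a : F) ≠ 0) (hw0 : (w : F) ≠ 0)
    [Module.Finite A (𝔅 ⧸ Ideal.span {a, w})] [Module.Free A (𝔅 ⧸ Ideal.span {a, w})]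
    (h : 𝔅) :
    ((Algebra.lmul A (𝔅 ⧸ Ideal.span {a, w}) (Ideal.Quotient.mk _ h)).charpoly).map
        (algebraMap A Ω) =
      ∏ P ∈ (finite_Zaw hF x (a := (a : F)) (w := (w : F)) ha0).toFinset,
        (X - C (evF hF P (h : F))) ^ (min (P.ord (a : F)) (P.ord (w : F))).toNat := by
  classical
  let β : Module.Basis (Module.Free.ChooseBasisIndex A (𝔅 ⧸ Ideal.span {a, w})) A
      (𝔅 ⧸ Ideal.span {a, w}) := Module.Free.chooseBasis A (𝔅 ⧸ Ideal.span {a, w})
  have hsurj : ∀ i, ∃ bi : 𝔅, Ideal.Quotient.mk (Ideal.span {a, w}) bi = β i :=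
    fun i => Ideal.Quotient.mk_surjective _
  choose b hb using hsurj
  have hrepr := ChartGen.sub_sum_repr_mem (Ideal.span {a, w}) β b hb
  -- the matrix of multiplication by `h`
  obtain ⟨C₀, hC₀⟩ : ∃ C₀ : Matrix (Module.Free.ChooseBasisIndex A (𝔅 ⧸ Ideal.span {a, w}))
      (Module.Free.ChooseBasisIndex A (𝔅 ⧸ Ideal.span {a, w})) A,
      C₀ = LinearMap.toMatrix β β (Algebra.lmul A (𝔅 ⧸ Ideal.span {a, w})
        (Ideal.Quotient.mk _ h)) := ⟨_, rfl⟩
  have hC : ∀ i, InIdeal2 (Ω := Ω) x (a : F) (w : F)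
      ((h : F) * (b i : F) - ∑ j, algebraMap Ω F
        ((C₀.transpose.map (algebraMap A Ω)) i j) * (b j : F)) := by
    intro i
    have h1 := ChartGen.inIdeal2_of_mem hM (hrepr (h * b i))
    have h2 : ∀ j, β.repr (Ideal.Quotient.mk (Ideal.span {a, w}) (h * b i)) j = C₀ j i := by
      intro j
      rw [hC₀, LinearMap.toMatrix_apply, map_mul, hb]
      rfl
    have h3 : ((h * b i - ∑ j, β.repr (Ideal.Quotient.mk (Ideal.span {a, w}) (h * b i)) j • b j
        : 𝔅) : F) = (h : F) * (b i : F) - ∑ j, algebraMap Ω F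
        ((C₀.transpose.map (algebraMap A Ω)) i j) * (b j : F) := by
      rw [AddSubgroupClass.coe_sub, Subring.coe_mul, ChartGen.coe_sum_smul]
      congr 1
      refine Finset.sum_congr rfl fun j _ => ?_
      rw [h2 j]
      rfl
    rw [← h3]
    exact h1
  have hspan : ∀ f : F, IsIntegral (Algebra.adjoin Ω {x}) f →
      ∃ c : Module.Free.ChooseBasisIndex A (𝔅 ⧸ Ideal.span {a, w}) → Ω,
        InIdeal2 (Ω := Ω) x (a : F) (w : F) (f - ∑ i, algebraMap Ω F (c i) * (b i : F)) := by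
    intro f hf
    obtain ⟨c0, hc0, hmem⟩ := hM.nbc f hf
    obtain ⟨r, s, hr, hs, hrs⟩ := ChartGen.inIdeal2_of_mem hM (hrepr ⟨_, hmem⟩)
    rw [AddSubgroupClass.coe_sub, ChartGen.coe_sum_smul] at hrs
    have hk : algebraMap Ω F c0⁻¹ * algebraMap Ω F c0 = 1 := by
      rw [← map_mul, inv_mul_cancel₀ hc0, map_one]
    refine ⟨fun i => c0⁻¹ * ((β.repr (Ideal.Quotient.mk (Ideal.span {a, w})
      ⟨_, hmem⟩) i : A) : Ω), algebraMap Ω F c0⁻¹ * r, algebraMap Ω F c0⁻¹ * s,
      isIntegral_algebraMap_mul _ hr, isIntegral_algebraMap_mul _ hs, ?_⟩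
    have hsum : ∑ i, algebraMap Ω F (c0⁻¹ * ((β.repr (Ideal.Quotient.mk (Ideal.span {a, w})
        ⟨_, hmem⟩) i : A) : Ω)) * (b i : F) =
        algebraMap Ω F c0⁻¹ * ∑ i, algebraMap Ω F ((β.repr (Ideal.Quotient.mk
          (Ideal.span {a, w}) ⟨_, hmem⟩) i : A) : Ω) * (b i : F) := by
      rw [Finset.mul_sum]
      refine Finset.sum_congr rfl fun i _ => ?_
      rw [map_mul, mul_assoc]
    rw [hsum]
    linear_combination algebraMap Ω F c0⁻¹ * hrs - f * hk
  have hindep : ∀ c : Module.Free.ChooseBasisIndex A (𝔅 ⧸ Ideal.span {a, w}) → Ω,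
      InIdeal2 (Ω := Ω) x (a : F) (w : F) (∑ i, algebraMap Ω F (c i) * (b i : F)) → c = 0 := by
    rintro c ⟨r, s, hr, hs, hrs⟩
    obtain ⟨cr, hcr, hrmem⟩ := hM.nbc r hr
    obtain ⟨cs, hcs, hsmem⟩ := hM.nbc s hs
    obtain ⟨m, hm, hmS⟩ := exists_common_denominator A
      (insert cr⁻¹ (insert cs⁻¹ (Finset.univ.image c))) id
    have h1 : (m : Ω) * cr⁻¹ ∈ A := hmS _ (Finset.mem_insert_self _ _)
    have h2 : (m : Ω) * cs⁻¹ ∈ A :=
      hmS _ (Finset.mem_insert_of_mem (Finset.mem_insert_self _ _))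
    have h3 : ∀ i, (m : Ω) * c i ∈ A := fun i =>
      hmS _ (Finset.mem_insert_of_mem (Finset.mem_insert_of_mem
        (Finset.mem_image_of_mem c (Finset.mem_univ i))))
    have hkr : algebraMap Ω F cr⁻¹ * algebraMap Ω F cr = 1 := by
      rw [← map_mul, inv_mul_cancel₀ hcr, map_one]
    have hks : algebraMap Ω F cs⁻¹ * algebraMap Ω F cs = 1 := by
      rw [← map_mul, inv_mul_cancel₀ hcs, map_one]
    have heq : (∑ i, (⟨_, h3 i⟩ : A) • b i : 𝔅) =
        ((⟨_, h1⟩ : A) • (⟨_, hrmem⟩ : 𝔅)) * a + ((⟨_, h2⟩ : A) • (⟨_, hsmem⟩ : 𝔅)) * w := by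
      apply Subtype.ext
      rw [ChartGen.coe_sum_smul, Subring.coe_add, Subring.coe_mul, Subring.coe_mul,
        coe_smul_chart, coe_smul_chart]
      have hsum : ∑ i, algebraMap Ω F ((m : Ω) * c i) * (b i : F) =
          algebraMap Ω F (m : Ω) * ∑ i, algebraMap Ω F (c i) * (b i : F) := by
        rw [Finset.mul_sum]
        refine Finset.sum_congr rfl fun i _ => ?_
        rw [map_mul, mul_assoc]
      show ∑ i, algebraMap Ω F ((m : Ω) * c i) * (b i : F) =
        algebraMap Ω F ((m : Ω) * cr⁻¹) * (algebraMap Ω F cr * r) * (a : F) +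
          algebraMap Ω F ((m : Ω) * cs⁻¹) * (algebraMap Ω F cs * s) * (w : F)
      rw [hsum, hrs, map_mul, map_mul]
      linear_combination (-(algebraMap Ω F (m : Ω) * r * (a : F))) * hkr -
        (algebraMap Ω F (m : Ω) * s * (w : F)) * hks
    have hmemI : (∑ i, (⟨_, h3 i⟩ : A) • b i : 𝔅) ∈ Ideal.span ({a, w} : Set 𝔅) :=
      Ideal.mem_span_pair.mpr ⟨_, _, heq.symm⟩
    have hzero : ∑ i, (⟨_, h3 i⟩ : A) • β i = 0 := by
      have h4 := (Ideal.Quotient.eq_zero_iff_mem).mpr hmemI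
      rw [map_sum] at h4
      rw [← h4]
      refine Finset.sum_congr rfl fun i _ => ?_
      rw [ChartGen.mk_smul, hb]
    have hμ := Fintype.linearIndependent_iff.mp β.linearIndependent _ hzero
    funext i
    have h5 : (m : Ω) * c i = 0 := congrArg Subtype.val (hμ i)
    have hm' : (m : Ω) ≠ 0 := fun h0 => hm (Subtype.ext h0)
    exact (mul_eq_zero.mp h5).resolve_left hm'
  have key := charpoly_eq_prod_of_basis_mod hF hM.x_transcendental (hM.integral _ a.2)
    (hM.integral _ w.2) ha0 hw0 (fun i => (b i : F)) (fun i => hM.integral _ (b i).2)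
    hspan hindep (hM.integral _ h.2) _ hC
  rw [← key, Matrix.charpoly_map, Matrix.charpoly_transpose, hC₀, LinearMap.charpoly_toMatrix]

end C1

end Fermat.Agent.S37
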