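import Mathlib
import Fermat.Agent.S37.CharpolyQuot
import Fermat.Agent.S37.CharPolyPi

set_option autoImplicit false

/-!
# S37 (E): existence of the multiset of points

For a commutative algebra `R` over an algebraically closed field `K` acting on a
finite-dimensional `K`-space `V`, there is a multiset `M` of `K`-points `R →ₐ[K] K` with
`charpoly (r | V) = ∏_{φ ∈ M} (X - φ r)` for all `r`.
-/

namespace Fermat.Agent.S37

open Polynomial

namespace PtExists

universe u

section

variable {K R V : Type*} [Field K] [CommRing R] [Algebra K R] [AddCommGroup V] [Module K V]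
  [Module R V] [IsScalarTower K R V]

/-- A nonzero finite-dimensional module has a common eigenvector. -/
theorem exists_common_eigenvector [IsAlgClosed K] [FiniteDimensional K V] [Nontrivial V] :
    ∃ v : V, v ≠ 0 ∧ ∀ r : R, ∃ c : K, r • v = c • v := by
  have : IsArtinian R V := isArtinian_of_tower K inferInstance
  obtain ⟨U, hU⟩ := IsAtomic.exists_atom (Submodule R V)
  obtain ⟨v, hvU, hv0⟩ := (Submodule.ne_bot_iff U).1 hU.1
  refine ⟨v, hv0, fun r => ?_⟩
  let W : Submodule K V := U.restrictScalars K
  have : Nontrivial W := ⟨⟨⟨v, hvU⟩, 0, fun h => hv0 (congrArg Subtype.val h)⟩⟩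
  have hmem : ∀ x ∈ W, (Algebra.lsmul K K V r) x ∈ W := fun x hx => U.smul_mem r hx
  obtain ⟨c, hc⟩ := Module.End.exists_eigenvalue ((Algebra.lsmul K K V r).restrict hmem)
  obtain ⟨x, hx⟩ := hc.exists_hasEigenvector
  let E : Submodule R V :=
    { carrier := {y | y ∈ U ∧ r • y = c • y}
      zero_mem' := ⟨U.zero_mem, by simp⟩
      add_mem' := fun {a b} ha hb =>
        ⟨U.add_mem ha.1 hb.1, by rw [smul_add, smul_add, ha.2, hb.2]⟩
      smul_mem' := fun s y hy =>
        ⟨U.smul_mem s hy.1, by rw [smul_comm r s y, hy.2, smul_comm s c y]⟩ }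
  have hEU : E ≤ U := fun y hy => hy.1
  have hE : E = U := by
    rcases hU.le_iff.1 hEU with h | h
    · exfalso
      have hxE : (x : V) ∈ E := ⟨x.2, congrArg Subtype.val hx.apply_eq_smul⟩
      rw [h] at hxE
      exact hx.2 (Subtype.ext ((Submodule.mem_bot R).1 hxE))
    · exact h
  have hvE : v ∈ E := hE ▸ hvU
  exact ⟨c, hvE.2⟩

/-- A common eigenvector gives a point of the algebra. -/
theorem exists_algHom_of_eigenvector {v : V} (hv : v ≠ 0)
    (h : ∀ r : R, ∃ c : K, r • v = c • v) :
    ∃ φ : R →ₐ[K] K, ∀ r : R, r • v = φ r • v := by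
  choose c hc using h
  have hinj : Function.Injective (fun a : K => a • v) := smul_left_injective K hv
  refine ⟨{ toFun := c, map_one' := ?_, map_mul' := ?_, map_zero' := ?_, map_add' := ?_,
            commutes' := ?_ }, hc⟩
  · apply hinj
    show c 1 • v = (1 : K) • v
    rw [← hc, one_smul, one_smul]
  · intro r s
    apply hinj
    show c (r * s) • v = (c r * c s) • v
    rw [← hc, mul_smul, hc s, smul_comm r (c s) v, hc r, mul_comm (c r), mul_smul]
  · apply hinj
    show c 0 • v = (0 : K) • v
    rw [← hc, zero_smul, zero_smul]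
  · intro r s
    apply hinj
    show c (r + s) • v = (c r + c s) • v
    rw [← hc, add_smul, add_smul, hc, hc]
  · intro a
    apply hinj
    show c (algebraMap K R a) • v = (algebraMap K K a) • v
    rw [← hc, algebraMap_smul, Algebra.algebraMap_self_apply]

end

theorem aux {K R : Type*} [Field K] [IsAlgClosed K] [CommRing R] [Algebra K R] :
    ∀ (n : ℕ) (V : Type u) [AddCommGroup V] [Module K V] [Module R V] [IsScalarTower K R V]
      [FiniteDimensional K V], Module.finrank K V = n →
      ∃ M : Multiset (R →ₐ[K] K), Multiset.card M = n ∧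
        ∀ r : R, (Algebra.lsmul K K V r).charpoly =
          (M.map fun φ => (X - C (φ r) : K[X])).prod := by
  intro n
  induction n with
  | zero =>
    intro V _ _ _ _ _ hV
    refine ⟨0, rfl, fun r => ?_⟩
    rw [CharPolyPi.charpoly_of_finrank_eq_zero K _ hV]
    simp
  | succ n ih =>
    intro V _ _ _ _ _ hV
    have : Nontrivial V := Module.nontrivial_of_finrank_pos (R := K) (by omega)
    obtain ⟨v, hv0, hv⟩ := exists_common_eigenvector (K := K) (R := R) (V := V)
    obtain ⟨φ, hφ⟩ := exists_algHom_of_eigenvector hv0 hv
    let W : Submodule R V :=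
      { toAddSubmonoid := (K ∙ v).toAddSubmonoid
        smul_mem' := fun r x hx => by
          obtain ⟨a, rfl⟩ := Submodule.mem_span_singleton.1 hx
          exact Submodule.mem_span_singleton.2
            ⟨a * φ r, by rw [smul_comm r a v, hφ r, mul_smul]⟩ }
    have hWK : W.restrictScalars K = K ∙ v := rfl
    let e : (V ⧸ W.restrictScalars K) ≃ₗ[K] V ⧸ W := Submodule.Quotient.restrictScalarsEquiv K W
    have hfin : Module.finrank K (V ⧸ W) = n := by
      have h1 := Submodule.finrank_quotient_add_finrank (W.restrictScalars K)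
      rw [hWK, finrank_span_singleton hv0, hV, ← hWK, e.finrank_eq] at h1
      omega
    obtain ⟨M', hM', hM'r⟩ := ih (V ⧸ W) hfin
    refine ⟨φ ::ₘ M', by rw [Multiset.card_cons, hM'], fun r => ?_⟩
    have hsm : ∀ x ∈ W.restrictScalars K, r • x = φ r • x := by
      intro x hx
      rw [hWK] at hx
      obtain ⟨a, rfl⟩ := Submodule.mem_span_singleton.1 hx
      rw [smul_comm r a v, hφ r, smul_comm a (φ r) v]
    have he : W.restrictScalars K ≤ (W.restrictScalars K).comap (Algebra.lsmul K K V r) :=
      fun x hx => W.smul_mem r hx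
    rw [charpoly_eq_restrict_mul_mapQ_field (W.restrictScalars K) (Algebra.lsmul K K V r) he,
      Multiset.map_cons, Multiset.prod_cons]
    congr 1
    · have hnil : IsNilpotent ((Algebra.lsmul K K V r).restrict he -
          φ r • (1 : Module.End K (W.restrictScalars K))) := by
        have h0 : (Algebra.lsmul K K V r).restrict he -
            φ r • (1 : Module.End K (W.restrictScalars K)) = 0 := by
          ext x
          simp [hsm x.1 x.2]
        rw [h0]
        exact IsNilpotent.zero
      rw [charpoly_eq_X_sub_C_pow_of_isNilpotent _ (φ r) hnil]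
      have h1 : Module.finrank K (W.restrictScalars K) = 1 := by
        rw [hWK]; exact finrank_span_singleton hv0
      rw [h1, pow_one]
    · rw [← hM'r r, ← LinearEquiv.charpoly_conj e]
      congr 1
      apply LinearMap.ext
      intro y
      obtain ⟨x, rfl⟩ := Submodule.Quotient.mk_surjective W y
      simp [e, LinearEquiv.conj_apply]

end PtExists

/-- (E), module version: the characteristic polynomial of `r` acting on `V` splits as a
product over a multiset of points of `R`. -/
theorem exists_multiset_charpoly_lsmul {K R V : Type*} [Field K] [IsAlgClosed K] [CommRing R]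
    [Algebra K R] [AddCommGroup V] [Module K V] [Module R V] [IsScalarTower K R V]
    [FiniteDimensional K V] :
    ∃ M : Multiset (R →ₐ[K] K), Multiset.card M = Module.finrank K V ∧
      ∀ r : R, (Algebra.lsmul K K V r).charpoly = (M.map fun φ => (X - C (φ r) : K[X])).prod :=
  PtExists.aux (Module.finrank K V) V rfl

/-- (E), algebra version. -/
theorem exists_multiset_charpoly_lmul {K R : Type*} [Field K] [IsAlgClosed K] [CommRing R]
    [Algebra K R] [FiniteDimensional K R] :
    ∃ M : Multiset (R →ₐ[K] K), Multiset.card M = Module.finrank K R ∧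
      ∀ r : R, (Algebra.lmul K R r).charpoly = (M.map fun φ => (X - C (φ r) : K[X])).prod := by
  obtain ⟨M, hM, hMr⟩ := exists_multiset_charpoly_lsmul (K := K) (R := R) (V := R)
  refine ⟨M, hM, fun r => ?_⟩
  rw [← hMr r]
  congr 1

end Fermat.Agent.S37
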