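import Mathlib

set_option autoImplicit false

/-!
# S37 (U): a multiset of points is determined by its product formula

`multiset_eq_of_prod_X_sub_C_eq_of_fraction`: two multisets `M`, `M'` of `A`-algebra maps
`T → k` (`k` a field in which every element is a fraction of elements of `A`) with
`∏_{χ ∈ M} (X - χ t) = ∏_{χ ∈ M'} (X - χ t)` for all `t : T` are equal.  Special cases:
`A → k` surjective (`multiset_eq_of_prod_X_sub_C_eq`), `k` the fraction field of `A`
(`multiset_eq_of_prod_X_sub_C_eq_of_isFractionRing`).  Consequences for the reduction of a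
multiset of `A`-points: `multiset_map_comp_eq_of_charpoly` and the count forms.
-/

namespace Fermat.Agent.S37

open Polynomial

namespace PtMultiset

/-- An element of `T` on which `χ` does not vanish while all other points in `S` do. -/
theorem exists_separating {A T k : Type*} [CommRing A] [CommRing T] [Algebra A T]
    [Field k] [Algebra A k]
    (hfrac : ∀ x : k, ∃ p q : A, algebraMap A k q ≠ 0 ∧ algebraMap A k q * x = algebraMap A k p)
    (χ : T →ₐ[A] k) (S : Finset (T →ₐ[A] k)) :
    ∃ h : T, χ h ≠ 0 ∧ ∀ ψ ∈ S, ψ ≠ χ → ψ h = 0 := by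
  classical
  induction S using Finset.induction_on with
  | empty => exact ⟨1, by simp, by simp⟩
  | insert ψ S _ ih =>
    obtain ⟨h, hχ, hS⟩ := ih
    by_cases hψχ : ψ = χ
    · refine ⟨h, hχ, ?_⟩
      intro ψ' hψ' hne
      rcases Finset.mem_insert.mp hψ' with rfl | h'
      · exact absurd hψχ hne
      · exact hS ψ' h' hne
    · have hex : ∃ t, ψ t ≠ χ t := by
        by_contra hcon
        exact hψχ (AlgHom.ext fun t => not_not.mp fun hne => hcon ⟨t, hne⟩)
      obtain ⟨t, ht⟩ := hex
      obtain ⟨p, q, hq, hpq⟩ := hfrac (ψ t)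
      refine ⟨h * (algebraMap A T q * t - algebraMap A T p), ?_, ?_⟩
      · rw [map_mul, map_sub, map_mul, AlgHom.commutes, AlgHom.commutes, ← hpq, ← mul_sub]
        exact mul_ne_zero hχ (mul_ne_zero hq (sub_ne_zero.mpr (Ne.symm ht)))
      · intro ψ' hψ' hne
        rcases Finset.mem_insert.mp hψ' with rfl | h'
        · rw [map_mul, map_sub, map_mul, AlgHom.commutes, AlgHom.commutes, hpq, sub_self,
            mul_zero]
        · rw [map_mul, hS ψ' h' hne, zero_mul]

/-- The product formula determines the multiset of values at each `t`. -/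
theorem map_apply_eq {T k : Type*} {F : Type*} [Field k] (ev : F → T → k)
    (M M' : Multiset F) (t : T)
    (h : (M.map fun χ => (X - C (ev χ t) : k[X])).prod =
      (M'.map fun χ => (X - C (ev χ t) : k[X])).prod) :
    M.map (fun χ => ev χ t) = M'.map (fun χ => ev χ t) := by
  have e : ∀ N : Multiset F, (N.map fun χ => (X - C (ev χ t) : k[X])) =
      (N.map fun χ => ev χ t).map (fun a => X - C a) := by
    intro N
    rw [Multiset.map_map]
    rfl
  have h1 := congrArg Polynomial.roots h
  rw [e M, e M', roots_multiset_prod_X_sub_C, roots_multiset_prod_X_sub_C] at h1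
  exact h1

theorem fraction_of_surjective {A k : Type*} [CommRing A] [Field k] [Algebra A k]
    (hsurj : Function.Surjective (algebraMap A k)) (x : k) :
    ∃ p q : A, algebraMap A k q ≠ 0 ∧ algebraMap A k q * x = algebraMap A k p := by
  obtain ⟨a, ha⟩ := hsurj x
  exact ⟨a, 1, by rw [map_one]; exact one_ne_zero, by rw [map_one, one_mul, ha]⟩

theorem fraction_of_isFractionRing {A k : Type*} [CommRing A] [Field k] [Algebra A k]
    [IsFractionRing A k] (x : k) :
    ∃ p q : A, algebraMap A k q ≠ 0 ∧ algebraMap A k q * x = algebraMap A k p := by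
  obtain ⟨⟨p, q⟩, hpq⟩ := IsLocalization.surj (nonZeroDivisors A) x
  exact ⟨p, q, (IsLocalization.map_units k q).ne_zero, by rw [mul_comm]; exact hpq⟩

end PtMultiset

/-- (U) A multiset of points `T →ₐ[A] k` is determined by its product formula, when every
element of the field `k` is a fraction of elements of `A`. -/
theorem multiset_eq_of_prod_X_sub_C_eq_of_fraction {A T k : Type*} [CommRing A] [CommRing T]
    [Algebra A T] [Field k] [Algebra A k]
    (hfrac : ∀ x : k, ∃ p q : A, algebraMap A k q ≠ 0 ∧ algebraMap A k q * x = algebraMap A k p)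
    (M M' : Multiset (T →ₐ[A] k))
    (h : ∀ t : T, (M.map fun χ => (X - C (χ t) : k[X])).prod =
      (M'.map fun χ => (X - C (χ t) : k[X])).prod) :
    M = M' := by
  classical
  ext χ
  obtain ⟨t, hχ, ht⟩ := PtMultiset.exists_separating hfrac χ (M + M').toFinset
  have key : ∀ N : Multiset (T →ₐ[A] k), N ≤ M + M' →
      Multiset.count (χ t) (N.map fun ψ => ψ t) = Multiset.count χ N := by
    intro N hN
    rw [Multiset.count_map, Multiset.count_eq_card_filter_eq]
    congr 1
    apply Multiset.filter_congr
    intro ψ hψ
    constructor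
    · intro hψt
      by_contra hne
      have h0 : ψ t = 0 :=
        ht ψ (Multiset.mem_toFinset.mpr (Multiset.mem_of_le hN hψ)) (Ne.symm hne)
      exact hχ (hψt.trans h0)
    · rintro rfl
      rfl
  have hev : M.map (fun ψ => ψ t) = M'.map (fun ψ => ψ t) :=
    PtMultiset.map_apply_eq (fun (ψ : T →ₐ[A] k) (s : T) => ψ s) M M' t (h t)
  rw [← key M (Multiset.le_add_right M M'), ← key M' (Multiset.le_add_left M' M), hev]

/-- (U) A multiset of points `T →ₐ[A] k` is determined by its product formula, when
`A → k` is surjective. -/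
theorem multiset_eq_of_prod_X_sub_C_eq {A T k : Type*} [CommRing A] [CommRing T] [Algebra A T]
    [Field k] [Algebra A k] (hsurj : Function.Surjective (algebraMap A k))
    (M M' : Multiset (T →ₐ[A] k))
    (h : ∀ t : T, (M.map fun χ => (X - C (χ t) : k[X])).prod =
      (M'.map fun χ => (X - C (χ t) : k[X])).prod) :
    M = M' :=
  multiset_eq_of_prod_X_sub_C_eq_of_fraction (PtMultiset.fraction_of_surjective hsurj) M M' h

/-- (U) A multiset of points `T →ₐ[A] k` is determined by its product formula, when `k` is
the fraction field of `A`. -/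
theorem multiset_eq_of_prod_X_sub_C_eq_of_isFractionRing {A T k : Type*} [CommRing A]
    [CommRing T] [Algebra A T] [Field k] [Algebra A k] [IsFractionRing A k]
    (M M' : Multiset (T →ₐ[A] k))
    (h : ∀ t : T, (M.map fun χ => (X - C (χ t) : k[X])).prod =
      (M'.map fun χ => (X - C (χ t) : k[X])).prod) :
    M = M' :=
  multiset_eq_of_prod_X_sub_C_eq_of_fraction PtMultiset.fraction_of_isFractionRing M M' h

/-- Conservation, fraction form: if `M` is a multiset of `A`-points of `T` satisfying the
product formula for `P`, then every multiset of `k`-points satisfying the product formula for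
the image of `P` over `k` is the image of `M`. -/
theorem multiset_map_comp_eq_of_charpoly_of_fraction {A T : Type*} [CommRing A] [CommRing T]
    [Algebra A T] {k : Type*} [Field k] [Algebra A k]
    (hfrac : ∀ x : k, ∃ p q : A, algebraMap A k q ≠ 0 ∧ algebraMap A k q * x = algebraMap A k p)
    (P : T → A[X]) (M : Multiset (T →ₐ[A] A))
    (hM : ∀ t : T, P t = (M.map fun φ => (X - C (φ t) : A[X])).prod)
    (Mk : Multiset (T →ₐ[A] k))
    (hMk : ∀ t : T, (P t).map (algebraMap A k) =
      (Mk.map fun χ => (X - C (χ t) : k[X])).prod) :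
    Mk = M.map (fun φ => (Algebra.ofId A k).comp φ) := by
  apply multiset_eq_of_prod_X_sub_C_eq_of_fraction hfrac
  intro t
  rw [← hMk t, hM t, Polynomial.map_multiset_prod, Multiset.map_map, Multiset.map_map]
  congr 1
  apply Multiset.map_congr rfl
  intro φ _
  simp [Algebra.ofId_apply]

/-- Conservation: if `M` is a multiset of `A`-points of `T` satisfying the product formula for
`P`, then every multiset of `k`-points satisfying the product formula for `P` modulo the kernel
of the surjection `A → k` is the image of `M`. -/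
theorem multiset_map_comp_eq_of_charpoly {A T : Type*} [CommRing A] [CommRing T] [Algebra A T]
    {k : Type*} [Field k] [Algebra A k]
    (hsurj : Function.Surjective (algebraMap A k)) (P : T → A[X])
    (M : Multiset (T →ₐ[A] A))
    (hM : ∀ t : T, P t = (M.map fun φ => (X - C (φ t) : A[X])).prod)
    (Mk : Multiset (T →ₐ[A] k))
    (hMk : ∀ t : T, (P t).map (algebraMap A k) =
      (Mk.map fun χ => (X - C (χ t) : k[X])).prod) :
    Mk = M.map (fun φ => (Algebra.ofId A k).comp φ) :=
  multiset_map_comp_eq_of_charpoly_of_fraction (PtMultiset.fraction_of_surjective hsurj)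
    P M hM Mk hMk

/-- Count form of `multiset_map_comp_eq_of_charpoly_of_fraction`. -/
theorem multiset_count_eq_card_filter_of_charpoly_of_fraction {A T : Type*} [CommRing A]
    [CommRing T] [Algebra A T] {k : Type*} [Field k] [Algebra A k] [DecidableEq (T →ₐ[A] k)]
    (hfrac : ∀ x : k, ∃ p q : A, algebraMap A k q ≠ 0 ∧ algebraMap A k q * x = algebraMap A k p)
    (P : T → A[X]) (M : Multiset (T →ₐ[A] A))
    (hM : ∀ t : T, P t = (M.map fun φ => (X - C (φ t) : A[X])).prod)
    (Mk : Multiset (T →ₐ[A] k))
    (hMk : ∀ t : T, (P t).map (algebraMap A k) =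
      (Mk.map fun χ => (X - C (χ t) : k[X])).prod)
    (χ : T →ₐ[A] k) [DecidablePred fun φ : T →ₐ[A] A => (Algebra.ofId A k).comp φ = χ] :
    Multiset.count χ Mk =
      Multiset.card (M.filter fun φ => (Algebra.ofId A k).comp φ = χ) := by
  rw [multiset_map_comp_eq_of_charpoly_of_fraction hfrac P M hM Mk hMk, Multiset.count_map]
  congr 1
  apply Multiset.filter_congr
  intro φ _
  exact eq_comm

/-- Count form of `multiset_map_comp_eq_of_charpoly`. -/
theorem multiset_count_eq_card_filter_of_charpoly {A T : Type*} [CommRing A]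
    [CommRing T] [Algebra A T] {k : Type*} [Field k] [Algebra A k] [DecidableEq (T →ₐ[A] k)]
    (hsurj : Function.Surjective (algebraMap A k)) (P : T → A[X])
    (M : Multiset (T →ₐ[A] A))
    (hM : ∀ t : T, P t = (M.map fun φ => (X - C (φ t) : A[X])).prod)
    (Mk : Multiset (T →ₐ[A] k))
    (hMk : ∀ t : T, (P t).map (algebraMap A k) =
      (Mk.map fun χ => (X - C (χ t) : k[X])).prod)
    (χ : T →ₐ[A] k) [DecidablePred fun φ : T →ₐ[A] A => (Algebra.ofId A k).comp φ = χ] :
    Multiset.count χ Mk =
      Multiset.card (M.filter fun φ => (Algebra.ofId A k).comp φ = χ) :=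
  multiset_count_eq_card_filter_of_charpoly_of_fraction
    (PtMultiset.fraction_of_surjective hsurj) P M hM Mk hMk χ

end Fermat.Agent.S37
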