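import Mathlib
import Fermat.Agent.S37.PtExists
import Fermat.Agent.S37.PtMultiset

set_option autoImplicit false

/-!
# S37 (C): conservation of points

`T` finite free over an integrally closed domain `A` whose fraction field `L` is algebraically
closed.  The characteristic polynomial of multiplication by `t : T` splits as a product over a
multiset `M` of `A`-points `T →ₐ[A] A`; after base change along a surjection `A → k` onto a
field, the multiset of `k`-points is the image of `M`.
-/

namespace Fermat.Agent.S37

open Polynomial TensorProduct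

section C

variable {A L T : Type*} [CommRing A] [IsDomain A] [IsIntegrallyClosed A]
    [Field L] [Algebra A L] [IsFractionRing A L] [IsAlgClosed L]
    [CommRing T] [Algebra A T] [Module.Free A T] [Module.Finite A T]

omit [IsDomain A] [IsIntegrallyClosed A] in
/-- Base change of the characteristic polynomial of a multiplication map, for an arbitrary
commutative `A`-algebra `B`. -/
theorem Conserve.charpoly_lmul_baseChange' (B : Type*) [CommRing B] [Algebra A B] (t : T) :
    (Algebra.lmul B (B ⊗[A] T) (1 ⊗ₜ[A] t)).charpoly =
      ((Algebra.lmul A T t).charpoly).map (algebraMap A B) := by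
  rw [← Algebra.baseChange_lmul, LinearMap.charpoly_baseChange]

omit [IsDomain A] [IsIntegrallyClosed A] in
theorem charpoly_lmul_baseChange (k : Type*) [Field k] [Algebra A k] (t : T) :
    (Algebra.lmul k (k ⊗[A] T) (1 ⊗ₜ[A] t)).charpoly =
      ((Algebra.lmul A T t).charpoly).map (algebraMap A k) :=
  Conserve.charpoly_lmul_baseChange' k t

omit [IsDomain A] [IsAlgClosed L] [Module.Free A T] in
/-- An `A`-algebra map from a finite `A`-algebra to the fraction field of the integrally closed
domain `A` takes values in `A`. -/
theorem Conserve.exists_algHom_lift (f : T →ₐ[A] L) :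
    ∃ φ : T →ₐ[A] A, ∀ t : T, algebraMap A L (φ t) = f t := by
  have hmem : ∀ t : T, f t ∈ (⊥ : Subalgebra A L) := by
    intro t
    have hint : IsIntegral A (f t) := (Algebra.IsIntegral.isIntegral (R := A) t).map f
    exact Algebra.mem_bot.mpr (IsIntegrallyClosed.isIntegral_iff.mp hint)
  let e : (⊥ : Subalgebra A L) ≃ₐ[A] A :=
    Algebra.botEquivOfInjective (IsFractionRing.injective A L)
  have he : ∀ x : (⊥ : Subalgebra A L), algebraMap A L (e x) = (x : L) := by
    intro x
    obtain ⟨y, rfl⟩ := e.symm.surjective x
    rw [AlgEquiv.apply_symm_apply]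
    rfl
  exact ⟨(e : (⊥ : Subalgebra A L) →ₐ[A] A).comp (f.codRestrict ⊥ hmem), fun t => he _⟩

theorem exists_multiset_charpoly_lmul_of_isIntegrallyClosed (L : Type*) [Field L] [Algebra A L]
    [IsFractionRing A L] [IsAlgClosed L] :
    ∃ M : Multiset (T →ₐ[A] A), Multiset.card M = Module.finrank A T ∧
      ∀ t : T, (Algebra.lmul A T t).charpoly = (M.map fun φ => (X - C (φ t) : A[X])).prod := by
  obtain ⟨M', hcard, hM'⟩ := exists_multiset_charpoly_lmul (K := L) (R := L ⊗[A] T)
  have hex : ∀ ψ : L ⊗[A] T →ₐ[L] L,
      ∃ φ : T →ₐ[A] A, ∀ t : T, algebraMap A L (φ t) = ψ (1 ⊗ₜ[A] t) := by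
    intro ψ
    obtain ⟨φ, hφ⟩ := Conserve.exists_algHom_lift
      ((ψ.restrictScalars A).comp (Algebra.TensorProduct.includeRight))
    exact ⟨φ, fun t => by rw [hφ]; rfl⟩
  choose F hF using hex
  refine ⟨M'.map F, ?_, fun t => ?_⟩
  · rw [Multiset.card_map, hcard, Module.finrank_baseChange]
  · apply Polynomial.map_injective (algebraMap A L) (IsFractionRing.injective A L)
    rw [← Conserve.charpoly_lmul_baseChange' L t, hM', Polynomial.map_multiset_prod,
      Multiset.map_map, Multiset.map_map]
    congr 1
    apply Multiset.map_congr rfl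
    intro ψ _
    simp [hF]

omit [IsDomain A] [IsIntegrallyClosed A] [Module.Free A T] [Module.Finite A T] in
/-- A product formula over `A` reduces to the product formula over `k` for the image multiset. -/
theorem map_prod_X_sub_C_eq_prod_comp {k : Type*} [Field k] [Algebra A k]
    (M : Multiset (T →ₐ[A] A)) (t : T) :
    ((M.map fun φ => (X - C (φ t) : A[X])).prod).map (algebraMap A k) =
      ((M.map fun φ => (Algebra.ofId A k).comp φ).map fun χ => (X - C (χ t) : k[X])).prod := by
  rw [Polynomial.map_multiset_prod, Multiset.map_map, Multiset.map_map]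
  congr 1
  apply Multiset.map_congr rfl
  intro φ _
  simp [Algebra.ofId_apply]

/-- Conservation of points: the multiset `M` of `A`-points computes the characteristic
polynomials over `A`, its image computes them over `k`, and the image is the only multiset of
`k`-points doing so. -/
theorem conservation (L : Type*) [Field L] [Algebra A L] [IsFractionRing A L] [IsAlgClosed L]
    {k : Type*} [Field k] [Algebra A k] (hsurj : Function.Surjective (algebraMap A k)) :
    ∃ M : Multiset (T →ₐ[A] A), Multiset.card M = Module.finrank A T ∧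
      (∀ t : T, (Algebra.lmul A T t).charpoly = (M.map fun φ => (X - C (φ t) : A[X])).prod) ∧
      (∀ t : T, ((Algebra.lmul A T t).charpoly).map (algebraMap A k) =
        ((M.map fun φ => (Algebra.ofId A k).comp φ).map
          fun χ => (X - C (χ t) : k[X])).prod) ∧
      (∀ t : T, (Algebra.lmul k (k ⊗[A] T) (1 ⊗ₜ[A] t)).charpoly =
        ((M.map fun φ => (Algebra.ofId A k).comp φ).map
          fun χ => (X - C (χ t) : k[X])).prod) ∧
      ∀ Mk : Multiset (T →ₐ[A] k),
        (∀ t : T, ((Algebra.lmul A T t).charpoly).map (algebraMap A k) =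
          (Mk.map fun χ => (X - C (χ t) : k[X])).prod) →
        Mk = M.map (fun φ => (Algebra.ofId A k).comp φ) := by
  obtain ⟨M, hcard, hM⟩ := exists_multiset_charpoly_lmul_of_isIntegrallyClosed (A := A) (T := T) L
  have hk : ∀ t : T, ((Algebra.lmul A T t).charpoly).map (algebraMap A k) =
      ((M.map fun φ => (Algebra.ofId A k).comp φ).map
        fun χ => (X - C (χ t) : k[X])).prod := by
    intro t
    rw [hM t, map_prod_X_sub_C_eq_prod_comp]
  refine ⟨M, hcard, hM, hk, fun t => ?_, fun Mk hMk => ?_⟩
  · rw [charpoly_lmul_baseChange k t, hk t]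
  · exact multiset_map_comp_eq_of_charpoly hsurj (fun t => (Algebra.lmul A T t).charpoly) M hM
      Mk hMk

/-- Count form of `conservation`: the multiplicity of a `k`-point `χ` in any multiset of
`k`-points computing the characteristic polynomials over `k` is the number (with multiplicity)
of `A`-points in `M` reducing to `χ`. -/
theorem conservation_count (L : Type*) [Field L] [Algebra A L] [IsFractionRing A L]
    [IsAlgClosed L] {k : Type*} [Field k] [Algebra A k] [DecidableEq (T →ₐ[A] k)]
    (hsurj : Function.Surjective (algebraMap A k)) :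
    ∃ M : Multiset (T →ₐ[A] A), Multiset.card M = Module.finrank A T ∧
      (∀ t : T, (Algebra.lmul A T t).charpoly = (M.map fun φ => (X - C (φ t) : A[X])).prod) ∧
      ∀ Mk : Multiset (T →ₐ[A] k),
        (∀ t : T, ((Algebra.lmul A T t).charpoly).map (algebraMap A k) =
          (Mk.map fun χ => (X - C (χ t) : k[X])).prod) →
        ∀ χ : T →ₐ[A] k, Multiset.count χ Mk =
          Multiset.card (M.filter fun φ => (Algebra.ofId A k).comp φ = χ) := by
  obtain ⟨M, hcard, hM⟩ := exists_multiset_charpoly_lmul_of_isIntegrallyClosed (A := A) (T := T) L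
  exact ⟨M, hcard, hM, fun Mk hMk χ =>
    multiset_count_eq_card_filter_of_charpoly hsurj (fun t => (Algebra.lmul A T t).charpoly) M hM
      Mk hMk χ⟩

/-! ### Quotient form -/

omit [IsDomain A] [IsIntegrallyClosed A] [Module.Finite A T] in
theorem Conserve.free_quotient (I : Ideal A) :
    Module.Free (A ⧸ I) (T ⧸ I.map (algebraMap A T)) :=
  Module.Free.of_equiv
    (Algebra.TensorProduct.quotIdealMapEquivQuotTensor T I).symm.toLinearEquiv

omit [IsDomain A] [IsIntegrallyClosed A] [Module.Free A T] in
theorem Conserve.finite_quotient (I : Ideal A) :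
    Module.Finite (A ⧸ I) (T ⧸ I.map (algebraMap A T)) :=
  Module.Finite.equiv
    (Algebra.TensorProduct.quotIdealMapEquivQuotTensor T I).symm.toLinearEquiv

omit [IsDomain A] [IsIntegrallyClosed A] in
/-- Quotient form of the base change of the characteristic polynomial. -/
theorem charpoly_lmul_quotient (I : Ideal A)
    [Module.Free (A ⧸ I) (T ⧸ I.map (algebraMap A T))]
    [Module.Finite (A ⧸ I) (T ⧸ I.map (algebraMap A T))] (t : T) :
    (Algebra.lmul (A ⧸ I) (T ⧸ I.map (algebraMap A T))
        (Ideal.Quotient.mk (I.map (algebraMap A T)) t)).charpoly =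
      ((Algebra.lmul A T t).charpoly).map (Ideal.Quotient.mk I) := by
  have h1 := Conserve.charpoly_lmul_baseChange' (A := A) (A ⧸ I) t
  rw [Ideal.Quotient.algebraMap_eq I] at h1
  rw [← h1, ← LinearEquiv.charpoly_conj
    (Algebra.TensorProduct.quotIdealMapEquivQuotTensor T I).toLinearEquiv]
  congr 1
  apply LinearMap.ext
  intro y
  obtain ⟨x, rfl⟩ := (Algebra.TensorProduct.quotIdealMapEquivQuotTensor T I).surjective y
  simp [LinearEquiv.conj_apply]

end C

end Fermat.Agent.S37
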