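import Mathlib
import Fermat.Agent.S37.CharpolyQuot
import Fermat.Agent.S37.PtMultiset

set_option autoImplicit false

/-!
# S37: every point occurs in the multiset of points; additivity in the divisor

* `comp_mem_of_charpoly_lmul`, `mem_of_charpoly_lmul`: a multiset of points satisfying the
  product formula for a finite-dimensional algebra contains every point of that algebra.
* `charpoly_lmul_quotient_span_mul`: for a nonzerodivisor `a`, the characteristic polynomial
  of `h` on `R ⧸ (a * b)` is the product of those on `R ⧸ (a)` and `R ⧸ (b)`; multiset and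
  dimension forms.
-/

namespace Fermat.Agent.S37

open Polynomial

namespace PtAdd

/-- The characteristic polynomial is multiplicative along a short exact sequence. -/
theorem charpoly_of_exact {K V' V V'' : Type*} [Field K] [AddCommGroup V'] [Module K V']
    [AddCommGroup V] [Module K V] [AddCommGroup V''] [Module K V'']
    [FiniteDimensional K V'] [FiniteDimensional K V] [FiniteDimensional K V'']
    (i : V' →ₗ[K] V) (p : V →ₗ[K] V'') (hi : Function.Injective i)
    (hp : Function.Surjective p) (hex : LinearMap.range i = LinearMap.ker p)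
    (f' : V' →ₗ[K] V') (f : V →ₗ[K] V) (f'' : V'' →ₗ[K] V'')
    (h1 : ∀ x, i (f' x) = f (i x)) (h2 : ∀ x, p (f x) = f'' (p x)) :
    f.charpoly = f'.charpoly * f''.charpoly := by
  have he : LinearMap.ker p ≤ (LinearMap.ker p).comap f := by
    intro x hx
    rw [Submodule.mem_comap, LinearMap.mem_ker, h2, LinearMap.mem_ker.1 hx, map_zero]
  rw [charpoly_eq_restrict_mul_mapQ_field (LinearMap.ker p) f he]
  congr 1
  · let E1 : V' ≃ₗ[K] LinearMap.ker p :=
      (LinearEquiv.ofInjective i hi).trans (LinearEquiv.ofEq _ _ hex)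
    rw [← LinearEquiv.charpoly_conj E1 f']
    congr 1
    apply LinearMap.ext
    intro w
    obtain ⟨x, rfl⟩ := E1.surjective w
    apply Subtype.ext
    rw [LinearEquiv.conj_apply_apply, LinearEquiv.symm_apply_apply]
    show f (i x) = i (f' x)
    exact (h1 x).symm
  · let E2 : (V ⧸ LinearMap.ker p) ≃ₗ[K] V'' := p.quotKerEquivOfSurjective hp
    rw [← LinearEquiv.charpoly_conj E2 ((LinearMap.ker p).mapQ (LinearMap.ker p) f he)]
    congr 1
    apply LinearMap.ext
    intro y
    obtain ⟨q, rfl⟩ := E2.surjective y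
    obtain ⟨q, rfl⟩ := Submodule.Quotient.mk_surjective _ q
    rw [LinearEquiv.conj_apply_apply, LinearEquiv.symm_apply_apply]
    show p (f q) = f'' (p q)
    exact h2 q

end PtAdd

/-! ## (a) every point occurs -/

section Occurs

variable {K B R : Type*} [Field K] [CommRing B] [CommRing R] [Algebra K B] [Algebra K R]
  [FiniteDimensional K R]

/-- Relative form: if `M` satisfies the product formula for the action of `B` on the
finite-dimensional `B`-algebra `R`, then every point of `R` occurs in `M`. -/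
theorem comp_mem_of_charpoly_lmul (π : B →ₐ[K] R) (M : Multiset (B →ₐ[K] K))
    (hM : ∀ h : B, (Algebra.lmul K R (π h)).charpoly =
      (M.map fun φ => (X - C (φ h) : K[X])).prod)
    (χ : R →ₐ[K] K) : χ.comp π ∈ M := by
  classical
  by_contra hnot
  obtain ⟨h, hχ, hS⟩ := PtMultiset.exists_separating
    (PtMultiset.fraction_of_surjective (A := K) (k := K) (fun x => ⟨x, rfl⟩))
    (χ.comp π) M.toFinset
  have hz : ∀ φ ∈ M, φ h = 0 := fun φ hφ =>
    hS φ (Multiset.mem_toFinset.2 hφ) (fun e => hnot (e ▸ hφ))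
  have hcp : (Algebra.lmul K R (π h)).charpoly = X ^ Multiset.card M := by
    rw [hM h, Multiset.map_congr rfl (fun φ hφ => by rw [hz φ hφ, C_0, sub_zero]),
      Multiset.map_const', Multiset.prod_replicate]
  have hae := LinearMap.aeval_self_charpoly (Algebra.lmul K R (π h))
  rw [hcp, map_pow, aeval_X, ← map_pow] at hae
  have h0 : (π h) ^ Multiset.card M = 0 := by
    have h1 := congrArg (fun f : R →ₗ[K] R => f 1) hae
    simpa using h1
  have h2 : (χ (π h)) ^ Multiset.card M = 0 := by rw [← map_pow, h0, map_zero]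
  exact hχ (IsNilpotent.eq_zero ⟨_, h2⟩)

/-- Count form of `comp_mem_of_charpoly_lmul`. -/
theorem one_le_count_comp_of_charpoly_lmul [DecidableEq (B →ₐ[K] K)] (π : B →ₐ[K] R)
    (M : Multiset (B →ₐ[K] K))
    (hM : ∀ h : B, (Algebra.lmul K R (π h)).charpoly =
      (M.map fun φ => (X - C (φ h) : K[X])).prod)
    (χ : R →ₐ[K] K) : 1 ≤ Multiset.count (χ.comp π) M :=
  Multiset.one_le_count_iff_mem.2 (comp_mem_of_charpoly_lmul π M hM χ)

/-- Absolute form: a multiset of points satisfying the product formula for a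
finite-dimensional algebra contains every point. -/
theorem mem_of_charpoly_lmul (M : Multiset (R →ₐ[K] K))
    (hM : ∀ h : R, (Algebra.lmul K R h).charpoly =
      (M.map fun φ => (X - C (φ h) : K[X])).prod)
    (χ : R →ₐ[K] K) : χ ∈ M := by
  have h := comp_mem_of_charpoly_lmul (AlgHom.id K R) M hM χ
  rwa [AlgHom.comp_id] at h

/-- Count form of `mem_of_charpoly_lmul`. -/
theorem one_le_count_of_charpoly_lmul [DecidableEq (R →ₐ[K] K)] (M : Multiset (R →ₐ[K] K))
    (hM : ∀ h : R, (Algebra.lmul K R h).charpoly =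
      (M.map fun φ => (X - C (φ h) : K[X])).prod)
    (χ : R →ₐ[K] K) : 1 ≤ Multiset.count χ M :=
  Multiset.one_le_count_iff_mem.2 (mem_of_charpoly_lmul M hM χ)

end Occurs

/-! ## (b) additivity -/

section Additivity

variable {K R : Type*} [Field K] [CommRing R] [Algebra K R]

namespace PtAdd

theorem span_le_comap_mulLeft (a b : R) :
    Ideal.span {b} ≤ Submodule.comap (LinearMap.mulLeft R a) (Ideal.span {a * b}) := by
  intro x hx
  obtain ⟨y, rfl⟩ := Ideal.mem_span_singleton'.1 hx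
  exact Ideal.mem_span_singleton'.2 ⟨y, by simp only [LinearMap.mulLeft_apply]; ring⟩

variable (K) in
/-- Multiplication by `a`, as a map `R ⧸ (b) → R ⧸ (a * b)`. -/
noncomputable def mulQ (a b : R) : R ⧸ Ideal.span {b} →ₗ[K] R ⧸ Ideal.span {a * b} :=
  (Submodule.mapQ (Ideal.span {b}) (Ideal.span {a * b}) (LinearMap.mulLeft R a)
    (span_le_comap_mulLeft a b)).restrictScalars K

theorem mulQ_mk (a b x : R) :
    mulQ K a b (Ideal.Quotient.mk _ x) = Ideal.Quotient.mk _ (a * x) := rfl

theorem mulQ_injective (a b : R) (ha : ∀ x : R, a * x = 0 → x = 0) :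
    Function.Injective (mulQ K a b) := by
  rw [injective_iff_map_eq_zero]
  intro q hq
  obtain ⟨x, rfl⟩ := Ideal.Quotient.mk_surjective q
  rw [mulQ_mk, Ideal.Quotient.eq_zero_iff_mem] at hq
  obtain ⟨y, hy⟩ := Ideal.mem_span_singleton'.1 hq
  rw [Ideal.Quotient.eq_zero_iff_mem]
  refine Ideal.mem_span_singleton'.2 ⟨y, ?_⟩
  have h0 : a * (x - y * b) = 0 := by rw [mul_sub, ← hy]; ring
  exact (sub_eq_zero.1 (ha _ h0)).symm

theorem span_mul_le (a b : R) : Ideal.span {a * b} ≤ Ideal.span ({a} : Set R) := by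
  rw [Ideal.span_singleton_le_iff_mem]
  exact Ideal.mem_span_singleton'.2 ⟨b, mul_comm b a⟩

variable (K) in
/-- The projection `R ⧸ (a * b) → R ⧸ (a)`. -/
noncomputable def proj (a b : R) : R ⧸ Ideal.span {a * b} →ₗ[K] R ⧸ Ideal.span {a} :=
  (Ideal.Quotient.factorₐ K (span_mul_le a b)).toLinearMap

theorem proj_mk (a b x : R) :
    proj K a b (Ideal.Quotient.mk _ x) = Ideal.Quotient.mk _ x := rfl

theorem proj_surjective (a b : R) : Function.Surjective (proj K a b) := by
  intro q
  obtain ⟨x, rfl⟩ := Ideal.Quotient.mk_surjective q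
  exact ⟨Ideal.Quotient.mk _ x, proj_mk a b x⟩

theorem range_mulQ (a b : R) :
    LinearMap.range (mulQ K a b) = LinearMap.ker (proj K a b) := by
  ext q
  rw [LinearMap.mem_range, LinearMap.mem_ker]
  constructor
  · rintro ⟨y, rfl⟩
    obtain ⟨x, rfl⟩ := Ideal.Quotient.mk_surjective y
    rw [mulQ_mk, proj_mk, Ideal.Quotient.eq_zero_iff_mem]
    exact Ideal.mem_span_singleton'.2 ⟨x, mul_comm x a⟩
  · intro hq
    obtain ⟨x, rfl⟩ := Ideal.Quotient.mk_surjective q
    rw [proj_mk, Ideal.Quotient.eq_zero_iff_mem] at hq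
    obtain ⟨y, rfl⟩ := Ideal.mem_span_singleton'.1 hq
    exact ⟨Ideal.Quotient.mk _ y, by rw [mulQ_mk, mul_comm a y]⟩

theorem regular_of_ne_zero [IsDomain R] {a : R} (ha : a ≠ 0) : ∀ x : R, a * x = 0 → x = 0 :=
  fun _ hx => (mul_eq_zero.1 hx).resolve_left ha

end PtAdd

/-- (b1) If `R ⧸ (a * b)` is finite-dimensional and `a` is a nonzerodivisor, then so are
`R ⧸ (a)` and `R ⧸ (b)`. -/
theorem finite_quotient_span_of_mul (a b : R) (ha : ∀ x : R, a * x = 0 → x = 0)
    [Module.Finite K (R ⧸ Ideal.span {a * b})] :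
    Module.Finite K (R ⧸ Ideal.span {a}) ∧ Module.Finite K (R ⧸ Ideal.span {b}) :=
  ⟨Module.Finite.of_surjective (PtAdd.proj K a b) (PtAdd.proj_surjective a b),
    Module.Finite.of_injective (PtAdd.mulQ K a b) (PtAdd.mulQ_injective a b ha)⟩

/-- (b2) Additivity of the characteristic polynomial in the divisor. -/
theorem charpoly_lmul_quotient_span_mul (a b : R) (ha : ∀ x : R, a * x = 0 → x = 0)
    [Module.Finite K (R ⧸ Ideal.span {a * b})] [Module.Finite K (R ⧸ Ideal.span {a})]
    [Module.Finite K (R ⧸ Ideal.span {b})] (h : R) :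
    (Algebra.lmul K (R ⧸ Ideal.span {a * b}) (Ideal.Quotient.mk _ h)).charpoly =
      (Algebra.lmul K (R ⧸ Ideal.span {a}) (Ideal.Quotient.mk _ h)).charpoly *
        (Algebra.lmul K (R ⧸ Ideal.span {b}) (Ideal.Quotient.mk _ h)).charpoly := by
  refine (PtAdd.charpoly_of_exact (PtAdd.mulQ K a b) (PtAdd.proj K a b)
    (PtAdd.mulQ_injective a b ha) (PtAdd.proj_surjective a b) (PtAdd.range_mulQ a b)
    _ _ _ ?_ ?_).trans (mul_comm _ _)
  · intro q
    obtain ⟨x, rfl⟩ := Ideal.Quotient.mk_surjective q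
    simp only [Algebra.coe_lmul_eq_mul, LinearMap.mul_apply', ← map_mul, PtAdd.mulQ_mk]
    congr 1
    ring
  · intro q
    obtain ⟨x, rfl⟩ := Ideal.Quotient.mk_surjective q
    simp only [Algebra.coe_lmul_eq_mul, LinearMap.mul_apply', ← map_mul, PtAdd.proj_mk]

/-- (b3) Multiset form of additivity: existence. -/
theorem multiset_add_of_charpoly_lmul_quotient_span_mul (a b : R)
    (ha : ∀ x : R, a * x = 0 → x = 0)
    [Module.Finite K (R ⧸ Ideal.span {a * b})] [Module.Finite K (R ⧸ Ideal.span {a})]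
    [Module.Finite K (R ⧸ Ideal.span {b})] (Ma Mb : Multiset (R →ₐ[K] K))
    (hMa : ∀ h : R, (Algebra.lmul K (R ⧸ Ideal.span {a}) (Ideal.Quotient.mk _ h)).charpoly =
      (Ma.map fun φ => (X - C (φ h) : K[X])).prod)
    (hMb : ∀ h : R, (Algebra.lmul K (R ⧸ Ideal.span {b}) (Ideal.Quotient.mk _ h)).charpoly =
      (Mb.map fun φ => (X - C (φ h) : K[X])).prod) (h : R) :
    (Algebra.lmul K (R ⧸ Ideal.span {a * b}) (Ideal.Quotient.mk _ h)).charpoly =
      ((Ma + Mb).map fun φ => (X - C (φ h) : K[X])).prod := by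
  rw [charpoly_lmul_quotient_span_mul a b ha h, hMa h, hMb h, Multiset.map_add,
    Multiset.prod_add]

/-- (b3) Multiset form of additivity: uniqueness. -/
theorem multiset_eq_add_of_charpoly_lmul_quotient_span_mul (a b : R)
    (ha : ∀ x : R, a * x = 0 → x = 0)
    [Module.Finite K (R ⧸ Ideal.span {a * b})] [Module.Finite K (R ⧸ Ideal.span {a})]
    [Module.Finite K (R ⧸ Ideal.span {b})] (Ma Mb Mab : Multiset (R →ₐ[K] K))
    (hMa : ∀ h : R, (Algebra.lmul K (R ⧸ Ideal.span {a}) (Ideal.Quotient.mk _ h)).charpoly =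
      (Ma.map fun φ => (X - C (φ h) : K[X])).prod)
    (hMb : ∀ h : R, (Algebra.lmul K (R ⧸ Ideal.span {b}) (Ideal.Quotient.mk _ h)).charpoly =
      (Mb.map fun φ => (X - C (φ h) : K[X])).prod)
    (hMab : ∀ h : R,
      (Algebra.lmul K (R ⧸ Ideal.span {a * b}) (Ideal.Quotient.mk _ h)).charpoly =
        (Mab.map fun φ => (X - C (φ h) : K[X])).prod) :
    Mab = Ma + Mb := by
  apply multiset_eq_of_prod_X_sub_C_eq (A := K) (T := R) (k := K) (fun x => ⟨x, rfl⟩)
  intro h
  rw [← hMab h, multiset_add_of_charpoly_lmul_quotient_span_mul a b ha Ma Mb hMa hMb h]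

/-- (b3) Count form of additivity. -/
theorem multiset_count_add_of_charpoly_lmul_quotient_span_mul [DecidableEq (R →ₐ[K] K)]
    (a b : R) (ha : ∀ x : R, a * x = 0 → x = 0)
    [Module.Finite K (R ⧸ Ideal.span {a * b})] [Module.Finite K (R ⧸ Ideal.span {a})]
    [Module.Finite K (R ⧸ Ideal.span {b})] (Ma Mb Mab : Multiset (R →ₐ[K] K))
    (hMa : ∀ h : R, (Algebra.lmul K (R ⧸ Ideal.span {a}) (Ideal.Quotient.mk _ h)).charpoly =
      (Ma.map fun φ => (X - C (φ h) : K[X])).prod)
    (hMb : ∀ h : R, (Algebra.lmul K (R ⧸ Ideal.span {b}) (Ideal.Quotient.mk _ h)).charpoly =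
      (Mb.map fun φ => (X - C (φ h) : K[X])).prod)
    (hMab : ∀ h : R,
      (Algebra.lmul K (R ⧸ Ideal.span {a * b}) (Ideal.Quotient.mk _ h)).charpoly =
        (Mab.map fun φ => (X - C (φ h) : K[X])).prod) (χ : R →ₐ[K] K) :
    Multiset.count χ Mab = Multiset.count χ Ma + Multiset.count χ Mb := by
  rw [multiset_eq_add_of_charpoly_lmul_quotient_span_mul a b ha Ma Mb Mab hMa hMb hMab,
    Multiset.count_add]

/-- (b4) Additivity of the dimension. -/
theorem finrank_quotient_span_mul (a b : R) (ha : ∀ x : R, a * x = 0 → x = 0)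
    [Module.Finite K (R ⧸ Ideal.span {a * b})] :
    Module.finrank K (R ⧸ Ideal.span {a * b}) =
      Module.finrank K (R ⧸ Ideal.span {a}) + Module.finrank K (R ⧸ Ideal.span {b}) := by
  obtain ⟨h1, h2⟩ := finite_quotient_span_of_mul (K := K) a b ha
  have h3 := congrArg natDegree (charpoly_lmul_quotient_span_mul (K := K) a b ha 0)
  rwa [(LinearMap.charpoly_monic _).natDegree_mul (LinearMap.charpoly_monic _),
    LinearMap.charpoly_natDegree, LinearMap.charpoly_natDegree, LinearMap.charpoly_natDegree]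
    at h3

/-! ### Domain forms -/

section Domain

variable [IsDomain R]

theorem finite_quotient_span_of_mul_of_ne_zero (a b : R) (ha : a ≠ 0)
    [Module.Finite K (R ⧸ Ideal.span {a * b})] :
    Module.Finite K (R ⧸ Ideal.span {a}) ∧ Module.Finite K (R ⧸ Ideal.span {b}) :=
  finite_quotient_span_of_mul a b (PtAdd.regular_of_ne_zero ha)

theorem charpoly_lmul_quotient_span_mul_of_ne_zero (a b : R) (ha : a ≠ 0)
    [Module.Finite K (R ⧸ Ideal.span {a * b})] [Module.Finite K (R ⧸ Ideal.span {a})]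
    [Module.Finite K (R ⧸ Ideal.span {b})] (h : R) :
    (Algebra.lmul K (R ⧸ Ideal.span {a * b}) (Ideal.Quotient.mk _ h)).charpoly =
      (Algebra.lmul K (R ⧸ Ideal.span {a}) (Ideal.Quotient.mk _ h)).charpoly *
        (Algebra.lmul K (R ⧸ Ideal.span {b}) (Ideal.Quotient.mk _ h)).charpoly :=
  charpoly_lmul_quotient_span_mul a b (PtAdd.regular_of_ne_zero ha) h

theorem multiset_add_of_charpoly_lmul_quotient_span_mul_of_ne_zero (a b : R) (ha : a ≠ 0)
    [Module.Finite K (R ⧸ Ideal.span {a * b})] [Module.Finite K (R ⧸ Ideal.span {a})]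
    [Module.Finite K (R ⧸ Ideal.span {b})] (Ma Mb : Multiset (R →ₐ[K] K))
    (hMa : ∀ h : R, (Algebra.lmul K (R ⧸ Ideal.span {a}) (Ideal.Quotient.mk _ h)).charpoly =
      (Ma.map fun φ => (X - C (φ h) : K[X])).prod)
    (hMb : ∀ h : R, (Algebra.lmul K (R ⧸ Ideal.span {b}) (Ideal.Quotient.mk _ h)).charpoly =
      (Mb.map fun φ => (X - C (φ h) : K[X])).prod) (h : R) :
    (Algebra.lmul K (R ⧸ Ideal.span {a * b}) (Ideal.Quotient.mk _ h)).charpoly =
      ((Ma + Mb).map fun φ => (X - C (φ h) : K[X])).prod :=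
  multiset_add_of_charpoly_lmul_quotient_span_mul a b (PtAdd.regular_of_ne_zero ha)
    Ma Mb hMa hMb h

theorem multiset_eq_add_of_charpoly_lmul_quotient_span_mul_of_ne_zero (a b : R) (ha : a ≠ 0)
    [Module.Finite K (R ⧸ Ideal.span {a * b})] [Module.Finite K (R ⧸ Ideal.span {a})]
    [Module.Finite K (R ⧸ Ideal.span {b})] (Ma Mb Mab : Multiset (R →ₐ[K] K))
    (hMa : ∀ h : R, (Algebra.lmul K (R ⧸ Ideal.span {a}) (Ideal.Quotient.mk _ h)).charpoly =
      (Ma.map fun φ => (X - C (φ h) : K[X])).prod)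
    (hMb : ∀ h : R, (Algebra.lmul K (R ⧸ Ideal.span {b}) (Ideal.Quotient.mk _ h)).charpoly =
      (Mb.map fun φ => (X - C (φ h) : K[X])).prod)
    (hMab : ∀ h : R,
      (Algebra.lmul K (R ⧸ Ideal.span {a * b}) (Ideal.Quotient.mk _ h)).charpoly =
        (Mab.map fun φ => (X - C (φ h) : K[X])).prod) :
    Mab = Ma + Mb :=
  multiset_eq_add_of_charpoly_lmul_quotient_span_mul a b (PtAdd.regular_of_ne_zero ha)
    Ma Mb Mab hMa hMb hMab

theorem finrank_quotient_span_mul_of_ne_zero (a b : R) (ha : a ≠ 0)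
    [Module.Finite K (R ⧸ Ideal.span {a * b})] :
    Module.finrank K (R ⧸ Ideal.span {a * b}) =
      Module.finrank K (R ⧸ Ideal.span {a}) + Module.finrank K (R ⧸ Ideal.span {b}) :=
  finrank_quotient_span_mul a b (PtAdd.regular_of_ne_zero ha)

end Domain

end Additivity

end Fermat.Agent.S37
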