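import Mathlib
import Fermat.Agent.S37.PtMultiset

set_option autoImplicit false

/-!
# S37 (A-ii): every `k`-point occurs

For a finite free `A`-algebra `T`, a multiset `N` of `k`-points satisfying the product formula
for the reduction of the characteristic polynomial contains every `k`-point of `T`.
-/

namespace Fermat.Agent.S37

open Polynomial

/-- (A-ii) every `k`-point occurs. -/
theorem comp_mem_of_charpoly_map {A B T k : Type*} [CommRing A] [CommRing B] [Algebra A B]
    [CommRing T] [Algebra A T] [Module.Free A T] [Module.Finite A T] [Field k] [Algebra A k]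
    (hsurj : Function.Surjective (algebraMap A k)) (π : B →ₐ[A] T) (N : Multiset (B →ₐ[A] k))
    (hN : ∀ h : B, ((Algebra.lmul A T (π h)).charpoly).map (algebraMap A k) =
      (N.map fun χ => (X - C (χ h) : k[X])).prod)
    (χ : T →ₐ[A] k) : χ.comp π ∈ N := by
  classical
  by_contra hnot
  obtain ⟨h, hχ, hS⟩ := PtMultiset.exists_separating
    (PtMultiset.fraction_of_surjective hsurj) (χ.comp π) N.toFinset
  have hz : ∀ ψ ∈ N, ψ h = 0 := fun ψ hψ =>
    hS ψ (Multiset.mem_toFinset.2 hψ) (fun e => hnot (e ▸ hψ))
  have hcp : ((Algebra.lmul A T (π h)).charpoly).map (algebraMap A k) =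
      X ^ Multiset.card N := by
    rw [hN h, Multiset.map_congr rfl (fun ψ hψ => by rw [hz ψ hψ, C_0, sub_zero]),
      Multiset.map_const', Multiset.prod_replicate]
  have hae := LinearMap.aeval_self_charpoly (Algebra.lmul A T (π h))
  rw [aeval_algHom_apply] at hae
  have h0 : aeval (π h) (Algebra.lmul A T (π h)).charpoly = 0 := by
    have h1 := congrArg (fun f : T →ₗ[A] T => f 1) hae
    simpa using h1
  have h2 : (χ (π h)) ^ Multiset.card N = 0 := by
    have h3 := congrArg χ h0
    rw [← aeval_algHom_apply, map_zero, ← eval_map_algebraMap, hcp, eval_pow, eval_X] at h3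
    exact h3
  exact hχ (IsNilpotent.eq_zero ⟨_, h2⟩)

/-- Count form of `comp_mem_of_charpoly_map`. -/
theorem one_le_count_comp_of_charpoly_map {A B T k : Type*} [CommRing A] [CommRing B]
    [Algebra A B] [CommRing T] [Algebra A T] [Module.Free A T] [Module.Finite A T] [Field k]
    [Algebra A k] [DecidableEq (B →ₐ[A] k)]
    (hsurj : Function.Surjective (algebraMap A k)) (π : B →ₐ[A] T) (N : Multiset (B →ₐ[A] k))
    (hN : ∀ h : B, ((Algebra.lmul A T (π h)).charpoly).map (algebraMap A k) =
      (N.map fun χ => (X - C (χ h) : k[X])).prod)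
    (χ : T →ₐ[A] k) : 1 ≤ Multiset.count (χ.comp π) N :=
  Multiset.one_le_count_iff_mem.2 (comp_mem_of_charpoly_map hsurj π N hN χ)

end Fermat.Agent.S37
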