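import Mathlib

/-!
P12 (S37), Tier 2, [T2-WEI]: Weierstrass-type factorisation over a valuation ring with
algebraically closed fraction field, freeness of finitely generated torsion-free modules over a
valuation ring, and the resulting splitting of `𝔅 / c`.
-/

set_option autoImplicit false

namespace Fermat.Agent.S37

open Polynomial

namespace Weierstrass

section Coprime

variable {A : Type*} [CommRing A] [IsLocalRing A]

/-- Over a local ring, a monic polynomial and a polynomial which is a unit constant modulo the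
maximal ideal are coprime. -/
theorem isCoprime_of_monic_of_map_eq_C {g u : A[X]} (hg : g.Monic) {c : A} (hc : IsUnit c)
    (hu : u.map (IsLocalRing.residue A) = C (IsLocalRing.residue A c)) : IsCoprime g u := by
  have hfin : Module.Finite A (AdjoinRoot g) := hg.finite_adjoinRoot
  have hint : Algebra.IsIntegral A (AdjoinRoot g) := Algebra.IsIntegral.of_finite A (AdjoinRoot g)
  have hunit : IsUnit (AdjoinRoot.mk g u) := by
    by_contra hnu
    obtain ⟨M, hM, huM⟩ := exists_max_ideal_of_mem_nonunits hnu
    have hcomap : M.comap (algebraMap A (AdjoinRoot g)) = IsLocalRing.maximalIdeal A :=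
      IsLocalRing.eq_maximalIdeal (Ideal.isMaximal_comap_of_isIntegral_of_isMaximal M)
    have hcoeff : ∀ i, (u - C c).coeff i ∈ IsLocalRing.maximalIdeal A := by
      intro i
      have h1 := congrArg (fun p => p.coeff i) hu
      simp only [coeff_map, coeff_C] at h1
      rw [← IsLocalRing.residue_eq_zero_iff, coeff_sub, map_sub, h1, coeff_C]
      split_ifs <;> simp
    have hmem : AdjoinRoot.mk g (u - C c) ∈ M := by
      rw [as_sum_support_C_mul_X_pow (u - C c), map_sum]
      refine Ideal.sum_mem _ fun i _ => ?_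
      rw [map_mul]
      refine Ideal.mul_mem_right _ _ ?_
      have h2 : (u - C c).coeff i ∈ M.comap (algebraMap A (AdjoinRoot g)) := by
        rw [hcomap]
        exact hcoeff i
      exact h2
    have hcM : AdjoinRoot.mk g (C c) ∈ M := by
      have h3 : AdjoinRoot.mk g (C c) = AdjoinRoot.mk g u - AdjoinRoot.mk g (u - C c) := by
        rw [map_sub]
        ring
      rw [h3]
      exact Ideal.sub_mem _ huM hmem
    have hcu : IsUnit (AdjoinRoot.mk g (C c)) := (hc.map C).map (AdjoinRoot.mk g)
    exact hM.ne_top (Ideal.eq_top_of_isUnit_mem _ hcM hcu)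
  obtain ⟨b', hb'⟩ := hunit.exists_right_inv
  obtain ⟨b, rfl⟩ := AdjoinRoot.mk_surjective b'
  have h4 : AdjoinRoot.mk g (u * b - 1) = 0 := by
    rw [map_sub, map_mul, hb', map_one, sub_self]
  obtain ⟨a, ha⟩ := AdjoinRoot.mk_eq_zero.mp h4
  refine ⟨-a, b, ?_⟩
  linear_combination ha

end Coprime

section Factor

variable {A : Type*} [CommRing A] [IsDomain A] [ValuationRing A]
  (L : Type*) [Field L] [Algebra A L] [IsFractionRing A L]

/-- Splitting a product of linear factors over the fraction field into a monic part with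
integral roots and a part congruent to `1`. -/
theorem exists_of_multiset (s : Multiset L) :
    ∃ (g v : A[X]) (d : L), g.Monic ∧ v.map (IsLocalRing.residue A) = 1 ∧ d ≠ 0 ∧
      (s.map (fun a => X - C a)).prod = C d * (g * v).map (algebraMap A L) := by
  induction s using Multiset.induction_on with
  | empty => exact ⟨1, 1, 1, monic_one, by simp, one_ne_zero, by simp⟩
  | cons a s ih =>
    obtain ⟨g, v, d, hg, hv, hd, hprod⟩ := ih
    by_cases hint : ∃ α : A, algebraMap A L α = a
    · obtain ⟨α, rfl⟩ := hint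
      refine ⟨(X - C α) * g, v, d, (monic_X_sub_C α).mul hg, hv, hd, ?_⟩
      rw [Multiset.map_cons, Multiset.prod_cons, hprod]
      simp only [Polynomial.map_mul, Polynomial.map_sub, map_X, map_C]
      ring
    · have hinv : ∃ β : A, algebraMap A L β = a⁻¹ := by
        rcases ValuationRing.isInteger_or_isInteger A a with h | h
        · exact absurd h hint
        · exact h
      obtain ⟨β, hβ⟩ := hinv
      have ha0 : a ≠ 0 := by
        rintro rfl
        exact hint ⟨0, map_zero _⟩
      have hβm : β ∈ IsLocalRing.maximalIdeal A := by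
        by_contra hβ'
        have hβu : IsUnit β := IsLocalRing.notMem_maximalIdeal.mp hβ'
        obtain ⟨γ, hγ⟩ := hβu.exists_right_inv
        apply hint
        refine ⟨γ, ?_⟩
        have h1 : algebraMap A L β * algebraMap A L γ = 1 := by
          rw [← map_mul, hγ, map_one]
        rw [hβ] at h1
        field_simp at h1
        exact h1
      refine ⟨g, (1 - C β * X) * v, -a * d, hg, ?_, mul_ne_zero (neg_ne_zero.mpr ha0) hd, ?_⟩
      · rw [Polynomial.map_mul, hv, mul_one, Polynomial.map_sub, Polynomial.map_one,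
          Polynomial.map_mul, map_C, map_X, (IsLocalRing.residue_eq_zero_iff β).mpr hβm]
        simp
      · rw [Multiset.map_cons, Multiset.prod_cons, hprod]
        simp only [Polynomial.map_mul, Polynomial.map_sub, Polynomial.map_one, map_X, map_C, hβ]
        have h2 : (X - C a : L[X]) = C (-a) * (1 - C a⁻¹ * X) := by
          rw [mul_sub, mul_one, ← mul_assoc, ← C_mul, neg_mul, mul_inv_cancel₀ ha0]
          simp
          ring
        rw [h2, C_mul]
        ring

end Factor

/-- **Weierstrass-type factorisation.**  Over a valuation ring with algebraically closed fraction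
field, a polynomial with nonzero reduction is the product of a monic polynomial and a polynomial
which is a unit constant modulo the maximal ideal; the two factors are coprime. -/
theorem exists_monic_mul_eq {A : Type*} [CommRing A] [IsDomain A] [ValuationRing A]
    (L : Type*) [Field L] [Algebra A L] [IsFractionRing A L] [IsAlgClosed L]
    (G : A[X]) (hG : G.map (IsLocalRing.residue A) ≠ 0) :
    ∃ (g u : A[X]) (c : A), g.Monic ∧ IsUnit c ∧
      u.map (IsLocalRing.residue A) = C (IsLocalRing.residue A c) ∧
      G = g * u ∧ IsCoprime g u ∧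
      g.natDegree = (G.map (IsLocalRing.residue A)).natDegree := by
  set f : L[X] := G.map (algebraMap A L) with hf
  have hsplit : f.Splits := IsAlgClosed.splits f
  obtain ⟨g, v, d, hg, hv, hd, hprod⟩ := exists_of_multiset (A := A) L f.roots
  have hfeq : f = C (f.leadingCoeff * d) * (g * v).map (algebraMap A L) := by
    conv_lhs => rw [hsplit.eq_prod_roots, hprod]
    rw [C_mul, mul_assoc]
  set n := g.natDegree with hn
  set w := (g * v).coeff n with hw
  have hwres : IsLocalRing.residue A w = 1 := by
    have h1 : ((g * v).map (IsLocalRing.residue A)).coeff n = 1 := by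
      rw [Polynomial.map_mul, hv, mul_one, coeff_map, hn, hg.coeff_natDegree, map_one]
    rw [coeff_map] at h1
    exact h1
  have hwu : IsUnit w := by
    apply IsLocalRing.notMem_maximalIdeal.mp
    rw [← IsLocalRing.residue_eq_zero_iff, hwres]
    exact one_ne_zero
  obtain ⟨w', hw'⟩ := hwu.exists_right_inv
  set e₀ := G.coeff n * w' with he₀
  have he : f.leadingCoeff * d = algebraMap A L e₀ := by
    have h2 := congrArg (fun p => p.coeff n) hfeq
    simp only [hf, coeff_map, coeff_C_mul] at h2
    have h3 : algebraMap A L w * algebraMap A L w' = 1 := by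
      rw [← map_mul, hw', map_one]
    rw [he₀, map_mul, h2, ← hw, mul_assoc, h3, mul_one]
  have hGeq : G = C e₀ * (g * v) := by
    apply Polynomial.map_injective (algebraMap A L) (IsFractionRing.injective A L)
    rw [Polynomial.map_mul, map_C, ← he, ← hf]
    exact hfeq
  have hGres : G.map (IsLocalRing.residue A) =
      C (IsLocalRing.residue A e₀) * g.map (IsLocalRing.residue A) := by
    rw [hGeq, Polynomial.map_mul, Polynomial.map_mul, hv, mul_one, map_C]
  have he₀res : IsLocalRing.residue A e₀ ≠ 0 := by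
    intro h
    apply hG
    rw [hGres, h, C_0, zero_mul]
  have he₀u : IsUnit e₀ := by
    apply IsLocalRing.notMem_maximalIdeal.mp
    rw [← IsLocalRing.residue_eq_zero_iff]
    exact he₀res
  have hures : (C e₀ * v).map (IsLocalRing.residue A) = C (IsLocalRing.residue A e₀) := by
    rw [Polynomial.map_mul, hv, mul_one, map_C]
  refine ⟨g, C e₀ * v, e₀, hg, he₀u, hures, ?_, isCoprime_of_monic_of_map_eq_C hg he₀u hures, ?_⟩
  · rw [hGeq]
    ring
  · rw [hGres, natDegree_C_mul he₀res, hg.natDegree_map]

section Free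

variable {A : Type*} [CommRing A] [IsDomain A] [ValuationRing A]

/-- In a valuation ring, a finite nonempty family has a member dividing all the others. -/
theorem exists_dvd_all {ι : Type*} (s : Finset ι) (hs : s.Nonempty) (a : ι → A) :
    ∃ j ∈ s, ∀ i ∈ s, a j ∣ a i := by
  induction hs using Finset.Nonempty.cons_induction with
  | singleton j =>
    exact ⟨j, Finset.mem_singleton_self j, fun i hi => by rw [Finset.mem_singleton.mp hi]⟩
  | cons x s hx hs ih =>
    obtain ⟨j, hj, hdiv⟩ := ih
    rcases ValuationRing.dvd_total (a j) (a x) with h | h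
    · refine ⟨j, Finset.mem_cons_of_mem hj, fun i hi => ?_⟩
      rcases Finset.mem_cons.mp hi with rfl | hi
      · exact h
      · exact hdiv i hi
    · refine ⟨x, Finset.mem_cons_self x s, fun i hi => ?_⟩
      rcases Finset.mem_cons.mp hi with rfl | hi
      · exact dvd_rfl
      · exact h.trans (hdiv i hi)

variable {M : Type*} [AddCommGroup M] [Module A M]

/-- A spanning family of minimal size in a torsion-free module over a valuation ring is
linearly independent. -/
theorem linearIndependent_of_minimal
    (htf : ∀ (a : A) (m : M), a • m = 0 → a = 0 ∨ m = 0)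
    (n : ℕ) (v : Fin n → M) (hv : Submodule.span A (Set.range v) = ⊤)
    (hmin : ∀ m < n, ¬ ∃ v' : Fin m → M, Submodule.span A (Set.range v') = ⊤) :
    LinearIndependent A v := by
  classical
  rw [Fintype.linearIndependent_iff]
  intro a ha
  by_contra hne
  simp only [not_forall] at hne
  obtain ⟨i₀, hi₀⟩ := hne
  obtain ⟨j, -, hj⟩ := exists_dvd_all Finset.univ ⟨i₀, Finset.mem_univ _⟩ a
  have haj : a j ≠ 0 := by
    intro h
    have h1 := hj i₀ (Finset.mem_univ _)
    rw [h] at h1
    exact hi₀ (zero_dvd_iff.mp h1)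
  choose b hb using fun i => hj i (Finset.mem_univ i)
  have h1 : a j • ∑ i, b i • v i = 0 := by
    rw [Finset.smul_sum, ← ha]
    refine Finset.sum_congr rfl fun i _ => ?_
    rw [smul_smul, ← hb i]
  have h2 : ∑ i, b i • v i = 0 := (htf _ _ h1).resolve_left haj
  have hbj : b j = 1 := by
    have h3 : a j * b j = a j * 1 := by rw [mul_one, ← hb j]
    exact mul_left_cancel₀ haj h3
  obtain _ | m := n
  · exact j.elim0
  · apply hmin m (Nat.lt_succ_self m)
    refine ⟨fun i => v (j.succAbove i), ?_⟩
    rw [eq_top_iff, ← hv, Submodule.span_le]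
    rintro _ ⟨i, rfl⟩
    rcases Fin.eq_self_or_eq_succAbove j i with rfl | ⟨i', rfl⟩
    · rw [Fin.sum_univ_succAbove _ i, hbj, one_smul] at h2
      have h4 : v i = -∑ i', b (i.succAbove i') • v (i.succAbove i') := eq_neg_of_add_eq_zero_left h2
      rw [SetLike.mem_coe, h4]
      refine Submodule.neg_mem _ (Submodule.sum_mem _ fun i' _ => ?_)
      exact Submodule.smul_mem _ _ (Submodule.subset_span ⟨i', rfl⟩)
    · exact Submodule.subset_span ⟨i', rfl⟩

/-- A finitely generated torsion-free module over a valuation ring has a finite basis. -/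
theorem exists_basis_of_torsionFree [Module.Finite A M]
    (htf : ∀ (a : A) (m : M), a • m = 0 → a = 0 ∨ m = 0) :
    ∃ n : ℕ, Nonempty (Module.Basis (Fin n) A M) := by
  classical
  have hex : ∃ n : ℕ, ∃ v : Fin n → M, Submodule.span A (Set.range v) = ⊤ :=
    Module.Finite.exists_fin
  obtain ⟨v, hv⟩ := Nat.find_spec hex
  have hli := linearIndependent_of_minimal htf (Nat.find hex) v hv
    (fun m hm => Nat.find_min hex hm)
  exact ⟨Nat.find hex, ⟨Module.Basis.mk hli (le_of_eq hv.symm)⟩⟩

/-- A finitely generated torsion-free module over a valuation ring is free. -/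
theorem free_of_torsionFree [Module.Finite A M]
    (htf : ∀ (a : A) (m : M), a • m = 0 → a = 0 ∨ m = 0) : Module.Free A M := by
  obtain ⟨n, ⟨b⟩⟩ := exists_basis_of_torsionFree htf
  exact Module.Free.of_basis b

end Free

section Split

variable {B : Type*} [CommRing B]

/-- If `g` and `u` are coprime then so are the ideals `(c, g)` and `(c, u)`. -/
theorem isCoprime_span_pair (c : B) {g u : B} (hgu : IsCoprime g u) :
    IsCoprime (Ideal.span {c, g}) (Ideal.span {c, u}) := by
  obtain ⟨a, b, hab⟩ := hgu
  rw [Ideal.isCoprime_iff_exists]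
  refine ⟨a * g, ?_, b * u, ?_, hab⟩
  · exact Ideal.mul_mem_left _ _ (Ideal.subset_span (Set.mem_insert_of_mem _ rfl))
  · exact Ideal.mul_mem_left _ _ (Ideal.subset_span (Set.mem_insert_of_mem _ rfl))

/-- If `g`, `u` are coprime and `c ∣ g * u` then `(c) = (c, g) ∩ (c, u)`. -/
theorem span_singleton_eq_inf {c g u : B} (hgu : IsCoprime g u) (hc : c ∣ g * u) :
    Ideal.span {c} = Ideal.span {c, g} ⊓ Ideal.span {c, u} := by
  apply le_antisymm
  · rw [Ideal.span_singleton_le_iff_mem]
    exact ⟨Ideal.subset_span (Set.mem_insert _ _), Ideal.subset_span (Set.mem_insert _ _)⟩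
  · rw [← Ideal.mul_eq_inf_of_isCoprime (isCoprime_span_pair c hgu),
      Ideal.span_pair_mul_span_pair, Ideal.span_le]
    intro x hx
    simp only [Set.mem_insert_iff, Set.mem_singleton_iff] at hx
    rw [SetLike.mem_coe, Ideal.mem_span_singleton]
    rcases hx with rfl | rfl | rfl | rfl
    · exact Dvd.intro _ rfl
    · exact Dvd.intro _ rfl
    · exact Dvd.intro_left _ rfl
    · exact hc

/-- The Chinese remainder splitting `B / c ≃ B / (c, g) × B / (c, u)` for coprime `g`, `u` with
`c ∣ g * u`. -/
noncomputable def quotientEquivProd {c g u : B} (hgu : IsCoprime g u) (hc : c ∣ g * u) :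
    B ⧸ Ideal.span {c} ≃+* (B ⧸ Ideal.span {c, g}) × (B ⧸ Ideal.span {c, u}) :=
  (Ideal.quotEquivOfEq (span_singleton_eq_inf hgu hc)).trans
    (Ideal.quotientInfEquivQuotientProd _ _ (isCoprime_span_pair c hgu))

@[simp]
theorem quotientEquivProd_mk {c g u : B} (hgu : IsCoprime g u) (hc : c ∣ g * u) (x : B) :
    quotientEquivProd hgu hc (Ideal.Quotient.mk _ x) =
      (Ideal.Quotient.mk _ x, Ideal.Quotient.mk _ x) :=
  rfl

/-- The splitting as an isomorphism of algebras. -/
noncomputable def quotientAlgEquivProd (A : Type*) [CommRing A] [Algebra A B] {c g u : B}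
    (hgu : IsCoprime g u) (hc : c ∣ g * u) :
    (B ⧸ Ideal.span {c}) ≃ₐ[A] (B ⧸ Ideal.span {c, g}) × (B ⧸ Ideal.span {c, u}) :=
  AlgEquiv.ofRingEquiv (f := quotientEquivProd hgu hc) (fun _ => rfl)

@[simp]
theorem quotientAlgEquivProd_mk (A : Type*) [CommRing A] [Algebra A B] {c g u : B}
    (hgu : IsCoprime g u) (hc : c ∣ g * u) (x : B) :
    quotientAlgEquivProd A hgu hc (Ideal.Quotient.mk _ x) =
      (Ideal.Quotient.mk _ x, Ideal.Quotient.mk _ x) :=
  rfl

/-- `B / (c, g)` inherits torsion-freeness from `B / c` (it is a direct factor). -/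
theorem torsionFree_quotient (A : Type*) [CommRing A] [Algebra A B] {c g u : B}
    (hgu : IsCoprime g u) (hc : c ∣ g * u)
    (htf : ∀ (m : A) (b : B), m ≠ 0 → c ∣ m • b → c ∣ b)
    (m : A) (t : B ⧸ Ideal.span {c, g}) (hmt : m • t = 0) : m = 0 ∨ t = 0 := by
  by_cases hm : m = 0
  · exact Or.inl hm
  right
  obtain ⟨b, rfl⟩ := Ideal.Quotient.mk_surjective t
  have h1 : m • b ∈ Ideal.span {c, g} := by
    rw [← Ideal.Quotient.eq_zero_iff_mem]
    exact hmt
  obtain ⟨r, s, hrs⟩ := Ideal.mem_span_pair.mp h1
  obtain ⟨α, β, hαβ⟩ := hgu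
  obtain ⟨q, hq⟩ := hc
  have h2 : c ∣ m • (u * b) := by
    refine ⟨r * u + q * s, ?_⟩
    rw [← mul_smul_comm, ← hrs]
    linear_combination s * hq
  obtain ⟨d, hd⟩ := htf m (u * b) hm h2
  rw [Ideal.Quotient.eq_zero_iff_mem, Ideal.mem_span_pair]
  refine ⟨β * d, α * b, ?_⟩
  linear_combination (-β) * hd + b * hαβ

end Split

section Finite

variable {A B : Type*} [CommRing A] [CommRing B] [Algebra A B]

/-- If `B` is finite over `A[x]` and the ideal `I` contains `g(x)` for a monic polynomial `g`,
then `B / I` is a finite `A`-module. -/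
theorem finite_quotient_of_monic_mem (x : B)
    (hfin : (aeval x : A[X] →ₐ[A] B).toRingHom.Finite) {g : A[X]} (hg : g.Monic) (I : Ideal B)
    (hI : aeval x g ∈ I) : Module.Finite A (B ⧸ I) := by
  -- the composite `A[X] → B → B / I` is finite and factors through `A[X] / (g)`
  let φ : A[X] →+* B ⧸ I := (Ideal.Quotient.mk I).comp (aeval x : A[X] →ₐ[A] B).toRingHom
  have hφ : φ.Finite :=
    (RingHom.Finite.of_surjective _ Ideal.Quotient.mk_surjective).comp hfin
  have hφg : φ g = 0 := Ideal.Quotient.eq_zero_iff_mem.mpr hI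
  let ψ : AdjoinRoot g →+* B ⧸ I := Ideal.Quotient.lift (Ideal.span {g}) φ (by
    intro a ha
    obtain ⟨b, rfl⟩ := Ideal.mem_span_singleton'.mp ha
    rw [map_mul, hφg, mul_zero])
  have hψφ : ψ.comp (AdjoinRoot.mk g) = φ := by
    ext <;> rfl
  have hψ : ψ.Finite := by
    apply RingHom.Finite.of_comp_finite (f := AdjoinRoot.mk g)
    rw [hψφ]
    exact hφ
  have hof : (algebraMap A (AdjoinRoot g)).Finite :=
    RingHom.finite_algebraMap.mpr hg.finite_adjoinRoot
  have hcomp : (ψ.comp (algebraMap A (AdjoinRoot g))).Finite := hψ.comp hof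
  have heq : ψ.comp (algebraMap A (AdjoinRoot g)) = algebraMap A (B ⧸ I) := by
    ext a
    change Ideal.Quotient.mk I (aeval x (C a)) = _
    rw [aeval_C]
    rfl
  rw [heq] at hcomp
  exact RingHom.finite_algebraMap.mp hcomp

/-- Finiteness over the subalgebra `A[x]` gives finiteness of `aeval x`. -/
theorem finite_aeval_of_finite_adjoin (x : B) [Module.Finite (Algebra.adjoin A {x}) B] :
    (aeval x : A[X] →ₐ[A] B).toRingHom.Finite := by
  have h1 : (algebraMap (Algebra.adjoin A {x}) B).Finite :=
    RingHom.finite_algebraMap.mpr inferInstance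
  let θ : A[X] →ₐ[A] Algebra.adjoin A {x} :=
    (aeval x : A[X] →ₐ[A] B).codRestrict (Algebra.adjoin A {x}) (fun p => by
      rw [Algebra.adjoin_singleton_eq_range_aeval]
      exact ⟨p, rfl⟩)
  have hθ : Function.Surjective θ := by
    rintro ⟨y, hy⟩
    rw [Algebra.adjoin_singleton_eq_range_aeval] at hy
    obtain ⟨p, rfl⟩ := hy
    exact ⟨p, rfl⟩
  have h2 : θ.toRingHom.Finite := RingHom.Finite.of_surjective _ hθ
  have h3 : (aeval x : A[X] →ₐ[A] B).toRingHom =
      (algebraMap (Algebra.adjoin A {x}) B).comp θ.toRingHom := by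
    ext <;> rfl
  rw [h3]
  exact h1.comp h2

end Finite

section Package

variable {A : Type*} [CommRing A] [IsLocalRing A]

/-- A polynomial which is a unit constant modulo the maximal ideal takes unit values. -/
theorem isUnit_eval_of_map_eq_C {u : A[X]} {c : A} (hc : IsUnit c)
    (hu : u.map (IsLocalRing.residue A) = C (IsLocalRing.residue A c)) (α : A) :
    IsUnit (u.eval α) := by
  apply IsLocalRing.notMem_maximalIdeal.mp
  rw [← IsLocalRing.residue_eq_zero_iff]
  have h1 : IsLocalRing.residue A (u.eval α) =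
      (u.map (IsLocalRing.residue A)).eval (IsLocalRing.residue A α) := by
    rw [eval_map, eval₂_at_apply]
  rw [h1, hu, eval_C]
  intro h
  exact (IsLocalRing.notMem_maximalIdeal.mpr hc) ((IsLocalRing.residue_eq_zero_iff c).mp h)

variable {B : Type*} [CommRing B] [Algebra A B]

/-- A polynomial which is a unit constant `c` modulo the maximal ideal has value `≡ c` modulo
`𝔪 B` at every point of an `A`-algebra `B`. -/
theorem aeval_sub_mem_map {u : A[X]} {c : A}
    (hu : u.map (IsLocalRing.residue A) = C (IsLocalRing.residue A c)) (x : B) :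
    aeval x u - algebraMap A B c ∈ Ideal.map (algebraMap A B) (IsLocalRing.maximalIdeal A) := by
  have hcoeff : ∀ i, (u - C c).coeff i ∈ IsLocalRing.maximalIdeal A := by
    intro i
    have h1 := congrArg (fun p => p.coeff i) hu
    simp only [coeff_map, coeff_C] at h1
    rw [← IsLocalRing.residue_eq_zero_iff, coeff_sub, map_sub, h1, coeff_C]
    split_ifs <;> simp
  have h2 : aeval x u - algebraMap A B c = aeval x (u - C c) := by
    rw [map_sub, aeval_C]
  rw [h2, as_sum_support_C_mul_X_pow (u - C c), map_sum]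
  refine Ideal.sum_mem _ fun i _ => ?_
  rw [map_mul, aeval_C]
  exact Ideal.mul_mem_right _ _ (Ideal.mem_map_of_mem _ (hcoeff i))

/-- Modulo `𝔪 B` the monic factor lies in `(a)`: `g(x) ∈ (a) + 𝔪 B` whenever `a ∣ (g u)(x)`
and `u` is a unit constant modulo `𝔪`.  Hence `(B / (a, g(x))) ⊗ k = B / (a, 𝔪 B)`. -/
theorem aeval_mem_span_sup_map {g u : A[X]} {c : A} (hc : IsUnit c)
    (hu : u.map (IsLocalRing.residue A) = C (IsLocalRing.residue A c)) (x a : B)
    (ha : a ∣ aeval x (g * u)) :
    aeval x g ∈ Ideal.span {a} ⊔ Ideal.map (algebraMap A B) (IsLocalRing.maximalIdeal A) := by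
  obtain ⟨c', hc'⟩ := hc.exists_right_inv
  have h1 := aeval_sub_mem_map hu x (B := B)
  obtain ⟨q, hq⟩ := ha
  have h2 : aeval x g = a * (q * algebraMap A B c') -
      (aeval x g * algebraMap A B c') * (aeval x u - algebraMap A B c) := by
    have h3 : algebraMap A B c * algebraMap A B c' = 1 := by
      rw [← map_mul, hc', map_one]
    rw [map_mul] at hq
    linear_combination (-(aeval x g)) * h3 + algebraMap A B c' * hq
  rw [h2]
  refine Ideal.sub_mem _ (Ideal.mem_sup_left ?_) (Ideal.mem_sup_right ?_)
  · exact Ideal.mul_mem_right _ _ (Ideal.mem_span_singleton_self a)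
  · exact Ideal.mul_mem_left _ _ h1

/-- Modulo `𝔪 B` the second factor is trivial: `(a, u(x)) + 𝔪 B = B`. -/
theorem span_sup_map_eq_top {u : A[X]} {c : A} (hc : IsUnit c)
    (hu : u.map (IsLocalRing.residue A) = C (IsLocalRing.residue A c)) (x a : B) :
    Ideal.span {a, aeval x u} ⊔ Ideal.map (algebraMap A B) (IsLocalRing.maximalIdeal A) = ⊤ := by
  have h1 := aeval_sub_mem_map hu x (B := B)
  have h2 : algebraMap A B c ∈
      Ideal.span {a, aeval x u} ⊔ Ideal.map (algebraMap A B) (IsLocalRing.maximalIdeal A) := by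
    have h3 : algebraMap A B c = aeval x u - (aeval x u - algebraMap A B c) := by ring
    rw [h3]
    exact Ideal.sub_mem _ (Ideal.mem_sup_left (Ideal.subset_span (Set.mem_insert_of_mem _ rfl)))
      (Ideal.mem_sup_right h1)
  exact Ideal.eq_top_of_isUnit_mem _ h2 (hc.map (algebraMap A B))

/-- Points of `B / a` with values in a domain `R` over `A` at which `x` takes a value coming
from `A` automatically kill `g(x)`. -/
theorem aeval_eq_zero_of_point {g u : A[X]} {c : A} (hc : IsUnit c)
    (hu : u.map (IsLocalRing.residue A) = C (IsLocalRing.residue A c)) (x a : B)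
    (ha : a ∣ aeval x (g * u)) {R : Type*} [CommRing R] [IsDomain R] [Algebra A R]
    (φ : B →ₐ[A] R) (hφa : φ a = 0) (α : A) (hα : φ x = algebraMap A R α) :
    φ (aeval x g) = 0 := by
  obtain ⟨q, hq⟩ := ha
  have h1 : φ (aeval x g) * φ (aeval x u) = 0 := by
    rw [← map_mul, ← map_mul, hq, map_mul, hφa, zero_mul]
  have h2 : φ (aeval x u) = algebraMap A R (u.eval α) := by
    rw [← aeval_algHom_apply, hα, aeval_algebraMap_apply]
    rfl
  have h3 : IsUnit (φ (aeval x u)) := by
    rw [h2]
    exact (isUnit_eval_of_map_eq_C hc hu α).map (algebraMap A R)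
  exact (mul_eq_zero.mp h1).resolve_right h3.ne_zero

/-- `(a, g(x)) + 𝔪 B = (a) + 𝔪 B`: the reduction of `B / (a, g(x))` modulo `𝔪` only depends on
`a` modulo `𝔪 B`. -/
theorem span_pair_sup_map_eq {g u : A[X]} {c : A} (hc : IsUnit c)
    (hu : u.map (IsLocalRing.residue A) = C (IsLocalRing.residue A c)) (x a : B)
    (ha : a ∣ aeval x (g * u)) :
    Ideal.span {a, aeval x g} ⊔ Ideal.map (algebraMap A B) (IsLocalRing.maximalIdeal A) =
      Ideal.span {a} ⊔ Ideal.map (algebraMap A B) (IsLocalRing.maximalIdeal A) := by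
  apply le_antisymm
  · refine sup_le ?_ le_sup_right
    rw [Ideal.span_le]
    intro y hy
    simp only [Set.mem_insert_iff, Set.mem_singleton_iff] at hy
    rcases hy with rfl | rfl
    · exact Ideal.mem_sup_left (Ideal.mem_span_singleton_self _)
    · exact aeval_mem_span_sup_map hc hu x _ ha
  · refine sup_le_sup_right ?_ _
    rw [Ideal.span_singleton_le_iff_mem]
    exact Ideal.subset_span (Set.mem_insert _ _)

end Package

section Regular

variable {A B : Type*} [CommRing A] [CommRing B] [IsDomain B] [Algebra A B] [FaithfulSMul A B]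

/-- Over a domain, "`a` is a non-zero-divisor modulo every `m ≠ 0` of `A`" gives "`B / a` is
`A`-torsion-free". -/
theorem dvd_of_dvd_smul_of_regular (a : B)
    (h : ∀ (m : A) (b : B), m ≠ 0 → algebraMap A B m ∣ a * b → algebraMap A B m ∣ b)
    (m : A) (b : B) (hm : m ≠ 0) (hab : a ∣ m • b) : a ∣ b := by
  obtain ⟨b', hb'⟩ := hab
  obtain ⟨b'', hb''⟩ := h m b' hm ⟨b, by rw [← hb', Algebra.smul_def]⟩
  refine ⟨b'', ?_⟩
  have hm' : algebraMap A B m ≠ 0 := by
    intro h0
    exact hm (FaithfulSMul.algebraMap_injective A B (by rw [h0, map_zero]))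
  apply mul_left_cancel₀ hm'
  rw [← Algebra.smul_def, hb', hb'']
  ring

end Regular

/-- **The finite free direct factor of `B / a`.**  `A` a valuation ring with algebraically closed
fraction field, `B` an `A`-algebra finite over `A[x]`, `a ∈ B` such that `B / a` is
`A`-torsion-free, `G ∈ A[X]` with nonzero reduction and `a ∣ G(x)`.  Then `G = g * u` with `g`
monic, `u` a unit constant modulo `𝔪`, and `T := B / (a, g(x))` is a finite free `A`-module with
`B / a ≃ T × B / (a, u(x))`. -/
theorem exists_finite_free_split {A : Type*} [CommRing A] [IsDomain A] [ValuationRing A]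
    (L : Type*) [Field L] [Algebra A L] [IsFractionRing A L] [IsAlgClosed L]
    {B : Type*} [CommRing B] [Algebra A B] (x : B)
    (hfin : (aeval x : A[X] →ₐ[A] B).toRingHom.Finite)
    (a : B) (htf : ∀ (m : A) (b : B), m ≠ 0 → a ∣ m • b → a ∣ b)
    (G : A[X]) (hG : G.map (IsLocalRing.residue A) ≠ 0) (haG : a ∣ aeval x G) :
    ∃ (g u : A[X]) (c : A), g.Monic ∧ IsUnit c ∧
      u.map (IsLocalRing.residue A) = C (IsLocalRing.residue A c) ∧ G = g * u ∧ IsCoprime g u ∧
      g.natDegree = (G.map (IsLocalRing.residue A)).natDegree ∧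
      Module.Finite A (B ⧸ Ideal.span {a, aeval x g}) ∧
      Module.Free A (B ⧸ Ideal.span {a, aeval x g}) ∧
      Nonempty ((B ⧸ Ideal.span {a}) ≃ₐ[A]
        (B ⧸ Ideal.span {a, aeval x g}) × (B ⧸ Ideal.span {a, aeval x u})) := by
  obtain ⟨g, u, c, hg, hc, hu, hGeq, hcop, hdeg⟩ := exists_monic_mul_eq L G hG
  have hcop' : IsCoprime (aeval x g) (aeval x u) := by
    obtain ⟨α, β, hαβ⟩ := hcop
    exact ⟨aeval x α, aeval x β, by rw [← map_mul, ← map_mul, ← map_add, hαβ, map_one]⟩
  have hdvd : a ∣ aeval x g * aeval x u := by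
    rw [← map_mul, ← hGeq]
    exact haG
  have hfinT : Module.Finite A (B ⧸ Ideal.span {a, aeval x g}) :=
    finite_quotient_of_monic_mem x hfin hg _ (Ideal.subset_span (Set.mem_insert_of_mem _ rfl))
  have hfree : Module.Free A (B ⧸ Ideal.span {a, aeval x g}) :=
    free_of_torsionFree (fun m t hmt => torsionFree_quotient A hcop' hdvd htf m t hmt)
  exact ⟨g, u, c, hg, hc, hu, hGeq, hcop, hdeg, hfinT, hfree,
    ⟨quotientAlgEquivProd A hcop' hdvd⟩⟩

end Weierstrass

end Fermat.Agent.S37
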