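import Mathlib
import Fermat.Agent.S37.Weierstrass
import Fermat.Agent.S37.Conserve
import Fermat.Agent.S37.PtAdd
import Fermat.Agent.S37.PtOccur

/-!
P12 (S37), Tier 2, [WC] Part A: abstract algebra on top of `Weierstrass` / `Conserve` /
`PtMultiset`: the special fibre of the finite free quotient `B ⧸ I` only depends on `I + 𝔪 B`,
and the multiset of `A`-points of the finite free direct factor `T = B / (a, g(x))` of `B / a`.
-/

set_option autoImplicit false

namespace Fermat.Agent.S37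

open Polynomial

namespace WCAlg

/-- The characteristic polynomial of a multiplication map is invariant under algebra
isomorphisms. -/
theorem charpoly_lmul_algEquiv {k T₁ T₂ : Type*} [CommRing k] [CommRing T₁] [CommRing T₂]
    [Algebra k T₁] [Algebra k T₂] [Module.Free k T₁] [Module.Finite k T₁] [Module.Free k T₂]
    [Module.Finite k T₂] (e : T₁ ≃ₐ[k] T₂) (t : T₁) :
    (Algebra.lmul k T₂ (e t)).charpoly = (Algebra.lmul k T₁ t).charpoly := by
  rw [← LinearEquiv.charpoly_conj e.toLinearEquiv (Algebra.lmul k T₁ t)]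
  congr 1
  apply LinearMap.ext
  intro y
  rw [LinearEquiv.conj_apply_apply]
  simp

section DoubleQuot

variable {A B : Type*} [CommRing A] [CommRing B] [Algebra A B] (𝔪 : Ideal A)

/-- `(B ⧸ I) ⧸ 𝔪 (B ⧸ I) ≃ B ⧸ (I + 𝔪 B)`. -/
noncomputable def quotQuotEquiv (I : Ideal B) :
    ((B ⧸ I) ⧸ 𝔪.map (algebraMap A (B ⧸ I))) ≃+* B ⧸ (I ⊔ 𝔪.map (algebraMap A B)) :=
  (Ideal.quotEquivOfEq (show 𝔪.map (algebraMap A (B ⧸ I)) =
      (𝔪.map (algebraMap A B)).map (Ideal.Quotient.mk I) by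
    rw [Ideal.map_map]; rfl)).trans (DoubleQuot.quotQuotEquivQuotSup I (𝔪.map (algebraMap A B)))

theorem quotQuotEquiv_mk (I : Ideal B) (b : B) :
    quotQuotEquiv 𝔪 I (Ideal.Quotient.mk _ (Ideal.Quotient.mk I b)) =
      Ideal.Quotient.mk _ b :=
  rfl

theorem quotQuotEquiv_symm_mk (I : Ideal B) (b : B) :
    (quotQuotEquiv 𝔪 I).symm (Ideal.Quotient.mk _ b) =
      Ideal.Quotient.mk _ (Ideal.Quotient.mk I b) := by
  rw [RingEquiv.symm_apply_eq, quotQuotEquiv_mk]

/-- The reductions modulo `𝔪` of `B ⧸ I` and `B ⧸ I'` agree when `I + 𝔪 B = I' + 𝔪 B`. -/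
noncomputable def redEquiv (I I' : Ideal B)
    (hJ : I ⊔ 𝔪.map (algebraMap A B) = I' ⊔ 𝔪.map (algebraMap A B)) :
    ((B ⧸ I) ⧸ 𝔪.map (algebraMap A (B ⧸ I))) ≃+* ((B ⧸ I') ⧸ 𝔪.map (algebraMap A (B ⧸ I'))) :=
  (quotQuotEquiv 𝔪 I).trans ((Ideal.quotEquivOfEq hJ).trans (quotQuotEquiv 𝔪 I').symm)

theorem redEquiv_mk (I I' : Ideal B)
    (hJ : I ⊔ 𝔪.map (algebraMap A B) = I' ⊔ 𝔪.map (algebraMap A B)) (b : B) :
    redEquiv 𝔪 I I' hJ (Ideal.Quotient.mk _ (Ideal.Quotient.mk I b)) =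
      Ideal.Quotient.mk _ (Ideal.Quotient.mk I' b) := by
  unfold redEquiv
  rw [RingEquiv.trans_apply, RingEquiv.trans_apply, quotQuotEquiv_mk, Ideal.quotEquivOfEq_mk,
    quotQuotEquiv_symm_mk]

/-- `redEquiv` as an isomorphism of `A ⧸ 𝔪`-algebras. -/
noncomputable def redAlgEquiv (I I' : Ideal B)
    (hJ : I ⊔ 𝔪.map (algebraMap A B) = I' ⊔ 𝔪.map (algebraMap A B)) :
    ((B ⧸ I) ⧸ 𝔪.map (algebraMap A (B ⧸ I))) ≃ₐ[A ⧸ 𝔪]
      ((B ⧸ I') ⧸ 𝔪.map (algebraMap A (B ⧸ I'))) :=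
  AlgEquiv.ofRingEquiv (f := redEquiv 𝔪 I I' hJ) (by
    intro c
    obtain ⟨α, rfl⟩ := Ideal.Quotient.mk_surjective c
    rw [Ideal.Quotient.algebraMap_quotient_map_quotient,
      Ideal.Quotient.algebraMap_quotient_map_quotient]
    exact redEquiv_mk 𝔪 I I' hJ (algebraMap A B α))

theorem redAlgEquiv_mk (I I' : Ideal B)
    (hJ : I ⊔ 𝔪.map (algebraMap A B) = I' ⊔ 𝔪.map (algebraMap A B)) (b : B) :
    redAlgEquiv 𝔪 I I' hJ (Ideal.Quotient.mk _ (Ideal.Quotient.mk I b)) =
      Ideal.Quotient.mk _ (Ideal.Quotient.mk I' b) :=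
  redEquiv_mk 𝔪 I I' hJ b

end DoubleQuot

end WCAlg

/-- (A-i) the reduction mod `𝔪` of the charpoly of `h` on a finite free quotient `B ⧸ I` depends
only on `I + 𝔪B`. -/
theorem charpoly_map_residue_eq_of_sup_eq {A B : Type*} [CommRing A] [IsLocalRing A] [CommRing B]
    [Algebra A B] (I I' : Ideal B)
    [Module.Finite A (B ⧸ I)] [Module.Free A (B ⧸ I)] [Module.Finite A (B ⧸ I')]
    [Module.Free A (B ⧸ I')]
    (hJ : I ⊔ Ideal.map (algebraMap A B) (IsLocalRing.maximalIdeal A) =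
      I' ⊔ Ideal.map (algebraMap A B) (IsLocalRing.maximalIdeal A)) (h : B) :
    ((Algebra.lmul A (B ⧸ I) (Ideal.Quotient.mk I h)).charpoly).map (IsLocalRing.residue A) =
      ((Algebra.lmul A (B ⧸ I') (Ideal.Quotient.mk I' h)).charpoly).map
        (IsLocalRing.residue A) := by
  have hfree : Module.Free (A ⧸ IsLocalRing.maximalIdeal A)
      ((B ⧸ I) ⧸ (IsLocalRing.maximalIdeal A).map (algebraMap A (B ⧸ I))) :=
    Conserve.free_quotient _
  have hfin : Module.Finite (A ⧸ IsLocalRing.maximalIdeal A)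
      ((B ⧸ I) ⧸ (IsLocalRing.maximalIdeal A).map (algebraMap A (B ⧸ I))) :=
    Conserve.finite_quotient _
  have hfree' : Module.Free (A ⧸ IsLocalRing.maximalIdeal A)
      ((B ⧸ I') ⧸ (IsLocalRing.maximalIdeal A).map (algebraMap A (B ⧸ I'))) :=
    Conserve.free_quotient _
  have hfin' : Module.Finite (A ⧸ IsLocalRing.maximalIdeal A)
      ((B ⧸ I') ⧸ (IsLocalRing.maximalIdeal A).map (algebraMap A (B ⧸ I'))) :=
    Conserve.finite_quotient _
  have h1 := charpoly_lmul_quotient (A := A) (T := B ⧸ I) (IsLocalRing.maximalIdeal A)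
    (Ideal.Quotient.mk I h)
  have h2 := charpoly_lmul_quotient (A := A) (T := B ⧸ I') (IsLocalRing.maximalIdeal A)
    (Ideal.Quotient.mk I' h)
  change ((Algebra.lmul A (B ⧸ I) (Ideal.Quotient.mk I h)).charpoly).map
      (Ideal.Quotient.mk (IsLocalRing.maximalIdeal A)) =
    ((Algebra.lmul A (B ⧸ I') (Ideal.Quotient.mk I' h)).charpoly).map
      (Ideal.Quotient.mk (IsLocalRing.maximalIdeal A))
  rw [← h1, ← h2]
  rw [← WCAlg.redAlgEquiv_mk (IsLocalRing.maximalIdeal A) I I' hJ h]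
  exact (WCAlg.charpoly_lmul_algEquiv _ _).symm

/-- Invariance of the special points: the multiset of `k`-points obtained by reducing the
`A`-points of a finite free quotient `B ⧸ I` depends only on `I + 𝔪B`. -/
theorem map_residue_points_eq_of_sup_eq {A B : Type*} [CommRing A] [IsLocalRing A] [CommRing B]
    [Algebra A B] (I I' : Ideal B)
    [Module.Finite A (B ⧸ I)] [Module.Free A (B ⧸ I)] [Module.Finite A (B ⧸ I')]
    [Module.Free A (B ⧸ I')]
    (hJ : I ⊔ Ideal.map (algebraMap A B) (IsLocalRing.maximalIdeal A) =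
      I' ⊔ Ideal.map (algebraMap A B) (IsLocalRing.maximalIdeal A))
    (M M' : Multiset (B →ₐ[A] A))
    (hM : ∀ h : B, (Algebra.lmul A (B ⧸ I) (Ideal.Quotient.mk I h)).charpoly =
      (M.map fun φ => (X - C (φ h) : A[X])).prod)
    (hM' : ∀ h : B, (Algebra.lmul A (B ⧸ I') (Ideal.Quotient.mk I' h)).charpoly =
      (M'.map fun φ => (X - C (φ h) : A[X])).prod) :
    M.map (fun φ => (Algebra.ofId A (IsLocalRing.ResidueField A)).comp φ) =
      M'.map (fun φ => (Algebra.ofId A (IsLocalRing.ResidueField A)).comp φ) := by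
  have hsurj : Function.Surjective (algebraMap A (IsLocalRing.ResidueField A)) :=
    IsLocalRing.residue_surjective
  apply multiset_eq_of_prod_X_sub_C_eq hsurj
  intro t
  rw [← map_prod_X_sub_C_eq_prod_comp M t, ← map_prod_X_sub_C_eq_prod_comp M' t, ← hM t, ← hM' t]
  exact charpoly_map_residue_eq_of_sup_eq I I' hJ t

/-- (A-iii) main abstract theorem: the multiset of `A`-points of the finite free direct factor
`T = B / (a, g(x))` of `B / a`. -/
theorem exists_chart_points {A : Type*} [CommRing A] [IsDomain A] [ValuationRing A]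
    (L : Type*) [Field L] [Algebra A L] [IsFractionRing A L] [IsAlgClosed L]
    {B : Type*} [CommRing B] [Algebra A B] (x : B)
    (hfin : (aeval x : A[X] →ₐ[A] B).toRingHom.Finite)
    (a : B) (htf : ∀ (m : A) (b : B), m ≠ 0 → a ∣ m • b → a ∣ b)
    (G : A[X]) (hG : G.map (IsLocalRing.residue A) ≠ 0) (haG : a ∣ aeval x G) :
    ∃ (g u : A[X]) (_ : Module.Finite A (B ⧸ Ideal.span {a, aeval x g}))
      (_ : Module.Free A (B ⧸ Ideal.span {a, aeval x g})) (M : Multiset (B →ₐ[A] A)),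
      g.Monic ∧ G = g * u ∧ (∀ α : A, IsUnit (u.eval α)) ∧
      Ideal.span {a, aeval x g} ⊔ Ideal.map (algebraMap A B) (IsLocalRing.maximalIdeal A) =
        Ideal.span {a} ⊔ Ideal.map (algebraMap A B) (IsLocalRing.maximalIdeal A) ∧
      (∀ φ ∈ M, φ a = 0 ∧ φ (aeval x g) = 0) ∧
      (∀ h : B, (Algebra.lmul A (B ⧸ Ideal.span {a, aeval x g})
          (Ideal.Quotient.mk _ h)).charpoly = (M.map fun φ => (X - C (φ h) : A[X])).prod) ∧
      (∀ ψ : B →ₐ[A] IsLocalRing.ResidueField A, ψ a = 0 →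
        ψ ∈ M.map fun φ => (Algebra.ofId A (IsLocalRing.ResidueField A)).comp φ) := by
  obtain ⟨g, u, c, hg, hc, hu, hGeq, -, -, hfinT, hfreeT, -⟩ :=
    Weierstrass.exists_finite_free_split L x hfin a htf G hG haG
  have haG' : a ∣ aeval x (g * u) := hGeq ▸ haG
  have hsurj : Function.Surjective (algebraMap A (IsLocalRing.ResidueField A)) :=
    IsLocalRing.residue_surjective
  have hsup := Weierstrass.span_pair_sup_map_eq hc hu x a haG'
  obtain ⟨M₀, -, hM₀⟩ := exists_multiset_charpoly_lmul_of_isIntegrallyClosed (A := A)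
    (T := B ⧸ Ideal.span {a, aeval x g}) L
  set π : B →ₐ[A] (B ⧸ Ideal.span {a, aeval x g}) := Ideal.Quotient.mkₐ A _ with hπ
  have hπa : π a = 0 :=
    Ideal.Quotient.eq_zero_iff_mem.mpr (Ideal.subset_span (Set.mem_insert _ _))
  have hπg : π (aeval x g) = 0 :=
    Ideal.Quotient.eq_zero_iff_mem.mpr (Ideal.subset_span (Set.mem_insert_of_mem _ rfl))
  have hprod : ∀ h : B, (Algebra.lmul A (B ⧸ Ideal.span {a, aeval x g})
      (Ideal.Quotient.mk _ h)).charpoly =
      ((M₀.map fun φ => φ.comp π).map fun φ => (X - C (φ h) : A[X])).prod := by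
    intro h
    rw [hM₀, Multiset.map_map]
    rfl
  refine ⟨g, u, hfinT, hfreeT, M₀.map fun φ => φ.comp π, hg, hGeq,
    fun α => Weierstrass.isUnit_eval_of_map_eq_C hc hu α, hsup, ?_, hprod, ?_⟩
  · intro φ hφ
    obtain ⟨φ₀, -, rfl⟩ := Multiset.mem_map.mp hφ
    exact ⟨by rw [AlgHom.comp_apply, hπa, map_zero], by rw [AlgHom.comp_apply, hπg, map_zero]⟩
  · intro ψ hψa
    -- `ψ` kills `(a) + 𝔪 B = (a, g(x)) + 𝔪 B`, hence factors through `T`
    have hker : Ideal.span {a} ⊔ Ideal.map (algebraMap A B) (IsLocalRing.maximalIdeal A) ≤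
        RingHom.ker (ψ : B →+* IsLocalRing.ResidueField A) := by
      refine sup_le ?_ ?_
      · rw [Ideal.span_singleton_le_iff_mem]
        exact hψa
      · rw [Ideal.map_le_iff_le_comap]
        intro m hm
        change ψ (algebraMap A B m) = 0
        rw [AlgHom.commutes]
        exact (IsLocalRing.residue_eq_zero_iff m).mpr hm
    have hψI : ∀ b ∈ Ideal.span {a, aeval x g}, ψ b = 0 := by
      intro b hb
      have h1 : b ∈ Ideal.span {a, aeval x g} ⊔
          Ideal.map (algebraMap A B) (IsLocalRing.maximalIdeal A) := Ideal.mem_sup_left hb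
      rw [hsup] at h1
      exact hker h1
    set χ : (B ⧸ Ideal.span {a, aeval x g}) →ₐ[A] IsLocalRing.ResidueField A :=
      Ideal.Quotient.liftₐ _ ψ hψI with hχ
    have hχπ : χ.comp π = ψ := by
      ext b
      rfl
    rw [← hχπ]
    apply comp_mem_of_charpoly_map hsurj π
    intro h
    rw [← map_prod_X_sub_C_eq_prod_comp, ← hprod h]
    rfl

end Fermat.Agent.S37
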