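import Fermat.Agent.S37.ChartTrans
import Fermat.Agent.S37.WCAlg
import Fermat.Agent.S37.GenFibre
import Fermat.Agent.S37.ChartGen

set_option autoImplicit false
set_option linter.unusedSectionVars false

/-!
# S37 (Tier 2, [WC]): weak conservation on a chart model

For a chart model `𝔅 ⊂ F` (`IsChartModel A x 𝔅`, see `ChartModel.lean`) and a point
`ψ : 𝔅 →+* k` of the special fibre, `Zsum hF A 𝔅 ψ a` counts the zeros of `a` among the places of
`F` reducing to `ψ`.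

* `wc1` : for `a, a' ∈ 𝔅 ∖ 𝔪𝔅` with `a - a' ∈ 𝔪𝔅`: `Zsum ψ a = Zsum ψ a'`;
* `wc2` : for `a ∈ 𝔅 ∖ 𝔪𝔅` with `ψ a = 0`: some place reducing to `ψ` is a zero of `a`.

Proof: Weierstrass preparation gives a finite free `A`-algebra `T = 𝔅 ⧸ (a, g(x))` with
`T ⊗ k = 𝔅 ⧸ ((a) + 𝔪𝔅)` (`WCAlg.lean`).  Its multiset `M` of `A`-points (conservation,
`Conserve.lean`) is identified with `∑_P ord_P(a) • [ev_P]` by the generic fibre product formula
(`GenFibre.lean`, `ChartGen.lean`) and uniqueness (`PtMultiset.lean`); its reduction is the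
multiset of `k`-points of `T ⊗ k`, which depends only on `a` modulo `𝔪𝔅` and contains every
`k`-point (`PtOccur.lean`).
-/

namespace Fermat.Agent.S37

open AlgebraicCurve Polynomial

variable {Ω F : Type*} [Field Ω] [Field F] [Algebra Ω F] [IsAlgClosed Ω] [CharZero Ω]

namespace WeakCons

section

variable (hF : IsFF Ω F) (A : ValuationSubring Ω) {x : F} {𝔅 : Subring F} [ChartIncl A 𝔅]

/-- Evaluation at a place at which `𝔅` is `A`-integral, as an `A`-algebra hom `𝔅 → A`. -/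
noncomputable def evHomA (P : Place Ω F) (h : 𝔅 ≤ (aInt hF A P).toSubring) : 𝔅 →ₐ[A] A where
  toFun b := ⟨ev hF P ⟨(b : F), (h b.2).1⟩, (h b.2).2⟩
  map_one' := Subtype.ext (map_one (ev hF P))
  map_mul' b c := Subtype.ext (map_mul (ev hF P) ⟨(b : F), (h b.2).1⟩ ⟨(c : F), (h c.2).1⟩)
  map_zero' := Subtype.ext (map_zero (ev hF P))
  map_add' b c := Subtype.ext (map_add (ev hF P) ⟨(b : F), (h b.2).1⟩ ⟨(c : F), (h c.2).1⟩)
  commutes' α := Subtype.ext (ev_algebraMap hF P (α : Ω))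

theorem coe_evHomA (P : Place Ω F) (h : 𝔅 ≤ (aInt hF A P).toSubring) (b : 𝔅) :
    ((evHomA hF A P h b : A) : Ω) = evF hF P (b : F) := by
  rw [evF_of_mem hF P (h b.2).1]
  rfl

theorem residue_evHomA (P : Place Ω F) (h : 𝔅 ≤ (aInt hF A P).toSubring) (b : 𝔅) :
    IsLocalRing.residue A (evHomA hF A P h b) = resEv hF A P ⟨(b : F), h b.2⟩ := rfl

theorem le_of_x_mem (hM : IsChartModel A x 𝔅) (P : Place Ω F)
    (hx : x ∈ P.toValuationSubring) : 𝔅 ≤ P.toValuationSubring.toSubring :=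
  fun b hb => mem_of_isIntegral_adjoin P hx (hM.integral b hb)

end

end WeakCons

namespace WeakCons

section Pt

variable (hF : IsFF Ω F) (A : ValuationSubring Ω) {x : F} {𝔅 : Subring F} [ChartIncl A 𝔅]

/-- The multiset of `Ω`-points of `𝔅` attached to a finite set of places with exponents. -/
noncomputable def ptMultiset (hM : IsChartModel A x 𝔅) (Z : Finset (Place Ω F))
    (hZ : ∀ P ∈ Z, x ∈ P.toValuationSubring) (e : Place Ω F → ℕ) : Multiset (𝔅 →ₐ[A] Ω) :=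
  ∑ P ∈ Z.attach,
    e P.1 • ({evHom hF A P.1 (le_of_x_mem A hM P.1 (hZ P.1 P.2))} : Multiset (𝔅 →ₐ[A] Ω))

theorem prod_map_ptMultiset (hM : IsChartModel A x 𝔅) (Z : Finset (Place Ω F))
    (hZ : ∀ P ∈ Z, x ∈ P.toValuationSubring) (e : Place Ω F → ℕ) (h : 𝔅) :
    ((ptMultiset hF A hM Z hZ e).map fun θ => (X - C (θ h) : Polynomial Ω)).prod =
      ∏ P ∈ Z, (X - C (evF hF P (h : F))) ^ e P := by
  unfold ptMultiset
  rw [← Multiset.coe_mapAddMonoidHom, map_sum, Multiset.prod_sum,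
    ← Finset.prod_attach Z (fun P => (X - C (evF hF P (h : F))) ^ e P)]
  refine Finset.prod_congr rfl fun P _ => ?_
  rw [Multiset.coe_mapAddMonoidHom, Multiset.map_nsmul, Multiset.prod_nsmul,
    Multiset.map_singleton, Multiset.prod_singleton, evHom_apply]

theorem countP_ptMultiset (hM : IsChartModel A x 𝔅) (Z : Finset (Place Ω F))
    (hZ : ∀ P ∈ Z, x ∈ P.toValuationSubring) (e : Place Ω F → ℕ)
    (Q : (𝔅 →ₐ[A] Ω) → Prop) [DecidablePred Q] :
    (ptMultiset hF A hM Z hZ e).countP Q =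
      ∑ P ∈ Z.attach,
        if Q (evHom hF A P.1 (le_of_x_mem A hM P.1 (hZ P.1 P.2))) then e P.1 else 0 := by
  unfold ptMultiset
  rw [← Multiset.coe_countPAddMonoidHom, map_sum]
  refine Finset.sum_congr rfl fun P _ => ?_
  rw [Multiset.coe_countPAddMonoidHom, Multiset.countP_nsmul]
  split_ifs with hQ
  · rw [← Multiset.cons_zero, Multiset.countP_cons_of_pos _ hQ, Multiset.countP_zero, zero_add,
      mul_one]
  · rw [← Multiset.cons_zero, Multiset.countP_cons_of_neg _ hQ, Multiset.countP_zero, mul_zero]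

end Pt

end WeakCons

namespace WeakCons

section Core

variable (hF : IsFF Ω F) {A : ValuationSubring Ω} {x : F} {𝔅 : Subring F} [ChartIncl A 𝔅]

/-- At a place where `𝔅` is `A`-integral, a zero of `a` is a zero of `w = g(x)` of at least the
same order (`G(x) = g(x) u(x) ∈ a𝔅` and `u(x)` is a unit at such places). -/
theorem ord_le_of_dvd (hM : IsChartModel A x 𝔅) {a : 𝔅} (ha0 : (a : F) ≠ 0) {g u : Polynomial A}
    (hu : ∀ α : A, IsUnit (u.eval α))
    (haG : a ∣ aeval (⟨x, hM.x_mem⟩ : 𝔅) (g * u))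
    (hw0 : ((aeval (⟨x, hM.x_mem⟩ : 𝔅) g : 𝔅) : F) ≠ 0)
    (P : Place Ω F) (h : 𝔅 ≤ (aInt hF A P).toSubring) (hpos : 0 < P.ord (a : F)) :
    0 < P.ord ((aeval (⟨x, hM.x_mem⟩ : 𝔅) g : 𝔅) : F) ∧
      P.ord (a : F) ≤ P.ord ((aeval (⟨x, hM.x_mem⟩ : 𝔅) g : 𝔅) : F) := by
  set x𝔅 : 𝔅 := ⟨x, hM.x_mem⟩ with hx𝔅
  set w : 𝔅 := aeval x𝔅 g with hw
  set v : 𝔅 := aeval x𝔅 u with hv
  set φ : 𝔅 →ₐ[A] A := evHomA hF A P h with hφ
  have hmemO : ∀ b : 𝔅, (b : F) ∈ P.toValuationSubring := fun b => (h b.2).1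
  -- `ev = 0 ↔ 0 < ord` for elements of `𝔅`
  have hev : ∀ b : 𝔅, (b : F) ≠ 0 → (φ b = 0 ↔ 0 < P.ord (b : F)) := by
    intro b hb0
    have h1 : (⟨(b : F), hmemO b⟩ : P.toValuationSubring) ≠ 0 := fun h0 =>
      hb0 (congrArg Subtype.val h0)
    rw [← ev_eq_zero_iff_ord_pos hF P h1]
    constructor
    · intro h0
      exact congrArg Subtype.val h0
    · intro h0
      exact Subtype.ext h0
  have hφa : φ a = 0 := (hev a ha0).mpr hpos
  obtain ⟨b', hb'⟩ := haG
  set r : A := φ x𝔅 with hr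
  have h1 : φ (aeval x𝔅 (g * u)) = 0 := by rw [hb', map_mul, hφa, zero_mul]
  have h2 : φ (aeval x𝔅 (g * u)) = g.eval r * u.eval r := by
    rw [← Polynomial.aeval_algHom_apply, Polynomial.coe_aeval_eq_eval, Polynomial.eval_mul]
  have hur : u.eval r ≠ 0 := (hu r).ne_zero
  have hgr : g.eval r = 0 := by
    rw [h2] at h1
    exact (mul_eq_zero.mp h1).resolve_right hur
  have hφw : φ w = 0 := by
    rw [hw, ← Polynomial.aeval_algHom_apply, Polynomial.coe_aeval_eq_eval]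
    exact hgr
  have hφv : φ v ≠ 0 := by
    rw [hv, ← Polynomial.aeval_algHom_apply, Polynomial.coe_aeval_eq_eval]
    exact hur
  have hwpos : 0 < P.ord (w : F) := (hev w hw0).mp hφw
  have hv0 : (v : F) ≠ 0 := by
    intro h0
    apply hφv
    have : v = 0 := Subtype.ext h0
    rw [this, map_zero]
  have hvord : P.ord (v : F) = 0 := by
    have h3 : ¬ 0 < P.ord (v : F) := fun hp => hφv ((hev v hv0).mpr hp)
    have h4 : 0 ≤ P.ord (v : F) := (S24.PlacesBasic.mem_iff_ord_nonneg P hv0).mp (hmemO v)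
    omega
  refine ⟨hwpos, ?_⟩
  -- `a * b' = w * v`
  have heq : (a : F) * (b' : F) = (w : F) * (v : F) := by
    have : a * b' = w * v := by rw [← hb', map_mul]
    exact congrArg Subtype.val this
  have hb'0 : (b' : F) ≠ 0 := by
    intro h0
    rw [h0, mul_zero] at heq
    exact mul_ne_zero hw0 hv0 heq.symm
  have h5 := congrArg P.ord heq
  rw [Place.ord_mul P ha0 hb'0, Place.ord_mul P hw0 hv0, hvord, add_zero] at h5
  have h6 : 0 ≤ P.ord (b' : F) := (S24.PlacesBasic.mem_iff_ord_nonneg P hb'0).mp (hmemO b')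
  omega

end Core

end WeakCons

namespace WeakCons

section Core

variable (hF : IsFF Ω F) {A : ValuationSubring Ω} {x : F} {𝔅 : Subring F} [ChartIncl A 𝔅]

open Classical in
/-- The core of weak conservation: for `a ∈ 𝔅 ∖ 𝔪𝔅` there is a finite free quotient `𝔅 ⧸ I`
with `I + 𝔪𝔅 = (a) + 𝔪𝔅`, whose multiset `M` of `A`-points has the property that the
multiplicity of a `k`-point `ψ` in the reduction of `M` is the number of zeros of `a` among the
places reducing to `ψ`. -/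
theorem exists_count_eq_Zsum (hM : IsChartModel A x 𝔅) (a : 𝔅) (hna : ¬ InMaxMul A 𝔅 (a : F)) :
    ∃ (I : Ideal 𝔅) (_ : Module.Finite A (𝔅 ⧸ I)) (_ : Module.Free A (𝔅 ⧸ I))
      (M : Multiset (𝔅 →ₐ[A] A)),
      I ⊔ Ideal.map (algebraMap A 𝔅) (IsLocalRing.maximalIdeal A) =
        Ideal.span {a} ⊔ Ideal.map (algebraMap A 𝔅) (IsLocalRing.maximalIdeal A) ∧
      (∀ h : 𝔅, (Algebra.lmul A (𝔅 ⧸ I) (Ideal.Quotient.mk I h)).charpoly =
        (M.map fun φ => (X - C (φ h) : Polynomial A)).prod) ∧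
      (∀ ψ : 𝔅 →ₐ[A] IsLocalRing.ResidueField A, ψ a = 0 →
        ψ ∈ M.map fun φ => (Algebra.ofId A (IsLocalRing.ResidueField A)).comp φ) ∧
      (∀ ψ : 𝔅 →ₐ[A] IsLocalRing.ResidueField A,
        ((Multiset.count ψ
          (M.map fun φ => (Algebra.ofId A (IsLocalRing.ResidueField A)).comp φ) : ℕ) : ℤ) =
          Zsum hF A 𝔅 (ψ : 𝔅 →+* IsLocalRing.ResidueField A) (a : F)) := by
  obtain ⟨G, hG, haG⟩ := exists_poly_chart hM hna
  obtain ⟨g, u, hfin, hfree, M, hg, hGgu, hu, hsup, hMa, hMprod, hMk⟩ :=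
    exists_chart_points Ω (⟨x, hM.x_mem⟩ : 𝔅) (finite_aeval_chart hM) a
      (dvd_of_dvd_smul_chart hM hna) G hG haG
  set x𝔅 : 𝔅 := ⟨x, hM.x_mem⟩ with hx𝔅
  set w : 𝔅 := aeval x𝔅 g with hw
  refine ⟨Ideal.span {a, w}, hfin, hfree, M, hsup, hMprod, hMk, fun ψ => ?_⟩
  have ha0 : (a : F) ≠ 0 := ne_zero_of_not_inMaxMul hna
  have hw0 : (w : F) ≠ 0 := by
    rw [hw, coe_aeval_chart]
    intro h0
    have h1 := (transcendental_iff.mp hM.x_transcendental) _ h0
    exact (hg.map A.subtype).ne_zero h1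
  have haG' : a ∣ aeval x𝔅 (g * u) := hGgu ▸ haG
  -- the finite set of common zeros and the exponents
  set Z : Finset (Place Ω F) := (finite_Zaw hF x (a := (a : F)) (w := (w : F)) ha0).toFinset
    with hZdef
  have hZmem : ∀ P, P ∈ Z ↔ x ∈ P.toValuationSubring ∧ 0 < P.ord (a : F) ∧ 0 < P.ord (w : F) :=
    fun P => Set.Finite.mem_toFinset _
  have hZx : ∀ P ∈ Z, x ∈ P.toValuationSubring := fun P hP => ((hZmem P).mp hP).1
  set e : Place Ω F → ℕ := fun P => (min (P.ord (a : F)) (P.ord (w : F))).toNat with he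
  -- identification of the `Ω`-points
  have hMZ : M.map (fun φ => (Algebra.ofId A Ω).comp φ) = ptMultiset hF A hM Z hZx e := by
    apply multiset_eq_of_prod_X_sub_C_eq_of_isFractionRing
    intro h
    rw [prod_map_ptMultiset, ← map_prod_X_sub_C_eq_prod_comp, ← hMprod h]
    exact charpoly_map_eq_prod_zaw hF hM a w ha0 hw0 h
  -- the set of places reducing to `ψ`
  set ψ' : 𝔅 →+* IsLocalRing.ResidueField A := (ψ : 𝔅 →+* IsLocalRing.ResidueField A) with hψ'
  -- (iv) zeros of `a` in `Zset ψ` lie in `Z`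
  have hZsetZ : ∀ P, P ∈ Zset hF A 𝔅 ψ' → P.ord (a : F) ≠ 0 → P ∈ Z := by
    rintro P ⟨h, hres⟩ hne
    have hnn : 0 ≤ P.ord (a : F) :=
      (S24.PlacesBasic.mem_iff_ord_nonneg P ha0).mp (h a.2).1
    have hpos : 0 < P.ord (a : F) := lt_of_le_of_ne hnn (Ne.symm hne)
    exact (hZmem P).mpr ⟨(h x𝔅.2).1, hpos, (ord_le_of_dvd hF hM ha0 hu haG' hw0 P h hpos).1⟩
  -- (iii) the exponent at places of `Z ∩ Zset ψ`
  have hexp : ∀ P ∈ Z, P ∈ Zset hF A 𝔅 ψ' → (e P : ℤ) = P.ord (a : F) := by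
    rintro P hPZ ⟨h, hres⟩
    have hpos := ((hZmem P).mp hPZ).2.1
    have hle := (ord_le_of_dvd hF hM ha0 hu haG' hw0 P h hpos).2
    rw [he]
    simp only
    rw [min_eq_left hle, Int.toNat_of_nonneg hpos.le]
  -- (ii) the predicate on `Ω`-points
  set Q : (𝔅 →ₐ[A] Ω) → Prop := fun θ =>
    ∃ φ : 𝔅 →ₐ[A] A, (Algebra.ofId A Ω).comp φ = θ ∧
      ψ = (Algebra.ofId A (IsLocalRing.ResidueField A)).comp φ with hQ
  have hinj : ∀ φ φ' : 𝔅 →ₐ[A] A,
      (Algebra.ofId A Ω).comp φ' = (Algebra.ofId A Ω).comp φ → φ' = φ := by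
    intro φ φ' hφ
    ext b
    have := congrArg (fun θ : 𝔅 →ₐ[A] Ω => θ b) hφ
    simpa [Algebra.ofId_apply] using this
  have hQincl : ∀ φ : 𝔅 →ₐ[A] A, Q ((Algebra.ofId A Ω).comp φ) ↔
      ψ = (Algebra.ofId A (IsLocalRing.ResidueField A)).comp φ := by
    intro φ
    constructor
    · rintro ⟨φ', hφ', hψφ'⟩
      rw [← hinj φ φ' hφ']
      exact hψφ'
    · intro h
      exact ⟨φ, rfl, h⟩
  have hQpt : ∀ (P : Place Ω F) (hP : P ∈ Z),
      Q (evHom hF A P (le_of_x_mem A hM P (hZx P hP))) ↔ P ∈ Zset hF A 𝔅 ψ' := by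
    intro P hP
    constructor
    · rintro ⟨φ, hφ, hψφ⟩
      have hval : ∀ b : 𝔅, evF hF P (b : F) = ((φ b : A) : Ω) := by
        intro b
        rw [← evHom_apply hF A P (le_of_x_mem A hM P (hZx P hP)) b, ← hφ]
        rfl
      have h : 𝔅 ≤ (aInt hF A P).toSubring := by
        intro b hb
        refine (mem_aInt_iff_evF hF A P).mpr ⟨le_of_x_mem A hM P (hZx P hP) hb, ?_⟩
        rw [hval ⟨b, hb⟩]
        exact (φ ⟨b, hb⟩).2
      refine ⟨h, fun b => ?_⟩
      rw [resEv_mk, hψ', hψφ]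
      show _ = algebraMap A (IsLocalRing.ResidueField A) (φ b)
      rw [IsLocalRing.ResidueField.algebraMap_eq]
      congr 1
      apply Subtype.ext
      show ev hF P ⟨(b : F), _⟩ = ((φ b : A) : Ω)
      rw [← hval b, evF_of_mem hF P (h b.2).1]
    · rintro ⟨h, hres⟩
      refine ⟨evHomA hF A P h, ?_, ?_⟩
      · ext b
        show ((evHomA hF A P h b : A) : Ω) = _
        rw [coe_evHomA, evHom_apply]
      · ext b
        show ψ b = algebraMap A (IsLocalRing.ResidueField A) (evHomA hF A P h b)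
        rw [IsLocalRing.ResidueField.algebraMap_eq, residue_evHomA]
        exact (hres b).symm
  -- counting
  have hcount : Multiset.count ψ
      (M.map fun φ => (Algebra.ofId A (IsLocalRing.ResidueField A)).comp φ) =
      ∑ P ∈ Z.attach, if P.1 ∈ Zset hF A 𝔅 ψ' then e P.1 else 0 := by
    rw [Multiset.count_map]
    have h1 : Multiset.countP Q (M.map fun φ => (Algebra.ofId A Ω).comp φ) =
        Multiset.card (M.filter fun φ =>
          ψ = (Algebra.ofId A (IsLocalRing.ResidueField A)).comp φ) := by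
      rw [Multiset.countP_map]
      congr 1
      apply Multiset.filter_congr
      intro φ _
      exact hQincl φ
    rw [← h1, hMZ, countP_ptMultiset]
    refine Finset.sum_congr rfl fun P _ => ?_
    rw [if_congr (hQpt P.1 P.2) rfl rfl]
  rw [hcount]
  push_cast
  rw [Finset.sum_attach Z (fun P => if P ∈ Zset hF A 𝔅 ψ' then (e P : ℤ) else 0)]
  unfold Zsum
  rw [finsum_mem_eq_sum_of_inter_support_eq (t := Z.filter (fun P => P ∈ Zset hF A 𝔅 ψ'))]
  · rw [Finset.sum_filter]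
    refine Finset.sum_congr rfl fun P hP => ?_
    split_ifs with hPs
    · exact hexp P hP hPs
    · rfl
  · ext P
    simp only [Set.mem_inter_iff, Function.mem_support, Finset.coe_filter, Set.mem_ofPred_eq]
    constructor
    · rintro ⟨hPs, hne⟩
      exact ⟨⟨hZsetZ P hPs hne, hPs⟩, hne⟩
    · rintro ⟨⟨_, hPs⟩, hne⟩
      exact ⟨hPs, hne⟩

end Core

end WeakCons

/-- **(WC1) Weak conservation.** The number of zeros of `a ∈ 𝔅 ∖ 𝔪𝔅` among the places reducing
to the point `ψ` of the special fibre depends only on `a` modulo `𝔪𝔅`. -/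
theorem wc1 (hF : IsFF Ω F) {A : ValuationSubring Ω} {x : F} {𝔅 : Subring F}
    (hM : IsChartModel A x 𝔅) (ψ : 𝔅 →+* IsLocalRing.ResidueField A)
    (hψ : ∀ α : A, ψ ⟨algebraMap Ω F (α : Ω), hM.algebraMap_mem α⟩ = IsLocalRing.residue A α)
    {a a' : F} (ha : a ∈ 𝔅) (ha' : a' ∈ 𝔅) (hna : ¬ InMaxMul A 𝔅 a) (hna' : ¬ InMaxMul A 𝔅 a')
    (hd : InMaxMul A 𝔅 (a - a')) :
    Zsum hF A 𝔅 ψ a = Zsum hF A 𝔅 ψ a' := by
  classical
  have := hM.chartIncl
  obtain ⟨I, hfin, hfree, M, hsup, hMprod, -, hcount⟩ :=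
    WeakCons.exists_count_eq_Zsum hF hM ⟨a, ha⟩ hna
  obtain ⟨I', hfin', hfree', M', hsup', hMprod', -, hcount'⟩ :=
    WeakCons.exists_count_eq_Zsum hF hM ⟨a', ha'⟩ hna'
  have hJ : I ⊔ Ideal.map (algebraMap A 𝔅) (IsLocalRing.maximalIdeal A) =
      I' ⊔ Ideal.map (algebraMap A 𝔅) (IsLocalRing.maximalIdeal A) := by
    rw [hsup, hsup']
    exact span_sup_map_eq_of_inMaxMul (a := (⟨a, ha⟩ : 𝔅)) (a' := ⟨a', ha'⟩) hd
  have hN := map_residue_points_eq_of_sup_eq I I' hJ M M' hMprod hMprod'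
  have hψ' : ∀ α : A, ψ (algebraMap A 𝔅 α) = IsLocalRing.residue A α := fun α => by
    rw [algebraMap_chart_eq]
    exact hψ α
  have h1 : ((Multiset.count (chartPoint ψ hψ')
      (M.map fun φ => (Algebra.ofId A (IsLocalRing.ResidueField A)).comp φ) : ℕ) : ℤ) =
      Zsum hF A 𝔅 ψ a := hcount (chartPoint ψ hψ')
  have h2 : ((Multiset.count (chartPoint ψ hψ')
      (M'.map fun φ => (Algebra.ofId A (IsLocalRing.ResidueField A)).comp φ) : ℕ) : ℤ) =
      Zsum hF A 𝔅 ψ a' := hcount' (chartPoint ψ hψ')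
  rw [hN] at h1
  exact h1.symm.trans h2

/-- **(WC2)** If `a ∈ 𝔅 ∖ 𝔪𝔅` vanishes at the point `ψ` of the special fibre, then `a` has a zero
at some place reducing to `ψ`. -/
theorem wc2 (hF : IsFF Ω F) {A : ValuationSubring Ω} {x : F} {𝔅 : Subring F}
    (hM : IsChartModel A x 𝔅) (ψ : 𝔅 →+* IsLocalRing.ResidueField A)
    (hψ : ∀ α : A, ψ ⟨algebraMap Ω F (α : Ω), hM.algebraMap_mem α⟩ = IsLocalRing.residue A α)
    {a : F} (ha : a ∈ 𝔅) (hna : ¬ InMaxMul A 𝔅 a) (h0 : ψ ⟨a, ha⟩ = 0) :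
    ∃ P ∈ Zset hF A 𝔅 ψ, 0 < P.ord a := by
  classical
  have := hM.chartIncl
  obtain ⟨I, hfin, hfree, M, -, -, hMk, hcount⟩ :=
    WeakCons.exists_count_eq_Zsum hF hM ⟨a, ha⟩ hna
  have hψ' : ∀ α : A, ψ (algebraMap A 𝔅 α) = IsLocalRing.residue A α := fun α => by
    rw [algebraMap_chart_eq]
    exact hψ α
  have hmem := hMk (chartPoint ψ hψ') (by rw [chartPoint_apply]; exact h0)
  have h1 : ((Multiset.count (chartPoint ψ hψ')
      (M.map fun φ => (Algebra.ofId A (IsLocalRing.ResidueField A)).comp φ) : ℕ) : ℤ) =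
      Zsum hF A 𝔅 ψ a := hcount (chartPoint ψ hψ')
  have hpos : 0 < Multiset.count (chartPoint ψ hψ')
      (M.map fun φ => (Algebra.ofId A (IsLocalRing.ResidueField A)).comp φ) :=
    Multiset.count_pos.mpr hmem
  have hZpos : 0 < Zsum hF A 𝔅 ψ a := by
    rw [← h1]
    exact_mod_cast hpos
  by_contra hcon
  push Not at hcon
  have ha0 : a ≠ 0 := ne_zero_of_not_inMaxMul hna
  have hzero : Zsum hF A 𝔅 ψ a = 0 := by
    unfold Zsum
    apply finsum_mem_eq_zero_of_forall_eq_zero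
    intro P hP
    have h2 : 0 ≤ P.ord a := by
      obtain ⟨h, -⟩ := hP
      exact (S24.PlacesBasic.mem_iff_ord_nonneg P ha0).mp (aInt_le hF A P (h ha))
    have h3 := hcon P hP
    omega
  rw [hzero] at hZpos
  exact lt_irrefl _ hZpos

end Fermat.Agent.S37
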