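import Fermat.Agent.S37.MainAbs
import Fermat.Agent.S37.TorsionChart
import Fermat.Agent.S37.TorsionQPsi
import Fermat.Agent.S37.WeakCons
import Fermat.Agent.S37.ChartBC
import Fermat.Agent.S37.ChartDec

/-!
P12 / S37, module [TORI] (2/2, assembly): the statement (G′) `GPrimeProp N ℓ A hA q` for `ℓ ∤ N`,
from

* the `Q`-side package (`TorsionQ`, `TorsionQPsi`): reduction `red : 𝔅 →+* F_k` of the chart
  models and the point `ψ_Q` attached to a place `Q` of `F_k`;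
* the chart models (`ChartBC`, `ChartSat`) and weak conservation (WC1), (WC2) (`WeakCons`);
* the decomposition (DEC) (`ChartDec`);
* the radicial lifting (RAD), kept as a hypothesis here in the shape of
  `TorsionChart.ord_toFk_eq_of_chartA_fin/inf` (proved in `RadKFinal`).
-/

set_option autoImplicit false
set_option linter.unusedSectionVars false

namespace Fermat.Agent.S37

namespace TorsionInst

open AlgebraicCurve ModularCurve ModularCurve.IgusaScheme Fermat.Agent.S18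

variable {N : ℕ} [NeZero N] {ℓ : ℕ} [Fact ℓ.Prime] {A : ValuationSubring (AlgebraicClosure ℚ)}

/-! ### Adapters, generic in the subring `𝔅 ≤ gaussA A N` -/

section Adapters

variable (hA : A.LiesOverPrime ℓ) (hℓN : ¬ ℓ ∣ N)
  {𝔅 : Subring (modularFunctionFieldBar N)} (h𝔅 : 𝔅 ≤ gaussA A N)

theorem redSub_eq_zero_iff (b : 𝔅) :
    TorsionQ.redSub hA hℓN h𝔅 b = 0 ↔
      redA A N ⟨(b : modularFunctionFieldBar N), h𝔅 b.2⟩ = 0 := by
  rw [← TorsionQ.coe_redSub hA hℓN h𝔅 b]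
  exact ⟨fun h => by rw [h]; rfl, fun h => Subtype.ext h⟩

/-- (WC1) in the shape of `TorsionChart`, from the shape of `WeakCons.wc1`. -/
theorem wc1_adapter
    (hker : ∀ (a : modularFunctionFieldBar N) (ha : a ∈ 𝔅),
      redA A N ⟨a, h𝔅 ha⟩ = 0 ↔ InMaxMul A 𝔅 a)
    (ψ : 𝔅 →+* IsLocalRing.ResidueField A)
    (hwc1 : ∀ a a' : modularFunctionFieldBar N, a ∈ 𝔅 → a' ∈ 𝔅 → ¬ InMaxMul A 𝔅 a →
      ¬ InMaxMul A 𝔅 a' → InMaxMul A 𝔅 (a - a') →
      Zsum (isFF_modularFunctionFieldBar N) A 𝔅 ψ a =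
        Zsum (isFF_modularFunctionFieldBar N) A 𝔅 ψ a')
    (a a' : 𝔅) (ha : TorsionQ.redSub hA hℓN h𝔅 a ≠ 0)
    (haa' : TorsionQ.redSub hA hℓN h𝔅 a = TorsionQ.redSub hA hℓN h𝔅 a') :
    Zsum (isFF_modularFunctionFieldBar N) A 𝔅 ψ (a : modularFunctionFieldBar N) =
      Zsum (isFF_modularFunctionFieldBar N) A 𝔅 ψ (a' : modularFunctionFieldBar N) := by
  refine hwc1 a a' a.2 a'.2 ?_ ?_ ?_
  · rw [← hker a a.2, ← redSub_eq_zero_iff hA hℓN h𝔅 a]
    exact ha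
  · rw [← hker a' a'.2, ← redSub_eq_zero_iff hA hℓN h𝔅 a', ← haa']
    exact ha
  · have h0 : TorsionQ.redSub hA hℓN h𝔅 (a - a') = 0 := by rw [map_sub, haa', sub_self]
    exact (hker _ (a - a').2).mp ((redSub_eq_zero_iff hA hℓN h𝔅 (a - a')).mp h0)

/-- (WC2) in the shape of `TorsionChart`, from the shape of `WeakCons.wc2`. -/
theorem wc2_adapter
    (hker : ∀ (a : modularFunctionFieldBar N) (ha : a ∈ 𝔅),
      redA A N ⟨a, h𝔅 ha⟩ = 0 ↔ InMaxMul A 𝔅 a)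
    (ψ : 𝔅 →+* IsLocalRing.ResidueField A)
    (hwc2 : ∀ (a : modularFunctionFieldBar N) (ha : a ∈ 𝔅), ¬ InMaxMul A 𝔅 a →
      ψ ⟨a, ha⟩ = 0 → ∃ P ∈ Zset (isFF_modularFunctionFieldBar N) A 𝔅 ψ, 0 < P.ord a)
    (a : 𝔅) (ha : TorsionQ.redSub hA hℓN h𝔅 a ≠ 0) (h0 : ψ a = 0) :
    ∃ P ∈ Zset (isFF_modularFunctionFieldBar N) A 𝔅 ψ,
      0 < P.ord (a : modularFunctionFieldBar N) := by
  refine hwc2 a a.2 ?_ h0
  rw [← hker a a.2, ← redSub_eq_zero_iff hA hℓN h𝔅 a]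
  exact ha

/-- (DEC) for `liftRing`, in the shape of `TorsionChart`, from the plain (DEC). -/
theorem dec_adapter
    (hdec : ∀ (z : modularFunctionFieldBar N) (hz : z ∈ gaussA A N), redA A N ⟨z, hz⟩ ≠ 0 →
      ∃ a b : 𝔅, redA A N ⟨(a : modularFunctionFieldBar N), h𝔅 a.2⟩ ≠ 0 ∧
        redA A N ⟨(b : modularFunctionFieldBar N), h𝔅 b.2⟩ ≠ 0 ∧
        z * (b : modularFunctionFieldBar N) = a)
    (Y : StepA.liftRing A (IsLocalRing.residue A) N)
    (hY : StepA.toFk A (IsLocalRing.residue A) N Y ≠ 0) :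
    ∃ a b : 𝔅, TorsionQ.redSub hA hℓN h𝔅 a ≠ 0 ∧ TorsionQ.redSub hA hℓN h𝔅 b ≠ 0 ∧
      StepA.toF A (IsLocalRing.residue A) N Y * (b : modularFunctionFieldBar N) = a ∧
      StepA.toFk A (IsLocalRing.residue A) N Y * TorsionQ.redSub hA hℓN h𝔅 b =
        TorsionQ.redSub hA hℓN h𝔅 a := by
  have hz : StepA.toF A (IsLocalRing.residue A) N Y ∈ gaussA A N := toF_mem_gaussA Y
  have hzr : redA A N ⟨_, hz⟩ ≠ 0 := by
    rw [redA_toF]
    intro h
    exact hY (Subtype.ext h)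
  obtain ⟨a, b, ha, hb, hab⟩ := hdec _ hz hzr
  refine ⟨a, b, (redSub_eq_zero_iff hA hℓN h𝔅 a).not.mpr ha,
    (redSub_eq_zero_iff hA hℓN h𝔅 b).not.mpr hb, hab, ?_⟩
  have h1 : (⟨StepA.toF A (IsLocalRing.residue A) N Y, hz⟩ : gaussA A N) *
      ⟨(b : modularFunctionFieldBar N), h𝔅 b.2⟩ = ⟨(a : modularFunctionFieldBar N), h𝔅 a.2⟩ :=
    Subtype.ext hab
  have h2 := congrArg (redA A N) h1
  rw [map_mul, redA_toF] at h2
  exact Subtype.ext h2

end Adapters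

/-! ### (G′) from (RAD) -/

/-- **(G′)** for `ℓ ∤ N`, from the radicial lifting (RAD) on the two chart models. -/
theorem gPrimeProp_of (hA : A.LiesOverPrime ℓ) (hℓN : ¬ ℓ ∣ N)
    (hradfin : ∀ (Q : Place (IsLocalRing.ResidueField A)
        (modularFunctionFieldFullC (IsLocalRing.ResidueField A) N))
      (z : modularFunctionFieldFullC (IsLocalRing.ResidueField A) N),
      IsIntegral (Algebra.adjoin (IsLocalRing.ResidueField A)
        {FkConst.jk (IsLocalRing.ResidueField A) N}) z →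
      ∃ n : ℕ, 1 ≤ n ∧ ∃ σ b : chartA A N ℓ (chartAlgFin N ℓ),
        TorsionQ.redSub hA hℓN (chartA_fin_le_gaussA hA) σ ≠ 0 ∧
        Q.ord (TorsionQ.redSub hA hℓN (chartA_fin_le_gaussA hA) σ) = 0 ∧
        TorsionQ.redSub hA hℓN (chartA_fin_le_gaussA hA) b =
          TorsionQ.redSub hA hℓN (chartA_fin_le_gaussA hA) σ * z ^ n)
    (hradinf : ∀ (Q : Place (IsLocalRing.ResidueField A)
        (modularFunctionFieldFullC (IsLocalRing.ResidueField A) N)),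
      0 < Q.ord (FkConst.jk (IsLocalRing.ResidueField A) N)⁻¹ →
      ∀ z : modularFunctionFieldFullC (IsLocalRing.ResidueField A) N,
      IsIntegral (Algebra.adjoin (IsLocalRing.ResidueField A)
        {(FkConst.jk (IsLocalRing.ResidueField A) N)⁻¹}) z →
      ∃ n : ℕ, 1 ≤ n ∧ ∃ σ b : chartA A N ℓ (chartAlgInf N ℓ),
        TorsionQ.redSub hA hℓN (chartA_inf_le_gaussA hA) σ ≠ 0 ∧
        Q.ord (TorsionQ.redSub hA hℓN (chartA_inf_le_gaussA hA) σ) = 0 ∧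
        TorsionQ.redSub hA hℓN (chartA_inf_le_gaussA hA) b =
          TorsionQ.redSub hA hℓN (chartA_inf_le_gaussA hA) σ * z ^ n)
    (q : ℕ) : GPrimeProp N ℓ A hA q := by
  intro D hred u c Y₁ Y₂ _hu hc hY₁ hY₂ hgen hqD Q
  rcases DedK.jk_mem_or (IsLocalRing.ResidueField A) N Q with hjQ | ⟨hjQ, hpos⟩
  · -- the finite chart
    obtain ⟨a₁, b₁, ha₁, hb₁, h₁, h₁'⟩ :=
      dec_adapter hA hℓN (chartA_fin_le_gaussA hA) (exists_dec_fin hA hℓN) Y₁ hY₁
    obtain ⟨a₂, b₂, ha₂, hb₂, h₂, h₂'⟩ :=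
      dec_adapter hA hℓN (chartA_fin_le_gaussA hA) (exists_dec_fin hA hℓN) Y₂ hY₂
    have hψA : ∀ (a : AlgebraicClosure ℚ) (ha : a ∈ A),
        TorsionQ.psi hA hℓN (chartA_fin_le_gaussA hA) Q (TorsionQ.redSub_fin_mem hA hℓN Q hjQ)
          ⟨algebraMap (AlgebraicClosure ℚ) (modularFunctionFieldBar N) a,
            algebraMap_mem_chartA ha⟩ = IsLocalRing.residue A ⟨a, ha⟩ :=
      fun a ha => TorsionQ.psi_algebraMap hA hℓN (chartA_fin_le_gaussA hA) Q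
        (TorsionQ.redSub_fin_mem hA hℓN Q hjQ) ha _
    exact ord_toFk_eq_of_chartA_fin hA (TorsionQ.redSub hA hℓN (chartA_fin_le_gaussA hA)) Q
      (TorsionQ.psi hA hℓN (chartA_fin_le_gaussA hA) Q (TorsionQ.redSub_fin_mem hA hℓN Q hjQ))
      hψA
      (TorsionQ.ord_redSub_nonneg hA hℓN (chartA_fin_le_gaussA hA) Q
        (TorsionQ.redSub_fin_mem hA hℓN Q hjQ))
      (TorsionQ.psi_eq_zero_iff hA hℓN (chartA_fin_le_gaussA hA) Q
        (TorsionQ.redSub_fin_mem hA hℓN Q hjQ))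
      (wc1_adapter hA hℓN (chartA_fin_le_gaussA hA)
        (fun _ ha => redA_eq_zero_iff_inMaxMul_fin hA hℓN ha) _
        (fun _ _ ha ha' hna hna' hd => wc1 (isFF_modularFunctionFieldBar N)
          (isChartModel_fin hA hℓN) _ (fun α => hψA α α.2) ha ha' hna hna' hd))
      (wc2_adapter hA hℓN (chartA_fin_le_gaussA hA)
        (fun _ ha => redA_eq_zero_iff_inMaxMul_fin hA hℓN ha) _
        (fun _ ha hna h0 => wc2 (isFF_modularFunctionFieldBar N)
          (isChartModel_fin hA hℓN) _ (fun α => hψA α α.2) ha hna h0))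
      (fun z => IsIntegral (Algebra.adjoin (IsLocalRing.ResidueField A)
        {FkConst.jk (IsLocalRing.ResidueField A) N}) z)
      (TorsionQ.exists_frac_fin hA hℓN Q hjQ)
      (hradfin Q)
      q D u c hc Y₁ Y₂ hgen hqD a₁ b₁ a₂ b₂ ha₁ hb₁ ha₂ hb₂ h₁ h₁' h₂ h₂' hred
  · -- the chart at infinity
    obtain ⟨a₁, b₁, ha₁, hb₁, h₁, h₁'⟩ :=
      dec_adapter hA hℓN (chartA_inf_le_gaussA hA) (exists_dec_inf hA hℓN) Y₁ hY₁
    obtain ⟨a₂, b₂, ha₂, hb₂, h₂, h₂'⟩ :=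
      dec_adapter hA hℓN (chartA_inf_le_gaussA hA) (exists_dec_inf hA hℓN) Y₂ hY₂
    have hψA : ∀ (a : AlgebraicClosure ℚ) (ha : a ∈ A),
        TorsionQ.psi hA hℓN (chartA_inf_le_gaussA hA) Q (TorsionQ.redSub_inf_mem hA hℓN Q hjQ)
          ⟨algebraMap (AlgebraicClosure ℚ) (modularFunctionFieldBar N) a,
            algebraMap_mem_chartA ha⟩ = IsLocalRing.residue A ⟨a, ha⟩ :=
      fun a ha => TorsionQ.psi_algebraMap hA hℓN (chartA_inf_le_gaussA hA) Q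
        (TorsionQ.redSub_inf_mem hA hℓN Q hjQ) ha _
    exact ord_toFk_eq_of_chartA_inf hA (TorsionQ.redSub hA hℓN (chartA_inf_le_gaussA hA)) Q
      (TorsionQ.psi hA hℓN (chartA_inf_le_gaussA hA) Q (TorsionQ.redSub_inf_mem hA hℓN Q hjQ))
      hψA
      (TorsionQ.psi_inf_jInv hA hℓN Q hjQ hpos)
      (TorsionQ.ord_redSub_nonneg hA hℓN (chartA_inf_le_gaussA hA) Q
        (TorsionQ.redSub_inf_mem hA hℓN Q hjQ))
      (TorsionQ.psi_eq_zero_iff hA hℓN (chartA_inf_le_gaussA hA) Q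
        (TorsionQ.redSub_inf_mem hA hℓN Q hjQ))
      (wc1_adapter hA hℓN (chartA_inf_le_gaussA hA)
        (fun _ ha => redA_eq_zero_iff_inMaxMul_inf hA hℓN ha) _
        (fun _ _ ha ha' hna hna' hd => wc1 (isFF_modularFunctionFieldBar N)
          (isChartModel_inf hA hℓN) _ (fun α => hψA α α.2) ha ha' hna hna' hd))
      (wc2_adapter hA hℓN (chartA_inf_le_gaussA hA)
        (fun _ ha => redA_eq_zero_iff_inMaxMul_inf hA hℓN ha) _
        (fun _ ha hna h0 => wc2 (isFF_modularFunctionFieldBar N)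
          (isChartModel_inf hA hℓN) _ (fun α => hψA α α.2) ha hna h0))
      (fun z => IsIntegral (Algebra.adjoin (IsLocalRing.ResidueField A)
        {(FkConst.jk (IsLocalRing.ResidueField A) N)⁻¹}) z)
      (TorsionQ.exists_frac_inf hA hℓN Q hjQ)
      (hradinf Q hpos)
      q D u c hc Y₁ Y₂ hgen hqD a₁ b₁ a₂ b₂ ha₁ hb₁ ha₂ hb₂ h₁ h₁' h₂ h₂' hred

end TorsionInst

end Fermat.Agent.S37
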