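import Fermat.Agent.S37.MainAbs
import Fermat.Agent.S37.KronPlace
import Fermat.Agent.S37.GaussAGen
import Fermat.Agent.S37.TorsionInstAbs
import Fermat.Agent.S37.RadKFinal
import Fermat.Agent.S18.Star
import Fermat.Agent.S18.FkConst

/-!
P12 / S37, module [ASM]: the per-`(ℓ, A)` reduction datum `exists_reduction` for `J₀(N)` and the
exports (E1) `frobenius_relation_of_torsion`, (E2) `inertia_smul_of_torsion` for P13.

Inputs: (iii) `redPic_heckeOperatorBar` (`KronPlace`), (GEN) `exists_liftRing_quot` (`GaussAGen`),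
(G′) `TorsionInst.gPrimeProp_of` (`TorsionInstAbs`) with (RAD) `RadK.rad_fin_tor`, `RadK.rad_inf_tor`
(`RadKFinal`), `Star` and the constancy of functions without zeros and poles (`S18`).
-/

set_option autoImplicit false

noncomputable section

namespace Fermat.Agent.S37

open ModularCurve AlgebraicCurve

section Main

variable {N : ℕ} [NeZero N] {ℓ : ℕ} [Fact ℓ.Prime]
  {A : ValuationSubring (AlgebraicClosure ℚ)}

/-- (iii): the Eichler–Shimura congruence on `RedPic`. -/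
theorem heckeRed (hA : A.LiesOverPrime ℓ) (hℓN : ¬ ℓ ∣ N) (hℓ : ℓ.Prime) :
    HeckeRed N ℓ A hA hℓ :=
  haveI : NeZero ℓ := ⟨hℓ.ne_zero⟩
  fun x => redPic_heckeOperatorBar hA hℓN hℓ x

/-- (iv): the reduction map `redPic` is injective on prime-to-`ℓ` torsion. -/
theorem torsionInj (hA : A.LiesOverPrime ℓ) (hℓN : ¬ ℓ ∣ N) :
    TorsionInj N ℓ A hA := by
  have := isAlgClosed_residueField A
  exact torsionInj_of
    (fun w hw h => Fermat.Agent.S18.FkConst.mem_range_of_ord_eq_zero _ N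
      (natCast_residue_ne_zero hA hℓN) w hw h)
    (fun q hq hqℓ => Fermat.Agent.S18.StarInst.star N hℓN A hA hq hqℓ)
    (fun u hu => exists_liftRing_quot hA hℓN u hu)
    (fun q _ _ => TorsionInst.gPrimeProp_of hA hℓN (RadK.rad_fin_tor hA hℓN)
      (RadK.rad_inf_tor hA hℓN) q)

end Main

theorem not_dvd_of_not_dvd_mul {N p ℓ : ℕ} (h : ¬ ℓ ∣ N * p) : ¬ ℓ ∣ N :=
  fun hd => h (Dvd.dvd.mul_right hd p)

/-- The per-`(ℓ, A)` reduction datum for `J₀(N)`, `ℓ ∤ N p`. -/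
theorem exists_reduction (N p ℓ : ℕ) [NeZero N] (hℓ : ℓ.Prime) (hℓNp : ¬ ℓ ∣ N * p)
    (A : ValuationSubring (AlgebraicClosure ℚ)) (hA : A.LiesOverPrime ℓ) :
    ∃ (P : Type) (_ : AddCommGroup P) (ρ : JZero N →+ P) (Φ V : P →+ P),
      (∀ y : P, V (Φ y) = ℓ • y) ∧
      (∀ τ ∈ A.inertiaSubgroupIn ℚ, ∀ x : JZero N, ρ (τ • x) = ρ x) ∧
      (∀ σ : AlgebraicClosure ℚ ≃ₐ[ℚ] AlgebraicClosure ℚ, A.IsFrobeniusAt σ ℓ →
        ∀ x : JZero N, ρ (σ • x) = Φ (ρ x)) ∧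
      (∀ x : JZero N, ρ (heckeOperatorBar N ⟨ℓ, hℓ⟩ x) = Φ (ρ x) + V (ρ x)) ∧
      (∀ x : JZero N, (∃ n : ℕ, p ^ n • x = 0) → ρ x = 0 → x = 0) :=
  haveI : Fact ℓ.Prime := ⟨hℓ⟩
  exists_reduction_of p hℓ hℓNp (heckeRed hA (not_dvd_of_not_dvd_mul hℓNp) hℓ)
    (torsionInj hA (not_dvd_of_not_dvd_mul hℓNp))

/-- **(E2)** inertia at `A` acts trivially on the `p`-power torsion of `J₀(N)` (`ℓ ∤ N p`). -/
theorem inertia_smul_of_torsion (N p ℓ : ℕ) [NeZero N] (hℓ : ℓ.Prime) (hℓNp : ¬ ℓ ∣ N * p)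
    (A : ValuationSubring (AlgebraicClosure ℚ)) (hA : A.LiesOverPrime ℓ)
    (τ : AlgebraicClosure ℚ ≃ₐ[ℚ] AlgebraicClosure ℚ) (hτ : τ ∈ A.inertiaSubgroupIn ℚ)
    (x : JZero N) (n : ℕ) (hx : p ^ n • x = 0) : τ • x = x :=
  haveI : Fact ℓ.Prime := ⟨hℓ⟩
  inertia_smul_of_torsion_of (torsionInj hA (not_dvd_of_not_dvd_mul hℓNp)) τ hτ x (p ^ n)
    (not_dvd_pow_of_not_dvd_mul hℓ hℓNp n) hx

/-- **(E1)** the Eichler–Shimura relation `σ² − T_ℓ σ + ℓ = 0` on the `p`-power torsion of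
`J₀(N)`, for a Frobenius `σ` at `A` (`ℓ ∤ N p`). -/
theorem frobenius_relation_of_torsion (N p ℓ : ℕ) [NeZero N] (hℓ : ℓ.Prime)
    (hℓNp : ¬ ℓ ∣ N * p)
    (A : ValuationSubring (AlgebraicClosure ℚ)) (hA : A.LiesOverPrime ℓ)
    (σ : AlgebraicClosure ℚ ≃ₐ[ℚ] AlgebraicClosure ℚ) (hσ : A.IsFrobeniusAt σ ℓ)
    (x : JZero N) (n : ℕ) (hx : p ^ n • x = 0) :
    σ • σ • x - heckeOperatorBar N ⟨ℓ, hℓ⟩ (σ • x) + ℓ • x = 0 :=
  haveI : Fact ℓ.Prime := ⟨hℓ⟩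
  frobenius_relation_of_torsion_of hℓ (heckeRed hA (not_dvd_of_not_dvd_mul hℓNp) hℓ)
    (torsionInj hA (not_dvd_of_not_dvd_mul hℓNp)) σ hσ x (p ^ n)
    (not_dvd_pow_of_not_dvd_mul hℓ hℓNp n) hx

end Fermat.Agent.S37
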