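import Fermat.Agent.S24.Places

/-!
P12-HKI (1/4): function fields in one variable over an algebraically closed field of
characteristic zero, in the language of the Prelude's `AlgebraicCurve.Place`.

`IsFF K F` : there is `x ∈ F` transcendental over `K` with `F / K(x)` finite.  For such fields
all places have degree one, nonzero functions have a divisor of degree zero
(`HasPrincipalDivisors`), and any `K`-embedding between two of them is finite.
-/

set_option autoImplicit false

namespace Fermat.Agent.S37

open AlgebraicCurve IntermediateField

/-- `F / K` is a function field in one variable: there is `x ∈ F` transcendental over `K` with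
`F / K(x)` finite. -/
def IsFF (K F : Type*) [Field K] [Field F] [Algebra K F] : Prop :=
  ∃ x : F, Transcendental K x ∧ FiniteDimensional K⟮x⟯ F

variable {K F F' : Type*} [Field K] [Field F] [Field F'] [Algebra K F] [Algebra K F']
variable [IsAlgClosed K] [CharZero K]

/-- All places of a function field over an algebraically closed field have degree one. -/
theorem IsFF.deg_eq_one (h : IsFF K F) (v : Place K F) : v.deg = 1 := by
  obtain ⟨x, hx, hfin⟩ := h
  exact S24.place_deg_eq_one hx v

omit [CharZero K] in
/-- The residue field of every place is `K`. -/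
theorem IsFF.surjective_algebraMap_residueField (h : IsFF K F) (v : Place K F) :
    Function.Surjective (algebraMap K v.ResidueField) := by
  obtain ⟨x, hx, hfin⟩ := h
  exact S24.PlacesDeg.surjective_algebraMap_residueField hx v

/-- A nonzero function has finitely many zeros and poles. -/
theorem IsFF.finite_setOf_ord_ne_zero (h : IsFF K F) {f : F} (hf : f ≠ 0) :
    {v : Place K F | v.ord f ≠ 0}.Finite := by
  obtain ⟨x, hx, hfin⟩ := h
  exact S24.finite_setOf_ord_ne_zero hx hf

/-- Nonzero functions have divisors, of degree zero. -/
theorem IsFF.hasPrincipalDivisors (h : IsFF K F) : HasPrincipalDivisors K F := by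
  refine ⟨fun f hf => ?_⟩
  have hfin' := h.finite_setOf_ord_ne_zero hf
  refine ⟨Finsupp.ofSupportFinite (fun v => v.ord f) hfin', fun v => rfl, ?_⟩
  have hdeg : ∀ D : Divisor K F, Divisor.degree D = D.sum fun _ n => n := by
    intro D
    induction D using Finsupp.induction with
    | zero => simp
    | single_add v n D hv hn ih =>
      rw [map_add, ih, Divisor.degree_single, h.deg_eq_one v,
        Finsupp.sum_add_index' (fun _ => rfl) (fun _ _ _ => rfl), Finsupp.sum_single_index rfl]
      simp
  rw [hdeg]
  obtain ⟨x, hx, hfinx⟩ := h
  have h0 := S24.finsum_ord_eq_zero hx hf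
  rw [← h0, Finsupp.sum, finsum_eq_sum_of_support_subset]
  · rfl
  · intro v hv
    have hv' : v.ord f ≠ 0 := hv
    rw [Finset.mem_coe, Finsupp.mem_support_iff]
    exact hv'

/-- A `K`-algebra map between function fields is finite. -/
theorem IsFF.finite [Algebra F F'] [IsScalarTower K F F'] (hF : IsFF K F) (hF' : IsFF K F') :
    Module.Finite F F' := by
  obtain ⟨x, hx, -⟩ := hF
  obtain ⟨x', hx', hfin'⟩ := hF'
  set y : F' := algebraMap F F' x with hy
  have hyt : Transcendental K y := by
    intro halg
    apply hx
    exact (isAlgebraic_algHom_iff (IsScalarTower.toAlgHom K F F')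
      (algebraMap F F').injective).mp halg
  have : FiniteDimensional K⟮y⟯ F' := S24.finiteDimensional_adjoin_of_transcendental hx' hyt
  obtain ⟨s, hs⟩ := (Module.finite_def.mp (inferInstance : Module.Finite K⟮y⟯ F'))
  refine ⟨⟨s, ?_⟩⟩
  rw [eq_top_iff]
  rintro z -
  have hz : z ∈ Submodule.span K⟮y⟯ (s : Set F') := hs ▸ Submodule.mem_top
  have hle : K⟮y⟯ ≤ (IsScalarTower.toAlgHom K F F').fieldRange := by
    rw [adjoin_simple_le_iff]
    exact ⟨x, rfl⟩
  induction hz using Submodule.span_induction with
  | mem a ha => exact Submodule.subset_span ha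
  | zero => exact zero_mem _
  | add a b _ _ ha hb => exact add_mem ha hb
  | smul c a _ ha =>
    obtain ⟨d, hd⟩ := hle c.2
    have hcd : c • a = d • a := by
      rw [Algebra.smul_def, Algebra.smul_def]
      congr 1
      exact hd.symm
    rw [hcd]
    exact Submodule.smul_mem _ _ ha

end Fermat.Agent.S37
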