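import Mathlib
import Fermat.Agent.S18.CoverDefs
import Fermat.Agent.S18.CoverInst

/-!
P12 / S37 (module [EK]) — translates of good covers.

* `GoodCover.shift cov c hc : S18.GoodCover ℓ A`: the cover `cov` in the coordinate `x + c`
  (`c : ℤ`), i.e. `Ng(X + c) / Dg(X + c)`; the cusps are `a - c` (`a` a cusp of `cov`), and the
  hypothesis `hc` says that the nonzero new cusps are units of `A`.
* `goodCover_lam1 hA h2` (`ℓ ≠ 2`): the `λ`-cover in the coordinate `x - 1`, with denominator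
  `(X - 1)² (X - 2)²`, cusps `{1, 2}` and cusps' `{0, 1, 1/2}`.
* `goodCover0 hA`: the cover `goodCover_lam1` for `ℓ ≠ 2` and the Hesse cover for `ℓ = 2`; its
  denominator has value prime to `ℓ` at `0` (`not_dvd_eval_goodCover0_Dg`, `exists_goodCover0`).
-/

set_option autoImplicit false

namespace Fermat.Agent.S37

open Polynomial

namespace CoverShift

/-- Base change of the substitution `X ↦ X + c` (`c : ℤ`). -/
theorem map_comp_X_add_C {R : Type*} [CommRing R] (p : ℤ[X]) (c : ℤ) :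
    (p.comp (X + C c)).map (Int.castRingHom R) =
      taylor (c : R) (p.map (Int.castRingHom R)) := by
  rw [taylor_apply, Polynomial.map_comp, Polynomial.map_add, map_X, map_C, eq_intCast]

/-- Coprimality is invariant under the substitution `X ↦ X + r`. -/
theorem isCoprime_taylor {R : Type*} [CommRing R] (r : R) {p q : R[X]} (h : IsCoprime p q) :
    IsCoprime (taylor r p) (taylor r q) :=
  h.map (taylorAlgHom r).toRingHom

section Units

variable {A : ValuationSubring (AlgebraicClosure ℚ)}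

theorem zero_sub_inv_inv_mem {v : AlgebraicClosure ℚ} (hv : v ∈ A) : (0 - v⁻¹)⁻¹ ∈ A := by
  rw [zero_sub, inv_neg, inv_inv]
  exact A.neg_mem _ hv

theorem inv_sub_zero_inv_mem {u : AlgebraicClosure ℚ} (hu : u ∈ A) : (u⁻¹ - 0)⁻¹ ∈ A := by
  rw [sub_zero, inv_inv]
  exact hu

/-- `1/u - 1/v = (v - u) / (u v)`, so it is a unit of `A` when `u, v ∈ A` and `v - u` is a
unit. -/
theorem inv_sub_inv_inv_mem {u v : AlgebraicClosure ℚ} (hu : u ∈ A) (hv : v ∈ A)
    (huv : (v - u)⁻¹ ∈ A) : (u⁻¹ - v⁻¹)⁻¹ ∈ A := by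
  by_cases hu0 : u = 0
  · rw [hu0, inv_zero]
    exact zero_sub_inv_inv_mem hv
  by_cases hv0 : v = 0
  · rw [hv0, inv_zero]
    exact inv_sub_zero_inv_mem hu
  have h1 : u⁻¹ - v⁻¹ = (v - u) * (u * v)⁻¹ := by
    field_simp
  have h2 : (u⁻¹ - v⁻¹)⁻¹ = u * v * (v - u)⁻¹ := by
    rw [h1, mul_inv, inv_inv, mul_comm]
  rw [h2]
  exact A.mul_mem _ _ (A.mul_mem _ _ hu hv) huv

end Units

end CoverShift

/-! ### The translate of a good cover -/

section Shift

variable {ℓ : ℕ} {A : ValuationSubring (AlgebraicClosure ℚ)}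

open Classical in
/-- The good cover `cov` in the coordinate `x + c`: numerator `Ng(X + c)`, denominator
`Dg(X + c)`, cusps `a - c` for `a` a cusp of `cov`. The hypothesis says that the nonzero new
cusps are units of `A`. -/
noncomputable def GoodCover.shift (cov : S18.GoodCover ℓ A) (c : ℤ)
    (hc : ∀ a ∈ cov.cusps, a - (c : AlgebraicClosure ℚ) ≠ 0 →
      (a - (c : AlgebraicClosure ℚ))⁻¹ ∈ A) : S18.GoodCover ℓ A where
  Ng := cov.Ng.comp (X + C c)
  Dg := cov.Dg.comp (X + C c)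
  m := cov.m
  hm := cov.hm
  basic := by
    intro R _ _ hu
    obtain ⟨h1, h2, h3⟩ := cov.basic R hu
    rw [CoverShift.map_comp_X_add_C, CoverShift.map_comp_X_add_C, natDegree_taylor,
      natDegree_taylor, leadingCoeff_taylor]
    exact ⟨h1, h2, CoverShift.isCoprime_taylor _ h3⟩
  Q₃ := cov.Q₃.comp (X + C (c : AlgebraicClosure ℚ))
  Q₂ := cov.Q₂.comp (X + C (c : AlgebraicClosure ℚ))
  c₃ := cov.c₃
  c₂ := cov.c₂
  hN := by
    rw [CoverShift.map_comp_X_add_C, cov.hN, taylor_mul, taylor_C, taylor_pow, taylor_apply]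
  hN' := by
    rw [CoverShift.map_comp_X_add_C, CoverShift.map_comp_X_add_C, ← taylor_apply, ← taylor_pow,
      ← taylor_C (c : AlgebraicClosure ℚ) cov.c₂, ← taylor_mul, ← cov.hN', map_sub, taylor_mul,
      taylor_C]
  cusps := cov.cusps.image (fun a => a - (c : AlgebraicClosure ℚ))
  cusps' := insert 0 (cov.cusps.image (fun a => (a - (c : AlgebraicClosure ℚ))⁻¹))
  hcusps := by
    intro a ha
    rw [CoverShift.map_comp_X_add_C, taylor_eval] at ha
    exact Finset.mem_image.mpr ⟨a + (c : AlgebraicClosure ℚ), cov.hcusps _ ha,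
      add_sub_cancel_right _ _⟩
  hzero := Finset.mem_insert_self _ _
  hinv := by
    intro a ha _
    obtain ⟨b, hb, rfl⟩ := Finset.mem_image.mp ha
    exact Finset.mem_insert_of_mem (Finset.mem_image.mpr ⟨b, hb, rfl⟩)
  hmem := by
    intro a ha
    obtain ⟨b, hb, rfl⟩ := Finset.mem_image.mp ha
    exact sub_mem (cov.hmem b hb) (intCast_mem A c)
  hmem' := by
    intro a ha
    rcases Finset.mem_insert.mp ha with rfl | h
    · exact A.zero_mem
    · obtain ⟨b, hb, rfl⟩ := Finset.mem_image.mp h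
      by_cases h0 : b - (c : AlgebraicClosure ℚ) = 0
      · rw [h0, inv_zero]
        exact A.zero_mem
      · exact hc b hb h0
  hunit := by
    intro a ha b hb hne
    obtain ⟨a', ha', rfl⟩ := Finset.mem_image.mp ha
    obtain ⟨b', hb', rfl⟩ := Finset.mem_image.mp hb
    have hne' : a' ≠ b' := fun h => hne (by rw [h])
    have e : a' - (c : AlgebraicClosure ℚ) - (b' - (c : AlgebraicClosure ℚ)) = a' - b' := by
      ring
    rw [e]
    exact cov.hunit a' ha' b' hb' hne'
  hunit' := by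
    have hcA : ∀ b ∈ cov.cusps, b - (c : AlgebraicClosure ℚ) ∈ A := fun b hb =>
      sub_mem (cov.hmem b hb) (intCast_mem A c)
    intro a ha b hb hne
    rcases Finset.mem_insert.mp ha with rfl | ha
    · rcases Finset.mem_insert.mp hb with rfl | hb
      · exact absurd rfl hne
      · obtain ⟨b', hb', rfl⟩ := Finset.mem_image.mp hb
        exact CoverShift.zero_sub_inv_inv_mem (hcA b' hb')
    · obtain ⟨a', ha', rfl⟩ := Finset.mem_image.mp ha
      rcases Finset.mem_insert.mp hb with rfl | hb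
      · exact CoverShift.inv_sub_zero_inv_mem (hcA a' ha')
      · obtain ⟨b', hb', rfl⟩ := Finset.mem_image.mp hb
        have hne' : b' ≠ a' := fun h => hne (by rw [h])
        refine CoverShift.inv_sub_inv_inv_mem (hcA a' ha') (hcA b' hb') ?_
        have e : b' - (c : AlgebraicClosure ℚ) - (a' - (c : AlgebraicClosure ℚ)) = b' - a' := by
          ring
        rw [e]
        exact cov.hunit b' hb' a' ha' hne'

variable (cov : S18.GoodCover ℓ A) (c : ℤ)
  (hc : ∀ a ∈ cov.cusps, a - (c : AlgebraicClosure ℚ) ≠ 0 →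
      (a - (c : AlgebraicClosure ℚ))⁻¹ ∈ A)

@[simp] theorem GoodCover.shift_Ng :
    (GoodCover.shift cov c hc).Ng = cov.Ng.comp (X + C c) := rfl

@[simp] theorem GoodCover.shift_Dg :
    (GoodCover.shift cov c hc).Dg = cov.Dg.comp (X + C c) := rfl

@[simp] theorem GoodCover.shift_m : (GoodCover.shift cov c hc).m = cov.m := rfl

@[simp] theorem GoodCover.shift_Q₃ :
    (GoodCover.shift cov c hc).Q₃ = cov.Q₃.comp (X + C (c : AlgebraicClosure ℚ)) := rfl

@[simp] theorem GoodCover.shift_Q₂ :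
    (GoodCover.shift cov c hc).Q₂ = cov.Q₂.comp (X + C (c : AlgebraicClosure ℚ)) := rfl

@[simp] theorem GoodCover.shift_c₃ : (GoodCover.shift cov c hc).c₃ = cov.c₃ := rfl

@[simp] theorem GoodCover.shift_c₂ : (GoodCover.shift cov c hc).c₂ = cov.c₂ := rfl

/-- The cusps of the translate are the `a - c`. -/
theorem GoodCover.mem_shift_cusps {a : AlgebraicClosure ℚ} :
    a ∈ (GoodCover.shift cov c hc).cusps ↔ a + (c : AlgebraicClosure ℚ) ∈ cov.cusps := by
  constructor
  · intro h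
    obtain ⟨b, hb, rfl⟩ := Finset.mem_image.mp h
    rw [sub_add_cancel]
    exact hb
  · intro h
    exact Finset.mem_image.mpr ⟨a + (c : AlgebraicClosure ℚ), h, add_sub_cancel_right _ _⟩

/-- The cusps' of the translate are `0` and the `(b - c)⁻¹`. -/
theorem GoodCover.mem_shift_cusps' {a : AlgebraicClosure ℚ} :
    a ∈ (GoodCover.shift cov c hc).cusps' ↔
      a = 0 ∨ ∃ b ∈ cov.cusps, (b - (c : AlgebraicClosure ℚ))⁻¹ = a := by
  constructor
  · intro h
    rcases Finset.mem_insert.mp h with h | h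
    · exact Or.inl h
    · exact Or.inr (Finset.mem_image.mp h)
  · rintro (h | h)
    · exact Finset.mem_insert.mpr (Or.inl h)
    · exact Finset.mem_insert_of_mem (Finset.mem_image.mpr h)

theorem GoodCover.eval_shift_Ng (z : ℤ) :
    (GoodCover.shift cov c hc).Ng.eval z = cov.Ng.eval (z + c) := by
  rw [GoodCover.shift_Ng, eval_comp, eval_add, eval_X, eval_C]

theorem GoodCover.eval_shift_Dg (z : ℤ) :
    (GoodCover.shift cov c hc).Dg.eval z = cov.Dg.eval (z + c) := by
  rw [GoodCover.shift_Dg, eval_comp, eval_add, eval_X, eval_C]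

end Shift

/-! ### A good cover whose denominator is a unit at `0` -/

section Zero

variable {ℓ : ℕ} [Fact ℓ.Prime] {A : ValuationSubring (AlgebraicClosure ℚ)}

namespace CoverShift

theorem two_inv_mem (hA : A.LiesOverPrime ℓ) (h2 : ℓ ≠ 2) :
    (2 : AlgebraicClosure ℚ)⁻¹ ∈ A := by
  have h : ¬ ℓ ∣ 2 := fun h =>
    h2 ((Nat.prime_dvd_prime_iff_eq (Fact.out : ℓ.Prime) Nat.prime_two).mp h)
  have := S18.NumField.natCast_inv_mem hA h
  simpa using this

theorem lam_shift_hc (hA : A.LiesOverPrime ℓ) (h2 : ℓ ≠ 2) :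
    ∀ a ∈ (S18.goodCover_lam hA h2).cusps, a - (((-1 : ℤ) : ℤ) : AlgebraicClosure ℚ) ≠ 0 →
      (a - (((-1 : ℤ) : ℤ) : AlgebraicClosure ℚ))⁻¹ ∈ A := by
  intro a ha _
  rcases (S18.mem_goodCover_lam_cusps hA h2).mp ha with rfl | rfl
  · have e : ((0 : AlgebraicClosure ℚ) - (((-1 : ℤ) : ℤ) : AlgebraicClosure ℚ))⁻¹ = 1 := by
      norm_num
    rw [e]
    exact A.one_mem
  · have e : ((1 : AlgebraicClosure ℚ) - (((-1 : ℤ) : ℤ) : AlgebraicClosure ℚ))⁻¹ = 2⁻¹ := by
      norm_num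
    rw [e]
    exact two_inv_mem hA h2

end CoverShift

/-- The `λ`-cover in the coordinate `x - 1` (`ℓ ≠ 2`): numerator `lamN(X - 1)`, denominator
`lamD(X - 1) = (X - 1)² (X - 2)²`, `m = 2`, cusps `{1, 2}`, cusps' `{0, 1, 1/2}`. -/
noncomputable def goodCover_lam1 (hA : A.LiesOverPrime ℓ) (h2 : ℓ ≠ 2) : S18.GoodCover ℓ A :=
  GoodCover.shift (S18.goodCover_lam hA h2) (-1) (CoverShift.lam_shift_hc hA h2)

theorem goodCover_lam1_Ng (hA : A.LiesOverPrime ℓ) (h2 : ℓ ≠ 2) :
    (goodCover_lam1 hA h2).Ng = (S18.Cover.lamN ℤ).comp (X + C (-1)) := rfl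

theorem goodCover_lam1_Dg (hA : A.LiesOverPrime ℓ) (h2 : ℓ ≠ 2) :
    (goodCover_lam1 hA h2).Dg = (S18.Cover.lamD ℤ).comp (X + C (-1)) := rfl

theorem goodCover_lam1_Ng_eq (hA : A.LiesOverPrime ℓ) (h2 : ℓ ≠ 2) :
    (goodCover_lam1 hA h2).Ng = C 256 * ((X - 1) ^ 2 - (X - 1) + 1) ^ 3 := by
  rw [goodCover_lam1_Ng, S18.Cover.lamN]
  simp only [mul_comp, pow_comp, add_comp, sub_comp, X_comp, C_comp, one_comp, map_neg, map_one]
  ring

theorem goodCover_lam1_Dg_eq (hA : A.LiesOverPrime ℓ) (h2 : ℓ ≠ 2) :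
    (goodCover_lam1 hA h2).Dg = (X - 1) ^ 2 * (X - 2) ^ 2 := by
  rw [goodCover_lam1_Dg, S18.Cover.lamD]
  simp only [mul_comp, pow_comp, sub_comp, X_comp, one_comp, map_neg, map_one]
  ring

@[simp] theorem goodCover_lam1_m (hA : A.LiesOverPrime ℓ) (h2 : ℓ ≠ 2) :
    (goodCover_lam1 hA h2).m = 2 := rfl

theorem eval_goodCover_lam1_Dg_zero (hA : A.LiesOverPrime ℓ) (h2 : ℓ ≠ 2) :
    (goodCover_lam1 hA h2).Dg.eval 0 = 4 := by
  rw [goodCover_lam1_Dg_eq]
  simp only [eval_mul, eval_pow, eval_sub, eval_X, eval_one, eval_ofNat]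
  norm_num

theorem mem_goodCover_lam1_cusps (hA : A.LiesOverPrime ℓ) (h2 : ℓ ≠ 2)
    {a : AlgebraicClosure ℚ} : a ∈ (goodCover_lam1 hA h2).cusps ↔ a = 1 ∨ a = 2 := by
  rw [goodCover_lam1, GoodCover.mem_shift_cusps, S18.mem_goodCover_lam_cusps]
  constructor
  · rintro (h | h)
    · left
      push_cast at h
      linear_combination h
    · right
      push_cast at h
      linear_combination h
  · rintro (rfl | rfl)
    · left
      norm_num
    · right
      norm_num

theorem mem_goodCover_lam1_cusps' (hA : A.LiesOverPrime ℓ) (h2 : ℓ ≠ 2)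
    {a : AlgebraicClosure ℚ} :
    a ∈ (goodCover_lam1 hA h2).cusps' ↔ a = 0 ∨ a = 1 ∨ a = 2⁻¹ := by
  rw [goodCover_lam1, GoodCover.mem_shift_cusps']
  constructor
  · rintro (h | ⟨b, hb, rfl⟩)
    · exact Or.inl h
    · rcases (S18.mem_goodCover_lam_cusps hA h2).mp hb with rfl | rfl
      · right; left
        norm_num
      · right; right
        norm_num
  · rintro (h | rfl | rfl)
    · exact Or.inl h
    · exact Or.inr ⟨0, (S18.mem_goodCover_lam_cusps hA h2).mpr (Or.inl rfl), by norm_num⟩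
    · exact Or.inr ⟨1, (S18.mem_goodCover_lam_cusps hA h2).mpr (Or.inr rfl), by norm_num⟩

theorem eval_goodCover_mu_Dg_zero (hA : A.LiesOverPrime ℓ) (h3 : ℓ ≠ 3) :
    (S18.goodCover_mu hA h3).Dg.eval 0 = -1 := by
  rw [S18.goodCover_mu_Dg, S18.Cover.eval_muD]
  norm_num

open Classical in
/-- A good cover whose denominator is a unit at `0`: the `λ`-cover in the coordinate `x - 1`
for `ℓ ≠ 2`, the Hesse cover for `ℓ = 2`. -/
noncomputable def goodCover0 (hA : A.LiesOverPrime ℓ) : S18.GoodCover ℓ A :=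
  if h2 : ℓ = 2 then S18.goodCover_mu hA (by omega) else goodCover_lam1 hA h2

theorem goodCover0_of_ne_two (hA : A.LiesOverPrime ℓ) (h2 : ℓ ≠ 2) :
    goodCover0 hA = goodCover_lam1 hA h2 := by
  rw [goodCover0, dif_neg h2]

theorem goodCover0_of_eq_two (hA : A.LiesOverPrime ℓ) (h2 : ℓ = 2) :
    goodCover0 hA = S18.goodCover_mu hA (by omega) := by
  rw [goodCover0, dif_pos h2]

theorem not_dvd_eval_goodCover0_Dg (hA : A.LiesOverPrime ℓ) :
    ¬ (ℓ : ℤ) ∣ (goodCover0 hA).Dg.eval 0 := by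
  by_cases h2 : ℓ = 2
  · rw [goodCover0_of_eq_two hA h2, eval_goodCover_mu_Dg_zero, h2]
    norm_num
  · rw [goodCover0_of_ne_two hA h2, eval_goodCover_lam1_Dg_zero]
    intro h
    have h4 : ℓ ∣ 2 ^ 2 := by
      have : ((ℓ : ℕ) : ℤ) ∣ ((4 : ℕ) : ℤ) := by exact_mod_cast h
      exact Int.natCast_dvd_natCast.mp this
    have h' : ℓ ∣ 2 := (Fact.out : ℓ.Prime).dvd_of_dvd_pow h4
    exact h2 ((Nat.prime_dvd_prime_iff_eq (Fact.out : ℓ.Prime) Nat.prime_two).mp h')

/-- There is a good cover whose denominator has value prime to `ℓ` at `0`. -/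
theorem exists_goodCover0 (hA : A.LiesOverPrime ℓ) :
    ∃ cov : S18.GoodCover ℓ A, ¬ (ℓ : ℤ) ∣ cov.Dg.eval 0 :=
  ⟨goodCover0 hA, not_dvd_eval_goodCover0_Dg hA⟩

end Zero

end Fermat.Agent.S37
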