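import Fermat.Agent.S28.ModEqAn

/-!
# The Atkin–Lehner symmetry of the relations among the `j(q^d)`

For coprime `N`, `ℓ`, every polynomial relation (over a ring `R` embedded in `ℂ`) among the
`q`-series `j(q^{d e})`, `d ∣ N`, `e ∣ ℓ`, stays a relation after replacing each
`j(q^{d e})` by `j(q^{d (ℓ / e)})`.  (Analytically: substitute `τ ↦ γ (ℓ τ)` with
`γ = (1, b; N, ℓ d')`, `ℓ d' - N b = 1`.)
-/

set_option autoImplicit false

namespace Fermat.Agent.S37.ALCore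

open UpperHalfPlane ModularCurve Fermat.Agent.S24 Fermat.Agent.S28
open scoped MatrixGroups Manifold

/-- The point `ℓ τ` of the upper half plane. -/
noncomputable def mulPt (ℓ : ℕ) (τ : ℍ) : ℍ := ofComplex ((ℓ : ℂ) * (τ : ℂ))

theorem coe_mulPt (ℓ : ℕ) (hℓ : 0 < ℓ) (τ : ℍ) : ((mulPt ℓ τ : ℍ) : ℂ) = (ℓ : ℂ) * (τ : ℂ) := by
  unfold mulPt
  have h : 0 < ((ℓ : ℂ) * (τ : ℂ)).im := by
    have h1 : ((ℓ : ℂ) * (τ : ℂ)).im = (ℓ : ℝ) * (τ : ℂ).im := by simp
    rw [h1]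
    have hℓ' : (0 : ℝ) < ℓ := by exact_mod_cast hℓ
    exact mul_pos hℓ' τ.im_pos
  rw [ofComplex_apply_of_im_pos h]

theorem Jabd_mulPt (d e e' : ℕ) (he : 0 < e) (he' : 0 < e') (τ : ℍ) :
    Jabd d 0 e (mulPt (e * e') τ) = Jabd (d * e') 0 1 τ := by
  unfold Jabd
  rw [coe_mulPt _ (Nat.mul_pos he he')]
  congr 2
  have he0 : (e : ℂ) ≠ 0 := by exact_mod_cast he.ne'
  push_cast
  field_simp
  ring

/-- The matrix `(1, b; N, ℓ d')` of determinant `ℓ d' - N b = 1`. -/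
def gam1 (N ℓ : ℕ) (b d' : ℤ) (h : (ℓ : ℤ) * d' - N * b = 1) : SL(2, ℤ) :=
  ⟨!![1, b; (N : ℤ), (ℓ : ℤ) * d'], by rw [Matrix.det_fin_two_of]; linear_combination h⟩

theorem slComp_gam1_Jabd (N ℓ : ℕ) (b d' : ℤ) (h : (ℓ : ℤ) * d' - N * b = 1)
    (d e e' : ℕ) (hd : d ∣ N) (hd0 : 0 < d) (he : 0 < e) (hee : e * e' = ℓ) :
    slComp (gam1 N ℓ b d' h) (Jabd (d * e) 0 1) = Jabd d 0 e := by
  obtain ⟨c, rfl⟩ := hd
  subst hee
  refine JTranslates.slComp_Jabd_of_identity (d * e) d 0 e (Nat.mul_pos hd0 he) hd0 he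
    (gam1 (d * c) (e * e') b d' h) ⟨!![(e : ℤ), d * b; (c : ℤ), e' * d'], ?_⟩ ?_ ?_ ?_ ?_
  · rw [Matrix.det_fin_two_of]
    push_cast at h
    linear_combination h
  · simp only [gam1, Matrix.of_apply, Matrix.cons_val', Matrix.cons_val_zero,
      Matrix.cons_val_fin_one]
    push_cast
    ring
  · simp only [gam1, Matrix.of_apply, Matrix.cons_val', Matrix.cons_val_zero, Matrix.cons_val_one,
      Matrix.cons_val_fin_one]
    push_cast
    ring
  · simp only [gam1, Matrix.of_apply, Matrix.cons_val', Matrix.cons_val_zero, Matrix.cons_val_one,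
      Matrix.cons_val_fin_one]
    push_cast
    ring
  · simp only [gam1, Matrix.of_apply, Matrix.cons_val', Matrix.cons_val_zero, Matrix.cons_val_one,
      Matrix.cons_val_fin_one]
    push_cast
    ring

/-- **Atkin–Lehner substitution**: a self-map `W` of the upper half plane with
`J(d e · W τ) = J(d e' · τ)` for all `d ∣ N`, `e e' = ℓ`. -/
theorem exists_point_map (N ℓ : ℕ) (hℓ : 0 < ℓ) (hcop : Nat.Coprime N ℓ) :
    ∃ W : ℍ → ℍ, ∀ d e e' : ℕ, d ∣ N → 0 < d → e * e' = ℓ → ∀ τ : ℍ,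
      Jabd (d * e) 0 1 (W τ) = Jabd (d * e') 0 1 τ := by
  obtain ⟨b, d', h⟩ : ∃ b d' : ℤ, (ℓ : ℤ) * d' - N * b = 1 := by
    have h1 : IsCoprime (ℓ : ℤ) (N : ℤ) := by
      rw [Int.isCoprime_iff_gcd_eq_one, Int.gcd_natCast_natCast]
      exact hcop.symm
    obtain ⟨u, v, huv⟩ := h1
    exact ⟨-v, u, by linear_combination huv⟩
  refine ⟨fun τ => gam1 N ℓ b d' h • mulPt ℓ τ, ?_⟩
  intro d e e' hd hd0 hee τ
  have he : 0 < e := Nat.pos_of_ne_zero (by rintro rfl; rw [zero_mul] at hee; omega)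
  have he' : 0 < e' := Nat.pos_of_ne_zero (by rintro rfl; rw [mul_zero] at hee; omega)
  have h1 := congrFun (slComp_gam1_Jabd N ℓ b d' h d e e' hd hd0 he hee) (mulPt ℓ τ)
  rw [slComp_apply] at h1
  rw [h1]
  subst hee
  exact Jabd_mulPt d e e' he he' τ


/-! ### The generators `j(q^d)` and evaluation of polynomials at them -/

/-- `j(q^d)` as a total function of `d` (junk value `0` at `d = 0`). -/
noncomputable def jd (R : Type*) [CommRing R] (d : ℕ) : LaurentSeries R :=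
  if h : d = 0 then 0 else @qExpand R _ d ⟨h⟩ (jqModC R)

theorem jd_eq (R : Type*) [CommRing R] (d : ℕ) [NeZero d] : jd R d = qExpand R d (jqModC R) := by
  unfold jd
  rw [dif_neg (NeZero.ne d)]

theorem jd_zero (R : Type*) [CommRing R] : jd R 0 = 0 := by
  unfold jd
  rw [dif_pos rfl]

theorem coeffMap_jd {R S : Type*} [CommRing R] [CommRing S] (f : R →+* S) (d : ℕ) :
    coeffMap f (jd R d) = jd S d := by
  rcases Nat.eq_zero_or_pos d with rfl | hd
  · rw [jd_zero, jd_zero, map_zero]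
  · have : NeZero d := ⟨hd.ne'⟩
    rw [jd_eq, jd_eq, coeffMap_qExpand, coeffMap_jqModC]

theorem qExpand_jd (R : Type*) [CommRing R] (n : ℕ) [NeZero n] (d : ℕ) :
    qExpand R n (jd R d) = jd R (n * d) := by
  rcases Nat.eq_zero_or_pos d with rfl | hd
  · rw [mul_zero, jd_zero, map_zero]
  · have : NeZero d := ⟨hd.ne'⟩
    have : NeZero (n * d) := ⟨Nat.mul_ne_zero (NeZero.ne n) hd.ne'⟩
    rw [jd_eq, jd_eq, qExpand_qExpand]

/-- The `q_M`-expansion of `J(dτ)` is `j(t^{M d})`. -/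
theorem qInf_Jabd_eq (M d : ℕ) [NeZero M] (hd : 0 < d) :
    qInf M (Jabd d 0 1) = qExpand ℂ M (jd ℂ d) := by
  have hM : 0 < M := Nat.pos_of_ne_zero (NeZero.ne M)
  have : NeZero d := ⟨hd.ne'⟩
  have : NeZero (M * d) := ⟨Nat.mul_ne_zero hM.ne' hd.ne'⟩
  rw [jd_eq, qExpand_qExpand]
  ext n
  rw [qInf_Jabd_coeff M d 0 1 hd one_pos (one_dvd M) hM]
  have h1 : d * (M / 1) = M * d := by rw [Nat.div_one, mul_comm]
  rw [h1]
  split_ifs with h
  · obtain ⟨m, rfl⟩ := h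
    have hp0 : ((M * d : ℕ) : ℤ) ≠ 0 := Int.natCast_ne_zero.mpr (Nat.mul_pos hM hd).ne'
    rw [qExpand_coeff_mul, Int.mul_ediv_cancel_left _ hp0, ModEqAn.jqModC_complex_coeff]
    simp
  · rw [qExpand_coeff_of_not_dvd _ _ h]

variable {σ : Type*}

/-- Evaluation of polynomials at the `q`-series `j(q^{D i})`. -/
noncomputable def evS (R : Type*) [CommRing R] (D : σ → ℕ) :
    MvPolynomial σ R →+* LaurentSeries R :=
  MvPolynomial.eval₂Hom (HahnSeries.C : R →+* LaurentSeries R) (fun i => jd R (D i))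

theorem evS_C (R : Type*) [CommRing R] (D : σ → ℕ) (c : R) :
    evS R D (MvPolynomial.C c) = HahnSeries.C c := by
  unfold evS
  rw [MvPolynomial.coe_eval₂Hom, MvPolynomial.eval₂_C]

theorem evS_X (R : Type*) [CommRing R] (D : σ → ℕ) (i : σ) :
    evS R D (MvPolynomial.X i) = jd R (D i) := by
  unfold evS
  rw [MvPolynomial.coe_eval₂Hom, MvPolynomial.eval₂_X]

theorem qExpand_evS (R : Type*) [CommRing R] (n : ℕ) [NeZero n] (D : σ → ℕ)
    (P : MvPolynomial σ R) : qExpand R n (evS R D P) = evS R (fun i => n * D i) P := by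
  have h : (qExpand R n).comp (evS R D) = evS R (fun i => n * D i) := by
    refine MvPolynomial.ringHom_ext (fun c => ?_) (fun i => ?_)
    · rw [RingHom.comp_apply, evS_C, evS_C, qExpand_C]
    · rw [RingHom.comp_apply, evS_X, evS_X, qExpand_jd]
  exact congrArg (fun φ => φ P) h

theorem coeffMap_evS {R S : Type*} [CommRing R] [CommRing S] (f : R →+* S) (D : σ → ℕ)
    (P : MvPolynomial σ R) : coeffMap f (evS R D P) = evS S D (MvPolynomial.map f P) := by
  have h : (coeffMap f).comp (evS R D) = (evS S D).comp (MvPolynomial.map f) := by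
    refine MvPolynomial.ringHom_ext (fun c => ?_) (fun i => ?_)
    · rw [RingHom.comp_apply, RingHom.comp_apply, evS_C, MvPolynomial.map_C, evS_C]
      exact coeffMap_single f 0 c
    · rw [RingHom.comp_apply, RingHom.comp_apply, evS_X, MvPolynomial.map_X, evS_X, coeffMap_jd]
  exact congrArg (fun φ => φ P) h

theorem coeffMap_injective {R S : Type*} [CommRing R] [CommRing S] (f : R →+* S)
    (hf : Function.Injective f) : Function.Injective (coeffMap f) := by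
  intro x y h
  ext n
  apply hf
  rw [← coeffMap_coeff, ← coeffMap_coeff, h]

/-- A relation among the `q`-series `j(q^{D i})`, `D i ∣ M`, over `ℂ` is the same as a pointwise
relation among the functions `J(D i · τ)`. -/
theorem evS_eq_zero_iff (M : ℕ) [NeZero M] (D : σ → ℕ) (hD : ∀ i, D i ∣ M)
    (P : MvPolynomial σ ℂ) :
    evS ℂ D P = 0 ↔ ∀ τ : ℍ, MvPolynomial.eval (fun i => Jabd (D i) 0 1 τ) P = 0 := by
  have hM : 0 < M := Nat.pos_of_ne_zero (NeZero.ne M)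
  have hD0 : ∀ i, 0 < D i := fun i => Nat.pos_of_dvd_of_pos (hD i) hM
  let evF : MvPolynomial σ ℂ →+* ↥(RN M) :=
    MvPolynomial.eval₂Hom (ModEqAn.constHom M) (fun i => JdRN M (D i) (hD i))
  have hC : ∀ c : ℂ, evF (MvPolynomial.C c) = ModEqAn.constHom M c := fun c => by
    show MvPolynomial.eval₂ _ _ _ = _
    rw [MvPolynomial.eval₂_C]
  have hX : ∀ i, evF (MvPolynomial.X i) = JdRN M (D i) (hD i) := fun i => by
    show MvPolynomial.eval₂ _ _ _ = _
    rw [MvPolynomial.eval₂_X]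
  have h1 : (qInfR M).comp evF = (qExpand ℂ M).comp (evS ℂ D) := by
    refine MvPolynomial.ringHom_ext (fun c => ?_) (fun i => ?_)
    · rw [RingHom.comp_apply, RingHom.comp_apply, hC, evS_C, qExpand_C,
        ← RingHom.comp_apply (qInfR M), ModEqAn.qInfR_comp_constHom]
    · rw [RingHom.comp_apply, RingHom.comp_apply, hX, evS_X, qInfR_apply, coe_JdRN,
        qInf_Jabd_eq M (D i) (hD0 i)]
  have h2 : ∀ τ : ℍ, (ModEqAn.evalHom M τ).comp evF =
      MvPolynomial.eval (fun i => Jabd (D i) 0 1 τ) := by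
    intro τ
    refine MvPolynomial.ringHom_ext (fun c => ?_) (fun i => ?_)
    · rw [RingHom.comp_apply, hC, MvPolynomial.eval_C]
      rfl
    · rw [RingHom.comp_apply, hX, MvPolynomial.eval_X, ModEqAn.evalHom_apply, coe_JdRN]
  have h1' : qInfR M (evF P) = qExpand ℂ M (evS ℂ D P) := congrArg (fun φ => φ P) h1
  have h2' : ∀ τ : ℍ, ((evF P : ↥(RN M)) : ℍ → ℂ) τ =
      MvPolynomial.eval (fun i => Jabd (D i) 0 1 τ) P := fun τ =>
    congrArg (fun φ => φ P) (h2 τ)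
  constructor
  · intro h τ
    rw [← h2' τ]
    have h3 : evF P = 0 := by
      apply qInfR_injective M
      rw [h1', h, map_zero, map_zero]
    rw [h3]
    rfl
  · intro h
    have h3 : evF P = 0 := by
      apply Subtype.ext
      funext τ
      rw [h2' τ, h τ]
      rfl
    apply qExpand_injective (R := ℂ) M
    rw [← h1', h3, map_zero, map_zero]

/-- **Atkin–Lehner symmetry of relations, over `ℂ`.** -/
theorem evS_swap_complex (N ℓ : ℕ) (hN : 0 < N) (hℓ : 0 < ℓ) (hcop : Nat.Coprime N ℓ)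
    (d e e' : σ → ℕ) (hd : ∀ i, d i ∣ N) (he : ∀ i, e i * e' i = ℓ) (P : MvPolynomial σ ℂ)
    (hP : evS ℂ (fun i => d i * e i) P = 0) : evS ℂ (fun i => d i * e' i) P = 0 := by
  have : NeZero (N * ℓ) := ⟨Nat.mul_ne_zero hN.ne' hℓ.ne'⟩
  obtain ⟨W, hW⟩ := exists_point_map N ℓ hℓ hcop
  have hd0 : ∀ i, 0 < d i := fun i => Nat.pos_of_dvd_of_pos (hd i) hN
  have hD : ∀ i, d i * e i ∣ N * ℓ := fun i => mul_dvd_mul (hd i) (Dvd.intro _ (he i))
  have hD' : ∀ i, d i * e' i ∣ N * ℓ := fun i => mul_dvd_mul (hd i) (Dvd.intro_left _ (he i))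
  rw [evS_eq_zero_iff (N * ℓ) _ hD] at hP
  rw [evS_eq_zero_iff (N * ℓ) _ hD']
  intro τ
  have h := hP (W τ)
  have h2 : (fun i => Jabd (d i * e i) 0 1 (W τ)) = fun i => Jabd (d i * e' i) 0 1 τ := by
    funext i
    exact hW (d i) (e i) (e' i) (hd i) (hd0 i) (he i) τ
  rwa [h2] at h

/-- **Atkin–Lehner symmetry of relations** among the `j(q^{d e})`, `d ∣ N`, `e ∣ ℓ`, over any
ring embedded in `ℂ`: replacing each `j(q^{d e})` by `j(q^{d (ℓ / e)})` preserves relations. -/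
theorem evS_swap {R : Type*} [CommRing R] (ι : R →+* ℂ) (hι : Function.Injective ι)
    (N ℓ : ℕ) (hN : 0 < N) (hℓ : 0 < ℓ) (hcop : Nat.Coprime N ℓ)
    (d e e' : σ → ℕ) (hd : ∀ i, d i ∣ N) (he : ∀ i, e i * e' i = ℓ) (P : MvPolynomial σ R)
    (hP : evS R (fun i => d i * e i) P = 0) : evS R (fun i => d i * e' i) P = 0 := by
  apply coeffMap_injective ι hι
  rw [map_zero, coeffMap_evS]
  apply evS_swap_complex N ℓ hN hℓ hcop d e e' hd he
  rw [← coeffMap_evS, hP, map_zero]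

/-- Symmetric form of `evS_swap`. -/
theorem evS_swap_iff {R : Type*} [CommRing R] (ι : R →+* ℂ) (hι : Function.Injective ι)
    (N ℓ : ℕ) (hN : 0 < N) (hℓ : 0 < ℓ) (hcop : Nat.Coprime N ℓ)
    (d e e' : σ → ℕ) (hd : ∀ i, d i ∣ N) (he : ∀ i, e i * e' i = ℓ) (P : MvPolynomial σ R) :
    evS R (fun i => d i * e i) P = 0 ↔ evS R (fun i => d i * e' i) P = 0 :=
  ⟨evS_swap ι hι N ℓ hN hℓ hcop d e e' hd he P,
    evS_swap ι hι N ℓ hN hℓ hcop d e' e hd (fun i => by rw [mul_comm, he i]) P⟩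

end Fermat.Agent.S37.ALCore
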