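import Mathlib
import Fermat.Prelude.Def_HeckeGalois_EichlerShimura
import Fermat.Prelude.Def_ModularCurve_HeckeModule
import Fermat.Agent.S37.FrobBasic

/-!
P12 / S37, module [FRM]: the formal part of the Eichler–Shimura specialization statement.

`ModularCurve.SpecializationExists N p J` follows from the existence, for every prime `ℓ ∤ N p`
and every valuation subring `A` of `AlgebraicClosure ℚ` over `ℓ`, of ONE additive map
`ρ : J → G` to an abelian group such that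

* (i) `ρ (τ • x) = ρ x` for `τ` in the inertia group of `A`;
* (ii+iii) `ρ ((σ² - T_ℓ σ + ℓ) x) = 0` for every Frobenius element `σ` at `A`;
* (iv) `ρ` is injective on `p`-power torsion.

(`J' := J ⧸ W`, `W` the Hecke submodule generated by `(τ - 1) x` and `(σ² - T_ℓ σ + ℓ) x`,
`sp := mkQ`, `F :=` the map induced by one Frobenius element `σ₀`.)

Variants: `(Φ, V)`-shape (`ρ ∘ σ = Φ ∘ ρ`, `ρ ∘ T_ℓ = (Φ + V) ∘ ρ`, `V ∘ Φ = ℓ`; formal reduction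
due to helper13), and wrappers in the exact shape of the frozen statement S37 for `J = JZero N`.
-/

set_option autoImplicit false

namespace Fermat.Agent.S37

open ModularCurve

namespace Abstract

section Rel

variable {K L : Type*} [Field K] [Field L] [Algebra K L]
variable (J : Type*) [AddCommGroup J] [Module HeckeAlg J]
  [DistribMulAction (L ≃ₐ[K] L) J] [SMulCommClass (L ≃ₐ[K] L) HeckeAlg J]
variable (A : ValuationSubring L) (ℓ : ℕ) (hℓ : ℓ.Prime)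

/-- the Eichler–Shimura expression `(σ² - T_ℓ σ + ℓ) x` -/
noncomputable def esExpr (σ : L ≃ₐ[K] L) (x : J) : J :=
  σ • σ • x - heckeGen ⟨ℓ, hℓ⟩ • (σ • x) + ℓ • x

variable (K) in
/-- the generators `(τ - 1) x` (`τ` inertia) and `(σ² - T_ℓ σ + ℓ) x` (`σ` Frobenius) -/
def relGens : Set J :=
  {y | ∃ τ ∈ A.inertiaSubgroupIn K, ∃ x : J, y = τ • x - x} ∪
    {y | ∃ σ : L ≃ₐ[K] L, A.IsFrobeniusAt σ ℓ ∧ ∃ x : J, y = esExpr J ℓ hℓ σ x}

variable (K) in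
/-- the Hecke submodule generated by `relGens` -/
noncomputable def relSubmodule : Submodule HeckeAlg J :=
  Submodule.span HeckeAlg (relGens K J A ℓ hℓ)

theorem hecke_smul_esExpr (t : HeckeAlg) (σ : L ≃ₐ[K] L) (x : J) :
    t • esExpr J ℓ hℓ σ x = esExpr J ℓ hℓ σ (t • x) := by
  unfold esExpr
  rw [smul_add, smul_sub, ← smul_comm σ t (σ • x), smul_comm t (heckeGen ⟨ℓ, hℓ⟩) (σ • x),
    ← smul_comm σ t x, smul_comm t ℓ x]

theorem galois_smul_esExpr (σ₀ σ : L ≃ₐ[K] L) (x : J) :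
    σ₀ • esExpr J ℓ hℓ σ x = esExpr J ℓ hℓ (σ₀ * σ * σ₀⁻¹) (σ₀ • x) := by
  have h1 : ∀ y : J, (σ₀ * σ * σ₀⁻¹) • σ₀ • y = σ₀ • σ • y := fun y => by
    rw [mul_smul, inv_smul_smul, mul_smul]
  unfold esExpr
  rw [h1 x, h1 (σ • x), smul_add, smul_sub, smul_comm σ₀ (heckeGen ⟨ℓ, hℓ⟩) (σ • x),
    smul_comm σ₀ ℓ x]

theorem hecke_smul_mem_relGens (t : HeckeAlg) {y : J} (hy : y ∈ relGens K J A ℓ hℓ) :
    t • y ∈ relGens K J A ℓ hℓ := by
  rcases hy with ⟨τ, hτ, x, rfl⟩ | ⟨σ, hσ, x, rfl⟩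
  · exact Or.inl ⟨τ, hτ, t • x, by rw [smul_sub, ← smul_comm τ t x]⟩
  · exact Or.inr ⟨σ, hσ, t • x, hecke_smul_esExpr J ℓ hℓ t σ x⟩

theorem galois_smul_mem_relGens {σ₀ : L ≃ₐ[K] L} (h₀ : σ₀ ∈ A.decompositionSubgroup K) {y : J}
    (hy : y ∈ relGens K J A ℓ hℓ) : σ₀ • y ∈ relGens K J A ℓ hℓ := by
  rcases hy with ⟨τ, hτ, x, rfl⟩ | ⟨σ, hσ, x, rfl⟩
  · refine Or.inl ⟨σ₀ * τ * σ₀⁻¹, conj_mem_inertiaSubgroupIn h₀ hτ, σ₀ • x, ?_⟩
    rw [smul_sub, mul_smul, inv_smul_smul, mul_smul]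
  · exact Or.inr ⟨σ₀ * σ * σ₀⁻¹, isFrobeniusAt_conj hσ h₀, σ₀ • x,
      galois_smul_esExpr J ℓ hℓ σ₀ σ x⟩

theorem relSubmodule_le_comap {σ₀ : L ≃ₐ[K] L} (h₀ : σ₀ ∈ A.decompositionSubgroup K) :
    relSubmodule K J A ℓ hℓ ≤
      (relSubmodule K J A ℓ hℓ).comap (DistribSMul.toLinearMap HeckeAlg J σ₀) := by
  refine Submodule.span_le.mpr fun y hy => ?_
  exact Submodule.subset_span (galois_smul_mem_relGens J A ℓ hℓ h₀ hy)

theorem galois_smul_mem_relSubmodule {σ₀ : L ≃ₐ[K] L} (h₀ : σ₀ ∈ A.decompositionSubgroup K)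
    {w : J} (hw : w ∈ relSubmodule K J A ℓ hℓ) : σ₀ • w ∈ relSubmodule K J A ℓ hℓ :=
  relSubmodule_le_comap J A ℓ hℓ h₀ hw

/-- an additive map killing the generators kills the Hecke submodule they generate -/
theorem map_eq_zero_of_mem_relSubmodule {G : Type*} [AddCommGroup G] (ρ : J →+ G)
    (h1 : ∀ τ ∈ A.inertiaSubgroupIn K, ∀ x : J, ρ (τ • x) = ρ x)
    (h2 : ∀ σ : L ≃ₐ[K] L, A.IsFrobeniusAt σ ℓ → ∀ x : J, ρ (esExpr J ℓ hℓ σ x) = 0)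
    {w : J} (hw : w ∈ relSubmodule K J A ℓ hℓ) : ρ w = 0 := by
  have hgen : ∀ y ∈ relGens K J A ℓ hℓ, ρ y = 0 := by
    rintro y (⟨τ, hτ, x, rfl⟩ | ⟨σ, hσ, x, rfl⟩)
    · rw [map_sub, h1 τ hτ, sub_self]
    · exact h2 σ hσ x
  have key : ∀ t : HeckeAlg, ρ (t • w) = 0 := by
    refine Submodule.span_induction (p := fun w _ => ∀ t : HeckeAlg, ρ (t • w) = 0)
      ?_ ?_ ?_ ?_ hw
    · intro y hy t
      exact hgen _ (hecke_smul_mem_relGens J A ℓ hℓ t hy)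
    · intro t
      rw [smul_zero, map_zero]
    · intro x y _ _ hx hy t
      rw [smul_add, map_add, hx t, hy t, add_zero]
    · intro c x _ hx t
      rw [smul_smul]
      exact hx (t * c)
  have h := key 1
  rwa [one_smul] at h

end Rel

end Abstract

section OnePlace

variable {K L : Type*} [Field K] [Field L] [Algebra K L]
variable (J : Type) [AddCommGroup J] [Module HeckeAlg J]
  [DistribMulAction (L ≃ₐ[K] L) J] [SMulCommClass (L ≃ₐ[K] L) HeckeAlg J]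

/-- **Formal reduction at one place**: a Frobenius element `σ₀` and one additive map `ρ` killing
inertia and the Eichler–Shimura expressions, injective on `p`-power torsion, give a
specialization datum. -/
theorem exists_specialization_of_hom (p ℓ : ℕ) (hℓ : ℓ.Prime) (A : ValuationSubring L)
    (σ₀ : L ≃ₐ[K] L) (hσ₀ : A.IsFrobeniusAt σ₀ ℓ)
    {G : Type*} [AddCommGroup G] (ρ : J →+ G)
    (hinertia : ∀ τ ∈ A.inertiaSubgroupIn K, ∀ x : J, ρ (τ • x) = ρ x)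
    (hES : ∀ σ : L ≃ₐ[K] L, A.IsFrobeniusAt σ ℓ → ∀ x : J,
      ρ (σ • σ • x - heckeGen ⟨ℓ, hℓ⟩ • (σ • x) + ℓ • x) = 0)
    (hinj : ∀ x : J, (∃ n : ℕ, p ^ n • x = 0) → ρ x = 0 → x = 0) :
    ∃ (J' : Type) (_ : AddCommGroup J') (_ : Module HeckeAlg J') (sp : J →+ J')
      (F : J' →+ J'),
      IsSpecialization (K := K) p J J' A ℓ sp F ∧ SpecialFibreRelation J' ℓ hℓ F := by
  have h₀ : σ₀ ∈ A.decompositionSubgroup K := hσ₀.1
  obtain ⟨W, hWdef⟩ : ∃ W : Submodule HeckeAlg J, W = Abstract.relSubmodule K J A ℓ hℓ := ⟨_, rfl⟩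
  have hWσ : W ≤ W.comap (DistribSMul.toLinearMap HeckeAlg J σ₀) := by
    rw [hWdef]
    exact Abstract.relSubmodule_le_comap J A ℓ hℓ h₀
  have hES_mem : ∀ x : J, σ₀ • σ₀ • x - heckeGen ⟨ℓ, hℓ⟩ • (σ₀ • x) + ℓ • x ∈ W := by
    intro x
    rw [hWdef]
    exact Submodule.subset_span (Or.inr ⟨σ₀, hσ₀, x, rfl⟩)
  refine ⟨J ⧸ W, inferInstance, inferInstance, W.mkQ.toAddMonoidHom,
    (W.mapQ W (DistribSMul.toLinearMap HeckeAlg J σ₀) hWσ).toAddMonoidHom,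
    ⟨?_, ?_, ?_, ?_⟩, ?_⟩
  · intro T x
    rfl
  · intro τ hτ x
    refine (Submodule.Quotient.eq W).mpr ?_
    rw [hWdef]
    exact Submodule.subset_span (Or.inl ⟨τ, hτ, x, rfl⟩)
  · intro σ hσ x
    refine (Submodule.Quotient.eq W).mpr ?_
    have hτ := inv_mul_mem_inertiaSubgroupIn hσ₀ hσ
    have h3 : σ • x - σ₀ • x = σ₀ • ((σ₀⁻¹ * σ) • x - x) := by
      rw [smul_sub, mul_smul, smul_inv_smul]
    show σ • x - σ₀ • x ∈ W
    rw [h3]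
    refine hWσ ?_
    rw [hWdef]
    exact Submodule.subset_span (Or.inl ⟨_, hτ, x, rfl⟩)
  · intro x hx h0
    have hmem : x ∈ W := (Submodule.Quotient.mk_eq_zero W).mp h0
    rw [hWdef] at hmem
    exact hinj x hx (Abstract.map_eq_zero_of_mem_relSubmodule J A ℓ hℓ ρ hinertia hES hmem)
  · intro y
    obtain ⟨x, rfl⟩ := Submodule.Quotient.mk_surjective W y
    have h2 : (ℓ • Submodule.Quotient.mk x : J ⧸ W) = Submodule.Quotient.mk (ℓ • x) := rfl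
    show (Submodule.Quotient.mk (σ₀ • σ₀ • x) : J ⧸ W) -
      heckeGen ⟨ℓ, hℓ⟩ • Submodule.Quotient.mk (σ₀ • x) + ℓ • Submodule.Quotient.mk x = 0
    rw [← Submodule.Quotient.mk_smul, ← Submodule.Quotient.mk_sub, h2,
      ← Submodule.Quotient.mk_add, Submodule.Quotient.mk_eq_zero]
    exact hES_mem x

/-- **Formal reduction at one place, `(Φ, V)`-shape**: `ρ` kills inertia, intertwines every
Frobenius element with `Φ`, and `ρ ∘ T_ℓ = (Φ + V) ∘ ρ` with `V ∘ Φ = ℓ`. -/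
theorem exists_specialization_of_reduction (p ℓ : ℕ) (hℓ : ℓ.Prime) (A : ValuationSubring L)
    (σ₀ : L ≃ₐ[K] L) (hσ₀ : A.IsFrobeniusAt σ₀ ℓ)
    {P : Type*} [AddCommGroup P] (ρ : J →+ P) (Φ V : P →+ P)
    (hVΦ : ∀ y : P, V (Φ y) = ℓ • y)
    (hinertia : ∀ τ ∈ A.inertiaSubgroupIn K, ∀ x : J, ρ (τ • x) = ρ x)
    (hfrob : ∀ σ : L ≃ₐ[K] L, A.IsFrobeniusAt σ ℓ → ∀ x : J, ρ (σ • x) = Φ (ρ x))
    (hT : ∀ x : J, ρ (heckeGen ⟨ℓ, hℓ⟩ • x) = Φ (ρ x) + V (ρ x))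
    (hinj : ∀ x : J, (∃ n : ℕ, p ^ n • x = 0) → ρ x = 0 → x = 0) :
    ∃ (J' : Type) (_ : AddCommGroup J') (_ : Module HeckeAlg J') (sp : J →+ J')
      (F : J' →+ J'),
      IsSpecialization (K := K) p J J' A ℓ sp F ∧ SpecialFibreRelation J' ℓ hℓ F := by
  refine exists_specialization_of_hom J p ℓ hℓ A σ₀ hσ₀ ρ hinertia ?_ hinj
  intro σ hσ x
  rw [map_add, map_sub, hfrob σ hσ, hfrob σ hσ, hT, hfrob σ hσ, hVΦ, map_nsmul]
  abel

end OnePlace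

section Global

variable (N p : ℕ) (J : Type) [AddCommGroup J] [Module HeckeAlg J]
  [DistribMulAction (AlgebraicClosure ℚ ≃ₐ[ℚ] AlgebraicClosure ℚ) J]
  [SMulCommClass (AlgebraicClosure ℚ ≃ₐ[ℚ] AlgebraicClosure ℚ) HeckeAlg J]

/-- **Formal reduction of `SpecializationExists`** (over `ℚ`): one additive map `ρ` per good
prime `ℓ` and place `A` over `ℓ`. -/
theorem specializationExists_of_hom
    (h : ∀ (ℓ : ℕ) (hℓ : ℓ.Prime), ¬ ℓ ∣ N * p →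
      ∀ A : ValuationSubring (AlgebraicClosure ℚ), A.LiesOverPrime ℓ →
        ∃ (G : Type) (_ : AddCommGroup G) (ρ : J →+ G),
          (∀ τ ∈ A.inertiaSubgroupIn ℚ, ∀ x : J, ρ (τ • x) = ρ x) ∧
          (∀ σ : AlgebraicClosure ℚ ≃ₐ[ℚ] AlgebraicClosure ℚ, A.IsFrobeniusAt σ ℓ → ∀ x : J,
            ρ (σ • σ • x - heckeGen ⟨ℓ, hℓ⟩ • (σ • x) + ℓ • x) = 0) ∧
          (∀ x : J, (∃ n : ℕ, p ^ n • x = 0) → ρ x = 0 → x = 0)) :
    SpecializationExists (K := ℚ) (L := AlgebraicClosure ℚ) N p J := by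
  intro ℓ hℓ hℓN A hA
  obtain ⟨G, _, ρ, h1, h2, h3⟩ := h ℓ hℓ hℓN A hA
  obtain ⟨σ₀, hσ₀⟩ := exists_isFrobeniusAt_of_liesOver A ℓ hℓ hA
  exact exists_specialization_of_hom J p ℓ hℓ A σ₀ hσ₀ ρ h1 h2 h3

/-- **Formal reduction of `SpecializationExists`**, `(Φ, V)`-shape. -/
theorem specializationExists_of_reduction
    (h : ∀ (ℓ : ℕ) (hℓ : ℓ.Prime), ¬ ℓ ∣ N * p →
      ∀ A : ValuationSubring (AlgebraicClosure ℚ), A.LiesOverPrime ℓ →
        ∃ (P : Type) (_ : AddCommGroup P) (ρ : J →+ P) (Φ V : P →+ P),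
          (∀ y : P, V (Φ y) = ℓ • y) ∧
          (∀ τ ∈ A.inertiaSubgroupIn ℚ, ∀ x : J, ρ (τ • x) = ρ x) ∧
          (∀ σ : AlgebraicClosure ℚ ≃ₐ[ℚ] AlgebraicClosure ℚ, A.IsFrobeniusAt σ ℓ → ∀ x : J,
            ρ (σ • x) = Φ (ρ x)) ∧
          (∀ x : J, ρ (heckeGen ⟨ℓ, hℓ⟩ • x) = Φ (ρ x) + V (ρ x)) ∧
          (∀ x : J, (∃ n : ℕ, p ^ n • x = 0) → ρ x = 0 → x = 0)) :
    SpecializationExists (K := ℚ) (L := AlgebraicClosure ℚ) N p J := by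
  intro ℓ hℓ hℓN A hA
  obtain ⟨P, _, ρ, Φ, V, h0, h1, h2, h3, h4⟩ := h ℓ hℓ hℓN A hA
  obtain ⟨σ₀, hσ₀⟩ := exists_isFrobeniusAt_of_liesOver A ℓ hℓ hA
  exact exists_specialization_of_reduction J p ℓ hℓ A σ₀ hσ₀ ρ Φ V h0 h1 h2 h3 h4

end Global

section JZeroWrapper

variable (N p : ℕ) [NeZero N]

/-- **S37-shaped wrapper**: the frozen statement S37 follows from one additive map `ρ` on
`JZero N` per good prime `ℓ` and place `A` over `ℓ` (Hecke operator written as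
`heckeOperatorBar N ℓ`, no module instance needed to state the hypothesis). -/
theorem specializationExists_JZero_of_hom (hcomm : HeckeOperatorsCommuteBar N)
    (h : ∀ (ℓ : ℕ) (hℓ : ℓ.Prime), ¬ ℓ ∣ N * p →
      ∀ A : ValuationSubring (AlgebraicClosure ℚ), A.LiesOverPrime ℓ →
        ∃ (G : Type) (_ : AddCommGroup G) (ρ : JZero N →+ G),
          (∀ τ ∈ A.inertiaSubgroupIn ℚ, ∀ x : JZero N, ρ (τ • x) = ρ x) ∧
          (∀ σ : AlgebraicClosure ℚ ≃ₐ[ℚ] AlgebraicClosure ℚ, A.IsFrobeniusAt σ ℓ →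
            ∀ x : JZero N,
              ρ (σ • σ • x - heckeOperatorBar N ⟨ℓ, hℓ⟩ (σ • x) + ℓ • x) = 0) ∧
          (∀ x : JZero N, (∃ n : ℕ, p ^ n • x = 0) → ρ x = 0 → x = 0)) :
    letI := ModularCurve.heckeModuleBar N
    ∀ (_ : SMulCommClass (AlgebraicClosure ℚ ≃ₐ[ℚ] AlgebraicClosure ℚ) ModularCurve.HeckeAlg
      (ModularCurve.JZero N)),
      ModularCurve.SpecializationExists (K := ℚ) (L := AlgebraicClosure ℚ) N p
        (ModularCurve.JZero N) := by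
  intro inst
  refine @specializationExists_of_hom N p (JZero N) _ (ModularCurve.heckeModuleBar N) _ inst ?_
  intro ℓ hℓ hℓN A hA
  obtain ⟨G, iG, ρ, h1, h2, h3⟩ := h ℓ hℓ hℓN A hA
  refine ⟨G, iG, ρ, h1, ?_, h3⟩
  intro σ hσ x
  have e := heckeModuleBar_heckeGen_smul hcomm ⟨ℓ, hℓ⟩ (σ • x)
  rw [e]
  exact h2 σ hσ x

/-- **S37-shaped wrapper**, `(Φ, V)`-shape. -/
theorem specializationExists_JZero_of_reduction (hcomm : HeckeOperatorsCommuteBar N)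
    (h : ∀ (ℓ : ℕ) (hℓ : ℓ.Prime), ¬ ℓ ∣ N * p →
      ∀ A : ValuationSubring (AlgebraicClosure ℚ), A.LiesOverPrime ℓ →
        ∃ (P : Type) (_ : AddCommGroup P) (ρ : JZero N →+ P) (Φ V : P →+ P),
          (∀ y : P, V (Φ y) = ℓ • y) ∧
          (∀ τ ∈ A.inertiaSubgroupIn ℚ, ∀ x : JZero N, ρ (τ • x) = ρ x) ∧
          (∀ σ : AlgebraicClosure ℚ ≃ₐ[ℚ] AlgebraicClosure ℚ, A.IsFrobeniusAt σ ℓ →
            ∀ x : JZero N, ρ (σ • x) = Φ (ρ x)) ∧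
          (∀ x : JZero N, ρ (heckeOperatorBar N ⟨ℓ, hℓ⟩ x) = Φ (ρ x) + V (ρ x)) ∧
          (∀ x : JZero N, (∃ n : ℕ, p ^ n • x = 0) → ρ x = 0 → x = 0)) :
    letI := ModularCurve.heckeModuleBar N
    ∀ (_ : SMulCommClass (AlgebraicClosure ℚ ≃ₐ[ℚ] AlgebraicClosure ℚ) ModularCurve.HeckeAlg
      (ModularCurve.JZero N)),
      ModularCurve.SpecializationExists (K := ℚ) (L := AlgebraicClosure ℚ) N p
        (ModularCurve.JZero N) := by
  refine specializationExists_JZero_of_hom N p hcomm ?_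
  intro ℓ hℓ hℓN A hA
  obtain ⟨P, iP, ρ, Φ, V, h0, h1, h2, h3, h4⟩ := h ℓ hℓ hℓN A hA
  refine ⟨P, iP, ρ, h1, ?_, h4⟩
  intro σ hσ x
  rw [map_add, map_sub, h2 σ hσ, h2 σ hσ, h3, h2 σ hσ, h0, map_nsmul]
  abel

end JZeroWrapper

end Fermat.Agent.S37
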