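import Mathlib

set_option autoImplicit false

namespace Fermat.Agent.S37

open Polynomial

namespace CharPolyRed

section

variable {K O B : Type*} [Field K] [CommRing O] [CommRing B]
    [Algebra K O] [Algebra O B] [Algebra K B] [IsScalarTower K O B]
    {ι : Type*} [Fintype ι]

/-- the reduced coordinate map `x ↦ (ev (b.repr x i))_i`, as a `K`-linear map -/
noncomputable def coord (b : Module.Basis ι O B) (ev : O →+* K)
    (hev : ∀ a : K, ev (algebraMap K O a) = a) : B →ₗ[K] (ι → K) where
  toFun x i := ev (b.repr x i)
  map_add' x y := by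
    ext i
    simp
  map_smul' a x := by
    ext i
    show ev (b.repr (a • x) i) = a • ev (b.repr x i)
    rw [← algebraMap_smul O a x, map_smul, Finsupp.smul_apply, smul_eq_mul, map_mul, hev,
      smul_eq_mul]

variable (b : Module.Basis ι O B) (ev : O →+* K) (hev : ∀ a : K, ev (algebraMap K O a) = a)

omit [Fintype ι] in
theorem coord_apply (x : B) (i : ι) : coord b ev hev x i = ev (b.repr x i) := rfl

theorem ker_coord {π : O} (hker : RingHom.ker ev = Ideal.span {π}) :
    LinearMap.ker (coord b ev hev) = (Ideal.span {algebraMap O B π}).restrictScalars K := by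
  ext x
  simp only [LinearMap.mem_ker, Submodule.restrictScalars_mem]
  constructor
  · intro hx
    have h1 : ∀ i, ∃ r, b.repr x i = π * r := by
      intro i
      have h2 : b.repr x i ∈ RingHom.ker ev := by
        rw [RingHom.mem_ker]
        exact congrFun hx i
      rw [hker, Ideal.mem_span_singleton] at h2
      exact h2
    choose r hr using h1
    rw [Ideal.mem_span_singleton]
    refine ⟨∑ i, r i • b i, ?_⟩
    rw [← Algebra.smul_def, Finset.smul_sum]
    conv_lhs => rw [← b.sum_repr x]
    refine Finset.sum_congr rfl fun i _ => ?_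
    rw [hr i, mul_smul]
  · intro hx
    rw [Ideal.mem_span_singleton] at hx
    obtain ⟨y, rfl⟩ := hx
    ext i
    have hπ : ev π = 0 := by
      have : π ∈ RingHom.ker ev := by rw [hker]; exact Ideal.mem_span_singleton_self π
      exact this
    show ev (b.repr (algebraMap O B π * y) i) = 0
    rw [← Algebra.smul_def, map_smul, Finsupp.smul_apply, smul_eq_mul, map_mul, hπ, zero_mul]

theorem coord_surjective : Function.Surjective (coord b ev hev) := by
  intro c
  refine ⟨b.equivFun.symm (fun i => algebraMap K O (c i)), ?_⟩
  ext i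
  show ev (b.repr (b.equivFun.symm (fun i => algebraMap K O (c i))) i) = c i
  rw [← Module.Basis.equivFun_apply, LinearEquiv.apply_symm_apply, hev]

/-- the induced `K`-linear equivalence `B ⧸ π B ≃ (ι → K)` -/
noncomputable def quotEquiv {π : O} (hker : RingHom.ker ev = Ideal.span {π}) :
    (B ⧸ Ideal.span {algebraMap O B π}) ≃ₗ[K] (ι → K) :=
  (Submodule.Quotient.restrictScalarsEquiv K (Ideal.span {algebraMap O B π})).symm ≪≫ₗ
    (Submodule.quotEquivOfEq _ _ (ker_coord b ev hev hker).symm) ≪≫ₗ
    (coord b ev hev).quotKerEquivOfSurjective (coord_surjective b ev hev)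

theorem quotEquiv_mk {π : O} (hker : RingHom.ker ev = Ideal.span {π}) (x : B) :
    quotEquiv b ev hev hker (Ideal.Quotient.mk _ x) = coord b ev hev x := rfl

end

end CharPolyRed

/-- reduction: for a finite free `O`-algebra `B` and a `K`-point `ev : O → K` with kernel `(π)`, the charpoly of multiplication on `B ⧸ π B` over `K` is the image under `ev` of the charpoly over `O`. -/
theorem charpoly_mulLeft_quotient_span_eq_map {K O B : Type*} [Field K] [CommRing O] [CommRing B]
    [Algebra K O] [Algebra O B] [Algebra K B] [IsScalarTower K O B] [Module.Free O B]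
    [Module.Finite O B] (ev : O →+* K) (hev : ∀ a : K, ev (algebraMap K O a) = a) {π : O}
    (hker : RingHom.ker ev = Ideal.span {π}) (h : B) :
    ∃ _ : Module.Finite K (B ⧸ Ideal.span {algebraMap O B π}),
      (LinearMap.mulLeft K (Ideal.Quotient.mk (Ideal.span {algebraMap O B π}) h)).charpoly
        = ((LinearMap.mulLeft O h).charpoly).map ev := by
  classical
  let ι := Module.Free.ChooseBasisIndex O B
  let b : Module.Basis ι O B := Module.Free.chooseBasis O B
  let e := CharPolyRed.quotEquiv b ev hev hker
  let b' : Module.Basis ι K (B ⧸ Ideal.span {algebraMap O B π}) := Module.Basis.ofEquivFun e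
  have hb' : ∀ j, b' j = Ideal.Quotient.mk _ (b j) := by
    intro j
    rw [Module.Basis.coe_ofEquivFun, LinearEquiv.symm_apply_eq]
    ext i
    rw [CharPolyRed.quotEquiv_mk, CharPolyRed.coord_apply, Module.Basis.repr_self_apply,
      Pi.single_apply]
    split_ifs <;> simp_all
  have hM : LinearMap.toMatrix b' b' (LinearMap.mulLeft K (Ideal.Quotient.mk _ h)) =
      (LinearMap.toMatrix b b (LinearMap.mulLeft O h)).map ev := by
    ext i j
    rw [LinearMap.toMatrix_apply, Matrix.map_apply, LinearMap.toMatrix_apply, hb' j,
      LinearMap.mulLeft_apply, LinearMap.mulLeft_apply, ← map_mul,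
      Module.Basis.ofEquivFun_repr_apply, CharPolyRed.quotEquiv_mk, CharPolyRed.coord_apply]
  have hfin : Module.Finite K (B ⧸ Ideal.span {algebraMap O B π}) := Module.Finite.of_basis b'
  refine ⟨hfin, ?_⟩
  rw [← LinearMap.charpoly_toMatrix _ b', hM, Matrix.charpoly_map, LinearMap.charpoly_toMatrix]

end Fermat.Agent.S37
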