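import Fermat.Agent.S37.HeckeFF
import Fermat.Prelude.Def_AlgebraicCurve_Correspondence

/-!
P12 [EV]: evaluation at a place of a function field in one variable over an algebraically closed
field `K`, and the composite valuation ring `aInt A P = {f ∈ O_P | f(P) ∈ A}` attached to a
valuation subring `A` of `K`.

* `ev hF P : O_P →+* K` (`hF : IsFF K F`), `evF hF P : F → K` (total version, `0` outside `O_P`);
* `aInt hF A P : ValuationSubring F`, `resEv hF A P : aInt hF A P →+* ResidueField A`;
* compatibility with the frozen semilinear (Galois) action on places and with restriction of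
  places along `K`-algebra maps.
-/

set_option autoImplicit false
set_option linter.unusedSectionVars false
set_option linter.style.haveILetI false

namespace Fermat.Agent.S37

open AlgebraicCurve IntermediateField

variable {K F F' : Type*} [Field K] [Field F] [Field F'] [Algebra K F] [Algebra K F']
variable [IsAlgClosed K]

section Ev

variable (hF : IsFF K F) (P : Place K F)

/-- The residue field of a place is `K`. -/
noncomputable def residueEquiv : K ≃+* P.ResidueField :=
  RingEquiv.ofBijective (algebraMap K P.ResidueField)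
    ⟨(algebraMap K P.ResidueField).injective, hF.surjective_algebraMap_residueField P⟩

/-- **Evaluation at a place** `P`: the residue map `O_P → O_P / 𝔪_P = K`. -/
noncomputable def ev : P.toValuationSubring →+* K :=
  (residueEquiv hF P).symm.toRingHom.comp (IsLocalRing.residue P.toValuationSubring)

theorem algebraMap_ev (x : P.toValuationSubring) :
    algebraMap K P.ResidueField (ev hF P x) = IsLocalRing.residue P.toValuationSubring x :=
  (residueEquiv hF P).apply_symm_apply _

@[simp]
theorem ev_algebraMap (a : K) : ev hF P (algebraMap K P.toValuationSubring a) = a := by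
  apply (algebraMap K P.ResidueField).injective
  rw [algebraMap_ev]
  exact (IsScalarTower.algebraMap_apply K P.toValuationSubring P.ResidueField a).symm

theorem ev_eq_zero_iff (x : P.toValuationSubring) :
    ev hF P x = 0 ↔ x ∈ IsLocalRing.maximalIdeal P.toValuationSubring := by
  rw [← IsLocalRing.residue_eq_zero_iff, ← algebraMap_ev hF P x]
  exact (map_eq_zero (algebraMap K P.ResidueField)).symm

theorem sub_algebraMap_ev_mem (x : P.toValuationSubring) :
    x - algebraMap K P.toValuationSubring (ev hF P x) ∈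
      IsLocalRing.maximalIdeal P.toValuationSubring := by
  rw [← ev_eq_zero_iff hF P, map_sub, ev_algebraMap, sub_self]

theorem ev_eq_iff (x : P.toValuationSubring) (c : K) :
    ev hF P x = c ↔ x - algebraMap K P.toValuationSubring c ∈
      IsLocalRing.maximalIdeal P.toValuationSubring := by
  rw [← ev_eq_zero_iff hF P, map_sub, ev_algebraMap, sub_eq_zero]

theorem ev_ne_zero_iff_isUnit (x : P.toValuationSubring) : ev hF P x ≠ 0 ↔ IsUnit x := by
  rw [Ne, ev_eq_zero_iff, IsLocalRing.mem_maximalIdeal, mem_nonunits_iff, not_not]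

theorem ev_eq_zero_iff_ord_pos {x : P.toValuationSubring} (hx : x ≠ 0) :
    ev hF P x = 0 ↔ 0 < P.ord (x : F) := by
  rw [ev_eq_zero_iff, S24.PlacesBasic.ord_pos_iff_mem_maximalIdeal P hx]

/-- `ev` is the unique way to attach a constant: `f(P) = c` iff `f = c` or `f - c` vanishes
at `P`. -/
theorem ev_eq_iff_ord_pos (x : P.toValuationSubring) (c : K) :
    ev hF P x = c ↔ (x : F) = algebraMap K F c ∨ 0 < P.ord ((x : F) - algebraMap K F c) := by
  rw [ev_eq_iff]
  by_cases h : x - algebraMap K P.toValuationSubring c = 0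
  · rw [h]
    simp only [Ideal.zero_mem, true_iff]
    left
    have h2 := congrArg (Subtype.val) h
    exact sub_eq_zero.mp h2
  · rw [← S24.PlacesBasic.ord_pos_iff_mem_maximalIdeal P h]
    constructor
    · intro h1
      exact Or.inr h1
    · rintro (h1 | h1)
      · exact absurd (Subtype.ext (sub_eq_zero.mpr h1)) h
      · exact h1

/-- If `f(P) ≠ 0` then `f⁻¹` is regular at `P` and `f⁻¹(P) = f(P)⁻¹`. -/
theorem exists_ev_inv {f : F} (hf : f ∈ P.toValuationSubring) (hne : ev hF P ⟨f, hf⟩ ≠ 0) :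
    ∃ hinv : f⁻¹ ∈ P.toValuationSubring, ev hF P ⟨f⁻¹, hinv⟩ = (ev hF P ⟨f, hf⟩)⁻¹ := by
  obtain ⟨u, hu⟩ := (ev_ne_zero_iff_isUnit hF P _).mp hne
  have hinv : ((u⁻¹ : (P.toValuationSubring)ˣ) : P.toValuationSubring) = (f⁻¹ : F) := by
    have h1 : ((u : P.toValuationSubring) : F) = f := congrArg Subtype.val hu
    have h2 : ((u : P.toValuationSubring) : F)
        * (((u⁻¹ : (P.toValuationSubring)ˣ) : P.toValuationSubring) : F) = 1 :=
      congrArg Subtype.val (Units.mul_inv u)
    rw [h1] at h2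
    exact (eq_inv_of_mul_eq_one_right h2)
  have hmem : f⁻¹ ∈ P.toValuationSubring := hinv ▸ Subtype.prop _
  refine ⟨hmem, ?_⟩
  have h3 : (⟨f⁻¹, hmem⟩ : P.toValuationSubring)
      = ((u⁻¹ : (P.toValuationSubring)ˣ) : P.toValuationSubring) := Subtype.ext hinv.symm
  have h4 : ev hF P ⟨f, hf⟩ * ev hF P ⟨f⁻¹, hmem⟩ = 1 := by
    rw [h3, ← hu, ← map_mul, Units.mul_inv, map_one]
  exact eq_inv_of_mul_eq_one_right h4

/-- The total version of `ev`: `0` outside the valuation ring. -/
noncomputable def evF (f : F) : K :=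
  open Classical in if hf : f ∈ P.toValuationSubring then ev hF P ⟨f, hf⟩ else 0

theorem evF_of_mem {f : F} (hf : f ∈ P.toValuationSubring) : evF hF P f = ev hF P ⟨f, hf⟩ :=
  dif_pos hf

theorem evF_of_not_mem {f : F} (hf : f ∉ P.toValuationSubring) : evF hF P f = 0 :=
  dif_neg hf

@[simp]
theorem evF_coe (x : P.toValuationSubring) : evF hF P (x : F) = ev hF P x :=
  evF_of_mem hF P x.2

@[simp]
theorem evF_algebraMap (a : K) : evF hF P (algebraMap K F a) = a := by
  rw [evF_of_mem hF P (P.algebraMap_mem' a)]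
  exact ev_algebraMap hF P a

theorem evF_add {f g : F} (hf : f ∈ P.toValuationSubring) (hg : g ∈ P.toValuationSubring) :
    evF hF P (f + g) = evF hF P f + evF hF P g := by
  rw [evF_of_mem hF P hf, evF_of_mem hF P hg, evF_of_mem hF P (add_mem hf hg), ← map_add]
  rfl

theorem evF_mul {f g : F} (hf : f ∈ P.toValuationSubring) (hg : g ∈ P.toValuationSubring) :
    evF hF P (f * g) = evF hF P f * evF hF P g := by
  rw [evF_of_mem hF P hf, evF_of_mem hF P hg, evF_of_mem hF P (mul_mem hf hg), ← map_mul]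
  rfl

theorem evF_sub {f g : F} (hf : f ∈ P.toValuationSubring) (hg : g ∈ P.toValuationSubring) :
    evF hF P (f - g) = evF hF P f - evF hF P g := by
  rw [evF_of_mem hF P hf, evF_of_mem hF P hg, evF_of_mem hF P (sub_mem hf hg), ← map_sub]
  rfl

theorem evF_neg (f : F) : evF hF P (-f) = -evF hF P f := by
  by_cases hf : f ∈ P.toValuationSubring
  · rw [evF_of_mem hF P hf, evF_of_mem hF P (neg_mem hf), ← map_neg]
    rfl
  · rw [evF_of_not_mem hF P hf, evF_of_not_mem hF P (fun h => hf (by simpa using neg_mem h)),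
      neg_zero]

theorem evF_pow {f : F} (hf : f ∈ P.toValuationSubring) (n : ℕ) :
    evF hF P (f ^ n) = evF hF P f ^ n := by
  rw [evF_of_mem hF P hf, evF_of_mem hF P (pow_mem hf n), ← map_pow]
  rfl

@[simp]
theorem evF_one : evF hF P (1 : F) = 1 := by
  rw [evF_of_mem hF P (one_mem _)]
  exact map_one (ev hF P)

@[simp]
theorem evF_zero : evF hF P (0 : F) = 0 := by
  rw [evF_of_mem hF P (zero_mem _)]
  exact map_zero (ev hF P)

end Ev

section AInt

variable (hF : IsFF K F) (A : ValuationSubring K) (P : Place K F)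

/-- The composite valuation ring `W_P = {f ∈ O_P | f(P) ∈ A}`. -/
noncomputable def aInt : ValuationSubring F where
  carrier := {f | ∃ hf : f ∈ P.toValuationSubring, ev hF P ⟨f, hf⟩ ∈ A}
  mul_mem' := by
    rintro f g ⟨hf, hf'⟩ ⟨hg, hg'⟩
    refine ⟨mul_mem hf hg, ?_⟩
    have : (⟨f * g, mul_mem hf hg⟩ : P.toValuationSubring) = ⟨f, hf⟩ * ⟨g, hg⟩ := rfl
    rw [this, map_mul]
    exact mul_mem hf' hg'
  one_mem' := by
    refine ⟨one_mem _, ?_⟩
    have : (⟨1, one_mem _⟩ : P.toValuationSubring) = 1 := rfl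
    rw [this, map_one]
    exact one_mem _
  add_mem' := by
    rintro f g ⟨hf, hf'⟩ ⟨hg, hg'⟩
    refine ⟨add_mem hf hg, ?_⟩
    have : (⟨f + g, add_mem hf hg⟩ : P.toValuationSubring) = ⟨f, hf⟩ + ⟨g, hg⟩ := rfl
    rw [this, map_add]
    exact add_mem hf' hg'
  zero_mem' := by
    refine ⟨zero_mem _, ?_⟩
    have : (⟨0, zero_mem _⟩ : P.toValuationSubring) = 0 := rfl
    rw [this, map_zero]
    exact zero_mem _
  neg_mem' := by
    rintro f ⟨hf, hf'⟩
    refine ⟨neg_mem hf, ?_⟩
    have : (⟨-f, neg_mem hf⟩ : P.toValuationSubring) = -⟨f, hf⟩ := rfl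
    rw [this, map_neg]
    exact neg_mem hf'
  mem_or_inv_mem' := by
    intro f
    by_cases hf : f ∈ P.toValuationSubring
    · by_cases hA : ev hF P ⟨f, hf⟩ ∈ A
      · exact Or.inl ⟨hf, hA⟩
      · right
        have hne : ev hF P ⟨f, hf⟩ ≠ 0 := fun h => hA (h ▸ zero_mem _)
        obtain ⟨u, hu⟩ := (ev_ne_zero_iff_isUnit hF P _).mp hne
        have hinv : ((u⁻¹ : (P.toValuationSubring)ˣ) : P.toValuationSubring) = (f⁻¹ : F) := by
          have h1 : ((u : P.toValuationSubring) : F) = f := congrArg Subtype.val hu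
          have h2 : ((u : P.toValuationSubring) : F)
              * (((u⁻¹ : (P.toValuationSubring)ˣ) : P.toValuationSubring) : F) = 1 :=
            congrArg Subtype.val (Units.mul_inv u)
          rw [h1] at h2
          exact (eq_inv_of_mul_eq_one_right h2)
        have hmem : f⁻¹ ∈ P.toValuationSubring := hinv ▸ Subtype.prop _
        refine ⟨hmem, ?_⟩
        have h3 : (⟨f⁻¹, hmem⟩ : P.toValuationSubring)
            = ((u⁻¹ : (P.toValuationSubring)ˣ) : P.toValuationSubring) := Subtype.ext hinv.symm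
        have h4 : ev hF P ⟨f, hf⟩ * ev hF P ⟨f⁻¹, hmem⟩ = 1 := by
          rw [h3, ← hu, ← map_mul, Units.mul_inv, map_one]
        rw [eq_inv_of_mul_eq_one_right h4]
        exact (A.mem_or_inv_mem _).resolve_left hA
    · right
      have hmem : f⁻¹ ∈ P.toValuationSubring :=
        (P.toValuationSubring.mem_or_inv_mem f).resolve_left hf
      refine ⟨hmem, ?_⟩
      have h0 : ev hF P ⟨f⁻¹, hmem⟩ = 0 := by
        by_contra hne
        obtain ⟨u, hu⟩ := (ev_ne_zero_iff_isUnit hF P _).mp hne
        apply hf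
        have h1 : ((u : P.toValuationSubring) : F) = f⁻¹ := congrArg Subtype.val hu
        have h2 : ((u : P.toValuationSubring) : F)
            * (((u⁻¹ : (P.toValuationSubring)ˣ) : P.toValuationSubring) : F) = 1 :=
          congrArg Subtype.val (Units.mul_inv u)
        rw [h1] at h2
        have h3 : (((u⁻¹ : (P.toValuationSubring)ˣ) : P.toValuationSubring) : F) = f := by
          have := eq_inv_of_mul_eq_one_right h2
          rwa [inv_inv] at this
        exact h3 ▸ Subtype.prop _
      rw [h0]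
      exact zero_mem _

theorem mem_aInt_iff {f : F} :
    f ∈ aInt hF A P ↔ ∃ hf : f ∈ P.toValuationSubring, ev hF P ⟨f, hf⟩ ∈ A :=
  Iff.rfl

theorem mem_aInt_iff_evF {f : F} :
    f ∈ aInt hF A P ↔ f ∈ P.toValuationSubring ∧ evF hF P f ∈ A := by
  rw [mem_aInt_iff]
  constructor
  · rintro ⟨hf, h⟩
    exact ⟨hf, by rwa [evF_of_mem hF P hf]⟩
  · rintro ⟨hf, h⟩
    exact ⟨hf, by rwa [evF_of_mem hF P hf] at h⟩

theorem aInt_le : aInt hF A P ≤ P.toValuationSubring := fun _ hf => hf.1

theorem mem_of_mem_aInt {f : F} (hf : f ∈ aInt hF A P) : f ∈ P.toValuationSubring := hf.1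

theorem ev_mem_of_mem_aInt {f : F} (hf : f ∈ aInt hF A P) : ev hF P ⟨f, hf.1⟩ ∈ A := hf.2

theorem algebraMap_mem_aInt {a : K} (ha : a ∈ A) : algebraMap K F a ∈ aInt hF A P := by
  refine ⟨P.algebraMap_mem' a, ?_⟩
  have : (⟨algebraMap K F a, P.algebraMap_mem' a⟩ : P.toValuationSubring)
      = algebraMap K P.toValuationSubring a := rfl
  rw [this, ev_algebraMap]
  exact ha

theorem aInt_mem_or_inv_mem (f : F) : f ∈ aInt hF A P ∨ f⁻¹ ∈ aInt hF A P :=
  (aInt hF A P).mem_or_inv_mem f

/-- `aInt` is integrally closed: an element of `F` integral over a subring of `aInt` lies in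
`aInt`. -/
theorem mem_aInt_of_isIntegral (R : Subring F) (hR : R ≤ (aInt hF A P).toSubring) {f : F}
    (hf : IsIntegral R f) : f ∈ aInt hF A P := by
  obtain ⟨p, hpm, hp⟩ := hf
  let ι : R →+* (aInt hF A P) := Subring.inclusion hR
  have hint : IsIntegral (aInt hF A P) f := by
    refine ⟨p.map ι, hpm.map ι, ?_⟩
    rw [Polynomial.eval₂_map]
    exact hp
  obtain ⟨x, hx⟩ := IsIntegrallyClosed.isIntegral_iff.mp hint
  rw [← hx]
  exact x.2

/-- Reduction of the value at `P`: `aInt A P → A → A / 𝔪_A`. -/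
noncomputable def resEv : aInt hF A P →+* IsLocalRing.ResidueField A :=
  (IsLocalRing.residue A).comp
    { toFun := fun f => ⟨ev hF P ⟨(f : F), f.2.1⟩, f.2.2⟩
      map_one' := Subtype.ext (map_one (ev hF P))
      map_mul' := fun f g => Subtype.ext (map_mul (ev hF P) ⟨(f : F), f.2.1⟩ ⟨(g : F), g.2.1⟩)
      map_zero' := Subtype.ext (map_zero (ev hF P))
      map_add' := fun f g => Subtype.ext (map_add (ev hF P) ⟨(f : F), f.2.1⟩ ⟨(g : F), g.2.1⟩) }

theorem resEv_apply (f : aInt hF A P) :
    resEv hF A P f = IsLocalRing.residue A ⟨ev hF P ⟨(f : F), f.2.1⟩, f.2.2⟩ :=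
  rfl

theorem resEv_mk {f : F} (hf : f ∈ aInt hF A P) :
    resEv hF A P ⟨f, hf⟩ = IsLocalRing.residue A ⟨ev hF P ⟨f, hf.1⟩, hf.2⟩ :=
  rfl

theorem resEv_algebraMap {a : K} (ha : a ∈ A) :
    resEv hF A P ⟨algebraMap K F a, algebraMap_mem_aInt hF A P ha⟩
      = IsLocalRing.residue A ⟨a, ha⟩ := by
  rw [resEv_mk]
  congr 1
  apply Subtype.ext
  exact ev_algebraMap hF P a

/-- Unit criterion: if the reduced value of `f` is nonzero then `f⁻¹ ∈ aInt`. -/
theorem inv_mem_aInt_of_resEv_ne_zero {f : F} (hf : f ∈ aInt hF A P)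
    (h : resEv hF A P ⟨f, hf⟩ ≠ 0) : f⁻¹ ∈ aInt hF A P := by
  have hne : ev hF P ⟨f, hf.1⟩ ≠ 0 := by
    intro h0
    apply h
    rw [resEv_mk]
    have : (⟨ev hF P ⟨f, hf.1⟩, hf.2⟩ : A) = 0 := Subtype.ext h0
    rw [this, map_zero]
  obtain ⟨hinv, hev⟩ := exists_ev_inv hF P hf.1 hne
  refine ⟨hinv, ?_⟩
  rw [hev]
  -- the value is a unit of `A`
  have hunit : IsUnit (⟨ev hF P ⟨f, hf.1⟩, hf.2⟩ : A) := by
    rw [← IsLocalRing.residue_ne_zero_iff_isUnit]
    exact h
  obtain ⟨u, hu⟩ := hunit
  have h2 : ((u : A) : K) * (((u⁻¹ : Aˣ) : A) : K) = 1 := congrArg Subtype.val (Units.mul_inv u)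
  have h1 : ((u : A) : K) = ev hF P ⟨f, hf.1⟩ := congrArg Subtype.val hu
  rw [h1] at h2
  rw [← eq_inv_of_mul_eq_one_right h2]
  exact Subtype.prop _

end AInt

section Galois

open scoped Pointwise

variable (hF : IsFF K F) (P : Place K F)

/-- **Galois compatibility of evaluation** (frozen semilinear action on places):
`(g f)(g P) = g (f(P))`. -/
theorem ev_smul (g : SemilinearAut K F) (x : P.toValuationSubring) :
    ev hF (g • P) (SemilinearAut.smulValuationSubringEquiv g P.toValuationSubring x)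
      = SemilinearAut.baseAut g (ev hF P x) := by
  set e := SemilinearAut.smulValuationSubringEquiv g P.toValuationSubring with he
  rw [ev_eq_iff]
  have h1 : e (algebraMap K P.toValuationSubring (ev hF P x))
      = algebraMap K (g • P).toValuationSubring (SemilinearAut.baseAut g (ev hF P x)) := by
    apply Subtype.ext
    rw [he, SemilinearAut.coe_smulValuationSubringEquiv_apply, Place.coe_algebraMap,
      SemilinearAut.smul_algebraMap]
    exact (Place.coe_algebraMap (g • P) _).symm
  have h2 : e x - algebraMap K (g • P).toValuationSubring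
      (SemilinearAut.baseAut g (ev hF P x))
      = e (x - algebraMap K P.toValuationSubring (ev hF P x)) := by
    rw [map_sub, h1]
  rw [h2]
  have h3 := sub_algebraMap_ev_mem hF P x
  rw [IsLocalRing.mem_maximalIdeal, mem_nonunits_iff] at h3 ⊢
  intro hu
  apply h3
  have hu' := hu.map e.symm
  rwa [RingEquiv.symm_apply_apply] at hu'

theorem smul_mem_smul_iff (g : SemilinearAut K F) (f : F) :
    g • f ∈ (g • P).toValuationSubring ↔ f ∈ P.toValuationSubring := by
  rw [SemilinearAut.smul_toValuationSubring,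
    ValuationSubring.mem_pointwise_smul_iff_inv_smul_mem, inv_smul_smul]

/-- Total version of `ev_smul`: `evF (g • P) (g • f) = g (evF P f)`. -/
theorem evF_smul (g : SemilinearAut K F) (f : F) :
    evF hF (g • P) (g • f) = SemilinearAut.baseAut g (evF hF P f) := by
  by_cases hf : f ∈ P.toValuationSubring
  · have hgf : g • f ∈ (g • P).toValuationSubring := (smul_mem_smul_iff P g f).mpr hf
    rw [evF_of_mem hF P hf, evF_of_mem hF (g • P) hgf, ← ev_smul hF P g ⟨f, hf⟩]
    rfl
  · have hgf : g • f ∉ (g • P).toValuationSubring := fun h => hf ((smul_mem_smul_iff P g f).mp h)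
    rw [evF_of_not_mem hF P hf, evF_of_not_mem hF (g • P) hgf, map_zero]

end Galois

section Restrict

variable (hF : IsFF K F) (hF' : IsFF K F') (φ : F →ₐ[K] F') (hφ : φ.toRingHom.IsIntegral)
  (P' : Place K F')

theorem mem_restrictAlong_iff {f : F} :
    f ∈ (P'.restrictAlong φ hφ).toValuationSubring ↔ φ f ∈ P'.toValuationSubring :=
  Iff.rfl

/-- **Evaluation and restriction of places**: `f(P'|_φ) = (φ f)(P')`. -/
theorem evF_restrictAlong (f : F) :
    evF hF (P'.restrictAlong φ hφ) f = evF hF' P' (φ f) := by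
  by_cases hf : f ∈ (P'.restrictAlong φ hφ).toValuationSubring
  · have hf' : φ f ∈ P'.toValuationSubring := (mem_restrictAlong_iff φ hφ P').mp hf
    rw [evF_of_mem hF _ hf, evF_of_mem hF' P' hf', ev_eq_iff_ord_pos]
    have h := (ev_eq_iff_ord_pos hF' P' ⟨φ f, hf'⟩ (ev hF' P' ⟨φ f, hf'⟩)).mp rfl
    have hsub : φ f - algebraMap K F' (ev hF' P' ⟨φ f, hf'⟩)
        = φ (f - algebraMap K F (ev hF' P' ⟨φ f, hf'⟩)) := by
      rw [map_sub, φ.commutes]
    rcases h with h | h
    · left
      apply φ.injective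
      show φ f = φ (algebraMap K F (ev hF' P' ⟨φ f, hf'⟩))
      rw [φ.commutes]
      exact h
    · right
      have h2 : 0 < P'.ord (φ (f - algebraMap K F (ev hF' P' ⟨φ f, hf'⟩))) := by
        rw [← hsub]
        exact h
      rw [Place.ord_restrictAlong φ hφ] at h2
      by_contra hle
      have hle' : (P'.restrictAlong φ hφ).ord (f - algebraMap K F (ev hF' P' ⟨φ f, hf'⟩)) ≤ 0 :=
        not_lt.mp hle
      have : (Place.ramificationIndexAlong φ P' : ℤ)
          * (P'.restrictAlong φ hφ).ord (f - algebraMap K F (ev hF' P' ⟨φ f, hf'⟩)) ≤ 0 :=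
        mul_nonpos_of_nonneg_of_nonpos (Int.natCast_nonneg _) hle'
      omega
  · have hf' : φ f ∉ P'.toValuationSubring := fun h => hf ((mem_restrictAlong_iff φ hφ P').mpr h)
    rw [evF_of_not_mem hF _ hf, evF_of_not_mem hF' P' hf']

theorem ev_restrictAlong (x : (P'.restrictAlong φ hφ).toValuationSubring) :
    ev hF (P'.restrictAlong φ hφ) x
      = ev hF' P' ⟨φ (x : F), (mem_restrictAlong_iff φ hφ P').mp x.2⟩ := by
  have h := evF_restrictAlong hF hF' φ hφ P' (x : F)
  rw [evF_coe, evF_of_mem hF' P' ((mem_restrictAlong_iff φ hφ P').mp x.2)] at h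
  exact h

/-- `aInt` and restriction: `f ∈ aInt A (P'|_φ) ↔ φ f ∈ aInt A P'`. -/
theorem mem_aInt_restrictAlong_iff (A : ValuationSubring K) {f : F} :
    f ∈ aInt hF A (P'.restrictAlong φ hφ) ↔ φ f ∈ aInt hF' A P' := by
  rw [mem_aInt_iff_evF, mem_aInt_iff_evF, evF_restrictAlong hF hF' φ hφ P' f]
  rfl

end Restrict

end Fermat.Agent.S37
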