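import Fermat.Agent.S37.HeckeAlong
import Fermat.Agent.S37.Eval
import Fermat.Agent.S37.CharPolyAlong
import Fermat.Agent.S37.CharPolyCRT
import Fermat.Agent.S37.CharPolyRed

/-!
P12 [CP]: the characteristic polynomial at a place.

For a finite extension `F' / F` of function fields in one variable over an algebraically closed
field `K` of characteristic zero, a place `v` of `F` and `h ∈ F'` regular at all places above `v`:
the characteristic polynomial of (multiplication by) `h` over `F` has coefficients in `O_v` and

  `ev_v (charpoly_{F'/F} h) = ∏_{W | v} (X - h(W)) ^ e(W | v)`.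

* `HeckeLoc.exists_charpoly_place` (classes version), `HeckeLoc.coeff_charpoly_mem`,
  `HeckeLoc.evF_coeff_charpoly`;
* `exists_charpolyAlong_place`, `coeff_charpolyAlong_mem`, `evF_coeff_charpolyAlong`
  (along a `K`-algebra map `φ : F →ₐ[K] F'`, in terms of `charpolyAlong`, `Place.fiberAlong`,
  `Place.ramificationIndexAlong`).
-/

set_option autoImplicit false
set_option linter.unusedSectionVars false
set_option linter.style.haveILetI false

namespace Fermat.Agent.S37

open AlgebraicCurve IntermediateField IsDedekindDomain Polynomial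

/-- Localization: the charpoly of multiplication by `h` on a finite free `O`-algebra `B` maps to
the charpoly of multiplication on the localization. -/
theorem charpoly_mulLeft_map_algebraMap_of_isLocalization {O B F F' : Type*} [CommRing O]
    [CommRing B] [Algebra O B] [Module.Free O B] [Module.Finite O B]
    [Field F] [Field F'] [Algebra O F] [Algebra F F'] [Algebra O F'] [Algebra B F']
    [IsScalarTower O F F'] [IsScalarTower O B F'] (M : Submonoid O) [IsLocalization M F]
    [IsLocalization (Algebra.algebraMapSubmonoid B M) F'] [Module.Finite F F'] (h : B) :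
    ((LinearMap.mulLeft O h).charpoly).map (algebraMap O F)
      = (LinearMap.mulLeft F (algebraMap B F' h)).charpoly := by
  classical
  let b := Module.Free.chooseBasis O B
  have h1 : (LinearMap.mulLeft O h).charpoly = (Algebra.leftMulMatrix b h).charpoly := by
    rw [Algebra.leftMulMatrix_apply]
    exact (LinearMap.charpoly_toMatrix _ b).symm
  have h2 : (LinearMap.mulLeft F (algebraMap B F' h)).charpoly
      = (Algebra.leftMulMatrix (b.localizationLocalization F M F') (algebraMap B F' h)).charpoly := by
    rw [Algebra.leftMulMatrix_apply]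
    exact (LinearMap.charpoly_toMatrix _ _).symm
  rw [h1, h2, ← Algebra.map_leftMulMatrix_localization O M b h, RingHom.mapMatrix_apply,
    Matrix.charpoly_map]

namespace HeckeLoc

variable {K F F' : Type*} [Field K] [Field F] [Field F'] [Algebra K F] [Algebra K F']
variable [Algebra F F'] [IsScalarTower K F F']

attribute [local instance] isScalarTower_valuationSubring

variable [IsAlgClosed K] [CharZero K] [Module.Finite F F']

/-- An element of `F'` which is regular at all places above `v` lies in `B`. -/
theorem mem_BB_of_forall_mem [HasPrincipalDivisors K F'] (v : Place K F) {h : F'}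
    (hh : ∀ W ∈ v.fiber F', h ∈ W.toValuationSubring) : h ∈ BB F' v := by
  haveI := isDedekindDomain_BB (F' := F') v
  haveI := isFractionRing_BB (F' := F') v
  have h1 : h ∈ (algebraMap (BB F' v) F').range := by
    refine HeightOneSpectrum.mem_integers_of_valuation_le_one F' h fun P => ?_
    have h2 : h ∈ (placeOf v P).toValuationSubring :=
      hh _ (Place.mem_fiber.mpr (restrict_placeOf v P))
    exact h2
  obtain ⟨b, rfl⟩ := h1
  exact b.2

/-- The value of `b ∈ B` at the place attached to the prime `P` is its class modulo `P`. -/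
theorem sub_algebraMap_evF_mem (hF' : IsFF K F') (v : Place K F)
    (P : HeightOneSpectrum (BB F' v)) (b : BB F' v) :
    b - algebraMap K (BB F' v) (evF hF' (placeOf v P) (b : F')) ∈ P.asIdeal := by
  have hbW : (b : F') ∈ (placeOf v P).toValuationSubring :=
    coe_mem_of_restrict_eq v _ (restrict_placeOf v P) b
  by_cases h0 : b - algebraMap K (BB F' v) (evF hF' (placeOf v P) (b : F')) = 0
  · rw [h0]
    exact zero_mem _
  · rw [← ord_placeOf_pos_iff v P h0]
    have h1 : ev hF' (placeOf v P) ⟨(b : F'), hbW⟩ = evF hF' (placeOf v P) (b : F') :=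
      (evF_of_mem hF' _ hbW).symm
    rcases (ev_eq_iff_ord_pos hF' (placeOf v P) ⟨_, hbW⟩ _).mp h1 with h2 | h2
    · exfalso
      apply h0
      apply Subtype.ext
      exact sub_eq_zero.mpr h2
    · exact h2

/-- `K → B ⧸ P` is surjective. -/
theorem surjective_algebraMap_quotient_BB (hF' : IsFF K F') (v : Place K F)
    (P : HeightOneSpectrum (BB F' v)) :
    Function.Surjective (algebraMap K (BB F' v ⧸ P.asIdeal)) := by
  intro z
  obtain ⟨b, rfl⟩ := Ideal.Quotient.mk_surjective z
  refine ⟨evF hF' (placeOf v P) (b : F'), ?_⟩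
  rw [IsScalarTower.algebraMap_apply K (BB F' v) (BB F' v ⧸ P.asIdeal),
    Ideal.Quotient.algebraMap_eq, eq_comm, Ideal.Quotient.eq]
  exact sub_algebraMap_evF_mem hF' v P b

variable [HasPrincipalDivisors K F']

/-- **Characteristic polynomial at a place.**  If `h ∈ F'` is regular at all places above `v`,
the characteristic polynomial of `h` over `F` has coefficients in `O_v`, and its value at `v` is
`∏_{W | v} (X - h(W)) ^ e(W | v)`. -/
theorem exists_charpoly_place (hF : IsFF K F) (hF' : IsFF K F') (v : Place K F) {h : F'}
    (hh : ∀ W ∈ v.fiber F', h ∈ W.toValuationSubring) :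
    ∃ p : Polynomial v.toValuationSubring,
      p.map v.toValuationSubring.subtype = (LinearMap.mulLeft F h).charpoly ∧
      p.map (ev hF v) = ∏ W ∈ v.fiber F', (X - C (evF hF' W h)) ^ W.ramificationIndex F := by
  classical
  haveI := isDedekindDomain_BB (F' := F') v
  haveI := isFractionRing_BB (F' := F') v
  haveI := moduleFinite_BB (F' := F') v
  haveI := isTorsionFree_F' (F' := F') v
  haveI := finite_heightOneSpectrum (F' := F') v
  haveI := charZero_of_algebra K F
  letI : Fintype (HeightOneSpectrum (BB F' v)) := Fintype.ofFinite _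
  haveI : Module.Free v.toValuationSubring (BB F' v) :=
    IsIntegralClosure.module_free v.toValuationSubring F F' (BB F' v)
  haveI : IsLocalization (Algebra.algebraMapSubmonoid (BB F' v)
      (nonZeroDivisors v.toValuationSubring)) F' :=
    IsIntegralClosure.isLocalization v.toValuationSubring F F' (BB F' v)
  obtain ⟨π, hπ⟩ := IsDiscreteValuationRing.exists_irreducible v.toValuationSubring
  have hπ0 : (π : F) ≠ 0 := fun h => hπ.ne_zero (Subtype.ext h)
  have hab : algebraMap v.toValuationSubring (BB F' v) π ≠ 0 := by
    intro h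
    apply hπ0
    have h2 := congrArg (algebraMap (BB F' v) F') h
    rw [algebraMap_BB_apply, map_zero] at h2
    exact (map_eq_zero _).mp h2
  let b : BB F' v := ⟨h, mem_BB_of_forall_mem v hh⟩
  have hker : RingHom.ker (ev hF v) = Ideal.span {π} := by
    rw [← hπ.maximalIdeal_eq]
    ext x
    rw [RingHom.mem_ker, ev_eq_zero_iff]
  obtain ⟨hfinB, hB⟩ := charpoly_mulLeft_quotient_span_eq_map (K := K)
    (O := v.toValuationSubring) (B := BB F' v) (ev hF v) (ev_algebraMap hF v) hker b
  obtain ⟨hfinA, hA⟩ := charpoly_mulLeft_quotient_span_of_dedekind (K := K) hab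
    (surjective_algebraMap_quotient_BB hF' v) b (fun P => evF hF' (placeOf v P) h)
    (fun P => sub_algebraMap_evF_mem hF' v P b)
  have hC := charpoly_mulLeft_map_algebraMap_of_isLocalization (O := v.toValuationSubring)
    (B := BB F' v) (F := F) (F' := F') (nonZeroDivisors v.toValuationSubring) b
  refine ⟨(LinearMap.mulLeft v.toValuationSubring b).charpoly, hC, ?_⟩
  rw [← hB, hA]
  have hfib : v.fiber F' = Finset.univ.image (placeOf (F' := F') v) := by
    apply Finset.coe_injective
    rw [coe_fiber_eq_range, Finset.coe_image, Finset.coe_univ, Set.image_univ]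
  rw [hfib, Finset.prod_image (fun P _ Q _ hPQ => placeOf_injective v hPQ)]
  refine Finset.prod_congr rfl fun P _ => ?_
  have he := ramificationIndex_placeOf v hπ P
  have he' : (placeOf v P).ramificationIndex F
      = multiplicity P.asIdeal (Ideal.span {algebraMap v.toValuationSubring (BB F' v) π}) := by
    exact_mod_cast he
  rw [he']

/-- The coefficients of the characteristic polynomial of `h` are regular at `v`. -/
theorem coeff_charpoly_mem (hF : IsFF K F) (hF' : IsFF K F') (v : Place K F) {h : F'}
    (hh : ∀ W ∈ v.fiber F', h ∈ W.toValuationSubring) (i : ℕ) :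
    (LinearMap.mulLeft F h).charpoly.coeff i ∈ v.toValuationSubring := by
  obtain ⟨p, hp, -⟩ := exists_charpoly_place hF hF' v hh
  rw [← hp, coeff_map]
  exact (p.coeff i).2

/-- The values at `v` of the coefficients of the characteristic polynomial of `h`. -/
theorem evF_coeff_charpoly (hF : IsFF K F) (hF' : IsFF K F') (v : Place K F) {h : F'}
    (hh : ∀ W ∈ v.fiber F', h ∈ W.toValuationSubring) (i : ℕ) :
    evF hF v ((LinearMap.mulLeft F h).charpoly.coeff i)
      = (∏ W ∈ v.fiber F', (X - C (evF hF' W h)) ^ W.ramificationIndex F).coeff i := by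
  obtain ⟨p, hp, hp'⟩ := exists_charpoly_place hF hF' v hh
  rw [← hp', ← hp, coeff_map, coeff_map]
  exact evF_coe hF v (p.coeff i)

end HeckeLoc

section Along

variable {K F F' : Type*} [Field K] [Field F] [Field F'] [Algebra K F] [Algebra K F']
variable [IsAlgClosed K] [CharZero K] [HasPrincipalDivisors K F']

/-- **Characteristic polynomial at a place, along a `K`-algebra map.**  If `h ∈ F'` is regular at
all places above `v` (along `φ`), then `charpolyAlong φ h` has coefficients in `O_v`, and its
value at `v` is `∏_{W | v} (X - h(W)) ^ e_φ(W)`. -/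
theorem exists_charpolyAlong_place (hF : IsFF K F) (hF' : IsFF K F') (φ : F →ₐ[K] F')
    (hφ : φ.toRingHom.IsIntegral) (v : Place K F) {h : F'}
    (hh : ∀ W ∈ Place.fiberAlong φ hφ v, h ∈ W.toValuationSubring) :
    ∃ p : Polynomial ↥v.toValuationSubring,
      p.map v.toValuationSubring.subtype = charpolyAlong φ h ∧
      p.map (ev hF v)
        = ∏ W ∈ Place.fiberAlong φ hφ v, (X - C (evF hF' W h)) ^ (W.ramificationIndexAlong φ) := by
  rw [charpolyAlong_eq φ (finiteAlong_of_isFF hF hF' φ)]
  letI := algebraAlong φ
  haveI := isScalarTower_along φ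
  haveI := isIntegral_along φ hφ
  haveI : Module.Finite F F' := finiteAlong_of_isFF hF hF' φ
  exact HeckeLoc.exists_charpoly_place hF hF' v hh

/-- The coefficients of `charpolyAlong φ h` are regular at `v`. -/
theorem coeff_charpolyAlong_mem (hF : IsFF K F) (hF' : IsFF K F') (φ : F →ₐ[K] F')
    (hφ : φ.toRingHom.IsIntegral) (v : Place K F) {h : F'}
    (hh : ∀ W ∈ Place.fiberAlong φ hφ v, h ∈ W.toValuationSubring) (i : ℕ) :
    (charpolyAlong φ h).coeff i ∈ v.toValuationSubring := by
  obtain ⟨p, hp, -⟩ := exists_charpolyAlong_place hF hF' φ hφ v hh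
  rw [← hp, coeff_map]
  exact (p.coeff i).2

/-- The values at `v` of the coefficients of `charpolyAlong φ h`. -/
theorem evF_coeff_charpolyAlong (hF : IsFF K F) (hF' : IsFF K F') (φ : F →ₐ[K] F')
    (hφ : φ.toRingHom.IsIntegral) (v : Place K F) {h : F'}
    (hh : ∀ W ∈ Place.fiberAlong φ hφ v, h ∈ W.toValuationSubring) (i : ℕ) :
    evF hF v ((charpolyAlong φ h).coeff i)
      = (∏ W ∈ Place.fiberAlong φ hφ v,
          (X - C (evF hF' W h)) ^ (W.ramificationIndexAlong φ)).coeff i := by
  obtain ⟨p, hp, hp'⟩ := exists_charpolyAlong_place hF hF' φ hφ v hh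
  rw [← hp', ← hp, coeff_map, coeff_map]
  exact evF_coe hF v (p.coeff i)

end Along

end Fermat.Agent.S37
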