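import Fermat.Agent.S37.ChartModel

set_option autoImplicit false

/-!
# S37 (Tier 2, [WC]): the `A`-algebra structure on a chart model `𝔅 ⊂ F`

`ChartIncl A 𝔅` records `A ⊂ 𝔅`; it gives `Algebra A 𝔅` (`chartAlgebra`), and evaluation at a
place `P` with `𝔅 ⊂ O_P` becomes an `A`-algebra homomorphism `evHom : 𝔅 →ₐ[A] Ω`.
-/

namespace Fermat.Agent.S37

open AlgebraicCurve

variable {Ω F : Type*} [Field Ω] [Field F] [Algebra Ω F]

/-- `A ⊂ 𝔅` (the constants of `A` lie in the subring `𝔅` of `F`). -/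
class ChartIncl (A : ValuationSubring Ω) (𝔅 : Subring F) : Prop where
  mem : ∀ α : A, algebraMap Ω F (α : Ω) ∈ 𝔅

theorem IsChartModel.chartIncl {A : ValuationSubring Ω} {x : F} {𝔅 : Subring F}
    (hM : IsChartModel A x 𝔅) : ChartIncl A 𝔅 :=
  ⟨hM.algebraMap_mem⟩

/-- The structure map `A → 𝔅`. -/
def chartMap (A : ValuationSubring Ω) (𝔅 : Subring F) [h : ChartIncl A 𝔅] : A →+* 𝔅 :=
  ((algebraMap Ω F).comp A.subtype).codRestrict 𝔅 h.mem

/-- The `A`-algebra structure on `𝔅`. -/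
instance chartAlgebra (A : ValuationSubring Ω) (𝔅 : Subring F) [ChartIncl A 𝔅] :
    Algebra A 𝔅 :=
  (chartMap A 𝔅).toAlgebra

section

variable {A : ValuationSubring Ω} {𝔅 : Subring F} [ChartIncl A 𝔅]

@[simp] theorem coe_algebraMap_chart (α : A) :
    ((algebraMap A 𝔅 α : 𝔅) : F) = algebraMap Ω F (α : Ω) := rfl

theorem algebraMap_chart_eq (α : A) :
    algebraMap A 𝔅 α = ⟨algebraMap Ω F (α : Ω), ChartIncl.mem α⟩ := rfl

@[simp] theorem coe_smul_chart (α : A) (b : 𝔅) :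
    ((α • b : 𝔅) : F) = algebraMap Ω F (α : Ω) * (b : F) := by
  rw [Algebra.smul_def]
  rfl

theorem algebraMap_chart_injective : Function.Injective (algebraMap A 𝔅) := by
  intro α β hαβ
  have h1 : algebraMap Ω F (α : Ω) = algebraMap Ω F (β : Ω) := by
    have := congrArg (fun b : 𝔅 => (b : F)) hαβ
    simpa using this
  exact Subtype.ext ((algebraMap Ω F).injective h1)

instance chart_faithfulSMul : FaithfulSMul A 𝔅 :=
  (faithfulSMul_iff_algebraMap_injective A 𝔅).mpr algebraMap_chart_injective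

/-- `𝔅` is `A`-torsion-free. -/
theorem smul_chart_eq_zero {m : A} {b : 𝔅} (hm : m ≠ 0) (h : m • b = 0) : b = 0 := by
  have h1 : algebraMap Ω F (m : Ω) * (b : F) = 0 := by
    have := congrArg (fun b : 𝔅 => (b : F)) h
    simpa using this
  rcases mul_eq_zero.mp h1 with h2 | h2
  · exfalso
    apply hm
    apply Subtype.ext
    exact (map_eq_zero (algebraMap Ω F)).mp h2
  · exact Subtype.ext h2

/-- `InMaxMul` in terms of the ideal `𝔪𝔅`. -/
theorem mem_map_maximalIdeal_of_inMaxMul {a : 𝔅} (h : InMaxMul A 𝔅 (a : F)) :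
    a ∈ Ideal.map (algebraMap A 𝔅) (IsLocalRing.maximalIdeal A) := by
  obtain ⟨m, hm, b, hb, hab⟩ := h
  have : a = algebraMap A 𝔅 m * ⟨b, hb⟩ := Subtype.ext hab
  rw [this]
  exact Ideal.mul_mem_right _ _ (Ideal.mem_map_of_mem _ hm)

end

section Ev

variable [IsAlgClosed Ω] (hF : IsFF Ω F) (A : ValuationSubring Ω) {𝔅 : Subring F}
  [ChartIncl A 𝔅]

/-- Evaluation at a place `P` with `𝔅 ⊂ O_P`, as an `A`-algebra homomorphism `𝔅 → Ω`. -/
noncomputable def evHom (P : Place Ω F) (h : 𝔅 ≤ P.toValuationSubring.toSubring) :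
    𝔅 →ₐ[A] Ω where
  toRingHom := (ev hF P).comp (Subring.inclusion h)
  commutes' α := ev_algebraMap hF P (α : Ω)

theorem evHom_apply (P : Place Ω F) (h : 𝔅 ≤ P.toValuationSubring.toSubring) (b : 𝔅) :
    evHom hF A P h b = evF hF P (b : F) := by
  rw [evF_of_mem hF P (h b.2)]
  rfl

end Ev

end Fermat.Agent.S37
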