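import Fermat.Agent.S37.ChartAlg
import Fermat.Agent.S37.Weierstrass

set_option autoImplicit false

/-!
# S37 (Tier 2, [WC]): translation of `IsChartModel` into the abstract hypotheses of Part A

For a chart model `𝔅 ⊂ F` over the valuation subring `A ⊂ Ω`:
finiteness of `𝔅` over `A[x]`, torsion-freeness of `𝔅 / a𝔅`, the polynomial `G` with `a ∣ G(x)`,
and points of the special fibre as `A`-algebra homomorphisms.
-/

namespace Fermat.Agent.S37

open AlgebraicCurve Polynomial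

variable {Ω F : Type*} [Field Ω] [Field F] [Algebra Ω F]

/-- Elements outside `𝔪𝔅` are nonzero. -/
theorem ne_zero_of_not_inMaxMul {A : ValuationSubring Ω} {𝔅 : Subring F} {a : F}
    (h : ¬ InMaxMul A 𝔅 a) : a ≠ 0 := by
  rintro rfl
  exact h ⟨0, zero_mem _, 0, zero_mem _, by simp⟩

section Trans

variable {A : ValuationSubring Ω} {x : F} {𝔅 : Subring F} [ChartIncl A 𝔅]

/-- coercion of a polynomial in `x` with coefficients in `A`. -/
theorem coe_aeval_chart (hx : x ∈ 𝔅) (p : Polynomial A) :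
    ((aeval (⟨x, hx⟩ : 𝔅) p : 𝔅) : F) = aeval x (p.map A.subtype) := by
  have h1 : ((aeval (⟨x, hx⟩ : 𝔅) p : 𝔅) : F) =
      𝔅.subtype (eval₂ (algebraMap A 𝔅) (⟨x, hx⟩ : 𝔅) p) := rfl
  rw [h1, hom_eval₂, aeval_def, eval₂_map]
  rfl

/-- (T1) finiteness over `A[x]`. -/
theorem finite_aeval_chart (hM : IsChartModel A x 𝔅) :
    (aeval (⟨x, hM.x_mem⟩ : 𝔅) : Polynomial A →ₐ[A] 𝔅).toRingHom.Finite := by
  obtain ⟨s, hs, hspan⟩ := hM.finite
  let _ : Algebra (Polynomial A) 𝔅 :=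
    (aeval (⟨x, hM.x_mem⟩ : 𝔅) : Polynomial A →ₐ[A] 𝔅).toRingHom.toAlgebra
  show Module.Finite (Polynomial A) 𝔅
  have hsmul : ∀ (p : Polynomial A) (b : 𝔅),
      ((p • b : 𝔅) : F) = aeval x (p.map A.subtype) * (b : F) := by
    intro p b
    have h1 : p • b = aeval (⟨x, hM.x_mem⟩ : 𝔅) p * b := rfl
    rw [h1, Subring.coe_mul, coe_aeval_chart]
  refine ⟨Submodule.fg_def.mpr ⟨{b : 𝔅 | (b : F) ∈ s}, ?_, ?_⟩⟩
  · exact s.finite_toSet.preimage Subtype.coe_injective.injOn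
  · rw [eq_top_iff]
    rintro b -
    obtain ⟨p, hp⟩ := hspan b b.2
    have hb : b = ∑ e ∈ s.attach, p e.1 • (⟨e.1, hs e.1 e.2⟩ : 𝔅) := by
      apply Subtype.ext
      rw [hp, ← Finset.sum_attach, AddSubmonoidClass.coe_finsetSum]
      refine Finset.sum_congr rfl fun e _ => ?_
      rw [hsmul]
    rw [hb]
    exact Submodule.sum_mem _ fun e _ =>
      Submodule.smul_mem _ _ (Submodule.subset_span (by exact e.2))

/-- (T2) torsion-freeness of `𝔅 / a𝔅`. -/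
theorem dvd_of_dvd_smul_chart (hM : IsChartModel A x 𝔅) {a : 𝔅} (hna : ¬ InMaxMul A 𝔅 (a : F))
    (m : A) (b : 𝔅) (hm : m ≠ 0) (hab : a ∣ m • b) : a ∣ b := by
  refine Weierstrass.dvd_of_dvd_smul_of_regular a ?_ m b hm hab
  intro m b hm hdvd
  obtain ⟨c, hc⟩ := hdvd
  have hc' : (a : F) * (b : F) = algebraMap Ω F (m : Ω) * (c : F) := by
    have := congrArg (fun t : 𝔅 => (t : F)) hc
    simpa using this
  obtain ⟨b'', hb'', hbb⟩ := hM.sat a a.2 hna m hm b b.2 ⟨c, c.2, hc'⟩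
  exact ⟨⟨b'', hb''⟩, Subtype.ext hbb⟩

/-- (T3) the polynomial `G`. -/
theorem exists_poly_chart (hM : IsChartModel A x 𝔅) {a : 𝔅} (hna : ¬ InMaxMul A 𝔅 (a : F)) :
    ∃ G : Polynomial A, G.map (IsLocalRing.residue A) ≠ 0 ∧ a ∣ aeval (⟨x, hM.x_mem⟩ : 𝔅) G := by
  obtain ⟨G, hG, b, hb, hab⟩ := hM.norm a a.2 hna
  refine ⟨G, hG, ⟨b, hb⟩, Subtype.ext ?_⟩
  rw [coe_aeval_chart, hab]
  rfl

/-- (T4) `(a) + 𝔪𝔅` depends only on `a` mod `𝔪𝔅`. -/
theorem span_sup_map_eq_of_inMaxMul {a a' : 𝔅} (hd : InMaxMul A 𝔅 ((a : F) - (a' : F))) :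
    Ideal.span {a} ⊔ Ideal.map (algebraMap A 𝔅) (IsLocalRing.maximalIdeal A) =
      Ideal.span {a'} ⊔ Ideal.map (algebraMap A 𝔅) (IsLocalRing.maximalIdeal A) := by
  have hmem : a - a' ∈ Ideal.map (algebraMap A 𝔅) (IsLocalRing.maximalIdeal A) :=
    mem_map_maximalIdeal_of_inMaxMul (a := a - a') hd
  apply le_antisymm
  · refine sup_le ?_ le_sup_right
    rw [Ideal.span_singleton_le_iff_mem]
    have h1 : a = a' + (a - a') := by ring
    rw [h1]
    exact Ideal.add_mem _ (Ideal.mem_sup_left (Ideal.mem_span_singleton_self a'))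
      (Ideal.mem_sup_right hmem)
  · refine sup_le ?_ le_sup_right
    rw [Ideal.span_singleton_le_iff_mem]
    have h1 : a' = a - (a - a') := by ring
    rw [h1]
    exact Ideal.sub_mem _ (Ideal.mem_sup_left (Ideal.mem_span_singleton_self a))
      (Ideal.mem_sup_right hmem)

/-- (T5) a point `ψ` of the special fibre as an `A`-algebra homomorphism. -/
def chartPoint (ψ : 𝔅 →+* IsLocalRing.ResidueField A)
    (hψ : ∀ α : A, ψ (algebraMap A 𝔅 α) = IsLocalRing.residue A α) :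
    𝔅 →ₐ[A] IsLocalRing.ResidueField A where
  toRingHom := ψ
  commutes' := hψ

@[simp] theorem chartPoint_apply (ψ : 𝔅 →+* IsLocalRing.ResidueField A)
    (hψ : ∀ α : A, ψ (algebraMap A 𝔅 α) = IsLocalRing.residue A α) (b : 𝔅) :
    chartPoint ψ hψ b = ψ b := rfl

theorem chartPoint_toRingHom (ψ : 𝔅 →+* IsLocalRing.ResidueField A)
    (hψ : ∀ α : A, ψ (algebraMap A 𝔅 α) = IsLocalRing.residue A α) :
    (chartPoint ψ hψ : 𝔅 →+* IsLocalRing.ResidueField A) = ψ := rfl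

end Trans

end Fermat.Agent.S37
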