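import Fermat.Agent.S18.UnramConv
import Fermat.Agent.S18.RamE
import Fermat.Agent.S18.RamFF
import Fermat.Agent.S18.CoverDefs
import Fermat.Agent.S18.NumField
import Fermat.Agent.S18.OmegaField

/-!
P12 / S37, Tier 2, module [EK] — ramification side (`CoverERam`).

The model of P11 without the Kummer generator `w`: `Ω = F_L(x)` is the extension of the function
field `F_L = FFL ℚ̄ N` of `X₀(N)` generated by a coordinate `x` of a good cover
`N_g(x) = j · D_g(x)` (`GoodCover`, `S18/CoverDefs`).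

* `CoverERam.exists_omega_x` : existence of `Ω = F_L(x)` (continuation form, from `OmegaField`);
* `CoverERam.ord_sub_eq_one` : every place of `Ω` over a point `x = a`, `a` not a cusp, is
  unramified over the `x`-line (`RamE`);
* `CoverERam.exists_finset_lam` : a finite subset of `A ∩ K` with unit differences, as a finset
  of `Λ = lam A K` with unit differences;
* `CoverERam.exists_cusps` : (B2) for the two charts `x` and `x⁻¹` of the model field
  `genField K₀ T` over `K = constField K₀ T`: finsets `C`, `C'` of `Λ`-points with unit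
  differences such that the integral closures of `K[x]` and `K[x⁻¹]` are unramified away from
  `C`, resp. `C'` (`UnramAway`);
* `CoverERam.exists_cusps_not_dvd` : the same with the differences not divisible by a given
  irreducible element (the shape consumed by `intLifts_gen` / `idemLifts_gen`).
-/

set_option autoImplicit false

namespace Fermat.Agent.S37

namespace CoverERam

open Polynomial AlgebraicCurve IntermediateField
open Fermat.Agent.S18 Fermat.Agent.S18.Model Fermat.Agent.S24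

/-! ### The field `Ω = F(x)` -/

/-- Any statement `P` which holds for all finite extensions `Ω = F(x)` with
`N_g(x) = j · D_g(x)` holds (`OmegaField` without the Kummer generator). -/
theorem exists_omega_x_gen {L F : Type} [Field L] [Field F] [Algebra L F] (j : F)
    (NgL DgL : L[X]) (hdeg : DgL.natDegree < NgL.natDegree) {P : Prop}
    (core : ∀ (Ω : Type) [Field Ω] [Algebra L Ω] [Algebra F Ω] [IsScalarTower L F Ω]
      [FiniteDimensional F Ω] (x : Ω), IntermediateField.adjoin F {x} = ⊤ →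
      aeval x NgL = algebraMap F Ω j * aeval x DgL → P) : P := by
  by_contra hP
  refine OmegaField.false_of_forall_omega_gen j NgL DgL hdeg 1 one_pos (1 : F) ?_
  intro Ω _ _ _ _ _ x w hgen hcov hw
  refine hP (core Ω x ?_ hcov)
  rw [pow_one, map_one] at hw
  rw [← hgen, hw]
  refine le_antisymm (IntermediateField.adjoin.mono F _ _ (by simp)) ?_
  rw [IntermediateField.adjoin_le_iff]
  rintro s (rfl | rfl)
  · exact IntermediateField.subset_adjoin F _ (Set.mem_singleton _)
  · exact one_mem _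

/-- `exists_omega_x_gen` for the function field of `X₀(N)` over `L` and `j = jL L N`. -/
theorem exists_omega_x (N : ℕ) [NeZero N] {L : Type} [Field L] [Algebra ℚ L]
    (NgL DgL : L[X]) (hdeg : DgL.natDegree < NgL.natDegree) {P : Prop}
    (core : ∀ (Ω : Type) [Field Ω] [Algebra L Ω] [Algebra (FFL L N) Ω]
      [IsScalarTower L (FFL L N) Ω] [FiniteDimensional (FFL L N) Ω] (x : Ω),
      IntermediateField.adjoin (FFL L N) {x} = ⊤ →
      aeval x NgL = algebraMap (FFL L N) Ω (jL L N) * aeval x DgL → P) : P :=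
  exists_omega_x_gen (jL L N) NgL DgL hdeg core

/-! ### Cusp sets in `Λ = A ∩ K` -/

section Cusps

variable (A : ValuationSubring (AlgebraicClosure ℚ))
  (K : IntermediateField ℚ (AlgebraicClosure ℚ))

/-- A finite subset `S` of `A ∩ K` whose pairwise differences are units of `A` is the image of a
finset of `Λ = lam A K` whose pairwise differences are units of `Λ`. -/
theorem exists_finset_lam (S : Finset (AlgebraicClosure ℚ)) (hK : ∀ a ∈ S, a ∈ K)
    (hA : ∀ a ∈ S, a ∈ A) (hunit : ∀ a ∈ S, ∀ b ∈ S, a ≠ b → (a - b)⁻¹ ∈ A) :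
    ∃ C : Finset ↥(NumField.lam A K), (∀ c ∈ C, ∀ c' ∈ C, c ≠ c' → IsUnit (c - c')) ∧
      ∀ a ∈ S, ∃ c ∈ C, (((c : ↥(NumField.lam A K)) : ↥K) : AlgebraicClosure ℚ) = a := by
  classical
  let f : {a // a ∈ S} → ↥(NumField.lam A K) := fun a =>
    ⟨⟨a.1, hK a.1 a.2⟩, NumField.mem_lam_iff.2 (hA a.1 a.2)⟩
  have hf : ∀ a : {a // a ∈ S}, (((f a : ↥(NumField.lam A K)) : ↥K) : AlgebraicClosure ℚ) = a.1 :=
    fun _ => rfl
  refine ⟨Finset.univ.image f, ?_, ?_⟩
  · intro c hc c' hc' hne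
    obtain ⟨a, -, rfl⟩ := Finset.mem_image.1 hc
    obtain ⟨b, -, rfl⟩ := Finset.mem_image.1 hc'
    have hab : a.1 ≠ b.1 := fun h => hne (by rw [Subtype.ext h])
    have hcoe : ((((f a - f b : ↥(NumField.lam A K)) : ↥K)) : AlgebraicClosure ℚ) = a.1 - b.1 :=
      rfl
    refine NumField.isUnit_lam_of_inv_mem ?_ ?_
    · intro h0
      apply hab
      have h1 := congrArg (fun z : ↥K => (z : AlgebraicClosure ℚ)) h0
      simp only [hcoe] at h1
      exact sub_eq_zero.1 (by simpa using h1)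
    · rw [NumField.mem_lam_iff]
      have h2 : ((((((f a - f b : ↥(NumField.lam A K)) : ↥K))⁻¹ : ↥K)) : AlgebraicClosure ℚ) =
          (a.1 - b.1)⁻¹ := by
        rw [← hcoe]
        rfl
      rw [h2]
      exact hunit a.1 a.2 b.1 b.2 hab
  · intro a ha
    exact ⟨f ⟨a, ha⟩, Finset.mem_image.2 ⟨⟨a, ha⟩, Finset.mem_univ _, rfl⟩, rfl⟩

end Cusps

/-! ### The cover -/

section Cover

variable {N : ℕ} [NeZero N] {ℓ : ℕ} {A : ValuationSubring (AlgebraicClosure ℚ)}
  (cov : GoodCover ℓ A)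

/-- The integer `m` of a good cover is a unit in every field of characteristic zero. -/
theorem isUnit_m (R : Type*) [Field R] [CharZero R] : IsUnit ((cov.m : ℕ) : R) := by
  have hm0 : cov.m ≠ 0 := fun h => cov.hm (h ▸ dvd_zero ℓ)
  exact (Nat.cast_ne_zero.2 hm0).isUnit

/-- `deg D_g < deg N_g` over `ℚ̄`. -/
theorem natDegree_lt :
    (cov.Dg.map (Int.castRingHom (AlgebraicClosure ℚ))).natDegree <
      (cov.Ng.map (Int.castRingHom (AlgebraicClosure ℚ))).natDegree :=
  (cov.basic (AlgebraicClosure ℚ) (isUnit_m cov _)).1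

/-- `N_g` and `D_g` are coprime over `ℚ̄`. -/
theorem isCoprime_map :
    IsCoprime (cov.Ng.map (Int.castRingHom (AlgebraicClosure ℚ)))
      (cov.Dg.map (Int.castRingHom (AlgebraicClosure ℚ))) :=
  (cov.basic (AlgebraicClosure ℚ) (isUnit_m cov _)).2.2

variable {Ω : Type*} [Field Ω] [Algebra (AlgebraicClosure ℚ) Ω]
  [Algebra (FFL (AlgebraicClosure ℚ) N) Ω]
  [IsScalarTower (AlgebraicClosure ℚ) (FFL (AlgebraicClosure ℚ) N) Ω]

/-- **RamE for a good cover.**  In `Ω = F_L(x)`, `x - a` is a uniformiser at every place over a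
point `x = a` which is not a cusp. -/
theorem ord_sub_eq_one (x : Ω)
    (hcov : aeval x (cov.Ng.map (Int.castRingHom (AlgebraicClosure ℚ))) =
      algebraMap (FFL (AlgebraicClosure ℚ) N) Ω (jL (AlgebraicClosure ℚ) N) *
        aeval x (cov.Dg.map (Int.castRingHom (AlgebraicClosure ℚ))))
    (hgen : IntermediateField.adjoin (FFL (AlgebraicClosure ℚ) N) {x} = ⊤) :
    ∀ a : AlgebraicClosure ℚ, a ∉ (cov.cusps : Set (AlgebraicClosure ℚ)) →
      ∀ W : Place (AlgebraicClosure ℚ) Ω, 0 < W.ord (x - algebraMap (AlgebraicClosure ℚ) Ω a) →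
        W.ord (x - algebraMap (AlgebraicClosure ℚ) Ω a) = 1 := by
  intro a ha W hW
  exact RamE.ord_sub_eq_one_of_factor N _ _ cov.Q₃ cov.Q₂ cov.c₃ cov.c₂ cov.hN cov.hN' x hcov hgen
    a (fun h => ha (Finset.mem_coe.2 (cov.hcusps a h))) W hW

variable [FiniteDimensional (FFL (AlgebraicClosure ℚ) N) Ω]

/-- The coordinate `x` of the cover is transcendental over `ℚ̄`. -/
theorem transcendental_x (x : Ω)
    (hcov : aeval x (cov.Ng.map (Int.castRingHom (AlgebraicClosure ℚ))) =
      algebraMap (FFL (AlgebraicClosure ℚ) N) Ω (jL (AlgebraicClosure ℚ) N) *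
        aeval x (cov.Dg.map (Int.castRingHom (AlgebraicClosure ℚ)))) :
    Transcendental (AlgebraicClosure ℚ) x :=
  RamFF.transcendental_x N _ _ (isCoprime_map cov) x hcov

/-- `Ω` is finite over `ℚ̄(x)`. -/
theorem finiteDimensional_adjoin_x (x : Ω)
    (hcov : aeval x (cov.Ng.map (Int.castRingHom (AlgebraicClosure ℚ))) =
      algebraMap (FFL (AlgebraicClosure ℚ) N) Ω (jL (AlgebraicClosure ℚ) N) *
        aeval x (cov.Dg.map (Int.castRingHom (AlgebraicClosure ℚ)))) :
    FiniteDimensional (AlgebraicClosure ℚ)⟮x⟯ Ω :=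
  RamFF.finiteDimensional_adjoin_x N _ _ (isCoprime_map cov) x hcov

/-- **(B2) for the two charts `x`, `x⁻¹`** of the model field `𝔽 = genField K₀ T` over
`K = constField K₀ T`, `Λ = lam A K`: there are finsets `C`, `C'` of `Λ` with unit differences
such that the integral closure of `K[x]` (resp. `K[x⁻¹]`) in `𝔽` is unramified away from `C`
(resp. `C'`). -/
theorem exists_cusps (K₀ : IntermediateField ℚ (AlgebraicClosure ℚ)) (T : Set Ω) (x : Ω)
    (hxT : x ∈ T) (hK₀ : ∀ a ∈ cov.cusps, a ∈ K₀) (hK₀' : ∀ a ∈ cov.cusps', a ∈ K₀)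
    (hcov : aeval x (cov.Ng.map (Int.castRingHom (AlgebraicClosure ℚ))) =
      algebraMap (FFL (AlgebraicClosure ℚ) N) Ω (jL (AlgebraicClosure ℚ) N) *
        aeval x (cov.Dg.map (Int.castRingHom (AlgebraicClosure ℚ))))
    (hgen : IntermediateField.adjoin (FFL (AlgebraicClosure ℚ) N) {x} = ⊤) :
    ∃ C C' : Finset ↥(NumField.lam A (constField K₀ T)),
      (∀ c ∈ C, ∀ c' ∈ C, c ≠ c' → IsUnit (c - c')) ∧
      (∀ c ∈ C', ∀ c' ∈ C', c ≠ c' → IsUnit (c - c')) ∧
      UnramAway ↥(constField K₀ T) (gen K₀ hxT)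
        ((algebraMap ↥(NumField.lam A (constField K₀ T)) ↥(constField K₀ T)) '' (C : Set _)) ∧
      UnramAway ↥(constField K₀ T) (gen K₀ hxT)⁻¹
        ((algebraMap ↥(NumField.lam A (constField K₀ T)) ↥(constField K₀ T)) '' (C' : Set _)) := by
  have hx : Transcendental (AlgebraicClosure ℚ) x := transcendental_x cov x hcov
  have hfin : FiniteDimensional (AlgebraicClosure ℚ)⟮x⟯ Ω := finiteDimensional_adjoin_x cov x hcov
  have hram := ord_sub_eq_one cov x hcov hgen
  have halg : Algebra.IsAlgebraic ℚ (AlgebraicClosure ℚ) := AlgebraicClosure.isAlgebraic ℚ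
  have hle := le_constField K₀ T
  obtain ⟨C, hCu, hC⟩ := exists_finset_lam A (constField K₀ T) cov.cusps
    (fun a ha => hle (hK₀ a ha)) cov.hmem cov.hunit
  obtain ⟨C', hCu', hC'⟩ := exists_finset_lam A (constField K₀ T) cov.cusps'
    (fun a ha => hle (hK₀' a ha)) cov.hmem' cov.hunit'
  refine ⟨C, C', hCu, hCu', ?_, ?_⟩
  · refine unramAway_gen K₀ T hxT hx (cov.cusps : Set (AlgebraicClosure ℚ)) hram _ ?_
    intro a ha
    obtain ⟨c, hc, hca⟩ := hC a (Finset.mem_coe.1 ha)
    exact ⟨_, ⟨c, Finset.mem_coe.2 hc, rfl⟩, hca⟩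
  · obtain ⟨z, hz, hz0⟩ := hC' 0 cov.hzero
    refine unramAway_gen_inv K₀ T hxT hx (cov.cusps : Set (AlgebraicClosure ℚ)) hram _ ?_ ?_
    · refine ⟨z, Finset.mem_coe.2 hz, ?_⟩
      apply Subtype.ext
      exact hz0
    · intro a ha ha0
      obtain ⟨c, hc, hca⟩ := hC' a⁻¹ (cov.hinv a (Finset.mem_coe.1 ha) ha0)
      exact ⟨_, ⟨c, Finset.mem_coe.2 hc, rfl⟩, hca⟩

/-- `exists_cusps` in the shape consumed by `intLifts_gen` / `idemLifts_gen`: the cusps are
pairwise incongruent modulo a given irreducible element `ϖ` of `Λ`. -/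
theorem exists_cusps_not_dvd (K₀ : IntermediateField ℚ (AlgebraicClosure ℚ)) (T : Set Ω) (x : Ω)
    (hxT : x ∈ T) (hK₀ : ∀ a ∈ cov.cusps, a ∈ K₀) (hK₀' : ∀ a ∈ cov.cusps', a ∈ K₀)
    (hcov : aeval x (cov.Ng.map (Int.castRingHom (AlgebraicClosure ℚ))) =
      algebraMap (FFL (AlgebraicClosure ℚ) N) Ω (jL (AlgebraicClosure ℚ) N) *
        aeval x (cov.Dg.map (Int.castRingHom (AlgebraicClosure ℚ))))
    (hgen : IntermediateField.adjoin (FFL (AlgebraicClosure ℚ) N) {x} = ⊤)
    (ϖ : ↥(NumField.lam A (constField K₀ T))) (hϖ : Irreducible ϖ) :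
    ∃ C C' : Finset ↥(NumField.lam A (constField K₀ T)),
      (∀ c ∈ C, ∀ c' ∈ C, c ≠ c' → ¬ ϖ ∣ c - c') ∧
      (∀ c ∈ C', ∀ c' ∈ C', c ≠ c' → ¬ ϖ ∣ c - c') ∧
      UnramAway ↥(constField K₀ T) (gen K₀ hxT)
        ((algebraMap ↥(NumField.lam A (constField K₀ T)) ↥(constField K₀ T)) '' (C : Set _)) ∧
      UnramAway ↥(constField K₀ T) (gen K₀ hxT)⁻¹
        ((algebraMap ↥(NumField.lam A (constField K₀ T)) ↥(constField K₀ T)) '' (C' : Set _)) := by
  obtain ⟨C, C', hC, hC', h1, h2⟩ := exists_cusps cov K₀ T x hxT hK₀ hK₀' hcov hgen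
  exact ⟨C, C',
    fun c hc c' hc' hne hdvd => hϖ.not_isUnit (isUnit_of_dvd_unit hdvd (hC c hc c' hc' hne)),
    fun c hc c' hc' hne hdvd => hϖ.not_isUnit (isUnit_of_dvd_unit hdvd (hC' c hc c' hc' hne)),
    h1, h2⟩

end Cover

end CoverERam

end Fermat.Agent.S37
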