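import Fermat.Agent.S37.CoverEAbs
import Fermat.Agent.S37.CoverERam
import Fermat.Agent.S18.Embed
import Fermat.Agent.S18.GaussOut
import Fermat.Agent.S18.ModelCover

/-!
P12 / S37 Tier 2, [T2-EK]: the P11 model without the Kummer generator.

For a good cover `j = Ng(x) / Dg(x)` of the `j`-line and every number field `K₀ ⊂ ℚ̄` there is a
number field `K ⊇ K₀`, with `Λ = A ∩ K` (a DVR with uniformiser `ϖ`), and a finite extension `𝔽`
of `K(x)` containing a copy `e : F_K → 𝔽` of the modular function field of level `N` over `K`,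
with `Ng(x) = e(j) Dg(x)`, such that the integral closures of `Λ[x]` and of `Λ[x⁻¹]` in `𝔽` are
normal modulo `ϖ` (`IntLifts` for the two charts `x`, `x⁻¹`).

Mirror of `S18.ModelInst` (constant field of `K₀(x, j_d)`, Gauss data from `GaussOut`, cover data
from `ModelCover.exists_cover_data_E`), followed by `CoverE.intLifts_pair`.
-/

set_option autoImplicit false

open ModularCurve AlgebraicCurve Polynomial IntermediateField
open Fermat.Agent.S24 Fermat.Agent.S18

noncomputable section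

namespace Fermat.Agent.S37.CoverE

open Fermat.Agent.S18.Model

variable {N : ℕ} [NeZero N] {ℓ : ℕ} [Fact ℓ.Prime] {A : ValuationSubring (AlgebraicClosure ℚ)}

/-- The cover polynomials over `Λ = A ∩ K`: degrees, leading coefficient, coprimality. -/
theorem basic_lam (cov : GoodCover ℓ A) (hA : A.LiesOverPrime ℓ)
    (K : IntermediateField ℚ (AlgebraicClosure ℚ)) :
    (cov.Dg.map (Int.castRingHom ↥(NumField.lam A K))).natDegree <
        (cov.Ng.map (Int.castRingHom ↥(NumField.lam A K))).natDegree ∧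
      IsUnit (cov.Ng.map (Int.castRingHom ↥(NumField.lam A K))).leadingCoeff ∧
      IsCoprime (cov.Ng.map (Int.castRingHom ↥(NumField.lam A K)))
        (cov.Dg.map (Int.castRingHom ↥(NumField.lam A K))) :=
  cov.basic ↥(NumField.lam A K) (NumField.isUnit_natCast_lam hA cov.hm)

/-- If `ℓ ∤ Dg(0)` then `Dg(0)` is a unit of `Λ = A ∩ K`. -/
theorem isUnit_eval_zero (cov : GoodCover ℓ A) (hA : A.LiesOverPrime ℓ)
    (h0 : ¬ (ℓ : ℤ) ∣ cov.Dg.eval 0) (K : IntermediateField ℚ (AlgebraicClosure ℚ)) :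
    IsUnit ((cov.Dg.map (Int.castRingHom ↥(NumField.lam A K))).eval 0) := by
  have h1 : (cov.Dg.map (Int.castRingHom ↥(NumField.lam A K))).eval 0 =
      Int.castRingHom ↥(NumField.lam A K) (cov.Dg.eval 0) := by
    rw [eval_map, eval₂_at_zero, ← coeff_zero_eq_eval_zero]
  rw [h1]
  have h2 : ¬ ℓ ∣ (cov.Dg.eval 0).natAbs := fun h => h0 (Int.natCast_dvd.mpr h)
  have h3 : IsUnit (((cov.Dg.eval 0).natAbs : ℕ) : ↥(NumField.lam A K)) :=
    NumField.isUnit_natCast_lam hA h2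
  rcases Int.natAbs_eq (cov.Dg.eval 0) with h | h
  · rw [h]
    simpa using h3
  · rw [h]
    simpa using h3.neg

set_option synthInstance.maxHeartbeats 400000 in
set_option maxHeartbeats 2000000 in
/-- The core of [EK] for a given `Ω = F_L(x)`. -/
theorem coverE_of_omega (cov : GoodCover ℓ A) (hA : A.LiesOverPrime ℓ) (hℓN : ¬ ℓ ∣ N)
    (K₀ : IntermediateField ℚ (AlgebraicClosure ℚ)) [FiniteDimensional ℚ ↥K₀]
    (hcusps : ∀ a ∈ cov.cusps ∪ cov.cusps', a ∈ K₀)
    (Ω : Type) [Field Ω] [Algebra (AlgebraicClosure ℚ) Ω]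
    [Algebra (FFL (AlgebraicClosure ℚ) N) Ω]
    [IsScalarTower (AlgebraicClosure ℚ) (FFL (AlgebraicClosure ℚ) N) Ω]
    [FiniteDimensional (FFL (AlgebraicClosure ℚ) N) Ω] (x : Ω)
    (hgen : IntermediateField.adjoin (FFL (AlgebraicClosure ℚ) N) {x} = ⊤)
    (hcov : aeval x (cov.Ng.map (Int.castRingHom (AlgebraicClosure ℚ))) =
      algebraMap (FFL (AlgebraicClosure ℚ) N) Ω (jL (AlgebraicClosure ℚ) N) *
        aeval x (cov.Dg.map (Int.castRingHom (AlgebraicClosure ℚ)))) {P : Prop}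
    (core : ∀ (K : IntermediateField ℚ (AlgebraicClosure ℚ)) (_ : FiniteDimensional ℚ ↥K)
      (_ : K₀ ≤ K) (ϖ : ↥(NumField.lam A K)) (hϖ : Irreducible ϖ)
      (𝔽 : Type) [Field 𝔽] [Algebra ↥K 𝔽] [Algebra ↥(NumField.lam A K) 𝔽]
      [IsScalarTower ↥(NumField.lam A K) ↥K 𝔽]
      (e : ↥(modularFunctionFieldFullC ↥K N) →ₐ[↥K] 𝔽) (x : 𝔽),
      Transcendental ↥K x → FiniteDimensional ↥(↥K)⟮x⟯ 𝔽 →
      aeval x (cov.Ng.map (Int.castRingHom ↥(NumField.lam A K))) =
        e (GaussL.jC ↥K N) * aeval x (cov.Dg.map (Int.castRingHom ↥(NumField.lam A K))) →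
      IntLifts (gaussSub ϖ hϖ.prime x) ϖ x → IntLifts (gaussSub ϖ hϖ.prime x) ϖ x⁻¹ → P) :
    P := by
  classical
  -- the generators (dummy Kummer generator `1`) and the constant field
  have hx : Transcendental (AlgebraicClosure ℚ) x :=
    RamFF.transcendental_x N _ _ (ModelCover.isCoprime_algClosure cov) x hcov
  have hTalg := Embed.isAlgebraic_genSet N K₀ x (1 : Ω) cov.Ng cov.Dg
    (ModelCover.isCoprime_algClosure cov) hcov (p := 1) one_pos 1
    (by rw [pow_one, map_one, map_one])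
  have hTfin := Embed.genSet_finite N x (1 : Ω)
  have hKfd : FiniteDimensional ℚ ↥(constField K₀ (Embed.genSet N x (1 : Ω))) :=
    Model.finiteDimensional_constField K₀ hx hTfin hTalg
  have hK₀K : K₀ ≤ constField K₀ (Embed.genSet N x (1 : Ω)) := le_constField K₀ _
  have hDVR : IsDiscreteValuationRing
      ↥(NumField.lam A (constField K₀ (Embed.genSet N x (1 : Ω)))) :=
    NumField.isDiscreteValuationRing_lam (constField K₀ (Embed.genSet N x (1 : Ω))) hA
  obtain ⟨ϖ, hϖ⟩ := NumField.exists_irreducible_lam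
    (K := constField K₀ (Embed.genSet N x (1 : Ω))) hA
  -- Gauss data over `K`
  obtain ⟨θ, H, hjθ, hHm, hHc, hHθ, hHd0, hHd⟩ := GaussOut.exists_theta N hA hℓN _ ϖ hϖ
  -- cover data
  obtain ⟨hdeg, hlead, hcop, hcov', C, C', hC, hC', hB2, hB2'⟩ :=
    ModelCover.exists_cover_data_E cov hA K₀ (Embed.genSet N x (1 : Ω)) x
      (Embed.x_mem N x (1 : Ω)) hcusps hcov hgen ϖ
      (Embed.embed N K₀ x (1 : Ω) (GaussL.jC _ N))
      (by rw [Embed.coe_embed, Descent.toFL_jC])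
  -- function field facts
  have hxK := Model.transcendental_gen K₀ (Embed.x_mem N x (1 : Ω)) hx
  have hfin := Model.finiteDimensional_genField K₀ (Embed.x_mem N x (1 : Ω)) hTfin hTalg
  have hTgen := Model.adjoin_constField_eq_top K₀ (Embed.genSet N x (1 : Ω))
  have hTsub : ∀ t ∈ {t : ↥(genField K₀ (Embed.genSet N x (1 : Ω))) |
      (t : Ω) ∈ Embed.genSet N x (1 : Ω)},
      t = gen K₀ (Embed.x_mem N x (1 : Ω)) ∨ t ∈ Set.range (Embed.embed N K₀ x (1 : Ω)) := by
    intro t ht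
    rcases Embed.eq_or_mem_range_embed N K₀ x (1 : Ω) t ht with h | h | h
    · exact Or.inl h
    · refine Or.inr ⟨1, ?_⟩
      rw [map_one, h]
      exact Subtype.ext rfl
    · exact Or.inr h
  have hpair := intLifts_pair ϖ hϖ _ _ hdeg hlead hcop C C' hC hC'
    (Embed.embed N K₀ x (1 : Ω)) (GaussL.jC _ N) θ H (gen K₀ (Embed.x_mem N x (1 : Ω)))
    hxK hcov' _ hTgen hTsub hjθ hHm hHc hHθ hHd0 hHd hB2 hB2'
  exact core (constField K₀ (Embed.genSet N x (1 : Ω))) hKfd hK₀K ϖ hϖ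
    ↥(genField K₀ (Embed.genSet N x (1 : Ω))) (Embed.embed N K₀ x (1 : Ω))
    (gen K₀ (Embed.x_mem N x (1 : Ω))) hxK hfin hcov' hpair.1 hpair.2

set_option synthInstance.maxHeartbeats 400000 in
set_option maxHeartbeats 2000000 in
/-- **[EK]**: for a good cover and every number field `K₀` there are a number field `K ⊇ K₀`,
a uniformiser `ϖ` of `Λ = A ∩ K` and a model field `𝔽 ⊇ F_K` with cover coordinate `x`
(`Ng(x) = e(j) Dg(x)`) such that `IntLifts` holds for the two charts `x` and `x⁻¹`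
(continuation form). -/
theorem exists_coverE (N : ℕ) [NeZero N] {ℓ : ℕ} [Fact ℓ.Prime]
    {A : ValuationSubring (AlgebraicClosure ℚ)} (hA : A.LiesOverPrime ℓ) (hℓN : ¬ ℓ ∣ N)
    (cov : GoodCover ℓ A)
    (K₀ : IntermediateField ℚ (AlgebraicClosure ℚ)) [FiniteDimensional ℚ ↥K₀] {P : Prop}
    (core : ∀ (K : IntermediateField ℚ (AlgebraicClosure ℚ)) (_ : FiniteDimensional ℚ ↥K)
      (_ : K₀ ≤ K) (ϖ : ↥(NumField.lam A K)) (hϖ : Irreducible ϖ)
      (𝔽 : Type) [Field 𝔽] [Algebra ↥K 𝔽] [Algebra ↥(NumField.lam A K) 𝔽]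
      [IsScalarTower ↥(NumField.lam A K) ↥K 𝔽]
      (e : ↥(modularFunctionFieldFullC ↥K N) →ₐ[↥K] 𝔽) (x : 𝔽),
      Transcendental ↥K x → FiniteDimensional ↥(↥K)⟮x⟯ 𝔽 →
      aeval x (cov.Ng.map (Int.castRingHom ↥(NumField.lam A K))) =
        e (GaussL.jC ↥K N) * aeval x (cov.Dg.map (Int.castRingHom ↥(NumField.lam A K))) →
      IntLifts (gaussSub ϖ hϖ.prime x) ϖ x → IntLifts (gaussSub ϖ hϖ.prime x) ϖ x⁻¹ → P) :
    P := by
  classical
  obtain ⟨K₁, hK₁fd, hK₀K₁, hK₁⟩ := NumField.exists_finiteDimensional_intermediateField_ge K₀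
    ((cov.cusps ∪ cov.cusps' : Finset (AlgebraicClosure ℚ)) : Set (AlgebraicClosure ℚ))
    (Finset.finite_toSet _)
  refine CoverERam.exists_omega_x N (cov.Ng.map (Int.castRingHom (AlgebraicClosure ℚ)))
    (cov.Dg.map (Int.castRingHom (AlgebraicClosure ℚ))) (CoverERam.natDegree_lt cov)
    (fun Ω _ _ _ _ _ x hgen hcov => ?_)
  refine coverE_of_omega cov hA hℓN K₁ (fun a ha => hK₁ (Finset.mem_coe.mpr ha)) Ω x hgen hcov
    (fun K hKfd hK₁K ϖ hϖ 𝔽 _ _ _ _ e x' hx' hfin hcov' h1 h2 => ?_)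
  exact core K hKfd (hK₀K₁.trans hK₁K) ϖ hϖ 𝔽 e x' hx' hfin hcov' h1 h2

end Fermat.Agent.S37.CoverE
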