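import Fermat.Agent.S37.IntNormal
import Fermat.Agent.S18.LocalGlue

/-!
P12 / S37 Tier 2, [T2-FULL]: `IntLifts` and `intLifts_gen` — the "full" (integral instead of
idempotent) version of P11's `S18.IdemLifts` / `S18.LocalGlue.idemLifts_gen`.

Setting of the P11 ENGINE: `Λ` a DVR with uniformiser `π`, `K = Frac Λ` of characteristic `0`,
`𝔽 / K(t)` finite, `V₀ = gaussSub π t` the Gauss ring of `Λ(t)`, with an integral dual basis over
`V₀` (hB1) and unramified away from the cusps `C` (hB2).  Then the integral closure `S_fin` of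
`Λ[t]` in `𝔽` is "normal modulo `π`": every `ε` integral over `V₀` which modulo `π` is a root of a
monic polynomial with coefficients in `S_fin` is congruent modulo `π` to an element of `S_fin`.

Proof: as for `idemLifts_gen` (ideal of denominators + local lift at each closed point `(π, f)`),
with `local_normal_full` (`S37/IntNormal.lean`, from `S18.local_normal_dvr`) in place of
`local_normal`.
-/

set_option autoImplicit false

namespace Fermat.Agent.S37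

open Polynomial Fermat.Agent.S18 Fermat.Agent.S18.LocalRing Fermat.Agent.S18.LocalBase

/-- Local form at one chart `t` of "the integral closure of `Λ[t]` is normal modulo `π`": an
element `ε` of the integral closure of `V` which is, modulo `π`, a root of a monic polynomial with
coefficients integral over `Λ[t]`, is congruent modulo `π` to an element integral over `Λ[t]`. -/
def IntLifts {𝔽 : Type*} [Field 𝔽] (V : Subring 𝔽) {Λ : Type*} [CommRing Λ] [Algebra Λ 𝔽]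
    (π : Λ) (t : 𝔽) : Prop :=
  ∀ ε : 𝔽, IsIntegral V ε →
    (∃ q : 𝔽[X], q.Monic ∧ (∀ i, IsIntegral (Algebra.adjoin Λ {t}) (q.coeff i)) ∧
      ∃ δ : 𝔽, IsIntegral V δ ∧ q.eval ε = π • δ) →
    ∃ e : 𝔽, IsIntegral (Algebra.adjoin Λ {t}) e ∧ ∃ δ : 𝔽, IsIntegral V δ ∧ ε - e = π • δ

namespace IntLifts

/-- difference of two values of a polynomial with integral coefficients -/
theorem eval_sub_eval {𝔽 A : Type*} [Field 𝔽] [CommRing A] [Algebra A 𝔽] (P : 𝔽[X])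
    (hP : ∀ i, IsIntegral A (P.coeff i)) {a a' : 𝔽} (ha : IsIntegral A a)
    (ha' : IsIntegral A a') :
    ∃ z : 𝔽, IsIntegral A z ∧ P.eval a - P.eval a' = z * (a - a') := by
  have hl : P ∈ Polynomial.lifts (algebraMap ↥(integralClosure A 𝔽) 𝔽) := by
    rw [lifts_iff_coeff_lifts]
    intro i
    exact ⟨⟨P.coeff i, hP i⟩, rfl⟩
  obtain ⟨P', rfl⟩ := hl
  obtain ⟨z, hz⟩ := evalSubFactor P' (⟨a, ha⟩ : ↥(integralClosure A 𝔽)) ⟨a', ha'⟩
  refine ⟨z, z.2, ?_⟩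
  have h := congrArg (algebraMap ↥(integralClosure A 𝔽) 𝔽) hz
  rw [map_sub, map_mul, map_sub, ← eval_map_apply, ← eval_map_apply] at h
  exact h

section Lift

variable {R 𝔽 : Type*} [CommRing R] [IsDomain R] [IsNoetherianRing R] [IsLocalRing R]
  [IsIntegrallyClosed R] [Field 𝔽] [Algebra R 𝔽]

/-- **The local lift, full form** (cf. `S18.LocalAbs.exists_lift`). -/
theorem exists_lift (K₁ : Type*) [Field K₁] [CharZero K₁] [Algebra R K₁] [IsFractionRing R K₁]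
    [Algebra K₁ 𝔽] [IsScalarTower R K₁ 𝔽] [FiniteDimensional K₁ 𝔽]
    (π y : R) (hm : IsLocalRing.maximalIdeal R = Ideal.span {π, y})
    (hπ : (Ideal.span {π} : Ideal R).IsPrime) (hy : (Ideal.span {y} : Ideal R).IsPrime)
    (hπ0 : π ≠ 0) (hy0 : y ≠ 0) (hπy : ¬ π ∣ y) [CharZero (R ⧸ Ideal.span {y})]
    (V : Subring 𝔽) (hV : IsLocSub π V)
    (hd : ∀ (n : ℕ) (b : Module.Basis (Fin n) R ↥(integralClosure R 𝔽)),
      ∃ (B : ℕ) (v : R), IsUnit v ∧ Algebra.discr R b = v * y ^ B)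
    (ε : 𝔽) (hε : IsIntegral V ε) (q : 𝔽[X]) (hq : q.Monic)
    (hqc : ∀ i, IsIntegral R (q.coeff i))
    (hqε : ∃ δ : 𝔽, IsIntegral V δ ∧ q.eval ε = algebraMap R 𝔽 π * δ) :
    ∃ e : 𝔽, IsIntegral R e ∧ ∃ δ : 𝔽, IsIntegral V δ ∧ ε - e = algebraMap R 𝔽 π * δ := by
  have hπp : Prime π := (Ideal.span_singleton_prime hπ0).mp hπ
  have hinj : Function.Injective (algebraMap R 𝔽) := LocalAbs.algebraMap_injective' K₁
  haveI : Module.Finite R ↥(integralClosure R 𝔽) := finite_integralClosure R K₁ 𝔽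
  haveI : IsIntegrallyClosed ↥(integralClosure R 𝔽) := isIntegrallyClosed_integralClosure R K₁ 𝔽
  haveI : Module.Free R ↥(integralClosure R 𝔽) :=
    free_integralClosure R K₁ 𝔽 π hπp (isPrincipalIdealRing_quotient π y hm hπ)
  haveI : FaithfulSMul R ↥(integralClosure R 𝔽) := by
    rw [faithfulSMul_iff_algebraMap_injective]
    intro a b hab
    apply hinj
    have := congrArg (algebraMap ↥(integralClosure R 𝔽) 𝔽) hab
    rwa [← IsScalarTower.algebraMap_apply, ← IsScalarTower.algebraMap_apply] at this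
  obtain ⟨B, v, hv, hdb⟩ := hd _ (Module.finBasis R ↥(integralClosure R 𝔽))
  -- the data
  obtain ⟨s, hsπ, hsε⟩ := hV.exists_mul_isIntegral hπp hε
  obtain ⟨k, u, r', hu, hsu⟩ := LocalAbs.exists_eq_unit_mul_pow_add π y hm hπ hπy s hsπ
  obtain ⟨δ, hδ, hεδ⟩ := hqε
  obtain ⟨u', hu'⟩ := hu.exists_right_inv
  have hu'' : algebraMap R 𝔽 u * algebraMap R 𝔽 u' = 1 := by rw [← map_mul, hu', map_one]
  have hRV : ∀ a : R, IsIntegral V (algebraMap R 𝔽 a) := fun a =>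
    hV.isIntegral_of_isIntegral hπp isIntegral_algebraMap
  -- `z₂ = y ^ k ε + π δ₁`
  have hz₂ : IsIntegral R (algebraMap R 𝔽 u' * (algebraMap R 𝔽 s * ε)) :=
    isIntegral_algebraMap.mul hsε
  have hδ₁ : IsIntegral V (algebraMap R 𝔽 (u' * r') * ε) := (hRV _).mul hε
  have hz₂eq : algebraMap R 𝔽 u' * (algebraMap R 𝔽 s * ε) =
      algebraMap R 𝔽 y ^ k * ε + algebraMap R 𝔽 π * (algebraMap R 𝔽 (u' * r') * ε) := by
    rw [hsu, map_add, map_mul, map_mul, map_mul, map_pow]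
    linear_combination (algebraMap R 𝔽 y ^ k * ε) * hu''
  -- the polynomial over the integral closure
  have hl : q ∈ Polynomial.lifts (algebraMap ↥(integralClosure R 𝔽) 𝔽) := by
    rw [lifts_iff_coeff_lifts]
    intro i
    exact ⟨⟨q.coeff i, hqc i⟩, rfl⟩
  obtain ⟨qS, hqS, -, hqSm⟩ := lifts_and_natDegree_eq_and_monic hl hq
  have hmapQ : (qS.scaleRoots (algebraMap R ↥(integralClosure R 𝔽) y ^ k)).map
      (algebraMap ↥(integralClosure R 𝔽) 𝔽) = q.scaleRoots (algebraMap R 𝔽 y ^ k) := by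
    rw [map_scaleRoots _ _ _ (by rw [hqSm.leadingCoeff, map_one]; exact one_ne_zero), hqS, map_pow,
      ← IsScalarTower.algebraMap_apply]
  -- coefficients of the scaled polynomial are integral over `V`
  have hQc : ∀ i, IsIntegral V ((q.scaleRoots (algebraMap R 𝔽 y ^ k)).coeff i) := by
    intro i
    rw [coeff_scaleRoots]
    exact (hV.isIntegral_of_isIntegral hπp (hqc i)).mul (((hRV y).pow _).pow _)
  have hykε : IsIntegral V (algebraMap R 𝔽 y ^ k * ε) := ((hRV y).pow _).mul hε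
  have hz₂V : IsIntegral V (algebraMap R 𝔽 u' * (algebraMap R 𝔽 s * ε)) :=
    hV.isIntegral_of_isIntegral hπp hz₂
  obtain ⟨c, hc, hdiff⟩ := eval_sub_eval (q.scaleRoots (algebraMap R 𝔽 y ^ k)) hQc hz₂V hykε
  have hQε : (q.scaleRoots (algebraMap R 𝔽 y ^ k)).eval (algebraMap R 𝔽 y ^ k * ε) =
      (algebraMap R 𝔽 y ^ k) ^ q.natDegree * (algebraMap R 𝔽 π * δ) := by
    rw [← hεδ]
    exact scaleRoots_eval₂_mul (RingHom.id 𝔽) ε (algebraMap R 𝔽 y ^ k)
  -- `Q(z₂) = π δ₂`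
  have h2 : (q.scaleRoots (algebraMap R 𝔽 y ^ k)).eval
      (algebraMap R 𝔽 u' * (algebraMap R 𝔽 s * ε)) =
      algebraMap R 𝔽 π * (c * (algebraMap R 𝔽 (u' * r') * ε) +
        (algebraMap R 𝔽 y ^ k) ^ q.natDegree * δ) := by
    have h3 : algebraMap R 𝔽 u' * (algebraMap R 𝔽 s * ε) - algebraMap R 𝔽 y ^ k * ε =
        algebraMap R 𝔽 π * (algebraMap R 𝔽 (u' * r') * ε) := by
      rw [hz₂eq]
      ring
    rw [h3, hQε] at hdiff
    linear_combination hdiff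
  have hδ₂V : IsIntegral V (c * (algebraMap R 𝔽 (u' * r') * ε) +
      (algebraMap R 𝔽 y ^ k) ^ q.natDegree * δ) :=
    (hc.mul hδ₁).add ((((hRV y).pow _).pow _).mul hδ)
  have hevalS : algebraMap ↥(integralClosure R 𝔽) 𝔽
      ((qS.scaleRoots (algebraMap R ↥(integralClosure R 𝔽) y ^ k)).eval ⟨_, hz₂⟩) =
      (q.scaleRoots (algebraMap R 𝔽 y ^ k)).eval (algebraMap R 𝔽 u' * (algebraMap R 𝔽 s * ε)) := by
    rw [← hmapQ]
    exact (eval_map_apply _ _).symm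
  have hδ₂R := hV.isIntegral_of_pi_mul K₁ hπp
    (by
      rw [← h2, ← hevalS]
      exact ((qS.scaleRoots (algebraMap R ↥(integralClosure R 𝔽) y ^ k)).eval
        (⟨_, hz₂⟩ : ↥(integralClosure R 𝔽))).2) hδ₂V
  have hdvd : algebraMap R ↥(integralClosure R 𝔽) π ∣
      (qS.scaleRoots (algebraMap R ↥(integralClosure R 𝔽) y ^ k)).eval ⟨_, hz₂⟩ :=
    ⟨⟨_, hδ₂R⟩, Subtype.ext (hevalS.trans h2)⟩
  obtain ⟨z', δ₃, hδ₃⟩ := local_normal_full π y hm hπ hy hπ0 hy0 hπy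
    (Module.finBasis R ↥(integralClosure R 𝔽)) ⟨B, v, hv, hdb⟩ ⟨_, hz₂⟩ k qS hqSm hdvd
  have h3 : algebraMap R 𝔽 u' * (algebraMap R 𝔽 s * ε) - algebraMap R 𝔽 y ^ k * (z' : 𝔽) =
      algebraMap R 𝔽 π * (δ₃ : 𝔽) := congrArg Subtype.val hδ₃
  have hyk : ¬ π ∣ y ^ k := fun h => hπy (hπp.dvd_of_dvd_pow h)
  have hyk0 : algebraMap R 𝔽 y ^ k ≠ 0 :=
    pow_ne_zero _ (fun h => hy0 (hinj (by rw [h, map_zero])))
  have hinv : (algebraMap R 𝔽 y ^ k)⁻¹ ∈ V := by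
    have := hV.div_mem 1 (y ^ k) hyk
    rwa [map_one, one_div, map_pow] at this
  refine ⟨z', z'.2, ((δ₃ : 𝔽) - algebraMap R 𝔽 (u' * r') * ε) * (algebraMap R 𝔽 y ^ k)⁻¹,
    ((hV.isIntegral_of_isIntegral hπp δ₃.2).sub hδ₁).mul (isIntegral_of_mem hinv), ?_⟩
  have h4 : algebraMap R 𝔽 y ^ k * (ε - (z' : 𝔽)) =
      algebraMap R 𝔽 π * ((δ₃ : 𝔽) - algebraMap R 𝔽 (u' * r') * ε) := by
    linear_combination h3 - hz₂eq
  rw [← mul_assoc, ← h4, mul_comm (algebraMap R 𝔽 y ^ k), mul_assoc, mul_inv_cancel₀ hyk0, mul_one]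

end Lift

end IntLifts

section Main

variable {Λ K 𝔽 : Type*} [CommRing Λ] [IsDomain Λ] [IsDiscreteValuationRing Λ]
  [Field K] [CharZero K] [Algebra Λ K] [IsFractionRing Λ K] [Field 𝔽] [Algebra K 𝔽] [Algebra Λ 𝔽]
  [IsScalarTower Λ K 𝔽] (π : Λ) (hπ : Irreducible π)
  {K₁ : Type*} [Field K₁] [Algebra Λ[X] K₁] [IsFractionRing Λ[X] K₁] [Algebra K₁ 𝔽]
  [FiniteDimensional K₁ 𝔽]
  (t : 𝔽) (hcompat : ∀ a : Λ[X], algebraMap K₁ 𝔽 (algebraMap Λ[X] K₁ a) = Polynomial.aeval t a)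
  (C : Finset Λ) (hC : ∀ c ∈ C, ∀ c' ∈ C, c ≠ c' → ¬ π ∣ c - c')
  (hB1 : HasIntegralDualBasis (gaussSub π hπ.prime t) K₁ 𝔽)
  (hB2 : UnramAway K t ((algebraMap Λ K) '' (C : Set Λ)))

include hcompat hC hB1 hB2 in
/-- the local lift at the closed point `(π, f)`, in terms of `Λ[t]` (full form) -/
theorem IntLifts.exists_lift_at_pt {f : Λ[X]} (hf : f.Monic)
    (hfirr : Irreducible (f.map (Ideal.Quotient.mk (Ideal.span {π}))))
    (hcusp : (∃ c ∈ C, f = X - Polynomial.C c) ∨ (∀ c ∈ C, X - Polynomial.C c ∉ pt π f))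
    (ε : 𝔽) (hε : IsIntegral (gaussSub π hπ.prime t) ε)
    (hε2 : ∃ q : 𝔽[X], q.Monic ∧ (∀ i, IsIntegral (Algebra.adjoin Λ {t}) (q.coeff i)) ∧
      ∃ δ : 𝔽, IsIntegral (gaussSub π hπ.prime t) δ ∧ q.eval ε = π • δ) :
    ∃ (a : Λ[X]) (e : 𝔽), a ∉ pt π f ∧ IsIntegral (Algebra.adjoin Λ {t}) e ∧
      ∃ δ : 𝔽, IsIntegral (gaussSub π hπ.prime t) δ ∧ aeval t a * ε - e = π • δ := by
  haveI hP : (pt π f).IsPrime := (pt_isMaximal hπ hfirr).isPrime
  haveI : CharZero Λ := (algebraMap Λ K).charZero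
  haveI : CharZero K₁ := LocalInst.charZero_K₁ (K₁ := K₁) (𝔽 := 𝔽) K
  letI := LocalInst.algK₁ (K₁ := K₁) (pt π f)
  haveI := LocalInst.isScalarTower_algK₁ (K₁ := K₁) (pt π f)
  letI := LocalInst.alg𝔽 K₁ (𝔽 := 𝔽) (pt π f)
  haveI := LocalInst.isScalarTower_alg𝔽 K₁ (𝔽 := 𝔽) (pt π f)
  haveI := LocalInst.isFractionRing (K₁ := K₁) (pt π f)
  have hφπ : algebraMap (Localization.AtPrime (pt π f)) 𝔽
      (algebraMap Λ[X] (Localization.AtPrime (pt π f)) (Polynomial.C π)) = algebraMap Λ 𝔽 π := by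
    rw [LocalInst.algebraMap_apply t hcompat (pt π f), aeval_C]
  have hV : IsLocSub (algebraMap Λ[X] (Localization.AtPrime (pt π f)) (Polynomial.C π))
      (gaussSub π hπ.prime t) :=
    LocalInst.isLocSub_gaussSub t hcompat (pt π f) π hπ.prime (C_mem_pt π f)
  haveI : CharZero (Localization.AtPrime (pt π f) ⧸
      Ideal.span {algebraMap Λ[X] (Localization.AtPrime (pt π f)) f}) :=
    charZero_quotient_f hπ hf hfirr
  obtain ⟨q, hq, hqc, δ₀, hδ₀, hqε⟩ := hε2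
  obtain ⟨e, he, δ, hδ, h⟩ := IntLifts.exists_lift K₁
    (algebraMap Λ[X] (Localization.AtPrime (pt π f)) (Polynomial.C π))
    (algebraMap Λ[X] (Localization.AtPrime (pt π f)) f)
    maximalIdeal_eq (isPrime_span_C_pi hπ) (isPrime_span_f hπ hf hfirr) (map_C_pi_ne_zero hπ)
    (map_f_ne_zero hf) (not_map_C_pi_dvd_map_f hπ hf) (gaussSub π hπ.prime t) hV
    (fun n b => LocalDisc.discr_eq_unit_mul_pow_gen hπ hf hfirr (gaussSub π hπ.prime t) hV hB1 C hC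
      hcusp (fun p hp _ hdeg hroot =>
        LocalGlue.unram_at π hπ t hcompat C hB2 (pt π f) p hp hdeg hroot) n b)
    ε hε q hq (fun i => LocalInst.isIntegral_of_isIntegral_adjoin t hcompat (pt π f) (hqc i))
    ⟨δ₀, hδ₀, by rw [hqε, hφπ, Algebra.smul_def]⟩
  obtain ⟨a, ha, hae⟩ := LocalInst.exists_isIntegral_adjoin t hcompat (pt π f) he
  refine ⟨a, aeval t a * e, ha, hae, aeval t a * δ, ?_, ?_⟩
  · exact (isIntegral_of_mem (aeval_mem_gaussSub π hπ.prime t a)).mul hδ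
  · rw [← mul_sub, h, hφπ, Algebra.smul_def]
    ring

include hcompat hC hB1 hB2 in
/-- **[T2-FULL]** the integral closure of `Λ[t]` in `𝔽` is normal modulo `π` (same hypotheses as
`S18.LocalGlue.idemLifts_gen`). -/
theorem intLifts_gen : IntLifts (gaussSub π hπ.prime t) π t := by
  intro ε hε hε2
  -- the ideal of denominators
  let I : Ideal Λ[X] :=
    { carrier := {a | ∃ e : 𝔽, IsIntegral (Algebra.adjoin Λ {t}) e ∧
        ∃ δ : 𝔽, IsIntegral (gaussSub π hπ.prime t) δ ∧ aeval t a * ε - e = π • δ}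
      add_mem' := by
        rintro a a' ⟨e, he, δ, hδ, h⟩ ⟨e', he', δ', hδ', h'⟩
        refine ⟨e + e', he.add he', δ + δ', hδ.add hδ', ?_⟩
        rw [map_add, smul_add, ← h, ← h']
        ring
      zero_mem' := ⟨0, isIntegral_zero, 0, isIntegral_zero, by simp⟩
      smul_mem' := by
        rintro c a ⟨e, he, δ, hδ, h⟩
        refine ⟨aeval t c * e, ?_, aeval t c * δ, ?_, ?_⟩
        · have hc : aeval t c ∈ Algebra.adjoin Λ {t} := Polynomial.aeval_mem_adjoin_singleton Λ t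
          exact (isIntegral_of_mem (V := (Algebra.adjoin Λ {t}).toSubring) hc).mul he
        · exact (isIntegral_of_mem (aeval_mem_gaussSub π hπ.prime t c)).mul hδ
        · rw [smul_eq_mul, map_mul, ← mul_smul_comm, ← h]
          ring }
  by_cases hI : I = ⊤
  · have h1 : (1 : Λ[X]) ∈ I := hI ▸ Submodule.mem_top
    obtain ⟨e, he, δ, hδ, h⟩ := h1
    exact ⟨e, he, δ, hδ, by rwa [map_one, one_mul] at h⟩
  · exfalso
    obtain ⟨𝔫, h𝔫max, hI𝔫⟩ := Ideal.exists_le_maximal I hI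
    have hπ𝔫 : Polynomial.C π ∈ 𝔫 :=
      hI𝔫 ⟨0, isIntegral_zero, ε, hε, by rw [aeval_C, sub_zero, Algebra.smul_def]⟩
    obtain ⟨f₀, hf₀, hf₀irr, rfl⟩ := exists_eq_pt hπ 𝔫 h𝔫max hπ𝔫
    obtain ⟨f, hf, hfirr, hpt, hcusp⟩ : ∃ f : Λ[X], f.Monic ∧
        Irreducible (f.map (Ideal.Quotient.mk (Ideal.span {π}))) ∧ pt π f₀ = pt π f ∧
        ((∃ c ∈ C, f = X - Polynomial.C c) ∨ (∀ c ∈ C, X - Polynomial.C c ∉ pt π f)) := by
      by_cases hc : ∃ c ∈ C, X - Polynomial.C c ∈ pt π f₀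
      · obtain ⟨c, hcC, hcmem⟩ := hc
        exact ⟨X - Polynomial.C c, monic_X_sub_C c, irreducible_map_X_sub_C hπ c,
          pt_eq_of_X_sub_C_mem hπ hf₀irr hcmem, Or.inl ⟨c, hcC, rfl⟩⟩
      · push Not at hc
        exact ⟨f₀, hf₀, hf₀irr, rfl, Or.inr hc⟩
    obtain ⟨a, e, ha, he, δ, hδ, h⟩ :=
      IntLifts.exists_lift_at_pt π hπ t hcompat C hC hB1 hB2 hf hfirr hcusp ε hε hε2
    exact ha (hpt ▸ hI𝔫 ⟨e, he, δ, hδ, h⟩)

end Main

end Fermat.Agent.S37
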