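import Fermat.Agent.S18.Transport
import Fermat.Agent.S37.IntLifts

/-!
P12 / S37 Tier 2, [T2-EK], abstract part: the P11 model without the Kummer generator `w`.

`Λ` a DVR with uniformiser `π`, `K = Frac Λ` of characteristic `0`, `𝔽` a finite extension of
`K(x)` generated over `K` by `x` and the image of a field `FK = K(jK, θ)`, where
`Ng(x) = e(jK) Dg(x)` and `θ` is a root of a monic `H` over the Gauss ring of `jK` with
`H'(θ)` a unit.  Then (B1) holds for the Gauss ring of `x`, and with (B2) for the two charts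
`x`, `x⁻¹` the integral closures of `Λ[x]` and `Λ[x⁻¹]` in `𝔽` are normal modulo `π`
(`IntLifts`).
-/

set_option autoImplicit false
set_option linter.unusedSectionVars false
set_option linter.style.haveILetI false

namespace Fermat.Agent.S37.CoverE

open Polynomial IntermediateField Fermat.Agent.S18

section Abs

variable {Λ K 𝔽 : Type*} [CommRing Λ] [IsDomain Λ] [IsDiscreteValuationRing Λ] [Field K]
  [CharZero K] [Algebra Λ K] [IsFractionRing Λ K] [Field 𝔽] [Algebra K 𝔽] [Algebra Λ 𝔽]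
  [IsScalarTower Λ K 𝔽] (π : Λ) (hπ : Irreducible π)

/-- (B1) from a primitive element: `𝔽 = K(x, θ)`, `θ` a root of the monic `H` with coefficients
in the Gauss ring of `j ∈ K(x)` (contained in the Gauss ring of `x`), `H'(θ)⁻¹` integral. -/
theorem hasIntegralDualBasis_of_theta (j x θ : 𝔽) (H : 𝔽[X])
    (hjx : j ∈ K⟮x⟯) (hjtr : Transcendental K j)
    (hle : gaussSub π hπ.prime j ≤ gaussSub π hπ.prime x)
    (hgen : IntermediateField.adjoin K {x, θ} = ⊤)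
    (hHm : H.Monic) (hHc : ∀ i, H.coeff i ∈ gaussSub π hπ.prime j) (hHθ : H.eval θ = 0)
    (hHd0 : H.derivative.eval θ ≠ 0)
    (hHd : IsIntegral (gaussSub π hπ.prime j) (H.derivative.eval θ)⁻¹) :
    HasIntegralDualBasis (gaussSub π hπ.prime x) K⟮x⟯ 𝔽 := by
  have hup : ∀ z : 𝔽, IsIntegral (gaussSub π hπ.prime j) z →
      IsIntegral (gaussSub π hπ.prime x) z :=
    fun z hz => ModelAbs.isIntegral_of_le hle hz
  have hVjK₁ : ∀ v ∈ gaussSub π hπ.prime j, v ∈ K⟮x⟯ :=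
    ModelAbs.gaussSub_le_of_mem hπ.prime K⟮x⟯ hjx hjtr
  have hl : H ∈ lifts (algebraMap K⟮x⟯ 𝔽) :=
    (lifts_iff_coeff_lifts H).2 fun n => ⟨⟨H.coeff n, hVjK₁ _ (hHc n)⟩, rfl⟩
  obtain ⟨H₁, hH₁, -, hH₁m⟩ := lifts_and_natDegree_eq_and_monic hl hHm
  have hH₁θ : aeval θ H₁ = 0 := by
    rw [aeval_def, eval₂_eq_eval_map, hH₁, hHθ]
  have hH₁c : ∀ i, IsIntegral (gaussSub π hπ.prime x) (algebraMap K⟮x⟯ 𝔽 (H₁.coeff i)) := by
    intro i
    have h1 : algebraMap K⟮x⟯ 𝔽 (H₁.coeff i) = H.coeff i := by rw [← hH₁, coeff_map]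
    rw [h1]
    exact ModelAbs.isIntegral_of_mem_subring (hle (hHc i))
  have hθint : IsIntegral (gaussSub π hπ.prime x) θ :=
    ModelAbs.isIntegral_of_monic_of_coeff_mem H hHm (fun i => hle (hHc i)) hHθ
  have hder : aeval θ (derivative H₁) = H.derivative.eval θ := by
    rw [aeval_def, eval₂_eq_eval_map, ← derivative_map, hH₁]
  have hM : HasIntegralDualBasis (gaussSub π hπ.prime x) K⟮x⟯ K⟮x⟯⟮θ⟯ :=
    DualBasis.of_primitive (gaussSub π hπ.prime x) θ H₁ hH₁m hH₁θ hH₁c hθint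
      (by rw [hder]; exact hHd0) (by rw [hder]; exact hup _ hHd)
  have htop : K⟮x⟯⟮θ⟯ = ⊤ := by
    have hxM : x ∈ K⟮x⟯⟮θ⟯ := by
      have h0 : algebraMap K⟮x⟯ 𝔽 ⟨x, mem_adjoin_simple_self K x⟩ ∈ K⟮x⟯⟮θ⟯ :=
        (K⟮x⟯⟮θ⟯).algebraMap_mem (⟨x, mem_adjoin_simple_self K x⟩ : K⟮x⟯)
      exact h0
    have h1 : IntermediateField.adjoin K {x, θ} ≤ (K⟮x⟯⟮θ⟯).restrictScalars K := by
      rw [IntermediateField.adjoin_le_iff]
      rintro s (rfl | rfl)
      · exact (IntermediateField.mem_restrictScalars K).2 hxM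
      · exact (IntermediateField.mem_restrictScalars K).2 (mem_adjoin_simple_self _ _)
    rw [eq_top_iff]
    intro y _
    have h2 : y ∈ IntermediateField.adjoin K {x, θ} := by rw [hgen]; exact mem_top
    exact (IntermediateField.mem_restrictScalars K).1 (h1 h2)
  exact DualBasis.of_eq_top (gaussSub π hπ.prime x) _ htop hM

/-- `IntLifts` at the chart `x` (`intLifts_gen` with `K₁ = K⟮x⟯`, `X ↦ x`). -/
theorem intLifts (x : 𝔽) (hx : Transcendental K x) [FiniteDimensional K⟮x⟯ 𝔽] (C : Finset Λ)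
    (hC : ∀ c ∈ C, ∀ c' ∈ C, c ≠ c' → ¬ π ∣ c - c')
    (hB1 : HasIntegralDualBasis (gaussSub π hπ.prime x) K⟮x⟯ 𝔽)
    (hB2 : UnramAway K x ((algebraMap Λ K) '' (C : Set Λ))) :
    IntLifts (gaussSub π hπ.prime x) π x := by
  letI : Algebra Λ[X] K⟮x⟯ := GaussLineK.polyAlgebra x (AdjoinSimple.gen K x)
  haveI : IsFractionRing Λ[X] K⟮x⟯ := GaussLineK.isFractionRing_gen hx
  refine intLifts_gen π hπ (K₁ := K⟮x⟯) x (fun a => ?_) C hC hB1 hB2
  exact GaussLineK.polyAlgebra_algebraMap_apply x (AdjoinSimple.gen K x) a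

/-- `IntLifts` at the chart `x⁻¹` (`intLifts_gen` with `K₁ = K⟮x⟯`, `X ↦ x⁻¹`). -/
theorem intLifts_inv (x : 𝔽) (hx : Transcendental K x) [FiniteDimensional K⟮x⟯ 𝔽]
    (C' : Finset Λ) (hC' : ∀ c ∈ C', ∀ c' ∈ C', c ≠ c' → ¬ π ∣ c - c')
    (hB1 : HasIntegralDualBasis (gaussSub π hπ.prime x) K⟮x⟯ 𝔽)
    (hB2' : UnramAway K x⁻¹ ((algebraMap Λ K) '' (C' : Set Λ))) :
    IntLifts (gaussSub π hπ.prime x) π x⁻¹ := by
  have ht : Transcendental Λ x := GaussLineK.transcendental_of_fraction hx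
  have hV : gaussSub π hπ.prime x⁻¹ = gaussSub π hπ.prime x :=
    GaussLineK.gaussSub_inv π hπ.prime ht
  letI : Algebra Λ[X] K⟮x⟯ := GaussLineK.polyAlgebra x (AdjoinSimple.gen K x)⁻¹
  haveI : IsFractionRing Λ[X] K⟮x⟯ := GaussLineK.isFractionRing_gen_inv hx
  rw [← hV] at hB1 ⊢
  refine intLifts_gen π hπ (K₁ := K⟮x⟯) x⁻¹ (fun a => ?_) C' hC' hB1 hB2'
  exact GaussLineK.polyAlgebra_algebraMap_apply x (AdjoinSimple.gen K x)⁻¹ a

end Abs

/-- **[EK], abstract form**: the hypotheses of `S18.model_abs_transport` without the Kummer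
generator give `IntLifts` for the two charts `x` and `x⁻¹`. -/
theorem intLifts_pair {Λ K FK 𝔽 : Type*} [CommRing Λ] [IsDomain Λ]
    [IsDiscreteValuationRing Λ] [Field K] [CharZero K] [Algebra Λ K] [IsFractionRing Λ K]
    [Field 𝔽] [Algebra K 𝔽] [Algebra Λ 𝔽] [IsScalarTower Λ K 𝔽]
    [Field FK] [Algebra K FK] [Algebra Λ FK] [IsScalarTower Λ K FK]
    (π : Λ) (hπ : Irreducible π)
    (Ng Dg : Λ[X]) (hdeg : Dg.natDegree < Ng.natDegree) (hlead : IsUnit Ng.leadingCoeff)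
    (hcop : IsCoprime (Ng.map (Ideal.Quotient.mk (Ideal.span {π})))
      (Dg.map (Ideal.Quotient.mk (Ideal.span {π}))))
    (C C' : Finset Λ) (hC : ∀ c ∈ C, ∀ c' ∈ C, c ≠ c' → IsUnit (c - c'))
    (hC' : ∀ c ∈ C', ∀ c' ∈ C', c ≠ c' → IsUnit (c - c'))
    (e : FK →ₐ[K] 𝔽) (jK θ : FK) (H : FK[X]) (x : 𝔽)
    (hx : Transcendental K x) [FiniteDimensional K⟮x⟯ 𝔽]
    (hcov : aeval x Ng = e jK * aeval x Dg)
    (Tgen : Set 𝔽) (hTgen : IntermediateField.adjoin K Tgen = ⊤)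
    (hTsub : ∀ t ∈ Tgen, t = x ∨ t ∈ Set.range e)
    (hjθ : IntermediateField.adjoin K {jK, θ} = ⊤)
    (hHm : H.Monic) (hHc : ∀ i, H.coeff i ∈ gaussSub π hπ.prime jK) (hHθ : H.eval θ = 0)
    (hHd0 : H.derivative.eval θ ≠ 0)
    (hHd : IsIntegral (gaussSub π hπ.prime jK) (H.derivative.eval θ)⁻¹)
    (hB2 : UnramAway K x ((algebraMap Λ K) '' (C : Set Λ)))
    (hB2' : UnramAway K x⁻¹ ((algebraMap Λ K) '' (C' : Set Λ))) :
    IntLifts (gaussSub π hπ.prime x) π x ∧ IntLifts (gaussSub π hπ.prime x) π x⁻¹ := by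
  have he : ∀ c : Λ, (e : FK →+* 𝔽) (algebraMap Λ FK c) = algebraMap Λ 𝔽 c := by
    intro c
    rw [IsScalarTower.algebraMap_apply Λ K FK, IsScalarTower.algebraMap_apply Λ K 𝔽]
    exact e.commutes _
  obtain ⟨hHm', hHc', hHθ', hHd0', hHd'⟩ :=
    Transport.map_G2 π hπ.prime (e : FK →+* 𝔽) he jK θ H hHm hHc hHθ hHd0 hHd
  obtain ⟨hjtr, hjx⟩ := ModelAbs.cover_facts Ng Dg hdeg hlead x (e jK) hx hcov
  have hgen3 : IntermediateField.adjoin K {x, e θ, x} = ⊤ :=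
    Transport.adjoin_eq_top e jK θ hjθ x x hjx Tgen hTgen
      (fun t ht => (hTsub t ht).elim Or.inl (fun h => Or.inr (Or.inr h)))
  have hgen : IntermediateField.adjoin K {x, e θ} = ⊤ := by
    have hset : ({x, e θ, x} : Set 𝔽) = {x, e θ} := by
      ext t
      simp only [Set.mem_insert_iff, Set.mem_singleton_iff]
      tauto
    rw [← hset]
    exact hgen3
  have hle : gaussSub π hπ.prime (e jK) ≤ gaussSub π hπ.prime x :=
    VjInt.gaussSub_j_le' hπ hdeg hlead hcop hcov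
  have hB1 : HasIntegralDualBasis (gaussSub π hπ.prime x) K⟮x⟯ 𝔽 :=
    hasIntegralDualBasis_of_theta π hπ (e jK) x (e θ) (H.map (e : FK →+* 𝔽)) hjx hjtr hle hgen
      hHm' hHc' hHθ' hHd0' hHd'
  exact ⟨intLifts π hπ x hx C
      (fun c hc c' hc' hne hdvd => hπ.not_isUnit (isUnit_of_dvd_unit hdvd (hC c hc c' hc' hne)))
      hB1 hB2,
    intLifts_inv π hπ x hx C'
      (fun c hc c' hc' hne hdvd => hπ.not_isUnit (isUnit_of_dvd_unit hdvd (hC' c hc c' hc' hne)))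
      hB1 hB2'⟩

end Fermat.Agent.S37.CoverE
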