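import Mathlib
import Fermat.Agent.S18.Basic
import Fermat.Agent.S18.VjInt
import Fermat.Agent.S18.GaussLineA

/-!
P12 / S37 — `CoverInf`: the cover `j = Ng(x) / Dg(x)` in the coordinates `x⁻¹`, `j⁻¹`
(chart at infinity of the `j`-line), when `Dg(0)` is a unit.

With `d = deg Ng`, `Ñ = X ^ d * Ng(1 / X)`, `D̃ = X ^ d * Dg(1 / X)` and
`σ₀(U) = Dg(0) - U * Ng(0)`:

* `isCoprime_revD_revN` : `D̃`, `Ñ` are coprime;
* `not_C_dvd_revN`      : `π ∤ Ñ`;
* `cover_inv`           : `D̃(x⁻¹) = j⁻¹ * Ñ(x⁻¹)`;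
* `aeval_revN_ne_zero`  : `Ñ(x⁻¹) ≠ 0`;
* `isIntegral_sig_mul_inv` : `σ₀(j⁻¹) * x⁻¹` is integral over `Λ[j⁻¹]`;
* `exists_coverInf`     : the package consumed by `Radicial` (engine setting).
-/

set_option autoImplicit false

namespace Fermat.Agent.S37

open Polynomial Fermat.Agent.S18

namespace CoverInf

/-! ### Polynomial identities -/

section Poly

variable {Λ : Type*} [CommRing Λ]

/-- `Ñ = X ^ d * N(1 / X)`, `d = deg N`. -/
noncomputable def revN (Ng : Λ[X]) : Λ[X] := reflect Ng.natDegree Ng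

/-- `D̃ = X ^ d * D(1 / X)`, `d = deg N`. -/
noncomputable def revD (Ng Dg : Λ[X]) : Λ[X] := reflect Ng.natDegree Dg

/-- `σ₀(U) = D(0) - U * N(0)`. -/
noncomputable def sig (Ng Dg : Λ[X]) : Λ[X] := C (Dg.eval 0) - C (Ng.eval 0) * X

theorem eval_sig_zero (Ng Dg : Λ[X]) : (sig Ng Dg).eval 0 = Dg.eval 0 := by
  simp [sig]

theorem coeff_revN_zero (Ng : Λ[X]) : (revN Ng).coeff 0 = Ng.leadingCoeff := by
  rw [revN, coeff_reflect, revAt_zero, leadingCoeff]

theorem coeff_revN_natDegree (Ng : Λ[X]) : (revN Ng).coeff Ng.natDegree = Ng.eval 0 := by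
  rw [revN, coeff_reflect, revAt_le le_rfl, Nat.sub_self, coeff_zero_eq_eval_zero]

theorem coeff_revD_natDegree (Ng Dg : Λ[X]) : (revD Ng Dg).coeff Ng.natDegree = Dg.eval 0 := by
  rw [revD, coeff_reflect, revAt_le le_rfl, Nat.sub_self, coeff_zero_eq_eval_zero]

theorem natDegree_revN_le (Ng : Λ[X]) : (revN Ng).natDegree ≤ Ng.natDegree := by
  refine natDegree_reflect_le.trans ?_
  simp

theorem natDegree_revD_le {Ng Dg : Λ[X]} (hdeg : Dg.natDegree < Ng.natDegree) :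
    (revD Ng Dg).natDegree ≤ Ng.natDegree := by
  refine natDegree_reflect_le.trans ?_
  simp [hdeg.le]

/-- `Ñ` is coprime to `X`: its constant coefficient is the (unit) leading coefficient of `N`. -/
theorem isCoprime_revN_X {Ng : Λ[X]} (hlead : IsUnit Ng.leadingCoeff) :
    IsCoprime (revN Ng) X := by
  obtain ⟨u, hu⟩ := hlead
  refine ⟨C ((u⁻¹ : Λˣ) : Λ), -(C ((u⁻¹ : Λˣ) : Λ) * divX (revN Ng)), ?_⟩
  have h1 := divX_mul_X_add (revN Ng)
  rw [coeff_revN_zero, ← hu] at h1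
  have h2 : C ((u⁻¹ : Λˣ) : Λ) * C (u : Λ) = 1 := by
    rw [← C_mul, Units.inv_mul, C_1]
  calc C ((u⁻¹ : Λˣ) : Λ) * revN Ng + -(C ((u⁻¹ : Λˣ) : Λ) * divX (revN Ng)) * X
      = C ((u⁻¹ : Λˣ) : Λ) * (revN Ng - divX (revN Ng) * X) := by ring
    _ = C ((u⁻¹ : Λˣ) : Λ) * C (u : Λ) := by
        congr 1
        nth_rewrite 1 [← h1]
        ring
    _ = 1 := h2

/-- `D̃` and `Ñ` are coprime. -/
theorem isCoprime_revD_revN {Ng Dg : Λ[X]} (hdeg : Dg.natDegree < Ng.natDegree)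
    (hlead : IsUnit Ng.leadingCoeff) (hcop : IsCoprime Ng Dg) :
    IsCoprime (revD Ng Dg) (revN Ng) := by
  obtain ⟨a, b, hab⟩ := hcop
  set m := max a.natDegree b.natDegree with hm
  -- reflect the Bezout identity
  have h1 : reflect (m + Ng.natDegree) (a * Ng + b * Dg) =
      reflect m a * revN Ng + reflect m b * revD Ng Dg := by
    rw [reflect_add, reflect_mul a Ng (le_max_left _ _) le_rfl,
      reflect_mul b Dg (le_max_right _ _) hdeg.le, revN, revD]
  have h2 : reflect (m + Ng.natDegree) (a * Ng + b * Dg) = X ^ (m + Ng.natDegree) := by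
    rw [hab, ← C_1, reflect_C, C_1, one_mul]
  have h3 : IsCoprime (revN Ng) (X ^ (m + Ng.natDegree)) := (isCoprime_revN_X hlead).pow_right
  rw [← h2, h1] at h3
  -- `IsCoprime Ñ (a' Ñ + b' D̃)` gives `IsCoprime Ñ D̃`
  have h4 : IsCoprime (revN Ng) (reflect m b * revD Ng Dg) := by
    have h5 : reflect m a * revN Ng + reflect m b * revD Ng Dg =
        reflect m b * revD Ng Dg + reflect m a * revN Ng := add_comm _ _
    rw [h5] at h3
    exact IsCoprime.of_add_mul_right_right h3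
  exact (IsCoprime.of_mul_right_right h4).symm

theorem not_C_dvd_revN {π : Λ} (hπ : Prime π) {Ng : Λ[X]} (hlead : IsUnit Ng.leadingCoeff) :
    ¬ C π ∣ revN Ng := by
  intro h
  rw [C_dvd_iff_dvd_coeff] at h
  have h0 := h 0
  rw [coeff_revN_zero] at h0
  exact hπ.not_isUnit (isUnit_of_dvd_unit h0 hlead)

end Poly

/-! ### The cover in the coordinates `x⁻¹`, `j⁻¹` -/

section Field

variable {Λ 𝔽 F : Type*} [CommRing Λ] [Field 𝔽] [Algebra Λ 𝔽] [Field F] [Algebra Λ F]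
  [Algebra F 𝔽] [IsScalarTower Λ F 𝔽]
  {Ng Dg : Λ[X]} (hdeg : Dg.natDegree < Ng.natDegree) (hlead : IsUnit Ng.leadingCoeff)
  {x : 𝔽} {j : F} (hx : Transcendental Λ x)
  (hcov : aeval x Ng = algebraMap F 𝔽 j * aeval x Dg)

theorem aeval_inv_reflect {t : 𝔽} (ht : t ≠ 0) (n : ℕ) (f : Λ[X]) (hf : f.natDegree ≤ n) :
    aeval t⁻¹ (reflect n f) * t ^ n = aeval t f := by
  let _ : Invertible t := invertibleOfNonzero ht
  have h := eval₂_reflect_mul_pow (algebraMap Λ 𝔽) t n f hf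
  rw [invOf_eq_inv] at h
  rw [aeval_def, aeval_def, h]

include hx in
theorem x_ne_zero : x ≠ 0 := by
  have : Nontrivial Λ := (algebraMap Λ 𝔽).domain_nontrivial
  rintro rfl
  exact hx ⟨X, X_ne_zero, by simp⟩

include hdeg hlead hx hcov in
/-- `j` is transcendental over `Λ` (in `F`). -/
theorem transcendental_j : Transcendental Λ j := fun h =>
  VjInt.transcendental_j hdeg hlead hx hcov h.algebraMap

include hdeg hlead hx hcov in
theorem j_ne_zero : j ≠ 0 := by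
  have : Nontrivial Λ := (algebraMap Λ 𝔽).domain_nontrivial
  have htj : Transcendental Λ j := transcendental_j hdeg hlead hx hcov
  rintro rfl
  exact htj ⟨X, X_ne_zero, by simp⟩

include hdeg hlead hx hcov in
/-- The cover relation in the coordinates `x⁻¹`, `j⁻¹`: `D̃(x⁻¹) = j⁻¹ * Ñ(x⁻¹)`. -/
theorem cover_inv :
    aeval x⁻¹ (revD Ng Dg) = algebraMap F 𝔽 j⁻¹ * aeval x⁻¹ (revN Ng) := by
  have hx0 := x_ne_zero hx
  have hj0 : algebraMap F 𝔽 j ≠ 0 := (_root_.map_ne_zero _).mpr (j_ne_zero hdeg hlead hx hcov)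
  have h1 := aeval_inv_reflect hx0 Ng.natDegree Ng le_rfl
  have h2 := aeval_inv_reflect hx0 Ng.natDegree Dg hdeg.le
  have hxd : x ^ Ng.natDegree ≠ 0 := pow_ne_zero _ hx0
  apply mul_right_cancel₀ hxd
  rw [revD, revN, h2, mul_assoc, h1, hcov, map_inv₀, ← mul_assoc, inv_mul_cancel₀ hj0, one_mul]

include hlead hx in
/-- `Ñ(x⁻¹) ≠ 0`. -/
theorem aeval_revN_ne_zero : aeval x⁻¹ (revN Ng) ≠ 0 := by
  have : Nontrivial Λ := (algebraMap Λ 𝔽).domain_nontrivial
  have hx0 := x_ne_zero hx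
  have h1 := aeval_inv_reflect hx0 Ng.natDegree Ng le_rfl
  intro h0
  rw [revN] at h0
  rw [h0, zero_mul] at h1
  have hN : Ng ≠ 0 := by
    intro h
    rw [h, leadingCoeff_zero] at hlead
    exact not_isUnit_zero hlead
  exact hN ((transcendental_iff.mp hx) Ng h1.symm)

include hdeg hlead hx hcov in
/-- `σ₀(j⁻¹) x⁻¹` is integral over `Λ[j⁻¹]`. -/
theorem isIntegral_sig_mul_inv :
    IsIntegral (Algebra.adjoin Λ ({j⁻¹} : Set F))
      (algebraMap F 𝔽 (aeval j⁻¹ (sig Ng Dg)) * x⁻¹) := by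
  set R := Algebra.adjoin Λ ({j⁻¹} : Set F) with hR
  let u : R := ⟨j⁻¹, Algebra.subset_adjoin (Set.mem_singleton _)⟩
  let G : R[X] := (revD Ng Dg).map (algebraMap Λ R) - C u * (revN Ng).map (algebraMap Λ R)
  have hu : algebraMap R 𝔽 u = algebraMap F 𝔽 j⁻¹ := rfl
  have hG0 : aeval x⁻¹ G = 0 := by
    have h1 : ∀ p : Λ[X], aeval x⁻¹ (p.map (algebraMap Λ R)) = aeval x⁻¹ p := fun p =>
      aeval_map_algebraMap R x⁻¹ p
    rw [map_sub, map_mul, aeval_C, h1, h1, hu, cover_inv hdeg hlead hx hcov, sub_self]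
  have hGd : G.natDegree ≤ Ng.natDegree := by
    refine (natDegree_sub_le _ _).trans (max_le ?_ ?_)
    · exact natDegree_map_le.trans (natDegree_revD_le hdeg)
    · exact (natDegree_C_mul_le _ _).trans (natDegree_map_le.trans (natDegree_revN_le Ng))
  have hGc : G.coeff Ng.natDegree =
      algebraMap Λ R (Dg.eval 0) - u * algebraMap Λ R (Ng.eval 0) := by
    rw [coeff_sub, coeff_C_mul, coeff_map, coeff_map, coeff_revD_natDegree,
      coeff_revN_natDegree]
  have hsig : algebraMap F 𝔽 (aeval j⁻¹ (sig Ng Dg)) = algebraMap R 𝔽 (G.coeff Ng.natDegree) := by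
    rw [hGc, sig, map_sub, map_mul, aeval_C, aeval_C, aeval_X, map_sub, map_mul, map_sub,
      map_mul, hu, ← IsScalarTower.algebraMap_apply, ← IsScalarTower.algebraMap_apply,
      ← IsScalarTower.algebraMap_apply, ← IsScalarTower.algebraMap_apply, mul_comm]
  by_cases hc : G.coeff Ng.natDegree = 0
  · rw [hsig, hc, map_zero, zero_mul]
    exact isIntegral_zero
  · have hnat : G.natDegree = Ng.natDegree := natDegree_eq_of_le_of_coeff_ne_zero hGd hc
    have h := isIntegral_leadingCoeff_smul G x⁻¹ hG0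
    rw [leadingCoeff, hnat, Algebra.smul_def] at h
    rw [hsig]
    exact h

set_option linter.unusedSectionVars false in
include hdeg hlead hx hcov in
/-- `x` is integral over `Λ[j]` (fin chart; `hts` of `radicial_gen` with `s = 1`). The
hypothesis `hx` is not used; it is kept for a uniform interface. -/
theorem isIntegral_x_adjoin : IsIntegral (Algebra.adjoin Λ ({j} : Set F)) x := by
  have : Nontrivial Λ := (algebraMap Λ 𝔽).domain_nontrivial
  set R := Algebra.adjoin Λ ({j} : Set F) with hR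
  obtain ⟨u, hu⟩ := hlead
  have hu1 : ((u⁻¹ : Λˣ) : Λ) * Ng.leadingCoeff = 1 := by rw [← hu, Units.inv_mul]
  have hN' : (C ((u⁻¹ : Λˣ) : Λ) * Ng).Monic := monic_C_mul_of_mul_leadingCoeff_eq_one hu1
  have hdN : (C ((u⁻¹ : Λˣ) : Λ) * Ng).natDegree = Ng.natDegree :=
    natDegree_C_mul_of_mul_ne_zero (by rw [hu1]; exact one_ne_zero)
  let jR : R := ⟨j, Algebra.subset_adjoin (Set.mem_singleton _)⟩
  have hjR : algebraMap R 𝔽 jR = algebraMap F 𝔽 j := rfl
  have hmonic : ((C ((u⁻¹ : Λˣ) : Λ) * Ng).map (algebraMap Λ R) -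
      C jR * (C ((u⁻¹ : Λˣ) : Λ) * Dg).map (algebraMap Λ R)).Monic := by
    refine Monic.sub_of_left (hN'.map _) (degree_lt_degree ?_)
    rw [hN'.natDegree_map, hdN]
    calc (C jR * (C ((u⁻¹ : Λˣ) : Λ) * Dg).map (algebraMap Λ R)).natDegree
        ≤ ((C ((u⁻¹ : Λˣ) : Λ) * Dg).map (algebraMap Λ R)).natDegree := natDegree_C_mul_le _ _
      _ ≤ (C ((u⁻¹ : Λˣ) : Λ) * Dg).natDegree := natDegree_map_le
      _ ≤ Dg.natDegree := natDegree_C_mul_le _ _
      _ < Ng.natDegree := hdeg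
  refine ⟨_, hmonic, ?_⟩
  have h1 : ∀ p : Λ[X], aeval x (p.map (algebraMap Λ R)) = aeval x p := fun p =>
    aeval_map_algebraMap R x p
  rw [← aeval_def, map_sub, map_mul, aeval_C, h1, h1, map_mul, map_mul, aeval_C, hcov, hjR]
  ring

/-- Transfer of integrality from the Gauss ring of `algebraMap F 𝔽 t` (a subring of `𝔽`) to the
Gauss ring of `t` (a subring of `F`). -/
theorem isIntegral_gaussSub_of_algebraMap {π : Λ} (hπ : Prime π) {t : F}
    (ht : Transcendental Λ t) {z : 𝔽} (hz : IsIntegral (gaussSub π hπ (algebraMap F 𝔽 t)) z) :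
    IsIntegral (gaussSub π hπ t) z := by
  have hmem : ∀ v : gaussSub π hπ t,
      ((algebraMap F 𝔽).comp (gaussSub π hπ t).subtype) v ∈
        gaussSub π hπ (algebraMap F 𝔽 t) := by
    rintro ⟨v, a, b, hb, hv⟩
    refine ⟨a, b, hb, ?_⟩
    change algebraMap F 𝔽 v * aeval (algebraMap F 𝔽 t) b = aeval (algebraMap F 𝔽 t) a
    rw [aeval_algebraMap_apply, aeval_algebraMap_apply, ← map_mul, hv]
  let g : gaussSub π hπ t →+* gaussSub π hπ (algebraMap F 𝔽 t) :=
    ((algebraMap F 𝔽).comp (gaussSub π hπ t).subtype).codRestrict _ hmem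
  have hg : Function.Surjective g := by
    rintro ⟨v, a, b, hb, hv⟩
    have hb0 : aeval t b ≠ 0 := VjInt.aeval_ne_zero_of_not_C_dvd ht hb
    refine ⟨⟨aeval t a / aeval t b, a, b, hb, div_mul_cancel₀ _ hb0⟩, ?_⟩
    apply Subtype.ext
    change algebraMap F 𝔽 (aeval t a / aeval t b) = v
    rw [aeval_algebraMap_apply, aeval_algebraMap_apply] at hv
    have hb0' : algebraMap F 𝔽 (aeval t b) ≠ 0 := (_root_.map_ne_zero _).mpr hb0
    rw [map_div₀, div_eq_iff hb0', hv]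
  obtain ⟨p, hp, hpz⟩ := hz
  obtain ⟨q, hq, -, hqm⟩ :=
    lifts_and_natDegree_eq_and_monic ((mem_lifts p).mpr (map_surjective g hg p)) hp
  refine ⟨q, hqm, ?_⟩
  have h1 : eval₂ (algebraMap (gaussSub π hπ t) 𝔽) z q =
      eval₂ (algebraMap (gaussSub π hπ (algebraMap F 𝔽 t)) 𝔽) z (q.map g) := by
    rw [eval₂_map]
    rfl
  rw [h1, hq]
  exact hpz

include hdeg hlead hx hcov in
/-- Integral over the Gauss ring of the `x`-line ⇒ integral over the Gauss ring of the `j`-line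
of `F` (fin chart). -/
theorem isIntegral_fin {π : Λ} (hπ : Prime π) (hmax : (Ideal.span {π}).IsMaximal)
    (hcop : IsCoprime Ng Dg) {z : 𝔽} (hz : IsIntegral (gaussSub π hπ x) z) :
    IsIntegral (gaussSub π hπ j) z := by
  have hcop' : IsCoprime (Ng.map (Ideal.Quotient.mk (Ideal.span {π})))
      (Dg.map (Ideal.Quotient.mk (Ideal.span {π}))) :=
    hcop.map (mapRingHom (Ideal.Quotient.mk (Ideal.span {π})))
  exact isIntegral_gaussSub_of_algebraMap hπ (transcendental_j hdeg hlead hx hcov)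
    (VjInt.isIntegral_of_isIntegral hπ hmax hdeg hlead hcop' hx hcov hz)

include hdeg hlead hx hcov in
/-- Integral over the Gauss ring of the `x⁻¹`-line ⇒ integral over the Gauss ring of the
`j⁻¹`-line of `F` (chart at infinity). -/
theorem isIntegral_inf [IsDomain Λ] {π : Λ} (hπ : Prime π) (hmax : (Ideal.span {π}).IsMaximal)
    (hcop : IsCoprime Ng Dg) {z : 𝔽} (hz : IsIntegral (gaussSub π hπ x⁻¹) z) :
    IsIntegral (gaussSub π hπ j⁻¹) z := by
  rw [GaussLineK.gaussSub_inv π hπ hx] at hz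
  rw [GaussLineK.gaussSub_inv π hπ (transcendental_j hdeg hlead hx hcov)]
  exact isIntegral_fin hdeg hlead hx hcov hπ hmax hcop hz

end Field

/-! ### The package inside `𝔽` (`F = 𝔽`) -/

/-- The package of facts about the chart at infinity, everything inside `𝔽` (general form: `π`
prime, `x` transcendental over `Λ`), with `P = revD Ng Dg`, `Q = revN Ng`, `s = sig Ng Dg`. -/
theorem exists_coverInf_gen {Λ 𝔽 : Type*} [CommRing Λ] [Field 𝔽] [Algebra Λ 𝔽]
    {π : Λ} (hπ : Prime π) {Ng Dg : Λ[X]}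
    (hdeg : Dg.natDegree < Ng.natDegree) (hlead : IsUnit Ng.leadingCoeff) (hcop : IsCoprime Ng Dg)
    (h0 : IsUnit (Dg.eval 0))
    {x j : 𝔽} (hx : Transcendental Λ x) (hcov : aeval x Ng = j * aeval x Dg) :
    ∃ P Q s : Λ[X], IsCoprime P Q ∧ ¬ C π ∣ Q ∧ aeval x⁻¹ Q ≠ 0 ∧
      aeval x⁻¹ P = j⁻¹ * aeval x⁻¹ Q ∧ IsUnit (s.eval 0) ∧
      IsIntegral (Algebra.adjoin Λ ({j⁻¹} : Set 𝔽)) (aeval j⁻¹ s * x⁻¹) :=
  ⟨revD Ng Dg, revN Ng, sig Ng Dg, isCoprime_revD_revN hdeg hlead hcop, not_C_dvd_revN hπ hlead,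
    aeval_revN_ne_zero hlead hx, cover_inv (F := 𝔽) hdeg hlead hx hcov,
    by rw [eval_sig_zero]; exact h0, isIntegral_sig_mul_inv (F := 𝔽) hdeg hlead hx hcov⟩

/-- What `Radicial` consumes: the chart at infinity in the engine setting (`Λ` a DVR with
fraction field `K`, `π` irreducible, `x` transcendental over `K`). -/
theorem exists_coverInf {Λ K 𝔽 : Type*} [CommRing Λ] [IsDomain Λ] [IsDiscreteValuationRing Λ]
    [Field K] [Algebra Λ K] [IsFractionRing Λ K]
    [Field 𝔽] [Algebra K 𝔽] [Algebra Λ 𝔽] [IsScalarTower Λ K 𝔽]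
    {π : Λ} (hπ : Irreducible π) {Ng Dg : Λ[X]}
    (hdeg : Dg.natDegree < Ng.natDegree) (hlead : IsUnit Ng.leadingCoeff) (hcop : IsCoprime Ng Dg)
    (h0 : IsUnit (Dg.eval 0))
    {x j : 𝔽} (hx : Transcendental K x) (hcov : aeval x Ng = j * aeval x Dg) :
    ∃ P Q s : Λ[X], IsCoprime P Q ∧ ¬ C π ∣ Q ∧ aeval x⁻¹ Q ≠ 0 ∧
      aeval x⁻¹ P = j⁻¹ * aeval x⁻¹ Q ∧ IsUnit (s.eval 0) ∧
      IsIntegral (Algebra.adjoin Λ ({j⁻¹} : Set 𝔽)) (aeval j⁻¹ s * x⁻¹) :=
  exists_coverInf_gen hπ.prime hdeg hlead hcop h0 (VjInt.transcendental_of_fractionRing hx) hcov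

end CoverInf

end Fermat.Agent.S37
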