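import Mathlib

/-!
P12 / S37 Tier 2, [RADK] interface definitions (helper23, shapes agreed with helper22).

`RadLifts V π t` : "`Λ[t]`-integral elements are radicially dense modulo `π`": every element `ε`
integral over `V` which is, modulo `π`, a root of a monic polynomial with coefficients integral
over `Λ[t]` has a power `ε ^ n` (`1 ≤ n`) congruent modulo `π` to an element integral over `Λ[t]`.

`RadLiftsInf V π t` : the same up to a factor `σ(t) ^ n` with `σ ∈ Λ[X]`, `σ(0)` a unit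
(chart at infinity, `t = j⁻¹`).
-/

set_option autoImplicit false

namespace Fermat.Agent.S37

open Polynomial

/-- `IntLifts` with a power: see the module docstring. -/
def RadLifts {𝔽 : Type*} [Field 𝔽] (V : Subring 𝔽) {Λ : Type*} [CommRing Λ] [Algebra Λ 𝔽]
    (π : Λ) (t : 𝔽) : Prop :=
  ∀ ε : 𝔽, IsIntegral V ε →
    (∃ q : 𝔽[X], q.Monic ∧ (∀ i, IsIntegral (Algebra.adjoin Λ {t}) (q.coeff i)) ∧
      ∃ δ : 𝔽, IsIntegral V δ ∧ q.eval ε = π • δ) →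
    ∃ n : ℕ, 1 ≤ n ∧ ∃ e : 𝔽, IsIntegral (Algebra.adjoin Λ {t}) e ∧
      ∃ δ : 𝔽, IsIntegral V δ ∧ ε ^ n - e = π • δ

/-- `RadLifts` up to a factor `σ(t) ^ n`, `σ(0)` a unit (cusp chart). -/
def RadLiftsInf {𝔽 : Type*} [Field 𝔽] (V : Subring 𝔽) {Λ : Type*} [CommRing Λ] [Algebra Λ 𝔽]
    (π : Λ) (t : 𝔽) : Prop :=
  ∀ ε : 𝔽, IsIntegral V ε →
    (∃ q : 𝔽[X], q.Monic ∧ (∀ i, IsIntegral (Algebra.adjoin Λ {t}) (q.coeff i)) ∧
      ∃ δ : 𝔽, IsIntegral V δ ∧ q.eval ε = π • δ) →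
    ∃ n : ℕ, 1 ≤ n ∧ ∃ σ : Λ[X], IsUnit (σ.eval 0) ∧
      ∃ e : 𝔽, IsIntegral (Algebra.adjoin Λ {t}) e ∧
        ∃ δ : 𝔽, IsIntegral V δ ∧ (aeval t σ) ^ n * ε ^ n - e = π • δ

end Fermat.Agent.S37
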