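import Fermat.Agent.S37.RadicialGen
import Fermat.Agent.S37.CoverInf
import Fermat.Agent.S37.RadDefs

/-!
P12 / S37, [RADK]: the two wrappers `radLifts_fin` and `radLifts_inf` of `radicial_gen`
for the charts `j` and `j⁻¹` of the base line, in the engine setting.
-/

set_option autoImplicit false

namespace Fermat.Agent.S37

open Polynomial Fermat.Agent.S18 IntermediateField

namespace Radicial

section Fin

variable {K F 𝔽 : Type*} [Field K] [Field F] [Algebra K F] [Field 𝔽] [Algebra K 𝔽]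
  [Algebra F 𝔽] [IsScalarTower K F 𝔽]

/-- `𝔽` is finite over `F` when it is finite over `K(x)` and `x` is integral over `F`. -/
theorem finiteDimensional_of_isIntegral {x : 𝔽} [FiniteDimensional K⟮x⟯ 𝔽]
    (hx : IsIntegral F x) : FiniteDimensional F 𝔽 := by
  have : FiniteDimensional F F⟮x⟯ := IntermediateField.adjoin.finiteDimensional hx
  have hle : K⟮x⟯ ≤ (F⟮x⟯).restrictScalars K := by
    rw [IntermediateField.adjoin_le_iff]
    rintro y hy
    rw [Set.mem_singleton_iff] at hy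
    subst hy
    exact IntermediateField.mem_adjoin_simple_self F y
  let : Algebra K⟮x⟯ F⟮x⟯ := (IntermediateField.inclusion hle).toRingHom.toAlgebra
  have : IsScalarTower K⟮x⟯ F⟮x⟯ 𝔽 := IsScalarTower.of_algebraMap_eq (fun _ => rfl)
  have : Module.Finite F⟮x⟯ 𝔽 := Module.Finite.of_restrictScalars_finite K⟮x⟯ F⟮x⟯ 𝔽
  exact Module.Finite.trans F⟮x⟯ 𝔽

end Fin

section Pre

theorem algebraMap_ne_zero {Λ : Type*} (K : Type*) {F : Type*} [CommRing Λ] [IsDomain Λ]
    [Field K] [Algebra Λ K] [IsFractionRing Λ K] [Field F] [Algebra K F] [Algebra Λ F]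
    [IsScalarTower Λ K F] {π : Λ} (hπ : Irreducible π) : algebraMap Λ F π ≠ 0 := by
  rw [IsScalarTower.algebraMap_apply Λ K F]
  intro h
  have h1 := (algebraMap K F).injective (h.trans (map_zero _).symm)
  exact hπ.ne_zero (IsFractionRing.injective Λ K (h1.trans (map_zero _).symm))

theorem isIntegral_of_le {𝔽 : Type*} [Field 𝔽] {A B : Subring 𝔽} (h : A ≤ B) {z : 𝔽}
    (hz : IsIntegral A z) : IsIntegral B z := by
  obtain ⟨P, hP, hz⟩ := hz
  refine ⟨P.map (Subring.inclusion h), hP.map _, ?_⟩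
  rw [eval₂_map]
  exact hz

end Pre

section Aux

variable {Λ K F 𝔽 : Type*} [CommRing Λ] [IsDomain Λ] [IsDiscreteValuationRing Λ] [Field K]
  [CharZero K] [Algebra Λ K] [IsFractionRing Λ K]
  [Field F] [Algebra K F] [Algebra Λ F] [IsScalarTower Λ K F]
  [Field 𝔽] [Algebra K 𝔽] [Algebra Λ 𝔽] [IsScalarTower Λ K 𝔽]
  [Algebra F 𝔽] [IsScalarTower Λ F 𝔽] [IsScalarTower K F 𝔽]
  {π : Λ} (hπ : Irreducible π) {Ng Dg : Λ[X]}
  (hdeg : Dg.natDegree < Ng.natDegree) (hlead : IsUnit Ng.leadingCoeff) (hcop : IsCoprime Ng Dg)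
  {x : 𝔽} {j : F} (hx : Transcendental K x) [FiniteDimensional K⟮x⟯ 𝔽]
  (hcov : aeval x Ng = algebraMap F 𝔽 j * aeval x Dg)

include hcop in
omit [IsDomain Λ] in
theorem isCoprime_map :
    IsCoprime (Ng.map (Ideal.Quotient.mk (Ideal.span {π})))
      (Dg.map (Ideal.Quotient.mk (Ideal.span {π}))) :=
  hcop.map (Polynomial.mapRingHom (Ideal.Quotient.mk (Ideal.span {π})))

omit [IsDiscreteValuationRing Λ] [CharZero K] [IsScalarTower Λ K F] in
include hdeg hlead hx hcov in
theorem finiteDimensional_top : FiniteDimensional F 𝔽 := by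
  have h1 : IsIntegral (Algebra.adjoin Λ ({j} : Set F)) x :=
    CoverInf.isIntegral_x_adjoin hdeg hlead (VjInt.transcendental_of_fractionRing hx) hcov
  exact finiteDimensional_of_isIntegral (K := K) h1.tower_top

include hπ hdeg hlead hcop hcov in
/-- integral over the Gauss ring of the `j`-line of `F` ⇒ image integral over the Gauss ring
of the `x`-line. -/
theorem isIntegral_map {ε : F} (hε : IsIntegral (gaussSub π hπ.prime j) ε) :
    IsIntegral (gaussSub π hπ.prime x) (algebraMap F 𝔽 ε) := by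
  have h1 := GaussLineK.isIntegral_map_gaussSub' π hπ.prime (algebraMap F 𝔽)
    (fun c => (IsScalarTower.algebraMap_apply Λ F 𝔽 c).symm) hε
  exact isIntegral_of_le
    (VjInt.gaussSub_j_le' hπ hdeg hlead (isCoprime_map hcop) hcov) h1

omit [IsDomain Λ] [IsDiscreteValuationRing Λ] [CharZero K] [IsScalarTower Λ K F]
  [IsScalarTower Λ K 𝔽] [IsScalarTower K F 𝔽] [Algebra K F] [Algebra K 𝔽] [Algebra Λ K]
  [IsFractionRing Λ K] in
theorem map_eq_smul {a δ : F} (h : a = π • δ) :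
    algebraMap F 𝔽 a = π • algebraMap F 𝔽 δ := by
  rw [h, Algebra.smul_def, Algebra.smul_def, map_mul, ← IsScalarTower.algebraMap_apply]

include hπ hdeg hlead hcop hx hcov in
theorem radLifts_fin_aux (hlift : IntLifts (gaussSub π hπ.prime x) π x) :
    RadLifts (gaussSub π hπ.prime j) π j := by
  rintro ε hε ⟨q, hq, hqc, δ, hδ, hqε⟩
  have hxΛ : Transcendental Λ x := VjInt.transcendental_of_fractionRing hx
  have hmax := VjInt.isMaximal_span_of_irreducible hπ
  have : FiniteDimensional F 𝔽 := finiteDimensional_top (K := K) hdeg hlead hx hcov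
  have : CharZero 𝔽 := charZero_of_injective_algebraMap (algebraMap K 𝔽).injective
  have hQ : ¬ C π ∣ Dg := VjInt.not_C_dvd_Dg hmax hdeg hlead (isCoprime_map hcop)
  have hQ0 : aeval x Dg ≠ 0 := VjInt.aeval_ne_zero_of_not_C_dvd hxΛ hQ
  have hts : IsIntegral (Algebra.adjoin Λ ({j} : Set F))
      (algebraMap F 𝔽 (aeval j (1 : Λ[X])) * x) := by
    rw [map_one, map_one, one_mul]
    exact CoverInf.isIntegral_x_adjoin hdeg hlead hxΛ hcov
  obtain ⟨n, k, b, hn, hb, δ', hδ', h⟩ :=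
    radicial_gen π hπ.prime (algebraMap_ne_zero K hπ) x j Ng Dg 1 hcop hQ hQ0 hcov hts
      (gaussSub π hπ.prime j) (algebraMap_mem_gaussSub π hπ.prime j π)
      (fun z hz => CoverInf.isIntegral_fin hdeg hlead hxΛ hcov hπ.prime hmax hcop hz)
      hlift ε (isIntegral_map hπ hdeg hlead hcop hcov hε) q hq hqc
      ⟨algebraMap F 𝔽 δ, isIntegral_map hπ hdeg hlead hcop hcov hδ, map_eq_smul hqε⟩
  refine ⟨n, hn, b, hb, δ', hδ', ?_⟩
  rw [map_one, one_pow, one_pow, one_mul] at h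
  exact h

include hπ hdeg hlead hcop hx hcov in
theorem radLifts_inf_aux (h0 : IsUnit (Dg.eval 0))
    (hlift : IntLifts (gaussSub π hπ.prime x) π x⁻¹) :
    RadLiftsInf (gaussSub π hπ.prime j⁻¹) π j⁻¹ := by
  rintro ε hε ⟨q, hq, hqc, δ, hδ, hqε⟩
  have hxΛ : Transcendental Λ x := VjInt.transcendental_of_fractionRing hx
  have hjΛ : Transcendental Λ j := CoverInf.transcendental_j hdeg hlead hxΛ hcov
  have hmax := VjInt.isMaximal_span_of_irreducible hπ
  have : FiniteDimensional F 𝔽 := finiteDimensional_top (K := K) hdeg hlead hx hcov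
  have : CharZero 𝔽 := charZero_of_injective_algebraMap (algebraMap K 𝔽).injective
  have hgx : gaussSub π hπ.prime x⁻¹ = gaussSub π hπ.prime x :=
    GaussLineK.gaussSub_inv π hπ.prime hxΛ
  have hgj : gaussSub π hπ.prime j⁻¹ = gaussSub π hπ.prime j :=
    GaussLineK.gaussSub_inv π hπ.prime hjΛ
  have htr : ∀ {a : F}, IsIntegral (gaussSub π hπ.prime j⁻¹) a →
      IsIntegral (gaussSub π hπ.prime x⁻¹) (algebraMap F 𝔽 a) := by
    intro a ha
    rw [hgj] at ha
    rw [hgx]
    exact isIntegral_map hπ hdeg hlead hcop hcov ha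
  rw [← hgx] at hlift
  obtain ⟨n, k, b, hn, hb, δ', hδ', h⟩ :=
    radicial_gen π hπ.prime (algebraMap_ne_zero K hπ) x⁻¹ j⁻¹
      (CoverInf.revD Ng Dg) (CoverInf.revN Ng) (CoverInf.sig Ng Dg)
      (CoverInf.isCoprime_revD_revN hdeg hlead hcop) (CoverInf.not_C_dvd_revN hπ.prime hlead)
      (CoverInf.aeval_revN_ne_zero hlead hxΛ) (CoverInf.cover_inv hdeg hlead hxΛ hcov)
      (CoverInf.isIntegral_sig_mul_inv hdeg hlead hxΛ hcov)
      (gaussSub π hπ.prime j⁻¹) (algebraMap_mem_gaussSub π hπ.prime j⁻¹ π)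
      (fun z hz => CoverInf.isIntegral_inf hdeg hlead hxΛ hcov hπ.prime hmax hcop hz)
      hlift ε (htr hε) q hq hqc ⟨algebraMap F 𝔽 δ, htr hδ, map_eq_smul hqε⟩
  refine ⟨n, hn, CoverInf.sig Ng Dg ^ k, ?_, b, hb, δ', hδ', ?_⟩
  · rw [eval_pow, CoverInf.eval_sig_zero]
    exact h0.pow k
  · rw [map_pow]
    exact h

end Aux

end Radicial

section Eng

variable {Λ K F 𝔽 : Type*} [CommRing Λ] [IsDomain Λ] [IsDiscreteValuationRing Λ] [Field K]
  [CharZero K] [Algebra Λ K] [IsFractionRing Λ K]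
  [Field F] [Algebra K F] [Algebra Λ F] [IsScalarTower Λ K F]
  [Field 𝔽] [Algebra K 𝔽] [Algebra Λ 𝔽] [IsScalarTower Λ K 𝔽]
  (e : F →ₐ[K] 𝔽)
  {π : Λ} (hπ : Irreducible π) {Ng Dg : Λ[X]}
  (hdeg : Dg.natDegree < Ng.natDegree) (hlead : IsUnit Ng.leadingCoeff) (hcop : IsCoprime Ng Dg)
  {x : 𝔽} {j : F} (hx : Transcendental K x) [FiniteDimensional K⟮x⟯ 𝔽]
  (hcov : aeval x Ng = e j * aeval x Dg)

include e hπ hdeg hlead hcop hx hcov in
/-- RADK, finite chart. -/
theorem radLifts_fin (hlift : IntLifts (gaussSub π hπ.prime x) π x) :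
    RadLifts (gaussSub π hπ.prime j) π j := by
  let : Algebra F 𝔽 := e.toRingHom.toAlgebra
  have : IsScalarTower Λ F 𝔽 := IsScalarTower.of_algebraMap_eq (fun c => by
    rw [IsScalarTower.algebraMap_apply Λ K F, IsScalarTower.algebraMap_apply Λ K 𝔽]
    exact (e.commutes _).symm)
  have : IsScalarTower K F 𝔽 := IsScalarTower.of_algebraMap_eq (fun c => (e.commutes c).symm)
  exact Radicial.radLifts_fin_aux (K := K) hπ hdeg hlead hcop hx hcov hlift

include e hπ hdeg hlead hcop hx hcov in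
/-- RADK, chart at infinity. -/
theorem radLifts_inf (h0 : IsUnit (Dg.eval 0))
    (hlift : IntLifts (gaussSub π hπ.prime x) π x⁻¹) :
    RadLiftsInf (gaussSub π hπ.prime j⁻¹) π j⁻¹ := by
  let : Algebra F 𝔽 := e.toRingHom.toAlgebra
  have : IsScalarTower Λ F 𝔽 := IsScalarTower.of_algebraMap_eq (fun c => by
    rw [IsScalarTower.algebraMap_apply Λ K F, IsScalarTower.algebraMap_apply Λ K 𝔽]
    exact (e.commutes _).symm)
  have : IsScalarTower K F 𝔽 := IsScalarTower.of_algebraMap_eq (fun c => (e.commutes c).symm)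
  exact Radicial.radLifts_inf_aux (K := K) hπ hdeg hlead hcop hx hcov h0 hlift

end Eng

end Fermat.Agent.S37
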