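import Fermat.Agent.S37.CoverE
import Fermat.Agent.S37.CoverShift
import Fermat.Agent.S37.Radicial

/-!
P12 / S37 Tier 2: composition [EK] ∘ [RADK] at the number field level.

For every number field `K₀ ⊂ ℚ̄` there is a number field `K ⊇ K₀` and a uniformiser `ϖ` of
`Λ = A ∩ K` such that, in `F_K = modularFunctionFieldFullC K N` with its Gauss ring over the
`j`-line, `RadLifts` holds for `j` and `RadLiftsInf` holds for `j⁻¹`.
-/

set_option autoImplicit false
set_option linter.style.haveILetI false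

open ModularCurve AlgebraicCurve Polynomial IntermediateField
open Fermat.Agent.S24 Fermat.Agent.S18

namespace Fermat.Agent.S37.CoverE

set_option synthInstance.maxHeartbeats 400000 in
set_option maxHeartbeats 2000000 in
/-- [EK] ∘ [RADK]: both radicial lifting properties of `F_K` over `Λ = A ∩ K`, for a number field
`K` containing a given one. -/
theorem exists_radLifts (N : ℕ) [NeZero N] {ℓ : ℕ} [Fact ℓ.Prime]
    {A : ValuationSubring (AlgebraicClosure ℚ)} (hA : A.LiesOverPrime ℓ) (hℓN : ¬ ℓ ∣ N)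
    (K₀ : IntermediateField ℚ (AlgebraicClosure ℚ)) [FiniteDimensional ℚ ↥K₀] :
    ∃ (K : IntermediateField ℚ (AlgebraicClosure ℚ)) (_ : FiniteDimensional ℚ ↥K) (_ : K₀ ≤ K)
      (ϖ : ↥(NumField.lam A K)) (hϖ : Irreducible ϖ),
      RadLifts (gaussSub ϖ hϖ.prime (GaussL.jC ↥K N)) ϖ (GaussL.jC ↥K N) ∧
      RadLiftsInf (gaussSub ϖ hϖ.prime (GaussL.jC ↥K N)⁻¹) ϖ (GaussL.jC ↥K N)⁻¹ := by
  obtain ⟨cov, h0⟩ := exists_goodCover0 hA
  refine CoverE.exists_coverE N hA hℓN cov K₀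
    (fun K hKfd hK₀K ϖ hϖ 𝔽 _ _ _ _ e x hx hfin hcov h1 h2 => ?_)
  haveI := hKfd
  haveI := hfin
  haveI : IsDiscreteValuationRing ↥(NumField.lam A K) :=
    NumField.isDiscreteValuationRing_lam K hA
  obtain ⟨hdeg, hlead, hcop⟩ := CoverE.basic_lam cov hA K
  refine ⟨K, hKfd, hK₀K, ϖ, hϖ, ?_, ?_⟩
  · exact radLifts_fin e hϖ hdeg hlead hcop hx hcov h1
  · exact radLifts_inf e hϖ hdeg hlead hcop hx hcov (CoverE.isUnit_eval_zero cov hA h0 K) h2

end Fermat.Agent.S37.CoverE
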