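import Fermat.Agent.S24.PlacesBasic

/-!
P12 [DED] (complement): polynomials evaluated at a function vanishing at a place.

For a place `Q` of `F / K` and `x ∈ F` with `0 < Q.ord x`, a polynomial expression `s(x)`,
`s ∈ K[X]` with `s(0) ≠ 0`, is a unit at `Q`: `s(x) ≠ 0` and `Q.ord (s(x)) = 0`.
(Used for the element `σ(j⁻¹)` of the chart at infinity.)
-/

set_option autoImplicit false

namespace Fermat.Agent.S37.DedOrd

open AlgebraicCurve

variable {K F : Type*} [Field K] [Field F] [Algebra K F]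

/-- Polynomial expressions in an element regular at `Q` are regular at `Q`. -/
theorem aeval_mem (Q : Place K F) {x : F} (hx : x ∈ Q.toValuationSubring) (s : Polynomial K) :
    Polynomial.aeval x s ∈ Q.toValuationSubring := by
  rw [Polynomial.aeval_eq_sum_range]
  refine sum_mem fun i _ => ?_
  rw [Algebra.smul_def]
  exact mul_mem (Q.algebraMap_mem' _) (pow_mem hx i)

theorem ne_zero_of_ord_pos (Q : Place K F) {x : F} (hx : 0 < Q.ord x) : x ≠ 0 := by
  rintro rfl
  rw [Q.ord_zero] at hx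
  exact lt_irrefl _ hx

theorem mem_of_ord_pos (Q : Place K F) {x : F} (hx : 0 < Q.ord x) : x ∈ Q.toValuationSubring :=
  (S24.PlacesBasic.mem_iff_ord_nonneg Q (ne_zero_of_ord_pos Q hx)).mpr hx.le

/-- `s(x) ≠ 0` and `ord_Q (s(x)) = 0` when `x` vanishes at `Q` and `s(0) ≠ 0`. -/
theorem aeval_ne_zero_and_ord (Q : Place K F) {x : F} (hx : 0 < Q.ord x) (s : Polynomial K)
    (hs : s.coeff 0 ≠ 0) :
    Polynomial.aeval x s ≠ 0 ∧ Q.ord (Polynomial.aeval x s) = 0 := by
  have hx0 : x ≠ 0 := ne_zero_of_ord_pos Q hx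
  have hxQ : x ∈ Q.toValuationSubring := mem_of_ord_pos Q hx
  have hdec : Polynomial.aeval x s =
      Polynomial.aeval x s.divX * x + algebraMap K F (s.coeff 0) := by
    conv_lhs => rw [← Polynomial.divX_mul_X_add s]
    rw [map_add, map_mul, Polynomial.aeval_X, Polynomial.aeval_C]
  have hc0 : algebraMap K F (s.coeff 0) ≠ 0 := by
    rw [Ne, map_eq_zero]
    exact hs
  have hcord : Q.ord (algebraMap K F (s.coeff 0)) = 0 := S24.PlacesBasic.ord_algebraMap Q _
  by_cases ht : Polynomial.aeval x s.divX = 0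
  · rw [hdec, ht, zero_mul, zero_add]
    exact ⟨hc0, hcord⟩
  · have ht0 : Polynomial.aeval x s.divX * x ≠ 0 := mul_ne_zero ht hx0
    have h1 : 0 ≤ Q.ord (Polynomial.aeval x s.divX) :=
      (S24.PlacesBasic.mem_iff_ord_nonneg Q ht).mp (aeval_mem Q hxQ _)
    have h2 : 0 < Q.ord (Polynomial.aeval x s.divX * x) := by
      rw [Q.ord_mul ht hx0]
      omega
    have hne : Q.ord (Polynomial.aeval x s.divX * x) ≠ Q.ord (algebraMap K F (s.coeff 0)) := by
      rw [hcord]
      omega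
    have hsum : Polynomial.aeval x s.divX * x + algebraMap K F (s.coeff 0) ≠ 0 := by
      intro h0
      have h3 : Polynomial.aeval x s.divX * x = -algebraMap K F (s.coeff 0) :=
        eq_neg_of_add_eq_zero_left h0
      rw [h3, S24.PlacesBasic.ord_neg, hcord] at h2
      exact lt_irrefl _ h2
    rw [hdec]
    refine ⟨hsum, ?_⟩
    rw [S24.PlacesBasic.ord_add_eq_min Q ht0 hc0 hne, hcord]
    exact min_eq_right h2.le

theorem aeval_ne_zero (Q : Place K F) {x : F} (hx : 0 < Q.ord x) (s : Polynomial K)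
    (hs : s.coeff 0 ≠ 0) : Polynomial.aeval x s ≠ 0 :=
  (aeval_ne_zero_and_ord Q hx s hs).1

theorem ord_aeval_eq_zero (Q : Place K F) {x : F} (hx : 0 < Q.ord x) (s : Polynomial K)
    (hs : s.coeff 0 ≠ 0) : Q.ord (Polynomial.aeval x s) = 0 :=
  (aeval_ne_zero_and_ord Q hx s hs).2

theorem aeval_pow_ne_zero (Q : Place K F) {x : F} (hx : 0 < Q.ord x) (s : Polynomial K)
    (hs : s.coeff 0 ≠ 0) (n : ℕ) : Polynomial.aeval x s ^ n ≠ 0 :=
  pow_ne_zero n (aeval_ne_zero Q hx s hs)

theorem ord_aeval_pow_eq_zero (Q : Place K F) {x : F} (hx : 0 < Q.ord x) (s : Polynomial K)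
    (hs : s.coeff 0 ≠ 0) (n : ℕ) : Q.ord (Polynomial.aeval x s ^ n) = 0 := by
  rw [← zpow_natCast, Q.ord_zpow, ord_aeval_eq_zero Q hx s hs, mul_zero]

end Fermat.Agent.S37.DedOrd
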