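import Mathlib

/-!
# P12 (S37) [ES], abstract core: from "Kronecker at a place" to the Eichler–Shimura
relation on reduced divisors

`B` is a chart algebra, `k` a field of characteristic `ℓ`, `Z` a set of reduced points of the
chart with an injective coordinate map `c : Z → (B →+* k)`.  For a point `z`, its Frobenius
image `zp` (`c zp f = (c z f)^ℓ`) and its Frobenius preimage `zm` (`(c zm f)^ℓ = c z f`), and a
finite family of points `z' i` with multiplicities `e i` such that for every `f : B`

  `∏ i, (X - c (z' i) f)^(e i) = (X^ℓ - c z f) * (X - (c z f)^ℓ)`       (KR)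

we get `∑ i, e i • [z' i] = [zp] + ℓ • [zm]` in the free abelian group on `Z`.
-/

set_option autoImplicit false

namespace Fermat.Agent.S37

open Polynomial

namespace ESCore

/-- An additive group is not the union of two proper "equalizer" subgroups: if every element
lies in one of the equalizers of `φ, ψ₁` and of `φ, ψ₂`, then `φ = ψ₁` or `φ = ψ₂`. -/
theorem eq_or_eq_of_forall_eq_or_eq {B k : Type*} [CommRing B] [Field k] (φ ψ₁ ψ₂ : B →+* k)
    (h : ∀ f : B, ψ₁ f = φ f ∨ ψ₂ f = φ f) : ψ₁ = φ ∨ ψ₂ = φ := by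
  by_contra hcon
  rw [not_or] at hcon
  obtain ⟨h1, h2⟩ := hcon
  have h1' : ∃ a, ψ₁ a ≠ φ a := by
    by_contra hne
    exact h1 (RingHom.ext fun a => by_contra fun ha => hne ⟨a, ha⟩)
  have h2' : ∃ b, ψ₂ b ≠ φ b := by
    by_contra hne
    exact h2 (RingHom.ext fun a => by_contra fun ha => hne ⟨a, ha⟩)
  obtain ⟨a, ha⟩ := h1'
  obtain ⟨b, hb⟩ := h2'
  have ha2 : ψ₂ a = φ a := (h a).resolve_left ha
  have hb1 : ψ₁ b = φ b := (h b).resolve_right hb
  rcases h (a + b) with hab | hab
  · rw [map_add, map_add, hb1] at hab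
    exact ha (add_right_cancel hab)
  · rw [map_add, map_add, ha2] at hab
    exact hb (add_left_cancel hab)

section count

variable {k : Type*} [Field k] (ℓ : ℕ) [Fact ℓ.Prime] [CharP k ℓ]

/-- Root count of the left-hand side of (KR). -/
theorem count_roots_prod {ι : Type*} [DecidableEq k] (s : Finset ι) (a : ι → k) (e : ι → ℕ)
    (v : k) :
    (∏ i ∈ s, (X - C (a i)) ^ (e i)).roots.count v = ∑ i ∈ s, (if a i = v then e i else 0) := by
  classical
  have hne : ∏ i ∈ s, (X - C (a i)) ^ (e i) ≠ 0 :=
    Finset.prod_ne_zero_iff.2 fun i _ => pow_ne_zero _ (X_sub_C_ne_zero (a i))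
  rw [roots_prod _ _ hne, Multiset.count_bind, ← Finset.sum_eq_multiset_sum]
  refine Finset.sum_congr rfl fun i _ => ?_
  rw [roots_pow, roots_X_sub_C, Multiset.count_nsmul, Multiset.count_singleton]
  by_cases h : a i = v
  · rw [if_pos h, if_pos h.symm, mul_one]
  · rw [if_neg h, if_neg (fun h'' => h h''.symm), mul_zero]

/-- Root count of the right-hand side of (KR), `b` an `ℓ`-th root of `c`. -/
theorem count_roots_rhs [DecidableEq k] (b c v : k) (hb : b ^ ℓ = c) :
    ((X ^ ℓ - C c) * (X - C (c ^ ℓ)) : k[X]).roots.count v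
      = ℓ * (if b = v then 1 else 0) + (if c ^ ℓ = v then 1 else 0) := by
  classical
  have h1 : (X ^ ℓ - C c : k[X]) = (X - C b) ^ ℓ := by
    rw [sub_pow_char, ← map_pow, hb]
  have hne : ((X - C b) ^ ℓ * (X - C (c ^ ℓ)) : k[X]) ≠ 0 :=
    mul_ne_zero (pow_ne_zero _ (X_sub_C_ne_zero b)) (X_sub_C_ne_zero _)
  rw [h1, roots_mul hne, Multiset.count_add, roots_pow, roots_X_sub_C, roots_X_sub_C,
    Multiset.count_nsmul, Multiset.count_singleton, Multiset.count_singleton]
  have e1 : (if v = b then 1 else 0 : ℕ) = if b = v then 1 else 0 := if_congr eq_comm rfl rfl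
  have e2 : (if v = c ^ ℓ then 1 else 0 : ℕ) = if c ^ ℓ = v then 1 else 0 :=
    if_congr eq_comm rfl rfl
  rw [e1, e2]

end count

end ESCore

/-- **Abstract Eichler–Shimura on reduced points of one chart.**  See the file header. -/
theorem sum_single_eq_of_kronecker {B k Z ι : Type*} [CommRing B] [Field k] (ℓ : ℕ)
    [Fact ℓ.Prime] [CharP k ℓ] (c : Z → (B →+* k)) (hc : Function.Injective c)
    (z zp zm : Z) (hzp : ∀ f, c zp f = (c z f) ^ ℓ) (hzm : ∀ f, (c zm f) ^ ℓ = c z f)
    (s : Finset ι) (z' : ι → Z) (e : ι → ℕ)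
    (hKR : ∀ f : B, ∏ i ∈ s, (X - C (c (z' i) f)) ^ (e i)
      = (X ^ ℓ - C (c z f)) * (X - C ((c z f) ^ ℓ))) :
    ∑ i ∈ s, (e i : ℤ) • Finsupp.single (z' i) (1 : ℤ)
      = Finsupp.single zp 1 + (ℓ : ℤ) • Finsupp.single zm 1 := by
  classical
  -- the count identity (*)
  have hstar : ∀ (f : B) (v : k), ∑ i ∈ s, (if c (z' i) f = v then e i else 0)
      = ℓ * (if c zm f = v then 1 else 0) + (if c zp f = v then 1 else 0) := by
    intro f v
    rw [← ESCore.count_roots_prod, hKR f, ESCore.count_roots_rhs ℓ (c zm f) (c z f) v (hzm f),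
      hzp f]
  -- Step A: every point with nonzero multiplicity is `zp` or `zm`
  have hA : ∀ i ∈ s, e i ≠ 0 → z' i = zp ∨ z' i = zm := by
    intro i hi hei
    have hf : ∀ f : B, c zm f = c (z' i) f ∨ c zp f = c (z' i) f := by
      intro f
      have h1 := hstar f (c (z' i) f)
      have h2 : e i ≤ ∑ j ∈ s, (if c (z' j) f = c (z' i) f then e j else 0) := by
        have := Finset.single_le_sum (f := fun j => if c (z' j) f = c (z' i) f then e j else 0)
          (fun j _ => Nat.zero_le _) hi
        simpa using this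
      by_contra hcon
      rw [not_or] at hcon
      rw [h1, if_neg hcon.1, if_neg hcon.2] at h2
      omega
    rcases ESCore.eq_or_eq_of_forall_eq_or_eq (c (z' i)) (c zm) (c zp) hf with h | h
    · exact Or.inr (hc h).symm
    · exact Or.inl (hc h).symm
  -- total multiplicity
  have htot : ∑ i ∈ s, e i = ℓ + 1 := by
    have h := hstar 0 0
    simpa using h
  -- the pointwise count
  have hN : ∀ z₀ : Z, ∑ i ∈ s, (if z' i = z₀ then e i else 0)
      = (if zp = z₀ then 1 else 0) + ℓ * (if zm = z₀ then 1 else 0) := by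
    intro z₀
    by_cases hpm : zp = zm
    · by_cases h0 : zp = z₀
      · have h0' : zm = z₀ := hpm ▸ h0
        rw [if_pos h0, if_pos h0', mul_one, add_comm, ← htot]
        refine Finset.sum_congr rfl fun i hi => ?_
        by_cases hei : e i = 0
        · simp [hei]
        · rcases hA i hi hei with h | h
          · rw [if_pos (h.trans h0)]
          · rw [if_pos (h.trans h0')]
      · have h0' : ¬ zm = z₀ := fun h => h0 (hpm.trans h)
        rw [if_neg h0, if_neg h0', mul_zero, add_zero]
        refine Finset.sum_eq_zero fun i hi => ?_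
        by_cases hei : e i = 0
        · simp [hei]
        · rcases hA i hi hei with h | h
          · rw [if_neg (fun hh => h0 (h.symm.trans hh))]
          · rw [if_neg (fun hh => h0' (h.symm.trans hh))]
    · have hsep : ∃ f : B, c zp f ≠ c zm f := by
        by_contra hne
        exact hpm (hc (RingHom.ext fun f => by_contra fun hf => hne ⟨f, hf⟩))
      obtain ⟨f, hf⟩ := hsep
      by_cases h0 : zp = z₀
      · have h0' : ¬ zm = z₀ := fun h => hpm (h0.trans h.symm)
        rw [if_pos h0, if_neg h0', mul_zero, add_zero]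
        have h1 := hstar f (c zp f)
        rw [if_neg (fun h => hf h.symm), if_pos rfl, mul_zero, zero_add] at h1
        rw [← h1]
        refine Finset.sum_congr rfl fun i hi => ?_
        by_cases hei : e i = 0
        · simp [hei]
        · rcases hA i hi hei with h | h
          · rw [if_pos (h.trans h0), if_pos (by rw [h])]
          · rw [if_neg (fun hh => h0' (h.symm.trans hh)), if_neg (by rw [h]; exact fun hh => hf hh.symm)]
      · by_cases h0' : zm = z₀
        · rw [if_neg h0, if_pos h0', mul_one, zero_add]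
          have h1 := hstar f (c zm f)
          rw [if_pos rfl, if_neg hf, mul_one, add_zero] at h1
          rw [← h1]
          refine Finset.sum_congr rfl fun i hi => ?_
          by_cases hei : e i = 0
          · simp [hei]
          · rcases hA i hi hei with h | h
            · rw [if_neg (fun hh => h0 (h.symm.trans hh)), if_neg (by rw [h]; exact hf)]
            · rw [if_pos (h.trans h0'), if_pos (by rw [h])]
        · rw [if_neg h0, if_neg h0', mul_zero, add_zero]
          refine Finset.sum_eq_zero fun i hi => ?_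
          by_cases hei : e i = 0
          · simp [hei]
          · rcases hA i hi hei with h | h
            · rw [if_neg (fun hh => h0 (h.symm.trans hh))]
            · rw [if_neg (fun hh => h0' (h.symm.trans hh))]
  -- conclude
  ext z₀
  have h := hN z₀
  simp only [Finsupp.coe_finsetSum, Finsupp.coe_smul, Finset.sum_apply, Pi.smul_apply,
    Finsupp.single_apply, Finsupp.coe_add, Pi.add_apply, smul_eq_mul, mul_ite, mul_one, mul_zero]
  have h' := congrArg (Nat.cast : ℕ → ℤ) h
  push_cast at h'
  simp only [mul_ite, mul_one, mul_zero] at h'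
  exact h'

/-- The same statement pushed forward along any map `j` of the chart into a bigger set of
points (e.g. the inclusion of a chart into all reduced points). -/
theorem sum_single_map_eq_of_kronecker {B k Z Y ι : Type*} [CommRing B] [Field k] (ℓ : ℕ)
    [Fact ℓ.Prime] [CharP k ℓ] (c : Z → (B →+* k)) (hc : Function.Injective c) (j : Z → Y)
    (z zp zm : Z) (hzp : ∀ f, c zp f = (c z f) ^ ℓ) (hzm : ∀ f, (c zm f) ^ ℓ = c z f)
    (s : Finset ι) (z' : ι → Z) (e : ι → ℕ)
    (hKR : ∀ f : B, ∏ i ∈ s, (X - C (c (z' i) f)) ^ (e i)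
      = (X ^ ℓ - C (c z f)) * (X - C ((c z f) ^ ℓ))) :
    ∑ i ∈ s, (e i : ℤ) • Finsupp.single (j (z' i)) (1 : ℤ)
      = Finsupp.single (j zp) 1 + (ℓ : ℤ) • Finsupp.single (j zm) 1 := by
  have h := congrArg (Finsupp.mapDomain j)
    (sum_single_eq_of_kronecker ℓ c hc z zp zm hzp hzm s z' e hKR)
  simpa [Finsupp.mapDomain_finsetSum, Finsupp.mapDomain_smul, Finsupp.mapDomain_add,
    Finsupp.mapDomain_single] using h

end Fermat.Agent.S37
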