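import Fermat.Agent.S37.Hecke
import Fermat.Agent.S37.ESCore

/-!
# P12 (S37) [ES]: Eichler–Shimura on reduced divisors, divisor and class level (generic form)

Generic over the set `Y` of reduced points, the reduction map `r : Place → Y` and the Frobenius
correspondences `fr`, `frInv` on `Y`:

* `mapDomain_heckeDiv_of_pointwise` : if for every place `v`
    `∑_{W | v along β} e_β(W) • [r (W|α)] = [fr (r v)] + ℓ • [frInv (r v)]`,
  then `r_*(T_ℓ D) = fr_*(r_* D) + ℓ • frInv_*(r_* D)` for every divisor `D`;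
* `hecke_relation_of_presentation` : the induced relation `ρ (T_ℓ x) = Φ (ρ x) + V (ρ x)` on
  `J₀(N)` for any `ρ, Φ, V` presented on divisors through a map `π : (Y →₀ ℤ) →+ P`;
* `pointwise_of_kronecker` : the pointwise hypothesis from the abstract Kronecker relation
  (`ESCore`) in one chart.
-/

set_option autoImplicit false

namespace Fermat.Agent.S37

open AlgebraicCurve ModularCurve

section ESDiv

variable (N ℓ : ℕ) [NeZero N] [NeZero ℓ]

/-- **Divisor-level Eichler–Shimura from the pointwise statement.** -/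
theorem mapDomain_heckeDiv_of_pointwise {Y : Type*}
    (r : Place (AlgebraicClosure ℚ) (modularFunctionFieldBar N) → Y) (fr frInv : Y → Y)
    (hpt : ∀ v : Place (AlgebraicClosure ℚ) (modularFunctionFieldBar N),
      ∑ W ∈ Place.fiberAlong (heckeBetaBar (AlgebraicClosure ℚ) N ℓ)
          (heckeBetaBar_isIntegral N ℓ) v,
        (W.ramificationIndexAlong (heckeBetaBar (AlgebraicClosure ℚ) N ℓ) : ℤ) •
          Finsupp.single (r (W.restrictAlong (heckeAlphaBar (AlgebraicClosure ℚ) N ℓ)
            (heckeAlphaBar_isIntegral N ℓ))) (1 : ℤ)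
        = Finsupp.single (fr (r v)) 1 + (ℓ : ℤ) • Finsupp.single (frInv (r v)) 1)
    (D : Divisor (AlgebraicClosure ℚ) (modularFunctionFieldBar N)) :
    Finsupp.mapDomain r (heckeDiv N ℓ D)
      = Finsupp.mapDomain fr (Finsupp.mapDomain r D)
        + (ℓ : ℤ) • Finsupp.mapDomain frInv (Finsupp.mapDomain r D) := by
  classical
  induction D using Finsupp.induction_linear with
  | zero => simp
  | add D E hD hE =>
    rw [map_add, Finsupp.mapDomain_add, hD, hE, Finsupp.mapDomain_add, Finsupp.mapDomain_add,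
      Finsupp.mapDomain_add, smul_add]
    abel
  | single v n =>
    rw [heckeDiv_single, Finsupp.mapDomain_finsetSum, Finsupp.mapDomain_single,
      Finsupp.mapDomain_single, Finsupp.mapDomain_single]
    have h := congrArg (fun E : Y →₀ ℤ => n • E) (hpt v)
    simp only [Finset.smul_sum, smul_add] at h
    have e1 : ∀ y : Y, n • Finsupp.single y (1 : ℤ) = Finsupp.single y n := by
      intro y
      rw [Finsupp.smul_single, smul_eq_mul, mul_one]
    have e2 : (ℓ : ℤ) • Finsupp.single (frInv (r v)) n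
        = n • (ℓ : ℤ) • Finsupp.single (frInv (r v)) (1 : ℤ) := by
      rw [smul_comm, e1]
    rw [e2, ← e1 (fr (r v)), ← h]
    refine Finset.sum_congr rfl fun W _ => ?_
    simp only [Finsupp.mapDomain_single, Finsupp.smul_single, smul_eq_mul, mul_one]

/-- **Class-level Eichler–Shimura**: for any target group `P` with `ρ`, `Φ`, `V` presented on
divisors through `π : (Y →₀ ℤ) →+ P`. -/
theorem hecke_relation_of_presentation {Y P : Type*} [AddCommGroup P]
    (r : Place (AlgebraicClosure ℚ) (modularFunctionFieldBar N) → Y) (fr frInv : Y → Y)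
    (hpt : ∀ v : Place (AlgebraicClosure ℚ) (modularFunctionFieldBar N),
      ∑ W ∈ Place.fiberAlong (heckeBetaBar (AlgebraicClosure ℚ) N ℓ)
          (heckeBetaBar_isIntegral N ℓ) v,
        (W.ramificationIndexAlong (heckeBetaBar (AlgebraicClosure ℚ) N ℓ) : ℤ) •
          Finsupp.single (r (W.restrictAlong (heckeAlphaBar (AlgebraicClosure ℚ) N ℓ)
            (heckeAlphaBar_isIntegral N ℓ))) (1 : ℤ)
        = Finsupp.single (fr (r v)) 1 + (ℓ : ℤ) • Finsupp.single (frInv (r v)) 1)
    (ρ : JZero N →+ P) (Φ V : P →+ P) (π : (Y →₀ ℤ) →+ P)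
    (hρ : ∀ D : Divisor.degZero (K := AlgebraicClosure ℚ) (F := modularFunctionFieldBar N),
      ρ (Pic0.mk D) = π (Finsupp.mapDomain r D.1))
    (hΦ : ∀ E : Y →₀ ℤ, Φ (π E) = π (Finsupp.mapDomain fr E))
    (hV : ∀ E : Y →₀ ℤ, V (π E) = π ((ℓ : ℤ) • Finsupp.mapDomain frInv E))
    (hℓ : ℓ.Prime) (x : JZero N) :
    ρ (heckeOperatorBar N ⟨ℓ, hℓ⟩ x) = Φ (ρ x) + V (ρ x) := by
  obtain ⟨D, rfl⟩ := Pic0.mk_surjective x
  have h1 := heckeOperatorBar_mk N ⟨ℓ, hℓ⟩ D
  rw [h1, hρ, hρ, hΦ, hV, ← map_add]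
  exact congrArg π (mapDomain_heckeDiv_of_pointwise N ℓ r fr frInv hpt D.1)

/-- **The pointwise statement from Kronecker's relation in one chart.**  `Z` is the set of
reduced points of a chart with coordinate ring `B`, embedded in `Y` by `j`; the reduction of
`v` is `j z`, the reductions of the `W|α` are `j (z' W)`, and (KR) holds for every `f : B`. -/
theorem pointwise_of_kronecker {Y Z B k : Type*} [CommRing B] [Field k] [Fact ℓ.Prime]
    [CharP k ℓ] (r : Place (AlgebraicClosure ℚ) (modularFunctionFieldBar N) → Y)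
    (fr frInv : Y → Y) (c : Z → (B →+* k)) (hc : Function.Injective c) (j : Z → Y)
    (v : Place (AlgebraicClosure ℚ) (modularFunctionFieldBar N))
    (z zp zm : Z) (hz : r v = j z) (hfr : fr (j z) = j zp) (hfrInv : frInv (j z) = j zm)
    (hzp : ∀ f, c zp f = (c z f) ^ ℓ) (hzm : ∀ f, (c zm f) ^ ℓ = c z f)
    (z' : Place (AlgebraicClosure ℚ) (modularFunctionFieldBar (N * ℓ)) → Z)
    (hz' : ∀ W ∈ Place.fiberAlong (heckeBetaBar (AlgebraicClosure ℚ) N ℓ)
        (heckeBetaBar_isIntegral N ℓ) v,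
      r (W.restrictAlong (heckeAlphaBar (AlgebraicClosure ℚ) N ℓ)
        (heckeAlphaBar_isIntegral N ℓ)) = j (z' W))
    (hKR : ∀ f : B,
      ∏ W ∈ Place.fiberAlong (heckeBetaBar (AlgebraicClosure ℚ) N ℓ)
          (heckeBetaBar_isIntegral N ℓ) v,
        (Polynomial.X - Polynomial.C (c (z' W) f)) ^
          (W.ramificationIndexAlong (heckeBetaBar (AlgebraicClosure ℚ) N ℓ))
      = (Polynomial.X ^ ℓ - Polynomial.C (c z f))
          * (Polynomial.X - Polynomial.C ((c z f) ^ ℓ))) :
    ∑ W ∈ Place.fiberAlong (heckeBetaBar (AlgebraicClosure ℚ) N ℓ)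
        (heckeBetaBar_isIntegral N ℓ) v,
      (W.ramificationIndexAlong (heckeBetaBar (AlgebraicClosure ℚ) N ℓ) : ℤ) •
        Finsupp.single (r (W.restrictAlong (heckeAlphaBar (AlgebraicClosure ℚ) N ℓ)
          (heckeAlphaBar_isIntegral N ℓ))) (1 : ℤ)
      = Finsupp.single (fr (r v)) 1 + (ℓ : ℤ) • Finsupp.single (frInv (r v)) 1 := by
  rw [hz, hfr, hfrInv, ← sum_single_map_eq_of_kronecker ℓ c hc j z zp zm hzp hzm _ z' _ hKR]
  refine Finset.sum_congr rfl fun W hW => ?_
  rw [hz' W hW]

end ESDiv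

end Fermat.Agent.S37
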