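import Mathlib

set_option autoImplicit false

/-!
# S37: criteria for `B ⧸ (a)` to be a finite free module over a valuation ring `A`

* `free_of_finite_of_torsionFree`: finite torsion-free modules over a valuation ring are free.
* `torsionFree_quotient_span`: a divisibility criterion for `B ⧸ (a)` to be `A`-torsion-free.
* `finite_quotient_span_of_integral`: an integrality criterion for `B ⧸ (a)` to be `A`-finite.
* `finite_free_quotient_span`: the combination.
-/

namespace Fermat.Agent.S37

open Polynomial

/-! ### (1) finite torsion-free modules over a valuation ring are free -/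

theorem free_of_finite_of_torsionFree {A M : Type*} [CommRing A] [IsDomain A] [ValuationRing A]
    [AddCommGroup M] [Module A M] [Module.Finite A M] [Module.IsTorsionFree A M] :
    Module.Free A M := by
  have : Module.Flat A M :=
    Module.Flat.flat_iff_torsion_eq_bot_of_isBezout.mpr
      (Submodule.isTorsionFree_iff_torsion_eq_bot.mp inferInstance)
  exact Module.free_of_flat_of_isLocalRing

/-- Variant of `free_of_finite_of_torsionFree` with an explicit torsion-freeness hypothesis. -/
theorem free_of_finite_of_smul_eq_zero {A M : Type*} [CommRing A] [IsDomain A] [ValuationRing A]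
    [AddCommGroup M] [Module A M] [Module.Finite A M]
    (h : ∀ (c : A) (m : M), c ≠ 0 → c • m = 0 → m = 0) : Module.Free A M := by
  have : Module.IsTorsionFree A M :=
    Module.IsTorsionFree.of_smul_eq_zero fun c m hcm => by
      by_cases hc : c = 0
      · exact Or.inl hc
      · exact Or.inr (h c m hc hcm)
  exact free_of_finite_of_torsionFree

/-! ### (2) torsion-freeness of `B ⧸ (a)` -/

theorem torsionFree_quotient_span {A B : Type*} [CommRing A] [CommRing B] [Algebra A B] (a : B)
    (hB : ∀ (c : A) (b : B), c ≠ 0 → algebraMap A B c * b = 0 → b = 0)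
    (hdiv : ∀ (c : A) (b : B), c ≠ 0 → algebraMap A B c ∣ a * b → algebraMap A B c ∣ b) :
    ∀ (c : A) (t : B ⧸ Ideal.span {a}), c ≠ 0 → c • t = 0 → t = 0 := by
  intro c t hc ht
  obtain ⟨y, rfl⟩ := Ideal.Quotient.mk_surjective t
  rw [Algebra.smul_def, ← Ideal.Quotient.mk_algebraMap, ← map_mul,
    Ideal.Quotient.eq_zero_iff_mem, Ideal.mem_span_singleton] at ht
  obtain ⟨b, hb⟩ := ht
  obtain ⟨b', rfl⟩ := hdiv c b hc ⟨y, hb.symm⟩
  have h0 : algebraMap A B c * (y - a * b') = 0 := by
    rw [mul_sub, hb]
    ring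
  have hy : y = a * b' := sub_eq_zero.mp (hB c _ hc h0)
  rw [Ideal.Quotient.eq_zero_iff_mem, Ideal.mem_span_singleton]
  exact ⟨b', hy⟩

/-- `Module.IsTorsionFree` form of `torsionFree_quotient_span`. -/
theorem isTorsionFree_quotient_span {A B : Type*} [CommRing A] [Nontrivial A] [CommRing B]
    [Algebra A B] (a : B)
    (hB : ∀ (c : A) (b : B), c ≠ 0 → algebraMap A B c * b = 0 → b = 0)
    (hdiv : ∀ (c : A) (b : B), c ≠ 0 → algebraMap A B c ∣ a * b → algebraMap A B c ∣ b) :
    Module.IsTorsionFree A (B ⧸ Ideal.span {a}) :=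
  Module.IsTorsionFree.of_smul_eq_zero fun c t hct => by
    by_cases hc : c = 0
    · exact Or.inl hc
    · exact Or.inr (torsionFree_quotient_span a hB hdiv c t hc hct)

/-! ### (3) finiteness of `B ⧸ (a)` -/

namespace FinFree

/-- A monic polynomial whose value at `h` is divisible by `a` makes the class of `h` integral. -/
theorem isIntegral_mk {A B : Type*} [CommRing A] [CommRing B] [Algebra A B] (a h : B)
    (hint : ∃ f : Polynomial A, f.Monic ∧ a ∣ Polynomial.aeval h f) :
    IsIntegral A (Ideal.Quotient.mk (Ideal.span {a}) h) := by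
  obtain ⟨f, hf, hdvd⟩ := hint
  refine ⟨f, hf, ?_⟩
  have h1 : Polynomial.aeval (Ideal.Quotient.mkₐ A (Ideal.span {a}) h) f =
      Ideal.Quotient.mkₐ A (Ideal.span {a}) (Polynomial.aeval h f) :=
    Polynomial.aeval_algHom_apply _ _ _
  have h2 : Ideal.Quotient.mk (Ideal.span {a}) (Polynomial.aeval h f) = 0 := by
    rw [Ideal.Quotient.eq_zero_iff_mem, Ideal.mem_span_singleton]
    exact hdvd
  exact h1.trans h2

end FinFree

/-- Finiteness of `B ⧸ (a)` when the integrality condition holds on a finite generating set. -/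
theorem finite_quotient_span_of_integral_of_adjoin {A B : Type*} [CommRing A] [CommRing B]
    [Algebra A B] (a : B) {s : Set B} (hs : s.Finite) (hadj : Algebra.adjoin A s = ⊤)
    (hint : ∀ h ∈ s, ∃ f : Polynomial A, f.Monic ∧ a ∣ Polynomial.aeval h f) :
    Module.Finite A (B ⧸ Ideal.span {a}) := by
  have hsurj : Function.Surjective (Ideal.Quotient.mkₐ A (Ideal.span {a})) :=
    Ideal.Quotient.mkₐ_surjective A _
  have htop : Algebra.adjoin A (Ideal.Quotient.mkₐ A (Ideal.span {a}) '' s) = ⊤ := by
    rw [← AlgHom.map_adjoin, hadj, Algebra.map_top, (AlgHom.range_eq_top _).mpr hsurj]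
  have hfg : (Algebra.adjoin A (Ideal.Quotient.mkₐ A (Ideal.span {a}) '' s)).toSubmodule.FG := by
    refine fg_adjoin_of_finite (hs.image _) ?_
    rintro _ ⟨h, hh, rfl⟩
    exact FinFree.isIntegral_mk a h (hint h hh)
  rw [htop, Algebra.top_toSubmodule] at hfg
  exact ⟨hfg⟩

theorem finite_quotient_span_of_integral {A B : Type*} [CommRing A] [CommRing B] [Algebra A B]
    [Algebra.FiniteType A B] (a : B)
    (hint : ∀ h : B, ∃ f : Polynomial A, f.Monic ∧ a ∣ Polynomial.aeval h f) :
    Module.Finite A (B ⧸ Ideal.span {a}) := by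
  obtain ⟨s, hs⟩ := (inferInstance : Algebra.FiniteType A B).out
  exact finite_quotient_span_of_integral_of_adjoin a s.finite_toSet hs fun h _ => hint h

/-! ### (4) the combination -/

/-- `B ⧸ (a)` is finite free over the valuation ring `A`; integrality on a generating set. -/
theorem finite_free_quotient_span_of_adjoin {A B : Type*} [CommRing A] [IsDomain A]
    [ValuationRing A] [CommRing B] [Algebra A B] (a : B)
    (hB : ∀ (c : A) (b : B), c ≠ 0 → algebraMap A B c * b = 0 → b = 0)
    (hdiv : ∀ (c : A) (b : B), c ≠ 0 → algebraMap A B c ∣ a * b → algebraMap A B c ∣ b)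
    {s : Set B} (hs : s.Finite) (hadj : Algebra.adjoin A s = ⊤)
    (hint : ∀ h ∈ s, ∃ f : Polynomial A, f.Monic ∧ a ∣ Polynomial.aeval h f) :
    Module.Finite A (B ⧸ Ideal.span {a}) ∧ Module.Free A (B ⧸ Ideal.span {a}) := by
  have : Module.Finite A (B ⧸ Ideal.span {a}) :=
    finite_quotient_span_of_integral_of_adjoin a hs hadj hint
  exact ⟨inferInstance, free_of_finite_of_smul_eq_zero (torsionFree_quotient_span a hB hdiv)⟩

/-- `B ⧸ (a)` is finite free over the valuation ring `A`. -/
theorem finite_free_quotient_span {A B : Type*} [CommRing A] [IsDomain A] [ValuationRing A]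
    [CommRing B] [Algebra A B] [Algebra.FiniteType A B] (a : B)
    (hB : ∀ (c : A) (b : B), c ≠ 0 → algebraMap A B c * b = 0 → b = 0)
    (hdiv : ∀ (c : A) (b : B), c ≠ 0 → algebraMap A B c ∣ a * b → algebraMap A B c ∣ b)
    (hint : ∀ h : B, ∃ f : Polynomial A, f.Monic ∧ a ∣ Polynomial.aeval h f) :
    Module.Finite A (B ⧸ Ideal.span {a}) ∧ Module.Free A (B ⧸ Ideal.span {a}) := by
  have : Module.Finite A (B ⧸ Ideal.span {a}) := finite_quotient_span_of_integral a hint
  exact ⟨inferInstance, free_of_finite_of_smul_eq_zero (torsionFree_quotient_span a hB hdiv)⟩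

/-! ### (5) specialisations to a `ValuationSubring` -/

theorem free_of_finite_of_torsionFree_valuationSubring {L : Type*} [Field L]
    (A : ValuationSubring L) {M : Type*} [AddCommGroup M] [Module A M] [Module.Finite A M]
    [Module.IsTorsionFree A M] : Module.Free A M :=
  free_of_finite_of_torsionFree

theorem free_of_finite_of_smul_eq_zero_valuationSubring {L : Type*} [Field L]
    (A : ValuationSubring L) {M : Type*} [AddCommGroup M] [Module A M] [Module.Finite A M]
    (h : ∀ (c : A) (m : M), c ≠ 0 → c • m = 0 → m = 0) : Module.Free A M :=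
  free_of_finite_of_smul_eq_zero h

theorem finite_free_quotient_span_valuationSubring {L : Type*} [Field L]
    (A : ValuationSubring L) {B : Type*} [CommRing B] [Algebra A B] [Algebra.FiniteType A B]
    (a : B)
    (hB : ∀ (c : A) (b : B), c ≠ 0 → algebraMap A B c * b = 0 → b = 0)
    (hdiv : ∀ (c : A) (b : B), c ≠ 0 → algebraMap A B c ∣ a * b → algebraMap A B c ∣ b)
    (hint : ∀ h : B, ∃ f : Polynomial A, f.Monic ∧ a ∣ Polynomial.aeval h f) :
    Module.Finite A (B ⧸ Ideal.span {a}) ∧ Module.Free A (B ⧸ Ideal.span {a}) :=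
  finite_free_quotient_span a hB hdiv hint

theorem finite_free_quotient_span_of_adjoin_valuationSubring {L : Type*} [Field L]
    (A : ValuationSubring L) {B : Type*} [CommRing B] [Algebra A B] (a : B)
    (hB : ∀ (c : A) (b : B), c ≠ 0 → algebraMap A B c * b = 0 → b = 0)
    (hdiv : ∀ (c : A) (b : B), c ≠ 0 → algebraMap A B c ∣ a * b → algebraMap A B c ∣ b)
    {s : Set B} (hs : s.Finite) (hadj : Algebra.adjoin A s = ⊤)
    (hint : ∀ h ∈ s, ∃ f : Polynomial A, f.Monic ∧ a ∣ Polynomial.aeval h f) :
    Module.Finite A (B ⧸ Ideal.span {a}) ∧ Module.Free A (B ⧸ Ideal.span {a}) :=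
  finite_free_quotient_span_of_adjoin a hB hdiv hs hadj hint

end Fermat.Agent.S37
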