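import Mathlib
import Fermat.Agent.S37.GaussA

/-!
P12 (S37) module [GA](c): surjectivity of the reduction `redA : gaussA A N → F_k`.
-/

set_option autoImplicit false

namespace Fermat.Agent.S37

open ModularCurve Fermat.Agent.S18

variable {A : ValuationSubring (AlgebraicClosure ℚ)} {N : ℕ}

/-- (c) Every element of `F_k = k(j(q^d) : d ∣ N)` is the reduction of an element of `gaussA`. -/
theorem exists_redA_eq [NeZero N] {y : LaurentSeries (IsLocalRing.ResidueField ↥A)}
    (hy : y ∈ modularFunctionFieldFullC (IsLocalRing.ResidueField ↥A) N) :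
    ∃ z : ↥(gaussA A N), redA A N z = y := by
  have hres : Function.Surjective (resA A) :=
    IsLocalRing.residue_surjective (R := ↥A)
  obtain ⟨v, hv⟩ := GaussL.exists_gaussRed_eq (K := AlgebraicClosure ℚ) (Λ := A.toSubring)
    (res := resA A) N hres hy
  obtain ⟨a, b, hb, hab⟩ := v.2
  have hmem : ((v : ↥(modularFunctionFieldFullC (AlgebraicClosure ℚ) N)) :
      LaurentSeries (AlgebraicClosure ℚ)) ∈ modularFunctionFieldBar N := by
    show _ ∈ laurentBaseChange (AlgebraicClosure ℚ) (modularFunctionFieldFull N)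
    rw [← Descent.fullC_eq_laurentBaseChange (L := AlgebraicClosure ℚ) (N := N)]
    exact (v : ↥(modularFunctionFieldFullC (AlgebraicClosure ℚ) N)).2
  have hz : (⟨_, hmem⟩ : ↥(modularFunctionFieldBar N)) ∈ gaussA A N :=
    mem_gaussA_iff.mpr ⟨a, b, hb, hab⟩
  refine ⟨⟨⟨_, hmem⟩, hz⟩, ?_⟩
  have h1 := redA_mul_eq (⟨⟨_, hmem⟩, hz⟩ : ↥(gaussA A N)) a b hab
  have h2 := GaussL.gaussRed_mul_eq (modularFunctionFieldFullC (AlgebraicClosure ℚ) N) v a b hab
  rw [← hv]
  exact mul_right_cancel₀ hb (h1.trans h2.symm)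

end Fermat.Agent.S37
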