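import Fermat.Agent.S37.HeckeSum

/-!
P12-HKI (4/4a): `K`-algebra maps `φ : F →ₐ[K] F'` between function fields in one variable over an
algebraically closed field of characteristic zero: `φ` is integral and finite, the fundamental
identity and the norm formula hold along `φ`, and all inertia degrees are one.
-/

set_option autoImplicit false
set_option linter.unusedSectionVars false
set_option linter.style.haveILetI false

namespace Fermat.Agent.S37

open AlgebraicCurve IntermediateField

variable {K F F' : Type*} [Field K] [Field F] [Field F'] [Algebra K F] [Algebra K F']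
variable [IsAlgClosed K] [CharZero K]

section Classes

variable [Algebra F F'] [IsScalarTower K F F']

/-- All inertia degrees are one. -/
theorem IsFF.inertiaDeg_eq_one [Algebra.IsIntegral F F'] (hF : IsFF K F) (hF' : IsFF K F')
    (w : Place K F') : w.inertiaDeg F = 1 := by
  have h := w.deg_restrict_mul_inertiaDeg (F := F)
  rw [hF.deg_eq_one, hF'.deg_eq_one, one_mul] at h
  exact h

/-- `∑_{w | v} e(w | v) f(w | v) = [F' : F]`. -/
theorem IsFF.sumRamificationInertia [Algebra.IsIntegral F F'] [HasPrincipalDivisors K F']
    (hF : IsFF K F) (hF' : IsFF K F') : SumRamificationInertia K F F' := by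
  haveI : Module.Finite F F' := IsFF.finite hF hF'
  refine ⟨fun v => ?_⟩
  rw [← HeckeLoc.sum_ramificationIndex_fiber hF v]
  refine Finset.sum_congr rfl fun w _ => ?_
  rw [hF.inertiaDeg_eq_one hF' w, Nat.cast_one, mul_one]

/-- The fundamental identity `∑_{w | v} e(w | v) deg w = [F' : F] deg v`. -/
theorem IsFF.fundamentalIdentity [Algebra.IsIntegral F F'] [HasPrincipalDivisors K F']
    (hF : IsFF K F) (hF' : IsFF K F') : FundamentalIdentity K F F' := by
  haveI := hF.sumRamificationInertia hF'
  infer_instance

/-- The norm formula: the push-forward of the divisor of `f` is the divisor of `N f`. -/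
theorem IsFF.pushforwardNormFormula [Module.Finite F F'] (hF : IsFF K F) (hF' : IsFF K F') :
    Divisor.PushforwardNormFormula K F F' := by
  classical
  haveI := hF'.hasPrincipalDivisors
  intro f hf D hD v
  rw [Divisor.pushforward_apply, ← HeckeLoc.sum_ord_fiber_eq_ord_norm hF v hf]
  have h1 : ∀ w ∈ D.support,
      (if w.restrict F = v then D w * (w.inertiaDeg F : ℤ) else 0)
        = if w.restrict F = v then w.ord f else 0 := by
    intro w _
    rw [hF.inertiaDeg_eq_one hF' w, Nat.cast_one, mul_one, hD w]
  rw [Finset.sum_congr rfl h1, ← Finset.sum_filter]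
  refine Finset.sum_subset ?_ ?_
  · intro w hw
    rw [Finset.mem_filter] at hw
    exact Place.mem_fiber.mpr hw.2
  · intro w hw hw'
    rw [Finset.mem_filter, not_and_or] at hw'
    rcases hw' with h | h
    · rw [Finsupp.mem_support_iff, not_not, hD w] at h
      exact h
    · exact absurd (Place.mem_fiber.mp hw) h

end Classes

section Along

variable (hF : IsFF K F) (hF' : IsFF K F') (φ : F →ₐ[K] F')

include hF hF'

/-- A `K`-algebra map between function fields is finite. -/
theorem finiteAlong_of_isFF : FiniteAlong K φ := by
  letI := algebraAlong φ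
  haveI := isScalarTower_along φ
  exact IsFF.finite hF hF'

/-- A `K`-algebra map between function fields is integral. -/
theorem isIntegral_along_of_isFF : φ.toRingHom.IsIntegral := by
  letI := algebraAlong φ
  haveI := isScalarTower_along φ
  haveI : Module.Finite F F' := IsFF.finite hF hF'
  exact (Algebra.IsIntegral.of_finite F F').isIntegral

/-- The fundamental identity along a `K`-algebra map between function fields. -/
theorem fundamentalIdentityAlong_of_isFF [HasPrincipalDivisors K F']
    (hφ : φ.toRingHom.IsIntegral) : FundamentalIdentityAlong K φ hφ := by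
  letI := algebraAlong φ
  haveI := isScalarTower_along φ
  haveI := isIntegral_along φ hφ
  exact IsFF.fundamentalIdentity hF hF'

/-- The norm formula along a `K`-algebra map between function fields. -/
theorem normFormulaAlong_of_isFF (hfin : FiniteAlong K φ) : NormFormulaAlong K φ hfin := by
  letI := algebraAlong φ
  haveI := isScalarTower_along φ
  haveI : Module.Finite F F' := hfin
  exact IsFF.pushforwardNormFormula hF hF'

/-- All inertia degrees along a `K`-algebra map between function fields are one. -/
theorem inertiaDegAlong_eq_one (hφ : φ.toRingHom.IsIntegral) (w : Place K F') :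
    w.inertiaDegAlong φ hφ = 1 := by
  letI := algebraAlong φ
  haveI := isScalarTower_along φ
  haveI := isIntegral_along φ hφ
  exact IsFF.inertiaDeg_eq_one hF hF' w

/-- `∑_{W | v} e_φ(W) = [F' : φ F]`. -/
theorem sum_ramificationIndexAlong_fiberAlong [HasPrincipalDivisors K F']
    (hφ : φ.toRingHom.IsIntegral) (v : Place K F) :
    ∑ W ∈ Place.fiberAlong φ hφ v, (W.ramificationIndexAlong φ : ℤ) = (finrankAlong K φ : ℤ) := by
  letI := algebraAlong φ
  haveI := isScalarTower_along φ
  haveI := isIntegral_along φ hφ
  haveI : Module.Finite F F' := IsFF.finite hF hF'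
  exact HeckeLoc.sum_ramificationIndex_fiber hF v

end Along

end Fermat.Agent.S37
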