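import Fermat.Agent.S37.HeckeFF
import Fermat.Agent.S24.PlacesSum
import Fermat.Prelude.Def_AlgebraicCurve_Correspondence

/-!
P12-HKI (2/4): the local Dedekind setup at a place.

For a finite extension `F' / F` of function fields over `K` and a place `v` of `F` with valuation
ring `O`, the integral closure `B` of `O` in `F'` is a (semilocal) Dedekind domain, finite over
`O`, whose height one primes are exactly the places of `F'` above `v`.
-/

set_option autoImplicit false
set_option linter.unusedSectionVars false
set_option linter.style.haveILetI false

namespace Fermat.Agent.S37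

open AlgebraicCurve IntermediateField IsDedekindDomain

namespace HeckeLoc

/-- A field which is an algebra over a field of characteristic zero has characteristic zero. -/
theorem charZero_of_algebra (K F : Type*) [Field K] [Field F] [Algebra K F] [CharZero K] :
    CharZero F :=
  charZero_of_injective_algebraMap (algebraMap K F).injective

variable {K F F' : Type*} [Field K] [Field F] [Field F'] [Algebra K F] [Algebra K F']
variable [Algebra F F'] [IsScalarTower K F F']

/-- The scalar tower `K → O_v → F'`. -/
theorem isScalarTower_valuationSubring (v : Place K F) :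
    IsScalarTower K v.toValuationSubring F' :=
  IsScalarTower.of_algebraMap_eq fun a => by
    show algebraMap K F' a = algebraMap F F' (algebraMap K F a)
    rw [← IsScalarTower.algebraMap_apply]

attribute [local instance] isScalarTower_valuationSubring

/-- The integral closure of the valuation ring of `v` in `F'`. -/
abbrev BB (F' : Type*) [Field F'] [Algebra K F'] [Algebra F F'] [IsScalarTower K F F']
    (v : Place K F) : Subalgebra v.toValuationSubring F' :=
  integralClosure v.toValuationSubring F'

variable (v : Place K F)

theorem isTorsionFree_F' : Module.IsTorsionFree v.toValuationSubring F' := by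
  rw [Module.isTorsionFree_iff_algebraMap_injective]
  intro a b hab
  exact Subtype.ext ((algebraMap F F').injective hab)

theorem algebraMap_BB_apply (a : v.toValuationSubring) :
    algebraMap (BB F' v) F' (algebraMap v.toValuationSubring (BB F' v) a)
      = algebraMap F F' (a : F) := rfl

/-- Elements of `B` lie in the valuation ring of every place above `v`. -/
theorem coe_mem_of_restrict_eq [Algebra.IsIntegral F F'] (W : Place K F')
    (hW : W.restrict F = v) (b : BB F' v) : (b : F') ∈ W.toValuationSubring := by
  have hle : ∀ a : v.toValuationSubring, algebraMap F F' (a : F) ∈ W.toValuationSubring := by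
    intro a
    have ha : (a : F) ∈ (W.restrict F).toValuationSubring := hW ▸ a.2
    exact Place.mem_restrict_iff W |>.mp ha
  let ι : v.toValuationSubring →+* W.toValuationSubring :=
    (algebraMap v.toValuationSubring F').codRestrict W.toValuationSubring.toSubring hle
  have hι : (algebraMap W.toValuationSubring F').comp ι = algebraMap v.toValuationSubring F' :=
    RingHom.ext fun a => rfl
  obtain ⟨p, hpm, hp⟩ := b.2
  have hint : IsIntegral W.toValuationSubring (b : F') := by
    refine ⟨p.map ι, hpm.map ι, ?_⟩
    rw [Polynomial.eval₂_map, hι]
    exact hp
  obtain ⟨x, hx⟩ := IsIntegrallyClosed.isIntegral_iff.mp hint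
  rw [← hx]
  exact x.2

section Finite

variable [CharZero K] [Module.Finite F F']

theorem isDedekindDomain_BB : IsDedekindDomain (BB F' v) := by
  have := charZero_of_algebra K F
  exact integralClosure.isDedekindDomain v.toValuationSubring F F'

omit [CharZero K] in
theorem isFractionRing_BB : IsFractionRing (BB F' v) F' :=
  integralClosure.isFractionRing_of_finite_extension F F'

theorem moduleFinite_BB : Module.Finite v.toValuationSubring (BB F' v) := by
  have := charZero_of_algebra K F
  exact IsIntegralClosure.finite v.toValuationSubring F F' _

theorem finrank_BB : Module.finrank v.toValuationSubring (BB F' v) = Module.finrank F F' := by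
  have := charZero_of_algebra K F
  have := isTorsionFree_F' (F' := F') v
  exact IsIntegralClosure.rank v.toValuationSubring F F' (BB F' v)

/-- The place of `F'` attached to a height one prime of `B`. -/
noncomputable def placeOf (P : HeightOneSpectrum (BB F' v)) : Place K F' :=
  haveI := isDedekindDomain_BB (F' := F') v
  haveI := isFractionRing_BB (F' := F') v
  Place.ofHeightOneSpectrum (K := K) (R := BB F' v) (F := F') P

theorem placeOf_injective : Function.Injective (placeOf (F' := F') v) := by
  haveI := isDedekindDomain_BB (F' := F') v
  haveI := isFractionRing_BB (F' := F') v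
  exact S24.PlacesHOS.ofHeightOneSpectrum_injective

theorem ord_placeOf_eq_multiplicity (P : HeightOneSpectrum (BB F' v)) {b : BB F' v}
    (hb : b ≠ 0) :
    (placeOf v P).ord (b : F') = (multiplicity P.asIdeal (Ideal.span {b}) : ℤ) := by
  haveI := isDedekindDomain_BB (F' := F') v
  haveI := isFractionRing_BB (F' := F') v
  exact S24.PlacesHOS.ord_algebraMap_eq_multiplicity (K := K) (F := F') P hb

theorem ord_placeOf_pos_iff (P : HeightOneSpectrum (BB F' v)) {b : BB F' v}
    (hb : b ≠ 0) : 0 < (placeOf v P).ord (b : F') ↔ b ∈ P.asIdeal := by
  haveI := isDedekindDomain_BB (F' := F') v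
  haveI := isFractionRing_BB (F' := F') v
  exact S24.PlacesHOS.ord_algebraMap_pos_iff (K := K) (F := F') P hb

theorem ord_placeOf_nonneg (P : HeightOneSpectrum (BB F' v)) (b : BB F' v) :
    0 ≤ (placeOf v P).ord (b : F') := by
  haveI := isDedekindDomain_BB (F' := F') v
  haveI := isFractionRing_BB (F' := F') v
  exact S24.PlacesHOS.ord_algebraMap_nonneg (K := K) (F := F') P b

/-- The places attached to the primes of `B` lie above `v`. -/
theorem restrict_placeOf (P : HeightOneSpectrum (BB F' v)) :
    (placeOf v P).restrict F = v := by
  symm
  refine S24.place_ext_of_ord fun f hf hf0 => ?_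
  have hfO : f ∈ v.toValuationSubring := (S24.PlacesBasic.mem_iff_ord_nonneg v hf).mpr hf0
  have h1 := ord_placeOf_nonneg v P (algebraMap v.toValuationSubring (BB F' v) ⟨f, hfO⟩)
  have h2 : algebraMap F F' f ∈ (placeOf v P).toValuationSubring := by
    have hne : algebraMap F F' f ≠ 0 := by simpa using hf
    exact (S24.PlacesBasic.mem_iff_ord_nonneg _ hne).mpr h1
  have h3 : f ∈ ((placeOf v P).restrict F).toValuationSubring :=
    (Place.mem_restrict_iff _).mpr h2
  exact (S24.PlacesBasic.mem_iff_ord_nonneg _ hf).mp h3

/-- Every place above `v` comes from a prime of `B`. -/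
theorem exists_placeOf_eq (W : Place K F') (hW : W.restrict F = v) :
    ∃ P : HeightOneSpectrum (BB F' v), placeOf v P = W := by
  haveI := isDedekindDomain_BB (F' := F') v
  haveI := isFractionRing_BB (F' := F') v
  exact S24.PlacesHOS.exists_ofHeightOneSpectrum_eq (R := BB F' v) W
    (fun b => coe_mem_of_restrict_eq v W hW b)

end Finite

end HeckeLoc

end Fermat.Agent.S37
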