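import Fermat.Agent.S37.HeckeLoc

/-!
P12-HKI (3/4): the fundamental identity `∑ e = n` and the norm formula
`ord_v (N f) = ∑_{w | v} ord_w f` for a finite extension of function fields over an algebraically
closed field of characteristic zero.
-/

set_option autoImplicit false
set_option linter.unusedSectionVars false
set_option linter.style.haveILetI false

namespace Fermat.Agent.S37

open AlgebraicCurve IntermediateField IsDedekindDomain

namespace HeckeLoc

variable {K F F' : Type*} [Field K] [Field F] [Field F'] [Algebra K F] [Algebra K F']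
variable [Algebra F F'] [IsScalarTower K F F']

attribute [local instance] isScalarTower_valuationSubring

variable [IsAlgClosed K] [CharZero K] [Module.Finite F F']

/-- `K → O_v / (π)` is surjective. -/
theorem surjective_algebraMap_quotient (hF : IsFF K F) (v : Place K F)
    {π : v.toValuationSubring} (hπ : Irreducible π) :
    Function.Surjective (algebraMap K (v.toValuationSubring ⧸ Ideal.span {π})) := by
  intro z
  obtain ⟨a, rfl⟩ := Ideal.Quotient.mk_surjective z
  obtain ⟨c, hc⟩ := hF.surjective_algebraMap_residueField v (IsLocalRing.residue _ a)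
  refine ⟨c, ?_⟩
  rw [IsScalarTower.algebraMap_apply K v.toValuationSubring
    (v.toValuationSubring ⧸ Ideal.span {π}), Ideal.Quotient.algebraMap_eq, Ideal.Quotient.eq,
    ← hπ.maximalIdeal_eq, ← IsLocalRing.residue_eq_zero_iff, map_sub, sub_eq_zero, ← hc]
  exact (IsScalarTower.algebraMap_apply K v.toValuationSubring v.ResidueField c).symm

/-- `K → O_v / m_v` is surjective. -/
theorem surjective_algebraMap_quotient_maximalIdeal (hF : IsFF K F) (v : Place K F) :
    Function.Surjective
      (algebraMap K (v.toValuationSubring ⧸ IsLocalRing.maximalIdeal v.toValuationSubring)) :=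
  hF.surjective_algebraMap_residueField v

variable [HasPrincipalDivisors K F']

/-- The places above `v` are exactly the places attached to the primes of `B`. -/
theorem coe_fiber_eq_range (v : Place K F) :
    (↑(v.fiber F') : Set (Place K F')) = Set.range (placeOf (F' := F') v) := by
  ext W
  rw [Finset.mem_coe, Place.mem_fiber]
  constructor
  · intro hW
    exact exists_placeOf_eq v W hW
  · rintro ⟨P, rfl⟩
    exact restrict_placeOf v P

theorem finite_heightOneSpectrum (v : Place K F) : Finite (HeightOneSpectrum (BB F' v)) := by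
  have h : (Set.range (placeOf (F' := F') v)).Finite := by
    rw [← coe_fiber_eq_range]
    exact Finset.finite_toSet _
  exact Set.finite_range_iff (placeOf_injective v) |>.mp h |> fun h => h

/-- For `W = placeOf P`, the ramification index of `W` over `v` is the multiplicity of `P` in
`π B`. -/
theorem ramificationIndex_placeOf (v : Place K F) {π : v.toValuationSubring}
    (hπ : Irreducible π) (P : HeightOneSpectrum (BB F' v)) :
    ((placeOf v P).ramificationIndex F : ℤ)
      = (multiplicity P.asIdeal
          (Ideal.span {algebraMap v.toValuationSubring (BB F' v) π}) : ℤ) := by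
  have hπ0 : (π : F) ≠ 0 := fun h => hπ.ne_zero (Subtype.ext h)
  have hab : algebraMap v.toValuationSubring (BB F' v) π ≠ 0 := by
    intro h
    apply hπ0
    have h2 := congrArg (algebraMap (BB F' v) F') h
    rw [algebraMap_BB_apply, map_zero] at h2
    exact (map_eq_zero _).mp h2
  rw [← ord_placeOf_eq_multiplicity v P hab]
  have h1 := (placeOf v P).ord_restrict (F := F) (π : F)
  rw [restrict_placeOf, v.ord_coe_irreducible hπ, mul_one] at h1
  rw [← h1]
  rfl

/-- The fundamental identity `∑_{w | v} e(w | v) = [F' : F]`. -/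
theorem sum_ramificationIndex_fiber (hF : IsFF K F) (v : Place K F) :
    ∑ w ∈ v.fiber F', (w.ramificationIndex F : ℤ) = (Module.finrank F F' : ℤ) := by
  classical
  haveI := isDedekindDomain_BB (F' := F') v
  haveI := isFractionRing_BB (F' := F') v
  haveI := moduleFinite_BB (F' := F') v
  haveI := isTorsionFree_F' (F' := F') v
  obtain ⟨π, hπ⟩ := IsDiscreteValuationRing.exists_irreducible v.toValuationSubring
  have hπ0 : (π : F) ≠ 0 := fun h => hπ.ne_zero (Subtype.ext h)
  have hab : algebraMap v.toValuationSubring (BB F' v) π ≠ 0 := by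
    intro h
    apply hπ0
    have h2 := congrArg (algebraMap (BB F' v) F') h
    rw [algebraMap_BB_apply, map_zero] at h2
    exact (map_eq_zero _).mp h2
  have hmax : (Ideal.span {π}).IsMaximal := by
    rw [← hπ.maximalIdeal_eq]
    infer_instance
  have hsurj := surjective_algebraMap_quotient hF v hπ
  have key := S24.PlacesSum.sum_multiplicity_eq_finrank (k := K) hab hmax hsurj
  rw [finrank_BB] at key
  -- every prime of `B` contains `π`
  have hall : {w : HeightOneSpectrum (BB F' v) |
      algebraMap v.toValuationSubring (BB F' v) π ∈ w.asIdeal} = Set.univ := by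
    refine Set.eq_univ_of_forall fun P => ?_
    show algebraMap v.toValuationSubring (BB F' v) π ∈ P.asIdeal
    rw [← ord_placeOf_pos_iff v P hab]
    have h1 := (placeOf v P).ord_restrict (F := F) (π : F)
    rw [restrict_placeOf, v.ord_coe_irreducible hπ, mul_one] at h1
    have h2 : 0 < (placeOf v P).ramificationIndex F := Place.ramificationIndex_pos _
    have h3 : (placeOf v P).ord
        ((algebraMap v.toValuationSubring (BB F' v) π : BB F' v) : F')
          = (placeOf v P).ord (algebraMap F F' (π : F)) := rfl
    rw [h3, h1]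
    exact_mod_cast h2
  rw [hall] at key
  haveI := finite_heightOneSpectrum (F' := F') v
  have h1 : ∑ w ∈ v.fiber F', (w.ramificationIndex F : ℤ)
      = ∑ᶠ w ∈ (↑(v.fiber F') : Set (Place K F')), (w.ramificationIndex F : ℤ) :=
    (finsum_mem_coe_finset _ _).symm
  rw [h1, coe_fiber_eq_range, finsum_mem_range (placeOf_injective v), ← key,
    finsum_mem_univ, Nat.cast_finsum]
  exact finsum_congr fun P => ramificationIndex_placeOf v hπ P

/-! ### The norm formula -/

/-- Every height one prime of `B` lies over the maximal ideal of `O_v`. -/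
theorem liesOver_maximalIdeal (v : Place K F) (P : HeightOneSpectrum (BB F' v)) :
    P.asIdeal.LiesOver (IsLocalRing.maximalIdeal v.toValuationSubring) := by
  haveI := isDedekindDomain_BB (F' := F') v
  haveI := isFractionRing_BB (F' := F') v
  obtain ⟨π, hπ⟩ := IsDiscreteValuationRing.exists_irreducible v.toValuationSubring
  have hπ0 : (π : F) ≠ 0 := fun h => hπ.ne_zero (Subtype.ext h)
  have hab : algebraMap v.toValuationSubring (BB F' v) π ≠ 0 := by
    intro h
    apply hπ0
    have h2 := congrArg (algebraMap (BB F' v) F') h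
    rw [algebraMap_BB_apply, map_zero] at h2
    exact (map_eq_zero _).mp h2
  have hmem : algebraMap v.toValuationSubring (BB F' v) π ∈ P.asIdeal := by
    rw [← ord_placeOf_pos_iff v P hab]
    have h1 := (placeOf v P).ord_restrict (F := F) (π : F)
    rw [restrict_placeOf, v.ord_coe_irreducible hπ, mul_one] at h1
    have h2 : 0 < (placeOf v P).ramificationIndex F := Place.ramificationIndex_pos _
    have h3 : (placeOf v P).ord
        ((algebraMap v.toValuationSubring (BB F' v) π : BB F' v) : F')
          = (placeOf v P).ord (algebraMap F F' (π : F)) := rfl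
    rw [h3, h1]
    exact_mod_cast h2
  constructor
  have hle : IsLocalRing.maximalIdeal v.toValuationSubring ≤
      P.asIdeal.under v.toValuationSubring := by
    rw [hπ.maximalIdeal_eq, Ideal.span_singleton_le_iff_mem]
    exact hmem
  have hne : P.asIdeal.under v.toValuationSubring ≠ ⊤ :=
    (Ideal.IsPrime.under v.toValuationSubring P.asIdeal).ne_top
  exact (IsLocalRing.maximalIdeal.isMaximal v.toValuationSubring).eq_of_le hne hle

/-- The relative norm of a nonzero ideal of `B` is the power of the maximal ideal of `O_v` given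
by the sum of the multiplicities of the primes of `B`. -/
theorem relNorm_eq_pow (hF : IsFF K F) (v : Place K F) :
    haveI := isDedekindDomain_BB (F' := F') v
    haveI := moduleFinite_BB (F' := F') v
    haveI := isTorsionFree_F' (F' := F') v
    ∀ I : Ideal (BB F' v), I ≠ ⊥ →
      Ideal.relNorm v.toValuationSubring I = IsLocalRing.maximalIdeal v.toValuationSubring ^
        (∑ᶠ P : HeightOneSpectrum (BB F' v), multiplicity P.asIdeal I) := by
  classical
  haveI := isDedekindDomain_BB (F' := F') v
  haveI := isFractionRing_BB (F' := F') v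
  haveI := moduleFinite_BB (F' := F') v
  haveI := isTorsionFree_F' (F' := F') v
  haveI := finite_heightOneSpectrum (F' := F') v
  haveI := charZero_of_algebra K F
  intro I
  induction I using UniqueFactorizationMonoid.induction_on_prime with
  | h₁ => intro h; exact absurd rfl h
  | h₂ J hJ =>
    intro _
    rw [Ideal.isUnit_iff] at hJ
    subst hJ
    have h0 : ∑ᶠ P : HeightOneSpectrum (BB F' v), multiplicity P.asIdeal (⊤ : Ideal (BB F' v))
        = 0 := by
      refine finsum_eq_zero_of_forall_eq_zero fun P => ?_
      rw [multiplicity_eq_zero, Ideal.dvd_iff_le, top_le_iff]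
      exact P.isPrime.ne_top
    rw [h0, pow_zero, Ideal.relNorm_top, Ideal.one_eq_top]
  | h₃ J Q hJ hQ ih =>
    intro _
    have hQ0 : Q ≠ ⊥ := hQ.ne_zero
    have hQp : Q.IsPrime := (Ideal.prime_iff_isPrime hQ0).mp hQ
    let Q₀ : HeightOneSpectrum (BB F' v) := ⟨Q, hQp, hQ0⟩
    haveI : Q.LiesOver (IsLocalRing.maximalIdeal v.toValuationSubring) :=
      liesOver_maximalIdeal v Q₀
    haveI : Q.IsMaximal := hQp.isMaximal hQ0
    have hdeg : Q.inertiaDeg v.toValuationSubring = 1 := by
      rw [Ideal.inertiaDeg_eq_of_isMaximal (IsLocalRing.maximalIdeal v.toValuationSubring) Q]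
      exact S24.PlacesSum.finrank_quotient_eq_one (k := K)
        (IsLocalRing.maximalIdeal v.toValuationSubring) Q
        (surjective_algebraMap_quotient_maximalIdeal hF v)
    have hrel : Ideal.relNorm v.toValuationSubring Q
        = IsLocalRing.maximalIdeal v.toValuationSubring := by
      rw [Ideal.relNorm_eq_pow_of_isMaximal Q (IsLocalRing.maximalIdeal v.toValuationSubring),
        hdeg, pow_one]
    have hmul : ∀ P : HeightOneSpectrum (BB F' v),
        multiplicity P.asIdeal (Q * J) = multiplicity P.asIdeal Q + multiplicity P.asIdeal J := by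
      intro P
      have hPprime : Prime P.asIdeal := (Ideal.prime_iff_isPrime P.ne_bot).mpr P.isPrime
      exact multiplicity_mul hPprime
        (FiniteMultiplicity.of_not_isUnit hPprime.not_isUnit (mul_ne_zero hQ0 hJ))
    have hQsum : ∑ᶠ P : HeightOneSpectrum (BB F' v), multiplicity P.asIdeal Q = 1 := by
      rw [finsum_eq_single _ Q₀]
      · exact multiplicity_self
      · intro P hP
        rw [multiplicity_eq_zero, Ideal.dvd_iff_le]
        intro hle
        apply hP
        have hPmax : P.asIdeal.IsMaximal := P.isPrime.isMaximal P.ne_bot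
        have : Q = P.asIdeal := (inferInstance : Q.IsMaximal).eq_of_le hPmax.ne_top hle
        exact HeightOneSpectrum.ext this.symm
    rw [map_mul, hrel, ih hJ, finsum_congr hmul, finsum_add_distrib (Set.toFinite _)
      (Set.toFinite _), hQsum, pow_add, pow_one]

/-- If `(a) = m_v ^ k` then `ord_v a = k`. -/
theorem ord_eq_of_span_eq_pow (v : Place K F) {a : v.toValuationSubring} {k : ℕ}
    (h : Ideal.span {a} = IsLocalRing.maximalIdeal v.toValuationSubring ^ k) :
    v.ord (a : F) = k := by
  obtain ⟨π, hπ⟩ := IsDiscreteValuationRing.exists_irreducible v.toValuationSubring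
  rw [hπ.maximalIdeal_eq, Ideal.span_singleton_pow, Ideal.span_singleton_eq_span_singleton] at h
  obtain ⟨u, hu⟩ := h.symm
  have h1 : (a : F) = ((u : v.toValuationSubring) : F) * ((π : F) ^ (k : ℤ)) := by
    rw [← hu, zpow_natCast]
    push_cast
    ring
  rw [h1, v.ord_unit_smul_zpow u hπ]

variable (hF : IsFF K F)

/-- The norm formula for elements of `B`. -/
theorem sum_ord_fiber_eq_ord_norm_of_mem (hF : IsFF K F) (v : Place K F) {b : BB F' v}
    (hb : b ≠ 0) :
    ∑ w ∈ v.fiber F', w.ord (b : F') = v.ord (Algebra.norm F (b : F')) := by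
  classical
  haveI := isDedekindDomain_BB (F' := F') v
  haveI := isFractionRing_BB (F' := F') v
  haveI := moduleFinite_BB (F' := F') v
  haveI := isTorsionFree_F' (F' := F') v
  haveI := finite_heightOneSpectrum (F' := F') v
  haveI := charZero_of_algebra K F
  have hspan : Ideal.span {b} ≠ ⊥ := by
    rw [Ne, Ideal.span_singleton_eq_bot]
    exact hb
  have hR := relNorm_eq_pow hF v (Ideal.span {b}) hspan
  rw [Ideal.relNorm_singleton] at hR
  have hN : algebraMap v.toValuationSubring F (Algebra.intNorm v.toValuationSubring (BB F' v) b)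
      = Algebra.norm F (algebraMap (BB F' v) F' b) :=
    Algebra.algebraMap_intNorm (A := v.toValuationSubring) (K := F) (L := F') (B := BB F' v) b
  have hN' : Algebra.norm F (b : F')
      = ((Algebra.intNorm v.toValuationSubring (BB F' v) b : v.toValuationSubring) : F) :=
    hN.symm
  rw [hN', ord_eq_of_span_eq_pow v hR]
  have h1 : ∑ w ∈ v.fiber F', w.ord (b : F')
      = ∑ᶠ w ∈ (↑(v.fiber F') : Set (Place K F')), w.ord (b : F') :=
    (finsum_mem_coe_finset _ _).symm
  rw [h1, coe_fiber_eq_range, finsum_mem_range (placeOf_injective v), Nat.cast_finsum]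
  exact finsum_congr fun P => ord_placeOf_eq_multiplicity v P hb

/-- The norm formula `∑_{w | v} ord_w f = ord_v (N f)`. -/
theorem sum_ord_fiber_eq_ord_norm (hF : IsFF K F) (v : Place K F) {f : F'} (hf : f ≠ 0) :
    ∑ w ∈ v.fiber F', w.ord f = v.ord (Algebra.norm F f) := by
  haveI := isDedekindDomain_BB (F' := F') v
  haveI := isFractionRing_BB (F' := F') v
  obtain ⟨a, b, hb, rfl⟩ := IsFractionRing.div_surjective (A := BB F' v) f
  have hb0 : b ≠ 0 := nonZeroDivisors.ne_zero hb
  have ha0 : a ≠ 0 := by
    rintro rfl
    simp at hf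
  have haF : (a : F') ≠ 0 := fun h => ha0 (Subtype.ext h)
  have hbF : (b : F') ≠ 0 := fun h => hb0 (Subtype.ext h)
  have hA := sum_ord_fiber_eq_ord_norm_of_mem hF v ha0
  have hB := sum_ord_fiber_eq_ord_norm_of_mem hF v hb0
  have hcoe : algebraMap (BB F' v) F' a / algebraMap (BB F' v) F' b = (a : F') * (b : F')⁻¹ :=
    div_eq_mul_inv _ _
  have hinv : Algebra.norm F ((b : F')⁻¹) = (Algebra.norm F (b : F'))⁻¹ := by
    refine eq_inv_of_mul_eq_one_left ?_
    rw [← map_mul, inv_mul_cancel₀ hbF, map_one]
  rw [hcoe, map_mul, hinv,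
    v.ord_mul (Algebra.norm_ne_zero_iff.mpr haF) (inv_ne_zero (Algebra.norm_ne_zero_iff.mpr hbF)),
    v.ord_inv, ← hA, ← hB, ← Finset.sum_neg_distrib, ← Finset.sum_add_distrib]
  refine Finset.sum_congr rfl fun w _ => ?_
  rw [w.ord_mul haF (inv_ne_zero hbF), w.ord_inv]

end HeckeLoc

end Fermat.Agent.S37
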