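import Fermat.Agent.S18.LocalNormalDvr

/-!
P12 / S37 Tier 2, [T2-FULL]: the "full" (integral instead of idempotent) form of P11's local
engine `local_normal`.

Same hypotheses as `S18.local_normal`: `R` a 2-dimensional regular local ring with parameters
`π, y`; `S` a normal domain, finite free over `R`, with discriminant a unit times a power of `y`.
Then `S/πS` is integrally closed in `(S/πS)[1/y]`: if `z / y^k` is a root modulo `π` of a monic
polynomial `q` over `S` (homogeneous form: `(q.scaleRoots (y^k))(z) ∈ πS`), then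
`z ≡ y^k z' (mod π)` for some `z' ∈ S`.
-/

set_option autoImplicit false

namespace Fermat.Agent.S37

open Module Polynomial

/-- **Local engine, full form.**  See the file header. -/
theorem local_normal_full {R S : Type*} [CommRing R] [IsDomain R] [IsNoetherianRing R]
    [IsLocalRing R]
    [CommRing S] [IsDomain S] [IsIntegrallyClosed S] [Algebra R S] [Module.Finite R S]
    [Module.Free R S] [FaithfulSMul R S]
    (π y : R) (hm : IsLocalRing.maximalIdeal R = Ideal.span {π, y})
    (hπ : (Ideal.span {π} : Ideal R).IsPrime) (hy : (Ideal.span {y} : Ideal R).IsPrime)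
    (hπ0 : π ≠ 0) (hy0 : y ≠ 0) (hπy : ¬ π ∣ y)
    [CharZero (R ⧸ Ideal.span {y})]
    {ι : Type*} [Fintype ι] [DecidableEq ι] (b : Basis ι R S)
    (hd : ∃ (B : ℕ) (v : R), IsUnit v ∧ Algebra.discr R b = v * y ^ B)
    (z : S) (k : ℕ) (q : S[X]) (hq : q.Monic)
    (hz : algebraMap R S π ∣ (q.scaleRoots (algebraMap R S y ^ k)).eval z) :
    ∃ z' : S, algebraMap R S π ∣ z - algebraMap R S y ^ k * z' := by
  classical
  have hπp : Prime π := (Ideal.span_singleton_prime hπ0).mp hπ
  set I : Ideal S := (Ideal.span {π}).map (algebraMap R S) with hI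
  have hIspan : I = Ideal.span {algebraMap R S π} := by
    rw [hI, Ideal.map_span, Set.image_singleton]
  -- `y ^ k` is a nonzerodivisor modulo `π`
  have hnzd : ∀ w : S, algebraMap R S y ^ k * w ∈ I → w ∈ I := by
    intro w hw
    rw [hI, S18.mem_map_iff_repr_mem _ b] at hw ⊢
    intro i
    have h1 := hw i
    rw [← map_pow, ← Algebra.smul_def, map_smul, Finsupp.smul_apply, smul_eq_mul,
      Ideal.mem_span_singleton] at h1
    rw [Ideal.mem_span_singleton]
    exact (hπp.dvd_or_dvd h1).resolve_left (fun h => hπy (hπp.dvd_of_dvd_pow h))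
  suffices h : Ideal.Quotient.mk I z ∈
      Ideal.span {Ideal.Quotient.mk I (algebraMap R S y ^ k)} by
    obtain ⟨w, hw⟩ := Ideal.mem_span_singleton.mp h
    obtain ⟨z', rfl⟩ := Ideal.Quotient.mk_surjective w
    refine ⟨z', ?_⟩
    have h0 : Ideal.Quotient.mk I (z - algebraMap R S y ^ k * z') = 0 := by
      rw [map_sub, map_mul, hw, sub_self]
    rw [Ideal.Quotient.eq_zero_iff_mem, hIspan, Ideal.mem_span_singleton] at h0
    exact h0
  apply Ideal.mem_of_localization_maximal
  intro M hM
  obtain ⟨hdom, hdvr⟩ := S18.local_normal_dvr π y hm hπ hy hπ0 hy0 hπy b hd M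
  rw [Ideal.map_span, Set.image_singleton, Ideal.mem_span_singleton]
  set ψ : S →+* Localization.AtPrime M :=
    (algebraMap (S ⧸ I) (Localization.AtPrime M)).comp (Ideal.Quotient.mk I) with hψ
  change ψ (algebraMap R S y ^ k) ∣ ψ z
  -- `ψ (y ^ k) ≠ 0`
  have ht0 : ψ (algebraMap R S y ^ k) ≠ 0 := by
    intro h0
    rw [hψ, RingHom.comp_apply, IsLocalization.map_eq_zero_iff M.primeCompl] at h0
    obtain ⟨⟨m, hm'⟩, hm0⟩ := h0
    obtain ⟨m, rfl⟩ := Ideal.Quotient.mk_surjective m
    apply hm'
    simp only at hm0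
    rw [← map_mul, Ideal.Quotient.eq_zero_iff_mem, mul_comm] at hm0
    rw [Ideal.Quotient.eq_zero_iff_mem.mpr (hnzd m hm0)]
    exact M.zero_mem
  -- the quotient is integral over the (integrally closed) local ring
  have hz0 : ψ ((q.scaleRoots (algebraMap R S y ^ k)).eval z) = 0 := by
    obtain ⟨c, hc⟩ := hz
    rw [hψ, RingHom.comp_apply, hc, map_mul]
    have : Ideal.Quotient.mk I (algebraMap R S π) = 0 := by
      rw [Ideal.Quotient.eq_zero_iff_mem, hIspan]
      exact Ideal.mem_span_singleton_self _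
    rw [this, zero_mul, map_zero]
  set Kf := FractionRing (Localization.AtPrime M)
  set χ : S →+* Kf := (algebraMap (Localization.AtPrime M) Kf).comp ψ with hχ
  have hχ0 : χ (algebraMap R S y ^ k) ≠ 0 := by
    rw [hχ, RingHom.comp_apply]
    exact fun h => ht0 (IsFractionRing.injective (Localization.AtPrime M) Kf (by rw [h, map_zero]))
  have hint : IsIntegral (Localization.AtPrime M)
      (χ z / χ (algebraMap R S y ^ k)) := by
    refine ⟨q.map ψ, hq.map _, ?_⟩
    rw [eval₂_map]
    have h1 : eval₂ χ (χ (algebraMap R S y ^ k) * (χ z / χ (algebraMap R S y ^ k)))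
        (q.scaleRoots (algebraMap R S y ^ k)) = 0 := by
      rw [mul_div_cancel₀ _ hχ0, eval₂_at_apply, hχ, RingHom.comp_apply, hz0, map_zero]
    rw [scaleRoots_eval₂_mul] at h1
    exact (mul_eq_zero.mp h1).resolve_left (pow_ne_zero _ hχ0)
  obtain ⟨w, hw⟩ := IsIntegrallyClosed.isIntegral_iff.mp hint
  refine ⟨w, ?_⟩
  apply IsFractionRing.injective (Localization.AtPrime M) Kf
  rw [map_mul, hw]
  change χ z = χ (algebraMap R S y ^ k) * _
  rw [mul_div_cancel₀ _ hχ0]

end Fermat.Agent.S37
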