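import Mathlib
import Fermat.Agent.S37.CharPolyPi

set_option autoImplicit false

/-!
# S37 (DVR): `dim_k R ⧸ (a) = n` for `a ~ ϖ ^ n` in a discrete valuation ring with residue field `k`
-/

namespace Fermat.Agent.S37

open Polynomial TensorProduct

namespace LenDvr

/-- In a local ring, a `k`-algebra map to the field `k` vanishes only on the maximal ideal. -/
theorem mem_maximalIdeal_of_algHom_eq_zero {k R : Type*} [Field k] [CommRing R] [IsLocalRing R]
    [Algebra k R] (ψ : R →ₐ[k] k) {x : R} (hx : ψ x = 0) : x ∈ IsLocalRing.maximalIdeal R := by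
  rw [IsLocalRing.mem_maximalIdeal, mem_nonunits_iff]
  intro hu
  exact (hu.map ψ).ne_zero hx

/-- Surjectivity onto the quotient by the ideal generated by a uniformiser. -/
theorem algebraMap_quotient_span_surjective {k R : Type*} [Field k] [CommRing R] [IsDomain R]
    [IsDiscreteValuationRing R] [Algebra k R]
    (hres : Function.Surjective (algebraMap k (IsLocalRing.ResidueField R)))
    {ϖ : R} (hϖ : Irreducible ϖ) :
    Function.Surjective (algebraMap k (R ⧸ Ideal.span {ϖ})) := by
  intro z
  obtain ⟨x, rfl⟩ := Ideal.Quotient.mk_surjective z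
  obtain ⟨c, hc⟩ := hres (IsLocalRing.residue R x)
  refine ⟨c, ?_⟩
  have h1 : algebraMap k R c - x ∈ IsLocalRing.maximalIdeal R := Ideal.Quotient.eq.mp hc
  rw [hϖ.maximalIdeal_eq] at h1
  rw [← Ideal.Quotient.mk_algebraMap, Ideal.Quotient.eq]
  exact h1

end LenDvr

/-- If there is a `k`-algebra map `R → k` whose kernel lies in the maximal ideal, then `k` maps
onto the residue field. -/
theorem residue_surjective_of_algHom {k R : Type*} [CommRing k] [CommRing R] [IsLocalRing R]
    [Algebra k R] (ψ : R →ₐ[k] k) (hψ : ∀ x, ψ x = 0 → x ∈ IsLocalRing.maximalIdeal R) :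
    Function.Surjective (algebraMap k (IsLocalRing.ResidueField R)) := by
  intro z
  obtain ⟨x, rfl⟩ := IsLocalRing.residue_surjective z
  refine ⟨ψ x, ?_⟩
  have h0 : ψ (algebraMap k R (ψ x) - x) = 0 := by
    rw [map_sub, ψ.commutes]
    exact sub_self _
  exact Ideal.Quotient.eq.mpr (hψ _ h0)

/-- Over a field the kernel condition is automatic. -/
theorem residue_surjective_of_algHom' {k R : Type*} [Field k] [CommRing R] [IsLocalRing R]
    [Algebra k R] (ψ : R →ₐ[k] k) :
    Function.Surjective (algebraMap k (IsLocalRing.ResidueField R)) :=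
  residue_surjective_of_algHom ψ fun _ hx => LenDvr.mem_maximalIdeal_of_algHom_eq_zero ψ hx

/-- `dim_k R ⧸ (a) = n` when `a` is associated to `ϖ ^ n` in a discrete valuation ring `R` with
residue field `k`. -/
theorem finrank_quotient_span_of_associated_pow {k R : Type*} [Field k] [CommRing R] [IsDomain R]
    [IsDiscreteValuationRing R] [Algebra k R]
    (hres : Function.Surjective (algebraMap k (IsLocalRing.ResidueField R)))
    {ϖ : R} (hϖ : Irreducible ϖ) {a : R} {n : ℕ} (ha : Associated a (ϖ ^ n)) :
    Module.Finite k (R ⧸ Ideal.span {a}) ∧ Module.finrank k (R ⧸ Ideal.span {a}) = n := by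
  have hspan : Ideal.span {a} = Ideal.span {ϖ ^ n} := Ideal.span_singleton_eq_span_singleton.mpr ha
  have hne : Ideal.span {ϖ} ≠ ⊤ := by
    rw [Ne, Ideal.span_singleton_eq_top]
    exact hϖ.not_isUnit
  rw [hspan]
  exact finrank_quotient_span_pow hϖ.ne_zero hne
    (LenDvr.algebraMap_quotient_span_surjective hres hϖ) n

/-- Variant with the residue field condition given by a `k`-algebra map `R → k`. -/
theorem finrank_quotient_span_of_associated_pow_of_algHom {k R : Type*} [Field k] [CommRing R]
    [IsDomain R] [IsDiscreteValuationRing R] [Algebra k R] (ψ : R →ₐ[k] k)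
    {ϖ : R} (hϖ : Irreducible ϖ) {a : R} {n : ℕ} (ha : Associated a (ϖ ^ n)) :
    Module.Finite k (R ⧸ Ideal.span {a}) ∧ Module.finrank k (R ⧸ Ideal.span {a}) = n :=
  finrank_quotient_span_of_associated_pow (residue_surjective_of_algHom' ψ) hϖ ha

end Fermat.Agent.S37
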