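import Mathlib
import Fermat.Agent.S37.CharpolyQuot
import Fermat.Agent.S37.LenDvr

set_option autoImplicit false

/-!
# S37: the lattice (length) lemma

For `O ⊆ R` with a conductor `c` (`c R ⊆ O`) and `a ∈ O` nonzero, the `k`-vector spaces
`O / a O` and `R / a R` have the same dimension, and multiplication by any `h ∈ O` has the same
characteristic polynomial on both.
-/

namespace Fermat.Agent.S37

open Polynomial

namespace LenLemma

section Exact

variable {k A B C : Type*} [Field k] [AddCommGroup A] [AddCommGroup B] [AddCommGroup C]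
  [Module k A] [Module k B] [Module k C]

/-- The middle term of a left exact sequence with finite-dimensional ends is finite-dimensional. -/
theorem finite_of_exact [Module.Finite k A] [Module.Finite k C] (i : A →ₗ[k] B) (p : B →ₗ[k] C)
    (hex : LinearMap.ker p ≤ LinearMap.range i) : Module.Finite k B := by
  have h1 : Module.Finite k (LinearMap.ker p) := by
    have : Module.Finite k (LinearMap.range i) := Module.Finite.range i
    exact Module.Finite.of_injective (Submodule.inclusion hex) (Submodule.inclusion_injective hex)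
  have h2 : Module.Finite k (B ⧸ LinearMap.ker p) :=
    Module.Finite.equiv (LinearMap.quotKerEquivRange p).symm
  exact Module.Finite.of_submodule_quotient (LinearMap.ker p)

/-- The characteristic polynomial is multiplicative in short exact sequences. -/
theorem charpoly_of_exact [Module.Finite k A] [Module.Finite k B] [Module.Finite k C]
    (i : A →ₗ[k] B) (p : B →ₗ[k] C) (hi : Function.Injective i) (hp : Function.Surjective p)
    (hex : LinearMap.range i = LinearMap.ker p)
    (eA : A →ₗ[k] A) (eB : B →ₗ[k] B) (eC : C →ₗ[k] C)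
    (hiA : ∀ x, i (eA x) = eB (i x)) (hpB : ∀ x, p (eB x) = eC (p x)) :
    eB.charpoly = eA.charpoly * eC.charpoly := by
  have he : LinearMap.range i ≤ (LinearMap.range i).comap eB := by
    rintro _ ⟨x, rfl⟩
    exact ⟨eA x, hiA x⟩
  rw [charpoly_eq_restrict_mul_mapQ_field (LinearMap.range i) eB he]
  congr 1
  · rw [← LinearEquiv.charpoly_conj (LinearEquiv.ofInjective i hi) eA]
    congr 1
    refine LinearMap.ext fun x => ?_
    obtain ⟨y, rfl⟩ := (LinearEquiv.ofInjective i hi).surjective x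
    rw [LinearEquiv.conj_apply_apply, LinearEquiv.symm_apply_apply]
    exact Subtype.ext (hiA y).symm
  · let e' : (B ⧸ LinearMap.range i) ≃ₗ[k] C :=
      (Submodule.quotEquivOfEq _ _ hex).trans (p.quotKerEquivOfSurjective hp)
    have he' : ∀ b : B, e' (Submodule.Quotient.mk b) = p b := fun b => rfl
    rw [← LinearEquiv.charpoly_conj e' ((LinearMap.range i).mapQ (LinearMap.range i) eB he)]
    congr 1
    refine LinearMap.ext fun c => ?_
    obtain ⟨b, rfl⟩ := hp c
    rw [LinearEquiv.conj_apply_apply, ← he' b, LinearEquiv.symm_apply_apply, Submodule.mapQ_apply,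
      he', he', hpB]

end Exact

section IdealLift

variable {k S M : Type*} [Field k] [CommRing S] [Algebra k S] [AddCommGroup M] [Module k M]

/-- A `k`-linear map out of a quotient of a `k`-algebra by an ideal. -/
noncomputable def idealLift (I : Ideal S) (f : S →ₗ[k] M) (hf : ∀ x ∈ I, f x = 0) :
    S ⧸ I →ₗ[k] M :=
  ((I.restrictScalars k).liftQ f fun x hx => hf x hx) ∘ₗ
    (Submodule.Quotient.restrictScalarsEquiv k I).symm.toLinearMap

theorem idealLift_mk (I : Ideal S) (f : S →ₗ[k] M) (hf : ∀ x ∈ I, f x = 0) (x : S) :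
    idealLift I f hf (Ideal.Quotient.mk I x) = f x := by
  rw [← Ideal.Quotient.mk_eq_mk]
  simp only [idealLift, LinearMap.coe_comp, LinearEquiv.coe_coe, Function.comp_apply,
    Submodule.Quotient.restrictScalarsEquiv_symm_mk]
  rfl

end IdealLift

section Lat

set_option linter.unusedSectionVars false

variable (k : Type*) {O : Type*} (R : Type*) [Field k] [CommRing O] [CommRing R] [IsDomain R]
    [Algebra k O] [Algebra k R] [Algebra O R] [IsScalarTower k O R]

/-- The structure map `O → R` as a `k`-linear map. -/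
noncomputable def iota : O →ₗ[k] R := (IsScalarTower.toAlgHom k O R).toLinearMap

theorem iota_apply (x : O) : iota k R x = algebraMap O R x := rfl

variable (O) in
/-- The image of `O` in `R`. -/
noncomputable def N1 : Submodule k R := LinearMap.range (iota (O := O) k R)

/-- The image of `a O` in `R`. -/
noncomputable def N2 (a : O) : Submodule k R :=
  LinearMap.range (LinearMap.mulLeft k (algebraMap O R a) ∘ₗ iota (O := O) k R)

variable {R} in
theorem mem_N1 {x : R} : x ∈ N1 k O R ↔ ∃ y : O, algebraMap O R y = x := Iff.rfl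

variable {R} in
theorem mem_N2 {a : O} {x : R} :
    x ∈ N2 k R a ↔ ∃ y : O, algebraMap O R a * algebraMap O R y = x := Iff.rfl

/-- Multiplication by `h ∈ O` on `R`. -/
noncomputable def mulO (h : O) : R →ₗ[k] R := LinearMap.mulLeft k (algebraMap O R h)

theorem mulO_apply (h : O) (x : R) : mulO k R h x = algebraMap O R h * x := rfl

theorem N1_le_comap (h : O) : N1 k O R ≤ (N1 k O R).comap (mulO k R h) := by
  rintro _ ⟨y, rfl⟩
  exact ⟨h * y, by rw [iota_apply, map_mul]; rfl⟩

theorem N2_le_comap (a h : O) : N2 k R a ≤ (N2 k R a).comap (mulO k R h) := by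
  rintro _ ⟨y, rfl⟩
  refine ⟨h * y, ?_⟩
  simp only [LinearMap.coe_comp, Function.comp_apply, iota_apply, LinearMap.mulLeft_apply,
    mulO_apply, map_mul]
  ring

/-- Multiplication by `h` on `R / O`. -/
noncomputable def e1 (h : O) : (R ⧸ N1 k O R) →ₗ[k] (R ⧸ N1 k O R) :=
  (N1 k O R).mapQ (N1 k O R) (mulO k R h) (N1_le_comap k R h)

/-- Multiplication by `h` on `R / a O`. -/
noncomputable def e2 (a h : O) : (R ⧸ N2 k R a) →ₗ[k] (R ⧸ N2 k R a) :=
  (N2 k R a).mapQ (N2 k R a) (mulO k R h) (N2_le_comap k R a h)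

theorem N1_le_comap_N2 (a : O) : N1 k O R ≤ (N2 k R a).comap (mulO k R a) := by
  rintro _ ⟨y, rfl⟩
  exact ⟨y, rfl⟩

/-- `R / O → R / a O`, multiplication by `a`. -/
noncomputable def i1 (a : O) : (R ⧸ N1 k O R) →ₗ[k] (R ⧸ N2 k R a) :=
  (N1 k O R).mapQ (N2 k R a) (mulO k R a) (N1_le_comap_N2 k R a)

theorem N2_le_ker (a : O) : N2 k R a ≤
    LinearMap.ker (Ideal.Quotient.mkₐ k (Ideal.span {algebraMap O R a})).toLinearMap := by
  rintro _ ⟨y, rfl⟩
  rw [LinearMap.mem_ker]
  exact Ideal.Quotient.eq_zero_iff_mem.mpr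
    (Ideal.mem_span_singleton'.mpr ⟨algebraMap O R y, mul_comm _ _⟩)

/-- `R / a O → R / a R`. -/
noncomputable def p1 (a : O) : (R ⧸ N2 k R a) →ₗ[k] (R ⧸ Ideal.span {algebraMap O R a}) :=
  (N2 k R a).liftQ (Ideal.Quotient.mkₐ k (Ideal.span {algebraMap O R a})).toLinearMap
    (N2_le_ker k R a)

theorem p1_mk (a : O) (x : R) :
    p1 k R a (Submodule.Quotient.mk x) = Ideal.Quotient.mk (Ideal.span {algebraMap O R a}) x :=
  rfl

theorem i1_mk (a : O) (x : R) :
    i1 k R a (Submodule.Quotient.mk x) = Submodule.Quotient.mk (algebraMap O R a * x) :=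
  rfl

theorem i1_injective {a : O} (ha : algebraMap O R a ≠ 0) : Function.Injective (i1 k R a) := by
  rw [injective_iff_map_eq_zero]
  intro q hq
  obtain ⟨x, rfl⟩ := Submodule.Quotient.mk_surjective _ q
  rw [i1_mk, Submodule.Quotient.mk_eq_zero, mem_N2] at hq
  obtain ⟨y, hy⟩ := hq
  rw [Submodule.Quotient.mk_eq_zero, mem_N1]
  exact ⟨y, mul_left_cancel₀ ha hy⟩

theorem p1_surjective (a : O) : Function.Surjective (p1 k R a) := by
  intro q
  obtain ⟨x, rfl⟩ := Ideal.Quotient.mk_surjective q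
  exact ⟨Submodule.Quotient.mk x, p1_mk k R a x⟩

theorem range_i1 (a : O) : LinearMap.range (i1 k R a) = LinearMap.ker (p1 k R a) := by
  apply le_antisymm
  · rintro _ ⟨q, rfl⟩
    obtain ⟨x, rfl⟩ := Submodule.Quotient.mk_surjective _ q
    rw [LinearMap.mem_ker, i1_mk, p1_mk]
    exact Ideal.Quotient.eq_zero_iff_mem.mpr (Ideal.mem_span_singleton'.mpr ⟨x, mul_comm _ _⟩)
  · intro q hq
    obtain ⟨x, rfl⟩ := Submodule.Quotient.mk_surjective _ q
    rw [LinearMap.mem_ker, p1_mk, Ideal.Quotient.eq_zero_iff_mem, Ideal.mem_span_singleton'] at hq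
    obtain ⟨r, rfl⟩ := hq
    exact ⟨Submodule.Quotient.mk r, by rw [i1_mk, mul_comm]⟩

theorem i1_e1 (a h : O) (q : R ⧸ N1 k O R) : i1 k R a (e1 k R h q) = e2 k R a h (i1 k R a q) := by
  obtain ⟨x, rfl⟩ := Submodule.Quotient.mk_surjective _ q
  simp only [e1, e2, i1, Submodule.mapQ_apply, mulO_apply]
  rw [mul_left_comm]

theorem p1_e2 (a h : O) (q : R ⧸ N2 k R a) :
    p1 k R a (e2 k R a h q) = Algebra.lmul k (R ⧸ Ideal.span {algebraMap O R a})
      (Ideal.Quotient.mk _ (algebraMap O R h)) (p1 k R a q) := by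
  obtain ⟨x, rfl⟩ := Submodule.Quotient.mk_surjective _ q
  show Ideal.Quotient.mk _ (algebraMap O R h * x) =
    Ideal.Quotient.mk _ (algebraMap O R h) * Ideal.Quotient.mk _ x
  rw [map_mul]

/-- `O / a O → R / a O`. -/
noncomputable def i2 (a : O) : (O ⧸ Ideal.span {a}) →ₗ[k] (R ⧸ N2 k R a) :=
  idealLift (Ideal.span {a}) ((N2 k R a).mkQ ∘ₗ iota k R) (by
    intro x hx
    obtain ⟨r, rfl⟩ := Ideal.mem_span_singleton'.mp hx
    rw [LinearMap.comp_apply, Submodule.mkQ_apply, Submodule.Quotient.mk_eq_zero, mem_N2]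
    exact ⟨r, by rw [iota_apply, map_mul, mul_comm]⟩)

theorem i2_mk (a y : O) : i2 k R a (Ideal.Quotient.mk _ y) =
    Submodule.Quotient.mk (algebraMap O R y) :=
  idealLift_mk _ _ _ y

theorem N2_le_N1 (a : O) : N2 k R a ≤ (N1 k O R).comap LinearMap.id := by
  rintro _ ⟨y, rfl⟩
  exact ⟨a * y, by rw [iota_apply, map_mul]; rfl⟩

/-- `R / a O → R / O`. -/
noncomputable def p2 (a : O) : (R ⧸ N2 k R a) →ₗ[k] (R ⧸ N1 k O R) :=
  (N2 k R a).mapQ (N1 k O R) LinearMap.id (N2_le_N1 k R a)

theorem p2_mk (a : O) (x : R) :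
    p2 k R a (Submodule.Quotient.mk x) = Submodule.Quotient.mk x :=
  rfl

theorem i2_injective (hinj : Function.Injective (algebraMap O R)) (a : O) :
    Function.Injective (i2 k R a) := by
  rw [injective_iff_map_eq_zero]
  intro q hq
  obtain ⟨y, rfl⟩ := Ideal.Quotient.mk_surjective q
  rw [i2_mk, Submodule.Quotient.mk_eq_zero, mem_N2] at hq
  obtain ⟨z, hz⟩ := hq
  rw [← map_mul] at hz
  rw [Ideal.Quotient.eq_zero_iff_mem, Ideal.mem_span_singleton']
  exact ⟨z, by rw [mul_comm]; exact hinj hz⟩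

theorem p2_surjective (a : O) : Function.Surjective (p2 k R a) := by
  intro q
  obtain ⟨x, rfl⟩ := Submodule.Quotient.mk_surjective _ q
  exact ⟨Submodule.Quotient.mk x, p2_mk k R a x⟩

theorem range_i2 (a : O) : LinearMap.range (i2 k R a) = LinearMap.ker (p2 k R a) := by
  apply le_antisymm
  · rintro _ ⟨q, rfl⟩
    obtain ⟨y, rfl⟩ := Ideal.Quotient.mk_surjective q
    rw [LinearMap.mem_ker, i2_mk, p2_mk, Submodule.Quotient.mk_eq_zero, mem_N1]
    exact ⟨y, rfl⟩
  · intro q hq
    obtain ⟨x, rfl⟩ := Submodule.Quotient.mk_surjective _ q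
    rw [LinearMap.mem_ker, p2_mk, Submodule.Quotient.mk_eq_zero, mem_N1] at hq
    obtain ⟨y, rfl⟩ := hq
    exact ⟨Ideal.Quotient.mk _ y, i2_mk k R a y⟩

theorem i2_lmul (a h : O) (q : O ⧸ Ideal.span {a}) :
    i2 k R a (Algebra.lmul k (O ⧸ Ideal.span {a}) (Ideal.Quotient.mk _ h) q) =
      e2 k R a h (i2 k R a q) := by
  obtain ⟨y, rfl⟩ := Ideal.Quotient.mk_surjective q
  have h1 : Algebra.lmul k (O ⧸ Ideal.span {a}) (Ideal.Quotient.mk _ h) (Ideal.Quotient.mk _ y) =
      Ideal.Quotient.mk _ (h * y) := by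
    rw [map_mul]
    rfl
  rw [h1, i2_mk, i2_mk, map_mul]
  rfl

theorem p2_e2 (a h : O) (q : R ⧸ N2 k R a) : p2 k R a (e2 k R a h q) = e1 k R h (p2 k R a q) := by
  obtain ⟨x, rfl⟩ := Submodule.Quotient.mk_surjective _ q
  rfl

/-- `R / O` is finite-dimensional when `R / c R` is, for a conductor `c`. -/
theorem finite_N1 {c : O} (hcond : ∀ x : R, ∃ y : O, algebraMap O R y = algebraMap O R c * x)
    (hfinc : Module.Finite k (R ⧸ Ideal.span {algebraMap O R c})) :
    Module.Finite k (R ⧸ N1 k O R) := by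
  let f : (R ⧸ Ideal.span {algebraMap O R c}) →ₗ[k] (R ⧸ N1 k O R) :=
    idealLift _ (N1 k O R).mkQ (by
      intro x hx
      obtain ⟨r, rfl⟩ := Ideal.mem_span_singleton'.mp hx
      obtain ⟨y, hy⟩ := hcond r
      rw [Submodule.mkQ_apply, Submodule.Quotient.mk_eq_zero, mem_N1]
      exact ⟨y, by rw [hy, mul_comm]⟩)
  refine Module.Finite.of_surjective f ?_
  intro q
  obtain ⟨x, rfl⟩ := Submodule.Quotient.mk_surjective _ q
  exact ⟨Ideal.Quotient.mk _ x, idealLift_mk _ _ _ x⟩

theorem finite_N2 {c : O} (hcond : ∀ x : R, ∃ y : O, algebraMap O R y = algebraMap O R c * x)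
    (a : O) (hfin : Module.Finite k (R ⧸ Ideal.span {algebraMap O R a}))
    (hfinc : Module.Finite k (R ⧸ Ideal.span {algebraMap O R c})) :
    Module.Finite k (R ⧸ N2 k R a) := by
  have := finite_N1 k R hcond hfinc
  exact finite_of_exact (i1 k R a) (p1 k R a) (range_i1 k R a).ge

theorem finite_quotient {c : O} (hinj : Function.Injective (algebraMap O R))
    (hcond : ∀ x : R, ∃ y : O, algebraMap O R y = algebraMap O R c * x)
    (a : O) (hfin : Module.Finite k (R ⧸ Ideal.span {algebraMap O R a}))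
    (hfinc : Module.Finite k (R ⧸ Ideal.span {algebraMap O R c})) :
    Module.Finite k (O ⧸ Ideal.span {a}) := by
  have := finite_N2 k R hcond a hfin hfinc
  exact Module.Finite.of_injective (i2 k R a) (i2_injective k R hinj a)

end Lat

end LenLemma

section LAT

variable {k O R : Type*} [Field k] [CommRing O] [CommRing R] [IsDomain R]
    [Algebra k O] [Algebra k R] [Algebra O R] [IsScalarTower k O R]

theorem exists_conductor_of_finite [Module.Finite O R]
    (hbir : ∀ x : R, ∃ p q : O, algebraMap O R q ≠ 0 ∧ algebraMap O R q * x = algebraMap O R p) :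
    ∃ c : O, algebraMap O R c ≠ 0 ∧ ∀ x : R, ∃ y : O, algebraMap O R y = algebraMap O R c * x := by
  classical
  obtain ⟨s, hs⟩ := (Module.Finite.fg_top : (⊤ : Submodule O R).FG)
  have key : ∀ s : Finset R, ∃ c : O, algebraMap O R c ≠ 0 ∧
      ∀ x ∈ Submodule.span O (s : Set R), ∃ y : O, algebraMap O R y = algebraMap O R c * x := by
    intro s
    induction s using Finset.induction_on with
    | empty =>
      refine ⟨1, by rw [map_one]; exact one_ne_zero, ?_⟩
      intro x hx
      rw [Finset.coe_empty, Submodule.span_empty, Submodule.mem_bot] at hx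
      exact ⟨0, by rw [hx, map_zero, mul_zero]⟩
    | insert z s hz ih =>
      obtain ⟨c, hc, hcs⟩ := ih
      obtain ⟨p, q, hq, hpq⟩ := hbir z
      refine ⟨q * c, by rw [map_mul]; exact mul_ne_zero hq hc, ?_⟩
      intro x hx
      rw [Finset.coe_insert, Submodule.mem_span_insert] at hx
      obtain ⟨o, w, hw, rfl⟩ := hx
      obtain ⟨y, hy⟩ := hcs w hw
      refine ⟨c * o * p + q * y, ?_⟩
      rw [map_add, map_mul, map_mul, map_mul, map_mul, hy, ← hpq, Algebra.smul_def]
      ring
  obtain ⟨c, hc, hcs⟩ := key s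
  exact ⟨c, hc, fun x => hcs x (by rw [hs]; trivial)⟩

set_option linter.unusedVariables false in
theorem charpoly_lmul_quotient_span_eq_of_conductor
    (hinj : Function.Injective (algebraMap O R))
    {c : O} (hc : c ≠ 0) (hcond : ∀ x : R, ∃ y : O, algebraMap O R y = algebraMap O R c * x)
    {a : O} (ha : a ≠ 0)
    [Module.Finite k (R ⧸ Ideal.span {algebraMap O R a})]
    [Module.Finite k (O ⧸ Ideal.span {a})]
    (hfinc : Module.Finite k (R ⧸ Ideal.span {algebraMap O R c})) (h : O) :
    (Algebra.lmul k (O ⧸ Ideal.span {a}) (Ideal.Quotient.mk _ h)).charpoly =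
      (Algebra.lmul k (R ⧸ Ideal.span {algebraMap O R a})
        (Ideal.Quotient.mk _ (algebraMap O R h))).charpoly := by
  have ha' : algebraMap O R a ≠ 0 := fun h0 => ha (hinj (by rw [h0, map_zero]))
  have F1 := LenLemma.finite_N1 k R hcond hfinc
  have F2 := LenLemma.finite_N2 k R hcond a inferInstance hfinc
  have H1 := LenLemma.charpoly_of_exact (LenLemma.i1 k R a) (LenLemma.p1 k R a)
    (LenLemma.i1_injective k R ha') (LenLemma.p1_surjective k R a) (LenLemma.range_i1 k R a)
    (LenLemma.e1 k R h) (LenLemma.e2 k R a h)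
    (Algebra.lmul k (R ⧸ Ideal.span {algebraMap O R a}) (Ideal.Quotient.mk _ (algebraMap O R h)))
    (LenLemma.i1_e1 k R a h) (LenLemma.p1_e2 k R a h)
  have H2 := LenLemma.charpoly_of_exact (LenLemma.i2 k R a) (LenLemma.p2 k R a)
    (LenLemma.i2_injective k R hinj a) (LenLemma.p2_surjective k R a) (LenLemma.range_i2 k R a)
    (Algebra.lmul k (O ⧸ Ideal.span {a}) (Ideal.Quotient.mk _ h))
    (LenLemma.e2 k R a h) (LenLemma.e1 k R h) (LenLemma.i2_lmul k R a h) (LenLemma.p2_e2 k R a h)
  rw [H1, mul_comm] at H2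
  exact (mul_right_cancel₀ (LinearMap.charpoly_monic (LenLemma.e1 k R h)).ne_zero H2).symm

theorem finrank_quotient_span_eq_of_conductor
    (hinj : Function.Injective (algebraMap O R))
    {c : O} (hc : c ≠ 0) (hcond : ∀ x : R, ∃ y : O, algebraMap O R y = algebraMap O R c * x)
    {a : O} (ha : a ≠ 0)
    (hfin : Module.Finite k (R ⧸ Ideal.span {algebraMap O R a}))
    (hfinc : Module.Finite k (R ⧸ Ideal.span {algebraMap O R c})) :
    Module.Finite k (O ⧸ Ideal.span {a}) ∧
      Module.finrank k (O ⧸ Ideal.span {a}) =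
        Module.finrank k (R ⧸ Ideal.span {algebraMap O R a}) := by
  have F0 := LenLemma.finite_quotient k R hinj hcond a hfin hfinc
  refine ⟨F0, ?_⟩
  have H := charpoly_lmul_quotient_span_eq_of_conductor (k := k) hinj hc hcond ha hfinc 1
  have H' := congrArg Polynomial.natDegree H
  rwa [LinearMap.charpoly_natDegree, LinearMap.charpoly_natDegree] at H'

theorem finrank_quotient_span_of_conductor_of_dvr [IsDiscreteValuationRing R]
    (hres : Function.Surjective (algebraMap k (IsLocalRing.ResidueField R)))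
    (hinj : Function.Injective (algebraMap O R))
    {c : O} (hc : c ≠ 0) (hcond : ∀ x : R, ∃ y : O, algebraMap O R y = algebraMap O R c * x)
    {ϖ : R} (hϖ : Irreducible ϖ) {a : O} {n : ℕ} (ha : Associated (algebraMap O R a) (ϖ ^ n)) :
    Module.Finite k (O ⧸ Ideal.span {a}) ∧ Module.finrank k (O ⧸ Ideal.span {a}) = n := by
  obtain ⟨hfin, hrank⟩ := finrank_quotient_span_of_associated_pow hres hϖ ha
  have hc' : algebraMap O R c ≠ 0 := fun h0 => hc (hinj (by rw [h0, map_zero]))
  obtain ⟨m, hm⟩ := IsDiscreteValuationRing.associated_pow_irreducible hc' hϖ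
  obtain ⟨hfinc, -⟩ := finrank_quotient_span_of_associated_pow hres hϖ hm
  have ha0 : a ≠ 0 := by
    rintro rfl
    rw [map_zero] at ha
    exact pow_ne_zero n hϖ.ne_zero ((associated_zero_iff_eq_zero _).mp ha.symm)
  obtain ⟨F, hF⟩ := finrank_quotient_span_eq_of_conductor hinj hc hcond ha0 hfin hfinc
  exact ⟨F, hF.trans hrank⟩

end LAT

end Fermat.Agent.S37
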