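import Fermat.Agent.S37.Abstract
import Fermat.Agent.S37.RedPic
import Fermat.Agent.S37.TorsionAbs

/-!
P12 / S37, module [ASM] (abstract part): assembly of the per-`(ℓ, A)` reduction datum and the P13 exports,
with the two non-formal inputs (iii) (Eichler–Shimura on `RedPic`) and (iv) (injectivity on
prime-to-`ℓ` torsion) as hypotheses `HeckeRed`, `TorsionInj`; and the reduction of (iv) to
(GEN) `GenProp`, (G') `GPrimeProp`, `Star` and the constancy of functions on the special fibre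
without zeros and poles (`torsionInj_of`).
-/

set_option autoImplicit false

noncomputable section

namespace Fermat.Agent.S37

open ModularCurve AlgebraicCurve

section Assembly

variable (N : ℕ) [NeZero N] (ℓ : ℕ) [Fact ℓ.Prime]
  (A : ValuationSubring (AlgebraicClosure ℚ)) (hA : A.LiesOverPrime ℓ)

/-- (iii) on `RedPic`: the Eichler–Shimura congruence. -/
def HeckeRed (hℓ : ℓ.Prime) : Prop :=
  ∀ x : JZero N, redPic N ℓ A hA (heckeOperatorBar N ⟨ℓ, hℓ⟩ x) =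
    PhiRed N ℓ A hA (redPic N ℓ A hA x) + VRed N ℓ A hA (redPic N ℓ A hA x)

/-- (iv) on `RedPic`: injectivity on prime-to-`ℓ` torsion. -/
def TorsionInj : Prop :=
  ∀ (m : ℕ), ¬ ℓ ∣ m → ∀ x : JZero N, m • x = 0 → redPic N ℓ A hA x = 0 → x = 0

variable {N ℓ A hA}

theorem not_dvd_pow_of_not_dvd_mul {N p : ℕ} (hℓ : ℓ.Prime) (h : ¬ ℓ ∣ N * p) (n : ℕ) :
    ¬ ℓ ∣ p ^ n := fun hd =>
  h (Dvd.dvd.mul_left (hℓ.dvd_of_dvd_pow hd) N)

/-- The per-`(ℓ, A)` datum required by `specializationExists_JZero_of_reduction`. -/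
theorem exists_reduction_of (p : ℕ) (hℓ : ℓ.Prime) (hℓNp : ¬ ℓ ∣ N * p)
    (hES : HeckeRed N ℓ A hA hℓ) (hinj : TorsionInj N ℓ A hA) :
    ∃ (P : Type) (_ : AddCommGroup P) (ρ : JZero N →+ P) (Φ V : P →+ P),
      (∀ y : P, V (Φ y) = ℓ • y) ∧
      (∀ τ ∈ A.inertiaSubgroupIn ℚ, ∀ x : JZero N, ρ (τ • x) = ρ x) ∧
      (∀ σ : AlgebraicClosure ℚ ≃ₐ[ℚ] AlgebraicClosure ℚ, A.IsFrobeniusAt σ ℓ →
        ∀ x : JZero N, ρ (σ • x) = Φ (ρ x)) ∧
      (∀ x : JZero N, ρ (heckeOperatorBar N ⟨ℓ, hℓ⟩ x) = Φ (ρ x) + V (ρ x)) ∧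
      (∀ x : JZero N, (∃ n : ℕ, p ^ n • x = 0) → ρ x = 0 → x = 0) :=
  ⟨RedPic N ℓ A hA, inferInstance, redPic N ℓ A hA, PhiRed N ℓ A hA, VRed N ℓ A hA,
    fun y => VRed_PhiRed hA y,
    fun τ hτ x => redPic_smul_of_mem_inertia hA hτ x,
    fun σ hσ x => redPic_smul_of_isFrobeniusAt hA hσ x,
    hES,
    fun x ⟨n, hn⟩ hx => hinj (p ^ n) (not_dvd_pow_of_not_dvd_mul hℓ hℓNp n) x hn hx⟩

theorem galois_smul_nsmul (σ : AlgebraicClosure ℚ ≃ₐ[ℚ] AlgebraicClosure ℚ) (m : ℕ)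
    (x : JZero N) : m • (σ • x) = σ • (m • x) :=
  (map_nsmul (DistribMulAction.toAddMonoidHom (JZero N) σ) m x).symm

theorem galois_smul_zero (σ : AlgebraicClosure ℚ ≃ₐ[ℚ] AlgebraicClosure ℚ) :
    σ • (0 : JZero N) = 0 :=
  map_zero (DistribMulAction.toAddMonoidHom (JZero N) σ)

/-- (E2) inertia acts trivially on prime-to-`ℓ` torsion. -/
theorem inertia_smul_of_torsion_of (hinj : TorsionInj N ℓ A hA)
    (τ : AlgebraicClosure ℚ ≃ₐ[ℚ] AlgebraicClosure ℚ) (hτ : τ ∈ A.inertiaSubgroupIn ℚ)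
    (x : JZero N) (m : ℕ) (hm : ¬ ℓ ∣ m) (hx : m • x = 0) : τ • x = x := by
  have h0 : τ • x - x = 0 := by
    apply hinj m hm
    · rw [nsmul_sub, galois_smul_nsmul, hx, galois_smul_zero, sub_self]
    · rw [map_sub, redPic_smul_of_mem_inertia hA hτ x, sub_self]
  exact sub_eq_zero.mp h0

/-- (E1) the Eichler–Shimura relation on prime-to-`ℓ` torsion. -/
theorem frobenius_relation_of_torsion_of (hℓ : ℓ.Prime) (hES : HeckeRed N ℓ A hA hℓ)
    (hinj : TorsionInj N ℓ A hA)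
    (σ : AlgebraicClosure ℚ ≃ₐ[ℚ] AlgebraicClosure ℚ) (hσ : A.IsFrobeniusAt σ ℓ)
    (x : JZero N) (m : ℕ) (hm : ¬ ℓ ∣ m) (hx : m • x = 0) :
    σ • σ • x - heckeOperatorBar N ⟨ℓ, hℓ⟩ (σ • x) + ℓ • x = 0 := by
  apply hinj m hm
  · have hσ0 : σ • (0 : JZero N) = 0 := galois_smul_zero σ
    have h1 : m • (σ • x) = 0 := by rw [galois_smul_nsmul, hx, hσ0]
    have h2 : m • (σ • σ • x) = 0 := by rw [galois_smul_nsmul, h1, hσ0]
    have h3 : m • (heckeOperatorBar N ⟨ℓ, hℓ⟩ (σ • x)) = 0 := by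
      rw [← map_nsmul, h1, map_zero]
    have h4 : m • (ℓ • x) = 0 := by rw [smul_comm, hx, smul_zero]
    rw [nsmul_add, nsmul_sub, h2, h3, h4, sub_zero, add_zero]
  · have e1 := hES (σ • x)
    rw [map_add, map_sub, redPic_smul_of_isFrobeniusAt hA hσ (σ • x), e1,
      redPic_smul_of_isFrobeniusAt hA hσ x, map_nsmul, VRed_PhiRed hA]
    abel

end Assembly

open Fermat.Agent.S18.StepA

section Torsion

variable (N : ℕ) [NeZero N] (ℓ : ℕ) [Fact ℓ.Prime]
  (A : ValuationSubring (AlgebraicClosure ℚ)) (hA : A.LiesOverPrime ℓ)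

/-- (GEN): every nonzero element of `F_L` is a constant times a quotient of two elements of
`liftRing` with nonzero reductions. -/
def GenProp : Prop :=
  ∀ u : modularFunctionFieldBar N, u ≠ 0 →
    ∃ (c : AlgebraicClosure ℚ) (Y₁ Y₂ : liftRing A (IsLocalRing.residue A) N), c ≠ 0 ∧
      toFk A (IsLocalRing.residue A) N Y₁ ≠ 0 ∧ toFk A (IsLocalRing.residue A) N Y₂ ≠ 0 ∧
      u * toF A (IsLocalRing.residue A) N Y₂ = c • toF A (IsLocalRing.residue A) N Y₁

/-- (G') for the exponent `q`. -/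
def GPrimeProp (q : ℕ) : Prop :=
  ∀ D : Divisor (AlgebraicClosure ℚ) (modularFunctionFieldBar N),
    Finsupp.mapDomain (redPt N ℓ A hA) D = 0 →
    ∀ (u : modularFunctionFieldBar N) (c : AlgebraicClosure ℚ)
      (Y₁ Y₂ : liftRing A (IsLocalRing.residue A) N), u ≠ 0 → c ≠ 0 →
      toFk A (IsLocalRing.residue A) N Y₁ ≠ 0 → toFk A (IsLocalRing.residue A) N Y₂ ≠ 0 →
      u * toF A (IsLocalRing.residue A) N Y₂ = c • toF A (IsLocalRing.residue A) N Y₁ →
      (∀ P : Place (AlgebraicClosure ℚ) (modularFunctionFieldBar N), (q : ℤ) * D P = P.ord u) →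
      ∀ Q : Place (IsLocalRing.ResidueField A)
          (modularFunctionFieldFullC (IsLocalRing.ResidueField A) N),
        Q.ord (toFk A (IsLocalRing.residue A) N Y₁) = Q.ord (toFk A (IsLocalRing.residue A) N Y₂)

variable {N ℓ A hA}

/-- (iv) from (GEN), (G'), `Star` and the constancy of functions without zeros and poles. -/
theorem torsionInj_of
    (hconst : ∀ w : modularFunctionFieldFullC (IsLocalRing.ResidueField A) N, w ≠ 0 →
      (∀ Q : Place (IsLocalRing.ResidueField A)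
        (modularFunctionFieldFullC (IsLocalRing.ResidueField A) N), Q.ord w = 0) →
      w ∈ Set.range (algebraMap (IsLocalRing.ResidueField A)
        (modularFunctionFieldFullC (IsLocalRing.ResidueField A) N)))
    (hstar : ∀ q : ℕ, q.Prime → q ≠ ℓ → Star A (IsLocalRing.residue A) N q)
    (hGEN : GenProp N A)
    (hG : ∀ q : ℕ, q.Prime → q ≠ ℓ → GPrimeProp N ℓ A hA q) :
    TorsionInj N ℓ A hA := by
  intro m hm x hmx hx
  refine TorsionAbs.eq_zero_of_IV (redPt N ℓ A hA) (redPic N ℓ A hA) (RedPic.mk N ℓ A hA)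
    (fun D => redPic_mk' hA D) ?_ ℓ ?_ m hm x hmx hx
  · intro E hE
    obtain ⟨D₀, hD₀, h⟩ := AddSubgroup.mem_map.mp ((RedPic.mk_eq_zero_iff hA E).mp hE)
    exact ⟨D₀, hD₀, h⟩
  · intro q hq hqℓ D hqD hred
    exact TorsionAbs.mem_principal_of_IV_data A (IsLocalRing.residue A) N
      IsLocalRing.residue_surjective hconst hq
      (hstar q hq hqℓ) hGEN D (hG q hq hqℓ D hred) hqD

end Torsion

end Fermat.Agent.S37
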