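import Mathlib
import Fermat.Agent.S18.NumField

/-!
P12 (S37) [RADk], Step I (descent), auxiliary lemmas A (pure algebra / number fields).
-/

set_option autoImplicit false

open Polynomial Fermat.Agent.S18 Fermat.Agent.S18.NumField

namespace Fermat.Agent.S37.RadK

/-- (X1) A monic polynomial of degree `m` with prescribed lower coefficients. -/
theorem exists_monic_of_coeffs {R : Type*} [CommRing R] (m : ℕ) (c : ℕ → R) :
    ∃ q : R[X], q.Monic ∧ (∀ i, i < m → q.coeff i = c i) ∧ q.coeff m = 1 ∧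
      (∀ i, m < i → q.coeff i = 0) ∧
      ∀ y : R, q.eval y = y ^ m + ∑ i ∈ Finset.range m, c i * y ^ i := by
  have hp : ∀ j, (∑ i ∈ Finset.range m, C (c i) * X ^ i : R[X]).coeff j
      = if j < m then c j else 0 := by
    intro j
    rw [finsetSum_coeff]
    simp only [coeff_C_mul_X_pow]
    rw [Finset.sum_ite_eq]
    simp only [Finset.mem_range]
  have hcoeff : ∀ j, (X ^ m + ∑ i ∈ Finset.range m, C (c i) * X ^ i : R[X]).coeff j
      = (if j = m then 1 else 0) + (if j < m then c j else 0) := by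
    intro j
    rw [coeff_add, coeff_X_pow, hp]
  refine ⟨X ^ m + ∑ i ∈ Finset.range m, C (c i) * X ^ i, ?_, ?_, ?_, ?_, ?_⟩
  · refine monic_X_pow_add ?_
    rw [degree_lt_iff_coeff_zero]
    intro j hj
    rw [hp, if_neg (not_lt.mpr hj)]
  · intro i hi
    rw [hcoeff, if_neg (ne_of_lt hi), if_pos hi, zero_add]
  · rw [hcoeff, if_pos rfl, if_neg (lt_irrefl m), add_zero]
  · intro i hi
    rw [hcoeff, if_neg (ne_of_gt hi), if_neg (not_lt.mpr hi.le), add_zero]
  · intro y
    rw [eval_add, eval_pow, eval_X, eval_finsetSum]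
    simp only [eval_mul, eval_C, eval_pow, eval_X]

variable {A : ValuationSubring (AlgebraicClosure ℚ)}

/-- (X3) A polynomial over `A` with coefficients in `K` comes from `Λ[X]`, `Λ = A ∩ K`. -/
theorem exists_map_lamIncl_eq (K : IntermediateField ℚ (AlgebraicClosure ℚ)) (G : (↥A)[X])
    (hG : ∀ i, ((G.coeff i : ↥A) : AlgebraicClosure ℚ) ∈ K) :
    ∃ G' : (↥(lam A K))[X], G'.map (lamIncl A K) = G := by
  rw [← mem_lifts, lifts_iff_coeff_lifts]
  intro n
  refine ⟨⟨⟨((G.coeff n : ↥A) : AlgebraicClosure ℚ), hG n⟩, mem_lam_iff.mpr (G.coeff n).2⟩, ?_⟩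
  exact Subtype.ext rfl

/-- (X4) A number field containing a given finite set and the coefficients of finitely many
polynomials over `A`. -/
theorem exists_field_coeffs (m : ℕ) (G : ℕ → (↥A)[X]) (s : Finset (AlgebraicClosure ℚ)) :
    ∃ K₀ : IntermediateField ℚ (AlgebraicClosure ℚ), FiniteDimensional ℚ ↥K₀ ∧
      (∀ x ∈ s, x ∈ K₀) ∧
      ∀ i, i < m → ∀ j, (((G i).coeff j : ↥A) : AlgebraicClosure ℚ) ∈ K₀ := by
  have hfin : ((s : Set (AlgebraicClosure ℚ)) ∪ ⋃ i ∈ Finset.range m,
      (fun c : ↥A => (c : AlgebraicClosure ℚ)) '' ((G i).coeffs : Set ↥A)).Finite := by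
    refine Set.Finite.union (Finset.finite_toSet s) ?_
    refine Set.Finite.biUnion (Finset.finite_toSet _) fun i _ => ?_
    exact Set.Finite.image _ (Finset.finite_toSet _)
  obtain ⟨K₀, hK₀, hsub⟩ := exists_finiteDimensional_intermediateField _ hfin
  refine ⟨K₀, hK₀, fun x hx => hsub (Set.mem_union_left _ (Finset.mem_coe.mpr hx)), ?_⟩
  intro i hi j
  by_cases h0 : (G i).coeff j = 0
  · rw [h0]
    exact K₀.zero_mem
  · refine hsub (Set.mem_union_right _ ?_)
    refine Set.mem_biUnion (Finset.mem_coe.mpr (Finset.mem_range.mpr hi)) ?_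
    exact ⟨(G i).coeff j, Finset.mem_coe.mpr (coeff_mem_coeffs h0), rfl⟩

end Fermat.Agent.S37.RadK
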