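import Mathlib
import Fermat.Agent.S37.GaussADesc
import Fermat.Agent.S18.FullCInst

/-!
P12 (S37) [RADk], Step I (descent), auxiliary lemmas B (transport `F_K → F_L`, uniformiser).
-/

set_option autoImplicit false

open Polynomial ModularCurve Fermat.Agent.S18 Fermat.Agent.S18.NumField

namespace Fermat.Agent.S37.RadK

variable {A : ValuationSubring (AlgebraicClosure ℚ)} {N : ℕ}

/-- (X2) `toFL` of a polynomial expression in `t` with coefficients in `Λ = A ∩ K`. -/
theorem toFL_aeval_map [NeZero N] (K : IntermediateField ℚ (AlgebraicClosure ℚ))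
    (t : ↥(modularFunctionFieldFullC ↥K N)) (g : (↥(lam A K))[X]) :
    Descent.toFL K N (aeval t (g.map (lam A K).subtype)) =
      aeval (Descent.toFL K N t) ((g.map (lamIncl A K)).map A.subtype) := by
  rw [aeval_def, eval₂_map, hom_eval₂, aeval_def, eval₂_map, eval₂_map]
  congr 1
  refine RingHom.ext fun x => ?_
  exact Descent.toFL_algebraMap K N ((x : ↥(lam A K)) : ↥K)

/-- (X5) An element of `A ∩ K` with zero residue is divisible by the uniformiser of `Λ`. -/
theorem exists_eq_irreducible_mul {ℓ : ℕ} [Fact ℓ.Prime] (hA : A.LiesOverPrime ℓ)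
    (K : IntermediateField ℚ (AlgebraicClosure ℚ)) [FiniteDimensional ℚ ↥K]
    (ϖ : ↥(lam A K)) (hϖ : Irreducible ϖ) {m₀ : AlgebraicClosure ℚ} (hm₀ : m₀ ∈ A)
    (hres : IsLocalRing.residue ↥A ⟨m₀, hm₀⟩ = 0) (hK : m₀ ∈ K) :
    ∃ m₁ : ↥(lam A K), m₀ = ((ϖ : ↥K) : AlgebraicClosure ℚ) * ((m₁ : ↥K) : AlgebraicClosure ℚ) := by
  have hΛ := isGaussRing_lam_resA hA hϖ
  obtain ⟨m₁, hm₁⟩ := hΛ.ker ⟨⟨m₀, hK⟩, mem_lam_iff.mpr hm₀⟩ hres
  exact ⟨m₁, congrArg (fun z : ↥K => (z : AlgebraicClosure ℚ)) hm₁⟩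

/-- (X6) constants of `Λ` times elements of the Gauss ring of `F_K` stay in the Gauss ring. -/
theorem algebraMap_mul_mem_gaussV [NeZero N] (K : IntermediateField ℚ (AlgebraicClosure ℚ))
    (m₁ : ↥(lam A K)) {y : ↥(modularFunctionFieldFullC ↥K N)}
    (hy : y ∈ GaussL.gaussV (lam A K).toSubring (lamResA A K) (modularFunctionFieldFullC ↥K N)) :
    algebraMap ↥K ↥(modularFunctionFieldFullC ↥K N) (m₁ : ↥K) * y ∈
      GaussL.gaussV (lam A K).toSubring (lamResA A K) (modularFunctionFieldFullC ↥K N) := by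
  have h1 : ((algebraMap ↥K ↥(modularFunctionFieldFullC ↥K N) (m₁ : ↥K) :
      ↥(modularFunctionFieldFullC ↥K N)) : LaurentSeries ↥K) ∈
      GaussL.gaussO (lam A K).toSubring (lamResA A K) := by
    rw [GaussL.coe_algebraMap_K]
    have h2 := GaussL.coeffMap_subtype_mem_gaussO (Λ := (lam A K).toSubring)
      (res := lamResA A K) (HahnSeries.C (m₁ : ↥(lam A K).toSubring))
    rw [GaussL.coeffMap_C] at h2
    exact h2
  exact (GaussL.gaussO (lam A K).toSubring (lamResA A K)).mul_mem h1 hy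

end Fermat.Agent.S37.RadK
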