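import Mathlib
import Fermat.Agent.S37.GaussADesc
import Fermat.Agent.S37.GaussAPoly
import Fermat.Agent.S18.FullCInst
import Fermat.Agent.S37.RadKDescAuxA
import Fermat.Agent.S37.RadKDescAuxB

/-!
P12 (S37) [RADk], Step I (descent), number-field half (I-b).
-/

set_option autoImplicit false

open Polynomial ModularCurve Fermat.Agent.S18 Fermat.Agent.S18.NumField

noncomputable section

namespace Fermat.Agent.S37

namespace RadK

variable {A : ValuationSubring (AlgebraicClosure ℚ)} {N : ℕ} [NeZero N] {ℓ : ℕ} [Fact ℓ.Prime]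

set_option maxHeartbeats 1600000 in
/-- (I-b) descent of a relation `yg^m + Σ_{i<m} G_i(t)·yg^i = m₀·y₀` in `gaussA` (with `m₀` of
zero residue) to all large number fields. -/
theorem descent_of_relation (hA : A.LiesOverPrime ℓ)
    {tL : ↥(modularFunctionFieldBar N)}
    (tK : ∀ K : IntermediateField ℚ (AlgebraicClosure ℚ), ↥(modularFunctionFieldFullC ↥K N))
    (htK : ∀ K, Descent.toFL K N (tK K) = tL)
    (yg y₀ : ↥(gaussA A N)) (m : ℕ) (G : ℕ → (↥A)[X]) (m₀ : AlgebraicClosure ℚ) (hm₀ : m₀ ∈ A)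
    (hres : IsLocalRing.residue ↥A ⟨m₀, hm₀⟩ = 0)
    (hrel : (yg : ↥(modularFunctionFieldBar N)) ^ m +
        ∑ i ∈ Finset.range m, aeval tL ((G i).map A.subtype) *
          (yg : ↥(modularFunctionFieldBar N)) ^ i =
      algebraMap (AlgebraicClosure ℚ) ↥(modularFunctionFieldBar N) m₀ *
        (y₀ : ↥(modularFunctionFieldBar N))) :
    ∃ K₀ : IntermediateField ℚ (AlgebraicClosure ℚ), FiniteDimensional ℚ ↥K₀ ∧
      ∀ K : IntermediateField ℚ (AlgebraicClosure ℚ), K₀ ≤ K → FiniteDimensional ℚ ↥K →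
        ∀ ϖ : ↥(lam A K), Irreducible ϖ →
        ∃ (y : ↥(modularFunctionFieldFullC ↥K N))
          (hy : y ∈ GaussL.gaussV (lam A K).toSubring (lamResA A K)
            (modularFunctionFieldFullC ↥K N)),
          GaussL.gaussRed (lam A K).toSubring (lamResA A K) (modularFunctionFieldFullC ↥K N)
            ⟨y, hy⟩ = redA A N yg ∧
          ∃ q : (↥(modularFunctionFieldFullC ↥K N))[X], q.Monic ∧
            (∀ i, ∃ g : (↥(lam A K))[X],
              q.coeff i = aeval (tK K) (g.map (lam A K).subtype)) ∧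
            ∃ δ ∈ GaussL.gaussV (lam A K).toSubring (lamResA A K)
              (modularFunctionFieldFullC ↥K N),
              q.eval y = algebraMap ↥K ↥(modularFunctionFieldFullC ↥K N) (ϖ : ↥K) * δ := by
  obtain ⟨K₁, hK₁, h₁⟩ := exists_gaussV_eq hA yg.2
  obtain ⟨K₂, hK₂, h₂⟩ := exists_gaussV_eq hA y₀.2
  obtain ⟨K₃, hK₃, hK₃s, hK₃G⟩ := exists_field_coeffs m G {m₀}
  have := hK₁
  have := hK₂
  have := hK₃
  have : FiniteDimensional ℚ ↥(K₁ ⊔ K₂) := IntermediateField.finiteDimensional_sup K₁ K₂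
  refine ⟨K₁ ⊔ K₂ ⊔ K₃, IntermediateField.finiteDimensional_sup (K₁ ⊔ K₂) K₃,
    fun K hK hKfd ϖ hϖ => ?_⟩
  have hK₁le : K₁ ≤ K := le_trans (le_trans le_sup_left le_sup_left) hK
  have hK₂le : K₂ ≤ K := le_trans (le_trans le_sup_right le_sup_left) hK
  have hK₃le : K₃ ≤ K := le_trans le_sup_right hK
  obtain ⟨y, hy, hyz⟩ := h₁ K hK₁le hKfd
  obtain ⟨y₀', hy₀', hy₀z⟩ := h₂ K hK₂le hKfd
  have hm₀K : m₀ ∈ K := hK₃le (hK₃s m₀ (Finset.mem_singleton_self _))
  obtain ⟨m₁, hm₁⟩ := exists_eq_irreducible_mul hA K ϖ hϖ hm₀ hres hm₀K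
  have hG' : ∀ i, ∃ G' : (↥(lam A K))[X], i < m → G'.map (lamIncl A K) = G i := by
    intro i
    by_cases hi : i < m
    · obtain ⟨G', hG'⟩ := exists_map_lamIncl_eq K (G i) (fun j => hK₃le (hK₃G i hi j))
      exact ⟨G', fun _ => hG'⟩
    · exact ⟨0, fun h => absurd h hi⟩
  choose G' hG' using hG'
  obtain ⟨q, hq, hqlt, hqm, hqgt, hqeval⟩ := exists_monic_of_coeffs m
    (fun i => aeval (tK K) ((G' i).map (lam A K).subtype))
  refine ⟨y, hy, ?_, q, hq, ?_, algebraMap ↥K ↥(modularFunctionFieldFullC ↥K N) (m₁ : ↥K) * y₀',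
    algebraMap_mul_mem_gaussV K m₁ hy₀', ?_⟩
  · rw [← redA_toFL K hy]
    congr 1
    exact Subtype.ext hyz
  · intro i
    rcases lt_trichotomy i m with h | h | h
    · exact ⟨G' i, hqlt i h⟩
    · refine ⟨1, ?_⟩
      rw [h, hqm, Polynomial.map_one, map_one]
    · refine ⟨0, ?_⟩
      rw [hqgt i h, Polynomial.map_zero, map_zero]
  · apply Descent.toFL_injective K N
    rw [hqeval, map_add, map_pow, map_sum, map_mul, map_mul, hyz, hy₀z,
      Descent.toFL_algebraMap, Descent.toFL_algebraMap, ← mul_assoc, ← map_mul, ← hm₁, ← hrel]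
    congr 1
    refine Finset.sum_congr rfl fun i hi => ?_
    rw [map_mul, map_pow, hyz, toFL_aeval_map, htK, hG' i (Finset.mem_range.mp hi)]

end RadK

end Fermat.Agent.S37
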