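import Fermat.Agent.S37.GaussADesc
import Fermat.Agent.S37.GaussAPoly
import Fermat.Agent.S37.GaussASurj
import Fermat.Agent.S18.FullCInst
import Fermat.Agent.S37.RadKDescentK

/-!
P12 (S37) [RADk], Step I (descent): an element `z` of `F_k` which is integral over `k[t̄]` is,
for every large number field `K`, the reduction of an element of the Gauss ring of `F_K` which
is a root modulo `ϖ` of a monic polynomial with coefficients in `Λ[t]`.

* `exists_lift_rel` (I-a): the relation in the Gauss ring `gaussA` over `A`;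
* `exists_descent_int`: Step I (with `descent_of_relation`, `S37/RadKDescentK.lean`).
-/

set_option autoImplicit false

open Polynomial ModularCurve Fermat.Agent.S18 Fermat.Agent.S18.NumField

noncomputable section

namespace Fermat.Agent.S37

namespace RadK

variable {A : ValuationSubring (AlgebraicClosure ℚ)} {N : ℕ} [NeZero N] {ℓ : ℕ} [Fact ℓ.Prime]

/-- (I-a) Lift of an integral equation over `k[t̄]` to a relation in `gaussA`:
`yg^m + Σ_{i<m} G_i(t)·yg^i = m₀·y₀` with `m₀` of zero residue. -/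
theorem exists_lift_rel (hA : A.LiesOverPrime ℓ)
    {tL : ↥(modularFunctionFieldBar N)} (htL : tL ∈ gaussA A N)
    {z : LaurentSeries (IsLocalRing.ResidueField ↥A)}
    (hz : z ∈ modularFunctionFieldFullC (IsLocalRing.ResidueField ↥A) N)
    (p : (LaurentSeries (IsLocalRing.ResidueField ↥A))[X]) (hp : p.Monic)
    (hpc : ∀ i, ∃ g : (IsLocalRing.ResidueField ↥A)[X],
      p.coeff i = aeval (redA A N ⟨tL, htL⟩) g)
    (hpz : p.eval z = 0) :
    ∃ (yg y₀ : ↥(gaussA A N)) (G : ℕ → (↥A)[X]) (m₀ : AlgebraicClosure ℚ) (hm₀ : m₀ ∈ A),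
      redA A N yg = z ∧ IsLocalRing.residue ↥A ⟨m₀, hm₀⟩ = 0 ∧
      (yg : ↥(modularFunctionFieldBar N)) ^ p.natDegree +
          ∑ i ∈ Finset.range p.natDegree, aeval tL ((G i).map A.subtype) *
            (yg : ↥(modularFunctionFieldBar N)) ^ i =
        algebraMap (AlgebraicClosure ℚ) ↥(modularFunctionFieldBar N) m₀ *
          (y₀ : ↥(modularFunctionFieldBar N)) := by
  obtain ⟨yg, hyg⟩ := exists_redA_eq (A := A) hz
  choose g hg using hpc
  have hsurj : ∀ i, ∃ Gi : (↥A)[X], Gi.map (IsLocalRing.residue ↥A) = g i := fun i =>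
    Polynomial.map_surjective _ IsLocalRing.residue_surjective (g i)
  choose G hG using hsurj
  set Qg : ↥(gaussA A N) := yg ^ p.natDegree + ∑ i ∈ Finset.range p.natDegree,
    (⟨aeval tL ((G i).map A.subtype), aeval_mem_gaussA htL (G i)⟩ : ↥(gaussA A N)) * yg ^ i
    with hQg
  have hred : redA A N Qg = 0 := by
    rw [hQg, map_add, map_pow, map_sum, hyg]
    have h1 : ∀ i ∈ Finset.range p.natDegree,
        redA A N ((⟨aeval tL ((G i).map A.subtype), aeval_mem_gaussA htL (G i)⟩ :
          ↥(gaussA A N)) * yg ^ i) = p.coeff i * z ^ i := by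
      intro i _
      rw [map_mul, map_pow, hyg, redA_aeval htL (G i), hG i, ← hg i]
    rw [Finset.sum_congr rfl h1, ← hpz, Polynomial.eval_eq_sum_range, Finset.sum_range_succ,
      hp.coeff_natDegree, one_mul, add_comm]
  obtain ⟨m₀, hm₀, y₀, hres, hQ⟩ := (redA_eq_zero_iff hA Qg).mp hred
  refine ⟨yg, y₀, G, m₀, hm₀, hyg, hres, ?_⟩
  rw [← hQ, hQg]
  have hcoe : ∀ w : ↥(gaussA A N), (w : ↥(modularFunctionFieldBar N)) = (gaussA A N).subtype w :=
    fun _ => rfl
  rw [hcoe, hcoe, map_add, map_pow, map_sum]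
  congr 1

/-- **Step I (descent)** of [RADk], instance-free form: an element `z` of `F_k` which is a root
of a monic polynomial with coefficients in `k[t̄]` (`t̄ = redA t`, `t ∈ gaussA` defined over every
number field) is, for every large number field `K`, the reduction of an element `y` of the Gauss
ring of `F_K` which is a root modulo `ϖ` of a monic polynomial with coefficients in `Λ[t]`. -/
theorem exists_descent_int (hA : A.LiesOverPrime ℓ)
    {tL : ↥(modularFunctionFieldBar N)} (htL : tL ∈ gaussA A N)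
    (tK : ∀ K : IntermediateField ℚ (AlgebraicClosure ℚ), ↥(modularFunctionFieldFullC ↥K N))
    (htK : ∀ K, Descent.toFL K N (tK K) = tL)
    {z : LaurentSeries (IsLocalRing.ResidueField ↥A)}
    (hz : z ∈ modularFunctionFieldFullC (IsLocalRing.ResidueField ↥A) N)
    (p : (LaurentSeries (IsLocalRing.ResidueField ↥A))[X]) (hp : p.Monic)
    (hpc : ∀ i, ∃ g : (IsLocalRing.ResidueField ↥A)[X],
      p.coeff i = aeval (redA A N ⟨tL, htL⟩) g)
    (hpz : p.eval z = 0) :
    ∃ K₀ : IntermediateField ℚ (AlgebraicClosure ℚ), FiniteDimensional ℚ ↥K₀ ∧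
      ∀ K : IntermediateField ℚ (AlgebraicClosure ℚ), K₀ ≤ K → FiniteDimensional ℚ ↥K →
        ∀ ϖ : ↥(lam A K), Irreducible ϖ →
        ∃ (y : ↥(modularFunctionFieldFullC ↥K N))
          (hy : y ∈ GaussL.gaussV (lam A K).toSubring (lamResA A K)
            (modularFunctionFieldFullC ↥K N)),
          GaussL.gaussRed (lam A K).toSubring (lamResA A K) (modularFunctionFieldFullC ↥K N)
            ⟨y, hy⟩ = z ∧
          ∃ q : (↥(modularFunctionFieldFullC ↥K N))[X], q.Monic ∧
            (∀ i, ∃ g : (↥(lam A K))[X],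
              q.coeff i = aeval (tK K) (g.map (lam A K).subtype)) ∧
            ∃ δ ∈ GaussL.gaussV (lam A K).toSubring (lamResA A K)
              (modularFunctionFieldFullC ↥K N),
              q.eval y = algebraMap ↥K ↥(modularFunctionFieldFullC ↥K N) (ϖ : ↥K) * δ := by
  obtain ⟨yg, y₀, G, m₀, hm₀, hyg, hres, hrel⟩ := exists_lift_rel hA htL hz p hp hpc hpz
  obtain ⟨K₀, hK₀, h⟩ := descent_of_relation hA tK htK yg y₀ p.natDegree G m₀ hm₀ hres hrel
  refine ⟨K₀, hK₀, fun K hK hKfd ϖ hϖ => ?_⟩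
  obtain ⟨y, hy, hyred, q, hq, hqc, δ, hδ, hqy⟩ := h K hK hKfd ϖ hϖ
  exact ⟨y, hy, hyred.trans hyg, q, hq, hqc, δ, hδ, hqy⟩

end RadK

end Fermat.Agent.S37
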