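import Fermat.Agent.S37.RadKBridge
import Fermat.Agent.S37.RadKDescent
import Fermat.Agent.S37.CoverERad

/-!
P12 / S37 Tier 2, module [RADk] (core): descent of the radicial-density statement from number
fields to `k = ResidueField A`.
-/

set_option autoImplicit false
set_option linter.unusedSectionVars false
set_option linter.style.haveILetI false

open Polynomial ModularCurve Fermat.Agent.S18 Fermat.Agent.S18.NumField

noncomputable section

namespace Fermat.Agent.S37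

namespace RadK

variable {A : ValuationSubring (AlgebraicClosure ℚ)} {N : ℕ} [NeZero N] {ℓ : ℕ} [Fact ℓ.Prime]

set_option synthInstance.maxHeartbeats 400000 in
/-- elements of `Λ[t]` are integral over `Λ[t]` -/
theorem isIntegral_adjoin_of_coeff (K : IntermediateField ℚ (AlgebraicClosure ℚ))
    (t c : ↥(modularFunctionFieldFullC ↥K N))
    (h : ∃ g : (↥(lam A K))[X], c = aeval t (g.map (lam A K).subtype)) :
    IsIntegral (Algebra.adjoin ↥(lam A K) {t}) c := by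
  obtain ⟨g, rfl⟩ := h
  have h1 : aeval t (g.map (lam A K).subtype) = aeval t g :=
    Polynomial.aeval_map_algebraMap (A := ↥K) t g
  rw [h1]
  exact isIntegral_algebraMap
    (x := (⟨aeval t g, Polynomial.aeval_mem_adjoin_singleton _ t⟩ : Algebra.adjoin ↥(lam A K) {t}))

set_option synthInstance.maxHeartbeats 400000 in
set_option maxHeartbeats 1000000 in
/-- **(RAD-fin), raw form.**  An element `z` of `F_k` which is a root of a monic polynomial with
coefficients in `k[j̄]` has a power which is the reduction of an element of `F_L` integral over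
`A[j]`. -/
theorem rad_fin_raw (hA : A.LiesOverPrime ℓ) (hℓN : ¬ ℓ ∣ N)
    {z : LaurentSeries (IsLocalRing.ResidueField ↥A)}
    (hz : z ∈ modularFunctionFieldFullC (IsLocalRing.ResidueField ↥A) N)
    (p : (LaurentSeries (IsLocalRing.ResidueField ↥A))[X]) (hp : p.Monic)
    (hpc : ∀ i, ∃ g : (IsLocalRing.ResidueField ↥A)[X],
      p.coeff i = aeval (jqModC (IsLocalRing.ResidueField ↥A)) g)
    (hpz : p.eval z = 0) :
    ∃ n : ℕ, 1 ≤ n ∧ ∃ b : ↥(modularFunctionFieldBar N),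
      (∀ S : Subring ↥(modularFunctionFieldBar N),
        (∀ a ∈ A, algebraMap (AlgebraicClosure ℚ) ↥(modularFunctionFieldBar N) a ∈ S) →
        Fermat.Agent.S24.jL (AlgebraicClosure ℚ) N ∈ S → IsIntegral ↥S b) ∧
      ∃ hb : b ∈ gaussA A N, redA A N ⟨b, hb⟩ = z ^ n := by
  have htL : Fermat.Agent.S24.jL (AlgebraicClosure ℚ) N ∈ gaussA A N := jL_mem_gaussA
  have hpc' : ∀ i, ∃ g : (IsLocalRing.ResidueField ↥A)[X],
      p.coeff i = aeval (redA A N ⟨Fermat.Agent.S24.jL (AlgebraicClosure ℚ) N, htL⟩) g := by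
    intro i
    rw [redA_jL]
    exact hpc i
  obtain ⟨K₀, hK₀fd, hK₀⟩ := exists_descent_int hA htL (fun K => GaussL.jC ↥K N)
    (fun K => Descent.toFL_jC K N) hz p hp hpc' hpz
  haveI := hK₀fd
  obtain ⟨K, hKfd, hK₀K, ϖ, hϖ, hfin, -⟩ := CoverE.exists_radLifts N hA hℓN K₀
  haveI := hKfd
  obtain ⟨y, hy, hyz, q, hq, hqc, δ, hδ, hqy⟩ := hK₀ K hK₀K hKfd ϖ hϖ
  obtain ⟨n, hn, e, he, δ', hδ', hne⟩ := hfin y (isIntegral_gaussSub_of_mem hA hℓN K ϖ hϖ hy)
    ⟨q, hq, fun i => isIntegral_adjoin_of_coeff K _ _ (hqc i), δ,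
      isIntegral_gaussSub_of_mem hA hℓN K ϖ hϖ hδ, by rw [hqy, Algebra.smul_def]; rfl⟩
  have hδ'V := mem_of_isIntegral_gaussSub hA K ϖ hϖ hδ'
  have hyn : y ^ n ∈ GaussL.gaussV (lam A K).toSubring (lamResA A K)
      (modularFunctionFieldFullC ↥K N) := pow_mem hy n
  obtain ⟨heV, hred⟩ := gaussRed_eq_of_sub_eq_smul hA K ϖ hϖ hyn hδ'V hne
  refine ⟨n, hn, Descent.toFL K N e, fun S hS hj =>
    isIntegral_toFL K (GaussL.jC ↥K N) e he S hS (by rw [Descent.toFL_jC]; exact hj),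
    toFL_mem_gaussA K heV, ?_⟩
  rw [redA_toFL K heV, hred]
  have h1 : (⟨y ^ n, hyn⟩ : ↥(GaussL.gaussV (lam A K).toSubring (lamResA A K)
      (modularFunctionFieldFullC ↥K N))) = ⟨y, hy⟩ ^ n := rfl
  rw [h1, map_pow, hyz]

set_option synthInstance.maxHeartbeats 400000 in
set_option maxHeartbeats 1000000 in
/-- **(RAD-inf), raw form.**  An element `z` of `F_k` which is a root of a monic polynomial with
coefficients in `k[j̄⁻¹]` has a power which, up to a factor `s̄(j̄⁻¹) ^ n` with `s ∈ A[X]`,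
`s(0) ∈ Aˣ`, is the reduction of an element of `F_L` integral over `A[j⁻¹]`. -/
theorem rad_inf_raw (hA : A.LiesOverPrime ℓ) (hℓN : ¬ ℓ ∣ N)
    {z : LaurentSeries (IsLocalRing.ResidueField ↥A)}
    (hz : z ∈ modularFunctionFieldFullC (IsLocalRing.ResidueField ↥A) N)
    (p : (LaurentSeries (IsLocalRing.ResidueField ↥A))[X]) (hp : p.Monic)
    (hpc : ∀ i, ∃ g : (IsLocalRing.ResidueField ↥A)[X],
      p.coeff i = aeval (jqModC (IsLocalRing.ResidueField ↥A))⁻¹ g)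
    (hpz : p.eval z = 0) :
    ∃ n : ℕ, 1 ≤ n ∧ ∃ s : (↥A)[X], IsUnit (s.eval 0) ∧ ∃ b : ↥(modularFunctionFieldBar N),
      (∀ S : Subring ↥(modularFunctionFieldBar N),
        (∀ a ∈ A, algebraMap (AlgebraicClosure ℚ) ↥(modularFunctionFieldBar N) a ∈ S) →
        (Fermat.Agent.S24.jL (AlgebraicClosure ℚ) N)⁻¹ ∈ S → IsIntegral ↥S b) ∧
      ∃ hb : b ∈ gaussA A N, redA A N ⟨b, hb⟩ =
        (aeval (jqModC (IsLocalRing.ResidueField ↥A))⁻¹ (s.map (IsLocalRing.residue ↥A))) ^ n *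
          z ^ n := by
  have htL : (Fermat.Agent.S24.jL (AlgebraicClosure ℚ) N)⁻¹ ∈ gaussA A N := jL_inv_mem_gaussA
  have hpc' : ∀ i, ∃ g : (IsLocalRing.ResidueField ↥A)[X],
      p.coeff i = aeval (redA A N ⟨(Fermat.Agent.S24.jL (AlgebraicClosure ℚ) N)⁻¹, htL⟩) g := by
    intro i
    rw [redA_jL_inv]
    exact hpc i
  have htK : ∀ K : IntermediateField ℚ (AlgebraicClosure ℚ),
      Descent.toFL K N (GaussL.jC ↥K N)⁻¹ = (Fermat.Agent.S24.jL (AlgebraicClosure ℚ) N)⁻¹ := by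
    intro K
    rw [map_inv₀, Descent.toFL_jC]
  obtain ⟨K₀, hK₀fd, hK₀⟩ := exists_descent_int hA htL (fun K => (GaussL.jC ↥K N)⁻¹)
    htK hz p hp hpc' hpz
  haveI := hK₀fd
  obtain ⟨K, hKfd, hK₀K, ϖ, hϖ, -, hinf⟩ := CoverE.exists_radLifts N hA hℓN K₀
  haveI := hKfd
  obtain ⟨y, hy, hyz, q, hq, hqc, δ, hδ, hqy⟩ := hK₀ K hK₀K hKfd ϖ hϖ
  have hV := gaussSub_jC_inv (A := A) (N := N) K ϖ hϖ.prime
  obtain ⟨n, hn, σ, hσ, e, he, δ', hδ', hne⟩ := hinf y
    (by rw [hV]; exact isIntegral_gaussSub_of_mem hA hℓN K ϖ hϖ hy)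
    ⟨q, hq, fun i => isIntegral_adjoin_of_coeff K _ _ (hqc i), δ,
      by rw [hV]; exact isIntegral_gaussSub_of_mem hA hℓN K ϖ hϖ hδ,
      by rw [hqy, Algebra.smul_def]; rfl⟩
  rw [hV] at hδ'
  have hδ'V := mem_of_isIntegral_gaussSub hA K ϖ hϖ hδ'
  -- the factor `σ(j⁻¹)`
  have hσL : Descent.toFL K N (aeval (GaussL.jC ↥K N)⁻¹ σ) =
      aeval (Fermat.Agent.S24.jL (AlgebraicClosure ℚ) N)⁻¹
        ((σ.map (lamIncl A K)).map A.subtype) := by
    rw [toFL_aeval, htK]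
  have hσA : aeval (Fermat.Agent.S24.jL (AlgebraicClosure ℚ) N)⁻¹
      ((σ.map (lamIncl A K)).map A.subtype) ∈ gaussA A N :=
    aeval_mem_gaussA htL (σ.map (lamIncl A K))
  have hσV : aeval (GaussL.jC ↥K N)⁻¹ σ ∈ GaussL.gaussV (lam A K).toSubring (lamResA A K)
      (modularFunctionFieldFullC ↥K N) :=
    mem_gaussV_of_toFL_mem hA K (by rw [hσL]; exact hσA)
  have hσred : GaussL.gaussRed (lam A K).toSubring (lamResA A K)
      (modularFunctionFieldFullC ↥K N) ⟨aeval (GaussL.jC ↥K N)⁻¹ σ, hσV⟩ =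
      aeval (jqModC (IsLocalRing.ResidueField ↥A))⁻¹
        ((σ.map (lamIncl A K)).map (IsLocalRing.residue ↥A)) := by
    rw [← redA_toFL K hσV]
    have h2 : (⟨Descent.toFL K N (aeval (GaussL.jC ↥K N)⁻¹ σ), toFL_mem_gaussA K hσV⟩ :
        ↥(gaussA A N)) = ⟨_, hσA⟩ := Subtype.ext hσL
    rw [h2, redA_aeval htL, redA_jL_inv]
  have han : aeval (GaussL.jC ↥K N)⁻¹ σ ^ n * y ^ n ∈
      GaussL.gaussV (lam A K).toSubring (lamResA A K) (modularFunctionFieldFullC ↥K N) :=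
    mul_mem (pow_mem hσV n) (pow_mem hy n)
  obtain ⟨heV, hred⟩ := gaussRed_eq_of_sub_eq_smul hA K ϖ hϖ han hδ'V hne
  refine ⟨n, hn, σ.map (lamIncl A K), ?_, Descent.toFL K N e, fun S hS hj =>
    isIntegral_toFL K (GaussL.jC ↥K N)⁻¹ e he S hS (by rw [htK]; exact hj),
    toFL_mem_gaussA K heV, ?_⟩
  · rw [Polynomial.eval_zero_map]
    exact hσ.map (lamIncl A K)
  · rw [redA_toFL K heV, hred]
    have h1 : (⟨aeval (GaussL.jC ↥K N)⁻¹ σ ^ n * y ^ n, han⟩ :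
        ↥(GaussL.gaussV (lam A K).toSubring (lamResA A K) (modularFunctionFieldFullC ↥K N))) =
        ⟨aeval (GaussL.jC ↥K N)⁻¹ σ, hσV⟩ ^ n * ⟨y, hy⟩ ^ n := rfl
    rw [h1, map_mul, map_pow, map_pow, hyz, hσred]

end RadK

end Fermat.Agent.S37
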