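import Fermat.Agent.S37.GaussADesc
import Fermat.Agent.S37.GaussAPoly
import Fermat.Agent.S37.GaussASurj
import Fermat.Agent.S37.RadDefs
import Fermat.Agent.S18.GaussOut
import Fermat.Agent.S18.FullCInst
import Fermat.Agent.S18.GaussLineA
import Fermat.Agent.S18.LocalInst

/-!
P12 / S37 Tier 2, module [RADk], bridge lemmas (slices (BR) and (ASC) of the `RadK` skeleton).

`K ⊆ ℚ̄` a number field, `Λ = A ∩ K = lam A K` with uniformiser `ϖ`, `F_K = F_N(K)`,
`V_F = gaussV` the Gauss valuation ring of `F_K`, `j = jC K N`.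

* (BR) `isIntegral_gaussSub_of_mem`, `mem_of_isIntegral_gaussSub`: `y ∈ V_F` if and only if `y` is
  integral over `gaussSub ϖ j`; `gaussSub_jC_inv`: the Gauss rings of `j` and `j⁻¹` coincide.
* (ASC) `toFL_aeval`, `isIntegral_toFL`: polynomial expressions and integrality over `Λ[t]` go up
  along `toFL : F_K → F_L`; `gaussRed_eq_of_sub_eq_smul`: a congruence modulo `ϖ` in `V_F` gives
  an equality of reductions.
-/

set_option autoImplicit false

open Polynomial ModularCurve Fermat.Agent.S18 Fermat.Agent.S18.NumField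

noncomputable section

namespace Fermat.Agent.S37

namespace RadK

/-- Shortcut instance (the canonical one found by the slow generic search). -/
instance algLamFull (A : ValuationSubring (AlgebraicClosure ℚ))
    (K : IntermediateField ℚ (AlgebraicClosure ℚ)) (N : ℕ) :
    Algebra ↥(lam A K) ↥(modularFunctionFieldFullC ↥K N) :=
  Algebra.ofSubsemiring (lam A K)

instance isScalarTower_lamFull (A : ValuationSubring (AlgebraicClosure ℚ))
    (K : IntermediateField ℚ (AlgebraicClosure ℚ)) (N : ℕ) :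
    IsScalarTower ↥(lam A K) ↥K ↥(modularFunctionFieldFullC ↥K N) :=
  IsScalarTower.of_algebraMap_eq (fun _ => rfl)

variable {A : ValuationSubring (AlgebraicClosure ℚ)} {N : ℕ} [NeZero N] {ℓ : ℕ} [Fact ℓ.Prime]

/-! ### slice (BR): bridge `gaussV` ↔ integral over `gaussSub ϖ j` -/

set_option synthInstance.maxHeartbeats 400000 in
theorem isIntegral_gaussSub_of_mem (hA : A.LiesOverPrime ℓ) (hℓN : ¬ ℓ ∣ N)
    (K : IntermediateField ℚ (AlgebraicClosure ℚ)) [FiniteDimensional ℚ ↥K]
    (ϖ : ↥(lam A K)) (hϖ : Irreducible ϖ) {y : ↥(modularFunctionFieldFullC ↥K N)}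
    (hy : y ∈ GaussL.gaussV (lam A K).toSubring (lamResA A K) (modularFunctionFieldFullC ↥K N)) :
    IsIntegral (gaussSub ϖ hϖ.prime (GaussL.jC ↥K N)) y :=
  GaussOut.isIntegral_lam N hA hℓN K ϖ hϖ hϖ.prime ((mem_gaussV_lamRes_iff K).mpr hy)

set_option synthInstance.maxHeartbeats 400000 in
theorem mem_of_isIntegral_gaussSub (hA : A.LiesOverPrime ℓ)
    (K : IntermediateField ℚ (AlgebraicClosure ℚ)) [FiniteDimensional ℚ ↥K]
    (ϖ : ↥(lam A K)) (hϖ : Irreducible ϖ) {y : ↥(modularFunctionFieldFullC ↥K N)}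
    (hy : IsIntegral (gaussSub ϖ hϖ.prime (GaussL.jC ↥K N)) y) :
    y ∈ GaussL.gaussV (lam A K).toSubring (lamResA A K) (modularFunctionFieldFullC ↥K N) := by
  have hΛ := isGaussRing_lam_resA hA hϖ
  have hle : ∀ c ∈ gaussSub ϖ hϖ.prime (GaussL.jC ↥K N),
      c ∈ GaussL.gaussV (lam A K).toSubring (lamResA A K) (modularFunctionFieldFullC ↥K N) := by
    intro c hc
    exact ((GaussOut.mem_gaussSub_iff hΛ N c).1 hc).1
  refine GaussL.mem_gaussV_of_isIntegral _ hΛ (GaussL.full_le_gaussK hΛ N) ?_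
  refine LocalInst.isIntegral_of_range_le (fun c => ?_) hy
  exact ⟨⟨c.1, hle c.1 c.2⟩, rfl⟩

theorem gaussSub_jC_inv (K : IntermediateField ℚ (AlgebraicClosure ℚ))
    (ϖ : ↥(lam A K)) (hϖ : Prime ϖ) :
    gaussSub ϖ hϖ (GaussL.jC ↥K N)⁻¹ = gaussSub ϖ hϖ (GaussL.jC ↥K N) := by
  have htK : Transcendental ↥K (GaussL.jC ↥K N) := fun h =>
    Fermat.Agent.S28.ChartKer.transcendental_jqModC (K := ↥K)
      (h.algHom (modularFunctionFieldFullC ↥K N).val)
  have ht : Transcendental ↥(lam A K) (GaussL.jC ↥K N) :=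
    GaussLineK.transcendental_of_fraction htK
  exact GaussLineK.gaussSub_inv ϖ hϖ ht

/-! ### slice (ASC): from `F_K` to `F_L` -/

/-- `toFL` of a polynomial expression over `Λ = A ∩ K`. -/
theorem toFL_aeval (K : IntermediateField ℚ (AlgebraicClosure ℚ))
    (t : ↥(modularFunctionFieldFullC ↥K N)) (g : (↥(lam A K))[X]) :
    Descent.toFL K N (aeval t g) =
      aeval (Descent.toFL K N t) ((g.map (lamIncl A K)).map A.subtype) := by
  rw [aeval_def, hom_eval₂, aeval_def, eval₂_map, eval₂_map]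
  congr 1
  exact RingHom.ext fun c => Descent.toFL_algebraMap K N (c : ↥K)

set_option synthInstance.maxHeartbeats 400000 in
/-- integrality over `Λ[t]` becomes integrality over any subring of `F_L` containing the constants
of `A` and the image of `t` -/
theorem isIntegral_toFL (K : IntermediateField ℚ (AlgebraicClosure ℚ))
    (t e : ↥(modularFunctionFieldFullC ↥K N))
    (he : IsIntegral (Algebra.adjoin ↥(lam A K) {t}) e)
    (S : Subring ↥(modularFunctionFieldBar N))
    (hS : ∀ a ∈ A, algebraMap (AlgebraicClosure ℚ) ↥(modularFunctionFieldBar N) a ∈ S)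
    (ht : Descent.toFL K N t ∈ S) : IsIntegral ↥S (Descent.toFL K N e) := by
  have hmem : ∀ x ∈ Algebra.adjoin ↥(lam A K) ({t} : Set ↥(modularFunctionFieldFullC ↥K N)),
      Descent.toFL K N x ∈ S := by
    intro x hx
    induction hx using Algebra.adjoin_induction with
    | mem z hz =>
      rw [Set.mem_singleton_iff] at hz
      rw [hz]
      exact ht
    | algebraMap r =>
      have h1 : Descent.toFL K N (algebraMap ↥(lam A K) ↥(modularFunctionFieldFullC ↥K N) r) =
          algebraMap (AlgebraicClosure ℚ) ↥(modularFunctionFieldBar N)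
            (((r : ↥K)) : AlgebraicClosure ℚ) := Descent.toFL_algebraMap K N (r : ↥K)
      rw [h1]
      exact hS _ (mem_lam_iff.mp r.2)
    | add u v _ _ hu hv =>
      rw [map_add]
      exact S.add_mem hu hv
    | mul u v _ _ hu hv =>
      rw [map_mul]
      exact S.mul_mem hu hv
  let φ : ↥(Algebra.adjoin ↥(lam A K) ({t} : Set ↥(modularFunctionFieldFullC ↥K N))) →+* ↥S :=
    ((Descent.toFL K N).comp
      (algebraMap ↥(Algebra.adjoin ↥(lam A K) ({t} : Set ↥(modularFunctionFieldFullC ↥K N)))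
        ↥(modularFunctionFieldFullC ↥K N))).codRestrict S (fun x => hmem x.1 x.2)
  exact IsIntegral.map_of_comp_eq φ (Descent.toFL K N) (RingHom.ext fun _ => rfl) he

set_option maxHeartbeats 1000000 in
/-- a congruence modulo `ϖ` in the Gauss ring of `F_K` gives an equality of reductions -/
theorem gaussRed_eq_of_sub_eq_smul (hA : A.LiesOverPrime ℓ)
    (K : IntermediateField ℚ (AlgebraicClosure ℚ)) [FiniteDimensional ℚ ↥K]
    (ϖ : ↥(lam A K)) (hϖ : Irreducible ϖ) {a e δ : ↥(modularFunctionFieldFullC ↥K N)}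
    (ha : a ∈ GaussL.gaussV (lam A K).toSubring (lamResA A K) (modularFunctionFieldFullC ↥K N))
    (hδ : δ ∈ GaussL.gaussV (lam A K).toSubring (lamResA A K) (modularFunctionFieldFullC ↥K N))
    (h : a - e = ϖ • δ) :
    ∃ he : e ∈ GaussL.gaussV (lam A K).toSubring (lamResA A K) (modularFunctionFieldFullC ↥K N),
      GaussL.gaussRed (lam A K).toSubring (lamResA A K) (modularFunctionFieldFullC ↥K N) ⟨e, he⟩ =
        GaussL.gaussRed (lam A K).toSubring (lamResA A K) (modularFunctionFieldFullC ↥K N)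
          ⟨a, ha⟩ := by
  have hΛ := isGaussRing_lam_resA hA hϖ
  have hϖV := GaussL.algebraMap_pi_mem_gaussV (modularFunctionFieldFullC ↥K N) hΛ
  have hsm : ϖ • δ = algebraMap ↥K ↥(modularFunctionFieldFullC ↥K N) (ϖ : ↥K) * δ :=
    Algebra.smul_def ϖ δ
  have he_eq : e = a - algebraMap ↥K ↥(modularFunctionFieldFullC ↥K N) (ϖ : ↥K) * δ := by
    rw [← hsm, ← h]
    ring
  have he : e ∈ GaussL.gaussV (lam A K).toSubring (lamResA A K)
      (modularFunctionFieldFullC ↥K N) := by
    rw [he_eq]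
    exact sub_mem ha (mul_mem hϖV hδ)
  refine ⟨he, ?_⟩
  have h1 : (⟨e, he⟩ : ↥(GaussL.gaussV (lam A K).toSubring (lamResA A K)
      (modularFunctionFieldFullC ↥K N))) = ⟨a, ha⟩ - ⟨_, hϖV⟩ * ⟨δ, hδ⟩ := Subtype.ext he_eq
  rw [h1, map_sub, map_mul, GaussL.gaussRed_algebraMap_pi (modularFunctionFieldFullC ↥K N) hΛ,
    zero_mul, sub_zero]

end RadK

end Fermat.Agent.S37
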