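import Fermat.Agent.S37.IntLifts
import Fermat.Agent.S18.VjInt

/-!
P12 / S37 Tier 2, [RADK] abstract core (helper23): `radicial_gen`.

Setting: `Λ → F → 𝔽` with `𝔽 / F` a finite extension of fields of characteristic zero, a
coordinate `t ∈ 𝔽`, an element `u ∈ F` with `u = P(t) / Q(t)` (`P, Q ∈ Λ[X]` coprime, `π ∤ Q`),
`s(u) t` integral over `Λ[u]`, and `IntLifts` for the chart `t`.

Claim: if `y ∈ F` is, modulo `π`, a root of a monic polynomial with coefficients integral over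
`Λ[u]`, then some `(s(u) ^ k) ^ n y ^ n` (`n = [𝔽 : F]`) is congruent modulo `π` to an element of
`F` integral over `Λ[u]`.

Proof: `Q(t) ^ M y` is, modulo `π`, a root of a monic polynomial with coefficients integral over
`Λ[t]`; `IntLifts` gives `e` integral over `Λ[t]` congruent to it; `Q(t)⁻¹ ∈ Λ[u, t]` by Bezout, so
`s(u) ^ k Q(t) ^ (-M) e` is integral over `Λ[u]`; take norms from `𝔽` to `F`.
-/

set_option autoImplicit false

namespace Fermat.Agent.S37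

open Polynomial Fermat.Agent.S18

namespace RadicialGen

section Integral

variable {R 𝔽 : Type*} [CommRing R] [CommRing 𝔽] [Algebra R 𝔽]

/-- An element of a subalgebra is integral over it. -/
theorem isIntegral_of_mem_subalgebra {Λ : Type*} [CommRing Λ] [Algebra Λ 𝔽] (A : Subalgebra Λ 𝔽)
    {v : 𝔽} (hv : v ∈ A) : IsIntegral A v :=
  isIntegral_algebraMap (R := A) (A := 𝔽) (x := ⟨v, hv⟩)

/-- Transfer of integrality between base rings with comparable images. -/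
theorem isIntegral_of_range {R₂ : Type*} [CommRing R₂] [Algebra R₂ 𝔽]
    (h : ∀ r : R, ∃ r' : R₂, algebraMap R₂ 𝔽 r' = algebraMap R 𝔽 r) {z : 𝔽}
    (hz : IsIntegral R z) : IsIntegral R₂ z := by
  obtain ⟨p, hp, hpz⟩ := hz
  have hl : p.map (algebraMap R 𝔽) ∈ lifts (algebraMap R₂ 𝔽) :=
    (lifts_iff_coeff_lifts _).2 fun n => by
      rw [coeff_map]
      exact h (p.coeff n)
  obtain ⟨p', hp', -, hpm⟩ := lifts_and_natDegree_eq_and_monic hl (hp.map _)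
  refine ⟨p', hpm, ?_⟩
  rw [eval₂_eq_eval_map, hp', ← eval₂_eq_eval_map]
  exact hpz

/-- A root of a monic polynomial with integral coefficients is integral. -/
theorem isIntegral_of_monic_of_coeff {H : 𝔽[X]} (hH : H.Monic)
    (hc : ∀ i, IsIntegral R (H.coeff i)) {θ : 𝔽} (hθ : H.eval θ = 0) : IsIntegral R θ := by
  have hl : H ∈ lifts (algebraMap ↥(integralClosure R 𝔽) 𝔽) :=
    (lifts_iff_coeff_lifts H).2 fun n => ⟨⟨H.coeff n, hc n⟩, rfl⟩
  obtain ⟨P, hP, -, hPm⟩ := lifts_and_natDegree_eq_and_monic hl hH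
  have h1 : IsIntegral ↥(integralClosure R 𝔽) θ := ⟨P, hPm, by rw [eval₂_eq_eval_map, hP, hθ]⟩
  exact isIntegral_trans θ h1

/-- Coefficients of a scaled monic polynomial. -/
theorem isIntegral_coeff_scaleRoots {p : 𝔽[X]} (hp : p.Monic) {ρ : 𝔽} (hρ : IsIntegral R ρ)
    (hc : ∀ i, i < p.natDegree → IsIntegral R (ρ * p.coeff i)) (i : ℕ) :
    IsIntegral R ((p.scaleRoots ρ).coeff i) := by
  rw [coeff_scaleRoots]
  rcases lt_trichotomy i p.natDegree with hi | hi | hi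
  · obtain ⟨m, hm⟩ : ∃ m, p.natDegree - i = m + 1 := ⟨p.natDegree - i - 1, by omega⟩
    rw [hm, show p.coeff i * ρ ^ (m + 1) = ρ * p.coeff i * ρ ^ m by ring]
    exact (hc i hi).mul (hρ.pow _)
  · rw [hi, hp.coeff_natDegree, Nat.sub_self, pow_zero, one_mul]
    exact isIntegral_one
  · rw [coeff_eq_zero_of_natDegree_lt hi, zero_mul]
    exact isIntegral_zero

/-- Scaling a root of a monic polynomial. -/
theorem isIntegral_mul_of_scale {p : 𝔽[X]} (hp : p.Monic) {z : 𝔽} (hz : p.eval z = 0) {ρ : 𝔽}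
    (hρ : IsIntegral R ρ) (hc : ∀ i, i < p.natDegree → IsIntegral R (ρ * p.coeff i)) :
    IsIntegral R (ρ * z) := by
  refine isIntegral_of_monic_of_coeff ((monic_scaleRoots_iff ρ).mpr hp)
    (isIntegral_coeff_scaleRoots hp hρ hc) ?_
  have h := scaleRoots_eval₂_mul (p := p) (RingHom.id 𝔽) z ρ
  simp only [RingHom.id_apply, eval₂_id] at h
  rw [h, hz, mul_zero]

/-- A product of perturbed factors. -/
theorem exists_prod_add_mul {ι : Type*} (s : Finset ι) (a d : ι → 𝔽) (p : 𝔽)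
    (hp : IsIntegral R p) (ha : ∀ i ∈ s, IsIntegral R (a i)) (hd : ∀ i ∈ s, IsIntegral R (d i)) :
    ∃ ρ : 𝔽, IsIntegral R ρ ∧ ∏ i ∈ s, (a i + p * d i) = ∏ i ∈ s, a i + p * ρ := by
  classical
  induction s using Finset.induction_on with
  | empty => exact ⟨0, isIntegral_zero, by simp⟩
  | insert j s hj ih =>
    obtain ⟨ρ, hρ, h⟩ := ih (fun i hi => ha i (Finset.mem_insert_of_mem hi))
      (fun i hi => hd i (Finset.mem_insert_of_mem hi))
    have haj := ha j (Finset.mem_insert_self j s)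
    have hdj := hd j (Finset.mem_insert_self j s)
    have hprod : IsIntegral R (∏ i ∈ s, a i) :=
      IsIntegral.prod _ (fun i hi => ha i (Finset.mem_insert_of_mem hi))
    refine ⟨a j * ρ + d j * ∏ i ∈ s, a i + p * (d j * ρ),
      ((haj.mul hρ).add (hdj.mul hprod)).add (hp.mul (hdj.mul hρ)), ?_⟩
    rw [Finset.prod_insert hj, Finset.prod_insert hj, h]
    ring

end Integral

section Norm

/-- Norms of congruent integral elements are congruent. -/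
theorem exists_norm_sub_norm {F 𝔽 : Type*} [Field F] [Field 𝔽] [Algebra F 𝔽]
    [FiniteDimensional F 𝔽] [CharZero F] (W : Subring F) {p : F} (hpW : p ∈ W) (hp0 : p ≠ 0)
    {z z' d : 𝔽} (hz' : IsIntegral W z') (hd : IsIntegral W d)
    (h : z - z' = algebraMap F 𝔽 p * d) :
    ∃ δ : F, IsIntegral W δ ∧ Algebra.norm F z - Algebra.norm F z' = p * δ := by
  have hW : ∀ (σ : 𝔽 →ₐ[F] AlgebraicClosure 𝔽) {v : 𝔽}, IsIntegral W v → IsIntegral W (σ v) := by
    intro σ v hv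
    exact IsIntegral.map_of_comp_eq (RingHom.id ↥W) (σ : 𝔽 →+* AlgebraicClosure 𝔽)
      (by ext w; exact (σ.commutes (w : F)).symm) hv
  have hpE : IsIntegral W (algebraMap F (AlgebraicClosure 𝔽) p) :=
    isIntegral_algebraMap (R := ↥W) (x := (⟨p, hpW⟩ : ↥W))
  obtain ⟨ρ, hρ, hprod⟩ := exists_prod_add_mul (R := ↥W)
    (Finset.univ : Finset (𝔽 →ₐ[F] AlgebraicClosure 𝔽)) (fun σ => σ z') (fun σ => σ d)
    (algebraMap F (AlgebraicClosure 𝔽) p) hpE (fun σ _ => hW σ hz') (fun σ _ => hW σ hd)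
  have hz : z = z' + algebraMap F 𝔽 p * d := by rw [← h]; ring
  have h1 := Algebra.norm_eq_prod_embeddings F (AlgebraicClosure 𝔽) z
  have h2 := Algebra.norm_eq_prod_embeddings F (AlgebraicClosure 𝔽) z'
  have h3 : ∀ σ : 𝔽 →ₐ[F] AlgebraicClosure 𝔽,
      σ z = σ z' + algebraMap F (AlgebraicClosure 𝔽) p * σ d := by
    intro σ
    rw [hz, map_add, map_mul, σ.commutes]
  simp only [h3] at h1
  rw [hprod, ← h2] at h1
  have hp0' : algebraMap F (AlgebraicClosure 𝔽) p ≠ 0 := fun h0 =>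
    hp0 ((algebraMap F (AlgebraicClosure 𝔽)).injective (by rw [h0, map_zero]))
  refine ⟨(Algebra.norm F z - Algebra.norm F z') / p, ?_, by field_simp⟩
  rw [← isIntegral_algebraMap_iff (R := ↥W) (algebraMap F (AlgebraicClosure 𝔽)).injective]
  have h4 : algebraMap F (AlgebraicClosure 𝔽) ((Algebra.norm F z - Algebra.norm F z') / p) = ρ := by
    rw [map_div₀, map_sub, h1]
    field_simp
    ring
  rw [h4]
  exact hρ

end Norm

section Steps

variable {Λ 𝔽 F : Type*} [CommRing Λ] [Field 𝔽] [Algebra Λ 𝔽] [Field F] [Algebra Λ F]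
  [Algebra F 𝔽] [IsScalarTower Λ F 𝔽]

/-- `c Q(t) ^ M ∈ Λ[t]` for `c ∈ Λ[u]`, `u = P(t) / Q(t)`, `M` large. -/
theorem exists_pow_mul_mem {t : 𝔽} {u : F} {P Q : Λ[X]}
    (hrel : aeval t P = algebraMap F 𝔽 u * aeval t Q) {c : F}
    (hc : c ∈ Algebra.adjoin Λ ({u} : Set F)) :
    ∃ M : ℕ, ∀ M', M ≤ M' →
      aeval t Q ^ M' * algebraMap F 𝔽 c ∈ Algebra.adjoin Λ ({t} : Set 𝔽) := by
  have hθ : ∀ m : ℕ, aeval t Q ^ m ∈ Algebra.adjoin Λ ({t} : Set 𝔽) := fun m =>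
    Subalgebra.pow_mem _ (aeval_mem_adjoin_singleton Λ t) m
  induction hc using Algebra.adjoin_induction with
  | mem x hx =>
    rw [Set.mem_singleton_iff] at hx
    subst hx
    refine ⟨1, fun M' hM' => ?_⟩
    obtain ⟨m, rfl⟩ : ∃ m, M' = m + 1 := ⟨M' - 1, by omega⟩
    have h1 : aeval t Q ^ (m + 1) * algebraMap F 𝔽 x = aeval t Q ^ m * aeval t P := by
      rw [hrel]
      ring
    rw [h1]
    exact Subalgebra.mul_mem _ (hθ m) (aeval_mem_adjoin_singleton Λ t)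
  | algebraMap r =>
    refine ⟨0, fun M' _ => ?_⟩
    rw [← IsScalarTower.algebraMap_apply]
    exact Subalgebra.mul_mem _ (hθ M') (Subalgebra.algebraMap_mem _ r)
  | add a b _ _ ha hb =>
    obtain ⟨M₁, h₁⟩ := ha
    obtain ⟨M₂, h₂⟩ := hb
    refine ⟨max M₁ M₂, fun M' hM' => ?_⟩
    rw [map_add, mul_add]
    exact Subalgebra.add_mem _ (h₁ M' (le_trans (le_max_left _ _) hM'))
      (h₂ M' (le_trans (le_max_right _ _) hM'))
  | mul a b _ _ ha hb =>
    obtain ⟨M₁, h₁⟩ := ha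
    obtain ⟨M₂, h₂⟩ := hb
    refine ⟨M₁ + M₂, fun M' hM' => ?_⟩
    obtain ⟨m, rfl⟩ : ∃ m, M' = M₁ + m := ⟨M' - M₁, by omega⟩
    have h1 : aeval t Q ^ (M₁ + m) * algebraMap F 𝔽 (a * b) =
        (aeval t Q ^ M₁ * algebraMap F 𝔽 a) * (aeval t Q ^ m * algebraMap F 𝔽 b) := by
      rw [map_mul, pow_add]
      ring
    rw [h1]
    exact Subalgebra.mul_mem _ (h₁ M₁ le_rfl) (h₂ m (by omega))

/-- `c Q(t) ^ M` is integral over `Λ[t]` for `c` integral over `Λ[u]`, `M` large. -/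
theorem exists_pow_mul_isIntegral {t : 𝔽} {u : F} {P Q : Λ[X]}
    (hrel : aeval t P = algebraMap F 𝔽 u * aeval t Q) {c : F}
    (hc : IsIntegral (Algebra.adjoin Λ ({u} : Set F)) c) :
    ∃ M : ℕ, ∀ M', M ≤ M' →
      IsIntegral (Algebra.adjoin Λ ({t} : Set 𝔽)) (aeval t Q ^ M' * algebraMap F 𝔽 c) := by
  classical
  obtain ⟨p, hp, hpc⟩ := hc
  have hex : ∀ i, ∃ M : ℕ, ∀ M', M ≤ M' →
      aeval t Q ^ M' * algebraMap F 𝔽 ((p.coeff i : ↥(Algebra.adjoin Λ ({u} : Set F))) : F) ∈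
        Algebra.adjoin Λ ({t} : Set 𝔽) := fun i => exists_pow_mul_mem hrel (p.coeff i).2
  choose f hf using hex
  refine ⟨(Finset.range p.natDegree).sup f, fun M' hM' => ?_⟩
  have hp'm : (p.map (algebraMap ↥(Algebra.adjoin Λ ({u} : Set F)) 𝔽)).Monic := hp.map _
  have hroot : (p.map (algebraMap ↥(Algebra.adjoin Λ ({u} : Set F)) 𝔽)).eval
      (algebraMap F 𝔽 c) = 0 := by
    have h1 := congrArg (algebraMap F 𝔽) hpc
    rw [hom_eval₂, map_zero, ← IsScalarTower.algebraMap_eq] at h1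
    rw [eval_map]
    exact h1
  have hρ : IsIntegral (Algebra.adjoin Λ ({t} : Set 𝔽)) (aeval t Q ^ M') :=
    isIntegral_of_mem_subalgebra _ (Subalgebra.pow_mem _ (aeval_mem_adjoin_singleton Λ t) M')
  refine isIntegral_mul_of_scale hp'm hroot hρ (fun i hi => ?_)
  rw [hp.natDegree_map] at hi
  rw [coeff_map]
  exact isIntegral_of_mem_subalgebra _
    (hf i M' (le_trans (Finset.le_sup (Finset.mem_range.mpr hi)) hM'))

/-- `τ ^ k w` is integral over `Λ[u]` for `w ∈ Λ[u, t]`, `k` large, when `τ t` is. -/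
theorem exists_pow_mul_isIntegral_of_mem {t : 𝔽} {u τ : F}
    (hτ : τ ∈ Algebra.adjoin Λ ({u} : Set F))
    (hts : IsIntegral (Algebra.adjoin Λ ({u} : Set F)) (algebraMap F 𝔽 τ * t)) {w : 𝔽}
    (hw : w ∈ Algebra.adjoin Λ ({algebraMap F 𝔽 u, t} : Set 𝔽)) :
    ∃ k : ℕ, ∀ k', k ≤ k' →
      IsIntegral (Algebra.adjoin Λ ({u} : Set F)) (algebraMap F 𝔽 τ ^ k' * w) := by
  have hR : ∀ r ∈ Algebra.adjoin Λ ({u} : Set F),
      IsIntegral (Algebra.adjoin Λ ({u} : Set F)) (algebraMap F 𝔽 r) := fun r hr =>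
    isIntegral_algebraMap (R := ↥(Algebra.adjoin Λ ({u} : Set F))) (A := 𝔽) (x := ⟨r, hr⟩)
  have hτk : ∀ m : ℕ, IsIntegral (Algebra.adjoin Λ ({u} : Set F)) (algebraMap F 𝔽 τ ^ m) :=
    fun m => (hR τ hτ).pow m
  induction hw using Algebra.adjoin_induction with
  | mem x hx =>
    rcases hx with rfl | hx
    · exact ⟨0, fun k' _ => (hτk k').mul (hR u (Algebra.subset_adjoin rfl))⟩
    · rw [Set.mem_singleton_iff] at hx
      subst hx
      refine ⟨1, fun k' hk' => ?_⟩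
      obtain ⟨m, rfl⟩ : ∃ m, k' = m + 1 := ⟨k' - 1, by omega⟩
      rw [pow_succ, mul_assoc]
      exact (hτk m).mul hts
  | algebraMap r =>
    refine ⟨0, fun k' _ => (hτk k').mul ?_⟩
    rw [IsScalarTower.algebraMap_apply Λ F 𝔽]
    exact hR _ (Subalgebra.algebraMap_mem _ r)
  | add a b _ _ ha hb =>
    obtain ⟨k₁, h₁⟩ := ha
    obtain ⟨k₂, h₂⟩ := hb
    refine ⟨max k₁ k₂, fun k' hk' => ?_⟩
    rw [mul_add]
    exact (h₁ k' (le_trans (le_max_left _ _) hk')).add (h₂ k' (le_trans (le_max_right _ _) hk'))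
  | mul a b _ _ ha hb =>
    obtain ⟨k₁, h₁⟩ := ha
    obtain ⟨k₂, h₂⟩ := hb
    refine ⟨k₁ + k₂, fun k' hk' => ?_⟩
    obtain ⟨m, rfl⟩ : ∃ m, k' = k₁ + m := ⟨k' - k₁, by omega⟩
    have h1 : algebraMap F 𝔽 τ ^ (k₁ + m) * (a * b) =
        (algebraMap F 𝔽 τ ^ k₁ * a) * (algebraMap F 𝔽 τ ^ m * b) := by
      rw [pow_add]
      ring
    rw [h1]
    exact (h₁ k₁ le_rfl).mul (h₂ m (by omega))

/-- `τ ^ k z` is integral over `Λ[u]` for `z` integral over `Λ[u, t]`, some `k`. -/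
theorem exists_pow_mul_isIntegral_of_isIntegral {t : 𝔽} {u τ : F}
    (hτ : τ ∈ Algebra.adjoin Λ ({u} : Set F))
    (hts : IsIntegral (Algebra.adjoin Λ ({u} : Set F)) (algebraMap F 𝔽 τ * t)) {z : 𝔽}
    (hz : IsIntegral (Algebra.adjoin Λ ({algebraMap F 𝔽 u, t} : Set 𝔽)) z) :
    ∃ k : ℕ, IsIntegral (Algebra.adjoin Λ ({u} : Set F)) (algebraMap F 𝔽 τ ^ k * z) := by
  classical
  obtain ⟨p, hp, hpz⟩ := hz
  have hex : ∀ i, ∃ k : ℕ, ∀ k', k ≤ k' → IsIntegral (Algebra.adjoin Λ ({u} : Set F))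
      (algebraMap F 𝔽 τ ^ k' *
        ((p.coeff i : ↥(Algebra.adjoin Λ ({algebraMap F 𝔽 u, t} : Set 𝔽))) : 𝔽)) :=
    fun i => exists_pow_mul_isIntegral_of_mem hτ hts (p.coeff i).2
  choose f hf using hex
  refine ⟨(Finset.range p.natDegree).sup f, ?_⟩
  have hp'm : (p.map (algebraMap ↥(Algebra.adjoin Λ ({algebraMap F 𝔽 u, t} : Set 𝔽)) 𝔽)).Monic :=
    hp.map _
  have hroot : (p.map (algebraMap ↥(Algebra.adjoin Λ ({algebraMap F 𝔽 u, t} : Set 𝔽)) 𝔽)).eval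
      z = 0 := by
    rw [eval_map]
    exact hpz
  have hρ : IsIntegral (Algebra.adjoin Λ ({u} : Set F))
      (algebraMap F 𝔽 τ ^ (Finset.range p.natDegree).sup f) :=
    (isIntegral_algebraMap (R := ↥(Algebra.adjoin Λ ({u} : Set F))) (A := 𝔽) (x := ⟨τ, hτ⟩)).pow _
  refine isIntegral_mul_of_scale hp'm hroot hρ (fun i hi => ?_)
  rw [hp.natDegree_map] at hi
  rw [coeff_map]
  exact hf i _ (Finset.le_sup (Finset.mem_range.mpr hi))

end Steps

end RadicialGen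

open RadicialGen in
/-- **RADK, abstract unified form.** -/
theorem radicial_gen {Λ 𝔽 F : Type*} [CommRing Λ] [Field 𝔽] [Algebra Λ 𝔽] [CharZero 𝔽]
    [Field F] [Algebra Λ F] [Algebra F 𝔽] [IsScalarTower Λ F 𝔽] [FiniteDimensional F 𝔽]
    (π : Λ) (hπ : Prime π) (hπ0 : algebraMap Λ F π ≠ 0) (t : 𝔽) (u : F)
    (P Q s : Λ[X]) (hPQ : IsCoprime P Q) (hQ : ¬ C π ∣ Q) (hQ0 : aeval t Q ≠ 0)
    (hrel : aeval t P = algebraMap F 𝔽 u * aeval t Q)
    (hts : IsIntegral (Algebra.adjoin Λ ({u} : Set F)) (algebraMap F 𝔽 (aeval u s) * t))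
    (W : Subring F) (hπW : algebraMap Λ F π ∈ W)
    (hVW : ∀ z : 𝔽, IsIntegral (gaussSub π hπ t) z → IsIntegral W z)
    (hlift : IntLifts (gaussSub π hπ t) π t)
    (y : F) (hy : IsIntegral (gaussSub π hπ t) (algebraMap F 𝔽 y))
    (q : F[X]) (hq : q.Monic)
    (hqc : ∀ i, IsIntegral (Algebra.adjoin Λ ({u} : Set F)) (q.coeff i))
    (hqy : ∃ δ : 𝔽, IsIntegral (gaussSub π hπ t) δ ∧ algebraMap F 𝔽 (q.eval y) = π • δ) :
    ∃ (n k : ℕ) (b : F), 0 < n ∧ IsIntegral (Algebra.adjoin Λ ({u} : Set F)) b ∧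
      ∃ δ : F, IsIntegral W δ ∧ (aeval u s ^ k) ^ n * y ^ n - b = π • δ := by
  classical
  have : CharZero F := (algebraMap F 𝔽).charZero
  -- basic memberships
  have hθV : aeval t Q ∈ gaussSub π hπ t := aeval_mem_gaussSub π hπ t Q
  have hθiV : (aeval t Q)⁻¹ ∈ gaussSub π hπ t :=
    ⟨1, Q, hQ, by rw [inv_mul_cancel₀ hQ0, map_one]⟩
  have huV : algebraMap F 𝔽 u ∈ gaussSub π hπ t := ⟨P, Q, hQ, hrel.symm⟩
  have hτV : IsIntegral (gaussSub π hπ t) (algebraMap F 𝔽 (aeval u s)) := by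
    rw [← aeval_algebraMap_apply]
    exact VjInt.isIntegral_aeval hπ (VjInt.isIntegral_of_mem_subring _ huV) s
  have hτR : aeval u s ∈ Algebra.adjoin Λ ({u} : Set F) := aeval_mem_adjoin_singleton Λ u
  have hθVi : IsIntegral (gaussSub π hπ t) (aeval t Q) := VjInt.isIntegral_of_mem_subring _ hθV
  -- the scaled polynomial
  obtain ⟨δ₀, hδ₀, hqδ⟩ := hqy
  have hex : ∀ i, ∃ M : ℕ, ∀ M', M ≤ M' → IsIntegral (Algebra.adjoin Λ ({t} : Set 𝔽))
      (aeval t Q ^ M' * algebraMap F 𝔽 (q.coeff i)) := fun i =>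
    exists_pow_mul_isIntegral hrel (hqc i)
  choose f hf using hex
  obtain ⟨M, hM⟩ : ∃ M : ℕ, M = (Finset.range q.natDegree).sup f := ⟨_, rfl⟩
  have hq'm : (q.map (algebraMap F 𝔽)).Monic := hq.map _
  have hθM : IsIntegral (Algebra.adjoin Λ ({t} : Set 𝔽)) (aeval t Q ^ M) :=
    isIntegral_of_mem_subalgebra _ (Subalgebra.pow_mem _ (aeval_mem_adjoin_singleton Λ t) M)
  have hcoef : ∀ i, IsIntegral (Algebra.adjoin Λ ({t} : Set 𝔽))
      (((q.map (algebraMap F 𝔽)).scaleRoots (aeval t Q ^ M)).coeff i) := by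
    refine isIntegral_coeff_scaleRoots hq'm hθM (fun i hi => ?_)
    rw [hq.natDegree_map] at hi
    rw [coeff_map]
    exact hf i M (hM ▸ Finset.le_sup (Finset.mem_range.mpr hi))
  have hεV : IsIntegral (gaussSub π hπ t) (aeval t Q ^ M * algebraMap F 𝔽 y) :=
    (hθVi.pow M).mul hy
  have heval : ((q.map (algebraMap F 𝔽)).scaleRoots (aeval t Q ^ M)).eval
      (aeval t Q ^ M * algebraMap F 𝔽 y) =
      π • ((aeval t Q ^ M) ^ (q.map (algebraMap F 𝔽)).natDegree * δ₀) := by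
    have h := scaleRoots_eval₂_mul (p := q.map (algebraMap F 𝔽)) (RingHom.id 𝔽)
      (algebraMap F 𝔽 y) (aeval t Q ^ M)
    simp only [RingHom.id_apply, eval₂_id] at h
    rw [h, eval_map_apply, hqδ, mul_smul_comm]
  obtain ⟨e, he, δ₁, hδ₁, heq⟩ := hlift (aeval t Q ^ M * algebraMap F 𝔽 y) hεV
    ⟨(q.map (algebraMap F 𝔽)).scaleRoots (aeval t Q ^ M), (monic_scaleRoots_iff _).mpr hq'm,
      hcoef, (aeval t Q ^ M) ^ (q.map (algebraMap F 𝔽)).natDegree * δ₀,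
      ((hθVi.pow M).pow _).mul hδ₀, heval⟩
  -- Bezout: `Q(t)⁻¹ ∈ Λ[u, t]`
  obtain ⟨a, b, hab⟩ := hPQ
  have hθinv : (aeval t Q)⁻¹ = aeval t a * algebraMap F 𝔽 u + aeval t b := by
    have h1 := congrArg (aeval t) hab
    rw [map_add, map_mul, map_mul, map_one, hrel] at h1
    exact (eq_inv_of_mul_eq_one_left (by linear_combination h1)).symm
  have hAB : Algebra.adjoin Λ ({t} : Set 𝔽) ≤
      Algebra.adjoin Λ ({algebraMap F 𝔽 u, t} : Set 𝔽) :=
    Algebra.adjoin_mono (by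
      intro v hv
      exact Set.mem_insert_of_mem _ hv)
  have huB : algebraMap F 𝔽 u ∈ Algebra.adjoin Λ ({algebraMap F 𝔽 u, t} : Set 𝔽) :=
    Algebra.subset_adjoin (Set.mem_insert _ _)
  have hθiB : (aeval t Q)⁻¹ ∈ Algebra.adjoin Λ ({algebraMap F 𝔽 u, t} : Set 𝔽) := by
    rw [hθinv]
    exact Subalgebra.add_mem _
      (Subalgebra.mul_mem _ (hAB (aeval_mem_adjoin_singleton Λ t)) huB)
      (hAB (aeval_mem_adjoin_singleton Λ t))
  have heB : IsIntegral (Algebra.adjoin Λ ({algebraMap F 𝔽 u, t} : Set 𝔽)) e :=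
    isIntegral_of_range (fun r => ⟨⟨r.1, hAB r.2⟩, rfl⟩) he
  have he'B : IsIntegral (Algebra.adjoin Λ ({algebraMap F 𝔽 u, t} : Set 𝔽))
      ((aeval t Q)⁻¹ ^ M * e) :=
    (isIntegral_of_mem_subalgebra _ (Subalgebra.pow_mem _ hθiB M)).mul heB
  obtain ⟨k, hk⟩ := exists_pow_mul_isIntegral_of_isIntegral hτR hts he'B
  -- the congruence in `𝔽`
  have hδ₃V : IsIntegral (gaussSub π hπ t)
      (algebraMap F 𝔽 (aeval u s) ^ k * ((aeval t Q)⁻¹ ^ M * δ₁)) :=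
    (hτV.pow k).mul (((VjInt.isIntegral_of_mem_subring _ hθiV).pow M).mul hδ₁)
  have hzV : IsIntegral (gaussSub π hπ t) (algebraMap F 𝔽 (aeval u s ^ k * y)) := by
    rw [map_mul, map_pow]
    exact (hτV.pow k).mul hy
  have hdiff : algebraMap F 𝔽 (aeval u s ^ k * y) -
      algebraMap F 𝔽 (aeval u s) ^ k * ((aeval t Q)⁻¹ ^ M * e) =
      algebraMap F 𝔽 (algebraMap Λ F π) *
        (algebraMap F 𝔽 (aeval u s) ^ k * ((aeval t Q)⁻¹ ^ M * δ₁)) := by
    have h1 : (aeval t Q)⁻¹ ^ M * aeval t Q ^ M = 1 := by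
      rw [← mul_pow, inv_mul_cancel₀ hQ0, one_pow]
    rw [Algebra.smul_def] at heq
    rw [← IsScalarTower.algebraMap_apply, map_mul, map_pow]
    linear_combination (algebraMap F 𝔽 (aeval u s) ^ k * (aeval t Q)⁻¹ ^ M) * heq -
      (algebraMap F 𝔽 (aeval u s) ^ k * algebraMap F 𝔽 y) * h1
  -- integrality over `W`
  have hπFW : IsIntegral W (algebraMap F 𝔽 (algebraMap Λ F π)) :=
    isIntegral_algebraMap (R := ↥W) (A := 𝔽) (x := ⟨_, hπW⟩)
  have hzW := hVW _ hzV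
  have hδ₃W := hVW _ hδ₃V
  have he''W : IsIntegral W (algebraMap F 𝔽 (aeval u s) ^ k * ((aeval t Q)⁻¹ ^ M * e)) := by
    have h1 : algebraMap F 𝔽 (aeval u s) ^ k * ((aeval t Q)⁻¹ ^ M * e) =
        algebraMap F 𝔽 (aeval u s ^ k * y) - algebraMap F 𝔽 (algebraMap Λ F π) *
          (algebraMap F 𝔽 (aeval u s) ^ k * ((aeval t Q)⁻¹ ^ M * δ₁)) := by
      rw [← hdiff]
      ring
    rw [h1]
    exact hzW.sub (hπFW.mul hδ₃W)
  obtain ⟨δ, hδ, hnorm⟩ := exists_norm_sub_norm W hπW hπ0 he''W hδ₃W hdiff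
  refine ⟨Module.finrank F 𝔽, k, Algebra.norm F
    (algebraMap F 𝔽 (aeval u s) ^ k * ((aeval t Q)⁻¹ ^ M * e)), Module.finrank_pos,
    Algebra.isIntegral_norm F hk, δ, hδ, ?_⟩
  rw [Algebra.norm_algebraMap, mul_pow] at hnorm
  rw [Algebra.smul_def]
  exact hnorm

end Fermat.Agent.S37
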