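import Fermat.Agent.S37.RedPtExtra

/-!
P12 / S37, module [TORI] (bridges): the fibres of the reduction of places in terms of a chart
subring `𝔅 ⊂ F_L` generated by `A` and `ι C_S`, and the coefficients of `redDiv D`.

* `iotaSub S 𝔅 h : chartAlg N ℓ S →+* 𝔅` — `ι` with values in a subring containing `ι C_S`;
* `redPt_eq_inl_iff_of_closure`, `redPt_eq_inr_iff_of_closure` — for `ψ : 𝔅 →+* k` extending
  the residue map of `A`: `redPt P = inl (ψ ∘ ι)` iff `𝔅 ⊂ W_P` and `res ∘ ev_P = ψ` on `𝔅`;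
  (the generating set `G` of `𝔅` is a parameter: any set of elements `a ∈ A`, `ι f`, `f ∈ C_S`).
-/

set_option autoImplicit false
set_option linter.unusedSectionVars false

namespace Fermat.Agent.S37

open AlgebraicCurve ModularCurve ModularCurve.IgusaScheme

section Bridge

variable {N : ℕ} [NeZero N] {ℓ : ℕ} [Fact ℓ.Prime] {A : ValuationSubring (AlgebraicClosure ℚ)}

/-- `ι` on a chart, with values in a subring of `F_L` containing the image. -/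
noncomputable def iotaSub (S : Set (modularFunctionFieldFull N))
    (𝔅 : Subring (modularFunctionFieldBar N))
    (h : ∀ f ∈ chartAlg N ℓ S, iotaFull N f ∈ 𝔅) : chartAlg N ℓ S →+* 𝔅 :=
  RingHom.codRestrict ((iotaFull N).comp (chartAlg N ℓ S).val.toRingHom) 𝔅 (fun f => h f f.2)

@[simp]
theorem coe_iotaSub (S : Set (modularFunctionFieldFull N))
    (𝔅 : Subring (modularFunctionFieldBar N))
    (h : ∀ f ∈ chartAlg N ℓ S, iotaFull N f ∈ 𝔅) (f : chartAlg N ℓ S) :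
    (iotaSub S 𝔅 h f : modularFunctionFieldBar N) = iotaFull N f :=
  rfl

/-- A subring generated by `A` and the image of a chart lies in `W_P` as soon as the chart
does, and a ring homomorphism `ψ` on it extending the residue map of `A` agrees with the
reduced evaluation at `P` as soon as it does so on the chart. -/
theorem le_aIntBar_and_resEvBar_eq_of_closure
    (P : Place (AlgebraicClosure ℚ) (modularFunctionFieldBar N))
    (S : Set (modularFunctionFieldFull N)) (𝔅 : Subring (modularFunctionFieldBar N))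
    (hAB : ∀ a ∈ A, algebraMap (AlgebraicClosure ℚ) (modularFunctionFieldBar N) a ∈ 𝔅)
    (hιB : ∀ f ∈ chartAlg N ℓ S, iotaFull N f ∈ 𝔅)
    (G : Set (modularFunctionFieldBar N)) (hgen : 𝔅 ≤ Subring.closure G)
    (hG : ∀ x ∈ G, (∃ a ∈ A, x = algebraMap (AlgebraicClosure ℚ) (modularFunctionFieldBar N) a) ∨
      ∃ f ∈ chartAlg N ℓ S, x = iotaFull N f)
    (ψ : 𝔅 →+* IsLocalRing.ResidueField A)
    (hψ : ∀ (a : AlgebraicClosure ℚ) (ha : a ∈ A),
      ψ ⟨algebraMap (AlgebraicClosure ℚ) (modularFunctionFieldBar N) a, hAB a ha⟩ =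
        IsLocalRing.residue A ⟨a, ha⟩)
    (hS : ∀ f ∈ chartAlg N ℓ S, iotaFull N f ∈ aIntBar N A P)
    (hχ : ∀ (f : modularFunctionFieldFull N) (hf : f ∈ chartAlg N ℓ S),
      resEvBar N A P ⟨iotaFull N f, hS f hf⟩ = ψ ⟨iotaFull N f, hιB f hf⟩) :
    ∃ h : 𝔅 ≤ (aIntBar N A P).toSubring, ∀ b : 𝔅, resEvBar N A P ⟨b, h b.2⟩ = ψ b := by
  have hcl𝔅 : Subring.closure G ≤ 𝔅 := by
    rw [Subring.closure_le]
    intro x hx
    rcases hG x hx with ⟨a, ha, rfl⟩ | ⟨f, hf, rfl⟩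
    · exact hAB a ha
    · exact hιB f hf
  have hclW : Subring.closure G ≤ (aIntBar N A P).toSubring := by
    rw [Subring.closure_le]
    intro x hx
    rcases hG x hx with ⟨a, ha, rfl⟩ | ⟨f, hf, rfl⟩
    · exact algebraMap_mem_aInt _ A P ha
    · exact hS f hf
  have hW : 𝔅 ≤ (aIntBar N A P).toSubring := hgen.trans hclW
  refine ⟨hW, ?_⟩
  have key : ∀ x (hx : x ∈ Subring.closure G),
      resEvBar N A P ⟨x, hclW hx⟩ = ψ ⟨x, hcl𝔅 hx⟩ := by
    intro x hx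
    induction hx using Subring.closure_induction with
    | mem x hx =>
      rcases hG x hx with ⟨a, ha, rfl⟩ | ⟨f, hf, rfl⟩
      · rw [hψ a ha]
        exact resEv_algebraMap _ A P ha
      · exact hχ f hf
    | zero =>
      have h1 : (⟨0, hclW (zero_mem _)⟩ : aIntBar N A P) = 0 := rfl
      have h2 : (⟨0, hcl𝔅 (zero_mem _)⟩ : 𝔅) = 0 := rfl
      rw [h1, h2, map_zero, map_zero]
    | one =>
      have h1 : (⟨1, hclW (one_mem _)⟩ : aIntBar N A P) = 1 := rfl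
      have h2 : (⟨1, hcl𝔅 (one_mem _)⟩ : 𝔅) = 1 := rfl
      rw [h1, h2, map_one, map_one]
    | add x y hx hy ihx ihy =>
      have h1 : (⟨x + y, hclW (add_mem hx hy)⟩ : aIntBar N A P) =
          ⟨x, hclW hx⟩ + ⟨y, hclW hy⟩ := rfl
      have h2 : (⟨x + y, hcl𝔅 (add_mem hx hy)⟩ : 𝔅) = ⟨x, hcl𝔅 hx⟩ + ⟨y, hcl𝔅 hy⟩ := rfl
      rw [h1, h2, map_add, map_add, ihx, ihy]
    | neg x hx ihx =>
      have h1 : (⟨-x, hclW (neg_mem hx)⟩ : aIntBar N A P) = -⟨x, hclW hx⟩ := rfl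
      have h2 : (⟨-x, hcl𝔅 (neg_mem hx)⟩ : 𝔅) = -⟨x, hcl𝔅 hx⟩ := rfl
      rw [h1, h2, map_neg, map_neg, ihx]
    | mul x y hx hy ihx ihy =>
      have h1 : (⟨x * y, hclW (mul_mem hx hy)⟩ : aIntBar N A P) =
          ⟨x, hclW hx⟩ * ⟨y, hclW hy⟩ := rfl
      have h2 : (⟨x * y, hcl𝔅 (mul_mem hx hy)⟩ : 𝔅) = ⟨x, hcl𝔅 hx⟩ * ⟨y, hcl𝔅 hy⟩ := rfl
      rw [h1, h2, map_mul, map_mul, ihx, ihy]
  intro b
  exact key b (hgen b.2)

/-- **Fibres of `redPt`, finite chart**: for a subring `𝔅` generated by `A` and `ι C_fin` and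
`ψ : 𝔅 →+* k` extending the residue map of `A`, the places reducing to the finite point `ψ ∘ ι`
are exactly the places `P` with `𝔅 ⊂ W_P` and `res ∘ ev_P = ψ` on `𝔅`. -/
theorem redPt_eq_inl_iff_of_closure (hA : A.LiesOverPrime ℓ)
    (P : Place (AlgebraicClosure ℚ) (modularFunctionFieldBar N))
    (𝔅 : Subring (modularFunctionFieldBar N))
    (hAB : ∀ a ∈ A, algebraMap (AlgebraicClosure ℚ) (modularFunctionFieldBar N) a ∈ 𝔅)
    (hιB : ∀ f ∈ chartAlgFin N ℓ, iotaFull N f ∈ 𝔅)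
    (G : Set (modularFunctionFieldBar N)) (hgen : 𝔅 ≤ Subring.closure G)
    (hG : ∀ x ∈ G, (∃ a ∈ A, x = algebraMap (AlgebraicClosure ℚ) (modularFunctionFieldBar N) a) ∨
      ∃ f ∈ chartAlgFin N ℓ, x = iotaFull N f)
    (ψ : 𝔅 →+* IsLocalRing.ResidueField A)
    (hψ : ∀ (a : AlgebraicClosure ℚ) (ha : a ∈ A),
      ψ ⟨algebraMap (AlgebraicClosure ℚ) (modularFunctionFieldBar N) a, hAB a ha⟩ =
        IsLocalRing.residue A ⟨a, ha⟩) :
    redPt N ℓ A hA P = Sum.inl (ψ.comp (iotaSub {jFull N} 𝔅 hιB)) ↔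
      ∃ h : 𝔅 ≤ (aIntBar N A P).toSubring, ∀ b : 𝔅, resEvBar N A P ⟨b, h b.2⟩ = ψ b := by
  rw [redPt_eq_inl_iff']
  constructor
  · rintro ⟨h, hχ⟩
    exact le_aIntBar_and_resEvBar_eq_of_closure P {jFull N} 𝔅 hAB hιB G hgen hG ψ hψ
      (fun f hf => h ⟨f, hf⟩) (fun f hf => hχ ⟨f, hf⟩)
  · rintro ⟨h, hb⟩
    exact ⟨fun f => h (hιB f f.2), fun f => hb ⟨iotaFull N f, hιB f f.2⟩⟩

/-- **Fibres of `redPt`, chart at infinity**. -/
theorem redPt_eq_inr_iff_of_closure (hA : A.LiesOverPrime ℓ)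
    (P : Place (AlgebraicClosure ℚ) (modularFunctionFieldBar N))
    (𝔅 : Subring (modularFunctionFieldBar N))
    (hAB : ∀ a ∈ A, algebraMap (AlgebraicClosure ℚ) (modularFunctionFieldBar N) a ∈ 𝔅)
    (hιB : ∀ f ∈ chartAlgInf N ℓ, iotaFull N f ∈ 𝔅)
    (G : Set (modularFunctionFieldBar N)) (hgen : 𝔅 ≤ Subring.closure G)
    (hG : ∀ x ∈ G, (∃ a ∈ A, x = algebraMap (AlgebraicClosure ℚ) (modularFunctionFieldBar N) a) ∨
      ∃ f ∈ chartAlgInf N ℓ, x = iotaFull N f)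
    (ψ : 𝔅 →+* IsLocalRing.ResidueField A)
    (hψ : ∀ (a : AlgebraicClosure ℚ) (ha : a ∈ A),
      ψ ⟨algebraMap (AlgebraicClosure ℚ) (modularFunctionFieldBar N) a, hAB a ha⟩ =
        IsLocalRing.residue A ⟨a, ha⟩)
    (h0 : (ψ.comp (iotaSub {(jFull N)⁻¹} 𝔅 hιB)) (jInvChartInf N ℓ) = 0) :
    redPt N ℓ A hA P = Sum.inr ⟨ψ.comp (iotaSub {(jFull N)⁻¹} 𝔅 hιB), h0⟩ ↔
      ∃ h : 𝔅 ≤ (aIntBar N A P).toSubring, ∀ b : 𝔅, resEvBar N A P ⟨b, h b.2⟩ = ψ b := by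
  rw [redPt_eq_inr_iff']
  constructor
  · rintro ⟨h, hχ⟩
    exact le_aIntBar_and_resEvBar_eq_of_closure P {(jFull N)⁻¹} 𝔅 hAB hιB G hgen hG ψ hψ
      (fun f hf => h ⟨f, hf⟩) (fun f hf => hχ ⟨f, hf⟩)
  · rintro ⟨h, hb⟩
    exact ⟨fun f => h (hιB f f.2), fun f => hb ⟨iotaFull N f, hιB f f.2⟩⟩

end Bridge

end Fermat.Agent.S37
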