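import Fermat.Agent.S37.TorsionInstAbs
import Fermat.Agent.S37.RadKFinal

/-!
P12 / S37, module [TORI] (final): the statement (G′), `GPrimeProp N ℓ A hA q`, for `ℓ ∤ N`
(`TorsionInstAbs.gPrimeProp_of` with the radicial lifting (RAD) of `RadKFinal`).
-/

set_option autoImplicit false

namespace Fermat.Agent.S37

variable {N : ℕ} [NeZero N] {ℓ : ℕ} [Fact ℓ.Prime] {A : ValuationSubring (AlgebraicClosure ℚ)}

/-- **(G′)**: for `ℓ ∤ N`, if `q • D = div u`, `u = c • Y₁ / Y₂` and `D` reduces to zero, then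
the reduction of `Y₁ / Y₂` has neither zeros nor poles on the special fibre. -/
theorem gPrimeProp (hA : A.LiesOverPrime ℓ) (hℓN : ¬ ℓ ∣ N) (q : ℕ) : GPrimeProp N ℓ A hA q :=
  TorsionInst.gPrimeProp_of hA hℓN (RadK.rad_fin_tor hA hℓN) (RadK.rad_inf_tor hA hℓN) q

/-- (G′) in the shape of the hypothesis `hG` of `torsionInj_of`. -/
theorem hG_of_not_dvd (hA : A.LiesOverPrime ℓ) (hℓN : ¬ ℓ ∣ N) :
    ∀ q : ℕ, q.Prime → q ≠ ℓ → GPrimeProp N ℓ A hA q :=
  fun q _ _ => gPrimeProp hA hℓN q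

end Fermat.Agent.S37
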