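import Mathlib
import Fermat.Prelude.Def_FLTPrelim_Ramification
import Fermat.Agent.S05.Inertia
import Fermat.Agent.S54.Frobenius
import Fermat.Agent.S37.Frob

set_option autoImplicit false

/-!
# S37: roots of unity of order prime to `ℓ` are unramified at `ℓ`

Let `A` be a valuation subring of `ℚ̄` over the prime `ℓ`, and `ζ` a root of unity of order prime
to `ℓ`.  Then every nonzero element of `ℚ(ζ)` has the valuation of a power of `ℓ`
(`valuation_eq_zpow_of_mul_eq_aeval`), and every nonzero element of the residue field of `A` is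
the residue of such a root of unity (`exists_rootOfUnity_residue_eq`).
-/

namespace Fermat.Agent.S37

open Polynomial Fermat.Agent.S54

local notation "Ω" => AlgebraicClosure ℚ

section Core

variable (A : ValuationSubring (AlgebraicClosure ℚ)) {ℓ : ℕ}

/-- Evaluation of integer polynomials at an element of `A`. -/
noncomputable def evA (z : A) : ℤ[X] →+* A := eval₂RingHom (Int.castRingHom A) z

theorem evA_coe (z : A) (P : ℤ[X]) : ((evA A z P : A) : Ω) = aeval (z : Ω) P := by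
  have h4 : (algebraMap ℤ Ω) = (A.subtype).comp (Int.castRingHom A) := RingHom.ext_int _ _
  show A.subtype (eval₂ (Int.castRingHom A) z P) = eval₂ (algebraMap ℤ Ω) (z : Ω) P
  rw [h4]
  exact Polynomial.hom_eval₂ P (Int.castRingHom A) A.subtype z

/-- Reduction of `evA`: evaluation of the reduced polynomial at the residue. -/
theorem residue_evA [Fact ℓ.Prime] [CharP (IsLocalRing.ResidueField A) ℓ] (z : A) (P : ℤ[X]) :
    IsLocalRing.residue A (evA A z P) =
      eval₂ (ZMod.castHom (dvd_refl ℓ) (IsLocalRing.ResidueField A)) (IsLocalRing.residue A z)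
        (P.map (Int.castRingHom (ZMod ℓ))) := by
  have h1 : (ZMod.castHom (dvd_refl ℓ) (IsLocalRing.ResidueField A)).comp
      (Int.castRingHom (ZMod ℓ)) = (IsLocalRing.residue A).comp (Int.castRingHom A) :=
    RingHom.ext_int _ _
  rw [Polynomial.eval₂_map, h1]
  show IsLocalRing.residue A (eval₂ (Int.castRingHom A) z P) = _
  rw [Polynomial.hom_eval₂]

/-- **Key step.** If `ζ ^ n = 1` with `ℓ ∤ n` and `P(ζ)` is a nonunit of `A`, then
`P(ζ) · U(ζ) = ℓ · T(ζ)` with `U(ζ)` a unit of `A`. -/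
theorem exists_evA_mul_eq (hℓ : ℓ.Prime) (hA : A.LiesOverPrime ℓ) {n : ℕ} (hn : ¬ ℓ ∣ n)
    {z : A} (hz : z ^ n = 1) {P : ℤ[X]} (hP : A.valuation ((evA A z P : A) : Ω) < 1) :
    ∃ U T : ℤ[X], A.valuation ((evA A z U : A) : Ω) = 1 ∧
      evA A z P * evA A z U = (ℓ : A) * evA A z T := by
  classical
  have : Fact ℓ.Prime := ⟨hℓ⟩
  have := charP_residueField A hℓ hA
  set k := IsLocalRing.ResidueField A
  set F := ZMod ℓ
  set c : ℤ →+* F := Int.castRingHom F
  set ι : F →+* k := ZMod.castHom (dvd_refl ℓ) k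
  set zbar : k := IsLocalRing.residue A z
  let ev : F[X] →+* k := eval₂RingHom ι zbar
  have hev : ∀ Q : ℤ[X], IsLocalRing.residue A (evA A z Q) = ev (Q.map c) :=
    fun Q => residue_evA A z Q
  -- the polynomial `X ^ n - 1` over `F`
  have hnF : (n : F) ≠ 0 := by
    rw [Ne, ZMod.natCast_eq_zero_iff]
    exact hn
  set Wbar : F[X] := X ^ n - C 1
  have hWsep : Wbar.Separable := separable_X_pow_sub_C 1 hnF one_ne_zero
  have hevW : ev Wbar = 0 := by
    show eval₂ ι zbar (X ^ n - C 1) = 0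
    rw [eval₂_sub, eval₂_pow, eval₂_X, eval₂_C, map_one, ← map_pow, hz, map_one, sub_self]
  set Pbar : F[X] := P.map c
  have hevP : ev Pbar = 0 := by
    rw [← hev, IsLocalRing.residue_eq_zero_iff, A.valuation_lt_one_iff]
    exact hP
  -- the gcd
  set G : F[X] := EuclideanDomain.gcd Pbar Wbar
  obtain ⟨Ubar, hU⟩ : G ∣ Wbar := EuclideanDomain.gcd_dvd_right _ _
  obtain ⟨P1bar, hP1⟩ : G ∣ Pbar := EuclideanDomain.gcd_dvd_left _ _
  have hevG : ev G = 0 := by
    have h := EuclideanDomain.gcd_eq_gcd_ab Pbar Wbar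
    show ev (EuclideanDomain.gcd Pbar Wbar) = 0
    rw [h, map_add, map_mul, map_mul, hevP, hevW, zero_mul, zero_mul, add_zero]
  have hcop : IsCoprime G Ubar := by
    rw [hU] at hWsep
    exact hWsep.isCoprime
  have hevU : ev Ubar ≠ 0 := by
    obtain ⟨a, b, hab⟩ := hcop
    intro h0
    have h1 := congrArg ev hab
    rw [map_add, map_mul, map_mul, hevG, h0, mul_zero, mul_zero, add_zero, map_one] at h1
    exact zero_ne_one h1
  -- lifts
  obtain ⟨U, hUl⟩ := Polynomial.map_surjective c (ZMod.intCast_surjective) Ubar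
  obtain ⟨P1, hP1l⟩ := Polynomial.map_surjective c (ZMod.intCast_surjective) P1bar
  have hD : (P * U - P1 * (X ^ n - C 1)).map c = 0 := by
    rw [Polynomial.map_sub, Polynomial.map_mul, Polynomial.map_mul, hUl, hP1l,
      Polynomial.map_sub, Polynomial.map_pow, Polynomial.map_X, Polynomial.map_C, map_one]
    show Pbar * Ubar - P1bar * Wbar = 0
    rw [hU, hP1]
    ring
  obtain ⟨T, hT⟩ : C (ℓ : ℤ) ∣ (P * U - P1 * (X ^ n - C 1)) := by
    rw [Polynomial.C_dvd_iff_dvd_coeff]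
    intro i
    have h1 := congrArg (fun Q : F[X] => Q.coeff i) hD
    simp only [Polynomial.coeff_map, Polynomial.coeff_zero] at h1
    exact (ZMod.intCast_zmod_eq_zero_iff_dvd _ _).mp h1
  refine ⟨U, T, ?_, ?_⟩
  · -- `U(ζ)` is a unit
    refine le_antisymm ((A.valuation_le_one_iff _).mpr (evA A z U).2) (not_lt.mp fun hlt => ?_)
    apply hevU
    rw [← hUl, ← hev, IsLocalRing.residue_eq_zero_iff, A.valuation_lt_one_iff]
    exact hlt
  · have h1 := congrArg (evA A z) hT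
    have hX : evA A z X = z := eval₂_X _ _
    have hC1 : evA A z (C 1) = 1 := by rw [map_one]; exact map_one _
    have hCl : evA A z (C (ℓ : ℤ)) = (ℓ : A) := by
      show eval₂ (Int.castRingHom A) z (C (ℓ : ℤ)) = _
      rw [eval₂_C]
      simp
    rw [map_sub, map_mul, map_mul, map_sub, map_pow, hX, hC1, hz, sub_self, mul_zero, sub_zero,
      map_mul, hCl] at h1
    exact h1

/-- The valuation of a nonzero integer is a power of the valuation of `ℓ`. -/
theorem valuation_intCast_eq_pow (hℓ : ℓ.Prime) (hA : A.LiesOverPrime ℓ) {c : ℤ} (hc : c ≠ 0) :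
    ∃ M : ℕ, A.valuation ((c : ℤ) : Ω) = A.valuation ((ℓ : ℕ) : Ω) ^ M := by
  have hfin : FiniteMultiplicity (ℓ : ℤ) c := by
    rw [Int.finiteMultiplicity_iff]
    exact ⟨by simpa using hℓ.ne_one, hc⟩
  obtain ⟨c', hc', hdvd⟩ := hfin.exists_eq_pow_mul_and_not_dvd
  refine ⟨multiplicity (ℓ : ℤ) c, ?_⟩
  have h1 : ((c : ℤ) : Ω) = ((ℓ : ℕ) : Ω) ^ multiplicity (ℓ : ℤ) c * ((c' : ℤ) : Ω) := by
    conv_lhs => rw [hc']
    push_cast
    ring
  rw [h1, map_mul, map_pow, Fermat.Agent.S05.valuation_intCast_eq_one hℓ hA hdvd, mul_one]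

/-- A nonzero algebraic integer has valuation at least that of a power of `ℓ`. -/
theorem exists_pow_le_valuation_of_isIntegral (hℓ : ℓ.Prime) (hA : A.LiesOverPrime ℓ) {b : Ω}
    (hb : IsIntegral ℤ b) (hb0 : b ≠ 0) :
    ∃ M : ℕ, A.valuation ((ℓ : ℕ) : Ω) ^ M ≤ A.valuation b := by
  set g := minpoly ℤ b
  have hbQ : IsIntegral ℚ b := hb.tower_top
  have hc0 : g.coeff 0 ≠ 0 := by
    intro h0
    have h1 := minpoly.isIntegrallyClosed_eq_field_fractions' ℚ hb
    have h2 := minpoly.coeff_zero_ne_zero hbQ hb0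
    rw [h1, Polynomial.coeff_map] at h2
    exact h2 (by rw [show (minpoly ℤ b).coeff 0 = 0 from h0, map_zero])
  have h1 : aeval b g = 0 := minpoly.aeval ℤ b
  have h2 : aeval b (divX g) * b + ((g.coeff 0 : ℤ) : Ω) = 0 := by
    have := congrArg (aeval b) (divX_mul_X_add g)
    rw [map_add, map_mul, aeval_X, aeval_C, h1] at this
    simpa using this
  have hint : IsIntegral ℤ (aeval b (divX g)) := by
    rw [← Polynomial.aeval_subalgebra_coe (divX g) (integralClosure ℤ Ω) ⟨b, hb⟩]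
    exact (aeval (⟨b, hb⟩ : integralClosure ℤ Ω) (divX g)).2
  have hv1 : A.valuation (aeval b (divX g)) ≤ 1 :=
    (A.valuation_le_one_iff _).mpr (mem_of_isIntegral_int A hint)
  have hv2 : A.valuation ((g.coeff 0 : ℤ) : Ω) ≤ A.valuation b := by
    have h3 : ((g.coeff 0 : ℤ) : Ω) = -(aeval b (divX g) * b) := by linear_combination h2
    rw [h3, Valuation.map_neg, map_mul]
    exact mul_le_of_le_one_left' hv1
  obtain ⟨M, hM⟩ := valuation_intCast_eq_pow A hℓ hA hc0
  exact ⟨M, hM ▸ hv2⟩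

theorem valuation_prime_ne_zero (hℓ : ℓ.Prime) : A.valuation ((ℓ : ℕ) : Ω) ≠ 0 := by
  rw [Ne, map_eq_zero]
  exact_mod_cast hℓ.ne_zero

/-- Values of integer polynomials at a root of unity of order prime to `ℓ` have the valuation
of a power of `ℓ`. -/
theorem valuation_evA_eq_pow (hℓ : ℓ.Prime) (hA : A.LiesOverPrime ℓ) {n : ℕ} (hn : ¬ ℓ ∣ n)
    {z : A} (hz : z ^ n = 1) (P : ℤ[X]) (hP0 : evA A z P ≠ 0) :
    ∃ m : ℕ, A.valuation ((evA A z P : A) : Ω) = A.valuation ((ℓ : ℕ) : Ω) ^ m := by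
  have hℓ0 := valuation_prime_ne_zero A hℓ
  have key : ∀ M : ℕ, ∀ P : ℤ[X], evA A z P ≠ 0 →
      A.valuation ((ℓ : ℕ) : Ω) ^ M ≤ A.valuation ((evA A z P : A) : Ω) →
      ∃ m : ℕ, A.valuation ((evA A z P : A) : Ω) = A.valuation ((ℓ : ℕ) : Ω) ^ m := by
    intro M
    induction M with
    | zero =>
      intro P _ hle
      refine ⟨0, ?_⟩
      rw [pow_zero] at hle ⊢
      exact le_antisymm ((A.valuation_le_one_iff _).mpr (evA A z P).2) hle
    | succ M ih =>
      intro P hP0 hle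
      by_cases h1 : A.valuation ((evA A z P : A) : Ω) < 1
      · obtain ⟨U, T, hU, hUT⟩ := exists_evA_mul_eq A hℓ hA hn hz h1
        have hval : A.valuation ((evA A z P : A) : Ω) =
            A.valuation ((ℓ : ℕ) : Ω) * A.valuation ((evA A z T : A) : Ω) := by
          have h3 := congrArg (fun a : A => A.valuation (a : Ω)) hUT
          simp only [MulMemClass.coe_mul, map_mul] at h3
          rw [hU, mul_one] at h3
          simpa using h3
        have hT0 : evA A z T ≠ 0 := by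
          intro h0
          rw [h0] at hval
          simp only [ZeroMemClass.coe_zero, map_zero, mul_zero] at hval
          rw [map_eq_zero] at hval
          exact hP0 (Subtype.ext hval)
        have hle' : A.valuation ((ℓ : ℕ) : Ω) ^ M ≤ A.valuation ((evA A z T : A) : Ω) := by
          rw [hval, pow_succ'] at hle
          exact le_of_mul_le_mul_left hle (zero_lt_iff.mpr hℓ0)
        obtain ⟨m, hm⟩ := ih T hT0 hle'
        exact ⟨m + 1, by rw [hval, hm, pow_succ']⟩
      · refine ⟨0, ?_⟩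
        rw [pow_zero]
        exact le_antisymm ((A.valuation_le_one_iff _).mpr (evA A z P).2) (not_lt.mp h1)
  have hn0 : 0 < n := Nat.pos_of_ne_zero (by rintro rfl; exact hn (dvd_zero ℓ))
  have hzint : IsIntegral ℤ (z : Ω) := by
    refine IsIntegral.of_pow hn0 ?_
    have : (z : Ω) ^ n = 1 := by exact_mod_cast congrArg (fun a : A => (a : Ω)) hz
    rw [this]
    exact isIntegral_one
  have hint : IsIntegral ℤ ((evA A z P : A) : Ω) := by
    rw [evA_coe, ← Polynomial.aeval_subalgebra_coe P (integralClosure ℤ Ω) ⟨(z : Ω), hzint⟩]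
    exact (aeval (⟨(z : Ω), hzint⟩ : integralClosure ℤ Ω) P).2
  have hne : ((evA A z P : A) : Ω) ≠ 0 := fun h => hP0 (Subtype.ext h)
  obtain ⟨M, hM⟩ := exists_pow_le_valuation_of_isIntegral A hℓ hA hint hne
  exact key M P hP0 hM

/-- **Roots of unity of order prime to `ℓ` generate an extension unramified at `ℓ`**, explicit
form: if `c * x = P(ζ)` with `c` a nonzero integer, `P` an integer polynomial and `ζ ^ n = 1`,
`ℓ ∤ n`, then the valuation of `x ≠ 0` is an integral power of the valuation of `ℓ`. -/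
theorem valuation_eq_zpow_of_mul_eq_aeval (hℓ : ℓ.Prime) (hA : A.LiesOverPrime ℓ) {n : ℕ}
    (hn : ¬ ℓ ∣ n) {ζ : Ω} (hζ : ζ ^ n = 1) {c : ℤ} (hc : c ≠ 0) {P : ℤ[X]} {x : Ω}
    (hx0 : x ≠ 0) (hx : ((c : ℤ) : Ω) * x = aeval ζ P) :
    ∃ m : ℤ, A.valuation x = A.valuation ((ℓ : ℕ) : Ω) ^ m := by
  have hℓ0 := valuation_prime_ne_zero A hℓ
  have hn0 : 0 < n := Nat.pos_of_ne_zero (by rintro rfl; exact hn (dvd_zero ℓ))
  have hζint : IsIntegral ℤ ζ := by
    refine IsIntegral.of_pow hn0 ?_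
    rw [hζ]
    exact isIntegral_one
  set z : A := ⟨ζ, mem_of_isIntegral_int A hζint⟩
  have hz : z ^ n = 1 := Subtype.ext (by simpa using hζ)
  have hc0 : ((c : ℤ) : Ω) ≠ 0 := by exact_mod_cast hc
  have hP0 : evA A z P ≠ 0 := by
    intro h0
    have h1 := evA_coe A z P
    rw [h0] at h1
    have h2 : aeval ζ P = 0 := h1.symm
    rw [← hx] at h2
    exact mul_ne_zero hc0 hx0 h2
  obtain ⟨m, hm⟩ := valuation_evA_eq_pow A hℓ hA hn hz P hP0
  obtain ⟨M, hM⟩ := valuation_intCast_eq_pow A hℓ hA hc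
  rw [evA_coe] at hm
  have h3 : A.valuation ((c : ℤ) : Ω) * A.valuation x = A.valuation ((ℓ : ℕ) : Ω) ^ m := by
    rw [← map_mul, hx]
    exact hm
  refine ⟨(m : ℤ) - (M : ℤ), ?_⟩
  rw [zpow_sub₀ hℓ0, zpow_natCast, zpow_natCast, ← h3, hM]
  field_simp

/-- Roots of unity are in `A`. -/
theorem mem_of_pow_eq_one {n : ℕ} (hn0 : n ≠ 0) {ζ : Ω} (hζ : ζ ^ n = 1) : ζ ∈ A := by
  refine mem_of_isIntegral_int A (IsIntegral.of_pow (Nat.pos_of_ne_zero hn0) ?_)
  rw [hζ]
  exact isIntegral_one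

/-- Two distinct `n`-th roots of unity, `ℓ ∤ n`, stay distinct in the residue field: their
difference is a unit of `A`. -/
theorem valuation_sub_eq_one_of_pow_eq_one (hℓ : ℓ.Prime) (hA : A.LiesOverPrime ℓ) {n : ℕ}
    (hn : ¬ ℓ ∣ n) {ζ₁ ζ₂ : Ω} (h₁ : ζ₁ ^ n = 1) (h₂ : ζ₂ ^ n = 1) (hne : ζ₁ ≠ ζ₂) :
    A.valuation (ζ₁ - ζ₂) = 1 := by
  have hn0 : n ≠ 0 := by rintro rfl; exact hn (dvd_zero ℓ)
  have hζ₁0 : ζ₁ ≠ 0 := by
    rintro rfl
    rw [zero_pow hn0] at h₁
    exact zero_ne_one h₁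
  have hmem : ∀ {ζ : Ω}, ζ ^ n = 1 → A.valuation ζ = 1 := by
    intro ζ hζ
    have h := congrArg A.valuation hζ
    rw [map_pow, map_one] at h
    rcases pow_eq_one_iff.mp h with h | h
    · exact h
    · exact absurd h hn0
  set ξ : Ω := ζ₂ / ζ₁ with hξdef
  have hξn : ξ ^ n = 1 := by rw [hξdef, div_pow, h₁, h₂, div_one]
  have hξ1 : ξ ≠ 1 := by
    intro h
    rw [hξdef, div_eq_one_iff_eq hζ₁0] at h
    exact hne h.symm
  -- `n = (1 - ξ) * W`
  have hgeom : ∑ i ∈ Finset.range n, ξ ^ i = 0 := by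
    have h := mul_neg_geom_sum ξ n
    rw [hξn, sub_self] at h
    rcases mul_eq_zero.mp h with h | h
    · exact absurd (sub_eq_zero.mp h).symm hξ1
    · exact h
  set W : Ω := ∑ i ∈ Finset.range n, ∑ j ∈ Finset.range i, ξ ^ j with hW
  have hnW : (n : Ω) = (1 - ξ) * W := by
    have h1 : (n : Ω) = ∑ i ∈ Finset.range n, (1 - ξ ^ i) := by
      rw [Finset.sum_sub_distrib, hgeom]
      simp
    rw [h1, hW, Finset.mul_sum]
    refine Finset.sum_congr rfl fun i _ => ?_
    rw [mul_neg_geom_sum]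
  have hξint : IsIntegral ℤ ξ := by
    refine IsIntegral.of_pow (Nat.pos_of_ne_zero hn0) ?_
    rw [hξn]
    exact isIntegral_one
  have hWint : IsIntegral ℤ W :=
    IsIntegral.sum _ fun i _ => IsIntegral.sum _ fun j _ => hξint.pow j
  have hW1 : A.valuation W ≤ 1 := (A.valuation_le_one_iff _).mpr (mem_of_isIntegral_int A hWint)
  have hvn : A.valuation ((n : ℕ) : Ω) = 1 := Fermat.Agent.S05.valuation_natCast_eq_one hℓ hA hn
  have h1ξ : A.valuation (1 - ξ) ≤ 1 :=
    (A.valuation_le_one_iff _).mpr (mem_of_isIntegral_int A (isIntegral_one.sub hξint))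
  have h2 : A.valuation (1 - ξ) = 1 := by
    refine le_antisymm h1ξ ?_
    have h3 : A.valuation (1 - ξ) * A.valuation W = 1 := by rw [← map_mul, ← hnW, hvn]
    calc (1 : A.ValueGroup) = A.valuation (1 - ξ) * A.valuation W := h3.symm
      _ ≤ A.valuation (1 - ξ) * 1 := by gcongr
      _ = A.valuation (1 - ξ) := mul_one _
  have h4 : ζ₁ - ζ₂ = ζ₁ * (1 - ξ) := by
    rw [hξdef]
    field_simp
  rw [h4, map_mul, hmem h₁, h2, mul_one]

/-- Every nonzero element of the residue field of `A` is the residue of a root of unity of order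
prime to `ℓ`. -/
theorem exists_rootOfUnity_residue_eq (hℓ : ℓ.Prime) (hA : A.LiesOverPrime ℓ)
    (y : IsLocalRing.ResidueField A) (hy : y ≠ 0) :
    ∃ (n : ℕ) (z : A), ¬ ℓ ∣ n ∧ z ^ n = 1 ∧ IsLocalRing.residue A z = y := by
  obtain ⟨m, hm, hym⟩ := exists_pow_prime_pow_eq A hℓ hA y
  have hpos : 1 < ℓ ^ m := Nat.one_lt_pow hm.ne' hℓ.one_lt
  set N : ℕ := ℓ ^ m - 1 with hN
  have hN0 : N ≠ 0 := by omega
  have hNℓ : ¬ ℓ ∣ N := by
    intro hdvd
    have h1 : ℓ ∣ ℓ ^ m := dvd_pow_self ℓ hm.ne'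
    have h2 : ℓ ∣ ℓ ^ m - N := Nat.dvd_sub h1 hdvd
    have h3 : ℓ ^ m - N = 1 := by omega
    rw [h3] at h2
    exact hℓ.one_lt.ne' (Nat.dvd_one.mp h2)
  have hyN : y ^ N = 1 := by
    have h1 : y ^ N * y = y := by
      rw [← pow_succ, hN, Nat.sub_add_cancel hpos.le, hym]
    exact mul_right_cancel₀ hy (by rw [h1, one_mul])
  have : NeZero ((N : ℕ) : ℚ) := ⟨by exact_mod_cast hN0⟩
  have : NeZero N := ⟨hN0⟩
  obtain ⟨ξ, hξ⟩ := HasEnoughRootsOfUnity.exists_primitiveRoot Ω N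
  have hξA : ξ ∈ A := mem_of_pow_eq_one A hN0 hξ.pow_eq_one
  set z : A := ⟨ξ, hξA⟩ with hz
  have hzN : z ^ N = 1 := Subtype.ext (by simpa using hξ.pow_eq_one)
  have hprim : IsPrimitiveRoot (IsLocalRing.residue A z) N := by
    refine IsPrimitiveRoot.mk_of_lt _ (Nat.pos_of_ne_zero hN0) ?_ ?_
    · rw [← map_pow, hzN, map_one]
    · intro d hd0 hdN h1
      have h2 : A.valuation (ξ ^ d - 1) = 1 := by
        refine valuation_sub_eq_one_of_pow_eq_one A hℓ hA hNℓ ?_ (one_pow N) ?_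
        · rw [← pow_mul, mul_comm, pow_mul, hξ.pow_eq_one, one_pow]
        · exact hξ.pow_ne_one_of_pos_of_lt hd0.ne' hdN
      rw [← map_pow, ← sub_eq_zero, ← map_one (IsLocalRing.residue A), ← map_sub,
        IsLocalRing.residue_eq_zero_iff, A.valuation_lt_one_iff] at h1
      have h3 : ((z ^ d - 1 : A) : Ω) = ξ ^ d - 1 := by simp [hz]
      rw [h3, h2] at h1
      exact lt_irrefl _ h1
  obtain ⟨i, -, hi⟩ := hprim.eq_pow_of_pow_eq_one hyN
  refine ⟨N, z ^ i, hNℓ, ?_, ?_⟩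
  · rw [← pow_mul, mul_comm, pow_mul, hzN, one_pow]
  · rw [map_pow, hi]

end Core

end Fermat.Agent.S37
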