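import Mathlib
import Fermat.Prelude.Def_FLTPrelim_Ramification
import Fermat.Agent.S37.Unram

set_option autoImplicit false

/-!
# S37: the field `K₀ = ℚ(ζ_n : ℓ ∤ n)`

* `unramK ℓ : IntermediateField ℚ ℚ̄` generated by the roots of unity of order prime to `ℓ`;
* `valuation_eq_zpow_of_mem_unramK`: the value group of `K₀` is generated by the value of `ℓ`;
* `apply_eq_of_mem_inertia_of_mem_unramK`: the inertia group of `A` fixes `K₀` pointwise;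
* `apply_eq_pow_of_isFrobeniusAt`: a Frobenius element raises the roots of unity of order prime
  to `ℓ` to the `ℓ`-th power.
-/

namespace Fermat.Agent.S37

open Polynomial Fermat.Agent.S54

local notation "Ω" => AlgebraicClosure ℚ

/-- The roots of unity of order prime to `ℓ`. -/
def primeToRoots (ℓ : ℕ) : Set (AlgebraicClosure ℚ) := {ζ | ∃ n : ℕ, ¬ ℓ ∣ n ∧ ζ ^ n = 1}

/-- The field `ℚ(ζ_n : ℓ ∤ n)`. -/
noncomputable def unramK (ℓ : ℕ) : IntermediateField ℚ (AlgebraicClosure ℚ) :=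
  IntermediateField.adjoin ℚ (primeToRoots ℓ)

theorem mem_unramK_of_pow_eq_one {ℓ n : ℕ} (hn : ¬ ℓ ∣ n) {ζ : Ω} (hζ : ζ ^ n = 1) :
    ζ ∈ unramK ℓ :=
  IntermediateField.subset_adjoin ℚ _ ⟨n, hn, hζ⟩

section Explicit

variable {ℓ : ℕ}

/-- Two roots of unity of order prime to `ℓ` are powers of a common one. -/
theorem exists_common_root (hℓ : ℓ.Prime) {n₁ n₂ : ℕ} (h₁ : ¬ ℓ ∣ n₁) (h₂ : ¬ ℓ ∣ n₂)
    {ζ₁ ζ₂ : Ω} (hζ₁ : ζ₁ ^ n₁ = 1) (hζ₂ : ζ₂ ^ n₂ = 1) :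
    ∃ (N : ℕ) (ξ : Ω) (i₁ i₂ : ℕ), ¬ ℓ ∣ N ∧ ξ ^ N = 1 ∧ ξ ^ i₁ = ζ₁ ∧ ξ ^ i₂ = ζ₂ := by
  have hN : ¬ ℓ ∣ n₁ * n₂ := fun h => (hℓ.dvd_mul.mp h).elim h₁ h₂
  have hN0 : n₁ * n₂ ≠ 0 := by
    intro h0
    rw [h0] at hN
    exact hN (dvd_zero ℓ)
  have : NeZero (((n₁ * n₂ : ℕ)) : ℚ) := ⟨by exact_mod_cast hN0⟩
  have : NeZero (n₁ * n₂) := ⟨hN0⟩
  obtain ⟨ξ, hξ⟩ := HasEnoughRootsOfUnity.exists_primitiveRoot Ω (n₁ * n₂)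
  have e₁ : ζ₁ ^ (n₁ * n₂) = 1 := by rw [pow_mul, hζ₁, one_pow]
  have e₂ : ζ₂ ^ (n₁ * n₂) = 1 := by rw [mul_comm, pow_mul, hζ₂, one_pow]
  obtain ⟨i₁, -, hi₁⟩ := hξ.eq_pow_of_pow_eq_one e₁
  obtain ⟨i₂, -, hi₂⟩ := hξ.eq_pow_of_pow_eq_one e₂
  exact ⟨n₁ * n₂, ξ, i₁, i₂, hN, hξ.pow_eq_one, hi₁, hi₂⟩

/-- Explicit form of the elements of `K₀`: `c * x = P(ζ)`. -/
def IsCyc (ℓ : ℕ) (x : AlgebraicClosure ℚ) : Prop :=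
  ∃ (n : ℕ) (ζ : AlgebraicClosure ℚ) (c : ℤ) (P : ℤ[X]),
    ¬ ℓ ∣ n ∧ ζ ^ n = 1 ∧ c ≠ 0 ∧ ((c : ℤ) : AlgebraicClosure ℚ) * x = aeval ζ P

theorem IsCyc.change {x : Ω} {ζ ξ : Ω} {c : ℤ} {P : ℤ[X]} {i : ℕ}
    (hx : ((c : ℤ) : Ω) * x = aeval ζ P) (hi : ξ ^ i = ζ) :
    ((c : ℤ) : Ω) * x = aeval ξ (P.comp (X ^ i)) := by
  rw [aeval_comp, map_pow, aeval_X, hi, hx]

theorem isCyc_add (hℓ : ℓ.Prime) {x y : Ω} (hx : IsCyc ℓ x) (hy : IsCyc ℓ y) :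
    IsCyc ℓ (x + y) := by
  obtain ⟨n₁, ζ₁, c₁, P₁, h₁, hζ₁, hc₁, hx⟩ := hx
  obtain ⟨n₂, ζ₂, c₂, P₂, h₂, hζ₂, hc₂, hy⟩ := hy
  obtain ⟨N, ξ, i₁, i₂, hN, hξ, hi₁, hi₂⟩ := exists_common_root hℓ h₁ h₂ hζ₁ hζ₂
  have hx' := IsCyc.change hx hi₁
  have hy' := IsCyc.change hy hi₂
  refine ⟨N, ξ, c₁ * c₂, C c₂ * P₁.comp (X ^ i₁) + C c₁ * P₂.comp (X ^ i₂), hN, hξ,
    mul_ne_zero hc₁ hc₂, ?_⟩
  rw [map_add, map_mul, map_mul, aeval_C, aeval_C, ← hx', ← hy']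
  simp only [eq_intCast, Int.cast_mul]
  ring

theorem isCyc_mul (hℓ : ℓ.Prime) {x y : Ω} (hx : IsCyc ℓ x) (hy : IsCyc ℓ y) :
    IsCyc ℓ (x * y) := by
  obtain ⟨n₁, ζ₁, c₁, P₁, h₁, hζ₁, hc₁, hx⟩ := hx
  obtain ⟨n₂, ζ₂, c₂, P₂, h₂, hζ₂, hc₂, hy⟩ := hy
  obtain ⟨N, ξ, i₁, i₂, hN, hξ, hi₁, hi₂⟩ := exists_common_root hℓ h₁ h₂ hζ₁ hζ₂
  have hx' := IsCyc.change hx hi₁
  have hy' := IsCyc.change hy hi₂
  refine ⟨N, ξ, c₁ * c₂, P₁.comp (X ^ i₁) * P₂.comp (X ^ i₂), hN, hξ,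
    mul_ne_zero hc₁ hc₂, ?_⟩
  rw [map_mul, ← hx', ← hy']
  simp only [Int.cast_mul]
  ring

theorem isCyc_algebraMap (hℓ : ℓ.Prime) (r : ℚ) : IsCyc ℓ (algebraMap ℚ Ω r) := by
  refine ⟨1, 1, r.den, C r.num, ?_, one_pow 1, by exact_mod_cast r.den_ne_zero, ?_⟩
  · intro h
    exact hℓ.one_lt.ne' (Nat.dvd_one.mp h)
  · rw [aeval_C]
    have h := Rat.den_mul_eq_num r
    have h2 : algebraMap ℚ Ω ((r.den : ℚ) * r) = algebraMap ℚ Ω (r.num : ℚ) := by rw [h]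
    rw [map_mul] at h2
    simpa using h2

theorem isCyc_of_mem_primeToRoots {ζ : Ω} (hζ : ζ ∈ primeToRoots ℓ) : IsCyc ℓ ζ := by
  obtain ⟨n, hn, hζn⟩ := hζ
  exact ⟨n, ζ, 1, X, hn, hζn, one_ne_zero, by simp⟩

/-- Every element of `K₀` has the explicit form `c * x = P(ζ)`. -/
theorem isCyc_of_mem_unramK (hℓ : ℓ.Prime) {x : Ω} (hx : x ∈ unramK ℓ) : IsCyc ℓ x := by
  have halg : ∀ ζ ∈ primeToRoots ℓ, IsAlgebraic ℚ ζ := fun ζ _ =>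
    Algebra.IsAlgebraic.isAlgebraic ζ
  have h1 : x ∈ (unramK ℓ).toSubalgebra := hx
  unfold unramK at h1
  rw [IntermediateField.adjoin_toSubalgebra_of_isAlgebraic halg] at h1
  clear hx
  induction h1 using Algebra.adjoin_induction with
  | mem y hy => exact isCyc_of_mem_primeToRoots hy
  | algebraMap r => exact isCyc_algebraMap hℓ r
  | add y z _ _ hy hz => exact isCyc_add hℓ hy hz
  | mul y z _ _ hy hz => exact isCyc_mul hℓ hy hz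

end Explicit

section Valuation

variable (A : ValuationSubring (AlgebraicClosure ℚ)) {ℓ : ℕ}

/-- **`K₀` is unramified at `ℓ`**: the valuation of a nonzero element of `K₀` is an integral
power of the valuation of `ℓ`. -/
theorem valuation_eq_zpow_of_mem_unramK (hℓ : ℓ.Prime) (hA : A.LiesOverPrime ℓ) {x : Ω}
    (hx : x ∈ unramK ℓ) (hx0 : x ≠ 0) :
    ∃ m : ℤ, A.valuation x = A.valuation ((ℓ : ℕ) : Ω) ^ m := by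
  obtain ⟨n, ζ, c, P, hn, hζ, hc, hxP⟩ := isCyc_of_mem_unramK hℓ hx
  exact valuation_eq_zpow_of_mul_eq_aeval A hℓ hA hn hζ hc hx0 hxP

/-- The inertia group fixes the roots of unity of order prime to `ℓ`. -/
theorem apply_eq_of_mem_inertia_of_pow_eq_one (hℓ : ℓ.Prime) (hA : A.LiesOverPrime ℓ)
    {τ : Ω ≃ₐ[ℚ] Ω} (hτ : τ ∈ A.inertiaSubgroupIn ℚ) {n : ℕ} (hn : ¬ ℓ ∣ n) {ζ : Ω}
    (hζ : ζ ^ n = 1) : τ ζ = ζ := by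
  by_contra hne
  have hn0 : n ≠ 0 := by rintro rfl; exact hn (dvd_zero ℓ)
  have h1 : (τ ζ) ^ n = 1 := by rw [← map_pow, hζ, map_one]
  have h2 := valuation_sub_eq_one_of_pow_eq_one A hℓ hA hn h1 hζ hne
  have h3 := valuation_apply_sub_lt_of_mem_inertia hτ (mem_of_pow_eq_one A hn0 hζ)
  rw [h2] at h3
  exact lt_irrefl _ h3

/-- The inertia group of `A` fixes `K₀` pointwise. -/
theorem apply_eq_of_mem_inertia_of_mem_unramK (hℓ : ℓ.Prime) (hA : A.LiesOverPrime ℓ)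
    {τ : Ω ≃ₐ[ℚ] Ω} (hτ : τ ∈ A.inertiaSubgroupIn ℚ) {x : Ω} (hx : x ∈ unramK ℓ) :
    τ x = x := by
  have halg : ∀ ζ ∈ primeToRoots ℓ, IsAlgebraic ℚ ζ := fun ζ _ =>
    Algebra.IsAlgebraic.isAlgebraic ζ
  have h1 : x ∈ (unramK ℓ).toSubalgebra := hx
  unfold unramK at h1
  rw [IntermediateField.adjoin_toSubalgebra_of_isAlgebraic halg] at h1
  have hle : Algebra.adjoin ℚ (primeToRoots ℓ) ≤
      AlgHom.equalizer (τ : Ω →ₐ[ℚ] Ω) (AlgHom.id ℚ Ω) := by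
    refine Algebra.adjoin_le ?_
    rintro ζ ⟨n, hn, hζ⟩
    exact apply_eq_of_mem_inertia_of_pow_eq_one A hℓ hA hτ hn hζ
  exact hle h1

/-- A Frobenius element raises the roots of unity of order prime to `ℓ` to the `ℓ`-th power. -/
theorem apply_eq_pow_of_isFrobeniusAt (hℓ : ℓ.Prime) (hA : A.LiesOverPrime ℓ)
    {σ : Ω ≃ₐ[ℚ] Ω} (hσ : A.IsFrobeniusAt σ ℓ) {n : ℕ} (hn : ¬ ℓ ∣ n) {ζ : Ω}
    (hζ : ζ ^ n = 1) : σ ζ = ζ ^ ℓ := by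
  by_contra hne
  have hn0 : n ≠ 0 := by rintro rfl; exact hn (dvd_zero ℓ)
  have h1 : (σ ζ) ^ n = 1 := by rw [← map_pow, hζ, map_one]
  have h1' : (ζ ^ ℓ) ^ n = 1 := by rw [← pow_mul, mul_comm, pow_mul, hζ, one_pow]
  have h2 := valuation_sub_eq_one_of_pow_eq_one A hℓ hA hn h1 h1' hne
  have h3 := valuation_apply_sub_pow_lt_of_isFrobeniusAt hσ (mem_of_pow_eq_one A hn0 hζ)
  rw [h2] at h3
  exact lt_irrefl _ h3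

end Valuation

end Fermat.Agent.S37
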