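import Fermat.Agent.S37.ChartModel

set_option autoImplicit false

/-!
# S37 (Tier 2, [WC]): basic properties of `Zset` / `Zsum`

Consumer-facing utilities on the zero-counting function `Zsum hF A 𝔅 ψ a`
(`ChartModel.lean`): finiteness and nonnegativity (`wc0`), expression as a finite sum,
additivity, positivity criteria, and the trivial direction "a zero at a place reducing to `ψ`
forces `ψ a = 0`".
-/

namespace Fermat.Agent.S37

open AlgebraicCurve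

variable {Ω F : Type*} [Field Ω] [Field F] [Algebra Ω F] [IsAlgClosed Ω] [CharZero Ω]

/-- (Z0) An element `a ≠ 0` of `𝔅` has finitely many zeros among the places reducing to `ψ`, and
no poles there. -/
theorem wc0 (hF : IsFF Ω F) (A : ValuationSubring Ω) (𝔅 : Subring F)
    (ψ : 𝔅 →+* IsLocalRing.ResidueField A) {a : F} (ha : a ∈ 𝔅) (ha0 : a ≠ 0) :
    {P | P ∈ Zset hF A 𝔅 ψ ∧ P.ord a ≠ 0}.Finite ∧ ∀ P ∈ Zset hF A 𝔅 ψ, 0 ≤ P.ord a := by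
  refine ⟨(hF.finite_setOf_ord_ne_zero ha0).subset fun P hP => hP.2, ?_⟩
  rintro P ⟨h, -⟩
  exact (S24.PlacesBasic.mem_iff_ord_nonneg P ha0).mp (aInt_le hF A P (h ha))

/-- No poles on `Zset`, also for `a = 0`. -/
theorem ord_nonneg_of_mem_Zset (hF : IsFF Ω F) (A : ValuationSubring Ω) (𝔅 : Subring F)
    (ψ : 𝔅 →+* IsLocalRing.ResidueField A) {a : F} (ha : a ∈ 𝔅) {P : Place Ω F}
    (hP : P ∈ Zset hF A 𝔅 ψ) : 0 ≤ P.ord a := by
  by_cases ha0 : a = 0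
  · rw [ha0, Place.ord_zero]
  · exact (wc0 hF A 𝔅 ψ ha ha0).2 P hP

omit [CharZero Ω] in
/-- (Z5) `Zsum` as a finite sum over any finset of places of `Zset` containing the zeros. -/
theorem Zsum_eq_sum (hF : IsFF Ω F) (A : ValuationSubring Ω) (𝔅 : Subring F)
    (ψ : 𝔅 →+* IsLocalRing.ResidueField A) {a : F} (t : Finset (Place Ω F))
    (ht : ∀ P, P ∈ Zset hF A 𝔅 ψ → P.ord a ≠ 0 → P ∈ t) (ht' : ∀ P ∈ t, P ∈ Zset hF A 𝔅 ψ) :
    Zsum hF A 𝔅 ψ a = ∑ P ∈ t, P.ord a := by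
  unfold Zsum
  apply finsum_mem_eq_sum_of_inter_support_eq
  ext P
  simp only [Set.mem_inter_iff, Function.mem_support, Finset.mem_coe]
  constructor
  · rintro ⟨hZ, hs⟩
    exact ⟨ht P hZ hs, hs⟩
  · rintro ⟨hPt, hs⟩
    exact ⟨ht' P hPt, hs⟩

/-- The finite set of zeros of `a ≠ 0` among the places reducing to `ψ`. -/
theorem finite_Zset_inter_support (hF : IsFF Ω F) (A : ValuationSubring Ω) (𝔅 : Subring F)
    (ψ : 𝔅 →+* IsLocalRing.ResidueField A) {a : F} (ha0 : a ≠ 0) :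
    (Zset hF A 𝔅 ψ ∩ Function.support fun P : Place Ω F => P.ord a).Finite :=
  (hF.finite_setOf_ord_ne_zero ha0).subset fun _ hP => hP.2

/-- `Zsum` as the sum over the canonical finset of zeros. -/
theorem Zsum_eq_sum_toFinset (hF : IsFF Ω F) (A : ValuationSubring Ω) (𝔅 : Subring F)
    (ψ : 𝔅 →+* IsLocalRing.ResidueField A) {a : F} (ha0 : a ≠ 0) :
    Zsum hF A 𝔅 ψ a = ∑ P ∈ (finite_Zset_inter_support hF A 𝔅 ψ ha0).toFinset, P.ord a := by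
  apply Zsum_eq_sum
  · intro P hP hs
    rw [Set.Finite.mem_toFinset]
    exact ⟨hP, hs⟩
  · intro P hP
    rw [Set.Finite.mem_toFinset] at hP
    exact hP.1

omit [CharZero Ω] in
@[simp]
theorem Zsum_zero (hF : IsFF Ω F) (A : ValuationSubring Ω) (𝔅 : Subring F)
    (ψ : 𝔅 →+* IsLocalRing.ResidueField A) : Zsum hF A 𝔅 ψ 0 = 0 := by
  unfold Zsum
  simp

omit [CharZero Ω] in
@[simp]
theorem Zsum_one (hF : IsFF Ω F) (A : ValuationSubring Ω) (𝔅 : Subring F)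
    (ψ : 𝔅 →+* IsLocalRing.ResidueField A) : Zsum hF A 𝔅 ψ 1 = 0 := by
  unfold Zsum
  simp

/-- (Z1) `Zsum` is nonnegative on `𝔅`. -/
theorem Zsum_nonneg (hF : IsFF Ω F) (A : ValuationSubring Ω) (𝔅 : Subring F)
    (ψ : 𝔅 →+* IsLocalRing.ResidueField A) {a : F} (ha : a ∈ 𝔅) : 0 ≤ Zsum hF A 𝔅 ψ a := by
  unfold Zsum
  exact finsum_mem_induction (fun z : ℤ => 0 ≤ z) le_rfl (fun _ _ hx hy => add_nonneg hx hy)
    (fun P hP => ord_nonneg_of_mem_Zset hF A 𝔅 ψ ha hP)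

/-- (Z2) `Zsum` is additive (membership in `𝔅` is not needed). -/
theorem Zsum_mul' (hF : IsFF Ω F) (A : ValuationSubring Ω) (𝔅 : Subring F)
    (ψ : 𝔅 →+* IsLocalRing.ResidueField A) {a b : F} (ha0 : a ≠ 0) (hb0 : b ≠ 0) :
    Zsum hF A 𝔅 ψ (a * b) = Zsum hF A 𝔅 ψ a + Zsum hF A 𝔅 ψ b := by
  unfold Zsum
  rw [← finsum_mem_add_distrib' (finite_Zset_inter_support hF A 𝔅 ψ ha0)
    (finite_Zset_inter_support hF A 𝔅 ψ hb0)]
  exact finsum_mem_congr rfl fun P _ => P.ord_mul ha0 hb0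

/-- (Z2) `Zsum` is additive. -/
theorem Zsum_mul (hF : IsFF Ω F) (A : ValuationSubring Ω) (𝔅 : Subring F)
    (ψ : 𝔅 →+* IsLocalRing.ResidueField A) {a b : F} (_ha : a ∈ 𝔅) (_hb : b ∈ 𝔅) (ha0 : a ≠ 0)
    (hb0 : b ≠ 0) : Zsum hF A 𝔅 ψ (a * b) = Zsum hF A 𝔅 ψ a + Zsum hF A 𝔅 ψ b :=
  Zsum_mul' hF A 𝔅 ψ ha0 hb0

/-- (Z2) `Zsum` of a power. -/
theorem Zsum_pow (hF : IsFF Ω F) (A : ValuationSubring Ω) (𝔅 : Subring F)
    (ψ : 𝔅 →+* IsLocalRing.ResidueField A) (a : F) (n : ℕ) :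
    Zsum hF A 𝔅 ψ (a ^ n) = n * Zsum hF A 𝔅 ψ a := by
  by_cases ha0 : a = 0
  · rcases Nat.eq_zero_or_pos n with rfl | hn
    · simp
    · rw [ha0, zero_pow hn.ne', Zsum_zero, mul_zero]
  · induction n with
    | zero => simp
    | succ n ih =>
      rw [pow_succ, Zsum_mul' hF A 𝔅 ψ (pow_ne_zero n ha0) ha0, ih]
      push_cast
      ring

/-- (Z3) `Zsum` is positive iff `a` has a zero among the places reducing to `ψ`. -/
theorem Zsum_pos_iff (hF : IsFF Ω F) (A : ValuationSubring Ω) (𝔅 : Subring F)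
    (ψ : 𝔅 →+* IsLocalRing.ResidueField A) {a : F} (ha : a ∈ 𝔅) (ha0 : a ≠ 0) :
    0 < Zsum hF A 𝔅 ψ a ↔ ∃ P ∈ Zset hF A 𝔅 ψ, 0 < P.ord a := by
  rw [Zsum_eq_sum_toFinset hF A 𝔅 ψ ha0, Finset.sum_pos_iff_of_nonneg]
  · constructor
    · rintro ⟨P, hP, hpos⟩
      rw [Set.Finite.mem_toFinset] at hP
      exact ⟨P, hP.1, hpos⟩
    · rintro ⟨P, hP, hpos⟩
      refine ⟨P, ?_, hpos⟩
      rw [Set.Finite.mem_toFinset]
      exact ⟨hP, hpos.ne'⟩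
  · intro P hP
    rw [Set.Finite.mem_toFinset] at hP
    exact ord_nonneg_of_mem_Zset hF A 𝔅 ψ ha hP.1

/-- (Z3) `Zsum` vanishes iff `a` has no zero among the places reducing to `ψ`. -/
theorem Zsum_eq_zero_iff (hF : IsFF Ω F) (A : ValuationSubring Ω) (𝔅 : Subring F)
    (ψ : 𝔅 →+* IsLocalRing.ResidueField A) {a : F} (ha : a ∈ 𝔅) (ha0 : a ≠ 0) :
    Zsum hF A 𝔅 ψ a = 0 ↔ ∀ P ∈ Zset hF A 𝔅 ψ, P.ord a = 0 := by
  constructor
  · intro h0 P hP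
    by_contra hne
    have hpos : 0 < P.ord a :=
      lt_of_le_of_ne (ord_nonneg_of_mem_Zset hF A 𝔅 ψ ha hP) (Ne.symm hne)
    have := (Zsum_pos_iff hF A 𝔅 ψ ha ha0).mpr ⟨P, hP, hpos⟩
    omega
  · intro h
    rw [Zsum_eq_sum_toFinset hF A 𝔅 ψ ha0]
    apply Finset.sum_eq_zero
    intro P hP
    rw [Set.Finite.mem_toFinset] at hP
    exact h P hP.1

omit [CharZero Ω] in
/-- (Z4) The trivial direction: a zero of `a` at a place reducing to `ψ` forces `ψ a = 0`. -/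
theorem resEv_eq_zero_of_ord_pos (hF : IsFF Ω F) (A : ValuationSubring Ω) (𝔅 : Subring F)
    (ψ : 𝔅 →+* IsLocalRing.ResidueField A) {P : Place Ω F} (hP : P ∈ Zset hF A 𝔅 ψ) {a : F}
    (ha : a ∈ 𝔅) (hpos : 0 < P.ord a) : ψ ⟨a, ha⟩ = 0 := by
  obtain ⟨h, hψ⟩ := hP
  have ha0 : a ≠ 0 := by
    rintro rfl
    rw [Place.ord_zero] at hpos
    exact lt_irrefl _ hpos
  have hmem : a ∈ aInt hF A P := h ha
  have hne : (⟨a, hmem.1⟩ : P.toValuationSubring) ≠ 0 := fun h0 => ha0 (congrArg Subtype.val h0)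
  have hev : ev hF P ⟨a, hmem.1⟩ = 0 := (ev_eq_zero_iff_ord_pos hF P hne).mpr hpos
  rw [← hψ ⟨a, ha⟩, resEv_mk hF A P hmem]
  have hz : (⟨ev hF P ⟨a, hmem.1⟩, hmem.2⟩ : A) = 0 := Subtype.ext hev
  rw [hz, map_zero]

/-- (Z4) If `ψ a ≠ 0` then `a` has no zero among the places reducing to `ψ`. -/
theorem Zsum_eq_zero_of_ne_zero (hF : IsFF Ω F) (A : ValuationSubring Ω) (𝔅 : Subring F)
    (ψ : 𝔅 →+* IsLocalRing.ResidueField A) {a : F} (ha : a ∈ 𝔅) (hψa : ψ ⟨a, ha⟩ ≠ 0) :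
    Zsum hF A 𝔅 ψ a = 0 := by
  have ha0 : a ≠ 0 := by
    rintro rfl
    apply hψa
    have : (⟨0, ha⟩ : 𝔅) = 0 := rfl
    rw [this, map_zero]
  rw [Zsum_eq_zero_iff hF A 𝔅 ψ ha ha0]
  intro P hP
  by_contra hne
  have hpos : 0 < P.ord a :=
    lt_of_le_of_ne (ord_nonneg_of_mem_Zset hF A 𝔅 ψ ha hP) (Ne.symm hne)
  exact hψa (resEv_eq_zero_of_ord_pos hF A 𝔅 ψ hP ha hpos)

end Fermat.Agent.S37
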